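import Fermat.Agent.BAD.H88_WqGal

/-!
# S36, NU-B1 (helper88): the Atkin–Lehner involution `W_Q` on `F_N · Q̄`, `N = M Q`, `(M, Q) = 1`

`a Q + b M = 1`, `W = !![Q a, -b; M Q, Q]`, `det W = Q`.
* `wQ : F_N ≃ₐ[Q̄] F_N` with `wQ (j (q^(d e))) = j (q^(d e'))` for `d ∣ M`, `e e' = Q`;
* `wQ` is an involution and commutes with the coefficientwise action of `Gal(Q̄/ℚ)`.
For `Q = q` prime this is `BAD.H88.wq`; for `Q = q ^ 2` it exchanges the cusps `∞` and `0`-type of
the three-component special fibre.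
-/

set_option autoImplicit false
set_option synthInstance.maxHeartbeats 400000
set_option maxHeartbeats 1000000
set_option linter.unusedSectionVars false
set_option linter.style.haveILetI false

noncomputable section

namespace Fermat.Agent.S36.NU.H88

open Fermat.Agent.S24 Fermat.Agent.BAD.H88 ModularCurve UpperHalfPlane
open scoped MatrixGroups Manifold

/-! ## The matrix `W` -/

/-- The Atkin–Lehner matrix `!![Q a, -b; M Q, Q]`. -/
def WmatQ (Q M : ℕ) (a b : ℤ) : Matrix (Fin 2) (Fin 2) ℤ := !![(Q : ℤ) * a, -b; (M : ℤ) * Q, Q]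

theorem WmatQ_det (Q M : ℕ) (a b : ℤ) (hab : a * Q + b * M = 1) : (WmatQ Q M a b).det = Q := by
  rw [WmatQ, Matrix.det_fin_two_of]
  linear_combination (Q : ℤ) * hab

theorem WmatQ_det_pos (Q M : ℕ) (a b : ℤ) (hab : a * Q + b * M = 1) (hQ : 0 < Q) :
    0 < (WmatQ Q M a b).det := by
  rw [WmatQ_det Q M a b hab]; exact_mod_cast hQ

/-- `diag(d e, 1) W = e • (γ diag(d e', 1))` with `γ ∈ SL₂(ℤ)`, for `M = d d'`, `Q = e e'`. -/
theorem diag_mul_WmatQ (Q M : ℕ) (a b : ℤ) (hab : a * Q + b * M = 1) (d d' e e' : ℕ)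
    (hM : M = d * d') (hQ : Q = e * e') :
    ∃ γ : SL(2, ℤ), (!![((d * e : ℕ) : ℤ), 0; 0, 1] : Matrix (Fin 2) (Fin 2) ℤ) * WmatQ Q M a b
      = (e : ℤ) • (γ.1 * !![((d * e' : ℕ) : ℤ), 0; 0, 1]) := by
  refine ⟨⟨!![(e : ℤ) * a, -(d : ℤ) * b; (d' : ℤ), e'], ?_⟩, ?_⟩
  · rw [Matrix.det_fin_two_of]
    subst hM hQ
    push_cast at hab
    linear_combination hab
  · subst hM hQ
    rw [WmatQ]
    ext i j
    fin_cases i <;> fin_cases j <;>
      simp [Matrix.mul_apply, Fin.sum_univ_two, Matrix.smul_apply] <;> ring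

/-- `j (d e W τ) = j (d e' τ)`. -/
theorem compHol_JA_diagQ (Q M : ℕ) (a b : ℤ) (hab : a * Q + b * M = 1) (hQ0 : 0 < Q)
    (d d' e e' : ℕ) (hd : 0 < d) (he : 0 < e) (he' : 0 < e') (hM : M = d * d') (hQ : Q = e * e') :
    compHol (WmatQ Q M a b) (WmatQ_det_pos Q M a b hab hQ0) (JA !![((d * e : ℕ) : ℤ), 0; 0, 1])
      = JA !![((d * e' : ℕ) : ℤ), 0; 0, 1] := by
  obtain ⟨γ, hγ⟩ := diag_mul_WmatQ Q M a b hab d d' e e' hM hQ
  have h1 : 0 < (γ.1 * !![((d * e' : ℕ) : ℤ), 0; 0, 1]).det := by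
    rw [Matrix.det_mul, γ.2, one_mul]; exact diag_det_pos (d * e') (Nat.mul_pos hd he')
  rw [compHol_JA _ _ _ (diag_det_pos (d * e) (Nat.mul_pos hd he)), hγ,
    JA_smul (e : ℤ) (by exact_mod_cast he) _ h1,
    JA_mul_left γ _ (diag_det_pos (d * e') (Nat.mul_pos hd he'))]

/-! ## The automorphism `wQ` of `F_N` -/

section WQ

variable (N Q M : ℕ) (a b : ℤ) (hN : N = M * Q) (hab : a * Q + b * M = 1) [NeZero N]

include hN hab

theorem coprime_MQ : Nat.Coprime M Q := by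
  have h : IsCoprime (M : ℤ) (Q : ℤ) := ⟨b, a, by linear_combination hab⟩
  exact Nat.isCoprime_iff_coprime.mp h

theorem Q_pos : 0 < Q := by
  rcases Nat.eq_zero_or_pos Q with h | h
  · exfalso; apply NeZero.ne N; rw [hN, h, mul_zero]
  · exact h

theorem MQ_M_pos : 0 < M := by
  rcases Nat.eq_zero_or_pos M with h | h
  · exfalso; apply NeZero.ne N; rw [hN, h, zero_mul]
  · exact h

/-- The divisors of `M Q` are the `d e`, `d ∣ M`, `e ∣ Q`. -/
theorem dvd_casesQ (D : ℕ) (hD : D ∣ N) :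
    ∃ d d' e e', D = d * e ∧ M = d * d' ∧ Q = e * e' := by
  have hcop := coprime_MQ N Q M a b hN hab
  rw [hN] at hD
  have h1 : D = Nat.gcd D M * Nat.gcd D Q := by
    have h2 : Nat.gcd D (M * Q) = D := Nat.gcd_eq_left hD
    rw [← Nat.Coprime.gcd_mul D hcop, h2]
  obtain ⟨d', hd'⟩ := Nat.gcd_dvd_right D M
  obtain ⟨e', he'⟩ := Nat.gcd_dvd_right D Q
  exact ⟨Nat.gcd D M, d', Nat.gcd D Q, e', h1, hd', he'⟩

theorem dvd_of_factors (d d' e e' : ℕ) (hM : M = d * d') (hQ : Q = e * e') : d * e' ∣ N := by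
  rw [hN, hM, hQ]
  exact Nat.mul_dvd_mul (Dvd.intro _ rfl) (Dvd.intro_left _ rfl)

/-- `W` maps the analytic image of `F_N` into itself. -/
theorem compMer_emb_mem_rangeQ (x : FN N) :
    compMer (WmatQ Q M a b) (WmatQ_det_pos Q M a b hab (Q_pos N Q M a b hN hab)) (emb N x)
      ∈ (emb N).range := by
  have hx : x ∈ IntermediateField.adjoin Kbar
      {x : FN N | ∃ (d : ℕ) (_ : NeZero d) (hd : d ∣ N), x = jdF N d hd} := by
    rw [adjoin_jdF]; exact IntermediateField.mem_top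
  induction hx using IntermediateField.adjoin_induction with
  | mem y hy =>
    obtain ⟨D, hD0, hD, rfl⟩ := hy
    rw [emb_jdF, compMer_holToMer]
    obtain ⟨d, d', e, e', rfl, hM, hQ⟩ := dvd_casesQ N Q M a b hN hab D hD
    have hQ0 := Q_pos N Q M a b hN hab
    have hM0 := MQ_M_pos N Q M a b hN hab
    have hd : 0 < d := Nat.pos_of_ne_zero (by rintro rfl; rw [zero_mul] at hM; omega)
    have he : 0 < e := Nat.pos_of_ne_zero (by rintro rfl; rw [zero_mul] at hQ; omega)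
    have he' : 0 < e' := Nat.pos_of_ne_zero (by rintro rfl; rw [mul_zero] at hQ; omega)
    rw [compHol_JA_diagQ Q M a b hab hQ0 d d' e e' hd he he' hM hQ]
    haveI : NeZero (d * e') := ⟨(Nat.mul_pos hd he').ne'⟩
    have hdvd : d * e' ∣ N := dvd_of_factors N Q M a b hN hab d d' e e' hM hQ
    exact ⟨jdF N (d * e') hdvd, emb_jdF N (d * e') hdvd⟩
  | algebraMap c =>
    rw [AlgHom.commutes, AlgHom.commutes]
    exact Subalgebra.algebraMap_mem _ c
  | add y z _ _ hy hz =>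
    rw [map_add, map_add]; exact add_mem hy hz
  | inv y _ hy =>
    rw [map_inv₀, map_inv₀]
    obtain ⟨t, ht⟩ := hy
    exact ⟨t⁻¹, by rw [map_inv₀]; exact congrArg _ ht⟩
  | mul y z _ _ hy hz =>
    rw [map_mul, map_mul]; exact mul_mem hy hz

/-- The Atkin–Lehner involution `W_Q`, as an algebra homomorphism. -/
def wQHom : FN N →ₐ[Kbar] FN N :=
  ((AlgEquiv.ofInjective (emb N) (emb_injective N)).symm.toAlgHom).comp
    (((compMer (WmatQ Q M a b) (WmatQ_det_pos Q M a b hab (Q_pos N Q M a b hN hab))).comp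
      (emb N)).codRestrict (emb N).range (compMer_emb_mem_rangeQ N Q M a b hN hab))

theorem emb_wQHom (x : FN N) :
    emb N (wQHom N Q M a b hN hab x)
      = compMer (WmatQ Q M a b) (WmatQ_det_pos Q M a b hab (Q_pos N Q M a b hN hab))
          (emb N x) := by
  have h := (AlgEquiv.ofInjective (emb N) (emb_injective N)).apply_symm_apply
    ((((compMer (WmatQ Q M a b) (WmatQ_det_pos Q M a b hab (Q_pos N Q M a b hN hab))).comp
      (emb N)).codRestrict (emb N).range (compMer_emb_mem_rangeQ N Q M a b hN hab)) x)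
  exact congrArg Subtype.val h

/-- `wQ (j (q^(d e))) = j (q^(d e'))` for `M = d d'`, `Q = e e'`. -/
theorem wQHom_jdF (d d' e e' : ℕ) (hM : M = d * d') (hQ : Q = e * e') [NeZero (d * e)]
    [NeZero (d * e')] (h1 : d * e ∣ N) (h2 : d * e' ∣ N) :
    wQHom N Q M a b hN hab (jdF N (d * e) h1) = jdF N (d * e') h2 := by
  apply emb_injective N
  have hd : 0 < d := Nat.pos_of_ne_zero (by rintro rfl; exact NeZero.ne (0 * e) (zero_mul e))
  have he : 0 < e := Nat.pos_of_ne_zero (by rintro rfl; exact NeZero.ne (d * 0) (mul_zero d))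
  have he' : 0 < e' := Nat.pos_of_ne_zero (by rintro rfl; exact NeZero.ne (d * 0) (mul_zero d))
  rw [emb_wQHom, emb_jdF, emb_jdF, compMer_holToMer,
    compHol_JA_diagQ Q M a b hab (Q_pos N Q M a b hN hab) d d' e e' hd he he' hM hQ]

/-- `wQ` is an involution. -/
theorem wQHom_comp_self :
    (wQHom N Q M a b hN hab).comp (wQHom N Q M a b hN hab) = AlgHom.id Kbar (FN N) := by
  apply algHom_ext_of_adjoin _ (adjoin_jdF N)
  rintro x ⟨D, hD0, hD, rfl⟩
  rw [AlgHom.comp_apply, AlgHom.id_apply]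
  obtain ⟨d, d', e, e', rfl, hM, hQ⟩ := dvd_casesQ N Q M a b hN hab D hD
  have hQ0 := Q_pos N Q M a b hN hab
  have hd : 0 < d := Nat.pos_of_ne_zero (by rintro rfl; exact NeZero.ne (0 * e) (zero_mul e))
  have he' : 0 < e' := Nat.pos_of_ne_zero (by rintro rfl; rw [mul_zero] at hQ; omega)
  haveI : NeZero (d * e') := ⟨(Nat.mul_pos hd he').ne'⟩
  have hdvd : d * e' ∣ N := dvd_of_factors N Q M a b hN hab d d' e e' hM hQ
  rw [wQHom_jdF N Q M a b hN hab d d' e e' hM hQ hD hdvd,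
    wQHom_jdF N Q M a b hN hab d d' e' e hM (by rw [hQ, mul_comm]) hdvd hD]

theorem wQHom_wQHom (x : FN N) :
    wQHom N Q M a b hN hab (wQHom N Q M a b hN hab x) = x :=
  congrArg (fun f : FN N →ₐ[Kbar] FN N => f x) (wQHom_comp_self N Q M a b hN hab)

/-- **The Atkin–Lehner involution `W_Q`** of `F_N = Q̄(j(q^d) : d ∣ N)`, `N = M Q`, `(M, Q) = 1`. -/
def wQ : FN N ≃ₐ[Kbar] FN N :=
  AlgEquiv.ofAlgHom (wQHom N Q M a b hN hab) (wQHom N Q M a b hN hab)
    (wQHom_comp_self N Q M a b hN hab) (wQHom_comp_self N Q M a b hN hab)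

theorem wQ_apply (x : FN N) : wQ N Q M a b hN hab x = wQHom N Q M a b hN hab x := rfl

theorem wQ_symm : (wQ N Q M a b hN hab).symm = wQ N Q M a b hN hab := by
  ext x
  rfl

theorem wQ_wQ (x : FN N) : wQ N Q M a b hN hab (wQ N Q M a b hN hab x) = x :=
  wQHom_wQHom N Q M a b hN hab x

/-- `wQ (j (q^(d e))) = j (q^(d e'))` for `M = d d'`, `Q = e e'`. -/
theorem wQ_jdF (d d' e e' : ℕ) (hM : M = d * d') (hQ : Q = e * e') [NeZero (d * e)]
    [NeZero (d * e')] (h1 : d * e ∣ N) (h2 : d * e' ∣ N) :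
    wQ N Q M a b hN hab (jdF N (d * e) h1) = jdF N (d * e') h2 :=
  wQHom_jdF N Q M a b hN hab d d' e e' hM hQ h1 h2

/-- Flexible form of `wQ_jdF`. -/
theorem wQ_jdF' (D D' d d' e e' : ℕ) (hD : D = d * e) (hD' : D' = d * e') (hM : M = d * d')
    (hQ : Q = e * e') [NeZero D] [NeZero D'] (h1 : D ∣ N) (h2 : D' ∣ N) :
    wQ N Q M a b hN hab (jdF N D h1) = jdF N D' h2 := by
  subst hD hD'
  exact wQ_jdF N Q M a b hN hab d d' e e' hM hQ h1 h2

/-- `W_Q` permutes the generators. -/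
theorem wQ_gen (x : FN N)
    (hx : x ∈ {x : FN N | ∃ (d : ℕ) (_ : NeZero d) (hd : d ∣ N), x = jdF N d hd}) :
    wQ N Q M a b hN hab x ∈ {x : FN N | ∃ (d : ℕ) (_ : NeZero d) (hd : d ∣ N),
      x = jdF N d hd} := by
  obtain ⟨D, hD0, hD, rfl⟩ := hx
  obtain ⟨d, d', e, e', rfl, hM, hQ⟩ := dvd_casesQ N Q M a b hN hab D hD
  have hQ0 := Q_pos N Q M a b hN hab
  have hd : 0 < d := Nat.pos_of_ne_zero (by rintro rfl; exact NeZero.ne (0 * e) (zero_mul e))
  have he' : 0 < e' := Nat.pos_of_ne_zero (by rintro rfl; rw [mul_zero] at hQ; omega)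
  haveI : NeZero (d * e') := ⟨(Nat.mul_pos hd he').ne'⟩
  have hdvd : d * e' ∣ N := dvd_of_factors N Q M a b hN hab d d' e e' hM hQ
  exact ⟨d * e', inferInstance, hdvd, wQ_jdF N Q M a b hN hab d d' e e' hM hQ hD hdvd⟩

/-- **`W_Q` commutes with the Galois action on coefficients.** -/
theorem wQ_arith (σ : Kbar ≃ₐ[ℚ] Kbar) (x : FN N) :
    wQ N Q M a b hN hab (arithmeticRingAut (modularFunctionFieldFull N) σ x)
      = arithmeticRingAut (modularFunctionFieldFull N) σ (wQ N Q M a b hN hab x) := by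
  have hx : x ∈ IntermediateField.adjoin Kbar
      {x : FN N | ∃ (d : ℕ) (_ : NeZero d) (hd : d ∣ N), x = jdF N d hd} := by
    rw [adjoin_jdF]; exact IntermediateField.mem_top
  induction hx using IntermediateField.adjoin_induction with
  | mem y hy =>
    obtain ⟨D', hD0', hD', hw⟩ := wQ_gen N Q M a b hN hab y hy
    obtain ⟨D, hD0, hD, rfl⟩ := hy
    rw [arith_jdF, hw, arith_jdF]
  | algebraMap c =>
    rw [arithmeticRingAut_algebraMap, AlgEquiv.commutes, AlgEquiv.commutes,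
      arithmeticRingAut_algebraMap]
  | add y z _ _ hy hz => rw [map_add, map_add, map_add, map_add, hy, hz]
  | inv y _ hy => rw [map_inv₀, map_inv₀, map_inv₀, map_inv₀, hy]
  | mul y z _ _ hy hz => rw [map_mul, map_mul, map_mul, map_mul, hy, hz]

/-- `W_Q` does not depend on the choice of `a`, `b`. -/
theorem wQ_eq_of (a' b' : ℤ) (hab' : a' * Q + b' * M = 1) :
    wQ N Q M a b hN hab = wQ N Q M a' b' hN hab' := by
  have h : (wQ N Q M a b hN hab).toAlgHom = (wQ N Q M a' b' hN hab').toAlgHom := by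
    apply algHom_ext_of_adjoin _ (adjoin_jdF N)
    rintro x ⟨D, hD0, hD, rfl⟩
    obtain ⟨d, d', e, e', rfl, hM, hQ⟩ := dvd_casesQ N Q M a b hN hab D hD
    have hd : 0 < d := Nat.pos_of_ne_zero (by rintro rfl; exact NeZero.ne (0 * e) (zero_mul e))
    have hQ0 := Q_pos N Q M a b hN hab
    have he' : 0 < e' := Nat.pos_of_ne_zero (by rintro rfl; rw [mul_zero] at hQ; omega)
    haveI : NeZero (d * e') := ⟨(Nat.mul_pos hd he').ne'⟩
    have hdvd : d * e' ∣ N := dvd_of_factors N Q M a b hN hab d d' e e' hM hQ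
    exact (wQ_jdF N Q M a b hN hab d d' e e' hM hQ hD hdvd).trans
      (wQ_jdF N Q M a' b' hN hab' d d' e e' hM hQ hD hdvd).symm
  apply AlgEquiv.ext
  intro x
  exact congrArg (fun f : FN N →ₐ[Kbar] FN N => f x) h

end WQ

end Fermat.Agent.S36.NU.H88
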