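import Fermat.Agent.S36.NU.H30_RamAbs
import Fermat.Agent.BAD.H91_Cusp
import Fermat.Agent.BAD.H21_CountMod
import Fermat.Agent.RED.H76_IGOrd

/-!
# S36 / NU-B, leaf RAM (helper30): the ramification of `j~` at the non-cuspidal points

`q ∤ M` tame, `A` over `q`, `κ = redM A M` the reduced function field of level `M`, `j~ = jRed`.

Characteristic `0`:
* `ram_exact_of_count` : if all zeros of `x - a` have order `≤ e` and `e · #zeros = [F : K(x)]`,
  then all zeros have order `e`;
* `ram_char0_zero` : `ν₃(M) = 0` ⟹ every zero of `j` has order `3`;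
* `ram_char0_1728` : `ν₂(M) = 0` ⟹ every zero of `j - 1728` has order `2`.

Reduction (helper17's `RedSetup` of level `M`, `ram_abs`, `ram_abs_ge`):
* `ram_red_ge` : if the zeros of `j - ρ` have order `e`, the zeros of `j~ - ρ~` have order `≥ e`
  (all tame `(M, q)`);
* `ram_red_eq` : if moreover `ρ` is the only branch value in its residue class, they have order
  exactly `e`;
* `ram_zero_ge`, `ram_1728_ge` : `3 ≤ ord_z j~`, `2 ≤ ord_z (j~ - 1728)` at the zeros
  (all tame `(M, q)`, `ν₃ = 0` resp. `ν₂ = 0`);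
* `ram_zero_eq`, `ram_1728_eq`, `ram_generic_eq` : for `q ≥ 5`: `ord_z j~ = 3`,
  `ord_z (j~ - 1728) = 2`, `ord_z (j~ - γ) = 1` (`γ ≠ 0, 1728`) at the zeros.
-/

set_option autoImplicit false
set_option linter.style.haveILetI false
set_option linter.unusedSectionVars false
set_option synthInstance.maxHeartbeats 400000
set_option maxHeartbeats 1000000

noncomputable section

open AlgebraicCurve IntermediateField ModularCurve

namespace Fermat.Agent.S36.NU.H30

open Fermat.Agent.S28.H73 Fermat.Agent.RED.H73 Fermat.Agent.RED Fermat.Agent.RED.H34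
  Fermat.Agent.BAD
open Fermat.Agent.S24 (Kbar FN)

section Char0Abs

variable {K F : Type*} [Field K] [Field F] [Algebra K F]

/-- If all zeros of `x - a` have order `≤ e` and `e · #zeros = [F : K(x)]`, then all zeros have
order `e`. -/
theorem ram_exact_of_count [IsAlgClosed K] [CharZero K] (x : F) (hx : Transcendental K x)
    [FiniteDimensional K⟮x⟯ F] (a : K) (e : ℕ)
    (hle : ∀ v : Place K F, v.ord (x - algebraMap K F a) ≤ e)
    (hcount : e * Nat.card {v : Place K F // 0 < v.ord (x - algebraMap K F a)}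
      = Module.finrank K⟮x⟯ F) :
    ∀ v : Place K F, 0 < v.ord (x - algebraMap K F a) → v.ord (x - algebraMap K F a) = e := by
  obtain ⟨Z, hZ, hsum, hcard⟩ := Fermat.Agent.S24.H85.zeros_sub x hx
    (fun y hy hfd => by
      haveI := hfd
      exact Fermat.Agent.S24.ff_zeros y hy) a
  have h1 : ∑ v ∈ Z, v.ord (x - algebraMap K F a) = ∑ _v ∈ Z, (e : ℤ) := by
    rw [hsum, Finset.sum_const, nsmul_eq_mul, hcard, ← hcount]
    push_cast
    ring
  have h2 := (Finset.sum_eq_sum_iff_of_le (fun v _ => hle v)).1 h1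
  intro v hv
  exact h2 v ((hZ v).2 hv)

end Char0Abs

section Char0Mod

variable (M : ℕ) [NeZero M]

theorem ram_one_lt_of_nuThree (h : nuThree M = 0) : 1 < M := by
  by_contra hcon
  have hM1 : M = 1 := le_antisymm (not_lt.mp hcon) (Nat.pos_of_ne_zero (NeZero.ne M))
  rw [hM1, Fermat.Agent.S24.asm_nuThree_one] at h
  exact one_ne_zero h

theorem ram_one_lt_of_nuTwo (h : nuTwo M = 0) : 1 < M := by
  by_contra hcon
  have hM1 : M = 1 := le_antisymm (not_lt.mp hcon) (Nat.pos_of_ne_zero (NeZero.ne M))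
  rw [hM1, Fermat.Agent.S24.asm_nuTwo_one] at h
  exact one_ne_zero h

/-- **Characteristic `0`, `j = 0`**: without elliptic points of order `3` every zero of `j` has
order `3`. -/
theorem ram_char0_zero (h3 : nuThree M = 0) (v : Place Kbar (FN M))
    (hv : 0 < v.ord (jF (L := Kbar) M - algebraMap Kbar (FN M) 0)) :
    v.ord (jF (L := Kbar) M - algebraMap Kbar (FN M) 0) = 3 := by
  have hM := ram_one_lt_of_nuThree M h3
  haveI := Fermat.Agent.RED.H76.finiteDimensional_jF M
  have key := ram_exact_of_count (jF (L := Kbar) M) (Fermat.Agent.RED.H76.transcendental_jF M)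
    0 3 (fun v => by
      rw [map_zero, sub_zero]
      exact_mod_cast Fermat.Agent.RED.H76.ord_jF_le_three' M v) (by
      have h1 := Fermat.Agent.S24.asm_card_zeros_zero (Fermat.Agent.S24.modClosure M) hM
      rw [Fermat.Agent.RED.H76.jF_eq] at h1
      rw [h1, Fermat.Agent.RED.H76.finrank_jF, Fermat.Agent.S24.asm_orb_ST, h3, mul_zero, add_zero])
  exact_mod_cast key v hv

/-- **Characteristic `0`, `j = 1728`**: without elliptic points of order `2` every zero of
`j - 1728` has order `2`. -/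
theorem ram_char0_1728 (h2 : nuTwo M = 0) (v : Place Kbar (FN M))
    (hv : 0 < v.ord (jF (L := Kbar) M - algebraMap Kbar (FN M) 1728)) :
    v.ord (jF (L := Kbar) M - algebraMap Kbar (FN M) 1728) = 2 := by
  have hM := ram_one_lt_of_nuTwo M h2
  haveI := Fermat.Agent.RED.H76.finiteDimensional_jF M
  have key := ram_exact_of_count (jF (L := Kbar) M) (Fermat.Agent.RED.H76.transcendental_jF M)
    1728 2 (fun v => by
      exact_mod_cast Fermat.Agent.RED.H76.ord_jF_sub_1728_le_two' M v) (by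
      have h1 := Fermat.Agent.S24.asm_card_zeros_1728 (Fermat.Agent.S24.modClosure M) hM
      rw [Fermat.Agent.RED.H76.jF_eq] at h1
      rw [h1, Fermat.Agent.RED.H76.finrank_jF, Fermat.Agent.S24.asm_orb_S, h2, add_zero])
  exact_mod_cast key v hv

/-- **Characteristic `0`, generic value**. -/
theorem ram_char0_generic (a : Kbar) (h0 : a ≠ 0) (h1728 : a ≠ 1728) (v : Place Kbar (FN M))
    (hv : 0 < v.ord (jF (L := Kbar) M - algebraMap Kbar (FN M) a)) :
    v.ord (jF (L := Kbar) M - algebraMap Kbar (FN M) a) = 1 := by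
  have := Fermat.Agent.RED.H76.ord_jF_sub_le_one' M a h0 h1728 v
  omega

end Char0Mod

section Red

variable {A : ValuationSubring Kbar} {M q : ℕ} [NeZero M]

/-- The reduction of `j - ρ` is `j~ - ρ~`. -/
theorem ram_rd_sub (hq : q.Prime) (hqM : ¬ q ∣ M) (ht : H91.TameAt M q)
    (hA : A.LiesOverPrime q) (ρ : ↥(redSetting A (hasScale_laurentBaseChange A M)).O) :
    jF (L := Kbar) M - algebraMap Kbar (FN M) (ρ : Kbar) ∈ (H91.seM hq hqM ht hA).V ∧
    (H91.seM hq hqM ht hA).rd (jF (L := Kbar) M - algebraMap Kbar (FN M) (ρ : Kbar))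
      = H91.jRed A M - algebraMap (kV A) ↥(H91.redM A M)
          ((redSetting A (hasScale_laurentBaseChange A M)).resO ρ) := by
  have hj : jF (L := Kbar) M ∈ (H91.seM hq hqM ht hA).V := jF_mem A M
  have hρ : algebraMap Kbar (FN M) (ρ : Kbar) ∈ (H91.seM hq hqM ht hA).V := ρ.2
  refine ⟨(H91.seM hq hqM ht hA).V.sub_mem hj hρ, ?_⟩
  rw [(H91.seM hq hqM ht hA).rd_sub hj hρ, (H91.seM hq hqM ht hA).rd_of_mem hj,
    (H91.seM hq hqM ht hA).rd_of_mem hρ]
  congr 1
  exact (redSetting A (hasScale_laurentBaseChange A M)).red_algebraMap ρ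

/-- `j - ρ` is a Gauss unit. -/
theorem ram_isGU (hq : q.Prime) (hqM : ¬ q ∣ M) (ht : H91.TameAt M q)
    (hA : A.LiesOverPrime q) (ρ : ↥(redSetting A (hasScale_laurentBaseChange A M)).O) :
    (H91.seM hq hqM ht hA).IsGU (jF (L := Kbar) M - algebraMap Kbar (FN M) (ρ : Kbar)) := by
  obtain ⟨h1, h2⟩ := ram_rd_sub hq hqM ht hA ρ
  refine ⟨h1, ?_⟩
  rw [h2]
  intro h0
  obtain ⟨htr, -⟩ := goodChart_pre M q hq hqM A hA
  apply htr
  have e : H91.jRed A M = algebraMap (kV A) ↥(H91.redM A M)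
      ((redSetting A (hasScale_laurentBaseChange A M)).resO ρ) := sub_eq_zero.mp h0
  have e' : (redSetting A (hasScale_laurentBaseChange A M)).red ⟨jF M, jF_mem A M⟩
      = algebraMap (kV A) ↥(H91.redM A M)
        ((redSetting A (hasScale_laurentBaseChange A M)).resO ρ) := e
  rw [e']
  exact isAlgebraic_algebraMap _

/-- No pole of `j - ρ` reduces to a zero of `j~ - ρ~`. -/
theorem ram_reg (hq : q.Prime) (hqM : ¬ q ∣ M) (ht : H91.TameAt M q)
    (hA : A.LiesOverPrime q) (ρ : ↥(redSetting A (hasScale_laurentBaseChange A M)).O)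
    (P : Place Kbar (FN M))
    (hP : 0 < ((H91.seM hq hqM ht hA).r P).ord
      ((H91.seM hq hqM ht hA).rd (jF (L := Kbar) M - algebraMap Kbar (FN M) (ρ : Kbar)))) :
    0 ≤ P.ord (jF (L := Kbar) M - algebraMap Kbar (FN M) (ρ : Kbar)) := by
  rw [(ram_rd_sub hq hqM ht hA ρ).2] at hP
  have h1 : RED.H17.RegAt ((H91.seM hq hqM ht hA).r P) (H91.jRed A M) := by
    have h2 := (RED.H17.regAt_of_ord_nonneg hP.le).add
      (RED.H17.regAt_algebraMap ((H91.seM hq hqM ht hA).r P)
        ((redSetting A (hasScale_laurentBaseChange A M)).resO ρ))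
    rwa [sub_add_cancel] at h2
  have h3 : 0 ≤ (H91.rM hq hqM ht hA P).ord (H91.jRed A M) := h1.ord_nonneg
  have h4 := H91.ord_jF_nonneg_of_rM hq hqM ht hA P h3
  exact ((RED.H17.regAt_of_ord_nonneg h4).sub (RED.H17.regAt_algebraMap P (ρ : Kbar))).ord_nonneg

/-- **RAM, lower bound** (all tame `(M, q)`): if the zeros of `j - ρ` have order `e`, the zeros
of `j~ - ρ~` have order `≥ e`. -/
theorem ram_red_ge (hq : q.Prime) (hqM : ¬ q ∣ M) (ht : H91.TameAt M q)
    (hA : A.LiesOverPrime q) (ρ : ↥(redSetting A (hasScale_laurentBaseChange A M)).O) (e : ℤ)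
    (he : ∀ P : Place Kbar (FN M),
      0 < P.ord (jF (L := Kbar) M - algebraMap Kbar (FN M) (ρ : Kbar)) →
      P.ord (jF (L := Kbar) M - algebraMap Kbar (FN M) (ρ : Kbar)) = e)
    (z : Place (kV A) ↥(H91.redM A M))
    (hz : 0 < z.ord (H91.jRed A M - algebraMap (kV A) ↥(H91.redM A M)
      ((redSetting A (hasScale_laurentBaseChange A M)).resO ρ))) :
    e ≤ z.ord (H91.jRed A M - algebraMap (kV A) ↥(H91.redM A M)
      ((redSetting A (hasScale_laurentBaseChange A M)).resO ρ)) := by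
  haveI : IsAlgClosed (kV A) := isAlgClosed_kV A
  have hFF : IsFF Kbar ↥(FNbar M) := H95.stmt_HKA_isFF M
  have H := RED.H17.ffHyp_of_isFF _ _ hFF
  rw [← (ram_rd_sub hq hqM ht hA ρ).2] at hz ⊢
  exact ram_abs_ge (H91.seM hq hqM ht hA) H.principal (ram_isGU hq hqM ht hA ρ) e he
    (ram_reg hq hqM ht hA ρ) z hz

/-- **RAM** : if the zeros of `j - ρ` have order `e` and `ρ` is the only branch value of `j` in
its residue class, the zeros of `j~ - ρ~` have order exactly `e`. -/
theorem ram_red_eq (hq : q.Prime) (hqM : ¬ q ∣ M) (ht : H91.TameAt M q)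
    (hA : A.LiesOverPrime q) (ρ : ↥(redSetting A (hasScale_laurentBaseChange A M)).O) (e : ℤ)
    (he : ∀ P : Place Kbar (FN M),
      0 < P.ord (jF (L := Kbar) M - algebraMap Kbar (FN M) (ρ : Kbar)) →
      P.ord (jF (L := Kbar) M - algebraMap Kbar (FN M) (ρ : Kbar)) = e)
    (hρ : ∀ ρ' : ↥(redSetting A (hasScale_laurentBaseChange A M)).O,
      IsBranchValue (jF (L := Kbar) M) (ρ' : Kbar) →
      (redSetting A (hasScale_laurentBaseChange A M)).resO ρ'
        = (redSetting A (hasScale_laurentBaseChange A M)).resO ρ → ρ' = ρ)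
    (z : Place (kV A) ↥(H91.redM A M))
    (hz : 0 < z.ord (H91.jRed A M - algebraMap (kV A) ↥(H91.redM A M)
      ((redSetting A (hasScale_laurentBaseChange A M)).resO ρ))) :
    z.ord (H91.jRed A M - algebraMap (kV A) ↥(H91.redM A M)
      ((redSetting A (hasScale_laurentBaseChange A M)).resO ρ)) = e := by
  haveI : IsAlgClosed (kV A) := isAlgClosed_kV A
  have hFF : IsFF Kbar ↥(FNbar M) := H95.stmt_HKA_isFF M
  have hFF' : IsFF (kV A) ↥(H91.redM A M) := H91.isFF_redM hq hqM ht hA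
  have H := RED.H17.ffHyp_of_isFF _ _ hFF
  have H' := RED.H17.ffHyp_of_isFF _ _ hFF'
  have hcard := Fermat.Agent.BAD.H21.H21_fibre_ge M hq hqM A hA ρ hρ
  have hGU := ram_isGU hq hqM ht hA ρ
  have hfin : {Q : Place (kV A) ↥(H91.redM A M) | 0 < Q.ord
      ((H91.seM hq hqM ht hA).rd (jF (L := Kbar) M - algebraMap Kbar (FN M) (ρ : Kbar)))}.Finite :=
    (RED.H17.finite_ord_ne_zero H'.principal _).subset (fun Q hQ => by
      have hQ' : 0 < Q.ord ((H91.seM hq hqM ht hA).rd
        (jF (L := Kbar) M - algebraMap Kbar (FN M) (ρ : Kbar))) := hQ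
      exact hQ'.ne')
  rw [← (ram_rd_sub hq hqM ht hA ρ).2] at hz ⊢
  refine ram_abs (H91.seM hq hqM ht hA) H.principal hGU e he (ram_reg hq hqM ht hA ρ) hfin ?_ z hz
  rw [(ram_rd_sub hq hqM ht hA ρ).2]
  exact hcard

end Red

section Final

variable {A : ValuationSubring Kbar} {M q : ℕ} [NeZero M]

/-- **RAM at `j = 0`, lower bound** (all tame `(M, q)`, `ν₃(M) = 0`). -/
theorem ram_zero_ge (hq : q.Prime) (hqM : ¬ q ∣ M) (ht : H91.TameAt M q)
    (hA : A.LiesOverPrime q) (h3 : nuThree M = 0) (z : Place (kV A) ↥(H91.redM A M))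
    (hz : 0 < z.ord (H91.jRed A M)) : 3 ≤ z.ord (H91.jRed A M) := by
  have key := ram_red_ge hq hqM ht hA 0 3 (fun P hP => ram_char0_zero M h3 P hP) z
  rw [map_zero, map_zero, sub_zero] at key
  exact key hz

/-- **RAM at `j = 1728`, lower bound** (all tame `(M, q)`, `ν₂(M) = 0`). -/
theorem ram_1728_ge (hq : q.Prime) (hqM : ¬ q ∣ M) (ht : H91.TameAt M q)
    (hA : A.LiesOverPrime q) (h2 : nuTwo M = 0) (z : Place (kV A) ↥(H91.redM A M))
    (hz : 0 < z.ord (H91.jRed A M - algebraMap (kV A) ↥(H91.redM A M) 1728)) :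
    2 ≤ z.ord (H91.jRed A M - algebraMap (kV A) ↥(H91.redM A M) 1728) := by
  have key := ram_red_ge hq hqM ht hA 1728 2 (fun P hP => ram_char0_1728 M h2 P hP) z
  rw [map_ofNat] at key
  exact key hz

/-- **RAM at `j = 0`** (`q ≥ 5`, `ν₃(M) = 0`): every zero of `j~` has order `3`. -/
theorem ram_zero_eq (hq : q.Prime) (h5 : 5 ≤ q) (hqM : ¬ q ∣ M) (hA : A.LiesOverPrime q)
    (h3 : nuThree M = 0) (z : Place (kV A) ↥(H91.redM A M))
    (hz : 0 < z.ord (H91.jRed A M)) : z.ord (H91.jRed A M) = 3 := by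
  have key := ram_red_eq hq hqM (Or.inl h5) hA 0 3 (fun P hP => ram_char0_zero M h3 P hP) (by
    intro ρ' hb hres
    rcases Fermat.Agent.RED.H76.isBranchValue_jF M hb with h | h
    · exact Subtype.ext h
    · exfalso
      have : ρ' = 1728 := Subtype.ext h
      rw [this, map_ofNat, map_zero] at hres
      exact Fermat.Agent.BAD.H21.H21_resO_1728_ne_zero hq A hA h5 hres) z
  rw [map_zero, map_zero, sub_zero] at key
  exact key hz

/-- **RAM at `j = 1728`** (`q ≥ 5`, `ν₂(M) = 0`): every zero of `j~ - 1728` has order `2`. -/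
theorem ram_1728_eq (hq : q.Prime) (h5 : 5 ≤ q) (hqM : ¬ q ∣ M) (hA : A.LiesOverPrime q)
    (h2 : nuTwo M = 0) (z : Place (kV A) ↥(H91.redM A M))
    (hz : 0 < z.ord (H91.jRed A M - algebraMap (kV A) ↥(H91.redM A M) 1728)) :
    z.ord (H91.jRed A M - algebraMap (kV A) ↥(H91.redM A M) 1728) = 2 := by
  have key := ram_red_eq hq hqM (Or.inl h5) hA 1728 2 (fun P hP => ram_char0_1728 M h2 P hP) (by
    intro ρ' hb hres
    rcases Fermat.Agent.RED.H76.isBranchValue_jF M hb with h | h
    · exfalso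
      have : ρ' = 0 := Subtype.ext h
      rw [this, map_ofNat, map_zero] at hres
      exact Fermat.Agent.BAD.H21.H21_resO_1728_ne_zero hq A hA h5 hres.symm
    · exact Subtype.ext h) z
  rw [map_ofNat] at key
  exact key hz

/-- **RAM at a generic value** (`q ≥ 5`): every zero of `j~ - γ`, `γ ≠ 0, 1728`, is simple. -/
theorem ram_generic_eq (hq : q.Prime) (h5 : 5 ≤ q) (hqM : ¬ q ∣ M) (hA : A.LiesOverPrime q)
    (γ : kV A) (h0 : γ ≠ 0) (h1728 : γ ≠ 1728) (z : Place (kV A) ↥(H91.redM A M))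
    (hz : 0 < z.ord (H91.jRed A M - algebraMap (kV A) ↥(H91.redM A M) γ)) :
    z.ord (H91.jRed A M - algebraMap (kV A) ↥(H91.redM A M) γ) = 1 := by
  obtain ⟨ρ, rfl⟩ := (redSetting A (hasScale_laurentBaseChange A M)).resO_surj γ
  have hρ0 : (ρ : Kbar) ≠ 0 := by
    intro h
    apply h0
    have : ρ = 0 := Subtype.ext h
    rw [this, map_zero]
  have hρ1 : (ρ : Kbar) ≠ 1728 := by
    intro h
    apply h1728
    have : ρ = 1728 := Subtype.ext h
    rw [this, map_ofNat]
  refine ram_red_eq hq hqM (Or.inl h5) hA ρ 1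
    (fun P hP => ram_char0_generic M (ρ : Kbar) hρ0 hρ1 P hP) ?_ z hz
  intro ρ' hb hres
  exfalso
  rcases Fermat.Agent.RED.H76.isBranchValue_jF M hb with h | h
  · apply h0
    rw [← hres]
    have : ρ' = 0 := Subtype.ext h
    rw [this, map_zero]
  · apply h1728
    rw [← hres]
    have : ρ' = 1728 := Subtype.ext h
    rw [this, map_ofNat]

end Final

section Transport

variable {A : ValuationSubring Kbar} {M q : ℕ} [NeZero M]

/-- Transport: an element of `E = redM A M` with the series of `j` is `j~`. -/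
theorem ram_transport (E : IntermediateField (kV A) (LaurentSeries (kV A)))
    (hE : H91.redM A M = E) (jE : ↥E) (hj : (jE : LaurentSeries (kV A)) = jqModC (kV A))
    (γ : kV A) (e : ℤ)
    (h : ∀ z : Place (kV A) ↥(H91.redM A M),
      0 < z.ord (H91.jRed A M - algebraMap (kV A) ↥(H91.redM A M) γ) →
      e ≤ z.ord (H91.jRed A M - algebraMap (kV A) ↥(H91.redM A M) γ))
    (z : Place (kV A) ↥E) (hz : 0 < z.ord (jE - algebraMap (kV A) ↥E γ)) :
    e ≤ z.ord (jE - algebraMap (kV A) ↥E γ) := by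
  subst hE
  have e1 : jE = H91.jRed A M := Subtype.ext (hj.trans (red_jF (A := A) (N := M)).symm)
  rw [e1] at hz ⊢
  exact h z hz

theorem ram_transport_eq (E : IntermediateField (kV A) (LaurentSeries (kV A)))
    (hE : H91.redM A M = E) (jE : ↥E) (hj : (jE : LaurentSeries (kV A)) = jqModC (kV A))
    (γ : kV A) (e : ℤ)
    (h : ∀ z : Place (kV A) ↥(H91.redM A M),
      0 < z.ord (H91.jRed A M - algebraMap (kV A) ↥(H91.redM A M) γ) →
      z.ord (H91.jRed A M - algebraMap (kV A) ↥(H91.redM A M) γ) = e)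
    (z : Place (kV A) ↥E) (hz : 0 < z.ord (jE - algebraMap (kV A) ↥E γ)) :
    z.ord (jE - algebraMap (kV A) ↥E γ) = e := by
  subst hE
  have e1 : jE = H91.jRed A M := Subtype.ext (hj.trans (red_jF (A := A) (N := M)).symm)
  rw [e1] at hz ⊢
  exact h z hz

/-! ### The statements on `κ = modularFunctionFieldFullC (kV A) M` -/

/-- **RAM at `j = 0`, lower bound**, on `κ` (all tame `(M, q)`, `ν₃(M) = 0`). -/
theorem ram_full_zero_ge (hq : q.Prime) (hqM : ¬ q ∣ M) (ht : H91.TameAt M q)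
    (hA : A.LiesOverPrime q) (h3 : nuThree M = 0)
    (jE : ↥(modularFunctionFieldFullC (kV A) M))
    (hj : (jE : LaurentSeries (kV A)) = jqModC (kV A))
    (z : Place (kV A) ↥(modularFunctionFieldFullC (kV A) M)) (hz : 0 < z.ord jE) :
    3 ≤ z.ord jE := by
  have key := ram_transport (modularFunctionFieldFullC (kV A) M) (stmt_GA M q hq hqM A hA) jE hj
    0 3 (fun z hz => by
      rw [map_zero, sub_zero] at hz ⊢
      exact ram_zero_ge hq hqM ht hA h3 z hz) z
  rw [map_zero, sub_zero] at key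
  exact key hz

/-- **RAM at `j = 1728`, lower bound**, on `κ` (all tame `(M, q)`, `ν₂(M) = 0`). -/
theorem ram_full_1728_ge (hq : q.Prime) (hqM : ¬ q ∣ M) (ht : H91.TameAt M q)
    (hA : A.LiesOverPrime q) (h2 : nuTwo M = 0)
    (jE : ↥(modularFunctionFieldFullC (kV A) M))
    (hj : (jE : LaurentSeries (kV A)) = jqModC (kV A))
    (z : Place (kV A) ↥(modularFunctionFieldFullC (kV A) M))
    (hz : 0 < z.ord (jE - algebraMap (kV A) ↥(modularFunctionFieldFullC (kV A) M) 1728)) :
    2 ≤ z.ord (jE - algebraMap (kV A) ↥(modularFunctionFieldFullC (kV A) M) 1728) :=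
  ram_transport (modularFunctionFieldFullC (kV A) M) (stmt_GA M q hq hqM A hA) jE hj
    1728 2 (fun z hz => ram_1728_ge hq hqM ht hA h2 z hz) z hz

/-- **RAM at `j = 0`**, on `κ` (`q ≥ 5`, `ν₃(M) = 0`): every zero of `j~` has order `3`. -/
theorem ram_full_zero_eq (hq : q.Prime) (h5 : 5 ≤ q) (hqM : ¬ q ∣ M) (hA : A.LiesOverPrime q)
    (h3 : nuThree M = 0) (jE : ↥(modularFunctionFieldFullC (kV A) M))
    (hj : (jE : LaurentSeries (kV A)) = jqModC (kV A))
    (z : Place (kV A) ↥(modularFunctionFieldFullC (kV A) M)) (hz : 0 < z.ord jE) :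
    z.ord jE = 3 := by
  have key := ram_transport_eq (modularFunctionFieldFullC (kV A) M) (stmt_GA M q hq hqM A hA)
    jE hj 0 3 (fun z hz => by
      rw [map_zero, sub_zero] at hz ⊢
      exact ram_zero_eq hq h5 hqM hA h3 z hz) z
  rw [map_zero, sub_zero] at key
  exact key hz

/-- **RAM at `j = 1728`**, on `κ` (`q ≥ 5`, `ν₂(M) = 0`): every zero of `j~ - 1728` has order
`2`. -/
theorem ram_full_1728_eq (hq : q.Prime) (h5 : 5 ≤ q) (hqM : ¬ q ∣ M) (hA : A.LiesOverPrime q)
    (h2 : nuTwo M = 0) (jE : ↥(modularFunctionFieldFullC (kV A) M))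
    (hj : (jE : LaurentSeries (kV A)) = jqModC (kV A))
    (z : Place (kV A) ↥(modularFunctionFieldFullC (kV A) M))
    (hz : 0 < z.ord (jE - algebraMap (kV A) ↥(modularFunctionFieldFullC (kV A) M) 1728)) :
    z.ord (jE - algebraMap (kV A) ↥(modularFunctionFieldFullC (kV A) M) 1728) = 2 :=
  ram_transport_eq (modularFunctionFieldFullC (kV A) M) (stmt_GA M q hq hqM A hA) jE hj
    1728 2 (fun z hz => ram_1728_eq hq h5 hqM hA h2 z hz) z hz

/-- **RAM at a generic value**, on `κ` (`q ≥ 5`): every zero of `j~ - γ`, `γ ≠ 0, 1728`, is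
simple. -/
theorem ram_full_generic_eq (hq : q.Prime) (h5 : 5 ≤ q) (hqM : ¬ q ∣ M)
    (hA : A.LiesOverPrime q) (γ : kV A) (h0 : γ ≠ 0) (h1728 : γ ≠ 1728)
    (jE : ↥(modularFunctionFieldFullC (kV A) M))
    (hj : (jE : LaurentSeries (kV A)) = jqModC (kV A))
    (z : Place (kV A) ↥(modularFunctionFieldFullC (kV A) M))
    (hz : 0 < z.ord (jE - algebraMap (kV A) ↥(modularFunctionFieldFullC (kV A) M) γ)) :
    z.ord (jE - algebraMap (kV A) ↥(modularFunctionFieldFullC (kV A) M) γ) = 1 :=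
  ram_transport_eq (modularFunctionFieldFullC (kV A) M) (stmt_GA M q hq hqM A hA) jE hj
    γ 1 (fun z hz => ram_generic_eq hq h5 hqM hA γ h0 h1728 z hz) z hz

end Transport

end Fermat.Agent.S36.NU.H30
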