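import Fermat.Agent.BAD.H82_Deg

/-!
# S36, NU-B (helper82): degrees in the tower `F_M ⊆ F_{Mq}` when `q ∣ M`

* `dedekindPsi_mul_of_dvd` : `ψ(M q) = q ψ(M)` for a prime `q ∣ M`;
* `relfinrank_FM_FN_of_dvd` : `[F_{Mq} · Q̄ : F_M · Q̄] = q` for a prime `q ∣ M`;
* `relfinrank_sq` : `[F_{M q²} · Q̄ : F_M · Q̄] = q (q + 1)` for a prime `q ∤ M`.
-/

set_option autoImplicit false

noncomputable section

open ModularCurve Fermat.Agent.S24 Fermat.Agent.S28 Fermat.Agent.S28.H73 Fermat.Agent.RED.H73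
open Fermat.Agent.BAD.H88 Fermat.Agent.BAD.H82

namespace Fermat.Agent.S36.NU.H82

/-- `ψ(M q) = q ψ(M)` for a prime `q` dividing `M ≠ 0`. -/
theorem dedekindPsi_mul_of_dvd {q M : ℕ} (hq : q.Prime) (hM : M ≠ 0) (hqM : q ∣ M) :
    dedekindPsi (M * q) = q * dedekindPsi M := by
  obtain ⟨n, M', hM', rfl⟩ := Nat.exists_eq_pow_mul_and_not_dvd hM q hq.ne_one
  have hn : 0 < n := by
    rcases Nat.eq_zero_or_pos n with h0 | h0
    · exfalso
      rw [h0, pow_zero, one_mul] at hqM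
      exact hM' hqM
    · exact h0
  have hcop : ∀ m : ℕ, Nat.Coprime (q ^ m) M' := fun m =>
    Nat.Coprime.pow_left m ((Nat.Prime.coprime_iff_not_dvd hq).mpr hM')
  have e : q ^ n * M' * q = q ^ (n + 1) * M' := by ring
  rw [e, Fermat.Agent.S20.H19.dedekindPsi_mul (hcop (n + 1)),
    Fermat.Agent.S20.H19.dedekindPsi_mul (hcop n),
    Fermat.Agent.S20.H19.dedekindPsi_prime_pow hq (show 0 < n + 1 by omega),
    Fermat.Agent.S20.H19.dedekindPsi_prime_pow hq hn]
  obtain ⟨m, rfl⟩ : ∃ m, n = m + 1 := ⟨n - 1, by omega⟩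
  have e1 : m + 1 + 1 - 1 = m + 1 := by omega
  have e2 : m + 1 - 1 = m := by omega
  rw [e1, e2]
  ring

section Degree

variable (q M : ℕ) [NeZero (M * q)]

/-- `[F_{Mq} · Q̄ : F_M · Q̄] = q` for a prime `q ∣ M`. -/
theorem relfinrank_FM_FN_of_dvd (hq : q.Prime) (hqM : q ∣ M) :
    (modularFunctionFieldBar M).relfinrank (modularFunctionFieldBar (M * q)) = q := by
  have : NeZero M := neZero_of_mul_left q M
  have h1 := relfinrank_bar M
  have h2 := relfinrank_bar (M * q)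
  rw [dedekindPsi_mul_of_dvd hq (NeZero.ne M) hqM] at h2
  have h3 := IntermediateField.relfinrank_mul_relfinrank (adjoin_j_le M) (FM_le q M)
  rw [h1, h2, mul_comm q] at h3
  exact Nat.eq_of_mul_eq_mul_left (Nat.pos_of_ne_zero (dedekindPsi_ne_zero' M)) h3

end Degree

end Fermat.Agent.S36.NU.H82
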