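import Fermat.Agent.S35.H44_DescSt
import Fermat.Agent.S36.H61_B0

/-!
# S36 / NU-B, leaf KD-NU (helper81): the Kummer form `Stmt_NUCore` of (NU) and its level descent

`Stmt_NUCore M q p` (`q ∥ M`, `p ≠ q` primes): there are a valuation ring `A` of `ℚ̄` over `q` and
`c` such that for every `m` and every function `f ≠ 0` of level `M q` with

* `p ^ m ∣ div f`,
* `f` fixed by the inertia group of `A` (coefficientwise action `galF`), leading coefficient `1`,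
* the push-forwards of `div f` along the two degeneracy maps to level `M` are `p ^ m · div g`,
  `p ^ m · div g'`,

the function `f ^ (p ^ c)` is a `p ^ m`-th power in `F_{M q} · ℚ̄`.

* `torsNU_of_nuCore : Stmt_NUCore M q p → Stmt_TorsNU M q p` (Hilbert 90 descent `stmt_NUB0`);
* `nuCore_of_K : Stmt_NUCoreK M q → Stmt_NUCore M q p`: the same with a fixed exponent `K ≠ 0`
  (for instance `K = (q² - 1)²`) and every `n` prime to `q`;
* `nuCore_descend_gen : Stmt_NUCore (r * M) q p → Stmt_NUCore M q p` for `r ∣ 36`, `q ∤ r`, given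
  the base change of the norms `Stmt_NormUpNU` (helper44: `S36/NU/H44_NormBCNU.lean`);
* `nuCore_all`, `torsNU_all`: from the tame levels (`4 ∣ M` for `q` odd, `9 ∣ M` for `q = 2`:
  then `X₀(M / q)` has no elliptic points).
-/

set_option autoImplicit false
set_option linter.style.haveILetI false
set_option linter.unusedSectionVars false
set_option maxHeartbeats 1000000

noncomputable section

namespace Fermat.Agent.S36.NU.H81

open AlgebraicCurve ModularCurve Fermat.Agent.S24 Fermat.Agent.Lib.HeckeComm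
  Fermat.Agent.S36.H44 Fermat.Agent.BAD Fermat.Agent.S35.H89 Fermat.Agent.S35.H44

local notation "Kb" => AlgebraicClosure ℚ

/-- **Kummer form of (NU)** at `(M, q, p)`. -/
def Stmt_NUCore (M q p : ℕ) [NeZero M] [NeZero q] : Prop :=
  q.Prime → q ∣ M → ¬ q ^ 2 ∣ M → p.Prime → q ≠ p →
  ∃ A : ValuationSubring Kb, A.LiesOverPrime q ∧ ∃ c : ℕ,
    ∀ (m : ℕ) (f : ↥(FNbar (M * q))), f ≠ 0 →
      (∀ P : Place Kb ↥(FNbar (M * q)), ((p ^ m : ℕ) : ℤ) ∣ P.ord f) →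
      (∀ σ ∈ A.inertiaSubgroupIn ℚ, galF (M * q) σ • f = f) →
      (f : LaurentSeries Kb).leadingCoeff = 1 →
    ∀ (hα : HeckeAlphaBarIntegral Kb M q) (hβ : HeckeBetaBarIntegral Kb M q)
      (D : Divisor Kb ↥(FNbar (M * q))), (∀ P, D P = P.ord f) →
      (∃ g : ↥(FNbar M), g ≠ 0 ∧ ∀ Q : Place Kb ↥(FNbar M),
        Divisor.pushforwardAlong (heckeAlphaBar Kb M q) hα D Q = (p ^ m : ℕ) * Q.ord g) →
      (∃ g : ↥(FNbar M), g ≠ 0 ∧ ∀ Q : Place Kb ↥(FNbar M),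
        Divisor.pushforwardAlong (heckeBetaBar Kb M q) hβ D Q = (p ^ m : ℕ) * Q.ord g) →
      ∃ t : ↥(FNbar (M * q)), t ^ (p ^ m) = f ^ (p ^ c)

/-- **Kummer form of (NU) with a fixed exponent** `K ≠ 0`, for every `n` prime to `q`. -/
def Stmt_NUCoreK (M q : ℕ) [NeZero M] [NeZero q] : Prop :=
  q.Prime → q ∣ M → ¬ q ^ 2 ∣ M →
  ∃ A : ValuationSubring Kb, A.LiesOverPrime q ∧ ∃ K : ℕ, K ≠ 0 ∧
    ∀ (n : ℕ), ¬ q ∣ n → ∀ (f : ↥(FNbar (M * q))), f ≠ 0 →
      (∀ P : Place Kb ↥(FNbar (M * q)), (n : ℤ) ∣ P.ord f) →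
      (∀ σ ∈ A.inertiaSubgroupIn ℚ, galF (M * q) σ • f = f) →
      (f : LaurentSeries Kb).leadingCoeff = 1 →
    ∀ (hα : HeckeAlphaBarIntegral Kb M q) (hβ : HeckeBetaBarIntegral Kb M q)
      (D : Divisor Kb ↥(FNbar (M * q))), (∀ P, D P = P.ord f) →
      (∃ g : ↥(FNbar M), g ≠ 0 ∧ ∀ Q : Place Kb ↥(FNbar M),
        Divisor.pushforwardAlong (heckeAlphaBar Kb M q) hα D Q = n * Q.ord g) →
      (∃ g : ↥(FNbar M), g ≠ 0 ∧ ∀ Q : Place Kb ↥(FNbar M),
        Divisor.pushforwardAlong (heckeBetaBar Kb M q) hβ D Q = n * Q.ord g) →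
      ∃ t : ↥(FNbar (M * q)), t ^ n = f ^ K

/-- In a field: if `f ^ (a * b)` is an `n`-th power and `b` is prime to `n`, then `f ^ a` is an
`n`-th power. -/
theorem exists_pow_eq_of_coprime {F : Type*} [Field F] (f t : F) (hf : f ≠ 0) (n a b : ℕ)
    (hco : Nat.Coprime b n) (h : t ^ n = f ^ (a * b)) : ∃ s : F, s ^ n = f ^ a := by
  obtain ⟨u, v, huv⟩ : IsCoprime (b : ℤ) (n : ℤ) := Nat.isCoprime_iff_coprime.mpr hco
  refine ⟨t ^ u * f ^ ((a : ℤ) * v), ?_⟩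
  have h' : t ^ (n : ℤ) = f ^ ((a : ℤ) * b) := by
    rw [zpow_natCast, h, ← zpow_natCast]
    push_cast
    rfl
  calc (t ^ u * f ^ ((a : ℤ) * v)) ^ n
      = (t ^ (n : ℤ)) ^ u * f ^ ((a : ℤ) * v * n) := by
        rw [mul_pow, ← zpow_natCast (t ^ u), ← zpow_mul, ← zpow_natCast (f ^ ((a : ℤ) * v)),
          ← zpow_mul, mul_comm u, zpow_mul]
    _ = f ^ ((a : ℤ) * b * u + a * v * n) := by rw [h', ← zpow_mul, ← zpow_add₀ hf]
    _ = f ^ (a : ℤ) := by
        congr 1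
        linear_combination (a : ℤ) * huv
    _ = f ^ a := zpow_natCast f a

/-- **The Kummer form with a fixed exponent implies the `p`-primary Kummer form.** -/
theorem nuCore_of_K (M q p : ℕ) [NeZero M] [NeZero q] (h : Stmt_NUCoreK M q) :
    Stmt_NUCore M q p := by
  intro hq hqM hq2 hp hqp
  obtain ⟨A, hA, K, hK0, hK⟩ := h hq hqM hq2
  -- `K = p ^ c * K'`, `p ∤ K'`
  obtain ⟨c, K', hK', hKeq⟩ := Nat.exists_eq_pow_mul_and_not_dvd hK0 p hp.ne_one
  refine ⟨A, hA, c, ?_⟩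
  intro m f hf0 hdiv hI hlc hα hβ D hD hDα hDβ
  have hqn : ¬ q ∣ p ^ m := by
    intro hd
    have := hq.dvd_of_dvd_pow hd
    exact hqp ((Nat.prime_dvd_prime_iff_eq hq hp).mp this)
  obtain ⟨t, ht⟩ := hK (p ^ m) hqn f hf0 hdiv hI hlc hα hβ D hD hDα hDβ
  rw [hKeq] at ht
  refine exists_pow_eq_of_coprime f t hf0 (p ^ m) (p ^ c) K' ?_ ht
  exact Nat.Coprime.pow_right m ((Nat.Prime.coprime_iff_not_dvd hp).mpr hK').symm

/-- **`Stmt_TorsNU` from the Kummer form** (Hilbert 90 descent B0 of helper61). -/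
theorem torsNU_of_nuCore (M q p : ℕ) [NeZero M] [NeZero q] (hS : Stmt_NUCore M q p) :
    Stmt_TorsNU M q p := by
  intro hq hqM hq2 hp hqp
  obtain ⟨A, hA, c, hc⟩ := hS hq hqM hq2 hp hqp
  refine ⟨A, hA, c, ?_⟩
  intro x hx hnew hI
  obtain ⟨m, hm⟩ := hx
  obtain ⟨D, h, hh0, rfl, hDh, -, hhI, hlc, -⟩ :=
    Fermat.Agent.S36.H61.stmt_NUB0 (M * q) (A.inertiaSubgroupIn ℚ) (p ^ m) x hm hI
  obtain ⟨hpa, hpb⟩ := (isQNew_iff M q _).mp hnew
  have hDα := (pic0Push_mk_eq_zero_iff _ _ _ _ D).mp hpa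
  have hDβ := (pic0Push_mk_eq_zero_iff _ _ _ _ D).mp hpb
  set n : ℕ := p ^ m with hn
  have hn0 : n ≠ 0 := pow_ne_zero _ hp.ne_zero
  have hnZ : (n : ℤ) ≠ 0 := by exact_mod_cast hn0
  -- the divisor of `h`
  set Df : Divisor Kb ↥(FNbar (M * q)) := (n : ℤ) • (D : Divisor Kb ↥(FNbar (M * q))) with hDf
  have hDf' : ∀ P, Df P = P.ord h := by
    intro P
    rw [← hDh P, hDf]
    simp
  have hdiv : ∀ P : Place Kb ↥(FNbar (M * q)), (n : ℤ) ∣ P.ord h :=
    fun P => ⟨_, (hDh P).symm⟩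
  have hpush : ∀ (φ : ↥(FNbar M) →ₐ[Kb] ↥(FNbar (M * q))) (hφ : φ.toRingHom.IsIntegral),
      (Divisor.pushforwardAlong φ hφ (D : Divisor Kb ↥(FNbar (M * q)))).IsPrincipal →
      ∃ g : ↥(FNbar M), g ≠ 0 ∧ ∀ Q : Place Kb ↥(FNbar M),
        Divisor.pushforwardAlong φ hφ Df Q = n * Q.ord g := by
    rintro φ hφ ⟨g, hg0, hg⟩
    refine ⟨g, hg0, fun Q => ?_⟩
    rw [hDf, map_zsmul, Finsupp.smul_apply, smul_eq_mul, hg Q]
  obtain ⟨t, ht⟩ := hc m h hh0 hdiv hhI hlc (alpha_integral M q) (beta_integral M q) Df hDf'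
    (hpush _ _ hDα) (hpush _ _ hDβ)
  have ht0 : t ≠ 0 := by
    rintro rfl
    rw [zero_pow hn0] at ht
    exact pow_ne_zero _ hh0 ht.symm
  rw [← pic0_mk_nsmul, Fermat.Agent.S36.H44.pic0_mk_eq_zero_iff]
  refine ⟨t, ht0, fun P => ?_⟩
  have h1 : (n : ℤ) * P.ord t = (p ^ c : ℕ) * P.ord h := by
    rw [← Fermat.Agent.RED.H17.ord_pow, ← Fermat.Agent.RED.H17.ord_pow, ht]
  rw [← hDh P] at h1
  apply mul_left_cancel₀ hnZ
  rw [h1]
  simp only [AddSubgroup.coe_nsmul, Finsupp.smul_apply, nsmul_eq_mul]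
  push_cast
  ring

/-- **Base change of the norms** along `α` and `β` in the squares `F_M → F_{Mq}`,
`F_{rM} → F_{rMq}` for `q ∣ M`, `q ∤ r` (both degrees are `q`).  Leaf NORM-BC-NU (helper44). -/
def Stmt_NormUpNU : Prop :=
  ∀ (M q r : ℕ) [NeZero M] [NeZero q] [NeZero r], q.Prime → q ∣ M → ¬ q ∣ r →
    (∀ x : FN (M * q), inclLo M r (normAlongHom (heckeAlphaBar Kb M q).toRingHom x)
      = normAlongHom (heckeAlphaBar Kb (r * M) q).toRingHom (inclUp M q r x)) ∧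
    (∀ x : FN (M * q), inclLo M r (normAlongHom (heckeBetaBar Kb M q).toRingHom x)
      = normAlongHom (heckeBetaBar Kb (r * M) q).toRingHom (inclUp M q r x))

/-- **KD-NU**: the Kummer form of (NU) descends from level `r M q` to level `M q`
(`r ∣ 36`, `q ∤ r`). -/
theorem nuCore_descend_gen (hBC : Stmt_NormUpNU) (M q p r : ℕ) [NeZero M] [NeZero q] [NeZero r]
    (hr36 : r ∣ 36) (hqr : ¬ q ∣ r) (h : Stmt_NUCore (r * M) q p) : Stmt_NUCore M q p := by
  intro hq hqM hq2 hp hqp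
  have hqrM : q ∣ r * M := Dvd.dvd.mul_left hqM r
  have hq2rM : ¬ q ^ 2 ∣ r * M := by
    intro hd
    have hco : Nat.Coprime (q ^ 2) r :=
      Nat.Coprime.pow_left 2 ((Nat.Prime.coprime_iff_not_dvd hq).mpr hqr)
    exact hq2 (hco.dvd_of_dvd_mul_left hd)
  obtain ⟨A, hA, c, hc⟩ := h hq hqrM hq2rM hp hqp
  obtain ⟨hbα, hbβ⟩ := hBC M q r hq hqM hqr
  refine ⟨A, hA, c, ?_⟩
  intro m f hf0 hdiv hI hlc hαI hβI D hD hDα hDβ
  obtain ⟨g, hg0, hg⟩ := hDα
  obtain ⟨g', hg'0, hg'⟩ := hDβ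
  set n : ℕ := p ^ m with hn
  have hn0 : 0 < n := pow_pos hp.pos m
  -- the function at the upper level
  have hf'0 : inclUp M q r f ≠ 0 := fun h0 =>
    hf0 ((inclUp M q r).toRingHom.injective (by simpa using h0))
  set f' : FN (r * M * q) := inclUp M q r f with hf'
  have hdiv' : ∀ P' : Place Kb (FN (r * M * q)), (n : ℤ) ∣ P'.ord f' := by
    intro P'
    rw [hf', Place.ord_restrictAlong (inclUp M q r) (inclUp_integral M q r)]
    exact Dvd.dvd.mul_left (hdiv _) _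
  have hI' : ∀ σ ∈ A.inertiaSubgroupIn ℚ, galF (r * M * q) σ • f' = f' := by
    intro σ hσ
    rw [hf', ← inclUp_galF, hI σ hσ]
  have hlc' : (f' : LaurentSeries Kb).leadingCoeff = 1 := by
    rw [hf', coe_inclUp]
    exact hlc
  haveI := hasPrincipalDivisors_FN (r * M * q)
  obtain ⟨D', hD', -⟩ := HasPrincipalDivisors.exists_divisor (K := Kb) f' hf'0
  have hinj : ∀ x : FN M, x ≠ 0 → inclLo M r x ≠ 0 := fun x hx h0 =>
    hx ((inclLo M r).toRingHom.injective (by simpa using h0))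
  obtain ⟨t', ht'⟩ := hc m f' hf'0 hdiv' hI' hlc' (alpha_integral (r * M) q)
    (beta_integral (r * M) q) D' hD'
    ⟨inclLo M r g, hinj g hg0, fun Q' =>
      push_up M q r (heckeAlphaBar Kb M q) (heckeAlphaBar Kb (r * M) q) hαI
        (alpha_integral (r * M) q) hbα n f hf0 D hD g hg D' hD' Q'⟩
    ⟨inclLo M r g', hinj g' hg'0, fun Q' =>
      push_up M q r (heckeBetaBar Kb M q) (heckeBetaBar Kb (r * M) q) hβI
        (beta_integral (r * M) q) hbβ n f hf0 D hD g' hg' D' hD' Q'⟩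
  -- the right hand side at level `M q`
  have hdivR : ∀ P : Place Kb (FN (M * q)), (n : ℤ) ∣ P.ord (f ^ (p ^ c)) := by
    intro P
    rw [Fermat.Agent.RED.H17.ord_pow]
    exact Dvd.dvd.mul_left (hdiv P) _
  have hM36 : r * M * q ∣ 36 * (M * q) := by
    obtain ⟨c, hc⟩ := hr36
    exact ⟨c, by rw [hc]; ring⟩
  refine Fermat.Agent.RED.KD.H22.stmt_KD (M * q) (r * M * q) n (dvd_up M q r) hM36 hn0
    (f ^ (p ^ c)) hdivR ⟨(t' : LaurentSeries Kb), t'.2, ?_⟩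
  have h3 := congrArg (Subtype.val : FN (r * M * q) → LaurentSeries Kb) ht'
  have h4 : ((t' : FN (r * M * q)) : LaurentSeries Kb) ^ n
      = ((f' ^ (p ^ c) : FN (r * M * q)) : LaurentSeries Kb) := h3
  rw [h4, hf', ← map_pow, coe_inclUp]

/-- The **tame levels** for (NU): `4 ∣ M` if `q` is odd, `9 ∣ M` if `q = 2`.  For `M = M' q`,
`q ∤ M'`, the curve `X₀(M')` then has no elliptic points (and at least three cusps). -/
def TameNU (M q : ℕ) : Prop := (q ≠ 2 ∧ 4 ∣ M) ∨ (q = 2 ∧ 9 ∣ M)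

/-- **The Kummer form of (NU) at every `(M, q, p)` from the tame levels.** -/
theorem nuCore_all (hBC : Stmt_NormUpNU) (p : ℕ)
    (h : ∀ (M q : ℕ) [NeZero M] [NeZero q], TameNU M q → Stmt_NUCore M q p)
    (M q : ℕ) [NeZero M] [NeZero q] : Stmt_NUCore M q p := by
  intro hq hqM hq2 hp hqp
  by_cases h2 : q = 2
  · -- auxiliary level `9 M`
    haveI : NeZero 9 := ⟨by norm_num⟩
    refine nuCore_descend_gen hBC M q p 9 (by norm_num) ?_
      (h (9 * M) q (Or.inr ⟨h2, dvd_mul_right 9 M⟩)) hq hqM hq2 hp hqp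
    subst h2
    norm_num
  · -- auxiliary level `4 M`
    haveI : NeZero 4 := ⟨by norm_num⟩
    refine nuCore_descend_gen hBC M q p 4 (by norm_num) ?_
      (h (4 * M) q (Or.inl ⟨h2, dvd_mul_right 4 M⟩)) hq hqM hq2 hp hqp
    intro hd
    have h22 : q ∣ 2 ^ 2 := by simpa using hd
    exact h2 ((Nat.prime_dvd_prime_iff_eq hq Nat.prime_two).mp (hq.dvd_of_dvd_pow h22))

/-- **`Stmt_TorsNU` at every level from the Kummer form at the tame levels.** -/
theorem torsNU_all (hBC : Stmt_NormUpNU) (p : ℕ)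
    (h : ∀ (M q : ℕ) [NeZero M] [NeZero q], TameNU M q → Stmt_NUCore M q p)
    (M q : ℕ) [NeZero M] [NeZero q] : Stmt_TorsNU M q p :=
  torsNU_of_nuCore M q p (nuCore_all hBC p h M q)

end Fermat.Agent.S36.NU.H81
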