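import Fermat.Agent.S36.NU.H44_NormBCNU
import Fermat.Agent.S36.NU.H81_NUCore

/-!
# S36, NU-B, leaf NORM-BC-NU (helper44): `stmt_NormUpNU : H81.Stmt_NormUpNU`
-/

set_option autoImplicit false

noncomputable section

namespace Fermat.Agent.S36.NU.H44

/-- **NORM-BC-NU**: base change of the norms along `α`, `β` from level `M` to level `r M`,
for a prime `q ∣ M`, `q ∤ r`. -/
theorem stmt_NormUpNU : Fermat.Agent.S36.NU.H81.Stmt_NormUpNU := by
  intro M q r _ _ _ hq hqM hqr
  exact ⟨fun x => norm_alpha_up_dvd M q r hq hqM hqr x,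
    fun x => norm_beta_up_dvd M q r hq hqM hqr x⟩

end Fermat.Agent.S36.NU.H44
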