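import Fermat.Agent.S36.NU.H81_NUCore
import Fermat.Agent.S36.NU.H44_NormUpNU
import Fermat.Agent.GTor.H81_TXFinal

/-!
# S36 / NU-B (helper81): everything from the Kummer form at the tame levels

`Stmt_NUCoreTame` : `Stmt_NUCore M q p` for all `p` and all tame `(M, q)` (`4 ∣ M` for `q` odd,
`9 ∣ M` for `q = 2`).  This is the target of the assembly FIN of NU-B.

* `torsNU_final : Stmt_NUCoreTame → ∀ M q p, Stmt_TorsNU M q p` (level descent KD-NU with the base
  change of the norm of helper44);
* `tatePieceNU_of_core : Stmt_NUCoreTame → S35.Stmt_TatePieceNU` (T-X wiring), the second input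
  of `S35.s36_of`.
-/

set_option autoImplicit false

noncomputable section

namespace Fermat.Agent.S36.NU.H81

open Fermat.Agent.S35.H89

/-- **The target of NU-B**: the Kummer form of (NU) at all tame levels. -/
def Stmt_NUCoreTame : Prop :=
  ∀ (p M q : ℕ) [NeZero M] [NeZero q], TameNU M q → Stmt_NUCore M q p

/-- **(NU) at every level.** -/
theorem torsNU_final (h : Stmt_NUCoreTame) (M q p : ℕ) [NeZero M] [NeZero q] :
    Stmt_TorsNU M q p :=
  torsNU_all Fermat.Agent.S36.NU.H44.stmt_NormUpNU p (fun M' q' _ _ ht => h p M' q' ht) M q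

/-- **The Tate piece without inertia invariants**, from the Kummer form at the tame levels. -/
theorem tatePieceNU_of_core (h : Stmt_NUCoreTame) : Fermat.Agent.S35.Stmt_TatePieceNU :=
  Fermat.Agent.GTor.H81.tatePieceNU_final (fun M q p _ _ => torsNU_final h M q p)

end Fermat.Agent.S36.NU.H81
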