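import Fermat.Agent.S36.NU.H10_Core
import Fermat.Agent.S36.NU.H81_NUFinal

/-!
# S36 / NU-B, OUT (helper10): the unconditional outputs of NU-B for the consumers

* `torsNU M q p : S35.H89.Stmt_TorsNU M q p` (PIVOT / PV-GEOM, S59 LL, S45);
* `tatePieceNU : S35.Stmt_TatePieceNU` (S36, S58).
-/

set_option autoImplicit false

namespace Fermat.Agent.S36.NU.H10

/-- **TORS-NU**, unconditionally, at every level. -/
theorem torsNU (M q p : ℕ) [NeZero M] [NeZero q] : Fermat.Agent.S35.H89.Stmt_TorsNU M q p :=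
  Fermat.Agent.S36.NU.H81.torsNU_final nuCoreTame M q p

/-- **The Tate piece of NU**, unconditionally. -/
theorem tatePieceNU : Fermat.Agent.S35.Stmt_TatePieceNU :=
  Fermat.Agent.S36.NU.H81.tatePieceNU_of_core nuCoreTame

end Fermat.Agent.S36.NU.H10
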