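import Fermat.Agent.S36.NU.H17_BranchMod

/-!
# S36, NU-B, (M4) PT-HYPS, part `hnc` (helper22)

`hnc_chart0` : on every component `i` of the chart of `j` the reduction of `j` is not constant
(it is `j̄`, `j̄`, `j̄ ^ q²`, and `j̄` is transcendental over `k`): the hypothesis `hnc` of
`H99.pointData_chart0_of`.
-/

set_option autoImplicit false
set_option synthInstance.maxHeartbeats 400000
set_option maxHeartbeats 1000000
set_option linter.style.haveILetI false
set_option linter.unusedSectionVars false

noncomputable section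

open ModularCurve AlgebraicCurve Polynomial IntermediateField
open Fermat.Agent.S24 Fermat.Agent.BAD.H88 Fermat.Agent.S28 Fermat.Agent.S28.H73
open Fermat.Agent.RED.H73 Fermat.Agent.RED.H17 Fermat.Agent.S36.NU.H88
open Fermat.Agent.S36.NU.H23 Fermat.Agent.S36.NU.H41 Fermat.Agent.S36.NU.H17
open Fermat.Agent.S36.NU.H16 Fermat.Agent.S36.NU.H65 Fermat.Agent.BAD

namespace Fermat.Agent.S36.NU.H22

section Jbar

variable (A : ValuationSubring Kbar) (M : ℕ) [NeZero M]
  {q : ℕ} (hq : q.Prime) (hqM : ¬ q ∣ M) (hA : A.LiesOverPrime q)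

include hq hqM hA in
/-- The reduction of `j` at the good level is transcendental over `k`. -/
theorem transcendental_jbar : Transcendental (kV A) (jbar A M) :=
  (goodChart_pre M q hq hqM A hA).1

include hq hqM hA in
/-- The reduction of `j` at the good level is not a constant. -/
theorem jbar_ne_const (c : kV A) : jbar A M ≠ algebraMap (kV A) (FM A M) c := by
  intro h
  apply transcendental_jbar A M hq hqM hA
  rw [h]
  exact isAlgebraic_algebraMap c

include hq hqM hA in
/-- No positive power of the reduction of `j` is a constant. -/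
theorem jbar_pow_ne_const (n : ℕ) (hn : 0 < n) (c : kV A) :
    jbar A M ^ n ≠ algebraMap (kV A) (FM A M) c := by
  intro h
  have h1 : Transcendental (kV A) (jbar A M ^ n) :=
    (transcendental_jbar A M hq hqM hA).pow hn
  apply h1
  rw [h]
  exact isAlgebraic_algebraMap c

end Jbar

section Hnc

variable (A : ValuationSubring Kbar) (q M : ℕ) (B k : ℤ) (hB : B * M + k * q = 1) (hq : q.Prime)
  [NeZero M] [NeZero q] [NeZero (M * q * q)] (hqM : ¬ q ∣ M) (hA : A.LiesOverPrime q)
  (ht : H91.TameAt M q)

attribute [local instance] algkM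

/-- **`hnc` for the chart of `j`**: the reduction of `j` is not constant on any component. -/
theorem hnc_chart0 :
    ∀ i : Fin 3, ∃ β : (chart0 A q M B k hB hq hqM hA ht).B,
      ∀ c : kV A, (chart0 A q M B k hB hq hqM hA ht).rdB i β
        ≠ algebraMap (kV A) (kap3 (FM A M) (FM A M) i) c := by
  intro i
  refine ⟨⟨j0 A (M * q * q), j0_mem_chart0 A q M B k hB hq hqM hA ht⟩, ?_⟩
  fin_cases i
  · intro c
    have e : (chart0 A q M B k hB hq hqM hA ht).rdB 0
        ⟨j0 A (M * q * q), j0_mem_chart0 A q M B k hB hq hqM hA ht⟩ = jbar A M :=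
      r20_j0_eq A q M hq hqM hA _
    intro h
    exact jbar_ne_const A M hq hqM hA c (e.symm.trans h)
  · intro c
    have e : (chart0 A q M B k hB hq hqM hA ht).rdB 1
        ⟨j0 A (M * q * q), j0_mem_chart0 A q M B k hB hq hqM hA ht⟩ = jbar A M :=
      r11_j0_eq A q M B k hB hq hqM hA _
    intro h
    exact jbar_ne_const A M hq hqM hA c (e.symm.trans h)
  · intro c
    have e : (chart0 A q M B k hB hq hqM hA ht).rdB 2
        ⟨j0 A (M * q * q), j0_mem_chart0 A q M B k hB hq hqM hA ht⟩ = jbar A M ^ q ^ 2 :=
      r02_j0_eq A q M B k hB hq hqM hA _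
    intro h
    exact jbar_pow_ne_const A M hq hqM hA (q ^ 2) (pow_pos hq.pos 2) c (e.symm.trans h)

end Hnc

end Fermat.Agent.S36.NU.H22
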