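import Fermat.Agent.S36.NU.H23_Fix
import Fermat.Agent.BAD.H88_WqGal
import Fermat.Prelude.Def_FLTPrelim_Ramification
import Fermat.Prelude.Def_AlgebraicCurve_Correspondence

/-!
# S36 / NU-B, leaf TOT3-MOD, step 2b (helper23): the inertia-fixed functions `L₀ = F_N^I`

`A` a valuation ring of `ℚ̄`, `I = A.inertiaSubgroupIn ℚ` acting on the coefficients of
`q`-expansions (`arithmeticRingAut`).

* `L0 A N : Subfield (FN N)`, the functions of level `N` fixed by `I` (= with coefficients in
  `K^ur`); `mem_L0_iff`, `mem_L0_iff_coeff`, `jdF_mem_L0`, `const_mem_L0_iff`;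
* for `F_M ≤ F_N`: `inclL0 : L0 A M →+* L0 A N`, the algebra structures `algL0` etc.;
* `finite_L0`, `finrank_L0 : [L0 N : L0 M] = [F_N : F_M]`,
  `norm_L0 : N_{F_N / F_M} g = N_{L0 N / L0 M} g` for `g ∈ L0 N`;
* `const_L0` : the constants of `L0 N` come from `L0 M`.
-/

set_option autoImplicit false
set_option synthInstance.maxHeartbeats 400000
set_option maxHeartbeats 1000000
set_option linter.style.haveILetI false
set_option linter.unusedSectionVars false

noncomputable section

open ModularCurve AlgebraicCurve Fermat.Agent.S24 Fermat.Agent.BAD.H88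

namespace Fermat.Agent.S36.NU.H23

variable (A : ValuationSubring Kbar)

/-- The functions of level `N` fixed by the inertia group of `A`. -/
def L0 (N : ℕ) : Subfield (FN N) where
  carrier := {x | ∀ σ ∈ A.inertiaSubgroupIn ℚ,
    arithmeticRingAut (modularFunctionFieldFull N) σ x = x}
  mul_mem' := fun {x y} hx hy σ hσ => by rw [map_mul, hx σ hσ, hy σ hσ]
  one_mem' := fun σ _ => map_one _
  add_mem' := fun {x y} hx hy σ hσ => by rw [map_add, hx σ hσ, hy σ hσ]
  zero_mem' := fun σ _ => map_zero _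
  neg_mem' := fun {x} hx σ hσ => by rw [map_neg, hx σ hσ]
  inv_mem' := fun x hx σ hσ => by rw [map_inv₀, hx σ hσ]

theorem mem_L0_iff {N : ℕ} (x : FN N) :
    x ∈ L0 A N ↔ ∀ σ ∈ A.inertiaSubgroupIn ℚ,
      arithmeticRingAut (modularFunctionFieldFull N) σ x = x := Iff.rfl

theorem mem_L0_iff_coeffMap {N : ℕ} (x : FN N) :
    x ∈ L0 A N ↔ ∀ σ ∈ A.inertiaSubgroupIn ℚ,
      coeffMap (σ : Kbar →+* Kbar) (x : LaurentSeries Kbar) = (x : LaurentSeries Kbar) := by
  rw [mem_L0_iff]
  refine forall₂_congr fun σ _ => ?_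
  rw [Subtype.ext_iff, coe_arithmeticRingAut_apply]

theorem jdF_mem_L0 (N : ℕ) [NeZero N] (d : ℕ) [NeZero d] (hd : d ∣ N) :
    jdF N d hd ∈ L0 A N := fun σ _ => arith_jdF N d hd σ

theorem const_mem_L0_iff {N : ℕ} (c : Kbar) :
    algebraMap Kbar (FN N) c ∈ L0 A N ↔ ∀ σ ∈ A.inertiaSubgroupIn ℚ, σ c = c := by
  rw [mem_L0_iff]
  refine forall₂_congr fun σ _ => ?_
  rw [arithmeticRingAut_algebraMap]
  exact (algebraMap Kbar (FN N)).injective.eq_iff

/-! ## The tower -/

section Tower

variable {M N : ℕ} (hle : modularFunctionFieldBar M ≤ modularFunctionFieldBar N)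

theorem inclusion_arith (σ : Kbar ≃ₐ[ℚ] Kbar) (x : FN M) :
    IntermediateField.inclusion hle (arithmeticRingAut (modularFunctionFieldFull M) σ x)
      = arithmeticRingAut (modularFunctionFieldFull N) σ (IntermediateField.inclusion hle x) := by
  apply Subtype.ext
  rw [coe_arithmeticRingAut_apply, IntermediateField.coe_inclusion,
    IntermediateField.coe_inclusion, coe_arithmeticRingAut_apply]

theorem inclusion_mem_L0 (x : FN M) (hx : x ∈ L0 A M) :
    IntermediateField.inclusion hle x ∈ L0 A N := fun σ hσ => by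
  rw [← inclusion_arith, hx σ hσ]

/-- The inclusion `L0 M → L0 N`. -/
def inclL0 : ↥(L0 A M) →+* ↥(L0 A N) :=
  ((IntermediateField.inclusion hle).toRingHom.comp (L0 A M).subtype).codRestrict (L0 A N)
    (fun x => inclusion_mem_L0 A hle x.1 x.2)

theorem coe_inclL0 (x : ↥(L0 A M)) :
    ((inclL0 A hle x : ↥(L0 A N)) : FN N) = IntermediateField.inclusion hle (x : FN M) := rfl

/-- `L0 N` as an algebra over `L0 M`. -/
@[reducible] def algL0 : Algebra ↥(L0 A M) ↥(L0 A N) := (inclL0 A hle).toAlgebra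

/-- `F_N` as an algebra over `F_M`. -/
@[reducible] def algF : Algebra (FN M) (FN N) := algebraAlong (IntermediateField.inclusion hle)

/-- `F_N` as an algebra over `L0 M`. -/
@[reducible] def algL0F : Algebra ↥(L0 A M) (FN N) :=
  ((IntermediateField.inclusion hle).toRingHom.comp (L0 A M).subtype).toAlgebra

theorem tower_L0_L0_F :
    @IsScalarTower ↥(L0 A M) ↥(L0 A N) (FN N) (algL0 A hle).toSMul Algebra.toSMul
      (algL0F A hle).toSMul := by
  letI := algL0 A hle
  letI := algL0F A hle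
  exact IsScalarTower.of_algebraMap_eq fun x => rfl

theorem tower_L0_F_F :
    @IsScalarTower ↥(L0 A M) (FN M) (FN N) Algebra.toSMul (algF hle).toSMul
      (algL0F A hle).toSMul := by
  letI := algF hle
  letI := algL0F A hle
  exact IsScalarTower.of_algebraMap_eq fun x => rfl

/-- A subalgebra of `F_N / F_M` which is a field and contains `L0 N` is everything. -/
theorem gen_L0 [NeZero N] :
    letI := algF hle
    ∀ S : Subalgebra (FN M) (FN N), IsField S →
      (∀ x : ↥(L0 A N), algebraMap ↥(L0 A N) (FN N) x ∈ S) → S = ⊤ := by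
  letI := algF hle
  haveI := isScalarTower_along (IntermediateField.inclusion hle)
  intro S hS hL
  have key : ∀ y : FN N, y ∈ IntermediateField.adjoin Kbar
      {x : FN N | ∃ (d : ℕ) (_ : NeZero d) (hd : d ∣ N), x = jdF N d hd} → y ∈ S := by
    intro y hy
    induction hy using IntermediateField.adjoin_induction with
    | mem z hz =>
      obtain ⟨d, hd0, hd, rfl⟩ := hz
      exact hL ⟨jdF N d hd, jdF_mem_L0 A N d hd⟩
    | algebraMap c =>
      rw [IsScalarTower.algebraMap_apply Kbar (FN M) (FN N)]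
      exact S.algebraMap_mem _
    | add y z _ _ hy hz => exact S.add_mem hy hz
    | inv y _ hy =>
      by_cases hy0 : y = 0
      · rw [hy0, inv_zero]; exact S.zero_mem
      · obtain ⟨z, hz⟩ := hS.mul_inv_cancel (a := ⟨y, hy⟩)
          (fun h => hy0 (congrArg Subtype.val h))
        have hz' : y * (z : FN N) = 1 := congrArg Subtype.val hz
        have : y⁻¹ = (z : FN N) := (eq_inv_of_mul_eq_one_right hz').symm
        rw [this]
        exact z.2
    | mul y z _ _ hy hz => exact S.mul_mem hy hz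
  rw [eq_top_iff]
  intro y _
  exact key y (by rw [adjoin_jdF]; exact IntermediateField.mem_top)

variable (hfin : letI := algF hle; Module.Finite (FN M) (FN N))

include hfin in
/-- `L0 N / L0 M` is finite. -/
theorem finite_L0 :
    letI := algL0 A hle
    Module.Finite ↥(L0 A M) ↥(L0 A N) := by
  letI := algL0 A hle
  letI := algF hle
  letI := algL0F A hle
  haveI := tower_L0_L0_F A hle
  haveI := tower_L0_F_F A hle
  haveI : Module.Finite (FN M) (FN N) := hfin
  exact finite_of_fixed (E := FN M) (L := FN N) (E₀ := ↥(L0 A M)) (L₀ := ↥(L0 A N))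
    (G := ↥(A.inertiaSubgroupIn ℚ))
    (fun σ => (arithmeticRingAut (modularFunctionFieldFull M) (σ : Kbar ≃ₐ[ℚ] Kbar)).toRingHom)
    (fun σ => (arithmeticRingAut (modularFunctionFieldFull N) (σ : Kbar ≃ₐ[ℚ] Kbar)).toRingHom)
    (fun σ x => (inclusion_arith hle σ x).symm)
    (fun σ x => x.2 σ σ.2)
    (fun x hx => ⟨⟨x, fun σ hσ => hx ⟨σ, hσ⟩⟩, rfl⟩)

include hfin in
/-- `[L0 N : L0 M] = [F_N : F_M]`. -/
theorem finrank_L0 [NeZero N] :
    (letI := algL0 A hle; Module.finrank ↥(L0 A M) ↥(L0 A N))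
      = (letI := algF hle; Module.finrank (FN M) (FN N)) := by
  letI := algL0 A hle
  letI := algF hle
  letI := algL0F A hle
  haveI := tower_L0_L0_F A hle
  haveI := tower_L0_F_F A hle
  haveI : Module.Finite (FN M) (FN N) := hfin
  exact finrank_of_fixed (E := FN M) (L := FN N) (E₀ := ↥(L0 A M)) (L₀ := ↥(L0 A N))
    (G := ↥(A.inertiaSubgroupIn ℚ))
    (fun σ => (arithmeticRingAut (modularFunctionFieldFull M) (σ : Kbar ≃ₐ[ℚ] Kbar)).toRingHom)
    (fun σ => (arithmeticRingAut (modularFunctionFieldFull N) (σ : Kbar ≃ₐ[ℚ] Kbar)).toRingHom)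
    (fun σ x => (inclusion_arith hle σ x).symm)
    (fun σ x => x.2 σ σ.2)
    (fun x hx => ⟨⟨x, fun σ hσ => hx ⟨σ, hσ⟩⟩, rfl⟩)
    (gen_L0 A hle)

include hfin in
/-- The norm of `F_N / F_M` of an inertia-fixed function is its norm for `L0 N / L0 M`. -/
theorem norm_L0 [NeZero N] (g : ↥(L0 A N)) :
    (letI := algF hle; Algebra.norm (FN M) (g : FN N))
      = ((letI := algL0 A hle; Algebra.norm ↥(L0 A M) g : ↥(L0 A M)) : FN M) := by
  letI := algL0 A hle
  letI := algF hle
  letI := algL0F A hle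
  haveI := tower_L0_L0_F A hle
  haveI := tower_L0_F_F A hle
  haveI : Module.Finite (FN M) (FN N) := hfin
  exact norm_of_fixed (E := FN M) (L := FN N) (E₀ := ↥(L0 A M)) (L₀ := ↥(L0 A N))
    (G := ↥(A.inertiaSubgroupIn ℚ))
    (fun σ => (arithmeticRingAut (modularFunctionFieldFull M) (σ : Kbar ≃ₐ[ℚ] Kbar)).toRingHom)
    (fun σ => (arithmeticRingAut (modularFunctionFieldFull N) (σ : Kbar ≃ₐ[ℚ] Kbar)).toRingHom)
    (fun σ x => (inclusion_arith hle σ x).symm)
    (fun σ x => x.2 σ σ.2)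
    (fun x hx => ⟨⟨x, fun σ hσ => hx ⟨σ, hσ⟩⟩, rfl⟩)
    (gen_L0 A hle) g

/-- The constants of `L0 N` come from `L0 M`. -/
theorem const_L0 (c : ↥(L0 A N))
    (hc : ∃ c' : Kbar, (c : FN N) = algebraMap Kbar (FN N) c') :
    ∃ c₀ : ↥(L0 A M), inclL0 A hle c₀ = c := by
  obtain ⟨c', hc'⟩ := hc
  have h1 : algebraMap Kbar (FN N) c' ∈ L0 A N := hc' ▸ c.2
  have h2 : algebraMap Kbar (FN M) c' ∈ L0 A M :=
    (const_mem_L0_iff A c').mpr ((const_mem_L0_iff A c').mp h1)
  refine ⟨⟨_, h2⟩, Subtype.ext ?_⟩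
  rw [coe_inclL0, hc']
  exact (IntermediateField.inclusion hle).commutes c'

end Tower

end Fermat.Agent.S36.NU.H23
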