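import Mathlib.NumberTheory.RamificationInertia.HilbertTheory

/-!
# S36 NU-B, leaf DVR-UR, part A (helper41): the inertia field is unramified

Complement to Mathlib's `IsDecompositionField.ramificationIdx_eq`: if `E` is the inertia field of
the prime `P` of `L` in the Galois extension `L/K`, then the prime `𝓟E` of `E` below `P` is
unramified over `K`.
-/

set_option autoImplicit false

open MulAction Pointwise Ideal

namespace Fermat.Agent.S36.NU.H41

section

variable (A K L : Type*) {B : Type*} [Field K] [Field L] [Algebra K L] [CommRing A] [CommRing B]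
  [Algebra A B] {p : Ideal A} (P : Ideal B) [P.LiesOver p]

variable [Algebra A K] [IsFractionRing A K] [Algebra A L] [IsScalarTower A K L] [Algebra B L]
  [IsScalarTower A B L] [IsFractionRing B L] [MulSemiringAction Gal(L/K) B]
  [SMulDistribClass Gal(L/K) B L]

variable (E 𝓞E : Type*) [Field E] [Algebra E L] [IsInertiaField K L P E] [CommRing 𝓞E]
  [Algebra 𝓞E E] [IsFractionRing 𝓞E E] [Algebra 𝓞E B] [Algebra 𝓞E L] [IsScalarTower 𝓞E E L]
  [IsScalarTower 𝓞E B L] (𝓟E : Ideal 𝓞E) [hE : P.LiesOver 𝓟E]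

variable [IsGalois K L] [IsDedekindDomain A] [IsDedekindDomain B] [Module.Finite A B]
  [Module.IsTorsionFree A B] [Algebra A 𝓞E] [Module.Finite A 𝓞E] [IsScalarTower A 𝓞E B]
  [IsDedekindDomain 𝓞E] [𝓟E.LiesOver p]

variable [FiniteDimensional K L] [Ring.HasFiniteQuotients A] [𝓟E.IsMaximal] [P.IsMaximal]

include K L E P in
/-- The prime of the inertia field below `P` is unramified over `K`. -/
theorem inertiaField_ramificationIdx_eq (hp : p ≠ ⊥) :
    𝓟E.ramificationIdx A = 1 := by
  have inst₁ : Module.Finite 𝓞E B := Module.Finite.right A 𝓞E B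
  have inst₂ : Module.IsTorsionFree 𝓞E B := by
    rw [Module.isTorsionFree_iff_faithfulSMul]
    apply Algebra.IsAlgebraic.faithfulSMul_tower_top A
  have inst₃ : Module.IsTorsionFree A 𝓞E := Module.IsTorsionFree.of_faithfulSMul _ _ B
  have inst₄ : IsGaloisGroup Gal(L/K) A B := .of_isFractionRing _ _ _ K L
  have inst₅ : IsGaloisGroup (inertia Gal(L/K) P) 𝓞E B := .of_isFractionRing _ _ _ E L
  have h𝓟 : 𝓟E ≠ ⊥ := Ideal.ne_bot_of_liesOver_of_ne_bot hp 𝓟E
  have hpmax : p.IsMaximal := over_def P p ▸ Ideal.IsMaximal.under A P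
  have : Finite (A ⧸ p) := Ring.HasFiniteQuotients.finiteQuotient hp
  have hfq : Ring.HasFiniteQuotients 𝓞E := Ring.HasFiniteQuotients.of_module_finite A 𝓞E
  have : Finite (𝓞E ⧸ 𝓟E) := Ring.HasFiniteQuotients.finiteQuotient h𝓟
  have htower := ramificationIdx_tower (R := A) 𝓟E P
  -- the inertia group of `P` inside the inertia group is everything
  have htop : (P.inertia (inertia Gal(L/K) P)) = ⊤ := by
    rw [eq_top_iff]
    intro σ _
    exact σ.2
  have h1 : Nat.card (inertia Gal(L/K) P) = p.ramificationIdxIn B :=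
    card_inertia_eq_ramificationIdxIn p P
  have h2 : Nat.card (P.inertia (inertia Gal(L/K) P)) = 𝓟E.ramificationIdxIn B :=
    card_inertia_eq_ramificationIdxIn 𝓟E P
  rw [htop, Subgroup.card_top, h1] at h2
  rw [ramificationIdxIn_eq_ramificationIdx p P Gal(L/K),
    ramificationIdxIn_eq_ramificationIdx 𝓟E P (inertia Gal(L/K) P)] at h2
  rw [h2] at htower
  exact (right_eq_mul₀ (ramificationIdx_pos P 𝓞E).ne').1 htower

end

end Fermat.Agent.S36.NU.H41
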