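import Mathlib.RingTheory.DedekindDomain.AdicValuation
import Mathlib.RingTheory.Valuation.ValuationSubring

/-!
# S36 NU-B, leaf DVR-UR, part B (helper41): from adic valuations to a valuation subring

A valuation subring `A` of a field `Ω`, a ring homomorphism `φ : F → Ω` from the fraction field
of a Dedekind domain `R`, a height one prime `v` of `R` whose non-elements are units of `A`:
`v`-adic units of `F` are units of `A`, and if `c` is a `v`-adic uniformiser then the valuation in
`A` of every nonzero element of `F` is an integral power of that of `c`.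
-/

set_option autoImplicit false

open IsDedekindDomain

namespace Fermat.Agent.S36.NU.H41

/-- Abstract transfer: a valuation subring `A` of `Ω`, a ring homomorphism `φ : F → Ω` from the
fraction field `F` of a Dedekind domain `R`, and a height one prime `v` of `R` all of whose
non-elements are units of `A`.  Then elements of `F` which are `v`-adic units are units of `A`. -/
theorem val_eq_one_of_adic_eq_one {R F Ω : Type*} [CommRing R] [IsDedekindDomain R] [Field F]
    [Algebra R F] [IsFractionRing R F] [Field Ω] (φ : F →+* Ω) (A : ValuationSubring Ω)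
    (v : HeightOneSpectrum R)
    (hv : ∀ b : R, b ∉ v.asIdeal → A.valuation (φ (algebraMap R F b)) = 1)
    (y : F) (hy : v.valuation F y = 1) : A.valuation (φ y) = 1 := by
  have hunit : ∀ b : R, v.valuation F (algebraMap R F b) = 1 →
      A.valuation (φ (algebraMap R F b)) = 1 := by
    intro b hb
    rw [HeightOneSpectrum.valuation_eq_one_iff_notMem] at hb
    exact hv b hb
  obtain ⟨n, d, h | h⟩ := HeightOneSpectrum.exists_primeCompl_mul_eq_or_mul_eq (K := F) v y
  · have hd : v.valuation F (algebraMap R F d) = 1 :=
      (HeightOneSpectrum.valuation_eq_one_iff_notMem (v := v)).mpr d.2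
    have hn : v.valuation F (algebraMap R F n) = 1 := by
      rw [← h, map_mul, hy, hd, one_mul]
    have h1 := hunit d hd
    have h2 := hunit n hn
    have h4 := congrArg (fun z => A.valuation (φ z)) h
    simp only [map_mul] at h4
    rw [h1, h2, mul_one] at h4
    exact h4
  · have hd : v.valuation F (algebraMap R F d) = 1 :=
      (HeightOneSpectrum.valuation_eq_one_iff_notMem (v := v)).mpr d.2
    have hn : v.valuation F (algebraMap R F n) = 1 := by
      have := congrArg (v.valuation F) h
      rw [map_mul, hy, hd, one_mul] at this
      exact this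
    have h1 := hunit d hd
    have h2 := hunit n hn
    have h4 := congrArg (fun z => A.valuation (φ z)) h
    simp only [map_mul] at h4
    rw [h1, h2, mul_one] at h4
    exact h4

/-- Abstract transfer, second part: if moreover `c ∈ F` is a `v`-adic uniformiser, the valuation
in `A` of every nonzero element of `F` is an integral power of that of `c`. -/
theorem val_eq_zpow_of_adic {R F Ω : Type*} [CommRing R] [IsDedekindDomain R] [Field F]
    [Algebra R F] [IsFractionRing R F] [Field Ω] (φ : F →+* Ω) (A : ValuationSubring Ω)
    (v : HeightOneSpectrum R)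
    (hv : ∀ b : R, b ∉ v.asIdeal → A.valuation (φ (algebraMap R F b)) = 1)
    (c : F) (hc : v.valuation F c = WithZero.exp (-1 : ℤ))
    (y : F) (hy0 : y ≠ 0) : ∃ k : ℤ, A.valuation (φ y) = A.valuation (φ c) ^ k := by
  have hvy : v.valuation F y ≠ 0 := (Valuation.ne_zero_iff _).mpr hy0
  set k : ℤ := WithZero.log (v.valuation F y) with hk
  have hc0 : c ≠ 0 := by
    rintro rfl
    rw [map_zero] at hc
    exact WithZero.exp_ne_zero hc.symm
  have hy : v.valuation F (y * c ^ k) = 1 := by
    rw [map_mul, map_zpow₀, hc, ← WithZero.exp_log hvy, ← hk, ← WithZero.exp_zsmul,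
      ← WithZero.exp_add]
    simp
  have h1 := val_eq_one_of_adic_eq_one φ A v hv _ hy
  have hφc : φ c ≠ 0 := (map_ne_zero φ).mpr hc0
  refine ⟨-k, ?_⟩
  rw [map_mul, map_zpow₀, map_mul, map_zpow₀] at h1
  rw [zpow_neg]
  exact eq_inv_of_mul_eq_one_left h1

end Fermat.Agent.S36.NU.H41
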