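import Mathlib
import Fermat.Agent.Lib.MinkowskiCore
import Fermat.Agent.Lib.InertiaLift
import Fermat.Agent.S36.NU.H41_DvrUrA
import Fermat.Agent.S36.NU.H41_DvrUrB

/-!
# S36 NU-B, leaf DVR-UR, part C (helper41): elements fixed by inertia have unramified valuation

`A` a valuation subring of `ℚ̄` over the prime `ℓ`.  If `x ∈ ℚ̄`, `x ≠ 0`, is fixed by the inertia
group of `A`, then `|x|_A = |ℓ|_A ^ k` for some integer `k`.  (No normality assumption on the
field generated by `x`: the inertia field of a finite Galois extension is unramified.)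
-/

set_option autoImplicit false

open MulAction Pointwise Ideal
open scoped NumberField

namespace Fermat.Agent.S36.NU.H41

open Fermat.Agent.Lib.Minkowski IsDedekindDomain

attribute [local instance] qbar_isAlgebraic qbar_isAlgClosure qbar_isGalois qbar_normal

/-- Elements of the inertia group of `primeBelow L A` in `Gal(L/ℚ)` lift to the inertia group
of `A`. -/
theorem exists_lift_of_mem_inertia (L : IntermediateField ℚ (AlgebraicClosure ℚ)) [Normal ℚ L]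
    (A : ValuationSubring (AlgebraicClosure ℚ)) (ℓ : ℕ) (hℓ : ℓ.Prime) (hA : A.LiesOverPrime ℓ)
    (τ : L ≃ₐ[ℚ] L) (hτ : τ ∈ (primeBelow L A).inertia (L ≃ₐ[ℚ] L)) :
    ∃ σ ∈ A.inertiaSubgroupIn ℚ, ∀ x : L, ((τ x : L) : AlgebraicClosure ℚ) = σ x := by
  obtain ⟨σ₀, hσ₀⟩ := AlgEquiv.restrictNormalHom_surjective (F := ℚ) (K₁ := L)
    (AlgebraicClosure ℚ) τ
  have hcomm : ∀ x : L, ((τ x : L) : AlgebraicClosure ℚ) = σ₀ (x : AlgebraicClosure ℚ) := by
    intro x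
    rw [← hσ₀]
    exact AlgEquiv.restrictNormal_commutes σ₀ L x
  have key : ∀ x : AlgebraicClosure ℚ, x ∈ L → IsIntegral ℤ x → σ₀ x - x ∈ A.nonunits := by
    intro x hxL hxint
    have hxint' : IsIntegral ℤ (⟨x, hxL⟩ : L) := by
      rw [← isIntegral_algebraMap_iff (FaithfulSMul.algebraMap_injective L (AlgebraicClosure ℚ))]
      exact hxint
    let b : 𝓞 L := ⟨⟨x, hxL⟩, hxint'⟩
    have h1 : τ • b - b ∈ primeBelow L A := hτ b
    rw [mem_primeBelow, map_sub] at h1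
    have h2 : algebraMap (𝓞 L) (AlgebraicClosure ℚ) (τ • b) = σ₀ x := by
      have h3 : algebraMap (𝓞 L) (AlgebraicClosure ℚ) (τ • b)
          = ((τ (⟨x, hxL⟩ : L) : L) : AlgebraicClosure ℚ) := rfl
      rw [h3, hcomm]
    have h4 : algebraMap (𝓞 L) (AlgebraicClosure ℚ) b = x := rfl
    rw [h2, h4] at h1
    exact A.mem_nonunits_iff.mpr h1
  obtain ⟨σ, hσ, hσeq⟩ :=
    Fermat.Agent.Lib.InertiaLift.exists_mem_inertiaSubgroupIn_eqOn ℓ hℓ A hA L σ₀ key
  exact ⟨σ, hσ, fun x => by rw [hcomm, hσeq x x.2]⟩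

/-- The valuation of an inertia-fixed element of a finite normal extension. -/
theorem valuation_eq_zpow_of_mem (L : IntermediateField ℚ (AlgebraicClosure ℚ))
    [FiniteDimensional ℚ L] [Normal ℚ L]
    (A : ValuationSubring (AlgebraicClosure ℚ)) (ℓ : ℕ) (hℓ : ℓ.Prime) (hA : A.LiesOverPrime ℓ)
    (x : AlgebraicClosure ℚ) (hxL : x ∈ L)
    (hfix : ∀ σ ∈ A.inertiaSubgroupIn ℚ, σ x = x) (hx0 : x ≠ 0) :
    ∃ k : ℤ, A.valuation x = A.valuation (ℓ : AlgebraicClosure ℚ) ^ k := by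
  have : NumberField L := ⟨⟩
  have : IsGalois ℚ L := ⟨⟩
  have := primeBelow_isPrime L A
  set P : Ideal (𝓞 L) := primeBelow L A with hP
  let E : IntermediateField ℚ L := FixedPoints.intermediateField (inertia Gal(L/ℚ) P)
  have : NumberField E := ⟨⟩
  have : IsInertiaField ℚ L P E := inferInstance
  have hmem : (ℓ : 𝓞 L) ∈ P := natCast_mem_primeBelow L A ℓ hA
  have hP0 : P ≠ ⊥ := by
    intro h
    rw [h, Ideal.mem_bot] at hmem
    exact hℓ.ne_zero (by exact_mod_cast hmem)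
  have : P.IsMaximal := Ring.DimensionLEOne.maximalOfPrime hP0 inferInstance
  have hp0 : P.under ℤ ≠ ⊥ := by
    intro h
    have : (ℓ : ℤ) ∈ P.under ℤ := by
      rw [Ideal.mem_comap]
      simpa using hmem
    rw [h, Ideal.mem_bot] at this
    exact hℓ.ne_zero (by exact_mod_cast this)
  set 𝓟E : Ideal (𝓞 E) := P.under (𝓞 E) with h𝓟E
  have : 𝓟E.LiesOver (P.under ℤ) := inferInstance
  have h𝓟E0 : 𝓟E ≠ ⊥ := Ideal.ne_bot_of_liesOver_of_ne_bot hp0 𝓟E
  have : 𝓟E.IsMaximal := Ring.DimensionLEOne.maximalOfPrime h𝓟E0 inferInstance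
  have he : 𝓟E.ramificationIdx ℤ = 1 :=
    inertiaField_ramificationIdx_eq ℤ ℚ L P E (𝓞 E) 𝓟E hp0
  -- `ℓ ∈ 𝓟E`, `ℓ ∉ 𝓟E ^ 2`
  have hmemE : (ℓ : 𝓞 E) ∈ 𝓟E := by
    rw [h𝓟E, Ideal.under_def, Ideal.mem_comap, map_natCast]
    exact hmem
  have hspan : (P.under ℤ) ≠ ⊥ := hp0
  have he' : (P.under ℤ).ramificationIdx' 𝓟E = 1 := by
    rw [Ideal.ramificationIdx'_eq_ramificationIdx _ _ hspan, he]
  have hℓp : (ℓ : ℤ) ∈ P.under ℤ := by
    rw [Ideal.mem_comap]
    simpa using hmem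
  have hle : (P.under ℤ).map (algebraMap ℤ (𝓞 E)) ≤ 𝓟E := by
    rw [Ideal.map_le_iff_le_comap]
    exact (Ideal.over_def 𝓟E (P.under ℤ)).le
  have hpeq : P.under ℤ = Ideal.span {(ℓ : ℤ)} := by
    have hmax : (Ideal.span {(ℓ : ℤ)}).IsMaximal :=
      PrincipalIdealRing.isMaximal_of_irreducible
        (Nat.prime_iff_prime_int.mp hℓ).irreducible
    symm
    refine hmax.eq_of_le ?_ ?_
    · exact (Ideal.IsPrime.under ℤ P).ne_top
    · rw [Ideal.span_le]
      rintro _ rfl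
      exact hℓp
  have hnot : (ℓ : 𝓞 E) ∉ 𝓟E ^ 2 := by
    intro h2
    have := (Ideal.ramificationIdx'_ne_one_iff hle).mpr (by
      rw [hpeq, Ideal.map_span, Ideal.span_le]
      rintro _ ⟨_, rfl, rfl⟩
      simpa using h2)
    exact this he'
  -- the height one prime
  set v : HeightOneSpectrum (𝓞 E) := ⟨𝓟E, inferInstance, h𝓟E0⟩ with hv
  have hvℓ : v.valuation E (ℓ : E) = WithZero.exp (-1 : ℤ) := by
    have h0 : v.intValuation (ℓ : 𝓞 E) ≠ 0 := by
      apply HeightOneSpectrum.intValuation_ne_zero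
      exact_mod_cast hℓ.ne_zero
    have h1 : v.intValuation (ℓ : 𝓞 E) ≤ WithZero.exp (-((1 : ℕ) : ℤ)) := by
      rw [HeightOneSpectrum.intValuation_le_pow_iff_mem, pow_one]
      exact hmemE
    have h2 : ¬ v.intValuation (ℓ : 𝓞 E) ≤ WithZero.exp (-((2 : ℕ) : ℤ)) := by
      rw [HeightOneSpectrum.intValuation_le_pow_iff_mem]
      exact hnot
    have hcast : ((ℓ : E)) = algebraMap (𝓞 E) E (ℓ : 𝓞 E) := by simp
    rw [hcast, HeightOneSpectrum.valuation_of_algebraMap]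
    rw [← WithZero.exp_log h0] at h1 h2 ⊢
    rw [WithZero.exp_le_exp] at h1 h2
    congr 1
    push_cast at h1 h2
    omega
  -- the embedding
  let φ : E →+* AlgebraicClosure ℚ := (algebraMap L (AlgebraicClosure ℚ)).comp (algebraMap E L)
  have hunits : ∀ b : 𝓞 E, b ∉ v.asIdeal →
      A.valuation (φ (algebraMap (𝓞 E) E b)) = 1 := by
    intro b hb
    have hb' : algebraMap (𝓞 E) (𝓞 L) b ∉ P := fun h => hb h
    have h1 : φ (algebraMap (𝓞 E) E b)
        = algebraMap (𝓞 L) (AlgebraicClosure ℚ) (algebraMap (𝓞 E) (𝓞 L) b) := rfl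
    rw [h1]
    exact le_antisymm (val_algebraMap_le_one L A _) (not_lt.mp hb')
  -- `x` lies in the inertia field
  have hyE : (⟨x, hxL⟩ : L) ∈ E := by
    rintro ⟨τ, hτ⟩
    obtain ⟨σ, hσ, hστ⟩ := exists_lift_of_mem_inertia L A ℓ hℓ hA τ hτ
    apply Subtype.ext
    show ((τ (⟨x, hxL⟩ : L) : L) : AlgebraicClosure ℚ) = x
    rw [hστ]
    exact hfix σ hσ
  have hy0 : (⟨⟨x, hxL⟩, hyE⟩ : E) ≠ 0 := by
    intro h
    exact hx0 (congrArg (fun z : E => ((z : L) : AlgebraicClosure ℚ)) h)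
  obtain ⟨k, hk⟩ := val_eq_zpow_of_adic φ A v hunits (ℓ : E) hvℓ ⟨⟨x, hxL⟩, hyE⟩ hy0
  refine ⟨k, ?_⟩
  have h1 : φ (⟨⟨x, hxL⟩, hyE⟩ : E) = x := rfl
  have h2 : φ (ℓ : E) = (ℓ : AlgebraicClosure ℚ) := map_natCast φ ℓ
  rw [h1, h2] at hk
  exact hk

end Fermat.Agent.S36.NU.H41
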