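import Mathlib
import Fermat.Agent.S36.NU.H41_DvrUrC

/-!
# S36 NU-B, leaf DVR-UR (helper41): the valuation ring of the inertia field is a DVR with
uniformiser `ℓ`

`A` a valuation subring of `ℚ̄` over the prime `ℓ`, `Kur A` the fixed field of the inertia group
`A.inertiaSubgroupIn ℚ`, `Rur A = A ∩ Kur A` (a valuation subring of `Kur A`).

* `valuation_eq_zpow_of_fixed` : `x ≠ 0` fixed by inertia ⟹ `|x|_A = |ℓ|_A ^ k`, `k : ℤ`.
* `exists_unit_mul_pow` : every nonzero `x ∈ Rur A` is `u * ℓ ^ n` with `u` a unit of `Rur A`.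
* `irreducible_natCast` : `ℓ` is irreducible in `Rur A`.
* `isDiscreteValuationRing_Rur` : `Rur A` is a discrete valuation ring.
* `maximalIdeal_Rur` : its maximal ideal is generated by `ℓ`.
-/

set_option autoImplicit false

open scoped NumberField

namespace Fermat.Agent.S36.NU.H41

open Fermat.Agent.Lib.Minkowski

attribute [local instance] qbar_isAlgebraic qbar_isAlgClosure qbar_isGalois qbar_normal

/-- **DVR-UR, valuation form**: the valuation of a nonzero element of `ℚ̄` fixed by the inertia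
group of `A` is an integral power of the valuation of `ℓ`. -/
theorem valuation_eq_zpow_of_fixed (A : ValuationSubring (AlgebraicClosure ℚ)) (ℓ : ℕ)
    (hℓ : ℓ.Prime) (hA : A.LiesOverPrime ℓ) (x : AlgebraicClosure ℚ)
    (hfix : ∀ σ ∈ A.inertiaSubgroupIn ℚ, σ x = x) (hx0 : x ≠ 0) :
    ∃ k : ℤ, A.valuation x = A.valuation (ℓ : AlgebraicClosure ℚ) ^ k := by
  classical
  set S : Set (AlgebraicClosure ℚ) := (minpoly ℚ x).rootSet (AlgebraicClosure ℚ) with hS
  have hSfin : S.Finite := Polynomial.rootSet_finite _ _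
  have hxint : IsIntegral ℚ x := Algebra.IsIntegral.isIntegral x
  have hxS : x ∈ S := by
    rw [hS, Polynomial.mem_rootSet]
    exact ⟨minpoly.ne_zero hxint, minpoly.aeval ℚ x⟩
  have hstab : ∀ σ : AlgebraicClosure ℚ ≃ₐ[ℚ] AlgebraicClosure ℚ, ∀ y ∈ S, σ y ∈ S := by
    intro σ y hy
    rw [hS, Polynomial.mem_rootSet] at hy ⊢
    refine ⟨hy.1, ?_⟩
    rw [Polynomial.aeval_algEquiv, AlgHom.coe_comp, Function.comp_apply, hy.2]
    exact map_zero _
  let L : IntermediateField ℚ (AlgebraicClosure ℚ) := IntermediateField.adjoin ℚ S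
  have hfin : FiniteDimensional ℚ L := by
    have : Finite S := hSfin
    exact IntermediateField.finiteDimensional_adjoin
      (fun x _ => Algebra.IsIntegral.isIntegral x)
  have hnorm' : @Normal ℚ L _ _ (IntermediateField.algebra' L) := by
    rw [IntermediateField.normal_iff_forall_map_le']
    intro σ
    rw [IntermediateField.adjoin_map, IntermediateField.adjoin_le_iff]
    rintro _ ⟨y, hy, rfl⟩
    exact IntermediateField.subset_adjoin ℚ S (hstab σ y hy)
  have hnorm : Normal ℚ L := by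
    convert hnorm'
    exact Subsingleton.elim _ _
  exact valuation_eq_zpow_of_mem L A ℓ hℓ hA x (IntermediateField.subset_adjoin ℚ S hxS)
    hfix hx0

/-- The inertia field of `A`. -/
noncomputable def Kur (A : ValuationSubring (AlgebraicClosure ℚ)) :
    IntermediateField ℚ (AlgebraicClosure ℚ) :=
  IntermediateField.fixedField (A.inertiaSubgroupIn ℚ)

theorem mem_Kur {A : ValuationSubring (AlgebraicClosure ℚ)} {x : AlgebraicClosure ℚ} :
    x ∈ Kur A ↔ ∀ σ ∈ A.inertiaSubgroupIn ℚ, σ x = x := by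
  rw [Kur, IntermediateField.mem_fixedField_iff]

/-- The valuation ring of the inertia field. -/
noncomputable def Rur (A : ValuationSubring (AlgebraicClosure ℚ)) : ValuationSubring (Kur A) :=
  A.comap (algebraMap (Kur A) (AlgebraicClosure ℚ))

theorem mem_Rur {A : ValuationSubring (AlgebraicClosure ℚ)} {y : Kur A} :
    y ∈ Rur A ↔ A.valuation (y : AlgebraicClosure ℚ) ≤ 1 := by
  rw [Rur, ValuationSubring.mem_comap, ← A.valuation_le_one_iff]
  rfl

/-- Valuation of elements of the inertia field. -/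
theorem valuation_eq_zpow_of_Kur (A : ValuationSubring (AlgebraicClosure ℚ)) (ℓ : ℕ)
    (hℓ : ℓ.Prime) (hA : A.LiesOverPrime ℓ) (y : Kur A) (hy0 : y ≠ 0) :
    ∃ k : ℤ, A.valuation (y : AlgebraicClosure ℚ) = A.valuation (ℓ : AlgebraicClosure ℚ) ^ k :=
  valuation_eq_zpow_of_fixed A ℓ hℓ hA y (mem_Kur.1 y.2)
    (fun h => hy0 (Subtype.ext h))

theorem val_natCast_lt_one (A : ValuationSubring (AlgebraicClosure ℚ)) (ℓ : ℕ)
    (hA : A.LiesOverPrime ℓ) : A.valuation (ℓ : AlgebraicClosure ℚ) < 1 :=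
  A.mem_nonunits_iff.mp hA

theorem val_natCast_ne_zero (A : ValuationSubring (AlgebraicClosure ℚ)) (ℓ : ℕ)
    (hℓ : ℓ.Prime) : A.valuation (ℓ : AlgebraicClosure ℚ) ≠ 0 :=
  (Valuation.ne_zero_iff _).mpr (by exact_mod_cast hℓ.ne_zero)

/-- Units of `Rur A`. -/
theorem isUnit_Rur_iff {A : ValuationSubring (AlgebraicClosure ℚ)} (y : Rur A) :
    IsUnit y ↔ A.valuation (((y : Kur A)) : AlgebraicClosure ℚ) = 1 := by
  constructor
  · rintro ⟨u, rfl⟩
    have h1 : A.valuation ((((u : Rur A) : Kur A)) : AlgebraicClosure ℚ) ≤ 1 :=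
      mem_Rur.1 (u : Rur A).2
    have h2 : A.valuation (((((u⁻¹ : (Rur A)ˣ) : Rur A) : Kur A)) : AlgebraicClosure ℚ) ≤ 1 :=
      mem_Rur.1 ((u⁻¹ : (Rur A)ˣ) : Rur A).2
    have h3 : ((((u : Rur A) : Kur A)) : AlgebraicClosure ℚ)
        * (((((u⁻¹ : (Rur A)ˣ) : Rur A) : Kur A)) : AlgebraicClosure ℚ) = 1 := by
      have h := u.mul_inv
      exact congrArg (fun z : Rur A => (((z : Kur A)) : AlgebraicClosure ℚ)) h
    have h4 := congrArg A.valuation h3
    rw [map_mul, map_one] at h4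
    refine le_antisymm h1 ?_
    by_contra hlt
    rw [not_le] at hlt
    have : A.valuation ((((u : Rur A) : Kur A)) : AlgebraicClosure ℚ)
        * A.valuation (((((u⁻¹ : (Rur A)ˣ) : Rur A) : Kur A)) : AlgebraicClosure ℚ) < 1 :=
      mul_lt_one_of_lt_of_le hlt h2
    rw [h4] at this
    exact lt_irrefl _ this
  · intro h
    have hy0 : (y : Kur A) ≠ 0 := by
      intro h0
      rw [h0] at h
      simp at h
    have hinv : ((y : Kur A))⁻¹ ∈ Rur A := by
      rw [mem_Rur]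
      push_cast
      rw [map_inv₀, h, inv_one]
    refine ⟨⟨y, ⟨_, hinv⟩, ?_, ?_⟩, rfl⟩
    · apply Subtype.ext
      show (y : Kur A) * ((y : Kur A))⁻¹ = 1
      exact mul_inv_cancel₀ hy0
    · apply Subtype.ext
      show ((y : Kur A))⁻¹ * (y : Kur A) = 1
      exact inv_mul_cancel₀ hy0

/-- Every nonzero element of `Rur A` is a unit times a power of `ℓ`. -/
theorem exists_unit_mul_pow (A : ValuationSubring (AlgebraicClosure ℚ)) (ℓ : ℕ)
    (hℓ : ℓ.Prime) (hA : A.LiesOverPrime ℓ) (x : Rur A) (hx : x ≠ 0) :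
    ∃ (n : ℕ) (u : (Rur A)ˣ), x = u * (ℓ : Rur A) ^ n := by
  have hx0 : (x : Kur A) ≠ 0 := fun h => hx (Subtype.ext h)
  obtain ⟨k, hk⟩ := valuation_eq_zpow_of_Kur A ℓ hℓ hA (x : Kur A) hx0
  have hlt := val_natCast_lt_one A ℓ hA
  have hne := val_natCast_ne_zero A ℓ hℓ
  have hxle : A.valuation (((x : Kur A)) : AlgebraicClosure ℚ) ≤ 1 := mem_Rur.1 x.2
  have hk0 : 0 ≤ k := by
    by_contra hneg
    rw [not_le] at hneg
    have h1 : 1 < A.valuation (ℓ : AlgebraicClosure ℚ) ^ k := by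
      obtain ⟨m, rfl⟩ : ∃ m : ℕ, k = -((m : ℤ) + 1) := ⟨(-k - 1).toNat, by omega⟩
      rw [zpow_neg, ← Nat.cast_succ, zpow_natCast]
      rw [one_lt_inv₀ (pow_pos (zero_lt_iff.mpr hne) _)]
      exact pow_lt_one₀ zero_le hlt (Nat.succ_ne_zero m)
    rw [← hk] at h1
    exact absurd hxle (not_le.mpr h1)
  obtain ⟨n, rfl⟩ := Int.eq_ofNat_of_zero_le hk0
  rw [zpow_natCast] at hk
  have hℓK : ((ℓ : Kur A)) ≠ 0 := by exact_mod_cast hℓ.ne_zero
  set u₀ : Kur A := (x : Kur A) * ((ℓ : Kur A) ^ n)⁻¹ with hu₀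
  have hu₀v : A.valuation ((u₀ : Kur A) : AlgebraicClosure ℚ) = 1 := by
    rw [hu₀]
    push_cast
    rw [map_mul, map_inv₀, map_pow, hk]
    exact mul_inv_cancel₀ (pow_ne_zero _ hne)
  have hu₀R : u₀ ∈ Rur A := mem_Rur.2 hu₀v.le
  have hunit : IsUnit (⟨u₀, hu₀R⟩ : Rur A) := (isUnit_Rur_iff _).2 hu₀v
  refine ⟨n, hunit.unit, ?_⟩
  apply Subtype.ext
  show (x : Kur A) = u₀ * (ℓ : Kur A) ^ n
  rw [hu₀, mul_assoc, inv_mul_cancel₀ (pow_ne_zero _ hℓK), mul_one]

/-- `ℓ` is irreducible in `Rur A`. -/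
theorem irreducible_natCast (A : ValuationSubring (AlgebraicClosure ℚ)) (ℓ : ℕ)
    (hℓ : ℓ.Prime) (hA : A.LiesOverPrime ℓ) : Irreducible (ℓ : Rur A) := by
  have hlt := val_natCast_lt_one A ℓ hA
  have hne := val_natCast_ne_zero A ℓ hℓ
  have hℓR : ((ℓ : Rur A)) ≠ 0 := by exact_mod_cast hℓ.ne_zero
  have hval : A.valuation ((((ℓ : Rur A) : Kur A)) : AlgebraicClosure ℚ)
      = A.valuation (ℓ : AlgebraicClosure ℚ) := by
    push_cast
    rfl
  refine ⟨?_, ?_⟩
  · rw [isUnit_Rur_iff, hval]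
    exact hlt.ne
  · intro a b hab
    have ha0 : a ≠ 0 := by
      rintro rfl
      rw [zero_mul] at hab
      exact hℓR hab
    have hb0 : b ≠ 0 := by
      rintro rfl
      rw [mul_zero] at hab
      exact hℓR hab
    obtain ⟨i, u, rfl⟩ := exists_unit_mul_pow A ℓ hℓ hA a ha0
    obtain ⟨j, w, rfl⟩ := exists_unit_mul_pow A ℓ hℓ hA b hb0
    have h1 : A.valuation ((((ℓ : Rur A) : Kur A)) : AlgebraicClosure ℚ)
        = A.valuation (((((u : Rur A) * (ℓ : Rur A) ^ i * ((w : Rur A) * (ℓ : Rur A) ^ j)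
            : Rur A) : Kur A)) : AlgebraicClosure ℚ) :=
      congrArg (fun z : Rur A => A.valuation (((z : Kur A)) : AlgebraicClosure ℚ)) hab
    have hu : A.valuation ((((u : Rur A) : Kur A)) : AlgebraicClosure ℚ) = 1 :=
      (isUnit_Rur_iff _).1 u.isUnit
    have hw : A.valuation ((((w : Rur A) : Kur A)) : AlgebraicClosure ℚ) = 1 :=
      (isUnit_Rur_iff _).1 w.isUnit
    have h2 : (((((u : Rur A) * (ℓ : Rur A) ^ i * ((w : Rur A) * (ℓ : Rur A) ^ j)
            : Rur A) : Kur A)) : AlgebraicClosure ℚ)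
        = ((((u : Rur A) : Kur A)) : AlgebraicClosure ℚ) * (ℓ : AlgebraicClosure ℚ) ^ i
          * (((((w : Rur A) : Kur A)) : AlgebraicClosure ℚ) * (ℓ : AlgebraicClosure ℚ) ^ j) := by
      push_cast
      rfl
    rw [hval, h2, map_mul, map_mul, map_mul, map_pow, map_pow, hu, hw, one_mul, one_mul,
      ← pow_add] at h1
    have hpos : 0 < A.valuation (ℓ : AlgebraicClosure ℚ) := zero_lt_iff.mpr hne
    have hij : i + j = 1 := by
      rcases Nat.lt_trichotomy (i + j) 1 with h | h | h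
      · have h0 : i + j = 0 := by omega
        rw [h0, pow_zero] at h1
        exact absurd h1 hlt.ne
      · exact h
      · exfalso
        have h3 : A.valuation (ℓ : AlgebraicClosure ℚ) ^ (i + j)
            < A.valuation (ℓ : AlgebraicClosure ℚ) ^ 1 :=
          pow_lt_pow_right_of_lt_one₀ hpos hlt h
        rw [pow_one, ← h1] at h3
        exact lt_irrefl _ h3
    rcases Nat.eq_zero_or_pos i with hi | hi
    · left
      rw [hi, pow_zero, mul_one]
      exact u.isUnit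
    · right
      have hj : j = 0 := by omega
      rw [hj, pow_zero, mul_one]
      exact w.isUnit

/-- `Rur A` has the unit-times-power-of-`ℓ` factorisation property. -/
theorem hasUnitMulPow_Rur (A : ValuationSubring (AlgebraicClosure ℚ)) (ℓ : ℕ)
    (hℓ : ℓ.Prime) (hA : A.LiesOverPrime ℓ) :
    IsDiscreteValuationRing.HasUnitMulPowIrreducibleFactorization (Rur A) := by
  refine ⟨(ℓ : Rur A), irreducible_natCast A ℓ hℓ hA, ?_⟩
  intro x hx
  obtain ⟨n, u, rfl⟩ := exists_unit_mul_pow A ℓ hℓ hA x hx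
  refine ⟨n, ?_⟩
  rw [mul_comm]
  exact ⟨u, rfl⟩

/-- **DVR-UR**: the valuation ring of the inertia field is a discrete valuation ring. -/
theorem isDiscreteValuationRing_Rur (A : ValuationSubring (AlgebraicClosure ℚ)) (ℓ : ℕ)
    (hℓ : ℓ.Prime) (hA : A.LiesOverPrime ℓ) : IsDiscreteValuationRing (Rur A) :=
  IsDiscreteValuationRing.ofHasUnitMulPowIrreducibleFactorization (hasUnitMulPow_Rur A ℓ hℓ hA)

/-- **DVR-UR**: the maximal ideal of the valuation ring of the inertia field is generated by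
`ℓ`. -/
theorem maximalIdeal_Rur (A : ValuationSubring (AlgebraicClosure ℚ)) (ℓ : ℕ)
    (hℓ : ℓ.Prime) (hA : A.LiesOverPrime ℓ) :
    IsLocalRing.maximalIdeal (Rur A) = Ideal.span {(ℓ : Rur A)} := by
  have := isDiscreteValuationRing_Rur A ℓ hℓ hA
  exact (IsDiscreteValuationRing.irreducible_iff_uniformizer _).1 (irreducible_natCast A ℓ hℓ hA)

end Fermat.Agent.S36.NU.H41

namespace Fermat.Agent.S36.NU.H41

/-- Membership in the maximal ideal of `Rur A`. -/
theorem mem_maximalIdeal_Rur {A : ValuationSubring (AlgebraicClosure ℚ)} (y : Rur A) :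
    y ∈ IsLocalRing.maximalIdeal (Rur A) ↔
      A.valuation (((y : Kur A)) : AlgebraicClosure ℚ) < 1 := by
  rw [IsLocalRing.mem_maximalIdeal, mem_nonunits_iff, isUnit_Rur_iff]
  have hle : A.valuation (((y : Kur A)) : AlgebraicClosure ℚ) ≤ 1 := mem_Rur.1 y.2
  exact ⟨fun h => lt_of_le_of_ne hle h, fun h => h.ne⟩

/-- An element of the inertia field is `ℓ ^ k` times a unit of `Rur A`. -/
theorem exists_unit_mul_zpow (A : ValuationSubring (AlgebraicClosure ℚ)) (ℓ : ℕ)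
    (hℓ : ℓ.Prime) (hA : A.LiesOverPrime ℓ) (y : Kur A) (hy0 : y ≠ 0) :
    ∃ (k : ℤ) (u : (Rur A)ˣ), y = ((u : Rur A) : Kur A) * (ℓ : Kur A) ^ k := by
  obtain ⟨k, hk⟩ := valuation_eq_zpow_of_Kur A ℓ hℓ hA y hy0
  have hne := val_natCast_ne_zero A ℓ hℓ
  have hℓK : ((ℓ : Kur A)) ≠ 0 := by exact_mod_cast hℓ.ne_zero
  set u₀ : Kur A := y * ((ℓ : Kur A) ^ k)⁻¹ with hu₀
  have hcoe : ((((ℓ : Kur A) ^ k : Kur A)) : AlgebraicClosure ℚ)
      = (ℓ : AlgebraicClosure ℚ) ^ k := by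
    have h := map_zpow₀ (algebraMap (Kur A) (AlgebraicClosure ℚ)) (ℓ : Kur A) k
    rw [map_natCast] at h
    exact h
  have hu₀v : A.valuation ((u₀ : Kur A) : AlgebraicClosure ℚ) = 1 := by
    rw [hu₀]
    push_cast
    rw [map_mul, map_inv₀, hcoe, map_zpow₀, hk]
    exact mul_inv_cancel₀ (zpow_ne_zero _ hne)
  have hu₀R : u₀ ∈ Rur A := mem_Rur.2 hu₀v.le
  have hunit : IsUnit (⟨u₀, hu₀R⟩ : Rur A) := (isUnit_Rur_iff _).2 hu₀v
  refine ⟨k, hunit.unit, ?_⟩
  show y = u₀ * (ℓ : Kur A) ^ k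
  rw [hu₀, mul_assoc, inv_mul_cancel₀ (zpow_ne_zero _ hℓK), mul_one]

end Fermat.Agent.S36.NU.H41
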