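import Fermat.Agent.S36.NU.H88_Descent
import Fermat.Agent.S36.NU.H23_L0
import Fermat.Agent.S36.NU.H41_DvrUr
import Fermat.Agent.S24.Asm.Degree
import Fermat.Agent.S24.Closure.Final

/-!
# S36, NU-B, (M1) CHART-MOD (helper88): the inertia-fixed functions as a function field over `K^ur`

`A` a valuation ring of `ℚ̄`, `K = Kur A` (helper41), `R = Rur A`, `L₀ = L0 A N` (helper23).
* `constKur : K →+* L₀`, the instances `Algebra K L₀`, `Algebra R L₀` and the scalar towers;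
* `j0 A N : L₀` (`= j`), `transcendental_j0`;
* `arith_mem_adjoin` : the Galois action on coefficients preserves `ℚ̄(j)`;
* `fixed_mem_adjoin_j0` : an inertia-fixed element of `ℚ̄(j)` lies in `K(j)`;
* `finiteDimensional_L0` : `L₀` is finite over `K(j)`.
-/

set_option autoImplicit false
set_option synthInstance.maxHeartbeats 400000
set_option maxHeartbeats 1000000
set_option linter.unusedSectionVars false
set_option linter.style.haveILetI false

noncomputable section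

open IntermediateField ModularCurve

namespace Fermat.Agent.S36.NU.H88

open Fermat.Agent.S24 Fermat.Agent.S36.NU.H23 Fermat.Agent.S36.NU.H41 Fermat.Agent.BAD.H88

section Alg

variable (A : ValuationSubring Kbar) (N : ℕ) [NeZero N]

/-- The constants `K^ur → L₀`. -/
def constKur : ↥(Kur A) →+* ↥(L0 A N) :=
  ((algebraMap Kbar (FN N)).comp (algebraMap ↥(Kur A) Kbar)).codRestrict (L0 A N)
    (fun c => (const_mem_L0_iff A (c : Kbar)).mpr (mem_Kur.1 c.2))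

theorem coe_constKur (c : ↥(Kur A)) :
    ((constKur A N c : ↥(L0 A N)) : FN N) = algebraMap Kbar (FN N) (c : Kbar) := rfl

instance algKurL0 : Algebra ↥(Kur A) ↥(L0 A N) := (constKur A N).toAlgebra

instance algRurL0 : Algebra ↥(Rur A) ↥(L0 A N) :=
  ((constKur A N).comp (algebraMap ↥(Rur A) ↥(Kur A))).toAlgebra

instance towerRurKurL0 : IsScalarTower ↥(Rur A) ↥(Kur A) ↥(L0 A N) :=
  IsScalarTower.of_algebraMap_eq fun _ => rfl

instance towerKurL0FN : IsScalarTower ↥(Kur A) ↥(L0 A N) (FN N) :=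
  IsScalarTower.of_algebraMap_eq fun _ => rfl

theorem algebraMap_Kur_L0 (c : ↥(Kur A)) :
    ((algebraMap ↥(Kur A) ↥(L0 A N) c : ↥(L0 A N)) : FN N)
      = algebraMap Kbar (FN N) (c : Kbar) := rfl

theorem algebraMap_Rur_L0 (r : ↥(Rur A)) :
    ((algebraMap ↥(Rur A) ↥(L0 A N) r : ↥(L0 A N)) : FN N)
      = algebraMap Kbar (FN N) (((r : ↥(Kur A)) : Kbar)) := rfl

/-- `j (q^1) = j`. -/
theorem jdF_one_eq_jF : jdF N 1 (one_dvd N) = jF N := by
  apply Subtype.ext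
  show coeffEmb Kbar (qExpand ℚ 1 jq) = coeffEmb Kbar jq
  rw [qExpand_one_apply]

theorem jF_mem_L0 : jF N ∈ L0 A N := by
  rw [← jdF_one_eq_jF]
  exact jdF_mem_L0 A N 1 (one_dvd N)

/-- `j` as an inertia-fixed function. -/
def j0 : ↥(L0 A N) := ⟨jF N, jF_mem_L0 A N⟩

theorem coe_j0 : ((j0 A N : ↥(L0 A N)) : FN N) = jF N := rfl

theorem coe_j0' : ((j0 A N : ↥(L0 A N)) : FN N) = jdF N 1 (one_dvd N) :=
  (jdF_one_eq_jF N).symm

theorem transcendental_j0 : Transcendental ↥(Kur A) (j0 A N) := by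
  intro halg
  have h1 : IsAlgebraic ↥(Kur A) (algebraMap ↥(L0 A N) (FN N) (j0 A N)) := halg.algebraMap
  have h2 : IsAlgebraic Kbar (jF N) :=
    h1.extendScalars (FaithfulSMul.algebraMap_injective ↥(Kur A) Kbar)
  exact jF_transcendental N h2

theorem j0_ne_zero : j0 A N ≠ 0 := by
  intro h
  apply transcendental_j0 A N
  rw [h]
  exact isAlgebraic_zero

end Alg

/-! ### `L₀` is finite over `K^ur(j)` -/

section Fin

variable (A : ValuationSubring Kbar) (N : ℕ) [NeZero N]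

theorem arith_jF (σ : Kbar ≃ₐ[ℚ] Kbar) :
    arithmeticRingAut (modularFunctionFieldFull N) σ (jF N) = jF N := by
  rw [← jdF_one_eq_jF]
  exact arith_jdF N 1 (one_dvd N) σ

/-- The Galois action on coefficients preserves `ℚ̄(j)`. -/
theorem arith_mem_adjoin (σ : Kbar ≃ₐ[ℚ] Kbar) (x : FN N) (hx : x ∈ Kbar⟮jF N⟯) :
    arithmeticRingAut (modularFunctionFieldFull N) σ x ∈ Kbar⟮jF N⟯ := by
  let S : Subfield (FN N) := (Kbar⟮jF N⟯).toSubfield.comap
    (arithmeticRingAut (modularFunctionFieldFull N) σ).toRingHom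
  have hc : ∀ c : Kbar, algebraMap Kbar (FN N) c ∈ S := fun c => by
    show arithmeticRingAut (modularFunctionFieldFull N) σ (algebraMap Kbar (FN N) c)
      ∈ Kbar⟮jF N⟯
    rw [arithmeticRingAut_algebraMap]
    exact (Kbar⟮jF N⟯).algebraMap_mem _
  have hj : jF N ∈ S := by
    show arithmeticRingAut (modularFunctionFieldFull N) σ (jF N) ∈ Kbar⟮jF N⟯
    rw [arith_jF]
    exact mem_adjoin_simple_self Kbar (jF N)
  have hle : Kbar⟮jF N⟯ ≤ S.toIntermediateField hc := by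
    rw [adjoin_simple_le_iff]
    exact hj
  exact hle hx

/-- The restriction of the Galois action to `ℚ̄(j)`. -/
def arithAdj (σ : Kbar ≃ₐ[ℚ] Kbar) : ↥(Kbar⟮jF N⟯) →+* ↥(Kbar⟮jF N⟯) :=
  ((arithmeticRingAut (modularFunctionFieldFull N) σ).toRingHom.comp
    (algebraMap ↥(Kbar⟮jF N⟯) (FN N))).codRestrict (Kbar⟮jF N⟯)
    (fun x => arith_mem_adjoin N σ x x.2)

theorem coe_mem_adjoin (x : ↥(L0 A N)) (hx : x ∈ (↥(Kur A))⟮j0 A N⟯) :
    (x : FN N) ∈ Kbar⟮jF N⟯ := by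
  induction hx using IntermediateField.adjoin_induction with
  | mem z hz =>
    rw [Set.mem_singleton_iff.1 hz]
    exact mem_adjoin_simple_self Kbar (jF N)
  | algebraMap c => exact (Kbar⟮jF N⟯).algebraMap_mem _
  | add y z _ _ hy hz => exact add_mem hy hz
  | inv y _ hy => exact inv_mem hy
  | mul y z _ _ hy hz => exact mul_mem hy hz

/-- `K^ur(j) → ℚ̄(j)`. -/
def adjInc : ↥((↥(Kur A))⟮j0 A N⟯) →+* ↥(Kbar⟮jF N⟯) :=
  ((L0 A N).subtype.comp (algebraMap ↥((↥(Kur A))⟮j0 A N⟯) ↥(L0 A N))).codRestrict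
    (Kbar⟮jF N⟯) (fun x => coe_mem_adjoin A N x x.2)

/-- **An inertia-fixed element of `ℚ̄(j)` lies in `K^ur(j)`.** -/
theorem fixed_mem_adjoin_j0 (x : ↥(L0 A N)) (hx : (x : FN N) ∈ Kbar⟮jF N⟯) :
    x ∈ (↥(Kur A))⟮j0 A N⟯ := by
  refine mem_adjoin_simple_of_fixed (E := Kbar) (L := FN N) (E₀ := ↥(Kur A)) (L₀ := ↥(L0 A N))
    (G := ↥(A.inertiaSubgroupIn ℚ))
    (fun σ => ((σ : Kbar ≃ₐ[ℚ] Kbar) : Kbar →+* Kbar))
    (fun σ => (arithmeticRingAut (modularFunctionFieldFull N) (σ : Kbar ≃ₐ[ℚ] Kbar)).toRingHom)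
    (fun σ c => arithmeticRingAut_algebraMap _ _ c)
    (fun σ y => y.2 σ σ.2)
    (fun c hc => ⟨⟨c, mem_Kur.2 fun σ hσ => hc ⟨σ, hσ⟩⟩, rfl⟩)
    (j0 A N) (jF_transcendental N) x hx

/-- **`L₀` is finite over `K^ur(j)`.** -/
instance finiteDimensional_L0 : FiniteDimensional ↥((↥(Kur A))⟮j0 A N⟯) ↥(L0 A N) := by
  letI : Algebra ↥((↥(Kur A))⟮j0 A N⟯) ↥(Kbar⟮jF N⟯) := (adjInc A N).toAlgebra
  haveI : IsScalarTower ↥((↥(Kur A))⟮j0 A N⟯) ↥(Kbar⟮jF N⟯) (FN N) :=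
    IsScalarTower.of_algebraMap_eq fun _ => rfl
  haveI : Module.Finite ↥(Kbar⟮jF N⟯) (FN N) := asm_finiteDimensional (modClosure N)
  exact finite_of_fixed (E := ↥(Kbar⟮jF N⟯)) (L := FN N) (E₀ := ↥((↥(Kur A))⟮j0 A N⟯))
    (L₀ := ↥(L0 A N)) (G := ↥(A.inertiaSubgroupIn ℚ))
    (fun σ => arithAdj N (σ : Kbar ≃ₐ[ℚ] Kbar))
    (fun σ => (arithmeticRingAut (modularFunctionFieldFull N) (σ : Kbar ≃ₐ[ℚ] Kbar)).toRingHom)
    (fun σ x => rfl)
    (fun σ x => x.2 σ σ.2)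
    (fun x hx => by
      have h1 : (x : FN N) ∈ L0 A N := fun σ hσ => congrArg Subtype.val (hx ⟨σ, hσ⟩)
      have h2 := fixed_mem_adjoin_j0 A N ⟨(x : FN N), h1⟩ x.2
      exact ⟨⟨⟨(x : FN N), h1⟩, h2⟩, rfl⟩)

instance charZero_Kur : CharZero ↥(Kur A) := inferInstance

instance isSeparable_L0 : Algebra.IsSeparable ↥((↥(Kur A))⟮j0 A N⟯) ↥(L0 A N) :=
  Algebra.IsAlgebraic.isSeparable_of_perfectField

end Fin

end Fermat.Agent.S36.NU.H88
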