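import Fermat.Agent.S36.NU.H17_TIFin

/-!
# S36 / NU-B, leaf TI3-VAL (helper17): integrality over `R[j]` from valuations

`R` a domain, `K = Frac R`, `E = K(j)`, `F` a field over `E`.

* `isIntegral_coeff_minpoly` : the coefficients of the minimal polynomial over `E` of an element
  which is integral over `A` are integral over `A`;
* `isIntegral_of_two` : if `A₁`, `A₂` are integrally closed in `E` and `f` is integral over both,
  then `f` is integral over every `B` whose image contains the intersection of the images;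
* `isIntegral_adjoin_of_gauss` : **TI3-VAL**: `f` integral over `K[j]` (no pole at the horizontal
  places with `j ≠ ∞`) and integral over a Gauss-type subring `V_E` of `E = K(j)` (nonnegative at
  the vertical valuations) is integral over `R[j]`;
* `mem_of_isIntegral_adjoin` : the converse for valuation rings.
-/

set_option autoImplicit false
set_option linter.style.haveILetI false
set_option linter.unusedSectionVars false

noncomputable section

open Polynomial

namespace Fermat.Agent.S36.NU.H17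

section Core

variable {A E F : Type*} [CommRing A] [Field E] [Field F] [Algebra A E] [Algebra E F]
  [Algebra A F] [IsScalarTower A E F]

/-- The coefficients of the minimal polynomial over `E` of an `A`-integral element are
`A`-integral. -/
theorem isIntegral_coeff_minpoly {f : F} (hf : IsIntegral A f) (i : ℕ) :
    IsIntegral A ((minpoly E f).coeff i) := by
  obtain ⟨p, hp, hpf⟩ := hf
  have hfE : IsIntegral E f := ⟨p.map (algebraMap A E), hp.map _, by
    rw [eval₂_map, ← IsScalarTower.algebraMap_eq]; exact hpf⟩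
  have hd : minpoly E f ∣ p.map (algebraMap A E) := by
    apply minpoly.dvd
    rw [aeval_def, eval₂_map, ← IsScalarTower.algebraMap_eq]
    exact hpf
  have hl := integralClosure.mem_lifts_of_monic_of_dvd_map E hp (minpoly.monic hfE) hd
  rw [lifts_iff_coeff_lifts] at hl
  obtain ⟨c, hc⟩ := hl i
  rw [← hc]
  exact c.2

/-- If `A` is integrally closed in `E`, the coefficients of the minimal polynomial over `E` of an
`A`-integral element come from `A`. -/
theorem coeff_minpoly_mem_range (hA : ∀ x : E, IsIntegral A x → x ∈ (algebraMap A E).range)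
    {f : F} (hf : IsIntegral A f) (i : ℕ) :
    (minpoly E f).coeff i ∈ (algebraMap A E).range :=
  hA _ (isIntegral_coeff_minpoly hf i)

end Core

section Two

variable {A₁ A₂ B E F : Type*} [CommRing A₁] [CommRing A₂] [CommRing B] [Field E] [Field F]
  [Algebra A₁ E] [Algebra A₂ E] [Algebra B E] [Algebra E F]
  [Algebra A₁ F] [Algebra A₂ F] [Algebra B F]
  [IsScalarTower A₁ E F] [IsScalarTower A₂ E F] [IsScalarTower B E F]

/-- **Two charts of integrality**: `A₁`, `A₂` integrally closed in `E`, the image of `B` contains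
the intersection of their images; an element of `F ⊇ E` which is integral over `A₁` and over `A₂`
is integral over `B`. -/
theorem isIntegral_of_two
    (h₁ : ∀ x : E, IsIntegral A₁ x → x ∈ (algebraMap A₁ E).range)
    (h₂ : ∀ x : E, IsIntegral A₂ x → x ∈ (algebraMap A₂ E).range)
    (hB : ∀ x : E, x ∈ (algebraMap A₁ E).range → x ∈ (algebraMap A₂ E).range →
      x ∈ (algebraMap B E).range)
    {f : F} (hf₁ : IsIntegral A₁ f) (hf₂ : IsIntegral A₂ f) : IsIntegral B f := by
  obtain ⟨p, hp, hpf⟩ := hf₁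
  have hfE : IsIntegral E f := ⟨p.map (algebraMap A₁ E), hp.map _, by
    rw [eval₂_map, ← IsScalarTower.algebraMap_eq]; exact hpf⟩
  have hf₁ : IsIntegral A₁ f := ⟨p, hp, hpf⟩
  have hl : minpoly E f ∈ Polynomial.lifts (algebraMap B E) := by
    rw [lifts_iff_coeff_lifts]
    intro i
    exact hB _ (coeff_minpoly_mem_range h₁ hf₁ i) (coeff_minpoly_mem_range h₂ hf₂ i)
  obtain ⟨Q, hQ, -, hQm⟩ := Polynomial.lifts_and_degree_eq_and_monic hl (minpoly.monic hfE)
  refine ⟨Q, hQm, ?_⟩
  have : eval₂ (algebraMap B F) f Q = aeval f (Q.map (algebraMap B E)) := by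
    rw [aeval_def, eval₂_map, ← IsScalarTower.algebraMap_eq]
  rw [this, hQ, minpoly.aeval]

end Two

section Generic

/-- A valuation ring is integrally closed in its field. -/
theorem mem_valuationSubring_of_isIntegral {F : Type*} [Field F] (V : ValuationSubring F) {x : F}
    (hx : IsIntegral ↥V x) : x ∈ V := by
  obtain ⟨y, rfl⟩ := IsIntegrallyClosed.isIntegral_iff.mp hx
  exact y.2

/-- Integrality along an inclusion of subrings of `F`, instance-free. -/
theorem isIntegral_of_le {A B F : Type*} [CommRing A] [CommRing B] [Field F] [Algebra A F]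
    [Algebra B F]
    (hAB : ∀ a : A, ∃ b : B, algebraMap B F b = algebraMap A F a) {x : F}
    (hx : IsIntegral A x) : IsIntegral B x := by
  obtain ⟨Q, hQ, hQx⟩ := hx
  have hl : Q.map (algebraMap A F) ∈ Polynomial.lifts (algebraMap B F) := by
    rw [lifts_iff_coeff_lifts]
    intro i
    rw [Polynomial.coeff_map]
    obtain ⟨b, hb⟩ := hAB (Q.coeff i)
    exact ⟨b, hb⟩
  obtain ⟨Q', hQ', -, hQm⟩ := Polynomial.lifts_and_degree_eq_and_monic hl (hQ.map _)
  refine ⟨Q', hQm, ?_⟩
  rw [← Polynomial.eval_map, hQ', Polynomial.eval_map]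
  exact hQx

end Generic

section Gauss

open IntermediateField

variable (R K : Type*) {F : Type*} [CommRing R] [Field K] [Field F] [Algebra R K]
  [Algebra K F] [Algebra R F] [IsScalarTower R K F] (j : F)

/-- `K[j]` is integrally closed in `K(j)`. -/
theorem mem_adjoin_of_isIntegral (hj : Transcendental K j) {x : F} (hx : x ∈ K⟮j⟯)
    (hint : IsIntegral ↥(Algebra.adjoin K {j}) x) : x ∈ Algebra.adjoin K {j} := by
  letI : Algebra ↥(Algebra.adjoin K {j}) ↥K⟮j⟯ := (toAdjoinField K K j).toAlgebra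
  haveI : IsFractionRing ↥(Algebra.adjoin K {j}) ↥K⟮j⟯ := isFractionRing_adjoin K K j
  haveI : IsIntegrallyClosed ↥(Algebra.adjoin K {j}) := isIntegrallyClosed_adjoin K j hj
  have h1 : IsIntegral ↥(Algebra.adjoin K {j}) (⟨x, hx⟩ : ↥K⟮j⟯) := by
    obtain ⟨Q, hQ, hQx⟩ := hint
    refine ⟨Q, hQ, ?_⟩
    apply Subtype.ext
    have e : ((eval₂ (algebraMap ↥(Algebra.adjoin K {j}) ↥K⟮j⟯) (⟨x, hx⟩ : ↥K⟮j⟯) Q : ↥K⟮j⟯) : F)
        = eval₂ (algebraMap ↥(Algebra.adjoin K {j}) F) x Q := by
      have := Polynomial.hom_eval₂ Q (algebraMap ↥(Algebra.adjoin K {j}) ↥K⟮j⟯)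
        (algebraMap ↥K⟮j⟯ F) (⟨x, hx⟩ : ↥K⟮j⟯)
      exact this
    rw [e, hQx]
    rfl
  obtain ⟨y, hy⟩ := IsIntegrallyClosed.isIntegral_iff.mp h1
  have : (y : F) = x := congrArg Subtype.val hy
  rw [← this]
  exact y.2

/-- The elements of `K[j]` lying in a Gauss-type subring `V` are in `R[j]`. -/
theorem mem_adjoin_of_gauss (V : Set F)
    (hG : ∀ p : K[X], aeval j p ∈ V → ∀ i, p.coeff i ∈ (algebraMap R K).range)
    {x : F} (hx : x ∈ Algebra.adjoin K {j}) (hxV : x ∈ V) : x ∈ Algebra.adjoin R {j} := by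
  rw [Algebra.adjoin_singleton_eq_range_aeval] at hx
  obtain ⟨p, hp⟩ := hx
  have hp' : aeval j p = x := hp
  subst hp'
  have hl : p ∈ Polynomial.lifts (algebraMap R K) := by
    rw [lifts_iff_coeff_lifts]
    exact hG p hxV
  obtain ⟨p', rfl⟩ := (Polynomial.mem_lifts p).mp hl
  rw [Polynomial.aeval_map_algebraMap]
  rw [Algebra.adjoin_singleton_eq_range_aeval]
  exact ⟨p', rfl⟩

/-- **TI3-VAL** (abstract form).  `V` a subring of `F`, integrally closed in `F` (a valuation
ring, or an intersection of valuation rings), of Gauss type on `K[j]`.  If `f` is integral over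
`K[j]` and is a root of a monic polynomial with coefficients in `V ∩ K(j)`, then `f` is integral
over `R[j]`. -/
theorem isIntegral_adjoin_of_gauss (hj : Transcendental K j)
    (V : Subring F) (hV : ∀ x : F, IsIntegral V x → x ∈ V)
    (hG : ∀ p : K[X], aeval j p ∈ V → ∀ i, p.coeff i ∈ (algebraMap R K).range)
    {f : F} (hf₁ : IsIntegral ↥(Algebra.adjoin K {j}) f)
    (hf₂ : ∃ P : F[X], P.Monic ∧ (∀ i, P.coeff i ∈ V ∧ P.coeff i ∈ K⟮j⟯) ∧ P.eval f = 0) :
    IsIntegral ↥(Algebra.adjoin R {j}) f := by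
  -- the two rings
  letI : Algebra ↥(Algebra.adjoin K {j}) ↥K⟮j⟯ := (toAdjoinField K K j).toAlgebra
  haveI : IsScalarTower ↥(Algebra.adjoin K {j}) ↥K⟮j⟯ F :=
    IsScalarTower.of_algebraMap_eq fun _ => rfl
  set S : Subring ↥K⟮j⟯ := V.comap (algebraMap ↥K⟮j⟯ F) with hS
  haveI : IsScalarTower ↥S ↥K⟮j⟯ F := IsScalarTower.of_algebraMap_eq fun _ => rfl
  -- `f` is integral over `S`
  obtain ⟨P, hP, hPc, hPf⟩ := hf₂
  have hfS : IsIntegral ↥S f := by
    have hl : P ∈ Polynomial.lifts (algebraMap ↥S F) := by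
      rw [lifts_iff_coeff_lifts]
      intro i
      exact ⟨⟨⟨P.coeff i, (hPc i).2⟩, (hPc i).1⟩, rfl⟩
    obtain ⟨Q, hQ, -, hQm⟩ := Polynomial.lifts_and_degree_eq_and_monic hl hP
    refine ⟨Q, hQm, ?_⟩
    rw [← Polynomial.eval_map, hQ, hPf]
  have hfE : IsIntegral ↥K⟮j⟯ f := hf₁.tower_top
  -- the coefficients of the minimal polynomial
  have hc1 : ∀ i, ((minpoly ↥K⟮j⟯ f).coeff i : F) ∈ Algebra.adjoin K {j} := by
    intro i
    have h1 : IsIntegral ↥(Algebra.adjoin K {j}) ((minpoly ↥K⟮j⟯ f).coeff i) :=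
      isIntegral_coeff_minpoly hf₁ i
    have h2 : IsIntegral ↥(Algebra.adjoin K {j}) (((minpoly ↥K⟮j⟯ f).coeff i : ↥K⟮j⟯) : F) :=
      h1.algebraMap (B := F)
    exact mem_adjoin_of_isIntegral K j hj ((minpoly ↥K⟮j⟯ f).coeff i).2 h2
  have hc2 : ∀ i, ((minpoly ↥K⟮j⟯ f).coeff i : F) ∈ V := by
    intro i
    have h1 : IsIntegral ↥S ((minpoly ↥K⟮j⟯ f).coeff i) := isIntegral_coeff_minpoly hfS i
    obtain ⟨Q, hQ, hQx⟩ := h1
    apply hV
    let φ : ↥S →+* ↥V := ((algebraMap ↥K⟮j⟯ F).comp S.subtype).codRestrict V (fun x => x.2)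
    refine ⟨Q.map φ, hQ.map φ, ?_⟩
    rw [eval₂_map]
    have e : (algebraMap ↥V F).comp φ = (algebraMap ↥K⟮j⟯ F).comp (algebraMap ↥S ↥K⟮j⟯) := rfl
    have h3 := Polynomial.hom_eval₂ Q (algebraMap ↥S ↥K⟮j⟯) (algebraMap ↥K⟮j⟯ F)
      ((minpoly ↥K⟮j⟯ f).coeff i)
    rw [e]
    rw [hQx, map_zero] at h3
    exact h3.symm
  have hc : ∀ i, ((minpoly ↥K⟮j⟯ f).map (algebraMap ↥K⟮j⟯ F)).coeff i ∈ Algebra.adjoin R {j} := by
    intro i
    rw [Polynomial.coeff_map]
    exact mem_adjoin_of_gauss R K j V hG (hc1 i) (hc2 i)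
  refine isIntegral_of_monic_coeff_mem (Algebra.adjoin R {j}) f _
    ((minpoly.monic hfE).map _) hc ?_
  rw [Polynomial.eval_map, ← aeval_def, minpoly.aeval]

theorem adjoin_le_adjoin_field {x : F}
    (hx : x ∈ Algebra.adjoin R {j}) : x ∈ Algebra.adjoin K {j} := by
  induction hx using Algebra.adjoin_induction with
  | mem y hy => exact Algebra.subset_adjoin hy
  | algebraMap r =>
    rw [IsScalarTower.algebraMap_apply R K F]
    exact Subalgebra.algebraMap_mem _ _
  | add _ _ _ _ h1 h2 => exact add_mem h1 h2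
  | mul _ _ _ _ h1 h2 => exact mul_mem h1 h2

/-- **TI3-VAL** for a family of valuation rings: `f` integral over `K[j]`, `f ∈ V i` for all `i`;
`V i₀` is of Gauss type on `K[j]`; every element of `⋂ V i` is integral over `V i₀ ∩ K(j)`
(leaf THREE: the `V i` are all the extensions of the Gauss valuation of `K(j)`).
Then `f` is integral over `R[j]`. -/
theorem isIntegral_adjoin_of_forall_mem (hj : Transcendental K j) {ι : Type*}
    (V : ι → ValuationSubring F) (i₀ : ι)
    (hG : ∀ p : K[X], aeval j p ∈ V i₀ → ∀ i, p.coeff i ∈ (algebraMap R K).range)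
    (hthree : ∀ f : F, (∀ i, f ∈ V i) →
      ∃ P : F[X], P.Monic ∧ (∀ k, P.coeff k ∈ V i₀ ∧ P.coeff k ∈ K⟮j⟯) ∧ P.eval f = 0)
    {f : F} (hf₁ : IsIntegral ↥(Algebra.adjoin K {j}) f) (hf₂ : ∀ i, f ∈ V i) :
    IsIntegral ↥(Algebra.adjoin R {j}) f := by
  refine isIntegral_adjoin_of_gauss R K j hj (V i₀).toSubring ?_ hG hf₁ (hthree f hf₂)
  intro x hx
  have h1 : IsIntegral ↥(V i₀) x := hx
  exact mem_valuationSubring_of_isIntegral (V i₀) h1

/-- Conversely: an element integral over `R[j]` lies in every valuation ring of `F` containing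
`R` and `j`. -/
theorem mem_of_isIntegral_adjoin (V : ValuationSubring F) (hR : ∀ r : R, algebraMap R F r ∈ V)
    (hjV : j ∈ V) {f : F} (hf : IsIntegral ↥(Algebra.adjoin R {j}) f) : f ∈ V := by
  apply mem_valuationSubring_of_isIntegral V
  refine isIntegral_of_le (A := ↥(Algebra.adjoin R {j})) (B := ↥V) ?_ hf
  rintro ⟨a, ha⟩
  have haV : a ∈ V := by
    induction ha using Algebra.adjoin_induction with
    | mem y hy =>
      rw [Set.mem_singleton_iff] at hy
      subst hy
      exact hjV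
    | algebraMap r => exact hR r
    | add _ _ _ _ h1 h2 => exact add_mem h1 h2
    | mul _ _ _ _ h1 h2 => exact mul_mem h1 h2
  exact ⟨⟨a, haV⟩, rfl⟩

/-- An element integral over `R[j]` is integral over `K[j]`. -/
theorem isIntegral_adjoin_field {f : F} (hf : IsIntegral ↥(Algebra.adjoin R {j}) f) :
    IsIntegral ↥(Algebra.adjoin K {j}) f := by
  refine isIntegral_of_le (A := ↥(Algebra.adjoin R {j})) (B := ↥(Algebra.adjoin K {j})) ?_ hf
  rintro ⟨a, ha⟩
  exact ⟨⟨a, adjoin_le_adjoin_field R K j ha⟩, rfl⟩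

end Gauss

end Fermat.Agent.S36.NU.H17

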