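import Fermat.Agent.S36.NU.H24_FinLocal
import Fermat.Agent.S36.NU.H17_TIVal

/-!
# S36, NU-B, (M1) CHART-MOD (helper88): charts from a conservation datum (generic builder)

`T : TotN K F L k ι Z κ` (helper79), `R` a ring of constants of `F` with residue map `res : R → k`,
`j ∈ F` integral for all valuations of `T`.
* `chartOf T j res h` : the chart `B = intSub R j` (integral closure of `R[j]` in `F`) with the
  valuation rings and residue maps of `T`;
* `compat_chartOf` : it is compatible with `T` (helper24 `Compat`);
* `chartHyp_chartOf` : `ChartHyp` from separating elements;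
* `isNoetherianRing_chartOf`, `isFractionRing_chartOf`.
-/

set_option autoImplicit false
set_option linter.unusedSectionVars false
set_option linter.style.haveILetI false

noncomputable section

open IntermediateField

namespace Fermat.Agent.S36.NU.H88

open Fermat.Agent.S36.NU.H16 Fermat.Agent.S36.NU.H17 Fermat.Agent.S36.NU.H24
  Fermat.Agent.S36.NU.H65 Fermat.Agent.S36.NU.H79

section ChartOf

variable {R K F L k ι Z : Type*} {κ : ι → Type*} [CommRing R] [Field K] [Field F] [Field L]
  [Algebra K L] [Algebra F L] [Algebra R F] [Field k] [Fintype ι] [∀ i, Field (κ i)]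
  [∀ i, Algebra k (κ i)]

/-- The input for a chart: constants and the coordinate are integral for the valuations of `T`,
and the reductions of constants are given by `res`. -/
structure ChartInput (T : TotN K F L k ι Z κ) (j : F) (res : R →+* k) : Prop where
  res_surj : Function.Surjective res
  const_mem : ∀ (i : ι) (r : R), algebraMap R F r ∈ T.V i
  j_mem : ∀ i : ι, j ∈ T.V i
  red_const : ∀ (i : ι) (r : R) (hr : algebraMap R F r ∈ T.V i),
    T.red i ⟨algebraMap R F r, hr⟩ = algebraMap k (κ i) (res r)

variable (T : TotN K F L k ι Z κ) (j : F) (res : R →+* k)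

/-- **The chart** `B = ` integral closure of `R[j]`, with the valuations of `T`. -/
def chartOf (h : ChartInput T j res) : Chart R F k ι κ where
  B := intSub R j
  V := T.V
  B_le := fun i _ hx => mem_of_isIntegral_adjoin R j (T.V i) (h.const_mem i) (h.j_mem i) hx
  red := T.red
  red_eq_zero_iff := T.red_eq_zero_iff
  res := res
  res_surj := h.res_surj
  red_const := h.red_const

theorem chartOf_B (h : ChartInput T j res) : (chartOf T j res h).B = intSub R j := rfl

theorem chartOf_V (h : ChartInput T j res) (i : ι) : (chartOf T j res h).V i = T.V i := rfl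

theorem chartOf_rd (h : ChartInput T j res) (i : ι) (x : F) :
    (chartOf T j res h).rd i x = T.rdN i x := by
  by_cases hx : x ∈ T.V i
  · rw [(chartOf T j res h).rd_of_mem i hx, T.rdN_of_mem hx]
    rfl
  · rw [(chartOf T j res h).rd_of_not_mem i hx]
    unfold TotN.rdN
    rw [dif_neg hx]

/-- The chart is compatible with the conservation datum. -/
theorem compat_chartOf (h : ChartInput T j res) : Compat (chartOf T j res h) T where
  hV := fun _ => rfl
  hrd := chartOf_rd T j res h

/-- `ChartHyp` from separating elements. -/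
theorem chartHyp_chartOf (h : ChartInput T j res) (q n : ℕ) (hq : q.Prime)
    (hchar : ∀ i, CharP (κ i) q) (hn : 0 < n) (hcop : Nat.Coprime n q)
    (hinc : ∀ i i' : ι, i ≠ i' → ∃ τ : F, τ ∈ intSub R j ∧ T.rdN i' τ = 0 ∧ T.rdN i τ ≠ 0) :
    ChartHyp (chartOf T j res h) q n where
  q_prime := hq
  charq := hchar
  n_pos := hn
  coprime := hcop
  root := fun x hx => root_mem_intSub R j hn x hx
  inc := fun i i' hii => by
    obtain ⟨τ, hτ, h0, h1⟩ := hinc i i' hii
    refine ⟨⟨τ, hτ⟩, ?_, ?_⟩
    · rw [← (chartOf T j res h).rd_coe, chartOf_rd]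
      exact h0
    · rw [← (chartOf T j res h).rd_coe, chartOf_rd]
      exact h1

end ChartOf

/-! ### Noetherianity and the fraction field -/

section Noeth

variable (R Kf : Type*) {F : Type*} [CommRing R] [IsDomain R] [Field Kf] [Field F] [Algebra R Kf]
  [IsFractionRing R Kf] [Algebra Kf F] [Algebra R F] [IsScalarTower R Kf F] (j : F)

/-- The integral closure of `R[j]` in `F` is noetherian. -/
theorem isNoetherianRing_intSub [IsNoetherianRing R] [IsIntegrallyClosed R]
    (hj : Transcendental Kf j) [FiniteDimensional Kf⟮j⟯ F] [Algebra.IsSeparable Kf⟮j⟯ F] :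
    IsNoetherianRing ↥(intSub R j) := by
  have hjR : Transcendental R j :=
    Transcendental.restrictScalars (IsFractionRing.injective R Kf) hj
  haveI := isNoetherianRing_adjoin R j hjR
  haveI := isIntegrallyClosed_adjoin R j hjR
  letI : Algebra ↥(Algebra.adjoin R {j}) ↥Kf⟮j⟯ := (toAdjoinField R Kf j).toAlgebra
  haveI := isFractionRing_adjoin R Kf j
  haveI : IsScalarTower ↥(Algebra.adjoin R {j}) ↥Kf⟮j⟯ F :=
    IsScalarTower.of_algebraMap_eq fun _ => rfl
  have h1 : IsNoetherianRing ↥(integralClosure ↥(Algebra.adjoin R {j}) F) :=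
    IsIntegralClosure.isNoetherianRing ↥(Algebra.adjoin R {j}) ↥Kf⟮j⟯ F
      ↥(integralClosure ↥(Algebra.adjoin R {j}) F)
  exact h1

/-- `F` is the fraction field of the integral closure of `R[j]`. -/
theorem isFractionRing_intSub [FiniteDimensional Kf⟮j⟯ F] :
    IsFractionRing ↥(intSub R j) F := by
  letI : Algebra ↥(Algebra.adjoin R {j}) ↥Kf⟮j⟯ := (toAdjoinField R Kf j).toAlgebra
  haveI := isFractionRing_adjoin R Kf j
  haveI : IsScalarTower ↥(Algebra.adjoin R {j}) ↥Kf⟮j⟯ F :=
    IsScalarTower.of_algebraMap_eq fun _ => rfl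
  have h1 : IsFractionRing ↥(integralClosure ↥(Algebra.adjoin R {j}) F) F :=
    integralClosure.isFractionRing_of_finite_extension ↥Kf⟮j⟯ F
  exact h1

end Noeth

end Fermat.Agent.S36.NU.H88
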