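import Fermat.Agent.S36.NU.H23_Mod4
import Fermat.Agent.S36.NU.H88_ChartOf
import Fermat.Agent.S36.NU.H88_ChartAlg
import Fermat.Agent.BAD.H30_NumFinal
import Fermat.Agent.BAD.H91_Cusp
import Fermat.Agent.S05.H15_Val

/-!
# S36 / NU-B, leaf FIN-HYPS (helper74): the small hypotheses of `H24.fin_local`

Setting of helper23's `totM` (level `N = M q²`, `q ∤ M` tame, `C = FM A M`) and helper88's
`chartOf` (`R = Rur A`, `F = L0 A N`, `j = j0 A N`).

* `rootClosed_of_isAlgClosed`, `rootClosed_kV` : `hk₁`, `hk₂` (constants closed under roots);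
* `exists_inv_natCast_Rur` : `hnn` (`n` prime to `q` is invertible in `Rur A`);
  `natCast_ne_zero_Rur`, `not_isUnit_natCast_Rur` : `hq0`, `hqu`;
* `hasPrincipalDivisors_FN` : `hP`;
* `ssM` : the set of supersingular points of the curve of level `M` mod `q`
  (`j~` regular, the reduction of `Δ(z)/Δ(qz)` vanishes), `ssM_nonempty` : `hSS`;
* `inChart_of_regAt` (abstract), `inChart_ssM` : `hSS0` (the supersingular points are points of
  the chart `B = intSub R j`).
-/

set_option autoImplicit false
set_option synthInstance.maxHeartbeats 400000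
set_option maxHeartbeats 1000000
set_option linter.style.haveILetI false
set_option linter.unusedSectionVars false

noncomputable section

open ModularCurve AlgebraicCurve Polynomial

namespace Fermat.Agent.S36.NU.H74

open Fermat.Agent.S24 Fermat.Agent.BAD.H88 Fermat.Agent.S28 Fermat.Agent.S28.H73
  Fermat.Agent.RED.H73 Fermat.Agent.RED.H17 Fermat.Agent.S36.NU.H88 Fermat.Agent.S36.NU.H23
  Fermat.Agent.S36.NU.H16 Fermat.Agent.S36.NU.H24 Fermat.Agent.S36.NU.H65
  Fermat.Agent.S36.NU.H79 Fermat.Agent.S36.NU.H41 Fermat.Agent.BAD Fermat.Agent.RED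

/-! ## Generic lemmas -/

section Generic

/-- Over an algebraically closed field of constants, an integral element of a field extension is
a constant. -/
theorem exists_algebraMap_eq_of_isIntegral (k F : Type*) [Field k] [Field F] [Algebra k F]
    [IsAlgClosed k] {r : F} (hr : IsIntegral k r) : ∃ c : k, r = algebraMap k F c := by
  have h : (minpoly k r).degree = 1 :=
    IsAlgClosed.degree_eq_one_of_irreducible k (minpoly.irreducible hr)
  have hq : (minpoly k r).leadingCoeff = 1 := minpoly.monic hr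
  have : aeval r (minpoly k r) = 0 := minpoly.aeval k r
  rw [eq_X_add_C_of_degree_eq_one h, hq, C_1, one_mul, aeval_add, aeval_X, aeval_C,
    add_eq_zero_iff_eq_neg] at this
  exact ⟨-(minpoly k r).coeff 0, by rw [map_neg]; exact this⟩

/-- **`hk₁`, `hk₂`**: over an algebraically closed field of constants, constants are closed under
`n`-th roots (`n > 0`) in any field extension. -/
theorem rootClosed_of_isAlgClosed (k F : Type*) [Field k] [Field F] [Algebra k F]
    [IsAlgClosed k] {n : ℕ} (hn : 0 < n) : RootClosed k F n := by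
  rintro r ⟨c, hc⟩
  refine exists_algebraMap_eq_of_isIntegral k F ⟨X ^ n - C c, monic_X_pow_sub_C c hn.ne', ?_⟩
  simp [hc]

variable {R K F L k ι Z : Type*} {κ : ι → Type*} [CommRing R] [Field K] [Field F] [Field L]
  [Algebra K L] [Algebra F L] [Algebra R F] [Field k] [Fintype ι] [∀ i, Field (κ i)]
  [∀ i, Algebra k (κ i)]

/-- An element integral over `R[j]` is regular at a place at which the constants of `R` and `j`
are regular. -/
theorem regAt_of_mem_intSub (P : Place K L) (j : F)
    (hR : ∀ r : R, RegAt P (algebraMap F L (algebraMap R F r)))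
    (hj : RegAt P (algebraMap F L j)) {β : F} (hβ : β ∈ intSub R j) :
    RegAt P (algebraMap F L β) := by
  rw [regAt_iff_mem]
  have h := Fermat.Agent.S36.NU.H17.mem_of_isIntegral_adjoin (R := R) (j := j)
    (P.toValuationSubring.comap (algebraMap F L))
    (fun r => (regAt_iff_mem P _).1 (hR r)) ((regAt_iff_mem P _).1 hj) (f := β) hβ
  exact h

/-- **`hSS0`, abstract form**: a point `z` over which the constants and `j` are regular is a
point of the chart `B = intSub R j`. -/
theorem inChart_of_regAt (C : Chart R F k ι κ) (T : TotN K F L k ι Z κ) (j : F)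
    (hB : C.B = intSub R j) (z : Z)
    (hR : ∀ (r : R) (P : Place K L), T.ρ P = z → RegAt P (algebraMap F L (algebraMap R F r)))
    (hj : ∀ P : Place K L, T.ρ P = z → RegAt P (algebraMap F L j)) : InChart C T z := by
  intro β P hP
  refine regAt_of_mem_intSub P j (fun r => hR r P hP) (hj P hP) ?_
  rw [← hB]
  exact β.2

end Generic

/-! ## The modular instance -/

section Modular

variable (A : ValuationSubring Kbar) (q M : ℕ) (B k : ℤ) (hB : B * M + k * q = 1) (hq : q.Prime)
  [NeZero M] [NeZero q] [NeZero (M * q)] [NeZero (M * q * q)] (hqM : ¬ q ∣ M)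
  (hA : A.LiesOverPrime q) (ht : H91.TameAt M q)

/-- **`hk₁`, `hk₂`** for the residue field `k = kV A`. -/
theorem rootClosed_kV (F : Type*) [Field F] [Algebra (kV A) F] {n : ℕ} (hn : 0 < n) :
    RootClosed (kV A) F n :=
  haveI : IsAlgClosed (kV A) := isAlgClosed_kV A
  rootClosed_of_isAlgClosed (kV A) F hn

/-- **`hP`**: the function field of level `N` over `ℚ̄` has principal divisors. -/
theorem hasPrincipalDivisors_FN (N : ℕ) [NeZero N] : HasPrincipalDivisors Kbar (FN N) :=
  (RED.H17.ffHyp_of_isFF _ _ (H95.stmt_HKA_isFF N)).principal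

include hq hA in
/-- An integer prime to `q` is a unit of `A`. -/
theorem valuation_natCast_eq_one {n : ℕ} (hn : Nat.Coprime n q) :
    A.valuation ((n : ℕ) : Kbar) = 1 := by
  have h : ¬ (q : ℤ) ∣ (n : ℤ) := by
    intro h
    have h1 : q ∣ n := Int.natCast_dvd_natCast.1 h
    have h2 : q ∣ 1 := by
      have := Nat.dvd_gcd h1 (dvd_refl q)
      rwa [hn] at this
    exact hq.one_lt.ne' (Nat.dvd_one.1 h2)
  have := Fermat.Agent.S05.H15.valuation_intCast_eq_one_of_not_dvd (A := A) hq hA h
  simpa using this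

include hq hA in
/-- **`hnn`**: an integer prime to `q` is invertible in `Rur A`. -/
theorem exists_inv_natCast_Rur {n : ℕ} (hn : Nat.Coprime n q) :
    ∃ n' : ↥(Rur A), ((n : ℕ) : ↥(Rur A)) * n' = 1 := by
  have hu : IsUnit (((n : ℕ) : ↥(Rur A))) := by
    rw [isUnit_Rur_iff]
    have e : (((((n : ℕ) : ↥(Rur A)) : ↥(Kur A))) : Kbar) = ((n : ℕ) : Kbar) := by
      push_cast
      rfl
    rw [e]
    exact valuation_natCast_eq_one A q hq hA hn
  obtain ⟨u, hu'⟩ := hu
  exact ⟨((u⁻¹ : (↥(Rur A))ˣ) : ↥(Rur A)), by rw [← hu']; exact u.mul_inv⟩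

/-- **`hq0`**: `q ≠ 0` in `Rur A`. -/
theorem natCast_ne_zero_Rur : ((q : ℕ) : ↥(Rur A)) ≠ 0 := by
  intro h
  have e : (((((q : ℕ) : ↥(Rur A)) : ↥(Kur A))) : Kbar) = ((q : ℕ) : Kbar) := by
    push_cast
    rfl
  rw [h] at e
  have h0 : ((q : ℕ) : Kbar) = 0 := by
    rw [← e]
    rfl
  exact NeZero.ne q (Nat.cast_injective (R := Kbar) (by rw [h0, Nat.cast_zero]))

include hA in
/-- **`hqu`**: `q` is not a unit of `Rur A`. -/
theorem not_isUnit_natCast_Rur : ¬ IsUnit (((q : ℕ) : ↥(Rur A))) := by
  rw [isUnit_Rur_iff]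
  have e : (((((q : ℕ) : ↥(Rur A)) : ↥(Kur A))) : Kbar) = ((q : ℕ) : Kbar) := by
    push_cast
    rfl
  rw [e]
  exact (val_natCast_lt_one A q hA).ne

/-- **The supersingular points** of the curve of level `M` mod `q`: the places of the reduced
function field of level `M` at which `j~` is regular and the reduction of `Δ(z)/Δ(qz)`
vanishes (the hypotheses of `H91.isNode_modT`, the conclusion of `H30.num_final_tame`). -/
def ssM : Set (Place (kV A) (FM A M)) :=
  {z | 0 ≤ z.ord (Fermat.Agent.BAD.H91.jRed A M) ∧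
    ∀ y : ↥(Fermat.Agent.BAD.H91.redM A M), (y : LaurentSeries (kV A))
      = ((gaussRes A (M * q) ⟨Fermat.Agent.BAD.H30.unitF (M * q) q (Dvd.intro_left M rfl),
          Fermat.Agent.BAD.H30.unitF_mem_gaussV A (M * q) q (Dvd.intro_left M rfl)⟩ :
            ↥(redField A (FNbar (M * q)) (hasScale_laurentBaseChange A (M * q)))) :
            LaurentSeries (kV A)) → 0 < z.ord y}

theorem mem_ssM_iff (z : Place (kV A) (FM A M)) :
    z ∈ ssM A q M ↔ 0 ≤ z.ord (Fermat.Agent.BAD.H91.jRed A M) ∧
    ∀ y : ↥(Fermat.Agent.BAD.H91.redM A M), (y : LaurentSeries (kV A))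
      = ((gaussRes A (M * q) ⟨Fermat.Agent.BAD.H30.unitF (M * q) q (Dvd.intro_left M rfl),
          Fermat.Agent.BAD.H30.unitF_mem_gaussV A (M * q) q (Dvd.intro_left M rfl)⟩ :
            ↥(redField A (FNbar (M * q)) (hasScale_laurentBaseChange A (M * q)))) :
            LaurentSeries (kV A)) → 0 < z.ord y := Iff.rfl

include hq hqM hA ht in
/-- **`hSS`**: there is a supersingular point. -/
theorem ssM_nonempty : (ssM A q M).Nonempty := by
  obtain ⟨Z, ⟨z, hz⟩, hZc, hZo, -⟩ :=
    Fermat.Agent.BAD.H30.num_final_tame M q hq ht hqM A hA (Dvd.intro_left M rfl)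
  exact ⟨z, hZc z hz, hZo z hz⟩

/-- The two versions of `j` in `F_N` agree. -/
theorem algebraMap_jF :
    letI := algF (hleMN q M)
    algebraMap (FN M) (FN (M * q * q)) (RED.H73.jF (L := Kbar) M)
      = Fermat.Agent.S24.jF (M * q * q) := by
  apply Subtype.ext
  show jqModC Kbar = coeffEmb Kbar jq
  have h := RED.H73.coeffEmb_qExpand_jq (L := Kbar) 1
  rw [qExpand_one_apply, qExpand_one_apply] at h
  exact h.symm

include hq hqM hA ht in
/-- `j` is regular over the supersingular points. -/
theorem regAt_jF_of_ssM {z : Place (kV A) (FM A M)} (hz : z ∈ ssM A q M)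
    (P : Place Kbar (FN (M * q * q))) (hP : rhoM A q M hq hqM hA ht P = z) :
    RegAt P (Fermat.Agent.S24.jF (M * q * q)) := by
  letI := algF (hleMN q M)
  haveI := tower_FNU q M
  haveI := finite_FNU' q M
  have h0 : 0 ≤ ((H91.seM hq hqM ht hA).r (P.restrict (FN M))).ord
      (Fermat.Agent.BAD.H91.jRed A M) := by
    have e : (H91.seM hq hqM ht hA).r (P.restrict (FN M)) = z := hP
    rw [e]
    exact hz.1
  have h1 : 0 ≤ (P.restrict (FN M)).ord (RED.H73.jF (L := Kbar) M) :=
    H91.ord_jF_nonneg_of_rM hq hqM ht hA _ h0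
  have h2 : 0 ≤ P.ord (algebraMap (FN M) (FN (M * q * q)) (RED.H73.jF (L := Kbar) M)) := by
    rw [P.ord_restrict]
    exact mul_nonneg (Int.natCast_nonneg _) h1
  rw [algebraMap_jF] at h2
  exact regAt_of_ord_nonneg h2

include hq hqM hA ht in
/-- **`hSS0`**: the supersingular points are points of every chart of `totM` with coordinate
ring `B = intSub (Rur A) j`. -/
theorem inChart_ssM :
    letI := algkM A M
    ∀ (C : Chart ↥(Rur A) ↥(L0 A (M * q * q)) (kV A) (Fin 3) (kap3 (FM A M) (FM A M))),
      C.B = intSub ↥(Rur A) (j0 A (M * q * q)) → ∀ z ∈ ssM A q M,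
        InChart C (totM A q M B k hB hq hqM hA ht) z := by
  letI := algkM A M
  intro C hC z hz
  refine inChart_of_regAt C (totM A q M B k hB hq hqM hA ht) (j0 A (M * q * q)) hC z ?_ ?_
  · intro r P _
    rw [regAt_iff_mem]
    exact P.algebraMap_mem' _
  · intro P hP
    exact regAt_jF_of_ssM A q M hq hqM hA ht hz P hP

end Modular

end Fermat.Agent.S36.NU.H74
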