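import Fermat.Agent.S36.NU.H99_Units3L
import Fermat.Agent.S36.NU.H74_FinHyps

/-!
# S36 / NU-B, leaf (M4) PT-HYPS (helper41): the small modular hypotheses of
`H99.pointData_of_dichotomy` for the chart `B = intSub (Rur A) j`

Setting of helper23's `totM` (level `N = M q²`, `q ∤ M` tame, `C = FM A M`) and helper88's
`chartOf` (`R = Rur A`, `F = L0 A N`, `j = j0 A N`).

* `r20_j0`, `r11_j0`, `r02_j0` : the reductions of `j` are `j~`, `j~`, `Fr² j~`;
* `hU`, `r20_eps2`, `r11_eps1`, `r02_E02` : the reductions of the witnesses are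
  `hU ^ q`, `hU`, `hU ^ q` (`hU = Δ~(t)/Δ~(t^q)`);
* `ord_beta2_Fr2` : `ord_{β² z} (Fr² y) = q² ord_z y`;
* `hnc_mod` : `j` is not constant on any component;
* `hsurj_mod` : every place of a component is a `pt i z`;
* `hSSchar_mod` : the zeros of the reductions of the witnesses are supersingular (`H74.ssM`).
-/

set_option autoImplicit false
set_option synthInstance.maxHeartbeats 400000
set_option maxHeartbeats 1000000
set_option linter.style.haveILetI false
set_option linter.unusedSectionVars false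

noncomputable section

open ModularCurve AlgebraicCurve

namespace Fermat.Agent.S36.NU.H41

open Fermat.Agent.S24 Fermat.Agent.BAD.H88 Fermat.Agent.S28 Fermat.Agent.S28.H73
  Fermat.Agent.RED.H73 Fermat.Agent.RED.H17 Fermat.Agent.S36.NU.H88 Fermat.Agent.S36.NU.H23
  Fermat.Agent.S36.NU.H16 Fermat.Agent.S36.NU.H79 Fermat.Agent.S36.NU.H99
  Fermat.Agent.S36.NU.H74 Fermat.Agent.BAD Fermat.Agent.RED

section PtHyps

variable (A : ValuationSubring Kbar) (q M : ℕ) (B k : ℤ) (hB : B * M + k * q = 1) (hq : q.Prime)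
  [NeZero M] [NeZero q] [NeZero (M * q)] [NeZero (M * q * q)] (hqM : ¬ q ∣ M)
  (hA : A.LiesOverPrime q) (ht : H91.TameAt M q)

/-! ### The reductions of `j` -/

/-- `j` of level `M q²` comes from level `M`. -/
theorem j0_eq_inclL0 : j0 A (M * q * q) = inclL0 A (hleMN q M) (j0 A M) := by
  apply Subtype.ext
  apply Subtype.ext
  have h := coe_inclL0_series A q M (j0 A M)
  rw [h]
  show (jF (M * q * q) : LaurentSeries Kbar) = (jF M : LaurentSeries Kbar)
  rfl

/-- The `q`-expansion of `j`. -/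
theorem coe_j0_series :
    (((j0 A M : ↥(L0 A M)) : FN M) : LaurentSeries Kbar) = jqModC Kbar := by
  show Fermat.Agent.S24.jBar = jqModC Kbar
  rw [Fermat.Agent.S24.jBar, coeffEmb, ← jqModC_rat, coeffMap_jqModC]

/-- `j` is Gauss-integral. -/
theorem j0_mem_VE0 : j0 A M ∈ VE0 A M := by
  rw [mem_VE0_iff, coe_j0_series]
  exact jqModC_mem_gaussRingV A

theorem sE_j0 : sE A M ⟨j0 A M, j0_mem_VE0 A M⟩ = jqModC (kV A) := by
  have e : (⟨((j0 A M : ↥(L0 A M)) : FN M), j0_mem_VE0 A M⟩ : gaussRingV A)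
      = ⟨jqModC Kbar, jqModC_mem_gaussRingV A⟩ := Subtype.ext (coe_j0_series A M)
  exact ((sE_mk A M (j0 A M) (j0_mem_VE0 A M)).trans (congrArg (gaussRedV A) e)).trans
    (gaussRedV_jqModC A _)

theorem coe_jRed : ((H91.jRed A M : FM A M) : LaurentSeries (kV A)) = jqModC (kV A) :=
  RED.H73.red_jF A M

/-- The reduction of `j` at level `M` is `j~`. -/
theorem rE_j0 : rE A M ⟨j0 A M, j0_mem_VE0 A M⟩ = H91.jRed A M := by
  apply Subtype.ext
  have h1 : ((rE A M ⟨j0 A M, j0_mem_VE0 A M⟩ : FM A M) : LaurentSeries (kV A))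
      = jqModC (kV A) := sE_j0 A M
  exact h1.trans (coe_jRed A M).symm

theorem j0_mem20 : j0 A (M * q * q) ∈ V20o A q M := by
  rw [j0_eq_inclL0]
  exact hVE20 A q M _ (j0_mem_VE0 A M)

include hq in
theorem j0_mem11 : j0 A (M * q * q) ∈ V11o A q M B k hB hq := by
  rw [j0_eq_inclL0]
  exact hVE11 A q M B k hB hq _ (j0_mem_VE0 A M)

include hq in
theorem j0_mem02 : j0 A (M * q * q) ∈ V02o A q M B k hB := by
  rw [j0_eq_inclL0]
  exact hVE02 A q M B k hB hq _ (j0_mem_VE0 A M)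

theorem r20_j0 (h : j0 A (M * q * q) ∈ V20o A q M) :
    r20 A q M hq hqM hA ⟨j0 A (M * q * q), h⟩ = H91.jRed A M := by
  have h' : inclL0 A (hleMN q M) (j0 A M) ∈ V20o A q M := by
    rw [← j0_eq_inclL0]; exact h
  have e : (⟨j0 A (M * q * q), h⟩ : ↥(V20o A q M)) = ⟨inclL0 A (hleMN q M) (j0 A M), h'⟩ :=
    Subtype.ext (j0_eq_inclL0 A q M)
  rw [e, r20_incl A q M hq hqM hA ⟨j0 A M, j0_mem_VE0 A M⟩ h', rE_j0]

theorem r11_j0 (h : j0 A (M * q * q) ∈ V11o A q M B k hB hq) :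
    r11 A q M B k hB hq hqM hA ⟨j0 A (M * q * q), h⟩ = H91.jRed A M := by
  have h' : inclL0 A (hleMN q M) (j0 A M) ∈ V11o A q M B k hB hq := by
    rw [← j0_eq_inclL0]; exact h
  have e : (⟨j0 A (M * q * q), h⟩ : ↥(V11o A q M B k hB hq))
      = ⟨inclL0 A (hleMN q M) (j0 A M), h'⟩ :=
    Subtype.ext (j0_eq_inclL0 A q M)
  rw [e, r11_incl A q M B k hB hq hqM hA ⟨j0 A M, j0_mem_VE0 A M⟩ h', rE_j0]

theorem r02_j0 (h : j0 A (M * q * q) ∈ V02o A q M B k hB) :
    r02 A q M B k hB hq hqM hA ⟨j0 A (M * q * q), h⟩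
      = FrM A q M hq hqM hA (FrM A q M hq hqM hA (H91.jRed A M)) := by
  have h' : inclL0 A (hleMN q M) (j0 A M) ∈ V02o A q M B k hB := by
    rw [← j0_eq_inclL0]; exact h
  have e : (⟨j0 A (M * q * q), h⟩ : ↥(V02o A q M B k hB))
      = ⟨inclL0 A (hleMN q M) (j0 A M), h'⟩ :=
    Subtype.ext (j0_eq_inclL0 A q M)
  rw [e, r02_incl A q M B k hB hq hqM hA ⟨j0 A M, j0_mem_VE0 A M⟩ h', rE_j0]

/-- `j~` is not a constant. -/
theorem jRed_ne_const (c : kV A) : H91.jRed A M ≠ algebraMap (kV A) (FM A M) c := by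
  intro h
  apply RED.H73.transcendental_red_jF A M
  have h2 : (redSetting A (hasScale_laurentBaseChange A M)).red
      ⟨RED.H73.jF (L := Kbar) M, RED.H73.jF_mem A M⟩
        = algebraMap (kV A) (FM A M) c := h
  rw [h2]
  exact isAlgebraic_algebraMap c

theorem jRed_ne_zero : H91.jRed A M ≠ 0 := by
  intro h
  apply jRed_ne_const A M 0
  rw [h, map_zero]

/-! ### `Fr²` and `β²` -/

theorem norm_Fr2 (y : FM A M) :
    @Algebra.norm (FM A M) (FM A M) _ _ (alg2M A q M hq hqM hA)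
      (FrM A q M hq hqM hA (FrM A q M hq hqM hA y)) = y ^ (q ^ 2) := by
  letI := alg2M A q M hq hqM hA
  have h := Algebra.norm_algebraMap (R := FM A M) (S := FM A M) y
  rw [finrank_alg2M A q M hq hqM hA] at h
  exact h

/-- `ord_{β² z} (Fr² y) = q² ord_z y`. -/
theorem ord_beta2_Fr2 (z : Place (kV A) (FM A M)) (y : FM A M) :
    (betaM A q M hq hqM hA (betaM A q M hq hqM hA z)).ord
        (FrM A q M hq hqM hA (FrM A q M hq hqM hA y))
      = (q : ℤ) ^ 2 * z.ord y := by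
  rw [← ord_norm_alg2M A q M hq hqM hA z, norm_Fr2 A q M hq hqM hA y, RED.H17.ord_pow]
  push_cast
  ring

theorem FrM_ne_const (y : FM A M) (hy : ∀ c : kV A, y ≠ algebraMap (kV A) (FM A M) c)
    (c : kV A) :
    FrM A q M hq hqM hA (FrM A q M hq hqM hA y) ≠ algebraMap (kV A) (FM A M) c := by
  intro h
  apply hy c
  have h1 : FrM A q M hq hqM hA (FrM A q M hq hqM hA y)
      = FrM A q M hq hqM hA (FrM A q M hq hqM hA (algebraMap (kV A) (FM A M) c)) := by
    rw [h, AlgHom.commutes, AlgHom.commutes]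
  exact (FrM A q M hq hqM hA).toRingHom.injective
    ((FrM A q M hq hqM hA).toRingHom.injective h1)

/-! ### The reductions of the witnesses -/

/-- `hU = Δ~(t) / Δ~(t^q)` as an element of the residue field of level `M`. -/
def hU : FM A M := r20 A q M hq hqM hA ⟨eps1o A q M, eps1o_mem20 A q M⟩

theorem coe_hU : ((hU A q M hq hqM hA : FM A M) : LaurentSeries (kV A)) = HU A q M := by
  unfold hU
  rw [coe_r20, s20_eps1]

theorem hU_ne_zero : hU A q M hq hqM hA ≠ 0 := by
  intro h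
  apply HU_ne_zero A q M
  rw [← coe_hU A q M hq hqM hA, h]
  rfl

theorem coe_pow_FM (y : FM A M) (n : ℕ) :
    ((y ^ n : FM A M) : LaurentSeries (kV A)) = (y : LaurentSeries (kV A)) ^ n := rfl

theorem FrM_hU : FrM A q M hq hqM hA (hU A q M hq hqM hA) = hU A q M hq hqM hA ^ q := by
  apply Subtype.ext
  rw [coe_FrM, coe_pow_FM, coe_hU, qExpand_HU A q M hq hA]

theorem r20_eps2 (h : eps2o A q M ∈ V20o A q M) :
    r20 A q M hq hqM hA ⟨eps2o A q M, h⟩ = hU A q M hq hqM hA ^ q := by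
  apply Subtype.ext
  rw [coe_r20, coe_pow_FM, coe_hU, s20_eps2, qExpand_HU A q M hq hA]

theorem r11_eps1 (h : eps1o A q M ∈ V11o A q M B k hB hq) :
    r11 A q M B k hB hq hqM hA ⟨eps1o A q M, h⟩ = hU A q M hq hqM hA := by
  apply Subtype.ext
  rw [coe_r11, coe_hU, s11_eps1]

theorem r02_E02 (h : E02o A q M ∈ V02o A q M B k hB) :
    r02 A q M B k hB hq hqM hA ⟨E02o A q M, h⟩ = hU A q M hq hqM hA ^ q := by
  apply Subtype.ext
  rw [coe_r02, coe_pow_FM, coe_hU, s02_E02 A q M B k hB hq, qExpand_HU A q M hq hA]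

/-! ### Supersingular points -/

/-- A zero of `hU` at which `j~` is regular is supersingular. -/
theorem mem_ssM_of_ord {z : Place (kV A) (FM A M)} (hj : 0 ≤ z.ord (H91.jRed A M))
    (hu : 0 < z.ord (hU A q M hq hqM hA)) : z ∈ ssM A q M := by
  refine ⟨hj, fun y hy => ?_⟩
  have e : y = hU A q M hq hqM hA := by
    apply Subtype.ext
    rw [coe_hU]
    exact hy
  rw [e]
  exact hu

/-! ### Orders -/

theorem ord_nonneg_of_regAt_Fr2 {z : Place (kV A) (FM A M)} {y : FM A M}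
    (h : RegAt (betaM A q M hq hqM hA (betaM A q M hq hqM hA z))
      (FrM A q M hq hqM hA (FrM A q M hq hqM hA y))) : 0 ≤ z.ord y := by
  have h1 := h.ord_nonneg
  rw [ord_beta2_Fr2] at h1
  have hq2 : (0 : ℤ) < (q : ℤ) ^ 2 := by
    have : (0 : ℤ) < (q : ℤ) := by exact_mod_cast hq.pos
    positivity
  exact nonneg_of_mul_nonneg_right h1 hq2

include hq in
theorem ord_pos_of_vanAt_pow {v : Place (kV A) (FM A M)} {y : FM A M} (hy : y ≠ 0)
    (h : VanAt v (y ^ q)) : 0 < v.ord y := by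
  have h1 := h.ord_pos (pow_ne_zero q hy)
  rw [RED.H17.ord_pow] at h1
  have hq0 : (0 : ℤ) < (q : ℤ) := by exact_mod_cast hq.pos
  exact pos_of_mul_pos_right h1 hq0.le

theorem ord_pos_of_vanAt_beta2 {z : Place (kV A) (FM A M)}
    (h : VanAt (betaM A q M hq hqM hA (betaM A q M hq hqM hA z)) (hU A q M hq hqM hA ^ q)) :
    0 < z.ord (hU A q M hq hqM hA) := by
  have h0 := hU_ne_zero A q M hq hqM hA
  have h1 : 0 < (betaM A q M hq hqM hA (betaM A q M hq hqM hA z)).ord
      (hU A q M hq hqM hA ^ q) := h.ord_pos (pow_ne_zero q h0)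
  have e : FrM A q M hq hqM hA (FrM A q M hq hqM hA (hU A q M hq hqM hA))
      = (hU A q M hq hqM hA ^ q) ^ q := by
    rw [FrM_hU, map_pow, FrM_hU]
  have h2 := ord_beta2_Fr2 A q M hq hqM hA z (hU A q M hq hqM hA)
  rw [e, RED.H17.ord_pow] at h2
  have hq0 : (0 : ℤ) < (q : ℤ) := by exact_mod_cast hq.pos
  have h3 : (0 : ℤ) < (q : ℤ) ^ 2 * z.ord (hU A q M hq hqM hA) := by
    rw [← h2]
    exact mul_pos hq0 h1
  exact pos_of_mul_pos_right h3 (by positivity)

end PtHyps

/-! ## The three hypotheses for the chart `B = intSub (Rur A) j` -/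

section ChartHyps

variable (A : ValuationSubring Kbar) (q M : ℕ) (B k : ℤ) (hB : B * M + k * q = 1) (hq : q.Prime)
  [NeZero M] [NeZero q] [NeZero (M * q)] [NeZero (M * q * q)] (hqM : ¬ q ∣ M)
  (hA : A.LiesOverPrime q) (ht : H91.TameAt M q) (res : ↥(Rur A) →+* kV A)

/-- **(1)** `j` is not constant on any component. -/
theorem hnc_mod :
    letI := algkM A M
    ∀ (h : ChartInput (totM A q M B k hB hq hqM hA ht) (j0 A (M * q * q)) res) (i : Fin 3),
      ∃ β : ↥(chartOf (totM A q M B k hB hq hqM hA ht) (j0 A (M * q * q)) res h).B,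
        ∀ c : kV A,
          (chartOf (totM A q M B k hB hq hqM hA ht) (j0 A (M * q * q)) res h).rdB i β
            ≠ algebraMap (kV A) (kap3 (FM A M) (FM A M) i) c := by
  letI := algkM A M
  intro h i
  refine ⟨⟨j0 A (M * q * q),
    Fermat.Agent.S36.NU.H65.self_mem_intSub ↥(H41.Rur A) (j0 A (M * q * q))⟩, fun c hc => ?_⟩
  fin_cases i
  · have hc' : r20 A q M hq hqM hA ⟨j0 A (M * q * q), j0_mem20 A q M⟩
        = algebraMap (kV A) (FM A M) c := hc
    rw [r20_j0] at hc'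
    exact jRed_ne_const A M c hc'
  · have hc' : r11 A q M B k hB hq hqM hA ⟨j0 A (M * q * q), j0_mem11 A q M B k hB hq⟩
        = algebraMap (kV A) (FM A M) c := hc
    rw [r11_j0] at hc'
    exact jRed_ne_const A M c hc'
  · have hc' : r02 A q M B k hB hq hqM hA ⟨j0 A (M * q * q), j0_mem02 A q M B k hB hq⟩
        = algebraMap (kV A) (FM A M) c := hc
    rw [r02_j0] at hc'
    exact FrM_ne_const A q M hq hqM hA _ (jRed_ne_const A M) c hc'

theorem hsurj_two (v : Place (kV A) (FM A M)) :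
    ∃ z, betaM A q M hq hqM hA (betaM A q M hq hqM hA z) = v :=
  ⟨(betaM A q M hq hqM hA).symm ((betaM A q M hq hqM hA).symm v), by
    rw [Equiv.apply_symm_apply, Equiv.apply_symm_apply]⟩

/-- **(2)** every place of a component is a `pt i z`. -/
theorem hsurj_mod :
    letI := algkM A M
    ∀ (i : Fin 3) (v : Place (kV A) (kap3 (FM A M) (FM A M) i)),
      ∃ z, (totM A q M B k hB hq hqM hA ht).pt i z = v := by
  letI := algkM A M
  intro i v
  fin_cases i
  · exact ⟨v, rfl⟩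
  · exact ⟨v, rfl⟩
  · exact hsurj_two A q M hq hqM hA v

/-- **(3)** the zeros of the reductions of the ordinary witnesses `eps2`, `eps1`, `E02` are
supersingular. -/
theorem hSSchar_mod :
    letI := algkM A M
    ∀ (h : ChartInput (totM A q M B k hB hq hqM hA ht) (j0 A (M * q * q)) res)
      (wit : Fin 3 → ↥(chartOf (totM A q M B k hB hq hqM hA ht) (j0 A (M * q * q)) res h).B),
      ((wit 0 : ↥(L0 A (M * q * q))) = eps2o A q M) →
      ((wit 1 : ↥(L0 A (M * q * q))) = eps1o A q M) →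
      ((wit 2 : ↥(L0 A (M * q * q))) = E02o A q M) →
      ∀ (i : Fin 3) (z : Place (kV A) (FM A M)),
        (∀ β : ↥(chartOf (totM A q M B k hB hq hqM hA ht) (j0 A (M * q * q)) res h).B,
          RegAt ((totM A q M B k hB hq hqM hA ht).pt i z)
            ((chartOf (totM A q M B k hB hq hqM hA ht) (j0 A (M * q * q)) res h).rdB i β)) →
        VanAt ((totM A q M B k hB hq hqM hA ht).pt i z)
          ((chartOf (totM A q M B k hB hq hqM hA ht) (j0 A (M * q * q)) res h).rdB i (wit i)) →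
        z ∈ ssM A q M := by
  letI := algkM A M
  intro h wit hw0 hw1 hw2 i z hreg hvan
  have hj := hreg ⟨j0 A (M * q * q),
    Fermat.Agent.S36.NU.H65.self_mem_intSub ↥(H41.Rur A) (j0 A (M * q * q))⟩
  fin_cases i
  · have hj' : RegAt z (r20 A q M hq hqM hA ⟨j0 A (M * q * q), j0_mem20 A q M⟩) := hj
    rw [r20_j0] at hj'
    have e : (⟨(wit 0 : ↥(L0 A (M * q * q))),
        (chartOf (totM A q M B k hB hq hqM hA ht) (j0 A (M * q * q)) res h).B_le 0 _ (wit 0).2⟩ :
          ↥(V20o A q M)) = ⟨eps2o A q M, eps2o_mem20 A q M⟩ := Subtype.ext hw0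
    have hv' : VanAt z (r20 A q M hq hqM hA ⟨eps2o A q M, eps2o_mem20 A q M⟩) := by
      rw [← e]; exact hvan
    rw [r20_eps2] at hv'
    exact mem_ssM_of_ord A q M hq hqM hA hj'.ord_nonneg
      (ord_pos_of_vanAt_pow A q M hq (hU_ne_zero A q M hq hqM hA) hv')
  · have hj' : RegAt z (r11 A q M B k hB hq hqM hA
        ⟨j0 A (M * q * q), j0_mem11 A q M B k hB hq⟩) := hj
    rw [r11_j0] at hj'
    have e : (⟨(wit 1 : ↥(L0 A (M * q * q))),
        (chartOf (totM A q M B k hB hq hqM hA ht) (j0 A (M * q * q)) res h).B_le 1 _ (wit 1).2⟩ :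
          ↥(V11o A q M B k hB hq)) = ⟨eps1o A q M, eps1o_mem11 A q M B k hB hq⟩ :=
      Subtype.ext hw1
    have hv' : VanAt z (r11 A q M B k hB hq hqM hA
        ⟨eps1o A q M, eps1o_mem11 A q M B k hB hq⟩) := by
      rw [← e]; exact hvan
    rw [r11_eps1] at hv'
    exact mem_ssM_of_ord A q M hq hqM hA hj'.ord_nonneg
      (hv'.ord_pos (hU_ne_zero A q M hq hqM hA))
  · have hj' : RegAt (betaM A q M hq hqM hA (betaM A q M hq hqM hA z))
        (r02 A q M B k hB hq hqM hA ⟨j0 A (M * q * q), j0_mem02 A q M B k hB hq⟩) := hj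
    rw [r02_j0] at hj'
    have e : (⟨(wit 2 : ↥(L0 A (M * q * q))),
        (chartOf (totM A q M B k hB hq hqM hA ht) (j0 A (M * q * q)) res h).B_le 2 _ (wit 2).2⟩ :
          ↥(V02o A q M B k hB)) = ⟨E02o A q M, E02o_mem02 A q M B k hB hq⟩ :=
      Subtype.ext hw2
    have hv' : VanAt (betaM A q M hq hqM hA (betaM A q M hq hqM hA z))
        (r02 A q M B k hB hq hqM hA ⟨E02o A q M, E02o_mem02 A q M B k hB hq⟩) := by
      rw [← e]; exact hvan
    rw [r02_E02] at hv'
    exact mem_ssM_of_ord A q M hq hqM hA (ord_nonneg_of_regAt_Fr2 A q M hq hqM hA hj')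
      (ord_pos_of_vanAt_beta2 A q M hq hqM hA hv')

end ChartHyps

end Fermat.Agent.S36.NU.H41
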