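import Fermat.Agent.S36.NU.H17_BranchMod

/-!
# S36 / NU-B, (L2-iv) at the cusps of the chart of `1 / j`, component `02` (helper42)

Level `N = M q²`, `q ∤ M` tame; `chartInf` = the chart of `u = 1 / j` (helper88),
`B∞ = ` the integral closure of `R^ur[u]` in the inertia-fixed functions of level `N`.

On the component `02` the reduction of `u` is `ū ^ q²` (`ū = 1 / j̄`) and the lift of a function
`f` of the good level is `f'' = f(q²τ)`, which is integral over `K^ur[1 / j'']` only; but `j` is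
integral over `R^ur[j'']` (hypothesis `hj0`), so that `G(u)^m f'' ∈ B∞` for a polynomial `G` with
`G(0) = 1` (helper17 `exists_unit_pow_mul_isIntegral`), and `G(u)` is a unit at the cusps.

* `red_jF_inv` : the reduction of `1 / j` at the good level is `1 / j̄`;
* `isIntegral_incBB_jdd_inv` : `f''` is integral over `K^ur[1 / j'']`;
* `branch_chartInf_two_of` : **the branch of the component `02` through a cusp** of `chartInf`
  (`H17.branch_of_normal_local`), from `hj0`.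

This file has no open goals.
-/

set_option autoImplicit false
set_option synthInstance.maxHeartbeats 400000
set_option maxHeartbeats 1000000
set_option linter.style.haveILetI false
set_option linter.unusedSectionVars false

noncomputable section

open ModularCurve AlgebraicCurve Polynomial IntermediateField
open Fermat.Agent.S24 Fermat.Agent.BAD.H88 Fermat.Agent.S28 Fermat.Agent.S28.H73
open Fermat.Agent.RED.H73 Fermat.Agent.RED.H17 Fermat.Agent.S36.NU.H88
open Fermat.Agent.S36.NU.H23 Fermat.Agent.S36.NU.H41 Fermat.Agent.S36.NU.H17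
open Fermat.Agent.S36.NU.H16 Fermat.Agent.S36.NU.H65 Fermat.Agent.BAD

namespace Fermat.Agent.S36.NU.H42B

section Ubar

variable (A : ValuationSubring Kbar) (M : ℕ) [NeZero M]

theorem jbar_ne_zero {q : ℕ} [NeZero q] (hq : q.Prime) : jbar A M ≠ 0 := by
  intro h
  have h1 : ((jbar A M : FM A M) : LaurentSeries (kV A)) = 0 := by rw [h]; rfl
  rw [coe_jbar, ← Jred_eq_jqModC'] at h1
  exact Jred_ne_zero A q hq h1

/-- The reduction of `1 / j` at the good level is `1 / j̄`. -/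
theorem red_jF_inv {q : ℕ} [NeZero q] (hq : q.Prime) :
    redM A M ⟨(Fermat.Agent.RED.H73.jF (L := Kbar) M)⁻¹, jF_inv_mem A M⟩ = (jbar A M)⁻¹ := by
  apply eq_inv_of_mul_eq_one_left
  have hj0 : Fermat.Agent.RED.H73.jF (L := Kbar) M ≠ 0 := by
    intro h0
    apply jbar_ne_zero A M hq
    unfold jbar
    have : (⟨Fermat.Agent.RED.H73.jF (L := Kbar) M, jF_mem A M⟩ : ↥(VM A M)) = 0 :=
      Subtype.ext h0
    rw [this, map_zero]
  unfold jbar
  rw [← map_mul]
  have e : (⟨(Fermat.Agent.RED.H73.jF (L := Kbar) M)⁻¹, jF_inv_mem A M⟩ : ↥(VM A M))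
      * ⟨Fermat.Agent.RED.H73.jF (L := Kbar) M, jF_mem A M⟩ = 1 :=
    Subtype.ext (inv_mul_cancel₀ hj0)
  rw [e, map_one]

end Ubar

section Lift

variable (A : ValuationSubring Kbar) (q M : ℕ) [NeZero M] [NeZero q] [NeZero (M * q * q)]

/-- `f'' = f(t^{q²})` is integral over `K^ur[1 / j'']` inside `L₀(M q²)`, for `f` integral over
`K^ur[1 / j]`. -/
theorem isIntegral_incBB_jdd_inv (f : FN M) (hf : f ∈ L0 A M)
    (hint : ((aeval (Fermat.Agent.RED.H73.jF (L := Kbar) M)⁻¹ :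
        Kbar[X] →ₐ[Kbar] FN M).toRingHom.comp (mapRingHom (iotaUr A))).IsIntegralElem f) :
    IsIntegral ↥(Algebra.adjoin ↥(Kur A) {(jdd A q M)⁻¹})
      (⟨incBB q M f, incBB_mem_L0 A q M f hf⟩ : ↥(L0 A (M * q * q))) := by
  refine isIntegral_adjoin_of_isIntegralElem A (M * q * q) (jdd A q M)⁻¹
    ⟨incBB q M f, incBB_mem_L0 A q M f hf⟩ ?_
  have h := Fermat.Agent.S36.NU.H22.isIntegralElem_map_algHom A M (incBB q M) _ f hint
  haveI : NeZero (q * q) := ⟨mul_ne_zero (NeZero.ne q) (NeZero.ne q)⟩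
  have hj : incBB q M (Fermat.Agent.RED.H73.jF (L := Kbar) M)
      = ((jdd A q M : ↥(L0 A (M * q * q))) : FN (M * q * q)) := by
    rw [← Fermat.Agent.RED.H76.jF_eq, ← jdF_one_eq_jF M, incBB_jdF_one q M (sq_dvd_lvl q M),
      coe_jdd]
  have hj' : incBB q M (Fermat.Agent.RED.H73.jF (L := Kbar) M)⁻¹
      = (((jdd A q M)⁻¹ : ↥(L0 A (M * q * q))) : FN (M * q * q)) := by
    rw [map_inv₀, hj]
    rfl
  rw [hj'] at h
  exact h

end Lift

section BranchInf

variable (A : ValuationSubring Kbar) (q M : ℕ) (B k : ℤ) (hB : B * M + k * q = 1) (hq : q.Prime)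
  [NeZero M] [NeZero q] [NeZero (M * q * q)] (hqM : ¬ q ∣ M) (hA : A.LiesOverPrime q)
  (ht : H91.TameAt M q)

attribute [local instance] algkM

theorem j0_inv_mem_chartInf :
    (j0 A (M * q * q))⁻¹ ∈ (chartInf A q M B k hB hq hqM hA ht).B :=
  self_mem_intSub _ _

theorem j0_ne_zero' : j0 A (M * q * q) ≠ 0 := by
  intro h0
  have h := transcendental_j0 A (M * q * q)
  rw [h0] at h
  exact h isAlgebraic_zero

include hq in
theorem jdd_ne_zero' : jdd A q M ≠ 0 := by
  intro h0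
  have h := s20_jdd A q M (jdd_mem20 A q M)
  have e : (⟨jdd A q M, jdd_mem20 A q M⟩ : ↥(V20o A q M)) = 0 := Subtype.ext h0
  rw [e, map_zero] at h
  exact Jred2_ne_zero A q hq h.symm

/-- The reduction of `1 / j` on the component `02` is `(1 / j̄) ^ q²`. -/
theorem rdB_two_j0_inv :
    (chartInf A q M B k hB hq hqM hA ht).rdB 2
      ⟨(j0 A (M * q * q))⁻¹, j0_inv_mem_chartInf A q M B k hB hq hqM hA ht⟩
      = ((jbar A M)⁻¹) ^ q ^ 2 := by
  have h1 : (chartInf A q M B k hB hq hqM hA ht).rd 2 (j0 A (M * q * q))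
      = jbar A M ^ q ^ 2 := by
    unfold chartInf
    rw [chartOf_rd, rdN_totM_two A q M B k hB hq hqM hA ht _ (j0_mem02 A q M B k hB hq)]
    exact r02_j0_eq A q M B k hB hq hqM hA _
  have h2 : (chartInf A q M B k hB hq hqM hA ht).rd 2 (j0 A (M * q * q)) ≠ 0 := by
    rw [h1]
    exact pow_ne_zero _ (jbar_ne_zero A M hq)
  rw [← (chartInf A q M B k hB hq hqM hA ht).rd_coe 2]
  show (chartInf A q M B k hB hq hqM hA ht).rd 2 (j0 A (M * q * q))⁻¹ = _
  rw [(chartInf A q M B k hB hq hqM hA ht).rd_inv 2 h2, h1]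
  exact (inv_pow _ _).symm

/-- The residue of the lift `f''` on the component `02`. -/
theorem rd_two_incBB (f : FN M) (hf : f ∈ L0 A M) (hV : f ∈ VM A M) :
    (chartInf A q M B k hB hq hqM hA ht).rd 2
      (⟨incBB q M f, incBB_mem_L0 A q M f hf⟩ : ↥(L0 A (M * q * q))) = redM A M ⟨f, hV⟩ := by
  unfold chartInf
  rw [chartOf_rd, rdN_totM_two A q M B k hB hq hqM hA ht _
    (incBB_mem_V02o A q M B k hB hq ⟨⟨f, hf⟩, hV⟩)]
  exact r02_incBB A q M B k hB hq hqM hA ⟨⟨f, hf⟩, hV⟩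

/-- The lift `f''` lies in the three valuation rings. -/
theorem incBB_mem_totM (f : FN M) (hf : f ∈ L0 A M) (hV : f ∈ VM A M) (i : Fin 3) :
    (⟨incBB q M f, incBB_mem_L0 A q M f hf⟩ : ↥(L0 A (M * q * q)))
      ∈ (totM A q M B k hB hq hqM hA ht).V i := by
  fin_cases i
  · exact (incBB_mem_V20_iff A q M f).mpr hV
  · exact (incBB_mem_V11_iff A q M B k hB hq f).mpr hV
  · exact (incBB_mem_V02_iff A q M B k hB hq f).mpr hV

/-- **The local lift**: a function `F'` in the three valuation rings which becomes integral over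
`K^ur[u]` after multiplication by a power of `G(u)`, `G(0) = 1`, has the residue of an element of
`B∞` up to a unit at the cusp. -/
theorem exists_local_lift (G : (↥(Rur A))[X]) (hG0 : G.coeff 0 = 1)
    (F' : ↥(L0 A (M * q * q))) (hF'V : ∀ i, F' ∈ (totM A q M B k hB hq hqM hA ht).V i)
    (m : ℕ) (hm : IsIntegral ↥(Algebra.adjoin ↥(Kur A) {(j0 A (M * q * q))⁻¹})
      (aeval (j0 A (M * q * q))⁻¹ G ^ m * F'))
    (𝔪 : Ideal (chartInf A q M B k hB hq hqM hA ht).B) (hmax : 𝔪.IsMaximal)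
    (hu : ∀ β : (chartInf A q M B k hB hq hqM hA ht).B,
      (β : ↥(L0 A (M * q * q))) = (j0 A (M * q * q))⁻¹ → β ∈ 𝔪) :
    ∃ g b : (chartInf A q M B k hB hq hqM hA ht).B, g ∉ 𝔪 ∧
      (chartInf A q M B k hB hq hqM hA ht).rd 2 (b : ↥(L0 A (M * q * q)))
        = (chartInf A q M B k hB hq hqM hA ht).rd 2 (g : ↥(L0 A (M * q * q)))
          * (chartInf A q M B k hB hq hqM hA ht).rd 2 F' := by
  haveI : 𝔪.IsPrime := hmax.isPrime
  have huB𝔪 : (⟨(j0 A (M * q * q))⁻¹, j0_inv_mem_chartInf A q M B k hB hq hqM hA ht⟩ :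
      (chartInf A q M B k hB hq hqM hA ht).B) ∈ 𝔪 := hu _ rfl
  have hγ𝔪 := aeval_not_mem_of_coeff_zero 𝔪 hmax.ne_top huB𝔪 G hG0
  have hγcoe := aeval_subalgebra_coe G (chartInf A q M B k hB hq hqM hA ht).B
    ⟨(j0 A (M * q * q))⁻¹, j0_inv_mem_chartInf A q M B k hB hq hqM hA ht⟩
  have hγm : aeval (j0 A (M * q * q))⁻¹ G ^ m ∈ (chartInf A q M B k hB hq hqM hA ht).B := by
    refine pow_mem ?_ m
    rw [← hγcoe]
    exact SetLike.coe_mem _
  have hγV : ∀ i, aeval (j0 A (M * q * q))⁻¹ G ^ m ∈ (totM A q M B k hB hq hqM hA ht).V i :=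
    fun i => (chartInf A q M B k hB hq hqM hA ht).B_le i _ hγm
  have hbB : aeval (j0 A (M * q * q))⁻¹ G ^ m * F' ∈ (chartInf A q M B k hB hq hqM hA ht).B :=
    Fermat.Agent.S36.NU.H28.critInf A q M B k hB hq hqM hA ht hm
      (fun i => mul_mem (hγV i) (hF'V i))
  refine ⟨⟨_, hγm⟩, ⟨_, hbB⟩, fun h => hγ𝔪 ?_, ?_⟩
  · refine Ideal.IsPrime.mem_of_pow_mem inferInstance m ?_
    have e : (aeval (⟨(j0 A (M * q * q))⁻¹, j0_inv_mem_chartInf A q M B k hB hq hqM hA ht⟩ :
        (chartInf A q M B k hB hq hqM hA ht).B) G) ^ m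
        = (⟨_, hγm⟩ : (chartInf A q M B k hB hq hqM hA ht).B) := by
      apply Subtype.ext
      rw [SubmonoidClass.coe_pow, hγcoe]
    rw [e]
    exact h
  · exact (chartInf A q M B k hB hq hqM hA ht).rd_mul 2 (hγV 2) (hF'V 2)

/-- **The branch of the component `02` through a cusp of the chart of `1 / j`**, if `j` is
integral over `R^ur[j'']`. -/
theorem branch_chartInf_two_of
    (hj0 : IsIntegral ↥(Algebra.adjoin ↥(Rur A) {jdd A q M}) (j0 A (M * q * q)))
    (𝔪 : Ideal (chartInf A q M B k hB hq hqM hA ht).B) (hmax : 𝔪.IsMaximal)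
    (hu : ∀ β : (chartInf A q M B k hB hq hqM hA ht).B,
      (β : ↥(L0 A (M * q * q))) = (j0 A (M * q * q))⁻¹ → β ∈ 𝔪)
    (h𝔪 : (chartInf A q M B k hB hq hqM hA ht).Icomp 2 ≤ 𝔪) :
    Nonempty (Branch (chartInf A q M B k hB hq hqM hA ht) 𝔪 2) := by
  haveI : IsAlgClosed (kV A) := isAlgClosed_kV A
  haveI := finiteDimensional_jbar A M hq hqM hA
  haveI := isSeparable_jbar A M hq hqM hA
  obtain ⟨G, hG0, -, hGf⟩ := exists_unit_pow_mul_isIntegral (R := ↥(Rur A)) (K := ↥(Kur A))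
    (j0_ne_zero' A q M) (jdd_ne_zero' A q M hq) hj0
  refine @branch_of_normal_local _ _ _ _ _ _ _ _ _ _ _ _
    (chartInf A q M B k hB hq hqM hA ht) 2 (j0 A (M * q * q))⁻¹
    (j0_inv_mem_chartInf A q M B k hB hq hqM hA ht) (fun β => β.2) (jbar A M)⁻¹
    (finiteDimensional_adjoin_inv (kV A) (jbar A M)) (isSeparable_adjoin_inv (kV A) (jbar A M))
    ?_ 𝔪 hmax h𝔪 ?_
  · rw [rdB_two_j0_inv A q M B k hB hq hqM hA ht]
    exact (isIntegral_self_adjoin _).pow _
  · intro y hy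
    have hy' : IsIntegral ↥(Algebra.adjoin (kV A)
        {redM A M ⟨(Fermat.Agent.RED.H73.jF (L := Kbar) M)⁻¹, jF_inv_mem A M⟩})
        (show FM A M from y) := by
      rw [red_jF_inv A M hq]
      exact hy
    obtain ⟨f, hf, -, hint, -, hV, hred⟩ :=
      normalImg_good_inv A M hq hA hqM _ rfl (jF_inv_mem A M) y hy'
    obtain ⟨m, hm⟩ := hGf ⟨incBB q M f, incBB_mem_L0 A q M f hf⟩
      (isIntegral_incBB_jdd_inv A q M f hf hint)
    obtain ⟨g, b, hg, hgb⟩ := exists_local_lift A q M B k hB hq hqM hA ht G hG0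
      ⟨incBB q M f, incBB_mem_L0 A q M f hf⟩
      (incBB_mem_totM A q M B k hB hq hqM hA ht f hf hV) m (hm m le_rfl) 𝔪 hmax hu
    refine ⟨g, b, hg, ?_⟩
    rw [rd_two_incBB A q M B k hB hq hqM hA ht f hf hV, hred,
      (chartInf A q M B k hB hq hqM hA ht).rd_coe 2,
      (chartInf A q M B k hB hq hqM hA ht).rd_coe 2] at hgb
    exact hgb

end BranchInf

end Fermat.Agent.S36.NU.H42B
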