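import Fermat.Agent.S36.NU.H17_BranchMod

/-!
# S36 / NU-B, `hbr` for the chart of `1 / j` (helper44): components `20` and `11`

Level `N = M q²`, `q ∤ M` tame; `chartInf` = the chart of `1 / j` (helper88), `B = ` the integral
closure of `R^ur[1/j]` in the inertia-fixed functions of level `N`.

* `jinvBar A M` : the reduction of `1 / j` at the good level `M`; `κ / k(1/j̄)` is finite
  separable (`RED.H76.goodChart_jF_inv`);
* `isIntegral_incl_inv` : the lift `incl f` of a function `f` of the good level that is integral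
  over `K^ur[1/j]` is integral over `K^ur[1/j]` at the level `N`;
* `incl_mem_chartInf` : it lies in `B` (helper28 `critInf`);
* `branch_chartInf_zero`, `branch_chartInf_one` : **every closed point of the special fibre of
  `chartInf` has a branch on the components `20` and `11` through it** (`H24.branch_of_normal`,
  the lift of `y` integral over `k[1/j̄]` is `incl f`, `f` from `H17.normalImg_good_inv`);
* `branch_chartInf_of_two` : the hypothesis `hbr` of `H88.pointDataAt_chartInf` from the branches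
  on the component `02` at the cusps.
-/

set_option autoImplicit false
set_option synthInstance.maxHeartbeats 400000
set_option maxHeartbeats 1000000
set_option linter.style.haveILetI false
set_option linter.unusedSectionVars false

noncomputable section

open ModularCurve AlgebraicCurve Polynomial IntermediateField
open Fermat.Agent.S24 Fermat.Agent.BAD.H88 Fermat.Agent.S28 Fermat.Agent.S28.H73
open Fermat.Agent.RED.H73 Fermat.Agent.RED.H17 Fermat.Agent.S36.NU.H88
open Fermat.Agent.S36.NU.H23 Fermat.Agent.S36.NU.H41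
open Fermat.Agent.S36.NU.H16 Fermat.Agent.S36.NU.H65 Fermat.Agent.BAD

namespace Fermat.Agent.S36.NU.H44

section JinvBar

variable (A : ValuationSubring Kbar) (M : ℕ) [NeZero M]

/-- The reduction of `1 / j` at the level `M`. -/
def jinvBar : FM A M :=
  redM A M ⟨(Fermat.Agent.RED.H73.jF (L := Kbar) M)⁻¹, Fermat.Agent.RED.H73.jF_inv_mem A M⟩

variable {q : ℕ} (hq : q.Prime) (hqM : ¬ q ∣ M) (hA : A.LiesOverPrime q)

include hq hqM hA in
theorem finiteDimensional_jinvBar : FiniteDimensional ↥(kV A)⟮jinvBar A M⟯ (FM A M) := by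
  have G := Fermat.Agent.RED.H76.goodChart_jF_inv M hq hqM A hA
  haveI := G.fin
  have hpos : 0 < Module.finrank ↥(kV A)⟮jinvBar A M⟯ (FM A M) := by
    have h5 : Module.finrank ↥(kV A)⟮jinvBar A M⟯ (FM A M)
        = Module.finrank ↥(Kbar⟮(Fermat.Agent.RED.H73.jF (L := Kbar) M)⁻¹⟯)
            ↥(laurentBaseChange Kbar (modularFunctionFieldFull M)) := G.deg
    rw [h5]
    exact Module.finrank_pos
  exact Module.finite_of_finrank_pos hpos

include hq hqM hA in
theorem isSeparable_jinvBar : Algebra.IsSeparable ↥(kV A)⟮jinvBar A M⟯ (FM A M) :=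
  (Fermat.Agent.RED.H76.goodChart_jF_inv M hq hqM A hA).sept

end JinvBar

section LiftsInf

variable (A : ValuationSubring Kbar) (q M : ℕ) (B k : ℤ) (hB : B * M + k * q = 1) (hq : q.Prime)
  [NeZero M] [NeZero q] [NeZero (M * q * q)] (hqM : ¬ q ∣ M) (hA : A.LiesOverPrime q)
  (ht : H91.TameAt M q)

attribute [local instance] algkM

/-- `incl (1 / j) = 1 / j`. -/
theorem incAA_jF_inv :
    incAA q M (Fermat.Agent.RED.H73.jF (L := Kbar) M)⁻¹
      = (((j0 A (M * q * q))⁻¹ : ↥(L0 A (M * q * q))) : FN (M * q * q)) := by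
  have hj : incAA q M (Fermat.Agent.RED.H73.jF (L := Kbar) M)
      = ((j0 A (M * q * q) : ↥(L0 A (M * q * q))) : FN (M * q * q)) := by
    rw [← Fermat.Agent.RED.H76.jF_eq, ← jdF_one_eq_jF M, incAA_jdF_one, coe_j0']
  rw [map_inv₀, hj]
  rfl

/-- `1 / j` at the level `M q²` is the lift of `1 / j` at the level `M`. -/
theorem uoo_eq_incl :
    (j0 A (M * q * q))⁻¹ = inclL0 A (hleMN q M)
      ⟨(Fermat.Agent.RED.H73.jF (L := Kbar) M)⁻¹, (L0 A M).inv_mem (H17.jF_mem_L0 A M)⟩ := by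
  apply Subtype.ext
  rw [coe_inclL0_eq_incAA]
  exact (incAA_jF_inv A q M).symm

/-- **(A1) for `1 / j`**: `incl f` is integral over `K^ur[1/j]` inside `L₀(M q²)`. -/
theorem isIntegral_incl_inv (f : FN M) (hf : f ∈ L0 A M)
    (hint : ((aeval (Fermat.Agent.RED.H73.jF (L := Kbar) M)⁻¹ :
        Kbar[X] →ₐ[Kbar] FN M).toRingHom.comp (mapRingHom (H17.iotaUr A))).IsIntegralElem f) :
    IsIntegral ↥(Algebra.adjoin ↥(Kur A) {(j0 A (M * q * q))⁻¹})
      (inclL0 A (hleMN q M) ⟨f, hf⟩) := by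
  refine isIntegral_adjoin_of_isIntegralElem A (M * q * q) (j0 A (M * q * q))⁻¹
    (inclL0 A (hleMN q M) ⟨f, hf⟩) ?_
  have h := H22.isIntegralElem_map_algHom A M (incAA q M) _ f hint
  rw [incAA_jF_inv A q M] at h
  rw [coe_inclL0_eq_incAA]
  exact h

/-- The lift `incl f` of a function of the good level lies in `B`. -/
theorem incl_mem_chartInf (f : FN M) (hf : f ∈ L0 A M) (hV : f ∈ VM A M)
    (hint : ((aeval (Fermat.Agent.RED.H73.jF (L := Kbar) M)⁻¹ :
        Kbar[X] →ₐ[Kbar] FN M).toRingHom.comp (mapRingHom (H17.iotaUr A))).IsIntegralElem f) :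
    inclL0 A (hleMN q M) ⟨f, hf⟩ ∈ (chartInf A q M B k hB hq hqM hA ht).B := by
  refine H28.critInf A q M B k hB hq hqM hA ht (isIntegral_incl_inv A q M f hf hint) ?_
  intro i
  fin_cases i
  · exact hVE20 A q M ⟨f, hf⟩ hV
  · exact hVE11 A q M B k hB hq ⟨f, hf⟩ hV
  · exact hVE02 A q M B k hB hq ⟨f, hf⟩ hV

end LiftsInf

section BranchInf

variable (A : ValuationSubring Kbar) (q M : ℕ) (B k : ℤ) (hB : B * M + k * q = 1) (hq : q.Prime)
  [NeZero M] [NeZero q] [NeZero (M * q * q)] (hqM : ¬ q ∣ M) (hA : A.LiesOverPrime q)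
  (ht : H91.TameAt M q)

attribute [local instance] algkM

theorem uoo_mem_chartInf : (j0 A (M * q * q))⁻¹ ∈ (chartInf A q M B k hB hq hqM hA ht).B :=
  self_mem_intSub _ _

/-- The reduction of `1 / j` on the component `20`. -/
theorem r20_uoo_eq (h : (j0 A (M * q * q))⁻¹ ∈ V20o A q M) :
    r20 A q M hq hqM hA ⟨_, h⟩ = jinvBar A M := by
  have key : ∀ (x : ↥(L0 A (M * q * q))) (hx : x ∈ V20o A q M),
      x = inclL0 A (hleMN q M)
        ⟨(Fermat.Agent.RED.H73.jF (L := Kbar) M)⁻¹, (L0 A M).inv_mem (H17.jF_mem_L0 A M)⟩ →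
      r20 A q M hq hqM hA ⟨x, hx⟩ = jinvBar A M := by
    intro x hx e
    subst e
    exact r20_incl A q M hq hqM hA
      ⟨⟨_, (L0 A M).inv_mem (H17.jF_mem_L0 A M)⟩, Fermat.Agent.RED.H73.jF_inv_mem A M⟩ hx
  exact key _ h (uoo_eq_incl A q M)

/-- The reduction of `1 / j` on the component `11`. -/
theorem r11_uoo_eq (h : (j0 A (M * q * q))⁻¹ ∈ V11o A q M B k hB hq) :
    r11 A q M B k hB hq hqM hA ⟨_, h⟩ = jinvBar A M := by
  have key : ∀ (x : ↥(L0 A (M * q * q))) (hx : x ∈ V11o A q M B k hB hq),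
      x = inclL0 A (hleMN q M)
        ⟨(Fermat.Agent.RED.H73.jF (L := Kbar) M)⁻¹, (L0 A M).inv_mem (H17.jF_mem_L0 A M)⟩ →
      r11 A q M B k hB hq hqM hA ⟨x, hx⟩ = jinvBar A M := by
    intro x hx e
    subst e
    exact r11_incl A q M B k hB hq hqM hA
      ⟨⟨_, (L0 A M).inv_mem (H17.jF_mem_L0 A M)⟩, Fermat.Agent.RED.H73.jF_inv_mem A M⟩ hx
  exact key _ h (uoo_eq_incl A q M)

/-- **Branches of the chart of `1 / j` on the component `20`.** -/
theorem branch_chartInf_zero (𝔪 : Ideal (chartInf A q M B k hB hq hqM hA ht).B)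
    (hmax : 𝔪.IsMaximal) (h𝔪 : (chartInf A q M B k hB hq hqM hA ht).Icomp 0 ≤ 𝔪) :
    Nonempty (Branch (chartInf A q M B k hB hq hqM hA ht) 𝔪 0) := by
  haveI : IsAlgClosed (kV A) := isAlgClosed_kV A
  refine @H24.branch_of_normal _ _ _ _ _ _ _ _ _ _ _ _ (chartInf A q M B k hB hq hqM hA ht) 0
    (j0 A (M * q * q))⁻¹ (uoo_mem_chartInf A q M B k hB hq hqM hA ht) (fun β => β.2)
    (jinvBar A M) (finiteDimensional_jinvBar A M hq hqM hA) (isSeparable_jinvBar A M hq hqM hA)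
    ?_ ?_ 𝔪 hmax h𝔪
  · have e : (chartInf A q M B k hB hq hqM hA ht).rdB 0
        ⟨(j0 A (M * q * q))⁻¹, uoo_mem_chartInf A q M B k hB hq hqM hA ht⟩ = jinvBar A M :=
      r20_uoo_eq A q M hq hqM hA _
    rw [e]
    exact H17.isIntegral_self_adjoin _
  · intro y hy
    obtain ⟨f, hf, -, hint, -, hV, hred⟩ :=
      H17.normalImg_good_inv A M hq hA hqM _ rfl (Fermat.Agent.RED.H73.jF_inv_mem A M) y hy
    refine ⟨⟨_, incl_mem_chartInf A q M B k hB hq hqM hA ht f hf hV hint⟩, ?_⟩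
    have e : (chartInf A q M B k hB hq hqM hA ht).rdB 0
        ⟨_, incl_mem_chartInf A q M B k hB hq hqM hA ht f hf hV hint⟩ = redM A M ⟨f, hV⟩ :=
      r20_incl A q M hq hqM hA ⟨⟨f, hf⟩, hV⟩ _
    rw [e, hred]

/-- **Branches of the chart of `1 / j` on the component `11`.** -/
theorem branch_chartInf_one (𝔪 : Ideal (chartInf A q M B k hB hq hqM hA ht).B)
    (hmax : 𝔪.IsMaximal) (h𝔪 : (chartInf A q M B k hB hq hqM hA ht).Icomp 1 ≤ 𝔪) :
    Nonempty (Branch (chartInf A q M B k hB hq hqM hA ht) 𝔪 1) := by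
  haveI : IsAlgClosed (kV A) := isAlgClosed_kV A
  refine @H24.branch_of_normal _ _ _ _ _ _ _ _ _ _ _ _ (chartInf A q M B k hB hq hqM hA ht) 1
    (j0 A (M * q * q))⁻¹ (uoo_mem_chartInf A q M B k hB hq hqM hA ht) (fun β => β.2)
    (jinvBar A M) (finiteDimensional_jinvBar A M hq hqM hA) (isSeparable_jinvBar A M hq hqM hA)
    ?_ ?_ 𝔪 hmax h𝔪
  · have e : (chartInf A q M B k hB hq hqM hA ht).rdB 1
        ⟨(j0 A (M * q * q))⁻¹, uoo_mem_chartInf A q M B k hB hq hqM hA ht⟩ = jinvBar A M :=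
      r11_uoo_eq A q M B k hB hq hqM hA _
    rw [e]
    exact H17.isIntegral_self_adjoin _
  · intro y hy
    obtain ⟨f, hf, -, hint, -, hV, hred⟩ :=
      H17.normalImg_good_inv A M hq hA hqM _ rfl (Fermat.Agent.RED.H73.jF_inv_mem A M) y hy
    refine ⟨⟨_, incl_mem_chartInf A q M B k hB hq hqM hA ht f hf hV hint⟩, ?_⟩
    have e : (chartInf A q M B k hB hq hqM hA ht).rdB 1
        ⟨_, incl_mem_chartInf A q M B k hB hq hqM hA ht f hf hV hint⟩ = redM A M ⟨f, hV⟩ :=
      r11_incl A q M B k hB hq hqM hA ⟨⟨f, hf⟩, hV⟩ _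
    rw [e, hred]

/-- **`hbr` of `H88.pointDataAt_chartInf`** from the branches on the component `02` at the
cusps. -/
theorem branch_chartInf_of_two
    (h2 : ∀ 𝔪 : Ideal (chartInf A q M B k hB hq hqM hA ht).B, 𝔪.IsMaximal →
      (∀ β : (chartInf A q M B k hB hq hqM hA ht).B,
        (β : ↥(L0 A (M * q * q))) = (j0 A (M * q * q))⁻¹ → β ∈ 𝔪) →
      (chartInf A q M B k hB hq hqM hA ht).Icomp 2 ≤ 𝔪 →
        Nonempty (Branch (chartInf A q M B k hB hq hqM hA ht) 𝔪 2)) :
    ∀ 𝔪 : Ideal (chartInf A q M B k hB hq hqM hA ht).B, 𝔪.IsMaximal →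
      (∀ β : (chartInf A q M B k hB hq hqM hA ht).B,
        (β : ↥(L0 A (M * q * q))) = (j0 A (M * q * q))⁻¹ → β ∈ 𝔪) →
      ∀ i, (chartInf A q M B k hB hq hqM hA ht).Icomp i ≤ 𝔪 →
        Nonempty (Branch (chartInf A q M B k hB hq hqM hA ht) 𝔪 i) := by
  intro 𝔪 hmax hu i hi
  fin_cases i
  · exact branch_chartInf_zero A q M B k hB hq hqM hA ht 𝔪 hmax hi
  · exact branch_chartInf_one A q M B k hB hq hqM hA ht 𝔪 hmax hi
  · exact h2 𝔪 hmax hu hi

end BranchInf

end Fermat.Agent.S36.NU.H44
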