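import Fermat.Agent.S36.NU.H65_Ord11Q23
import Fermat.Agent.S36.NU.H99_OrdMod5

/-!
# S36 / NU-B, (M4) LOCEQ: the middle component at the ordinary points for `q = 2, 3` (helper65)

* `mid_q23` : `ChartL0.Mid` (helper99) for `q = 2` or `q = 3`, from `ord11_q23`;
* `hord_q23` : the hypothesis `hord` of `pointData_of_dichotomy` for `q = 2, 3`.
-/

set_option autoImplicit false
set_option synthInstance.maxHeartbeats 400000
set_option maxHeartbeats 1000000
set_option linter.unusedSectionVars false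
set_option linter.style.haveILetI false

noncomputable section

open ModularCurve AlgebraicCurve IntermediateField
open Fermat.Agent.S24 Fermat.Agent.BAD.H88 Fermat.Agent.BAD.H30 Fermat.Agent.BAD.H21
open Fermat.Agent.S28 Fermat.Agent.S28.H73 Fermat.Agent.RED.H73 Fermat.Agent.RED.H17
open Fermat.Agent.S36.NU.H88 Fermat.Agent.S36.NU.H23
open Fermat.Agent.S36.NU.H41 Fermat.Agent.RED
open Fermat.Agent.S36.NU.H99

namespace Fermat.Agent.S36.NU.H65

open Fermat.Agent.S36.NU.H16 (Chart LocEq valq_of_crit)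

section Mid23

variable {A : ValuationSubring Kbar}
variable {q M : ℕ} {B k : ℤ} {hB : B * M + k * q = 1} {hq : q.Prime} [NeZero M] [NeZero q]
  [NeZero (M * q)] [NeZero (M * q * q)]
variable {R k' : Type*} {κ : Fin 3 → Type*} [CommRing R] [Algebra R ↥(L0 A (M * q * q))]
  [Field k'] [∀ i, Field (κ i)] [∀ i, Algebra k' (κ i)]
variable {C : Chart R ↥(L0 A (M * q * q)) k' (Fin 3) κ} {qR : R} {e : Fin 3 → ℕ}
  (S : ChartL0 A q M B k hB hq C qR e 0 1 2)

include hB hq in
/-- The middle component for `q = 2, 3`. -/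
theorem mid_q23 (hA : (q : Kbar) ∈ A.nonunits) (h23 : q = 2 ∨ q = 3) : S.Mid :=
  fun 𝔪 _ hi hw => ord11_q23 S h23 hA 𝔪 hi hw

include hB hq in
/-- **The local equation data at the ordinary points, `q = 2, 3`** (hypothesis `hord` of
`pointData_of_dichotomy`). -/
theorem hord_q23 (hA : (q : Kbar) ∈ A.nonunits) (h23 : q = 2 ∨ q = 3) :
    ∀ 𝔪 : Ideal C.B, 𝔪.IsMaximal → ∀ i, C.Icomp i ≤ 𝔪 → S.wit3 hA i ∉ 𝔪 →
      Nonempty (LocEq C qR 𝔪) ∧ ∀ i', C.Icomp i' ≤ 𝔪 → i' = i :=
  hord_mod S hA (mid_q23 S hA h23)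

end Mid23

end Fermat.Agent.S36.NU.H65
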