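import Fermat.Agent.S36.NU.H51_ValVecMod
import Fermat.Agent.BAD.H42_Three

/-!
# S36 / NU-B, leaf VALVEC-MOD (helper51): the `β`-side by symmetry

`W_{q²} ∘ α = β ∘ w_q`, `V₀₂ = V₂₀ ∘ W_{q²}`, `V₂ = V₁ ∘ w_q`, and `V₁₁ ∘ W_{q²} = V₁₁` on the
inertia-fixed functions (THREE for helper23's `nrM`).  Hence NORM-VAL along `β` follows from
NORM-VAL along `α`.

* `wSo`, `wLo` : the two involutions on `L0 A (M q²)`, `L0 A (M q)`;
* `val11_wSo` : `V₁₁` is invariant under `W_{q²}`;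
* `norm_beta_eq` : `N_β x = w_q (N_α (W_{q²} x))`;
* `normValHyp_of_alpha` : `NormValHyp` from NORM-VAL along `α`.
-/

set_option autoImplicit false
set_option synthInstance.maxHeartbeats 400000
set_option maxHeartbeats 1000000
set_option linter.style.haveILetI false
set_option linter.unusedSectionVars false

noncomputable section

open ModularCurve AlgebraicCurve
open Fermat.Agent.S24 Fermat.Agent.BAD.H88 Fermat.Agent.S28 Fermat.Agent.S28.H73
open Fermat.Agent.RED.H73 Fermat.Agent.RED.H17 Fermat.Agent.S36.NU.H88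
open Fermat.Agent.S36.NU.H23 Fermat.Agent.Lib.HeckeComm Fermat.Agent.BAD
open Fermat.Agent.S36.NU.H82

namespace Fermat.Agent.S36.NU.H51

section Sym

variable (A : ValuationSubring Kbar) (q M : ℕ) (B k : ℤ) (hB : B * M + k * q = 1) (hq : q.Prime)
  [NeZero M] [NeZero q] [NeZero (M * q)] [NeZero (M * q * q)]

/-! ### The involutions on the inertia-fixed functions -/

/-- `W_{q²}` on `L0 A (M q²)`. -/
def wSo : ↥(L0 A (M * q * q)) →+* ↥(L0 A (M * q * q)) :=
  (((wS q M B k hB : FN (M * q * q) ≃ₐ[Kbar] FN (M * q * q)) :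
      FN (M * q * q) →+* FN (M * q * q)).comp (L0 A (M * q * q)).subtype).codRestrict
    (L0 A (M * q * q))
    (fun x => wSq_mem_L0 A (M * q * q) q M B k (lvl q M) hB (x : FN (M * q * q)) x.2)

theorem coe_wSo (x : ↥(L0 A (M * q * q))) :
    ((wSo A q M B k hB x : ↥(L0 A (M * q * q))) : FN (M * q * q))
      = wS q M B k hB (x : FN (M * q * q)) := rfl

theorem wSo_wSo (x : ↥(L0 A (M * q * q))) : wSo A q M B k hB (wSo A q M B k hB x) = x :=
  Subtype.ext (wSq_wSq (M * q * q) q M B k (lvl q M) hB (x : FN (M * q * q)))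

/-- `w_q` on `L0 A (M q)`. -/
def wLo : ↥(L0 A (M * q)) →+* ↥(L0 A (M * q)) :=
  (((wL q M B k hB hq : FN (M * q) ≃ₐ[Kbar] FN (M * q)) :
      FN (M * q) →+* FN (M * q)).comp (L0 A (M * q)).subtype).codRestrict
    (L0 A (M * q))
    (fun x => wq_mem_L0 A q M k B (hab_of_hB q M B k hB) hq (x : FN (M * q)) x.2)

theorem coe_wLo (x : ↥(L0 A (M * q))) :
    ((wLo A q M B k hB hq x : ↥(L0 A (M * q))) : FN (M * q))
      = wL q M B k hB hq (x : FN (M * q)) := rfl

theorem wLo_wLo (x : ↥(L0 A (M * q))) :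
    wLo A q M B k hB hq (wLo A q M B k hB hq x) = x :=
  Subtype.ext (wq_wq q M k B (hab_of_hB q M B k hB) hq (x : FN (M * q)))

/-! ### Transport of the valuations -/

theorem mem_V02o_iff_wSo (x : ↥(L0 A (M * q * q))) :
    x ∈ V02o A q M B k hB ↔ wSo A q M B k hB x ∈ V20o A q M := Iff.rfl

theorem mem_V20o_iff_wSo (x : ↥(L0 A (M * q * q))) :
    x ∈ V20o A q M ↔ wSo A q M B k hB x ∈ V02o A q M B k hB := by
  rw [mem_V02o_iff_wSo, wSo_wSo]

theorem mem_V2o_iff_wLo (x : ↥(L0 A (M * q))) :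
    x ∈ V2o A q M B k hB hq ↔ wLo A q M B k hB hq x ∈ V1o A q M := Iff.rfl

theorem mem_V1o_iff_wLo (x : ↥(L0 A (M * q))) :
    x ∈ V1o A q M ↔ wLo A q M B k hB hq x ∈ V2o A q M B k hB hq := by
  rw [mem_V2o_iff_wLo, wLo_wLo]

theorem val02_eq_iff_wSo (x y : ↥(L0 A (M * q * q))) :
    (V02o A q M B k hB).valuation x = (V02o A q M B k hB).valuation y
      ↔ (V20o A q M).valuation (wSo A q M B k hB x)
          = (V20o A q M).valuation (wSo A q M B k hB y) :=
  val_eq_iff_of_mem_iff _ _ (wSo A q M B k hB) (mem_V02o_iff_wSo A q M B k hB) x y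

theorem val20_eq_iff_wSo (x y : ↥(L0 A (M * q * q))) :
    (V20o A q M).valuation x = (V20o A q M).valuation y
      ↔ (V02o A q M B k hB).valuation (wSo A q M B k hB x)
          = (V02o A q M B k hB).valuation (wSo A q M B k hB y) :=
  val_eq_iff_of_mem_iff _ _ (wSo A q M B k hB) (mem_V20o_iff_wSo A q M B k hB) x y

theorem val2_eq_iff_wLo (x y : ↥(L0 A (M * q))) :
    (V2o A q M B k hB hq).valuation x = (V2o A q M B k hB hq).valuation y
      ↔ (V1o A q M).valuation (wLo A q M B k hB hq x)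
          = (V1o A q M).valuation (wLo A q M B k hB hq y) :=
  val_eq_iff_of_mem_iff _ _ (wLo A q M B k hB hq) (mem_V2o_iff_wLo A q M B k hB hq) x y

theorem val1_eq_iff_wLo (x y : ↥(L0 A (M * q))) :
    (V1o A q M).valuation x = (V1o A q M).valuation y
      ↔ (V2o A q M B k hB hq).valuation (wLo A q M B k hB hq x)
          = (V2o A q M B k hB hq).valuation (wLo A q M B k hB hq y) :=
  val_eq_iff_of_mem_iff _ _ (wLo A q M B k hB hq) (mem_V1o_iff_wLo A q M B k hB hq) x y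

/-! ### The uniformisers under the involutions -/

theorem wSo_natCast (n : ℕ) :
    wSo A q M B k hB ((n : ℕ) : ↥(L0 A (M * q * q))) = ((n : ℕ) : ↥(L0 A (M * q * q))) :=
  map_natCast _ n

theorem wLo_natCast (n : ℕ) :
    wLo A q M B k hB hq ((n : ℕ) : ↥(L0 A (M * q))) = ((n : ℕ) : ↥(L0 A (M * q))) :=
  map_natCast _ n

theorem wSo_zpow (x : ↥(L0 A (M * q * q))) (m : ℤ) :
    wSo A q M B k hB (x ^ m) = wSo A q M B k hB x ^ m := map_zpow₀ _ x m

theorem wLo_zpow (x : ↥(L0 A (M * q))) (m : ℤ) :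
    wLo A q M B k hB hq (x ^ m) = wLo A q M B k hB hq x ^ m := map_zpow₀ _ x m

include hq in
/-- `W_{q²} π₁₁ = - π₁₁`. -/
theorem wSo_pi11 : wSo A q M B k hB (pi11 A q M) = - pi11 A q M := by
  haveI : NeZero (q * q) := ⟨mul_ne_zero hq.ne_zero hq.ne_zero⟩
  apply Subtype.ext
  rw [coe_wSo]
  show wS q M B k hB (jdF (M * q * q) (q * q) (sq_dvd_lvl q M) - jdF (M * q * q) 1 (one_dvd _))
    = - (jdF (M * q * q) (q * q) (sq_dvd_lvl q M) - jdF (M * q * q) 1 (one_dvd _))
  rw [map_sub, ← incBB_jdF_one q M (sq_dvd_lvl q M), ← incAA_jdF_one q M,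
    wS_incBB q M B k hB hq, wS_incAA q M B k hB hq]
  ring

/-! ### `V₁₁` is invariant under `W_{q²}` -/

section Inv

variable (hqM : ¬ q ∣ M) (hA : A.LiesOverPrime q)

include hqM hA in
/-- **`V₁₁ ∘ W_{q²} = V₁₁`** on the inertia-fixed functions (THREE for `nrM`). -/
theorem mem_V11o_iff_wSo (x : ↥(L0 A (M * q * q))) :
    x ∈ V11o A q M B k hB hq ↔ wSo A q M B k hB x ∈ V11o A q M B k hB hq := by
  letI := algL0 A (hleMN q M)
  letI := algM A q M hq hqM hA
  haveI : Module.Finite ↥(L0 A M) ↥(L0 A (M * q * q)) := finite_L0_NU A q M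
  haveI : ∀ i, Module.Finite (FM A M) (kap3 (FM A M) (FM A M) i) :=
    fun i => (nrM A q M B k hB hq hqM hA).finite_res i
  set W : ValuationSubring ↥(L0 A (M * q * q)) :=
    (V11o A q M B k hB hq).comap (wSo A q M B k hB) with hWdef
  have hmemW : ∀ y : ↥(L0 A (M * q * q)), y ∈ W ↔ wSo A q M B k hB y ∈ V11o A q M B k hB hq :=
    fun y => Iff.rfl
  have hW : ∀ a : ↥(L0 A M), a ∈ (nrM A q M B k hB hq hqM hA).VE →
      algebraMap ↥(L0 A M) ↥(L0 A (M * q * q)) a ∈ W := by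
    intro a ha
    rw [hmemW]
    show ((wSo A q M B k hB (inclL0 A (hleMN q M) a) : ↥(L0 A (M * q * q))) : FN (M * q * q))
      ∈ V11 A (M * q * q) q M B k (lvl q M) hB hq
    rw [coe_wSo, coe_inclL0_eq_incAA, wS_incAA q M B k hB hq]
    exact (incBB_mem_V11_iff A q M B k hB hq (a : FN M)).mpr ha
  have hWtop : W ≠ ⊤ := by
    intro htop
    have h1 : (((q : ℕ) : ↥(L0 A (M * q * q))))⁻¹ ∈ W := by rw [htop]; trivial
    rw [hmemW, map_inv₀, wSo_natCast] at h1
    have h2 := (ValuationSubring.valuation_le_one_iff _ _).2 h1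
    have h3 : (V11o A q M B k hB hq).valuation ((q : ℕ) : ↥(L0 A (M * q * q))) < 1 := by
      rw [← inclL0_piE_eq A q M]
      exact val11_piE_lt_one A q M B k hB hq hA
    have hq0 : ((q : ℕ) : ↥(L0 A (M * q * q))) ≠ 0 := by
      rw [← inclL0_piE_eq A q M]
      exact (map_ne_zero (inclL0 A (hleMN q M))).2 (piE_ne_zero A q M hq)
    rw [map_inv₀] at h2
    have h4 := (inv_le_one₀ (zero_lt_iff.2 ((Valuation.ne_zero_iff _).2 hq0))).1 h2
    exact absurd h3 (not_lt.2 h4)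
  obtain ⟨i, hi⟩ := H42.NRData.eq_of_valuationSubring (nrM A q M B k hB hq hqM hA)
    (nrM_hdeg A q M B k hB hq hqM hA) W hW hWtop
  fin_cases i
  · -- `W = V₂₀` : then `V₁₁ = V₀₂`
    exfalso
    have hi' : W = V20o A q M := hi
    refine H82.not_le_11_02 A q M B k hB hq hA (fun y hy => ?_)
    have hy' : y ∈ V11o A q M B k hB hq := hy
    have h1 : wSo A q M B k hB y ∈ W := by
      rw [hmemW, wSo_wSo]; exact hy'
    rw [hi'] at h1
    exact (mem_V02o_iff_wSo A q M B k hB y).2 h1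
  · have hi' : W = V11o A q M B k hB hq := hi
    rw [← hmemW, hi']
  · -- `W = V₀₂` : then `V₁₁ = V₂₀`
    exfalso
    have hi' : W = V02o A q M B k hB := hi
    refine H82.not_le_11_20 A q M B k hB hq hA (fun y hy => ?_)
    have hy' : y ∈ V11o A q M B k hB hq := hy
    have h1 : wSo A q M B k hB y ∈ W := by
      rw [hmemW, wSo_wSo]; exact hy'
    rw [hi', mem_V02o_iff_wSo, wSo_wSo] at h1
    exact h1

include hqM hA in
theorem val11_eq_iff_wSo (x y : ↥(L0 A (M * q * q))) :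
    (V11o A q M B k hB hq).valuation x = (V11o A q M B k hB hq).valuation y
      ↔ (V11o A q M B k hB hq).valuation (wSo A q M B k hB x)
          = (V11o A q M B k hB hq).valuation (wSo A q M B k hB y) :=
  val_eq_iff_of_mem_iff _ _ (wSo A q M B k hB) (mem_V11o_iff_wSo A q M B k hB hq hqM hA) x y

include hqM hA in
/-- Transport of a value `v₁₁ (x) = v₁₁ (π₁₁) ^ m`. -/
theorem val11_wSo (x : ↥(L0 A (M * q * q))) (m : ℤ)
    (h : (V11o A q M B k hB hq).valuation x
      = (V11o A q M B k hB hq).valuation (pi11 A q M) ^ m) :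
    (V11o A q M B k hB hq).valuation (wSo A q M B k hB x)
      = (V11o A q M B k hB hq).valuation (pi11 A q M) ^ m := by
  rw [← map_zpow₀] at h
  have h1 := (val11_eq_iff_wSo A q M B k hB hq hqM hA x (pi11 A q M ^ m)).1 h
  rw [h1, wSo_zpow, wSo_pi11 A q M B k hB hq, map_zpow₀, Valuation.map_neg]

end Inv

/-- Transport of a value `v₀₂ (x) = v₀₂ (q) ^ m` to `v₂₀`. -/
theorem val20_wSo_of_val02 (x : ↥(L0 A (M * q * q))) (m : ℤ)
    (h : (V02o A q M B k hB).valuation x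
      = (V02o A q M B k hB).valuation ((q : ℕ) : ↥(L0 A (M * q * q))) ^ m) :
    (V20o A q M).valuation (wSo A q M B k hB x)
      = (V20o A q M).valuation ((q : ℕ) : ↥(L0 A (M * q * q))) ^ m := by
  rw [← map_zpow₀] at h
  have h1 := (val02_eq_iff_wSo A q M B k hB x _).1 h
  rw [h1, wSo_zpow, wSo_natCast, map_zpow₀]

/-- Transport of a value `v₂₀ (x) = v₂₀ (q) ^ m` to `v₀₂`. -/
theorem val02_wSo_of_val20 (x : ↥(L0 A (M * q * q))) (m : ℤ)
    (h : (V20o A q M).valuation x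
      = (V20o A q M).valuation ((q : ℕ) : ↥(L0 A (M * q * q))) ^ m) :
    (V02o A q M B k hB).valuation (wSo A q M B k hB x)
      = (V02o A q M B k hB).valuation ((q : ℕ) : ↥(L0 A (M * q * q))) ^ m := by
  rw [← map_zpow₀] at h
  have h1 := (val20_eq_iff_wSo A q M B k hB x _).1 h
  rw [h1, wSo_zpow, wSo_natCast, map_zpow₀]

/-- Transport of a value `v₁ (y) = v₁ (q) ^ m` to `v₂`. -/
theorem val2_wLo_of_val1 (y : ↥(L0 A (M * q))) (m : ℤ)
    (h : (V1o A q M).valuation y = (V1o A q M).valuation ((q : ℕ) : ↥(L0 A (M * q))) ^ m) :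
    (V2o A q M B k hB hq).valuation (wLo A q M B k hB hq y)
      = (V2o A q M B k hB hq).valuation ((q : ℕ) : ↥(L0 A (M * q))) ^ m := by
  rw [← map_zpow₀] at h
  have h1 := (val1_eq_iff_wLo A q M B k hB hq y _).1 h
  rw [h1, wLo_zpow, wLo_natCast, map_zpow₀]

/-- Transport of a value `v₂ (y) = v₂ (q) ^ m` to `v₁`. -/
theorem val1_wLo_of_val2 (y : ↥(L0 A (M * q))) (m : ℤ)
    (h : (V2o A q M B k hB hq).valuation y
      = (V2o A q M B k hB hq).valuation ((q : ℕ) : ↥(L0 A (M * q))) ^ m) :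
    (V1o A q M).valuation (wLo A q M B k hB hq y)
      = (V1o A q M).valuation ((q : ℕ) : ↥(L0 A (M * q))) ^ m := by
  rw [← map_zpow₀] at h
  have h1 := (val2_eq_iff_wLo A q M B k hB hq y _).1 h
  rw [h1, wLo_zpow, wLo_natCast, map_zpow₀]

end Sym

end Fermat.Agent.S36.NU.H51
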