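import Fermat.Agent.S36.NU.H88_Gauss
import Fermat.Agent.S36.NU.H51_ValVecSym

/-!
# S36 / NU-B, (M2) branches at the cusps, component `02` (helper82 for helper42):
`j` is integral over `R[j'']`

`j'' = j(q²τ)` is integral over `R[j]` (helper88 `jdd_mem_intSub_mod`); the Atkin–Lehner involution
`W_{q²}` exchanges `j` and `j''` and fixes the constants, hence `j` is integral over `R[j'']`.

* `isIntegral_adjoin_map` : integrality over `R[u]` is transported by `R`-algebra homomorphisms;
* `wSoAlg` : `W_{q²}` as an `R`-algebra homomorphism of the inertia-fixed functions;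
* `wSo_j0`, `wSo_jdd`;
* `isIntegral_j0_jdd` : `j` is integral over `R[j'']`.
-/

set_option autoImplicit false
set_option synthInstance.maxHeartbeats 400000
set_option maxHeartbeats 1000000
set_option linter.style.haveILetI false
set_option linter.unusedSectionVars false
set_option linter.unusedVariables false

noncomputable section

open ModularCurve AlgebraicCurve
open Fermat.Agent.S24 Fermat.Agent.BAD.H88 Fermat.Agent.S28 Fermat.Agent.S28.H73
open Fermat.Agent.RED.H73 Fermat.Agent.RED.H17 Fermat.Agent.S36.NU.H88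
open Fermat.Agent.S36.NU.H23 Fermat.Agent.S36.NU.H41 Fermat.Agent.S36.NU.H51
open Fermat.Agent.S36.NU.H65

namespace Fermat.Agent.S36.NU.H82

section Gen

variable {R F E : Type*} [CommRing R] [CommRing F] [CommRing E] [Algebra R F] [Algebra R E]

/-- Integrality over `R[u]` is transported by `R`-algebra homomorphisms. -/
theorem isIntegral_adjoin_map (Ψ : F →ₐ[R] E) (u x : F)
    (h : IsIntegral ↥(Algebra.adjoin R ({u} : Set F)) x) :
    IsIntegral ↥(Algebra.adjoin R ({Ψ u} : Set E)) (Ψ x) := by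
  have hmap : (Algebra.adjoin R ({u} : Set F)).map Ψ = Algebra.adjoin R ({Ψ u} : Set E) := by
    rw [AlgHom.map_adjoin, Set.image_singleton]
  let φ : ↥(Algebra.adjoin R ({u} : Set F)) →ₐ[R] ↥(Algebra.adjoin R ({Ψ u} : Set E)) :=
    (Ψ.comp (Algebra.adjoin R ({u} : Set F)).val).codRestrict (Algebra.adjoin R ({Ψ u} : Set E))
      (fun y => by
        rw [← hmap]
        exact ⟨y, y.2, rfl⟩)
  exact h.map_of_comp_eq (φ : ↥(Algebra.adjoin R ({u} : Set F)) →+*
    ↥(Algebra.adjoin R ({Ψ u} : Set E))) (Ψ : F →+* E) (by ext y; rfl)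

end Gen

section Mod

variable (A : ValuationSubring Kbar) (q M : ℕ) (B k : ℤ) (hB : B * M + k * q = 1) (hq : q.Prime)
  [NeZero M] [NeZero q] [NeZero (M * q)] [NeZero (M * q * q)]

/-- `W_{q²}` fixes the constants. -/
theorem wSo_algebraMap_Rur (r : ↥(Rur A)) :
    wSo A q M B k hB (algebraMap ↥(Rur A) ↥(L0 A (M * q * q)) r)
      = algebraMap ↥(Rur A) ↥(L0 A (M * q * q)) r := by
  apply Subtype.ext
  rw [coe_wSo, coe_algebraMap_Rur]
  exact (wS q M B k hB).commutes _

/-- `W_{q²}` as an `R`-algebra homomorphism of the inertia-fixed functions. -/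
def wSoAlg : ↥(L0 A (M * q * q)) →ₐ[↥(Rur A)] ↥(L0 A (M * q * q)) :=
  { wSo A q M B k hB with commutes' := wSo_algebraMap_Rur A q M B k hB }

theorem wSoAlg_apply (x : ↥(L0 A (M * q * q))) :
    wSoAlg A q M B k hB x = wSo A q M B k hB x := rfl

include hq in
/-- `W_{q²} j'' = j`. -/
theorem wSo_jdd : wSo A q M B k hB (jdd A q M) = j0 A (M * q * q) := by
  haveI : NeZero (q * q) := ⟨mul_ne_zero hq.ne_zero hq.ne_zero⟩
  apply Subtype.ext
  rw [coe_wSo, coe_jdd, coe_j0', ← incBB_jdF_one q M (sq_dvd_lvl q M), ← incAA_jdF_one q M,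
    wS_incBB q M B k hB hq]

include hq in
/-- `W_{q²} j = j''`. -/
theorem wSo_j0 : wSo A q M B k hB (j0 A (M * q * q)) = jdd A q M := by
  rw [← wSo_jdd A q M B k hB hq, wSo_wSo]

variable (hqM : ¬ q ∣ M) (hA : A.LiesOverPrime q) (ht : Fermat.Agent.BAD.H91.TameAt M q)

include hB hq hqM hA ht in
/-- **`j` is integral over `R[j'']`.** -/
theorem isIntegral_j0_jdd :
    IsIntegral ↥(Algebra.adjoin ↥(Rur A) ({jdd A q M} : Set ↥(L0 A (M * q * q))))
      (j0 A (M * q * q)) := by
  have h : IsIntegral ↥(Algebra.adjoin ↥(Rur A) ({j0 A (M * q * q)} : Set ↥(L0 A (M * q * q))))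
      (jdd A q M) := jdd_mem_intSub_mod A q M B k hB hq hqM hA ht
  have h2 := isIntegral_adjoin_map (wSoAlg A q M B k hB) (j0 A (M * q * q)) (jdd A q M) h
  rw [wSoAlg_apply, wSoAlg_apply, wSo_j0 A q M B k hB hq, wSo_jdd A q M B k hB hq] at h2
  exact h2

end Mod

end Fermat.Agent.S36.NU.H82
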