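import Fermat.Agent.S36.NU.H10_Inputs
import Fermat.Agent.S36.NU.H65_Mid23
import Fermat.Agent.S36.NU.H44_BranchInf
import Fermat.Agent.S36.NU.H42_BranchOo02
import Fermat.Agent.S36.NU.H82_J0Jdd
import Fermat.Agent.S36.NU.H41_PtHyps
import Fermat.Agent.S36.NU.H22_Hnc

/-!
# S36 / NU-B, CORE (helper10): `Stmt_NUCoreTame`, unconditionally

The last three leaves of `H10_Inputs`:

* `stmt_MidSmall`  : helper65's `H65.mid_q23`;
* `stmt_PtHypsAll` : helper22's `H22.hnc_chart0`, helper41's `H41.hsurj_mod`, `H41.hSSchar_mod`;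
* `stmt_BrooAll`   : helper44's `H44.branch_chartInf_of_two`, helper42's
  `H42B.branch_chartInf_two_of`, helper82's `H82.isIntegral_j0_jdd`;

and **`nuCoreTame : H81.Stmt_NUCoreTame`**.
-/

set_option autoImplicit false
set_option synthInstance.maxHeartbeats 400000
set_option maxHeartbeats 1000000
set_option linter.style.haveILetI false
set_option linter.unusedSectionVars false

noncomputable section

open ModularCurve AlgebraicCurve

namespace Fermat.Agent.S36.NU.H10

open Fermat.Agent.S24 Fermat.Agent.BAD Fermat.Agent.BAD.H88 Fermat.Agent.S28 Fermat.Agent.S28.H73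
  Fermat.Agent.S36.NU.H23 Fermat.Agent.S36.NU.H79 Fermat.Agent.S36.NU.H81
  Fermat.Agent.S36.NU.H41 Fermat.Agent.S36.NU.H88 Fermat.Agent.S36.NU.H16
  Fermat.Agent.S36.NU.H17 Fermat.Agent.S36.NU.H24 Fermat.Agent.S36.NU.H65
  Fermat.Agent.S36.NU.H74 Fermat.Agent.RED.H73 Fermat.Agent.RED.H17

attribute [local instance] algkM

/-- The middle ordinary points for `q = 2, 3` (helper65). -/
theorem stmt_MidSmall : Stmt_MidSmall := by
  intro A q M B k hB hq _ _ _ _ hqM hA ht h23
  exact Fermat.Agent.S36.NU.H65.mid_q23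
    (Fermat.Agent.S36.NU.H99.chartL0_mod A q M B k hB hq hqM hA ht) hA
    (h23.elim (fun h => Or.inr h.1) (fun h => Or.inl h.1))

/-- The branches at the cusps of the chart of `1 / j` (helpers 44, 42, 82). -/
theorem stmt_BrooAll : Stmt_BrooAll := by
  intro A q M B k hB hq _ _ _ _ hqM hA ht _
  exact Fermat.Agent.S36.NU.H44.branch_chartInf_of_two A q M B k hB hq hqM hA ht
    (fun 𝔪 hmax hu h𝔪 =>
      Fermat.Agent.S36.NU.H42B.branch_chartInf_two_of A q M B k hB hq hqM hA ht
        (Fermat.Agent.S36.NU.H82.isIntegral_j0_jdd A q M B k hB hq hqM hA ht) 𝔪 hmax hu h𝔪)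

/-- The three point hypotheses of the chart of `j` (helpers 22, 41). -/
theorem stmt_PtHypsAll : Stmt_PtHypsAll := by
  intro A q M B k hB hq _ _ _ _ hqM hA ht _
  refine ⟨Fermat.Agent.S36.NU.H22.hnc_chart0 A q M B k hB hq hqM hA ht,
    fun i v _ => Fermat.Agent.S36.NU.H41.hsurj_mod A q M B k hB hq hqM hA ht i v, ?_⟩
  exact Fermat.Agent.S36.NU.H41.hSSchar_mod A q M B k hB hq hqM hA ht (resRur A)
    (chartInput0 A q M B k hB hq hqM hA ht)
    (Fermat.Agent.S36.NU.H99.wit0 A q M B k hB hq hqM hA ht) rfl rfl rfl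

/-- **`Stmt_NUCoreTame`**, unconditionally. -/
theorem nuCoreTame : Stmt_NUCoreTame :=
  nuCoreTame_inputs stmt_MidSmall stmt_PtHypsAll stmt_BrooAll

end Fermat.Agent.S36.NU.H10
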