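import Mathlib.Tactic.LinearCombination
import Mathlib.Tactic.Ring
import Mathlib.Tactic.FieldSimp
import Mathlib.Algebra.Field.Basic

/-!
# S36 / NU-B, leaf Q23 (helper5): the algebra of the level-4 and level-9 Hauptmoduln in
characteristic 3 and 2

Pure commutative algebra in a field `F` with `3 = 0` resp. `2 = 0`.

Characteristic `3` (`w₁ = h₂(t)`, `w = h₂(t²)`, `h` = the Hauptmodul of `X₀(4)`):
* `q23_three_R`  : `(w₁+1)³ = j₁ w₁`, `(w+1)³ = j₁ w²`, `w₁ w ≠ 1`  ⟹  `w² = w₁² w + w₁`;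
* `q23_three_h`  : `h (w₁+1) = w - w₁`  ⟹  `h² + h = w` and `w₁ (h+1) = h²`;
* `q23_three_j`  : `(w₁+1)³ = j₀ w₁²`  ⟹  `j₀ h⁴ (h+1) = (h-1)⁶`.

Characteristic `2` (`v₁ = h₃(t)`, `v = h₃(t³)`, `h` = the Hauptmodul of `X₀(9)`):
* `q23_two_R`  : `(v₁+1)⁴ = j₁ v₁`, `(v+1)⁴ = j₁ v³`, `v₁ v ≠ 1`  ⟹  `v³ + v₁³ v² + v₁² v + v₁ = 0`;
* `q23_two_h`  : `h (v+1) = v (v₁+1)`  ⟹  `h³ + h² + h = v` and `v₁ (h²+h+1) = h³`;
* `q23_two_j`  : `(v₁+1)⁴ = j₀ v₁³`  ⟹  `j₀ h⁹ (h²+h+1) = (h+1)¹²`.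
-/

set_option autoImplicit false

namespace Fermat.Agent.S36.NU.H5

section Three

variable {F : Type*} [Field F]

theorem q23_three_R (h3 : (3 : F) = 0) {j1 w1 w : F} (e1 : (w1 + 1) ^ 3 = j1 * w1)
    (e2 : (w + 1) ^ 3 = j1 * w ^ 2) (hne : w1 * w ≠ 1) : w ^ 2 = w1 ^ 2 * w + w1 := by
  have key : (w1 * w - 1) * (w ^ 2 - w1 ^ 2 * w - w1) = 0 := by
    linear_combination (-(w ^ 2)) * e1 + w1 * e2 + (-w * w1 + w ^ 2 * w1 ^ 2) * h3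
  rcases mul_eq_zero.mp key with h | h
  · exact absurd (sub_eq_zero.mp h) hne
  · linear_combination h

theorem q23_three_h (h3 : (3 : F) = 0) {w1 w h : F} (R : w ^ 2 = w1 ^ 2 * w + w1)
    (hh : h * (w1 + 1) = w - w1) (hw1 : w1 + 1 ≠ 0) :
    h ^ 2 + h = w ∧ w1 * (h + 1) = h ^ 2 := by
  have hsq : (w1 + 1) ^ 2 ≠ 0 := pow_ne_zero 2 hw1
  constructor
  · have key : (w1 + 1) ^ 2 * (h ^ 2 + h - w) = 0 := by
      linear_combination (h * (w1 + 1) + (w - w1) + (w1 + 1)) * hh + R + (-w * w1) * h3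
    rcases mul_eq_zero.mp key with h0 | h0
    · exact absurd h0 hsq
    · linear_combination h0
  · have key : (w1 + 1) ^ 2 * (w1 * (h + 1) - h ^ 2) = 0 := by
      linear_combination (w1 * (w1 + 1) - (h * (w1 + 1) + (w - w1))) * hh - R + (w * w1) * h3
    rcases mul_eq_zero.mp key with h0 | h0
    · exact absurd h0 hsq
    · linear_combination h0

theorem q23_three_j (h3 : (3 : F) = 0) {j0 w1 h : F} (e0 : (w1 + 1) ^ 3 = j0 * w1 ^ 2)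
    (hb : w1 * (h + 1) = h ^ 2) : j0 * h ^ 4 * (h + 1) = (h - 1) ^ 6 := by
  linear_combination (-(h + 1) ^ 3) * e0 +
    (((w1 * (h + 1) + h + 1) ^ 2 + (w1 * (h + 1) + h + 1) * (h ^ 2 + h + 1)
        + (h ^ 2 + h + 1) ^ 2) - j0 * (h + 1) * (w1 * (h + 1) + h ^ 2)) * hb +
    (3 * h - 3 * h ^ 2 + 9 * h ^ 3 - 3 * h ^ 4 + 3 * h ^ 5) * h3

end Three

section Two

variable {F : Type*} [Field F]

theorem q23_two_R (h2 : (2 : F) = 0) {j1 v1 v : F} (e1 : (v1 + 1) ^ 4 = j1 * v1)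
    (e2 : (v + 1) ^ 4 = j1 * v ^ 3) (hne : v1 * v ≠ 1) :
    v ^ 3 + v1 ^ 3 * v ^ 2 + v1 ^ 2 * v + v1 = 0 := by
  have key : (v1 * v - 1) * (v ^ 3 + v1 ^ 3 * v ^ 2 + v1 ^ 2 * v + v1) = 0 := by
    linear_combination (v ^ 3) * e1 - v1 * e2 +
      (2 * v * v1 + 3 * v ^ 2 * v1 - v ^ 3 - 3 * v ^ 3 * v1 ^ 2 - 2 * v ^ 3 * v1 ^ 3
        + v ^ 4 * v1) * h2
  rcases mul_eq_zero.mp key with h | h
  · exact absurd (sub_eq_zero.mp h) hne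
  · exact h

theorem q23_two_h (h2 : (2 : F) = 0) {v1 v h : F}
    (R : v ^ 3 + v1 ^ 3 * v ^ 2 + v1 ^ 2 * v + v1 = 0)
    (hh : h * (v + 1) = v * (v1 + 1)) (hv : v + 1 ≠ 0) :
    h ^ 3 + h ^ 2 + h = v ∧ v1 * (h ^ 2 + h + 1) = h ^ 3 := by
  have hcu : (v + 1) ^ 3 ≠ 0 := pow_ne_zero 3 hv
  constructor
  · have key : (v + 1) ^ 3 * (h ^ 3 + h ^ 2 + h - v) = 0 := by
      linear_combination
        (((h * (v + 1)) ^ 2 + (h * (v + 1)) * (v * (v1 + 1)) + (v * (v1 + 1)) ^ 2)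
          + (h * (v + 1) + v * (v1 + 1)) * (v + 1) + (v + 1) ^ 2) * hh + v * R +
        (2 * v ^ 2 * v1 + 3 * v ^ 3 * v1 + 2 * v ^ 3 * v1 ^ 2 - v ^ 4) * h2
    rcases mul_eq_zero.mp key with h0 | h0
    · exact absurd h0 hcu
    · linear_combination h0
  · have key : (v + 1) ^ 3 * (v1 * (h ^ 2 + h + 1) - h ^ 3) = 0 := by
      linear_combination
        (v1 * ((h * (v + 1) + v * (v1 + 1)) * (v + 1) + (v + 1) ^ 2)
          - ((h * (v + 1)) ^ 2 + (h * (v + 1)) * (v * (v1 + 1)) + (v * (v1 + 1)) ^ 2)) * hh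
        + R + (2 * v * v1 + 3 * v ^ 2 * v1 + 2 * v ^ 2 * v1 ^ 2 - v ^ 3) * h2
    rcases mul_eq_zero.mp key with h0 | h0
    · exact absurd h0 hcu
    · linear_combination h0

theorem q23_two_j (h2 : (2 : F) = 0) {j0 v1 h : F} (e0 : (v1 + 1) ^ 4 = j0 * v1 ^ 3)
    (hb : v1 * (h ^ 2 + h + 1) = h ^ 3) :
    j0 * h ^ 9 * (h ^ 2 + h + 1) = (h + 1) ^ 12 := by
  linear_combination (-(h ^ 2 + h + 1) ^ 4) * e0 +
    (((v1 * (h ^ 2 + h + 1) + (h ^ 2 + h + 1)) ^ 3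
        + (v1 * (h ^ 2 + h + 1) + (h ^ 2 + h + 1)) ^ 2 * (h ^ 3 + (h ^ 2 + h + 1))
        + (v1 * (h ^ 2 + h + 1) + (h ^ 2 + h + 1)) * (h ^ 3 + (h ^ 2 + h + 1)) ^ 2
        + (h ^ 3 + (h ^ 2 + h + 1)) ^ 3)
      - j0 * (h ^ 2 + h + 1) * ((v1 * (h ^ 2 + h + 1)) ^ 2 + (v1 * (h ^ 2 + h + 1)) * h ^ 3
        + (h ^ 3) ^ 2)) * hb +
    (-4 * h - 28 * h ^ 2 - 100 * h ^ 3 - 232 * h ^ 4 - 376 * h ^ 5 - 440 * h ^ 6 - 376 * h ^ 7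
      - 232 * h ^ 8 - 100 * h ^ 9 - 28 * h ^ 10 - 4 * h ^ 11) * h2

end Two

end Fermat.Agent.S36.NU.H5
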