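import Mathlib.Tactic.Ring
import Mathlib.Tactic.LinearCombination
import Mathlib.Algebra.Ring.Basic
import Mathlib.Algebra.GroupWithZero.Basic
import Mathlib.Algebra.Field.Basic

/-!
# S36 / NU-B, leaf Q23-LIFT (helper5): the algebra of the integral lifts

Pure commutative algebra (any commutative ring / domain).

Level `4` (`q = 3`): `v = h₂`, `w = h₂(t²)`, `x = (w - 16 v) / (v + 16)` is the Hauptmodul
`η(τ)⁸/η(4τ)⁸` of `X₀(4)`: `x² = v x + 16 v`, `w = x² + 16 x`, `x³ = v w`.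

Level `9` (`q = 2`): `v = h₃`, `w = h₃(t³)`,
`x = (1458 v + w (v² + 18 v + 27)) / (w (v + 9) - 243 v + 729)` is the Hauptmodul
`η(τ)³/η(9τ)³` of `X₀(9)`: `x³ = v (x² + 9 x + 27)`, `w = x (x² + 9 x + 27)`, `x⁴ = v w`.
-/

set_option autoImplicit false

namespace Fermat.Agent.S36.NU.H5

section Lev4

variable {R : Type*} [CommRing R]

/-- The two Hauptmodul identities give the modular equation of level `2` times a factor. -/
theorem q23l_four_factor (v w j2 : R) (h1 : (v + 16) ^ 3 = j2 * v)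
    (h2 : (w + 256) ^ 3 = j2 * w ^ 2) :
    (w ^ 2 - (v ^ 2 + 48 * v) * w - 4096 * v) * (4096 - v * w) = 0 := by
  linear_combination w ^ 2 * h1 - v * h2

/-- The modular equation of level `2` for `h₂`, in a domain. -/
theorem q23l_four_modEq [IsDomain R] (v w j2 : R) (h1 : (v + 16) ^ 3 = j2 * v)
    (h2 : (w + 256) ^ 3 = j2 * w ^ 2) (hne : v * w ≠ 4096) :
    w ^ 2 = (v ^ 2 + 48 * v) * w + 4096 * v := by
  rcases mul_eq_zero.mp (q23l_four_factor v w j2 h1 h2) with h | h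
  · linear_combination h
  · exact absurd (by linear_combination -h) hne

theorem q23l_four_sq [IsDomain R] (x v w : R) (hx : x * (v + 16) = w - 16 * v)
    (hΦ : w ^ 2 = (v ^ 2 + 48 * v) * w + 4096 * v) (hv : v + 16 ≠ 0) :
    x ^ 2 = v * x + 16 * v := by
  have h : (x ^ 2 - (v * x + 16 * v)) * (v + 16) ^ 2 = 0 := by
    linear_combination (x * (v + 16) + (w - 16 * v) - v * (v + 16)) * hx + hΦ
  rcases mul_eq_zero.mp h with h | h
  · linear_combination h
  · exact absurd (pow_eq_zero_iff (two_ne_zero)|>.mp h) hv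

theorem q23l_four_w (x v w : R) (hx : x * (v + 16) = w - 16 * v)
    (hsq : x ^ 2 = v * x + 16 * v) : w = x ^ 2 + 16 * x := by
  linear_combination -hx - hsq

theorem q23l_four_v (x v : R) (hsq : x ^ 2 = v * x + 16 * v) : v * (x + 16) = x ^ 2 := by
  linear_combination -hsq

theorem q23l_four_cube (x v w : R) (hx : x * (v + 16) = w - 16 * v)
    (hsq : x ^ 2 = v * x + 16 * v) : x ^ 3 = v * w := by
  linear_combination (x + v) * hsq + v * hx

end Lev4

section Lev9

variable {R : Type*} [CommRing R]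

theorem q23l_nine_factor (v w j3 : R) (h1 : (v + 27) * (v + 3) ^ 3 = j3 * v)
    (h2 : (w + 27) * (w + 243) ^ 3 = j3 * w ^ 3) :
    (w ^ 3 - (v ^ 3 + 36 * v ^ 2 + 270 * v) * w ^ 2 - (729 * v ^ 2 + 26244 * v) * w
        - 531441 * v) * (729 - v * w) = 0 := by
  linear_combination w ^ 3 * h1 - v * h2

/-- The modular equation of level `3` for `h₃`, in a domain. -/
theorem q23l_nine_modEq [IsDomain R] (v w j3 : R) (h1 : (v + 27) * (v + 3) ^ 3 = j3 * v)
    (h2 : (w + 27) * (w + 243) ^ 3 = j3 * w ^ 3) (hne : v * w ≠ 729) :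
    w ^ 3 = (v ^ 3 + 36 * v ^ 2 + 270 * v) * w ^ 2 + (729 * v ^ 2 + 26244 * v) * w
      + 531441 * v := by
  rcases mul_eq_zero.mp (q23l_nine_factor v w j3 h1 h2) with h | h
  · linear_combination h
  · exact absurd (by linear_combination -h) hne

theorem q23l_nine_R1 [IsDomain R] (x v w n d : R)
    (hn : n = 1458 * v + w * (v ^ 2 + 18 * v + 27))
    (hd : d = w * (v + 9) - 243 * v + 729) (hx : x * d = n)
    (hΦ : w ^ 3 = (v ^ 3 + 36 * v ^ 2 + 270 * v) * w ^ 2 + (729 * v ^ 2 + 26244 * v) * w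
      + 531441 * v) (hd0 : d ≠ 0) :
    x ^ 3 = v * (x ^ 2 + 9 * x + 27) := by
  have h : (x ^ 3 - v * (x ^ 2 + 9 * x + 27)) * d ^ 3 = 0 := by
    have e1 : (x ^ 3 - v * (x ^ 2 + 9 * x + 27)) * d ^ 3
        = n ^ 3 - v * (n ^ 2 * d + 9 * n * d ^ 2 + 27 * d ^ 3) := by
      linear_combination (((x * d) ^ 2 + (x * d) * n + n ^ 2) - v * d * (x * d + n)
        - 9 * v * d ^ 2) * hx
    rw [e1, hn, hd]
    linear_combination (19683 - 6561 * v - 5103 * v ^ 2 - 243 * v ^ 3) * hΦ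
  rcases mul_eq_zero.mp h with h | h
  · linear_combination h
  · exact absurd (pow_eq_zero_iff (three_ne_zero)|>.mp h) hd0

theorem q23l_nine_R2 [IsDomain R] (x v w n d : R)
    (hn : n = 1458 * v + w * (v ^ 2 + 18 * v + 27))
    (hd : d = w * (v + 9) - 243 * v + 729) (hx : x * d = n)
    (hΦ : w ^ 3 = (v ^ 3 + 36 * v ^ 2 + 270 * v) * w ^ 2 + (729 * v ^ 2 + 26244 * v) * w
      + 531441 * v) (hd0 : d ≠ 0) :
    w = x * (x ^ 2 + 9 * x + 27) := by
  have h : (w - x * (x ^ 2 + 9 * x + 27)) * d ^ 3 = 0 := by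
    have e1 : (w - x * (x ^ 2 + 9 * x + 27)) * d ^ 3
        = w * d ^ 3 - n * (n ^ 2 + 9 * n * d + 27 * d ^ 2) := by
      linear_combination (-(((x * d) ^ 2 + (x * d) * n + n ^ 2) + 9 * d * (x * d + n)
        + 27 * d ^ 2)) * hx
    rw [e1, hn, hd]
    linear_combination (39366 + 243 * v * w + 1458 * v ^ 2 + 27 * v ^ 2 * w + v ^ 3 * w
      + 729 * w) * hΦ
  rcases mul_eq_zero.mp h with h | h
  · linear_combination h
  · exact absurd (pow_eq_zero_iff (three_ne_zero)|>.mp h) hd0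

theorem q23l_nine_pow (x v w : R) (h1 : x ^ 3 = v * (x ^ 2 + 9 * x + 27))
    (h2 : w = x * (x ^ 2 + 9 * x + 27)) : x ^ 4 = v * w := by
  linear_combination x * h1 - v * h2

end Lev9

end Fermat.Agent.S36.NU.H5
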