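import Mathlib

/-!
# S36 / NU-B, leaf CA1 (helper10): local generators by commutative algebra

`B` a noetherian ring, `x` in its Jacobson radical, `B ⧸ (x)` a principal ideal ring.

* `ca1_isPrincipal` : every finitely generated prime ideal `𝔭` with `x ∉ 𝔭` is principal,
  generated by any `f ∈ 𝔭` whose image generates the image of `𝔭` in `B ⧸ (x)`
  (`𝔭 = (f) + x 𝔭` and Nakayama).
* `ca1_ufm` : if moreover `B` is a domain and `(x)` is a prime ideal, `x ≠ 0`, then `B` is a
  unique factorization domain (Kaplansky's criterion).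
* `exists_unit_mul_pow_of_multiplicity` : in a UFD, an element all of whose prime multiplicities
  are divisible by `n` is a unit times an `n`-th power.
* `exists_unit_mul_pow` : `B` a UFD with fraction field `F`, `h ∈ F` nonzero such that for every
  prime element `π` of `B` there is an additive "valuation" `w : F → ℤ` with `w π = e`,
  `e` prime to `n`, `w b = 0` for `b ∈ B` not divisible by `π`, and `n ∣ w h`.  Then
  `h = u * s ^ n` with `u` a unit of `B`.

Modular use (level `q² M'`, `z` a closed point of the special fibre, `B = (B₀)_{𝔪_z}`,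
`x` a local equation at `z` of a component `C_i` through `z` which is smooth at `z`):
`B ⧸ (x)` is the local ring of `C_i` at `z`, a discrete valuation ring.  So the divisor of `h`
(`div h = n D`) is locally principal at `z`: `h = (unit at z) * s ^ n`.
-/

set_option autoImplicit false

namespace Fermat.Agent.S36.NU.H10

open Ideal

/-- **CA1**: `x` in the Jacobson radical, `B ⧸ (x)` a principal ideal ring, `𝔭` a finitely
generated prime ideal with `x ∉ 𝔭`: then `𝔭` is principal. -/
theorem ca1_isPrincipal {B : Type*} [CommRing B] (x : B)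
    (hx : x ∈ Ideal.jacobson (⊥ : Ideal B))
    [IsPrincipalIdealRing (B ⧸ Ideal.span {x})]
    (𝔭 : Ideal B) [h𝔭 : 𝔭.IsPrime] (hfg : 𝔭.FG) (hx𝔭 : x ∉ 𝔭) :
    ∃ f ∈ 𝔭, 𝔭 = Ideal.span {f} := by
  have hsurj : Function.Surjective (Ideal.Quotient.mk (Ideal.span {x})) :=
    Ideal.Quotient.mk_surjective
  obtain ⟨y, hy⟩ :=
    (IsPrincipalIdealRing.principal (Ideal.map (Ideal.Quotient.mk (Ideal.span {x})) 𝔭)).principal
  have hy' : Ideal.map (Ideal.Quotient.mk (Ideal.span {x})) 𝔭 = Ideal.span {y} := hy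
  have hy_mem : y ∈ Ideal.map (Ideal.Quotient.mk (Ideal.span {x})) 𝔭 := by
    rw [hy']; exact Ideal.subset_span rfl
  obtain ⟨f, hf𝔭, hfy⟩ := (Ideal.mem_map_iff_of_surjective _ hsurj).1 hy_mem
  refine ⟨f, hf𝔭, le_antisymm ?_ ((Ideal.span_singleton_le_iff_mem _).2 hf𝔭)⟩
  refine Submodule.le_of_le_smul_of_le_jacobson_bot (I := Ideal.span {x}) hfg
    ((Ideal.span_singleton_le_iff_mem _).2 hx) ?_
  intro g hg
  have hg' : Ideal.Quotient.mk (Ideal.span {x}) g ∈ Ideal.span {y} := by
    rw [← hy']; exact Ideal.mem_map_of_mem _ hg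
  obtain ⟨a', ha'⟩ := Ideal.mem_span_singleton'.1 hg'
  obtain ⟨a, rfl⟩ := hsurj a'
  have hmem : g - a * f ∈ Ideal.span {x} := by
    rw [← Ideal.Quotient.eq_zero_iff_mem, map_sub, map_mul, hfy, ha', sub_self]
  obtain ⟨g₁, hg₁⟩ := Ideal.mem_span_singleton'.1 hmem
  have hxg : g₁ * x ∈ 𝔭 := by
    rw [hg₁]; exact 𝔭.sub_mem hg (𝔭.mul_mem_left a hf𝔭)
  have hg₁𝔭 : g₁ ∈ 𝔭 := (h𝔭.mem_or_mem hxg).resolve_right hx𝔭
  have hgeq : g = a * f + x • g₁ := by
    rw [smul_eq_mul, mul_comm x g₁, hg₁]; ring
  rw [hgeq]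
  exact Submodule.add_mem_sup (Ideal.mul_mem_left _ _ (Ideal.subset_span rfl))
    (Submodule.smul_mem_smul (Ideal.subset_span rfl) hg₁𝔭)

/-- **CA1, UFD form**: a noetherian domain `B` with a prime element `x` in the Jacobson radical
such that `B ⧸ (x)` is a principal ideal ring is a unique factorization domain. -/
theorem ca1_ufm {B : Type*} [CommRing B] [IsDomain B] [IsNoetherianRing B] (x : B)
    (hx0 : x ≠ 0) (hx : x ∈ Ideal.jacobson (⊥ : Ideal B))
    (hprime : (Ideal.span {x}).IsPrime)
    [IsPrincipalIdealRing (B ⧸ Ideal.span {x})] : UniqueFactorizationMonoid B := by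
  rw [UniqueFactorizationMonoid.iff_exists_prime_mem_of_isPrime]
  intro I hI hIp
  by_cases hxI : x ∈ I
  · exact ⟨x, hxI, (Ideal.span_singleton_prime hx0).1 hprime⟩
  · obtain ⟨f, hf, hIf⟩ := ca1_isPrincipal x hx I (IsNoetherian.noetherian I) hxI
    have hf0 : f ≠ 0 := by
      rintro rfl
      apply hI
      rw [hIf]
      simp
    exact ⟨f, hf, (Ideal.span_singleton_prime hf0).1 (hIf ▸ hIp)⟩

/-- The local form: a noetherian local domain `B` with a prime element `x` of the maximal ideal
such that `B ⧸ (x)` is a principal ideal ring is a unique factorization domain. -/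
theorem ca1_ufm_local {B : Type*} [CommRing B] [IsDomain B] [IsNoetherianRing B]
    [IsLocalRing B] (x : B) (hx0 : x ≠ 0) (hx : x ∈ IsLocalRing.maximalIdeal B)
    (hprime : (Ideal.span {x}).IsPrime)
    [IsPrincipalIdealRing (B ⧸ Ideal.span {x})] : UniqueFactorizationMonoid B :=
  ca1_ufm x hx0 (by rwa [IsLocalRing.jacobson_eq_maximalIdeal ⊥ bot_ne_top]) hprime

/-- In a UFD, a nonzero element all of whose prime multiplicities are divisible by `n` is a
unit times an `n`-th power. -/
theorem exists_unit_mul_pow_of_multiplicity {B : Type*} [CommRing B] [IsDomain B]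
    [UniqueFactorizationMonoid B] (n : ℕ) (a : B) (ha : a ≠ 0)
    (H : ∀ π : B, Prime π → n ∣ multiplicity π a) :
    ∃ u s : B, IsUnit u ∧ a = u * s ^ n := by
  induction a using UniqueFactorizationMonoid.induction_on_coprime with
  | h0 => exact absurd rfl ha
  | h1 hxu => exact ⟨_, 1, hxu, by rw [one_pow, mul_one]⟩
  | hpr i hp =>
    rename_i p
    obtain ⟨k, hk⟩ := H p hp
    rw [multiplicity_pow_self_of_prime hp] at hk
    exact ⟨1, p ^ k, isUnit_one, by rw [one_mul, ← pow_mul, mul_comm k n, ← hk]⟩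
  | hcp hxy hPx hPy =>
    rename_i x y
    have hx0 : x ≠ 0 := left_ne_zero_of_mul ha
    have hy0 : y ≠ 0 := right_ne_zero_of_mul ha
    have hmul : ∀ π : B, Prime π → multiplicity π (x * y) = multiplicity π x + multiplicity π y :=
      fun π hπ => multiplicity_mul hπ (FiniteMultiplicity.of_prime_left hπ ha)
    have hnd : ∀ π : B, Prime π → π ∣ x → ¬ π ∣ y := fun π hπ h1 h2 =>
      hπ.not_isUnit (hxy h1 h2)
    have Hx : ∀ π : B, Prime π → n ∣ multiplicity π x := by
      intro π hπ
      by_cases hd : π ∣ x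
      · have h0 : multiplicity π y = 0 := multiplicity_eq_zero.2 (hnd π hπ hd)
        have := H π hπ
        rwa [hmul π hπ, h0, add_zero] at this
      · rw [multiplicity_eq_zero.2 hd]; exact dvd_zero n
    have Hy : ∀ π : B, Prime π → n ∣ multiplicity π y := by
      intro π hπ
      by_cases hd : π ∣ x
      · rw [multiplicity_eq_zero.2 (hnd π hπ hd)]; exact dvd_zero n
      · have h0 : multiplicity π x = 0 := multiplicity_eq_zero.2 hd
        have := H π hπ
        rwa [hmul π hπ, h0, zero_add] at this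
    obtain ⟨u₁, s₁, hu₁, e₁⟩ := hPx hx0 Hx
    obtain ⟨u₂, s₂, hu₂, e₂⟩ := hPy hy0 Hy
    exact ⟨u₁ * u₂, s₁ * s₂, hu₁.mul hu₂, by rw [e₁, e₂, mul_pow]; ring⟩

/-- An additive function on the nonzero elements of the fraction field which vanishes on the
elements of `B` prime to `π` computes the `π`-multiplicity. -/
theorem w_eq_multiplicity_mul {B F : Type*} [CommRing B] [IsDomain B]
    [UniqueFactorizationMonoid B] [Field F] [Algebra B F] [IsFractionRing B F]
    (π : B) (hπ : Prime π) (w : F → ℤ)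
    (hw : ∀ a b : F, a ≠ 0 → b ≠ 0 → w (a * b) = w a + w b)
    (hwu : ∀ b : B, b ≠ 0 → ¬ π ∣ b → w (algebraMap B F b) = 0)
    (a : B) (ha : a ≠ 0) :
    w (algebraMap B F a) = (multiplicity π a : ℤ) * w (algebraMap B F π) := by
  have hinj : Function.Injective (algebraMap B F) := IsFractionRing.injective B F
  have hne : ∀ b : B, b ≠ 0 → algebraMap B F b ≠ 0 := fun b hb =>
    (map_ne_zero_iff _ hinj).2 hb
  obtain ⟨c, hc, hπc⟩ :=
    (FiniteMultiplicity.of_prime_left hπ ha).exists_eq_pow_mul_and_not_dvd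
  have hc0 : c ≠ 0 := by
    rintro rfl
    exact hπc (dvd_zero π)
  have hpow : ∀ m : ℕ, w (algebraMap B F π ^ m * algebraMap B F c)
      = (m : ℤ) * w (algebraMap B F π) := by
    intro m
    induction m with
    | zero => rw [pow_zero, one_mul, hwu c hc0 hπc]; simp
    | succ m ih =>
      rw [pow_succ, mul_assoc, mul_comm (algebraMap B F π) (algebraMap B F c), ← mul_assoc,
        hw _ _ (mul_ne_zero (pow_ne_zero _ (hne π hπ.ne_zero)) (hne c hc0)) (hne π hπ.ne_zero),
        ih]
      push_cast; ring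
  conv_lhs => rw [hc]
  rw [map_mul, map_pow, hpow]

/-- **Local generator**: `B` a UFD with fraction field `F`, `h ∈ F` nonzero.  Assume that for
every prime element `π` of `B` there is an additive function `w` on `F ∖ {0}` (a multiple of the
`π`-adic valuation: `w π = e` prime to `n`, `w = 0` on the elements of `B` prime to `π`) with
`n ∣ w h`.  Then `h = u * s ^ n` with `u` a unit of `B`. -/
theorem exists_unit_mul_pow {B F : Type*} [CommRing B] [IsDomain B]
    [UniqueFactorizationMonoid B] [Field F] [Algebra B F] [IsFractionRing B F]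
    (n : ℕ) (h : F) (h0 : h ≠ 0)
    (H : ∀ π : B, Prime π → ∃ w : F → ℤ,
      (∀ a b : F, a ≠ 0 → b ≠ 0 → w (a * b) = w a + w b) ∧
      (∀ b : B, b ≠ 0 → ¬ π ∣ b → w (algebraMap B F b) = 0) ∧
      IsCoprime (w (algebraMap B F π)) (n : ℤ) ∧ (n : ℤ) ∣ w h) :
    ∃ (u : B) (s : F), IsUnit u ∧ h = algebraMap B F u * s ^ n := by
  have hinj : Function.Injective (algebraMap B F) := IsFractionRing.injective B F
  obtain ⟨a, ⟨b, hb⟩, hab, hmk⟩ := IsFractionRing.exists_reduced_fraction B h
  have hb0 : b ≠ 0 := nonZeroDivisors.ne_zero hb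
  have hbF : algebraMap B F b ≠ 0 := (map_ne_zero_iff _ hinj).2 hb0
  have heq : h * algebraMap B F b = algebraMap B F a := by
    rw [← hmk]; exact IsLocalization.mk'_spec F a ⟨b, hb⟩
  have ha0 : a ≠ 0 := by
    rintro rfl
    rw [map_zero] at heq
    exact (mul_ne_zero h0 hbF) heq
  have key : ∀ π : B, Prime π → n ∣ multiplicity π a ∧ n ∣ multiplicity π b := by
    intro π hπ
    obtain ⟨w, hw, hwu, hcop, hdvd⟩ := H π hπ
    have e1 := w_eq_multiplicity_mul π hπ w hw hwu a ha0
    have e2 := w_eq_multiplicity_mul π hπ w hw hwu b hb0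
    have e3 : w h + w (algebraMap B F b) = w (algebraMap B F a) := by
      rw [← hw h _ h0 hbF, heq]
    have hnd : ¬ (π ∣ a ∧ π ∣ b) := fun hh => hπ.not_isUnit (hab hh.1 hh.2)
    have hdiff : (n : ℤ) ∣ ((multiplicity π a : ℤ) - multiplicity π b) := by
      have h4 : (n : ℤ) ∣ ((multiplicity π a : ℤ) - multiplicity π b) * w (algebraMap B F π) := by
        have : ((multiplicity π a : ℤ) - multiplicity π b) * w (algebraMap B F π) = w h := by
          rw [sub_mul, ← e1, ← e2]; linarith
        rw [this]; exact hdvd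
      exact hcop.symm.dvd_of_dvd_mul_right h4
    by_cases hda : π ∣ a
    · have hb' : multiplicity π b = 0 := multiplicity_eq_zero.2 fun hdb => hnd ⟨hda, hdb⟩
      rw [hb', Nat.cast_zero, sub_zero] at hdiff
      exact ⟨Int.natCast_dvd_natCast.1 hdiff, by rw [hb']; exact dvd_zero n⟩
    · have ha' : multiplicity π a = 0 := multiplicity_eq_zero.2 hda
      rw [ha', Nat.cast_zero, zero_sub, dvd_neg] at hdiff
      exact ⟨by rw [ha']; exact dvd_zero n, Int.natCast_dvd_natCast.1 hdiff⟩
  obtain ⟨u₁, s₁, hu₁, e₁⟩ :=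
    exists_unit_mul_pow_of_multiplicity n a ha0 fun π hπ => (key π hπ).1
  obtain ⟨u₂, s₂, hu₂, e₂⟩ :=
    exists_unit_mul_pow_of_multiplicity n b hb0 fun π hπ => (key π hπ).2
  obtain ⟨v₂, hv₂⟩ := hu₂.exists_right_inv
  have hu₂F : algebraMap B F u₂ * algebraMap B F v₂ = 1 := by
    rw [← map_mul, hv₂, map_one]
  have hu₂0 : algebraMap B F u₂ ≠ 0 := left_ne_zero_of_mul_eq_one hu₂F
  have hbeq : algebraMap B F b = algebraMap B F u₂ * algebraMap B F s₂ ^ n := by
    rw [e₂, map_mul, map_pow]
  have haeq : algebraMap B F a = algebraMap B F u₁ * algebraMap B F s₁ ^ n := by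
    rw [e₁, map_mul, map_pow]
  have hh : h = algebraMap B F a / algebraMap B F b := by
    rw [eq_div_iff hbF]; exact heq
  have hpow : algebraMap B F s₂ ^ n ≠ 0 := by
    intro h1
    rw [h1, mul_zero] at hbeq
    exact hbF hbeq
  refine ⟨u₁ * v₂, algebraMap B F s₁ / algebraMap B F s₂, hu₁.mul ?_, ?_⟩
  · exact IsUnit.of_mul_eq_one u₂ (by rw [mul_comm]; exact hv₂)
  · rw [hh, haeq, hbeq, map_mul, div_pow, div_eq_iff (mul_ne_zero hu₂0 hpow)]
    field_simp
    linear_combination (-(algebraMap B F u₁ * algebraMap B F s₁ ^ n)) * hu₂F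

/-- **CA1 for a reduction map**: `B` a noetherian local domain, `φ : B → V` a surjective ring
homomorphism onto a principal ideal domain `V` (the local ring of a smooth point of a component)
whose kernel is generated by one element `x ≠ 0` of the maximal ideal (the local equation of the
component).  Then `B` is a unique factorization domain. -/
theorem ca1_ufm_of_surjective {B V : Type*} [CommRing B] [IsDomain B] [IsNoetherianRing B]
    [IsLocalRing B] [CommRing V] [IsDomain V] [IsPrincipalIdealRing V] (φ : B →+* V)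
    (hφ : Function.Surjective φ) (x : B) (hx0 : x ≠ 0) (hx : x ∈ IsLocalRing.maximalIdeal B)
    (hker : RingHom.ker φ = Ideal.span {x}) : UniqueFactorizationMonoid B := by
  have hprime : (Ideal.span {x}).IsPrime := hker ▸ RingHom.ker_isPrime φ
  let e : (B ⧸ Ideal.span {x}) ≃+* V :=
    (Ideal.quotEquivOfEq hker.symm).trans (RingHom.quotientKerEquivOfSurjective hφ)
  haveI : IsPrincipalIdealRing (B ⧸ Ideal.span {x}) :=
    IsPrincipalIdealRing.of_surjective e.symm.toRingHom e.symm.surjective
  exact ca1_ufm_local x hx0 hx hprime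

/-- **Local generator, final form** (`CA1` + `exists_unit_mul_pow`). -/
theorem local_generator {B V F : Type*} [CommRing B] [IsDomain B] [IsNoetherianRing B]
    [IsLocalRing B] [CommRing V] [IsDomain V] [IsPrincipalIdealRing V] [Field F] [Algebra B F]
    [IsFractionRing B F] (φ : B →+* V)
    (hφ : Function.Surjective φ) (x : B) (hx0 : x ≠ 0) (hx : x ∈ IsLocalRing.maximalIdeal B)
    (hker : RingHom.ker φ = Ideal.span {x})
    (n : ℕ) (h : F) (h0 : h ≠ 0)
    (H : ∀ π : B, Prime π → ∃ w : F → ℤ,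
      (∀ a b : F, a ≠ 0 → b ≠ 0 → w (a * b) = w a + w b) ∧
      (∀ b : B, b ≠ 0 → ¬ π ∣ b → w (algebraMap B F b) = 0) ∧
      IsCoprime (w (algebraMap B F π)) (n : ℤ) ∧ (n : ℤ) ∣ w h) :
    ∃ (u : B) (s : F), IsUnit u ∧ h = algebraMap B F u * s ^ n := by
  haveI : UniqueFactorizationMonoid B := ca1_ufm_of_surjective φ hφ x hx0 hx hker
  exact exists_unit_mul_pow n h h0 H

end Fermat.Agent.S36.NU.H10
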