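import Fermat.Agent.S36.NU.H42_One

/-!
# S36 / NU-B, TI3-VAL, leaf (INT), modular instance (helper42)

`N = M q²`, `q ∤ M`.  Every inertia-fixed function of level `N` lying in `V₂₀ ∩ V₁₁ ∩ V₀₂` is
integral over the ring `VE0 A 1` of inertia-fixed Gauss-integral functions of level `1`
(`= V₂₀ ∩ K^ur(j)`).   (helper23's `nrM` + `oneData` + the abstract tower.)
-/

set_option autoImplicit false
set_option synthInstance.maxHeartbeats 400000
set_option maxHeartbeats 1000000
set_option linter.unusedSectionVars false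
set_option linter.unusedVariables false
set_option linter.style.haveILetI false

noncomputable section

open ModularCurve AlgebraicCurve Fermat.Agent.S24 Fermat.Agent.S28 Fermat.Agent.S28.H73
  Fermat.Agent.RED.H73 Fermat.Agent.BAD.H88 Fermat.Agent.BAD

namespace Fermat.Agent.S36.NU.H42

variable (A : ValuationSubring Kbar) (q M : ℕ) (B k : ℤ) (hB : B * M + k * q = 1) (hq : q.Prime)
  [NeZero M] [NeZero q] [NeZero (M * q * q)] (hqM : ¬ q ∣ M) (hA : A.LiesOverPrime q)

/-- The inclusion `L0 A 1 → L0 A (M q²)`. -/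
def incl1N : ↥(H23.L0 A 1) →+* ↥(H23.L0 A (M * q * q)) :=
  (H23.inclL0 A (H23.hleMN q M)).comp (H23.inclL0 A (hle1 M))

theorem coe_incl1N (a : ↥(H23.L0 A 1)) :
    (((incl1N A q M a : ↥(H23.L0 A (M * q * q))) : FN (M * q * q)) : LaurentSeries Kbar)
      = ((a : FN 1) : LaurentSeries Kbar) := by
  show (((H23.inclL0 A (H23.hleMN q M) (H23.inclL0 A (hle1 M) a) : ↥(H23.L0 A (M * q * q))) :
    FN (M * q * q)) : LaurentSeries Kbar) = _
  rw [H23.coe_inclL0_series, coe_inclL0_one]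

include hq hqM hA in
/-- **(INT), modular**: an inertia-fixed function of level `M q²` which lies in the three
valuation rings `V₂₀`, `V₁₁`, `V₀₂` is a root of a monic polynomial whose coefficients are
(images of) inertia-fixed Gauss-integral functions of level `1`. -/
theorem int_mod (g : ↥(H23.L0 A (M * q * q))) (h20 : g ∈ H23.V20o A q M)
    (h11 : g ∈ H23.V11o A q M B k hB hq) (h02 : g ∈ H23.V02o A q M B k hB) :
    ∃ P : Polynomial ↥(H23.L0 A (M * q * q)), P.Monic ∧
      (∀ n, ∃ a : ↥(H23.L0 A 1), a ∈ H23.VE0 A 1 ∧ P.coeff n = incl1N A q M a) ∧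
      (∀ n, P.coeff n ∈ H23.V20o A q M) ∧ (∀ n, P.coeff n ∈ H23.V11o A q M B k hB hq) ∧
      (∀ n, P.coeff n ∈ H23.V02o A q M B k hB) ∧ P.eval g = 0 := by
  have hfin1 : @Module.Finite ↥(H23.L0 A M) ↥(H23.L0 A (M * q * q)) _ _
      (H23.algL0 A (H23.hleMN q M)).toModule := H23.finite_L0_NU A q M
  have hfinK : ∀ i, @Module.Finite (FM A M) (H23.kap3 (FM A M) (FM A M) i) _ _
      (H23.algM A q M hq hqM hA i).toModule := fun i =>
    @H42.NRData.finite_res ↥(H23.L0 A M) ↥(H23.L0 A (M * q * q)) (FM A M) _ _ _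
      (H23.algL0 A (H23.hleMN q M)) (Fin 3) (H23.kap3 (FM A M) (FM A M)) _
      (H23.algM A q M hq hqM hA) (H23.nrM A q M B k hB hq hqM hA) _ _ hfin1 i
  obtain ⟨P, hP, hc, hV, hroot⟩ :=
    @H42.exists_monic_tower ↥(H23.L0 A 1) ↥(H23.L0 A M) ↥(H23.L0 A (M * q * q)) (FM A 1) (FM A M)
      _ _ _ _ _ (H23.algL0 A (hle1 M)) (H23.algL0 A (H23.hleMN q M))
      Unit (fun _ => FM A M) _ (fun _ => fmAlg A M) (fun _ => finite_FM A M q hq hqM hA)
      (Fin 3) (H23.kap3 (FM A M) (FM A M)) _ (H23.algM A q M hq hqM hA) hfinK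
      (oneData A M q hq hqM hA) (H23.nrM A q M B k hB hq hqM hA)
      _ _ (finite_L0_one A M) _ _ hfin1
      (oneData_hdeg A M q hq hqM hA) (H23.nrM_hdeg A q M B k hB hq hqM hA)
      (fun a ha _ => ha) (fun a ha => hV_one A M a ha) g
      (fun i => by
        fin_cases i
        · exact h20
        · exact h11
        · exact h02)
  refine ⟨P, hP, fun n => ?_, fun n => hV n 0, fun n => hV n 1, fun n => hV n 2, hroot⟩
  obtain ⟨a, ha, e⟩ := hc n
  exact ⟨a, ha, e⟩

end Fermat.Agent.S36.NU.H42
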