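import Fermat.Agent.S36.NU.H28_RadQGauss
import Fermat.Agent.S36.NU.H42_Int

/-!
# S36 / NU-B, leaf RADQ-MOD (helper28): TI3-VAL and (RADQ) for the two modular charts

Level `N = M q²`, `q ∤ M`, `F = L0 A N`, `K = Kur A`, `R = Rur A`, `j = j0 A N`, the three
valuations `V₂₀`, `V₁₁`, `V₀₂` (`totM`), the charts `chart0` (`B = ` integral closure of `R[j]`)
and `chartInf` (`B = ` integral closure of `R[1/j]`) of helper88.

* `incl1N_mem_adjoin_j0` : **DESC-ONE** the inertia-fixed functions of level `1` are rational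
  functions of `j` over `K^ur`;
* `hthree_j0`, `hthree_j0_inv` : **(THREE)** in the shape of helper17's TI3-VAL
  (from helper42's `int_mod`);
* `hG_totM`, `hthree_totM`, `hG_totM_inv`, `hthree_totM_inv` : the same for `(totM ..).V`
  (`i₀ = 0`), the shape of helper88's `chartHyp_chart0'`;
* `harch_totM` : the three valuations are of rank one;
* `crit0`, `critInf` : **TI3-VAL** `f` integral over `K[j]` (resp. `K[1/j]`), `f ∈ V_i` for all
  `i` ⟹ `f ∈ B`;
* `hrad0`, `hradoo` : **(RADQ)** for the two charts (the hypotheses of `H24.fin_local`);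
* `isRadQ_of_chart`, `crit_of_chart` : the same for any chart with the three valuations.
-/

set_option autoImplicit false
set_option synthInstance.maxHeartbeats 400000
set_option maxHeartbeats 1000000
set_option linter.style.haveILetI false
set_option linter.unusedSectionVars false

noncomputable section

open ModularCurve AlgebraicCurve Polynomial IntermediateField
open Fermat.Agent.S24 Fermat.Agent.BAD.H88 Fermat.Agent.S28 Fermat.Agent.S28.H73
open Fermat.Agent.RED.H73 Fermat.Agent.RED.H17 Fermat.Agent.S36.NU.H88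
open Fermat.Agent.S36.NU.H23 Fermat.Agent.S36.NU.H41 Fermat.Agent.S36.NU.H17
open Fermat.Agent.S36.NU.H16 Fermat.Agent.S36.NU.H65 Fermat.Agent.BAD

namespace Fermat.Agent.S36.NU.H28

/-! ### DESC-ONE -/

section Desc

variable (A : ValuationSubring Kbar) (N : ℕ) [NeZero N]

/-- An element of `F_N` whose expansion lies in `ℚ̄(j)` lies in `ℚ̄(j)`. -/
theorem mem_adjoin_jF_of_series (x : FN N)
    (hx : (x : LaurentSeries Kbar)
      ∈ IntermediateField.adjoin Kbar ({jqModC Kbar} : Set (LaurentSeries Kbar))) :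
    x ∈ Kbar⟮Fermat.Agent.S24.jF N⟯ := by
  have h1 : (Kbar⟮Fermat.Agent.S24.jF N⟯).map (modularFunctionFieldBar N).val
      = IntermediateField.adjoin Kbar ({((Fermat.Agent.S24.jF N : FN N) : LaurentSeries Kbar)} :
          Set (LaurentSeries Kbar)) := by
    rw [IntermediateField.adjoin_map, Set.image_singleton]
    rfl
  have h2 : ((Fermat.Agent.S24.jF N : FN N) : LaurentSeries Kbar) = jqModC Kbar := by
    rw [← jdF_one_eq_jF, coe_jdF_one, H65.intSer, jInt, coeffMap_qExpand, coeffMap_jqModC,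
      qExpand_one_apply]
  rw [h2] at h1
  rw [← h1] at hx
  obtain ⟨y, hy, hyx⟩ := hx
  have : y = x := Subtype.ext hyx
  rw [← this]
  exact hy

end Desc

section Mod

variable (A : ValuationSubring Kbar) (q M : ℕ) (B k : ℤ) (hB : B * M + k * q = 1) (hq : q.Prime)
  [NeZero M] [NeZero q] [NeZero (M * q * q)] (hqM : ¬ q ∣ M) (hA : A.LiesOverPrime q)
  (ht : H91.TameAt M q)

attribute [local instance] algkM

/-- **DESC-ONE**: the inertia-fixed functions of level `1` are rational functions of `j` over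
`K^ur`. -/
theorem incl1N_mem_adjoin_j0 (a : ↥(L0 A 1)) :
    H42.incl1N A q M a ∈ (↥(Kur A))⟮j0 A (M * q * q)⟯ := by
  apply fixed_mem_adjoin_j0
  apply mem_adjoin_jF_of_series
  rw [H42.coe_incl1N, ← H42.bar_one_eq]
  exact (a : FN 1).2

theorem adjoin_j0_inv_eq :
    (↥(Kur A))⟮(j0 A (M * q * q))⁻¹⟯ = (↥(Kur A))⟮j0 A (M * q * q)⟯ :=
  H88.adjoin_inv_eq ↥(Kur A) (j0 A (M * q * q))

/-! ### (THREE) -/

include hq hqM hA in
/-- **(THREE)** for `j`, in the shape of helper17's TI3-VAL. -/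
theorem hthree_j0 (f : ↥(L0 A (M * q * q))) (h20 : f ∈ V20o A q M)
    (h11 : f ∈ V11o A q M B k hB hq) (h02 : f ∈ V02o A q M B k hB) :
    ∃ P : (↥(L0 A (M * q * q)))[X], P.Monic ∧
      (∀ m, P.coeff m ∈ V20o A q M ∧ P.coeff m ∈ (↥(Kur A))⟮j0 A (M * q * q)⟯) ∧
      P.eval f = 0 := by
  obtain ⟨P, hP, hc, hV, -, -, hroot⟩ := H42.int_mod A q M B k hB hq hqM hA f h20 h11 h02
  refine ⟨P, hP, fun m => ⟨hV m, ?_⟩, hroot⟩
  obtain ⟨a, -, e⟩ := hc m
  rw [e]
  exact incl1N_mem_adjoin_j0 A q M a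

include hq hqM hA in
/-- **(THREE)** for `1 / j`. -/
theorem hthree_j0_inv (f : ↥(L0 A (M * q * q))) (h20 : f ∈ V20o A q M)
    (h11 : f ∈ V11o A q M B k hB hq) (h02 : f ∈ V02o A q M B k hB) :
    ∃ P : (↥(L0 A (M * q * q)))[X], P.Monic ∧
      (∀ m, P.coeff m ∈ V20o A q M ∧ P.coeff m ∈ (↥(Kur A))⟮(j0 A (M * q * q))⁻¹⟯) ∧
      P.eval f = 0 := by
  rw [adjoin_j0_inv_eq]
  exact hthree_j0 A q M B k hB hq hqM hA f h20 h11 h02

/-! ### The shapes for `totM` -/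

theorem totM_V_zero : (totM A q M B k hB hq hqM hA ht).V 0 = V20o A q M := rfl

theorem totM_V_one : (totM A q M B k hB hq hqM hA ht).V 1 = V11o A q M B k hB hq := rfl

theorem totM_V_two : (totM A q M B k hB hq hqM hA ht).V 2 = V02o A q M B k hB := rfl

/-- **(G)** for `j`, for `totM`. -/
theorem hG_totM (p : (↥(Kur A))[X])
    (hp : aeval (j0 A (M * q * q)) p ∈ (totM A q M B k hB hq hqM hA ht).V 0) (i : ℕ) :
    p.coeff i ∈ (algebraMap ↥(Rur A) ↥(Kur A)).range :=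
  gauss_j0 A q M hq hqM hA p hp i

/-- **(G)** for `1 / j`, for `totM`. -/
theorem hG_totM_inv (p : (↥(Kur A))[X])
    (hp : aeval (j0 A (M * q * q))⁻¹ p ∈ (totM A q M B k hB hq hqM hA ht).V 0) (i : ℕ) :
    p.coeff i ∈ (algebraMap ↥(Rur A) ↥(Kur A)).range :=
  gauss_j0_inv A q M hq hqM hA p hp i

/-- **(THREE)** for `j`, for `totM`. -/
theorem hthree_totM (f : ↥(L0 A (M * q * q)))
    (hf : ∀ i, f ∈ (totM A q M B k hB hq hqM hA ht).V i) :
    ∃ P : (↥(L0 A (M * q * q)))[X], P.Monic ∧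
      (∀ m, P.coeff m ∈ (totM A q M B k hB hq hqM hA ht).V 0 ∧
        P.coeff m ∈ (↥(Kur A))⟮j0 A (M * q * q)⟯) ∧ P.eval f = 0 :=
  hthree_j0 A q M B k hB hq hqM hA f (hf 0) (hf 1) (hf 2)

/-- **(THREE)** for `1 / j`, for `totM`. -/
theorem hthree_totM_inv (f : ↥(L0 A (M * q * q)))
    (hf : ∀ i, f ∈ (totM A q M B k hB hq hqM hA ht).V i) :
    ∃ P : (↥(L0 A (M * q * q)))[X], P.Monic ∧
      (∀ m, P.coeff m ∈ (totM A q M B k hB hq hqM hA ht).V 0 ∧
        P.coeff m ∈ (↥(Kur A))⟮(j0 A (M * q * q))⁻¹⟯) ∧ P.eval f = 0 :=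
  hthree_j0_inv A q M B k hB hq hqM hA f (hf 0) (hf 1) (hf 2)

/-- The three valuations are of rank one. -/
theorem harch_totM (i : Fin 3) (x y : ↥(L0 A (M * q * q)))
    (hx : ((totM A q M B k hB hq hqM hA ht).V i).valuation x < 1) (hy : y ≠ 0) :
    ∃ n : ℕ, ((totM A q M B k hB hq hqM hA ht).V i).valuation (x ^ n)
      < ((totM A q M B k hB hq hqM hA ht).V i).valuation y :=
  @H42.NRData.hA ↥(L0 A M) ↥(L0 A (M * q * q)) (FM A M) _ _ _ (algL0 A (hleMN q M))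
    (Fin 3) (kap3 (FM A M) (FM A M)) _ (algM A q M hq hqM hA)
    (nrM A q M B k hB hq hqM hA) i x y hx hy

/-! ### `ChartHyp` -/

/-- `ChartHyp` for the chart of `j` (helper88 `chartHyp_chart0'`), unconditional. -/
theorem chartHyp0 (n : ℕ) (hn : 0 < n) (hcop : Nat.Coprime n q) :
    H24.ChartHyp (chart0 A q M B k hB hq hqM hA ht) q n :=
  chartHyp_chart0' A q M B k hB hq hqM hA ht 0 (hG_totM A q M B k hB hq hqM hA ht)
    (hthree_totM A q M B k hB hq hqM hA ht) n hn hcop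

/-- `ChartHyp` for the chart of `1 / j` (helper88 `chartHyp_chartInf'`), unconditional. -/
theorem chartHypInf (n : ℕ) (hn : 0 < n) (hcop : Nat.Coprime n q) :
    H24.ChartHyp (chartInf A q M B k hB hq hqM hA ht) q n :=
  chartHyp_chartInf' A q M B k hB hq hqM hA ht 0 (hG_totM A q M B k hB hq hqM hA ht)
    (hthree_totM A q M B k hB hq hqM hA ht) n hn hcop

/-! ### TI3-VAL (crit) -/

/-- **TI3-VAL** for the chart of `j`. -/
theorem crit0 {f : ↥(L0 A (M * q * q))}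
    (hf₁ : IsIntegral ↥(Algebra.adjoin ↥(Kur A) {j0 A (M * q * q)}) f)
    (hf₂ : ∀ i, f ∈ (totM A q M B k hB hq hqM hA ht).V i) :
    f ∈ intSub ↥(Rur A) (j0 A (M * q * q)) :=
  isIntegral_adjoin_of_forall_mem ↥(Rur A) ↥(Kur A) (j0 A (M * q * q))
    (transcendental_j0 A (M * q * q)) (totM A q M B k hB hq hqM hA ht).V 0
    (hG_totM A q M B k hB hq hqM hA ht) (hthree_totM A q M B k hB hq hqM hA ht) hf₁ hf₂

/-- **TI3-VAL** for the chart of `1 / j`. -/
theorem critInf {f : ↥(L0 A (M * q * q))}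
    (hf₁ : IsIntegral ↥(Algebra.adjoin ↥(Kur A) {(j0 A (M * q * q))⁻¹}) f)
    (hf₂ : ∀ i, f ∈ (totM A q M B k hB hq hqM hA ht).V i) :
    f ∈ intSub ↥(Rur A) (j0 A (M * q * q))⁻¹ :=
  isIntegral_adjoin_of_forall_mem ↥(Rur A) ↥(Kur A) (j0 A (M * q * q))⁻¹
    (transcendental_inv ↥(Kur A) _ (transcendental_j0 A (M * q * q)))
    (totM A q M B k hB hq hqM hA ht).V 0
    (hG_totM_inv A q M B k hB hq hqM hA ht) (hthree_totM_inv A q M B k hB hq hqM hA ht) hf₁ hf₂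

/-! ### (RADQ) -/

theorem algebraMap_Rur_ne_zero (ϖ : ↥(Rur A)) (hϖ : ϖ ≠ 0) :
    algebraMap ↥(Rur A) ↥(L0 A (M * q * q)) ϖ ≠ 0 := by
  rw [IsScalarTower.algebraMap_apply ↥(Rur A) ↥(Kur A) ↥(L0 A (M * q * q))]
  intro h
  apply hϖ
  have h1 := (algebraMap ↥(Kur A) ↥(L0 A (M * q * q))).injective (h.trans (map_zero _).symm)
  exact Subtype.ext h1

/-- **(RADQ)** for the chart of `j`. -/
theorem hrad0 (ϖ : ↥(Rur A)) (hϖ : ϖ ≠ 0) :
    ∀ β ∈ (chart0 A q M B k hB hq hqM hA ht).B,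
      (∀ i, (chart0 A q M B k hB hq hqM hA ht).rd i β = 0) →
        IsRadQ (chart0 A q M B k hB hq hqM hA ht).B ϖ β := fun _ hβ hrd =>
  isRadQ_of_rd_eq_zero_adjoin ↥(Rur A) ↥(Kur A) (chart0 A q M B k hB hq hqM hA ht)
    (j0 A (M * q * q)) (transcendental_j0 A (M * q * q)) (fun _ => Iff.rfl) 0
    (hG_totM A q M B k hB hq hqM hA ht) (hthree_totM A q M B k hB hq hqM hA ht)
    (harch_totM A q M B k hB hq hqM hA ht) ϖ (algebraMap_Rur_ne_zero A q M ϖ hϖ) hβ hrd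

/-- **(RADQ)** for the chart of `1 / j`. -/
theorem hradoo (ϖ : ↥(Rur A)) (hϖ : ϖ ≠ 0) :
    ∀ β ∈ (chartInf A q M B k hB hq hqM hA ht).B,
      (∀ i, (chartInf A q M B k hB hq hqM hA ht).rd i β = 0) →
        IsRadQ (chartInf A q M B k hB hq hqM hA ht).B ϖ β := fun _ hβ hrd =>
  isRadQ_of_rd_eq_zero_adjoin ↥(Rur A) ↥(Kur A) (chartInf A q M B k hB hq hqM hA ht)
    (j0 A (M * q * q))⁻¹ (transcendental_inv ↥(Kur A) _ (transcendental_j0 A (M * q * q)))
    (fun _ => Iff.rfl) 0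
    (hG_totM_inv A q M B k hB hq hqM hA ht) (hthree_totM_inv A q M B k hB hq hqM hA ht)
    (harch_totM A q M B k hB hq hqM hA ht) ϖ (algebraMap_Rur_ne_zero A q M ϖ hϖ) hβ hrd

/-! ### Any chart with the three valuations -/

section Generic

variable {kk : Type*} {κ : Fin 3 → Type*} [Field kk] [∀ i, Field (κ i)] [∀ i, Algebra kk (κ i)]
  (C : Chart ↥(Rur A) ↥(L0 A (M * q * q)) kk (Fin 3) κ)
  (hV : ∀ i, C.V i = (totM A q M B k hB hq hqM hA ht).V i)

include hV in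
/-- **(RADQ)** for any chart of `j` with the three valuations. -/
theorem isRadQ_of_chart (hB0 : C.B = intSub ↥(Rur A) (j0 A (M * q * q)))
    (ϖ : ↥(Rur A)) (hϖ : ϖ ≠ 0) :
    ∀ β ∈ C.B, (∀ i, C.rd i β = 0) → IsRadQ C.B ϖ β := fun _ hβ hrd =>
  isRadQ_of_rd_eq_zero_adjoin ↥(Rur A) ↥(Kur A) C
    (j0 A (M * q * q)) (transcendental_j0 A (M * q * q))
    (fun _ => by rw [hB0]; exact Iff.rfl) 0
    (fun p hp => hG_totM A q M B k hB hq hqM hA ht p (hV 0 ▸ hp))
    (fun f hf => by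
      obtain ⟨P, hP, hc, hroot⟩ :=
        hthree_totM A q M B k hB hq hqM hA ht f (fun i => hV i ▸ hf i)
      exact ⟨P, hP, fun m => ⟨(hV 0).symm ▸ (hc m).1, (hc m).2⟩, hroot⟩)
    (fun i x y hx hy => by
      rw [hV i] at hx ⊢
      exact harch_totM A q M B k hB hq hqM hA ht i x y hx hy)
    ϖ (algebraMap_Rur_ne_zero A q M ϖ hϖ) hβ hrd

include hV in
/-- **(RADQ)** for any chart of `1 / j` with the three valuations. -/
theorem isRadQ_of_chart_inv (hBoo : C.B = intSub ↥(Rur A) (j0 A (M * q * q))⁻¹)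
    (ϖ : ↥(Rur A)) (hϖ : ϖ ≠ 0) :
    ∀ β ∈ C.B, (∀ i, C.rd i β = 0) → IsRadQ C.B ϖ β := fun _ hβ hrd =>
  isRadQ_of_rd_eq_zero_adjoin ↥(Rur A) ↥(Kur A) C
    (j0 A (M * q * q))⁻¹ (transcendental_inv ↥(Kur A) _ (transcendental_j0 A (M * q * q)))
    (fun _ => by rw [hBoo]; exact Iff.rfl) 0
    (fun p hp => hG_totM_inv A q M B k hB hq hqM hA ht p (hV 0 ▸ hp))
    (fun f hf => by
      obtain ⟨P, hP, hc, hroot⟩ :=
        hthree_totM_inv A q M B k hB hq hqM hA ht f (fun i => hV i ▸ hf i)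
      exact ⟨P, hP, fun m => ⟨(hV 0).symm ▸ (hc m).1, (hc m).2⟩, hroot⟩)
    (fun i x y hx hy => by
      rw [hV i] at hx ⊢
      exact harch_totM A q M B k hB hq hqM hA ht i x y hx hy)
    ϖ (algebraMap_Rur_ne_zero A q M ϖ hϖ) hβ hrd

end Generic

end Mod

end Fermat.Agent.S36.NU.H28
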