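import Mathlib

/-!
# S36 / NU-B, leaf VALVEC-MOD (helper51): the norm for a unique extension of a valuation

`L / E` finite, `V` a valuation ring of `E` of rank one, `W` the only valuation ring `≠ L` of `L`
containing `V`.  Then `W` is the integral closure of `V`, the norm maps `W` into `V`, and
`v (N x) = v (ϖ) ^ ([L : E] m)` if `w (x) = w (ϖ) ^ m`, `ϖ ∈ E`.
-/

set_option autoImplicit false
set_option linter.style.haveILetI false
set_option linter.unusedSectionVars false

noncomputable section

namespace Fermat.Agent.S36.NU.H51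

section Uniq

variable {E L : Type} [Field E] [Field L] [Algebra E L]
  (V : ValuationSubring E) (W : ValuationSubring L)

/-- The elements of `W` are integral over `V`, if `W` is the only valuation ring `≠ L`
containing `V`. -/
theorem isIntegral_of_unique
    (huniq : ∀ W' : ValuationSubring L, (∀ a : E, a ∈ V → algebraMap E L a ∈ W') → W' ≠ ⊤ →
      W' = W) (u : L) (hu : u ∈ W) : IsIntegral ↥V u := by
  set s : Set L := Set.range (fun a : ↥V => algebraMap E L (a : E)) with hs
  have h1 : u ∈ (⨅ V' : {V' : ValuationSubring L // s ⊆ V'.toSubring}, V'.1.toSubring) := by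
    rw [Subring.mem_iInf]
    rintro ⟨W', hW'⟩
    by_cases htop : W' = ⊤
    · show u ∈ W'
      rw [htop]; trivial
    · have e := huniq W' (fun a ha => hW' ⟨⟨a, ha⟩, rfl⟩) htop
      show u ∈ W'
      rw [e]; exact hu
  rw [iInf_valuationSubring_superset] at h1
  have h2 : IsIntegral ↥(Subring.closure s) u := h1
  obtain ⟨p, hp, hpu⟩ := h2
  -- the subring generated by `s` is the image of `V`
  let f : ↥V →+* L := (algebraMap E L).comp V.subtype
  have hcl : Subring.closure s = f.range := by
    apply le_antisymm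
    · rw [Subring.closure_le]
      rintro _ ⟨a, rfl⟩
      exact ⟨a, rfl⟩
    · rintro _ ⟨a, rfl⟩
      exact Subring.subset_closure ⟨a, rfl⟩
  -- lift the polynomial
  have hlift : p.map (Subring.closure s).subtype ∈ Polynomial.lifts f := by
    rw [Polynomial.lifts_iff_coeff_lifts]
    intro n
    rw [Polynomial.coeff_map]
    have : ((p.coeff n : ↥(Subring.closure s)) : L) ∈ f.range := by
      rw [← hcl]; exact (p.coeff n).2
    exact this
  have hmon : (p.map (Subring.closure s).subtype).Monic := hp.map _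
  obtain ⟨r, hr, -, hrm⟩ := Polynomial.lifts_and_degree_eq_and_monic hlift hmon
  refine ⟨r, hrm, ?_⟩
  have h3 : Polynomial.eval₂ f u r = Polynomial.eval₂ (Subring.closure s).subtype u p := by
    rw [← Polynomial.eval_map, hr, Polynomial.eval_map]
  have h4 : Polynomial.eval₂ (algebraMap ↥V L) u r = Polynomial.eval₂ f u r := rfl
  rw [h4, h3]
  exact hpu

variable [Module.Finite E L]

/-- The norm maps `W` into `V`. -/
theorem norm_mem_of_unique
    (huniq : ∀ W' : ValuationSubring L, (∀ a : E, a ∈ V → algebraMap E L a ∈ W') → W' ≠ ⊤ →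
      W' = W) (u : L) (hu : u ∈ W) : Algebra.norm E u ∈ V := by
  have h1 : IsIntegral ↥V u := isIntegral_of_unique V W huniq u hu
  have h2 : IsIntegral ↥V (Algebra.norm E u) := Algebra.isIntegral_norm E h1
  obtain ⟨y, hy⟩ := (IsIntegrallyClosed.isIntegral_iff (R := ↥V) (K := E)).1 h2
  rw [← hy]
  exact y.2

/-- **NORM-VAL for a unique unramified extension.** -/
theorem val_norm_of_unique
    (huniq : ∀ W' : ValuationSubring L, (∀ a : E, a ∈ V → algebraMap E L a ∈ W') → W' ≠ ⊤ →
      W' = W) (ϖ : E) (hϖ : ϖ ≠ 0) (x : L) (hx : x ≠ 0) (m : ℤ)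
    (hm : W.valuation x = W.valuation (algebraMap E L ϖ) ^ m) :
    V.valuation (Algebra.norm E x) = V.valuation ϖ ^ ((Module.finrank E L : ℤ) * m) := by
  set c : E := ϖ ^ m with hc
  have hc0 : c ≠ 0 := zpow_ne_zero _ hϖ
  have hcL : algebraMap E L c ≠ 0 := (map_ne_zero _).2 hc0
  have hcval : W.valuation (algebraMap E L c) = W.valuation (algebraMap E L ϖ) ^ m := by
    rw [hc, map_zpow₀, map_zpow₀]
  set u : L := x * (algebraMap E L c)⁻¹ with hu
  have hu0 : u ≠ 0 := mul_ne_zero hx (inv_ne_zero hcL)
  have hval : W.valuation u = 1 := by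
    rw [hu, map_mul, map_inv₀, hcval, hm]
    exact mul_inv_cancel₀ (zpow_ne_zero _
      ((Valuation.ne_zero_iff _).2 ((map_ne_zero _).2 hϖ)))
  have hu1 : u ∈ W := (ValuationSubring.valuation_le_one_iff _ _).1 hval.le
  have hu2 : u⁻¹ ∈ W := by
    rw [← ValuationSubring.valuation_le_one_iff, map_inv₀, hval, inv_one]
  have hN1 := (ValuationSubring.valuation_le_one_iff _ _).2 (norm_mem_of_unique V W huniq u hu1)
  have hN2 := (ValuationSubring.valuation_le_one_iff _ _).2
    (norm_mem_of_unique V W huniq u⁻¹ hu2)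
  have hmul : Algebra.norm E u * Algebra.norm E u⁻¹ = 1 := by
    rw [← map_mul, mul_inv_cancel₀ hu0, map_one]
  have hNval : V.valuation (Algebra.norm E u) = 1 := by
    apply le_antisymm hN1
    have h3 : V.valuation (Algebra.norm E u) * V.valuation (Algebra.norm E u⁻¹) = 1 := by
      rw [← map_mul, hmul, map_one]
    calc (1 : _) = V.valuation (Algebra.norm E u) * V.valuation (Algebra.norm E u⁻¹) := h3.symm
      _ ≤ V.valuation (Algebra.norm E u) * 1 := by gcongr
      _ = V.valuation (Algebra.norm E u) := mul_one _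
  have hx' : x = u * algebraMap E L c := by
    rw [hu, mul_assoc, inv_mul_cancel₀ hcL, mul_one]
  have hNx : Algebra.norm E x = Algebra.norm E u * c ^ Module.finrank E L := by
    conv_lhs => rw [hx']
    rw [map_mul, Algebra.norm_algebraMap]
  rw [hNx, map_mul, hNval, one_mul, map_pow, hc, map_zpow₀, ← zpow_natCast, ← zpow_mul,
    mul_comm]

end Uniq

end Fermat.Agent.S36.NU.H51
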