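import Fermat.Agent.S36.NU.H51_ValVecBeta
import Fermat.Agent.S36.NU.H51_NormUniq

/-!
# S36 / NU-B, leaf VALVEC-MOD (helper51): NORM-VAL along `α` above `V₂`, and the final statement

`V₀₂` is the only valuation ring of `L0 A (M q²)` above `V₂` (along `α`): THREE for `nrM`, and
`V₂₀`, `V₁₁` lie above `V₁`.  Hence `V₀₂` is the integral closure of `V₂`, the norm maps units to
units, and `v₂ (Nα x) = v₂ (q) ^ (q k₀₂)` — without the residue degree.

* `uniq_V02o`; `normValA2 : NormValA2`; **`stmt_ValVecMod : H10.Stmt_ValVecMod`**.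
-/

set_option autoImplicit false
set_option synthInstance.maxHeartbeats 400000
set_option maxHeartbeats 1000000
set_option linter.style.haveILetI false
set_option linter.unusedSectionVars false

noncomputable section

open ModularCurve AlgebraicCurve
open Fermat.Agent.S24 Fermat.Agent.BAD.H88 Fermat.Agent.S28 Fermat.Agent.S28.H73
open Fermat.Agent.RED.H73 Fermat.Agent.RED.H17 Fermat.Agent.S36.NU.H88
open Fermat.Agent.S36.NU.H23 Fermat.Agent.Lib.HeckeComm Fermat.Agent.BAD
open Fermat.Agent.S36.NU.H82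

namespace Fermat.Agent.S36.NU.H51

section A2

variable (A : ValuationSubring Kbar) (q M : ℕ) (B k : ℤ) (hB : B * M + k * q = 1) (hq : q.Prime)
  [NeZero M] [NeZero q] [NeZero (M * q)] [NeZero (M * q * q)]
  (hqM : ¬ q ∣ M) (hA : A.LiesOverPrime q)

/-- `F_M ⊆ F_{M q}`. -/
theorem hleB : modularFunctionFieldBar M ≤ modularFunctionFieldBar (M * q) :=
  Fermat.Agent.S36.NU.H82.FM_le_of_dvd (M * q) M ⟨q, rfl⟩

theorem inclusion_eq_alphaB (x : FN M) :
    IntermediateField.inclusion (hleB q M) x = heckeAlphaBar Kbar M q x := by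
  apply Subtype.ext
  rw [IntermediateField.coe_inclusion, coe_heckeAlphaBar]

theorem inclL0_comp (a : ↥(L0 A M)) :
    inclL0 A (hleMN q M) a = inclL0 A (H87.hleA q M) (inclL0 A (hleB q M) a) := by
  apply Subtype.ext
  rw [coe_inclL0, coe_inclL0, coe_inclL0]
  apply Subtype.ext
  rw [IntermediateField.coe_inclusion, IntermediateField.coe_inclusion,
    IntermediateField.coe_inclusion]

include hq in
theorem inclL0_mem_V2o (a : ↥(L0 A M)) (ha : a ∈ VE0 A M) :
    inclL0 A (hleB q M) a ∈ V2o A q M B k hB hq := by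
  show ((inclL0 A (hleB q M) a : ↥(L0 A (M * q))) : FN (M * q))
    ∈ V2 A q M k B (hab_of_hB q M B k hB) hq
  rw [coe_inclL0, inclusion_eq_alphaB]
  exact (alpha_mem_V2_iff A q M k B (hab_of_hB q M B k hB) hq (a : FN M)).2 ha

theorem inclL0_mem_V02o_iff (y : ↥(L0 A (M * q))) :
    inclL0 A (H87.hleA q M) y ∈ V02o A q M B k hB ↔ y ∈ V2o A q M B k hB hq := by
  show ((inclL0 A (H87.hleA q M) y : ↥(L0 A (M * q * q))) : FN (M * q * q))
    ∈ V02 A (M * q * q) q M B k (lvl q M) hB ↔ _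
  rw [H87.coe_inclL0_alphaA, alpha_mem_V02_iff A q M B k hB hq]
  exact Iff.rfl

/-- The separating function `(j_q - j^q)⁻¹` of `L0 A (M q)`. -/
def kFinv : ↥(L0 A (M * q)) :=
  ⟨(Fermat.Agent.BAD.H82.kronF q M)⁻¹, inv_mem (kronF_mem_L0 A q M)⟩

include hA in
theorem kFinv_mem_V2o : kFinv A q M ∈ V2o A q M B k hB hq := by
  show wL q M B k hB hq (Fermat.Agent.BAD.H82.kronF q M)⁻¹ ∈ V1 A q M
  rw [wL_kronF_inv q M B k hB hq]
  exact kronG_inv_mem A q M hq hA

include hB hq hA in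
theorem inclL0_kFinv_not_mem_V20o : inclL0 A (H87.hleA q M) (kFinv A q M) ∉ V20o A q M := by
  intro h
  have h1 : ((inclL0 A (H87.hleA q M) (kFinv A q M) : ↥(L0 A (M * q * q))) : FN (M * q * q))
      ∈ V20 A (M * q * q) := h
  rw [H87.coe_inclL0_alphaA] at h1
  exact kronF_inv_not_mem A q M B k hB hq hA ((alpha_mem_V20_iff A q M _).1 h1)

include hA in
theorem inclL0_kFinv_not_mem_V11o :
    inclL0 A (H87.hleA q M) (kFinv A q M) ∉ V11o A q M B k hB hq := by
  intro h
  have h1 : ((inclL0 A (H87.hleA q M) (kFinv A q M) : ↥(L0 A (M * q * q))) : FN (M * q * q))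
      ∈ V11 A (M * q * q) q M B k (lvl q M) hB hq := h
  rw [H87.coe_inclL0_alphaA] at h1
  exact kronF_inv_not_mem A q M B k hB hq hA ((alpha_mem_V11_iff A q M B k hB hq _).1 h1)

include hqM hA in
/-- **`V₀₂` is the only valuation ring above `V₂`** (along `α`). -/
theorem uniq_V02o (W' : ValuationSubring ↥(L0 A (M * q * q)))
    (hW' : ∀ a : ↥(L0 A (M * q)), a ∈ V2o A q M B k hB hq → inclL0 A (H87.hleA q M) a ∈ W')
    (htop : W' ≠ ⊤) : W' = V02o A q M B k hB := by
  letI := algL0 A (hleMN q M)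
  letI := algM A q M hq hqM hA
  haveI : Module.Finite ↥(L0 A M) ↥(L0 A (M * q * q)) := finite_L0_NU A q M
  haveI : ∀ i, Module.Finite (FM A M) (kap3 (FM A M) (FM A M) i) :=
    fun i => (nrM A q M B k hB hq hqM hA).finite_res i
  have hW : ∀ a : ↥(L0 A M), a ∈ (nrM A q M B k hB hq hqM hA).VE →
      algebraMap ↥(L0 A M) ↥(L0 A (M * q * q)) a ∈ W' := by
    intro a ha
    show inclL0 A (hleMN q M) a ∈ W'
    rw [inclL0_comp]
    exact hW' _ (inclL0_mem_V2o A q M B k hB hq a ha)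
  have hk := hW' _ (kFinv_mem_V2o A q M B k hB hq hA)
  obtain ⟨i, hi⟩ := H42.NRData.eq_of_valuationSubring (nrM A q M B k hB hq hqM hA)
    (nrM_hdeg A q M B k hB hq hqM hA) W' hW htop
  fin_cases i
  · exfalso
    have hi' : W' = V20o A q M := hi
    rw [hi'] at hk
    exact inclL0_kFinv_not_mem_V20o A q M B k hB hq hA hk
  · exfalso
    have hi' : W' = V11o A q M B k hB hq := hi
    rw [hi'] at hk
    exact inclL0_kFinv_not_mem_V11o A q M B k hB hq hA hk
  · exact hi

include hqM hA in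
/-- **NORM-VAL along `α` above `V₂`**. -/
theorem normValA2 : NormValA2 A q M B k hB hq := by
  intro x hx k₃ h02
  letI := algL0 A (H87.hleA q M)
  haveI : Module.Finite ↥(L0 A (M * q)) ↥(L0 A (M * q * q)) := H87.finite_L0_A A q M
  have hq0 : ((q : ℕ) : ↥(L0 A (M * q))) ≠ 0 := piE_ne_zero A q (M * q) hq
  have hmap : algebraMap ↥(L0 A (M * q)) ↥(L0 A (M * q * q)) ((q : ℕ) : ↥(L0 A (M * q)))
      = ((q : ℕ) : ↥(L0 A (M * q * q))) := map_natCast _ q
  have h := val_norm_of_unique (V2o A q M B k hB hq) (V02o A q M B k hB)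
    (fun W' hW' htop => uniq_V02o A q M B k hB hq hqM hA W' hW' htop)
    ((q : ℕ) : ↥(L0 A (M * q))) hq0 x hx k₃ (by rw [hmap]; exact h02)
  rw [H87.finrank_L0_A A q M hq] at h
  exact h

include hqM hA in
/-- **VALVEC-MOD**. -/
theorem stmt_ValVecMod : H10.Stmt_ValVecMod A q M B k hB hq :=
  stmt_ValVecMod_of_A2 A q M B k hB hq hqM hA (normValA2 A q M B k hB hq hqM hA)

end A2

end Fermat.Agent.S36.NU.H51
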