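import Fermat.Agent.S36.NU.H23_NmP
import Fermat.Agent.BAD.H91_WRho
import Fermat.Agent.S36.H44_Push

/-!
# S36 / NU-B, leaf NM-P, part 2 (helper23): compatibility of the reduction maps

`ρ` (level `M q²`, `totM`) and `ρ'` (level `M q`, `modTM`) are compatible with the two
degeneracy maps `α`, `β : F_{M q} → F_{M q²}`:

* `rho_alpha` : `ρ' (P | α) = zA z → ρ P = z`;
* `rho_beta` : `ρ' (P | β) = zB z → ρ P = z` for the supersingular points `z`
  (`ρ' (w_q⁻¹ Q) = β (ρ' Q)` over the nodes, `H91.rhoW_eq_beta_mod`).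
-/

set_option autoImplicit false
set_option synthInstance.maxHeartbeats 400000
set_option maxHeartbeats 1000000
set_option linter.style.haveILetI false
set_option linter.unusedSectionVars false

noncomputable section

open ModularCurve AlgebraicCurve
open Fermat.Agent.S24 Fermat.Agent.BAD.H88 Fermat.Agent.S28 Fermat.Agent.S28.H73
open Fermat.Agent.RED.H73 Fermat.Agent.RED.H17 Fermat.Agent.S36.NU.H88

namespace Fermat.Agent.S36.NU.H23

open Fermat.Agent.BAD Fermat.Agent.RED Fermat.Agent.S36.NU.H79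

section NmP2Abs

variable {K F F' F'' : Type*} [Field K] [Field F] [Field F'] [Field F''] [Algebra K F]
  [Algebra K F'] [Algebra K F'']

/-- Restriction along a composite, when the composite is the structure map. -/
theorem restrictAlong_restrictAlong_eq_restrict [Algebra F F''] [IsScalarTower K F F'']
    [Algebra.IsIntegral F F'']
    (φ : F →ₐ[K] F') (hφ : φ.toRingHom.IsIntegral) (ψ : F' →ₐ[K] F'')
    (hψ : ψ.toRingHom.IsIntegral) (h : ∀ x, ψ (φ x) = algebraMap F F'' x) (P : Place K F'') :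
    (P.restrictAlong ψ hψ).restrictAlong φ hφ = P.restrict F := by
  apply Place.ext
  ext x
  rw [Fermat.Agent.BAD.H91.mem_restrictAlong_iff, Fermat.Agent.BAD.H91.mem_restrictAlong_iff,
    Place.mem_restrict_iff, h]

/-- Restriction along two composites which agree. -/
theorem restrictAlong_restrictAlong_congr
    (φ₁ : F →ₐ[K] F') (hφ₁ : φ₁.toRingHom.IsIntegral) (ψ₁ : F' →ₐ[K] F'')
    (hψ₁ : ψ₁.toRingHom.IsIntegral)
    (φ₂ : F →ₐ[K] F') (hφ₂ : φ₂.toRingHom.IsIntegral) (ψ₂ : F' →ₐ[K] F'')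
    (hψ₂ : ψ₂.toRingHom.IsIntegral)
    (h : ∀ x, ψ₁ (φ₁ x) = ψ₂ (φ₂ x)) (P : Place K F'') :
    (P.restrictAlong ψ₁ hψ₁).restrictAlong φ₁ hφ₁
      = (P.restrictAlong ψ₂ hψ₂).restrictAlong φ₂ hφ₂ := by
  apply Place.ext
  ext x
  rw [Fermat.Agent.BAD.H91.mem_restrictAlong_iff, Fermat.Agent.BAD.H91.mem_restrictAlong_iff,
    Fermat.Agent.BAD.H91.mem_restrictAlong_iff, Fermat.Agent.BAD.H91.mem_restrictAlong_iff, h]

end NmP2Abs

section NmP2

variable (A : ValuationSubring Kbar) (q M : ℕ) (B k : ℤ) (hB : B * M + k * q = 1) (hq : q.Prime)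
  [NeZero M] [NeZero q] [NeZero (M * q)] [NeZero (M * q * q)] (hqM : ¬ q ∣ M)
  (hA : A.LiesOverPrime q) (ht : H91.TameAt M q)

theorem algebraMap_algF_NU (x : FN M) :
    @algebraMap (FN M) (FN (M * q * q)) _ _ (algF (hleMN q M)) x
      = IntermediateField.inclusion (hleMN q M) x := rfl

theorem alpha_incl_eq (x : FN M) :
    heckeAlphaBar Kbar (M * q) q (Fermat.Agent.BAD.H91.incl M q x)
      = @algebraMap (FN M) (FN (M * q * q)) _ _ (algF (hleMN q M)) x := by
  rw [algebraMap_algF_NU]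
  apply Subtype.ext
  rw [coe_heckeAlphaBar, Fermat.Agent.BAD.H91.coe_incl, IntermediateField.coe_inclusion]

theorem beta_incl_eq (x : FN M) :
    heckeBetaBar Kbar (M * q) q (Fermat.Agent.BAD.H91.incl M q x)
      = heckeAlphaBar Kbar (M * q) q (heckeBetaBar Kbar M q x) := by
  apply Subtype.ext
  rw [coe_heckeBetaBar, Fermat.Agent.BAD.H91.coe_incl, coe_heckeAlphaBar, coe_heckeBetaBar]

/-- The restriction to level `M` of a place of level `M q²`, through level `M q` along `α`. -/
theorem restrictAlong_alpha_incl (P : Place Kbar (FN (M * q * q))) :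
    letI := algF (hleMN q M)
    haveI := tower_FNU q M
    haveI := finite_FNU' q M
    (P.restrictAlong (heckeAlphaBar Kbar (M * q) q)
        (Fermat.Agent.S36.H44.alpha_integral (M * q) q)).restrictAlong
      (Fermat.Agent.BAD.H91.incl M q) (Fermat.Agent.BAD.H91.incl_isIntegral M q)
      = P.restrict (FN M) := by
  letI := algF (hleMN q M)
  haveI := tower_FNU q M
  haveI := finite_FNU' q M
  exact restrictAlong_restrictAlong_eq_restrict (Fermat.Agent.BAD.H91.incl M q)
    (Fermat.Agent.BAD.H91.incl_isIntegral M q) (heckeAlphaBar Kbar (M * q) q)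
    (Fermat.Agent.S36.H44.alpha_integral (M * q) q) (fun x => alpha_incl_eq q M x) P

/-- `(P | β) | incl = (P | α) | β`. -/
theorem restrictAlong_beta_incl (P : Place Kbar (FN (M * q * q))) :
    (P.restrictAlong (heckeBetaBar Kbar (M * q) q)
        (Fermat.Agent.S36.H44.beta_integral (M * q) q)).restrictAlong
      (Fermat.Agent.BAD.H91.incl M q) (Fermat.Agent.BAD.H91.incl_isIntegral M q)
      = (P.restrictAlong (heckeAlphaBar Kbar (M * q) q)
          (Fermat.Agent.S36.H44.alpha_integral (M * q) q)).restrictAlong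
        (heckeBetaBar Kbar M q) (Fermat.Agent.BAD.H91.beta_isIntegral M q) :=
  restrictAlong_restrictAlong_congr _ _ _ _ _ _ _ _ (fun x => beta_incl_eq q M x) P

/-- **`ρ' (P | α) = zA z → ρ P = z`.** -/
theorem rho_alpha (z : Place (kV A) (FM A M)) (P : Place Kbar (FN (M * q * q)))
    (h : (modTM A q M B k hB hq hqM hA ht).ρ
        (P.restrictAlong (heckeAlphaBar Kbar (M * q) q)
          (Fermat.Agent.S36.H44.alpha_integral (M * q) q))
      = zA A q M B k hB hq hA z) :
    rhoM A q M hq hqM hA ht P = z := by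
  rw [modTM_rho, zA_def] at h
  have h1 : Fermat.Agent.BAD.H91.rhoM hq hqM ht hA
      (P.restrictAlong (heckeAlphaBar Kbar (M * q) q)
        (Fermat.Agent.S36.H44.alpha_integral (M * q) q)) = z :=
    (kapM A q M B k hB hq hA).symm.injective h
  unfold Fermat.Agent.BAD.H91.rhoM at h1
  rw [restrictAlong_alpha_incl q M P] at h1
  exact h1

/-- `β` preserves the order of `j~` (as an element of `F₁`). -/
theorem betaL_ord_jRed (w : Place (kV A) (F1 A q M)) :
    (betaL A q M B k hB hq hA w).ord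
        (Fermat.Agent.BAD.H23.eRed A q M k B (hab_kB q M B k hB) hq hA
          (Fermat.Agent.BAD.H91.jRed A M))
      = w.ord (Fermat.Agent.BAD.H23.eRed A q M k B (hab_kB q M B k hB) hq hA
          (Fermat.Agent.BAD.H91.jRed A M)) := by
  refine Fermat.Agent.BAD.H73.betaF1_ord_of_fixed A q M hq hA M
    (Fermat.Agent.BAD.H82.redField_eq_fullC q M k B (hab_kB q M B k hB) hq A hA) w _ ?_
  refine Fermat.Agent.BAD.H73.phiF1_of_int A q M hq hA M
    (Fermat.Agent.BAD.H82.redField_eq_fullC q M k B (hab_kB q M B k hB) hq A hA) _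
    (jqModC ℤ) ?_
  rw [Fermat.Agent.BAD.H23.coe_eRed]
  exact (Fermat.Agent.RED.H73.red_jF A M).trans (coeffMap_jqModC _).symm

/-- **`ρ' (P | β) = zB z → ρ P = z`** for the supersingular points. -/
theorem rho_beta (z : Place (kV A) (FM A M)) (hz : z ∈ Fermat.Agent.S36.NU.H74.ssM A q M)
    (P : Place Kbar (FN (M * q * q)))
    (h : (modTM A q M B k hB hq hqM hA ht).ρ
        (P.restrictAlong (heckeBetaBar Kbar (M * q) q)
          (Fermat.Agent.S36.H44.beta_integral (M * q) q))
      = zB A q M B k hB hq hqM hA z) :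
    rhoM A q M hq hqM hA ht P = z := by
  apply rho_alpha A q M B k hB hq hqM hA ht z P
  rw [modTM_rho] at h ⊢
  -- `ρ' (P | β) = ρ' (w⁻¹ (P | α))`
  have e2 : Fermat.Agent.BAD.H91.rhoF1 k B (hab_kB q M B k hB) hq hA hqM ht
      (P.restrictAlong (heckeBetaBar Kbar (M * q) q)
        (Fermat.Agent.S36.H44.beta_integral (M * q) q))
      = Fermat.Agent.BAD.H91.rhoF1 k B (hab_kB q M B k hB) hq hA hqM ht
        ((Fermat.Agent.BAD.H91.wSemi k B (hab_kB q M B k hB) hq)⁻¹ •
          P.restrictAlong (heckeAlphaBar Kbar (M * q) q)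
            (Fermat.Agent.S36.H44.alpha_integral (M * q) q)) := by
    unfold Fermat.Agent.BAD.H91.rhoF1 Fermat.Agent.BAD.H91.rhoM
    rw [restrictAlong_beta_incl q M P, ← Fermat.Agent.BAD.H91.restrictAlong_wSemi]
  have hnode : (Fermat.Agent.BAD.H91.modT k B (hab_kB q M B k hB) hq hA hqM ht
      (Fermat.Agent.S35.H89.betaMod A q M k B (hab_kB q M B k hB) hq hA)
      (Fermat.Agent.BAD.H23.tot_mod A q M k B (hab_kB q M B k hB) hq hA hqM ht
        (Fermat.Agent.BAD.H82.redField_eq_fullC q M k B (hab_kB q M B k hB) hq A hA))).IsNode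
      (Fermat.Agent.BAD.H91.rhoF1 k B (hab_kB q M B k hB) hq hA hqM ht
        ((Fermat.Agent.BAD.H91.wSemi k B (hab_kB q M B k hB) hq)⁻¹ •
          P.restrictAlong (heckeAlphaBar Kbar (M * q) q)
            (Fermat.Agent.S36.H44.alpha_integral (M * q) q))) := by
    rw [← e2, h]
    exact nodeB A q M B k hB hq hqM hA ht z hz
  have h3 := Fermat.Agent.BAD.H91.rhoW_eq_beta_mod k B (hab_kB q M B k hB) hq hA hqM ht
    (Fermat.Agent.S35.H89.betaMod A q M k B (hab_kB q M B k hB) hq hA)
    (Fermat.Agent.BAD.H23.tot_mod A q M k B (hab_kB q M B k hB) hq hA hqM ht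
      (Fermat.Agent.BAD.H82.redField_eq_fullC q M k B (hab_kB q M B k hB) hq A hA))
    (betaL_ord_jRed A q M B k hB hq hA) hnode
  rw [Fermat.Agent.BAD.H91.wSemi_inv, ← mul_smul, Fermat.Agent.BAD.H91.wSemi_mul_self, one_smul,
    ← Fermat.Agent.BAD.H91.wSemi_inv k B (hab_kB q M B k hB) hq, ← e2, h] at h3
  rw [h3]
  exact betaL_zB A q M B k hB hq hqM hA z

end NmP2

end Fermat.Agent.S36.NU.H23
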