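import Fermat.Agent.S36.NU.H42_NmReg
import Fermat.Agent.Lib.HeckeComm.H2_NormBC
import Fermat.Prelude.Def_AlgebraicCurve_Correspondence

/-!
# S36 / NU-MOD, leaf NM-P, part NM-FIB (helper42): norms along a map and fibres of reductions

`φ : F →ₐ[K] F'` finite with the norm formula for divisors (`NormFormulaAlong`).

* `ord_normAlong_eq_sum`  : `ord_v (N_φ f) = ∑_{w | v} ord_w (f) · f(w | v)`;
* `ord_normAlong_eq_zero` : if `f` has neither zero nor pole over `v`, neither has `N_φ f` at `v`;
* `regAt_normAlong`       : if `f` is regular over `v`, then `N_φ f` is regular at `v`;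
* `fib_of_rho`, `reg_of_rho` : the fields `fibα`, `fibβ`, `regα` of `H79.NUPre` from the
  compatibility `hρ` of the two reduction maps
  (`ρ' (P | φ) = z' → ρ P = z`: the fibre of `z'` is the point `z`).

This file has no open goals.
-/

set_option autoImplicit false
set_option linter.style.haveILetI false
set_option linter.unusedSectionVars false

noncomputable section

open AlgebraicCurve

namespace Fermat.Agent.S36.NU.H42

open Fermat.Agent.RED.H17 Fermat.Agent.RED Fermat.Agent.Lib.HeckeComm

section Along

variable {K F F' : Type*} [Field K] [Field F] [Field F'] [Algebra K F] [Algebra K F']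
  [HasPrincipalDivisors K F']
  (φ : F →ₐ[K] F') (hφ : φ.toRingHom.IsIntegral) (hfin : FiniteAlong K φ)
  (hnorm : NormFormulaAlong K φ hfin)

include hnorm in
/-- The order of the norm along `φ` at `v` is the weighted sum of the orders over `v`. -/
theorem ord_normAlong_eq_sum (v : Place K F) (f : F') (hf : f ≠ 0) :
    ∃ (s : Finset (Place K F')) (d : Place K F' → ℕ), (∀ w ∈ s, w.restrictAlong φ hφ = v) ∧
      v.ord (normAlongHom φ.toRingHom f) = ∑ w ∈ s, w.ord f * (d w : ℤ) := by
  letI := algebraAlong φ
  haveI := isScalarTower_along φ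
  haveI := isIntegral_along φ hφ
  haveI : Module.Finite F F' := hfin
  obtain ⟨s, hs, h⟩ := ord_norm_eq_sum (K := K) (F := F) (F' := F') hnorm v f hf
  exact ⟨s, fun w => w.inertiaDeg F, hs, h⟩

include hnorm in
/-- If `f` has neither zero nor pole at the places over `v`, then `N_φ f` has neither zero nor
pole at `v`. -/
theorem ord_normAlong_eq_zero (v : Place K F) (f : F')
    (hf : ∀ w : Place K F', w.restrictAlong φ hφ = v → w.ord f = 0) :
    v.ord (normAlongHom φ.toRingHom f) = 0 := by
  rcases eq_or_ne f 0 with rfl | hf0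
  · have h0 : normAlongHom φ.toRingHom (0 : F') = 0 := by
      letI := algebraAlong φ
      haveI : Module.Finite F F' := hfin
      exact Algebra.norm_zero
    rw [h0]
    exact Place.ord_zero v
  obtain ⟨s, d, hs, h⟩ := ord_normAlong_eq_sum φ hφ hfin hnorm v f hf0
  rw [h]
  refine Finset.sum_eq_zero fun w hw => ?_
  rw [hf w (hs w hw), zero_mul]

include hnorm in
/-- If `f` is regular at the places over `v`, then `N_φ f` is regular at `v`. -/
theorem regAt_normAlong (v : Place K F) (f : F')
    (hf : ∀ w : Place K F', w.restrictAlong φ hφ = v → RegAt w f) :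
    RegAt v (normAlongHom φ.toRingHom f) := by
  letI := algebraAlong φ
  haveI := isScalarTower_along φ
  haveI := isIntegral_along φ hφ
  haveI : Module.Finite F F' := hfin
  exact regAt_norm (K := K) (F := F) (F' := F') hnorm v f hf

variable {Z Z' : Type*} (ρ : Place K F' → Z) (ρ' : Place K F → Z') (z : Z) (z' : Z')
  (hρ : ∀ P : Place K F', ρ' (P.restrictAlong φ hφ) = z' → ρ P = z)

include hnorm hρ in
/-- **`fibα`, `fibβ`**: the norm of a function without zero or pole on the fibre of `z` has
neither zero nor pole on the fibre of `z'`, if the fibre of `z'` lies over `z`. -/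
theorem fib_of_rho (f : F') (hf : ∀ P : Place K F', ρ P = z → P.ord f = 0)
    (Q : Place K F) (hQ : ρ' Q = z') : Q.ord (normAlongHom φ.toRingHom f) = 0 :=
  ord_normAlong_eq_zero φ hφ hfin hnorm Q f fun w hw => hf w (hρ w (by rw [hw]; exact hQ))

include hnorm hρ in
/-- **`regα`**: the norm of a function regular on the fibre of `z` is regular on the fibre of
`z'`. -/
theorem reg_of_rho (f : F') (hf : ∀ P : Place K F', ρ P = z → RegAt P f)
    (Q : Place K F) (hQ : ρ' Q = z') : RegAt Q (normAlongHom φ.toRingHom f) :=
  regAt_normAlong φ hφ hfin hnorm Q f fun w hw => hf w (hρ w (by rw [hw]; exact hQ))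

end Along

end Fermat.Agent.S36.NU.H42
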