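import Fermat.Agent.S36.NU.H79_NuMFib
import Fermat.Agent.S36.NU.H42_NmFib
import Fermat.Agent.S36.NU.H23_NmP2
import Fermat.Agent.S36.H44_Push

/-!
# S36 / NU-B, ND (helper79): the fibre part `NmFib` and the modular `NUData`, unconditionally

* `nmFibM : NmFib ..` : from helper42's `fib_of_rho`, `reg_of_rho` and helper23's `rho_alpha`,
  `rho_beta`;
* `nuMod : NUDataM A q M`, `isNuM_nuMod`, **`stmt_NuM`** : the modular `NUData`.
-/

set_option autoImplicit false
set_option synthInstance.maxHeartbeats 400000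
set_option maxHeartbeats 1000000
set_option linter.style.haveILetI false
set_option linter.unusedSectionVars false

noncomputable section

open ModularCurve AlgebraicCurve
open Fermat.Agent.S24 Fermat.Agent.BAD.H88 Fermat.Agent.S28 Fermat.Agent.S28.H73
open Fermat.Agent.RED.H73 Fermat.Agent.RED.H17 Fermat.Agent.S36.NU.H88
open Fermat.Agent.Lib.HeckeComm Fermat.Agent.S36.NU.H23 Fermat.Agent.S36.NU.H74
open Fermat.Agent.S36.NU.H89

namespace Fermat.Agent.S36.NU.H79

open Fermat.Agent.BAD Fermat.Agent.RED Fermat.Agent.BAD.H79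

section NmFibM

variable (A : ValuationSubring Kbar) (q M : ℕ) (B k : ℤ) (hB : B * M + k * q = 1) (hq : q.Prime)
  [NeZero M] [NeZero q] [NeZero (M * q)] [NeZero (M * q * q)]
  (hqM : ¬ q ∣ M) (hA : A.LiesOverPrime q) (ht : H91.TameAt M q)

/-- **The fibre part of the modular `NUPre`.** -/
theorem nmFibM : NmFib A q M B k hB hq hqM hA ht := by
  haveI : HasPrincipalDivisors Kbar (FN (M * q * q)) :=
    Fermat.Agent.S36.NU.H74.hasPrincipalDivisors_FN (M * q * q)
  refine ⟨?_, ?_, ?_⟩
  · intro z _ h hf Q hQ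
    exact Fermat.Agent.S36.NU.H42.fib_of_rho (heckeAlphaBar Kbar (M * q) q)
      (Fermat.Agent.S36.H44.alpha_integral (M * q) q)
      (Fermat.Agent.S36.H44.alpha_finite (M * q) q)
      (Fermat.Agent.S36.H44.alpha_norm (M * q) q)
      (rhoM A q M hq hqM hA ht) (TlowM A q M B k hB hq hqM hA ht).ρ z
      (zA A q M B k hB hq hA z)
      (fun P hP => rho_alpha A q M B k hB hq hqM hA ht z P hP) _ hf Q hQ
  · intro z hz h hf Q hQ
    exact Fermat.Agent.S36.NU.H42.fib_of_rho (heckeBetaBar Kbar (M * q) q)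
      (Fermat.Agent.S36.H44.beta_integral (M * q) q)
      (Fermat.Agent.S36.H44.beta_finite (M * q) q)
      (Fermat.Agent.S36.H44.beta_norm (M * q) q)
      (rhoM A q M hq hqM hA ht) (TlowM A q M B k hB hq hqM hA ht).ρ z
      (zB A q M B k hB hq hqM hA z)
      (fun P hP => rho_beta A q M B k hB hq hqM hA ht z hz P hP) _ hf Q hQ
  · intro z _ h hf Q hQ
    exact Fermat.Agent.S36.NU.H42.reg_of_rho (heckeAlphaBar Kbar (M * q) q)
      (Fermat.Agent.S36.H44.alpha_integral (M * q) q)
      (Fermat.Agent.S36.H44.alpha_finite (M * q) q)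
      (Fermat.Agent.S36.H44.alpha_norm (M * q) q)
      (rhoM A q M hq hqM hA ht) (TlowM A q M B k hB hq hqM hA ht).ρ z
      (zA A q M B k hB hq hA z)
      (fun P hP => rho_alpha A q M B k hB hq hqM hA ht z P hP) _ hf Q hQ

/-- **The modular `NUData`.** -/
def nuMod : NUDataM A q M :=
  nuMF A q M B k hB hq hqM hA ht (nmFibM A q M B k hB hq hqM hA ht)

/-- `nuMod` is a modular instance of `NUData`. -/
theorem isNuM_nuMod : IsNuM A q M B k hB hq hqM hA ht (nuMod A q M B k hB hq hqM hA ht) :=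
  isNuM_nuMF A q M B k hB hq hqM hA ht _

/-- **ND**: there is a modular instance of `NUData`. -/
theorem stmt_NuM : Stmt_NuM A q M B k hB hq hqM hA ht :=
  ⟨nuMod A q M B k hB hq hqM hA ht, isNuM_nuMod A q M B k hB hq hqM hA ht⟩

end NmFibM

end Fermat.Agent.S36.NU.H79
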