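import Fermat.Agent.S36.NU.H17_TIRadQ

/-!
# S36 / NU-B, leaf TI3-VAL, input (G) (helper17): the Gauss property on `K[j]`

`R` a valuation ring of `K`, `V` a valuation ring of `F ⊇ K` with `V ∩ K = R` and residue map
`red : V → κ`, `j ∈ V` with `red j` transcendental over the residue field `k` of `R`.

* `exists_scale_poly` : a nonzero polynomial over `K` is a constant times a polynomial over `R`
  with a coefficient equal to `1`;
* `gauss_of_transcendental_red` : **(G)** `p ∈ K[X]`, `p(j) ∈ V` ⟹ `p ∈ R[X]`;
* `Chart.gauss` : the same for a chart of helper16.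
-/

set_option autoImplicit false
set_option linter.style.haveILetI false
set_option linter.unusedSectionVars false

noncomputable section

open Polynomial

namespace Fermat.Agent.S36.NU.H17

section Scale

variable (R : Type*) {K : Type*} [CommRing R] [IsDomain R] [ValuationRing R] [Field K]
  [Algebra R K] [IsFractionRing R K]

/-- A nonzero polynomial over the fraction field of a valuation ring `R` is a constant times a
polynomial over `R` one of whose coefficients is `1`. -/
theorem exists_scale_poly (p : K[X]) (hp : p ≠ 0) :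
    ∃ (a : K) (P : R[X]) (m : ℕ), a ≠ 0 ∧ P.coeff m = 1 ∧ p = C a * P.map (algebraMap R K) := by
  classical
  obtain ⟨m, hm, hmax⟩ := Finset.exists_max_image p.support
    (fun i => ValuationRing.valuation R K (p.coeff i)) (Polynomial.support_nonempty.2 hp)
  have ha : p.coeff m ≠ 0 := Polynomial.mem_support_iff.1 hm
  have hl : C (p.coeff m)⁻¹ * p ∈ Polynomial.lifts (algebraMap R K) := by
    rw [lifts_iff_coeff_lifts]
    intro i
    rw [Polynomial.coeff_C_mul]
    have hv : (p.coeff m)⁻¹ * p.coeff i ∈ (ValuationRing.valuation R K).integer := by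
      rw [Valuation.mem_integer_iff, map_mul, map_inv₀]
      by_cases hi : i ∈ p.support
      · have h1 := hmax i hi
        have h0 : ValuationRing.valuation R K (p.coeff m) ≠ 0 :=
          (Valuation.ne_zero_iff _).2 ha
        calc (ValuationRing.valuation R K (p.coeff m))⁻¹ * ValuationRing.valuation R K (p.coeff i)
            ≤ (ValuationRing.valuation R K (p.coeff m))⁻¹
              * ValuationRing.valuation R K (p.coeff m) := by gcongr
          _ = 1 := inv_mul_cancel₀ h0
      · rw [Polynomial.notMem_support_iff.1 hi, map_zero, mul_zero]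
        exact zero_le_one
    obtain ⟨r, hr⟩ := (ValuationRing.mem_integer_iff R K _).1 hv
    exact ⟨r, hr⟩
  obtain ⟨P, hP⟩ := (Polynomial.mem_lifts _).1 hl
  refine ⟨p.coeff m, P, m, ha, ?_, ?_⟩
  · apply IsFractionRing.injective R K
    rw [← Polynomial.coeff_map, hP, Polynomial.coeff_C_mul, inv_mul_cancel₀ ha, map_one]
  · rw [hP, ← mul_assoc, ← C_mul, mul_inv_cancel₀ ha, C_1, one_mul]

end Scale

section Gauss2

variable {R K F k κ : Type*} [CommRing R] [IsDomain R] [ValuationRing R] [Field K]
  [Algebra R K] [IsFractionRing R K] [Field F] [Algebra K F] [Algebra R F] [IsScalarTower R K F]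
  [Field k] [Field κ] [Algebra k κ]

/-- **(G)**, the Gauss property on `K[j]`: if the residue of `j` is transcendental over the
residue field of `R` and `V ∩ K = R`, then a polynomial `p ∈ K[X]` with `p(j) ∈ V` has its
coefficients in `R`. -/
theorem gauss_of_transcendental_red (V : ValuationSubring F) (red : V →+* κ)
    (hker : ∀ u : V, u ∈ IsLocalRing.maximalIdeal V → red u = 0)
    (res : R →+* k) (hR : ∀ r : R, algebraMap R F r ∈ V)
    (hred_const : ∀ r : R, red ⟨algebraMap R F r, hR r⟩ = algebraMap k κ (res r))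
    (hconst : ∀ c : K, algebraMap K F c ∈ V → c ∈ (algebraMap R K).range)
    (j : F) (hjV : j ∈ V) (htr : Transcendental k (red ⟨j, hjV⟩))
    (p : K[X]) (hp : aeval j p ∈ V) (i : ℕ) : p.coeff i ∈ (algebraMap R K).range := by
  by_cases hp0 : p = 0
  · rw [hp0, coeff_zero]
    exact zero_mem _
  obtain ⟨a, P, m, ha, hPm, rfl⟩ := exists_scale_poly R p hp0
  -- the value of `P` at `j`, inside `V`
  let f : R →+* V := (algebraMap R F).codRestrict V.toSubring hR
  have hφ : ((eval₂ f ⟨j, hjV⟩ P : V) : F) = aeval j P := by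
    have := Polynomial.hom_eval₂ P f V.subtype ⟨j, hjV⟩
    exact this
  have hredφ : red (eval₂ f ⟨j, hjV⟩ P) = aeval (red ⟨j, hjV⟩) (P.map res) := by
    rw [Polynomial.hom_eval₂, aeval_def, eval₂_map]
    congr 1
    ext r
    exact hred_const r
  have hPres : P.map res ≠ 0 := by
    intro h0
    have := congrArg (fun Q : k[X] => Q.coeff m) h0
    simp only [coeff_map, coeff_zero, hPm, map_one] at this
    exact one_ne_zero this
  have hne : red (eval₂ f ⟨j, hjV⟩ P) ≠ 0 := by
    rw [hredφ]
    intro h0
    exact hPres (transcendental_iff.1 htr _ h0)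
  have hunit : IsUnit (eval₂ f ⟨j, hjV⟩ P) := by
    by_contra hnu
    exact hne (hker _ ((IsLocalRing.mem_maximalIdeal _).2 hnu))
  obtain ⟨w, hw⟩ := hunit.exists_right_inv
  have hwF : aeval j P * (w : F) = 1 := by
    rw [← hφ]
    exact congrArg Subtype.val hw
  have haV : algebraMap K F a ∈ V := by
    have e : algebraMap K F a = aeval j (C a * P.map (algebraMap R K)) * (w : F) := by
      rw [map_mul, aeval_C, Polynomial.aeval_map_algebraMap, mul_assoc, hwF, mul_one]
    rw [e]
    exact V.mul_mem _ _ hp w.2
  obtain ⟨r, hr⟩ := hconst a haV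
  rw [Polynomial.coeff_C_mul, Polynomial.coeff_map, ← hr, ← map_mul]
  exact ⟨_, rfl⟩

end Gauss2

section ChartGauss

open Fermat.Agent.S36.NU.H16

variable {R K F k ι : Type*} {κ : ι → Type*} [CommRing R] [IsDomain R] [ValuationRing R]
  [Field K] [Algebra R K] [IsFractionRing R K] [Field F] [Algebra K F] [Algebra R F]
  [IsScalarTower R K F] [Field k] [∀ i, Field (κ i)] [∀ i, Algebra k (κ i)]
  (C : Chart R F k ι κ)

/-- **(G)** for a chart: `j ∈ B`, the residue of `j` at the component `i₀` is transcendental over
`k`, the constants of `V i₀` are `R`. -/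
theorem Chart.gauss (i₀ : ι) (hconst : ∀ c : K, algebraMap K F c ∈ C.V i₀ →
      c ∈ (algebraMap R K).range)
    (j : F) (hjB : j ∈ C.B) (htr : Transcendental k (C.rd i₀ j))
    (p : K[X]) (hp : aeval j p ∈ C.V i₀) (i : ℕ) : p.coeff i ∈ (algebraMap R K).range := by
  have hjV : j ∈ C.V i₀ := C.B_le i₀ j hjB
  rw [C.rd_of_mem i₀ hjV] at htr
  exact gauss_of_transcendental_red (C.V i₀) (C.red i₀)
    (fun u hu => (C.red_eq_zero_iff i₀ u).2 hu) C.res
    (fun r => C.B_le i₀ _ (C.B.algebraMap_mem r))
    (fun r => C.red_const i₀ r _) hconst j hjV htr p hp i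

end ChartGauss

end Fermat.Agent.S36.NU.H17
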