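import Fermat.Agent.S36.NU.H88_ChartInt
import Fermat.Agent.S36.NU.H17_TIGauss
import Fermat.Agent.S36.NU.H42_Int

/-!
# S36, NU-B, (M1) CHART-MOD (helper88): (G), (THREE) and `crit` for the two modular charts

* `transcendental_Jred` : the reduction `j̃` of `j` is transcendental over `k`;
* `hG_chart0`, `hG_chartInf` : **(G)** the Gauss property of `V₂₀` on `K^ur[j]`, `K^ur[j⁻¹]`;
* `incl1N_mem_adjoin` : (DESC-ONE) the inertia-fixed functions of level `1` lie in `K^ur(j)`;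
* `hthree_totM` : **(THREE)** in helper17's form, from helper42's `int_mod`;
* `crit_mod_chart0`, `crit_mod_chartInf` : integral over `K^ur[j]` (`K^ur[j⁻¹]`) and in the three valuation
  rings ⟹ in the chart;
* `jdd_mem_intSub_mod` : `j(q²τ)` is integral over `R[j]`;
* `chartHyp_chart0_mod`, `chartHyp_chartInf_mod` : **`ChartHyp`, unconditional**.
-/

set_option autoImplicit false
set_option synthInstance.maxHeartbeats 400000
set_option maxHeartbeats 1000000
set_option linter.unusedSectionVars false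
set_option linter.style.haveILetI false

noncomputable section

open IntermediateField ModularCurve AlgebraicCurve Polynomial
open Fermat.Agent.S24 Fermat.Agent.BAD.H88 Fermat.Agent.S28 Fermat.Agent.S28.H73
open Fermat.Agent.RED.H73 Fermat.Agent.RED.H17

namespace Fermat.Agent.S36.NU.H88

open Fermat.Agent.S36.NU.H16 Fermat.Agent.S36.NU.H17 Fermat.Agent.S36.NU.H24
  Fermat.Agent.S36.NU.H65 Fermat.Agent.S36.NU.H79 Fermat.Agent.S36.NU.H23
  Fermat.Agent.S36.NU.H41 Fermat.Agent.BAD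

section Gauss

variable (A : ValuationSubring Kbar) (q M : ℕ) (B k : ℤ) (hB : B * M + k * q = 1) (hq : q.Prime)
  [NeZero M] [NeZero q] [NeZero (M * q * q)] (hqM : ¬ q ∣ M) (hA : A.LiesOverPrime q)
  (ht : H91.TameAt M q)

attribute [local instance] algkM

theorem Jred_eq_jqModC : Jred A = jqModC (kV A) := by
  rw [Jred, jInt, qExpand_one_apply, coeffMap_jqModC]

theorem transcendental_Jred : Transcendental (kV A) (Jred A) := by
  rw [Jred_eq_jqModC]
  exact Fermat.Agent.RED.H73.transcendental_jqModC (kV A)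

/-- The reduction of `j` at `V₂₀` is transcendental over `k`. -/
theorem transcendental_r20_j0 :
    Transcendental (kV A) (r20 A q M hq hqM hA ⟨j0 A (M * q * q), j0_mem20 A q M⟩) := by
  intro halg
  have h1 : IsAlgebraic (kV A) (algebraMap (FM A M) (LaurentSeries (kV A))
      (r20 A q M hq hqM hA ⟨j0 A (M * q * q), j0_mem20 A q M⟩)) := halg.algebraMap
  have h2 : algebraMap (FM A M) (LaurentSeries (kV A))
      (r20 A q M hq hqM hA ⟨j0 A (M * q * q), j0_mem20 A q M⟩) = Jred A := by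
    show s20 A q M ⟨j0 A (M * q * q), j0_mem20 A q M⟩ = Jred A
    exact s20_j0 A q M _
  rw [h2] at h1
  exact transcendental_Jred A h1

/-- The constants of `V₂₀`. -/
theorem const_of_mem_V20o (c : ↥(Kur A))
    (hc : algebraMap ↥(Kur A) ↥(L0 A (M * q * q)) c ∈ V20o A q M) :
    c ∈ (algebraMap ↥(Rur A) ↥(Kur A)).range := by
  have h1 : algebraMap Kbar (FN (M * q * q)) (c : Kbar) ∈ V20 A (M * q * q) := hc
  have h2 : (c : Kbar) ∈ A := (const_mem20 A (M * q * q) _).mp h1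
  exact ⟨⟨c, h2⟩, rfl⟩

/-- **(G)** for the chart of `j`. -/
theorem hG_chart0 (p : (↥(Kur A))[X])
    (hp : aeval (j0 A (M * q * q)) p ∈ (totM A q M B k hB hq hqM hA ht).V 0) (i : ℕ) :
    p.coeff i ∈ (algebraMap ↥(Rur A) ↥(Kur A)).range :=
  gauss_of_transcendental_red (R := ↥(Rur A)) (K := ↥(Kur A)) (k := kV A) (κ := FM A M)
    (V20o A q M) (r20 A q M hq hqM hA)
    (fun u hu => r20_eq_zero_of_not_isUnit A q M hq hqM hA u
      ((IsLocalRing.mem_maximalIdeal u).mp hu))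
    (resRur A) (const_mem_V20o A q M)
    (fun r => Subtype.ext (s20_const A q M r _))
    (const_of_mem_V20o A q M)
    (j0 A (M * q * q)) (j0_mem20 A q M) (transcendental_r20_j0 A q M hq hqM hA) p hp i

include hB hq hqM hA ht in
theorem j0_inv_mem20_tot : (j0 A (M * q * q))⁻¹ ∈ V20o A q M := by
  have h := (totM A q M B k hB hq hqM hA ht).inv_mem_of_rdN_ne_zero
    (rdN_j0_ne_zero A q M B k hB hq hqM hA ht 0)
  exact h

/-- The reduction of `j⁻¹` at `V₂₀` is transcendental over `k`. -/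
theorem transcendental_r20_j0_inv (h : (j0 A (M * q * q))⁻¹ ∈ V20o A q M) :
    Transcendental (kV A) (r20 A q M hq hqM hA ⟨(j0 A (M * q * q))⁻¹, h⟩) := by
  have hj0 : j0 A (M * q * q) ≠ 0 := j0_ne_zero A (M * q * q)
  have e : r20 A q M hq hqM hA ⟨(j0 A (M * q * q))⁻¹, h⟩
      = (r20 A q M hq hqM hA ⟨j0 A (M * q * q), j0_mem20 A q M⟩)⁻¹ := by
    apply eq_inv_of_mul_eq_one_left
    rw [← map_mul]
    have e1 : (⟨(j0 A (M * q * q))⁻¹, h⟩ : ↥(V20o A q M)) * ⟨j0 A (M * q * q), j0_mem20 A q M⟩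
        = 1 := Subtype.ext (inv_mul_cancel₀ hj0)
    rw [e1, map_one]
  rw [e]
  exact transcendental_inv (kV A) _ (transcendental_r20_j0 A q M hq hqM hA)

/-- **(G)** for the chart of `j⁻¹`. -/
theorem hG_chartInf (p : (↥(Kur A))[X])
    (hp : aeval (j0 A (M * q * q))⁻¹ p ∈ (totM A q M B k hB hq hqM hA ht).V 0) (i : ℕ) :
    p.coeff i ∈ (algebraMap ↥(Rur A) ↥(Kur A)).range :=
  gauss_of_transcendental_red (R := ↥(Rur A)) (K := ↥(Kur A)) (k := kV A) (κ := FM A M)
    (V20o A q M) (r20 A q M hq hqM hA)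
    (fun u hu => r20_eq_zero_of_not_isUnit A q M hq hqM hA u
      ((IsLocalRing.mem_maximalIdeal u).mp hu))
    (resRur A) (const_mem_V20o A q M)
    (fun r => Subtype.ext (s20_const A q M r _))
    (const_of_mem_V20o A q M)
    (j0 A (M * q * q))⁻¹ (j0_inv_mem20_tot A q M B k hB hq hqM hA ht)
    (transcendental_r20_j0_inv A q M hq hqM hA _) p hp i

end Gauss

/-! ### (DESC-ONE) and (THREE) -/

section Three

variable (A : ValuationSubring Kbar) (q M : ℕ) (B k : ℤ) (hB : B * M + k * q = 1) (hq : q.Prime)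
  [NeZero M] [NeZero q] [NeZero (M * q * q)] (hqM : ¬ q ∣ M) (hA : A.LiesOverPrime q)
  (ht : H91.TameAt M q)

attribute [local instance] algkM

/-- The series of `ℚ̄(j)` are in `ℚ̄(j)` at every level. -/
theorem mem_adjoin_jF_of_series (N : ℕ) [NeZero N] (x : FN N)
    (hx : (x : LaurentSeries Kbar)
      ∈ IntermediateField.adjoin Kbar ({jqModC Kbar} : Set (LaurentSeries Kbar))) :
    x ∈ Kbar⟮Fermat.Agent.S24.jF N⟯ := by
  have hmap : (Kbar⟮Fermat.Agent.S24.jF N⟯).map (modularFunctionFieldBar N).val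
      = IntermediateField.adjoin Kbar ({jqModC Kbar} : Set (LaurentSeries Kbar)) := by
    rw [IntermediateField.adjoin_map, Set.image_singleton]
    congr 2
    show ((Fermat.Agent.S24.jF N : FN N) : LaurentSeries Kbar) = jqModC Kbar
    rw [← jdF_one_eq_jF, coe_jdF_one, H65.intSer, jInt, qExpand_one_apply, coeffMap_jqModC]
  rw [← hmap] at hx
  obtain ⟨y, hy, hyx⟩ := hx
  have : y = x := Subtype.ext hyx
  rw [← this]
  exact hy

/-- **(DESC-ONE)**: the inertia-fixed functions of level `1` lie in `K^ur(j)`. -/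
theorem incl1N_mem_adjoin (a : ↥(L0 A 1)) :
    Fermat.Agent.S36.NU.H42.incl1N A q M a ∈ (↥(Kur A))⟮j0 A (M * q * q)⟯ := by
  apply fixed_mem_adjoin_j0
  apply mem_adjoin_jF_of_series
  rw [Fermat.Agent.S36.NU.H42.coe_incl1N, ← Fermat.Agent.S36.NU.H42.bar_one_eq]
  exact (a : FN 1).2

include hq hqM hA in
/-- **(THREE)** in the form of helper17's TI3-VAL. -/
theorem hthree_totM (f : ↥(L0 A (M * q * q)))
    (hf : ∀ i, f ∈ (totM A q M B k hB hq hqM hA ht).V i) :
    ∃ P : (↥(L0 A (M * q * q)))[X], P.Monic ∧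
      (∀ m, P.coeff m ∈ (totM A q M B k hB hq hqM hA ht).V 0 ∧
        P.coeff m ∈ (↥(Kur A))⟮j0 A (M * q * q)⟯) ∧ P.eval f = 0 := by
  obtain ⟨P, hP, hcoef, h20, _, _, hev⟩ :=
    Fermat.Agent.S36.NU.H42.int_mod A q M B k hB hq hqM hA f (hf 0) (hf 1) (hf 2)
  refine ⟨P, hP, fun m => ⟨h20 m, ?_⟩, hev⟩
  obtain ⟨a, _, ha⟩ := hcoef m
  rw [ha]
  exact incl1N_mem_adjoin A q M a

/-- (THREE) for `j⁻¹`. -/
theorem hthree_totM_inv (f : ↥(L0 A (M * q * q)))
    (hf : ∀ i, f ∈ (totM A q M B k hB hq hqM hA ht).V i) :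
    ∃ P : (↥(L0 A (M * q * q)))[X], P.Monic ∧
      (∀ m, P.coeff m ∈ (totM A q M B k hB hq hqM hA ht).V 0 ∧
        P.coeff m ∈ (↥(Kur A))⟮(j0 A (M * q * q))⁻¹⟯) ∧ P.eval f = 0 := by
  obtain ⟨P, hP, hcoef, hev⟩ := hthree_totM A q M B k hB hq hqM hA ht f hf
  refine ⟨P, hP, fun m => ⟨(hcoef m).1, ?_⟩, hev⟩
  rw [adjoin_inv_eq]
  exact (hcoef m).2

/-! ### `crit` -/

/-- **`crit` for the chart of `j`**. -/
theorem crit_mod_chart0 (f : ↥(L0 A (M * q * q)))
    (hf₁ : IsIntegral ↥(Algebra.adjoin ↥(Kur A) {j0 A (M * q * q)}) f)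
    (hf₂ : ∀ i, f ∈ (totM A q M B k hB hq hqM hA ht).V i) :
    f ∈ intSub ↥(Rur A) (j0 A (M * q * q)) :=
  isIntegral_adjoin_of_forall_mem ↥(Rur A) ↥(Kur A) (j0 A (M * q * q))
    (transcendental_j0 A (M * q * q)) (totM A q M B k hB hq hqM hA ht).V 0
    (hG_chart0 A q M B k hB hq hqM hA ht) (hthree_totM A q M B k hB hq hqM hA ht) hf₁ hf₂

/-- **`crit` for the chart of `j⁻¹`**. -/
theorem crit_mod_chartInf (f : ↥(L0 A (M * q * q)))
    (hf₁ : IsIntegral ↥(Algebra.adjoin ↥(Kur A) {(j0 A (M * q * q))⁻¹}) f)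
    (hf₂ : ∀ i, f ∈ (totM A q M B k hB hq hqM hA ht).V i) :
    f ∈ intSub ↥(Rur A) (j0 A (M * q * q))⁻¹ :=
  isIntegral_adjoin_of_forall_mem ↥(Rur A) ↥(Kur A) (j0 A (M * q * q))⁻¹
    (transcendental_inv ↥(Kur A) _ (transcendental_j0 A (M * q * q)))
    (totM A q M B k hB hq hqM hA ht).V 0
    (hG_chartInf A q M B k hB hq hqM hA ht) (hthree_totM_inv A q M B k hB hq hqM hA ht) hf₁ hf₂

include hB hq hqM hA ht in
/-- **`j(q²τ)` is integral over `R[j]`.** -/
theorem jdd_mem_intSub_mod : jdd A q M ∈ intSub ↥(Rur A) (j0 A (M * q * q)) :=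
  crit_mod_chart0 A q M B k hB hq hqM hA ht _ (isIntegral_jdd A q M)
    (jdd_mem_totM A q M B k hB hq hqM hA ht)

/-- **`ChartHyp` for the chart of `j`** (unconditional). -/
theorem chartHyp_chart0_mod (n : ℕ) (hn : 0 < n) (hcop : Nat.Coprime n q) :
    ChartHyp (chart0 A q M B k hB hq hqM hA ht) q n :=
  chartHyp_chart0 A q M B k hB hq hqM hA ht n hn hcop
    (jdd_mem_intSub_mod A q M B k hB hq hqM hA ht)

/-- **`ChartHyp` for the chart of `j⁻¹`** (unconditional). -/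
theorem chartHyp_chartInf_mod (n : ℕ) (hn : 0 < n) (hcop : Nat.Coprime n q) :
    ChartHyp (chartInf A q M B k hB hq hqM hA ht) q n :=
  chartHyp_chartInf A q M B k hB hq hqM hA ht n hn hcop
    (jdd_mem_intSub_mod A q M B k hB hq hqM hA ht)

end Three

end Fermat.Agent.S36.NU.H88
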