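import Fermat.Agent.S36.NU.H10_Final
import Fermat.Agent.S36.NU.H51_ValVecA2
import Fermat.Agent.S36.NU.H88_Gauss
import Fermat.Agent.S36.NU.H28_RadQMod
import Fermat.Agent.S36.NU.H79_NmFibM

/-!
# S36 / NU-B, CLOSE (helper10): `Stmt_NUCoreTame` from the two point-data statements

The landed, unconditional providers are plugged into `nuCoreTame_final`:

* `stmt_NuMAll`    : helper79's `H79.stmt_NuM` (modular datum);
* `stmt_ValVecAll` : helper51's `H51.stmt_ValVecMod` (VALVEC);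
* `hjdd`           : helper88's `H88.jdd_mem_intSub_mod`;
* `hrad0`, `hradoo`: helper28's `H28.hrad0`, `H28.hradoo` (RADQ).

What REMAINS are the two statements

* `Stmt_Pt0All`  : `PointData` of the chart of `j` (helper99: M2 + M4);
* `Stmt_PtooAll` : `PointDataAt` at the cusps of the chart of `1 / j` (helpers 82, 88, 44).

`nuCoreTame_close : Stmt_Pt0All → Stmt_PtooAll → H81.Stmt_NUCoreTame`.
-/

set_option autoImplicit false
set_option synthInstance.maxHeartbeats 400000
set_option maxHeartbeats 1000000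
set_option linter.style.haveILetI false
set_option linter.unusedSectionVars false

noncomputable section

open ModularCurve AlgebraicCurve

namespace Fermat.Agent.S36.NU.H10

open Fermat.Agent.S24 Fermat.Agent.BAD Fermat.Agent.BAD.H88 Fermat.Agent.S28 Fermat.Agent.S28.H73
  Fermat.Agent.S36.NU.H23 Fermat.Agent.S36.NU.H79 Fermat.Agent.S36.NU.H81
  Fermat.Agent.S36.NU.H41 Fermat.Agent.S36.NU.H88 Fermat.Agent.S36.NU.H16
  Fermat.Agent.S36.NU.H17 Fermat.Agent.S36.NU.H24 Fermat.Agent.S36.NU.H65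

attribute [local instance] algkM

/-- `PointData` of the chart of `j`, for every modular datum at every tame level. -/
def Stmt_Pt0All : Prop :=
  ∀ (A : ValuationSubring Kbar) (q M : ℕ) (B k : ℤ) (hB : B * M + k * q = 1) (hq : q.Prime)
    [NeZero M] [NeZero q] [NeZero (M * q)] [NeZero (M * q * q)]
    (hqM : ¬ q ∣ M) (hA : A.LiesOverPrime q) (ht : H91.TameAt M q),
    (5 ≤ q ∧ 4 ∣ M) ∨ (q = 3 ∧ 4 ∣ M) ∨ (q = 2 ∧ 9 ∣ M) →
    ∀ D : NUDataM A q M, IsNuM A q M B k hB hq hqM hA ht D →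
      PointData (chart0 A q M B k hB hq hqM hA ht) D ((q : ℕ) : ↥(Rur A))

/-- `PointDataAt` at the cusps of the chart of `1 / j`, for every modular datum at every tame
level. -/
def Stmt_PtooAll : Prop :=
  ∀ (A : ValuationSubring Kbar) (q M : ℕ) (B k : ℤ) (hB : B * M + k * q = 1) (hq : q.Prime)
    [NeZero M] [NeZero q] [NeZero (M * q)] [NeZero (M * q * q)]
    (hqM : ¬ q ∣ M) (hA : A.LiesOverPrime q) (ht : H91.TameAt M q),
    (5 ≤ q ∧ 4 ∣ M) ∨ (q = 3 ∧ 4 ∣ M) ∨ (q = 2 ∧ 9 ∣ M) →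
    ∀ D : NUDataM A q M, IsNuM A q M B k hB hq hqM hA ht D →
      ∀ 𝔪 : Ideal (chartInf A q M B k hB hq hqM hA ht).B, 𝔪.IsMaximal →
        (∃ i, (chartInf A q M B k hB hq hqM hA ht).Icomp i ≤ 𝔪) →
        (∀ β : (chartInf A q M B k hB hq hqM hA ht).B,
          (β : ↥(L0 A (M * q * q))) = (j0 A (M * q * q))⁻¹ → β ∈ 𝔪) →
        PointDataAt (chartInf A q M B k hB hq hqM hA ht) D ((q : ℕ) : ↥(Rur A)) 𝔪

/-- The modular datum at every tame level (helper79). -/
theorem stmt_NuMAll : Stmt_NuMAll := fun A q M B k hB hq _ _ _ _ hqM hA ht _ =>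
  stmt_NuM A q M B k hB hq hqM hA ht

/-- VALVEC at every tame level (helper51). -/
theorem stmt_ValVecAll : Stmt_ValVecAll := fun A q M B k hB hq _ _ _ _ hqM hA _ _ =>
  Fermat.Agent.S36.NU.H51.stmt_ValVecMod A q M B k hB hq hqM hA

/-- `q ≠ 0` in `Rur A`. -/
theorem natCast_Rur_ne_zero_close (A : ValuationSubring Kbar) (q : ℕ) (hq : q.Prime) :
    ((q : ℕ) : ↥(Rur A)) ≠ 0 := by
  exact_mod_cast hq.ne_zero

/-- **`Stmt_TopAll`** from the two point-data statements. -/
theorem stmt_TopAll_of (h0 : Stmt_Pt0All) (hoo : Stmt_PtooAll) : Stmt_TopAll := by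
  intro A q M B k hB hq _ _ _ _ hqM hA ht hc D hD
  exact
    { hjdd := jdd_mem_intSub_mod A q M B k hB hq hqM hA ht
      hpt0 := h0 A q M B k hB hq hqM hA ht hc D hD
      hptoo := hoo A q M B k hB hq hqM hA ht hc D hD
      hrad0 := Fermat.Agent.S36.NU.H28.hrad0 A q M B k hB hq hqM hA ht _
        (natCast_Rur_ne_zero_close A q hq)
      hradoo := Fermat.Agent.S36.NU.H28.hradoo A q M B k hB hq hqM hA ht _
        (natCast_Rur_ne_zero_close A q hq) }

/-- **`Stmt_NUCoreTame`** from the two point-data statements. -/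
theorem nuCoreTame_close (h0 : Stmt_Pt0All) (hoo : Stmt_PtooAll) : Stmt_NUCoreTame :=
  nuCoreTame_final stmt_NuMAll (stmt_TopAll_of h0 hoo) stmt_ValVecAll

end Fermat.Agent.S36.NU.H10
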