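import Mathlib
import Fermat.Agent.RED.H17_Place

/-!
# S36 / NU-B, leaf EIS-ALG (helper10): the algebra of N5

N5 = "the local equation of `X₀(q² M')` at a supersingular point is Eisenstein"
(Katz–Mazur regularity), proved from Kronecker's congruences.

Notation: `u` a function of level `M'`, `u' = u(qτ)`, `u'' = u(q²τ)`,
`Φ  = (Y - u^q)(Y^q - u) + q Ψ`                       (level `q`,  `Φ(u') = 0`),
`Φ₂ = (Y - u^{q²})(Y - u)^{q-1}(Y^{q²} - u) + q Ψ₂`     (level `q²`, `Φ₂(u'') = 0`),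
`u' = u^q - q δ`, `u'' = u'^q - q δ'` (in the valuation ring of the component of `∞`).

* `eis_L1` : `Ψ(u') = δ (u'^q - u)`.
* `eis_frob_sq`, `eis_d2` : `u'' = u^{q²} - q (δ' + q e)`.
* `eis_L2` : `Ψ₂(u'') = d₂ (u'' - u)^{q-1} (u''^{q²} - u)` for `u'' = u^{q²} - q d₂`.
* `eis_red_L1`, `eis_red_L2` : the same after a reduction `red : V →+* κ` with
  `red u' = (red u)^q`, `red u'' = (red u)^{q²}`:
  `Ψ̄(ū^q) = db (ū^{q²} - ū)`,  `Ψ̄₂(ū^{q²}) = db' (ū^{q²} - ū)^{q-1} (ū^{q⁴} - ū)`.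
* `ord_frob_sub` : if `ū - c` is a local coordinate at `z` and `c^{q^m} = c` then
  `ū^{q^m} - ū` has a simple zero at `z`.
* `eis_ord` : if moreover `db'` has a pole of order `q` at `z` (`db' = db^q`, `db` simple pole)
  then the right-hand side of (L2) is a unit at `z`: **N5**.
* `eis_pole_le_one` : by (L1), a pole of `db` at `z` is simple and forces `c^{q²} = c`.
-/

set_option autoImplicit false

open Polynomial AlgebraicCurve

namespace Fermat.Agent.S36.NU.H10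

section Ring

variable {V : Type*} [CommRing V]

/-- **(L1)**, exact form: `q (Ψ(u') - δ (u'^q - u)) = 0`. -/
theorem eis_L1_mul (q : ℕ) (u u' δ : V) (Φ Ψ : V[X])
    (hΦ : Φ = (X - C (u ^ q)) * (X ^ q - C u) + C (q : V) * Ψ)
    (hroot : Φ.eval u' = 0) (hδ : u' = u ^ q - q * δ) :
    (q : V) * (Ψ.eval u' - δ * (u' ^ q - u)) = 0 := by
  have h := hroot
  rw [hΦ] at h
  simp only [eval_add, eval_mul, eval_sub, eval_X, eval_C, eval_pow] at h
  have h1 : u' - u ^ q = -(q * δ) := by rw [hδ]; ring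
  rw [h1] at h
  linear_combination h

/-- **(L1)** when `q` is not a zero divisor. -/
theorem eis_L1 (q : ℕ) (hq : ∀ x : V, (q : V) * x = 0 → x = 0) (u u' δ : V) (Φ Ψ : V[X])
    (hΦ : Φ = (X - C (u ^ q)) * (X ^ q - C u) + C (q : V) * Ψ)
    (hroot : Φ.eval u' = 0) (hδ : u' = u ^ q - q * δ) :
    Ψ.eval u' = δ * (u' ^ q - u) :=
  sub_eq_zero.mp (hq _ (eis_L1_mul q u u' δ Φ Ψ hΦ hroot hδ))

/-- `(a - q b)^q = a^q - q² e`. -/
theorem eis_frob_sq (q : ℕ) (a b : V) : ∃ e : V, (a - q * b) ^ q = a ^ q - (q : V) ^ 2 * e := by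
  have h : (q : V) ∣ a - (a - q * b) := ⟨b, by ring⟩
  have h2 := dvd_sub_pow_of_dvd_sub h 1
  rw [pow_one] at h2
  obtain ⟨e, he⟩ := h2
  exact ⟨e, by linear_combination -he⟩

/-- `u' = u^q - q δ`, `u'' = u'^q - q δ'`  ⟹  `u'' = u^{q²} - q (δ' + q e)`. -/
theorem eis_d2 (q : ℕ) (u u' u'' δ δ' : V) (hδ : u' = u ^ q - q * δ)
    (hδ' : u'' = u' ^ q - q * δ') :
    ∃ e : V, u'' = u ^ q ^ 2 - q * (δ' + q * e) := by
  obtain ⟨e, he⟩ := eis_frob_sq q (u ^ q) δ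
  refine ⟨e, ?_⟩
  rw [hδ', hδ, he, ← pow_mul, ← pow_two]
  ring

/-- **(L2)**, exact form. -/
theorem eis_L2_mul (q : ℕ) (u u'' d₂ : V) (Φ₂ Ψ₂ : V[X])
    (hΦ : Φ₂ = (X - C (u ^ q ^ 2)) * (X - C u) ^ (q - 1) * (X ^ q ^ 2 - C u) + C (q : V) * Ψ₂)
    (hroot : Φ₂.eval u'' = 0) (hd : u'' = u ^ q ^ 2 - q * d₂) :
    (q : V) * (Ψ₂.eval u'' - d₂ * (u'' - u) ^ (q - 1) * (u'' ^ q ^ 2 - u)) = 0 := by
  have h := hroot
  rw [hΦ] at h
  simp only [eval_add, eval_mul, eval_sub, eval_X, eval_C, eval_pow] at h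
  have h1 : u'' - u ^ q ^ 2 = -(q * d₂) := by rw [hd]; ring
  rw [h1] at h
  linear_combination h

/-- **(L2)** when `q` is not a zero divisor. -/
theorem eis_L2 (q : ℕ) (hq : ∀ x : V, (q : V) * x = 0 → x = 0) (u u'' d₂ : V) (Φ₂ Ψ₂ : V[X])
    (hΦ : Φ₂ = (X - C (u ^ q ^ 2)) * (X - C u) ^ (q - 1) * (X ^ q ^ 2 - C u) + C (q : V) * Ψ₂)
    (hroot : Φ₂.eval u'' = 0) (hd : u'' = u ^ q ^ 2 - q * d₂) :
    Ψ₂.eval u'' = d₂ * (u'' - u) ^ (q - 1) * (u'' ^ q ^ 2 - u) :=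
  sub_eq_zero.mp (hq _ (eis_L2_mul q u u'' d₂ Φ₂ Ψ₂ hΦ hroot hd))

/-- The exact identity `t₂₀ t₁₁^{q-1} t₀₂ = q W`, `W = Ψ₂(u'')`
(`t₂₀ = u^{q²} - u''`, `t₁₁ = u'' - u`, `t₀₂ = u''^{q²} - u`). -/
theorem eis_factor (q : ℕ) (u u'' : V) (Φ₂ Ψ₂ : V[X])
    (hΦ : Φ₂ = (X - C (u ^ q ^ 2)) * (X - C u) ^ (q - 1) * (X ^ q ^ 2 - C u) + C (q : V) * Ψ₂)
    (hroot : Φ₂.eval u'' = 0) :
    (u ^ q ^ 2 - u'') * (u'' - u) ^ (q - 1) * (u'' ^ q ^ 2 - u) = q * Ψ₂.eval u'' := by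
  have h := hroot
  rw [hΦ] at h
  simp only [eval_add, eval_mul, eval_sub, eval_X, eval_C, eval_pow] at h
  linear_combination -h

variable {κ : Type*} [CommRing κ]

/-- (L1) after reduction: `Ψ̄(ū^q) = db (ū^{q²} - ū)`. -/
theorem eis_red_L1 (q : ℕ) (hq : ∀ x : V, (q : V) * x = 0 → x = 0) (red : V →+* κ)
    (u u' δ : V) (Φ Ψ : V[X])
    (hΦ : Φ = (X - C (u ^ q)) * (X ^ q - C u) + C (q : V) * Ψ)
    (hroot : Φ.eval u' = 0) (hδ : u' = u ^ q - q * δ) (hred : red u' = red u ^ q) :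
    (Ψ.map red).eval (red u ^ q) = red δ * (red u ^ q ^ 2 - red u) := by
  have h := congrArg red (eis_L1 q hq u u' δ Φ Ψ hΦ hroot hδ)
  rw [← hred, eval_map_apply, h, map_mul, map_sub, map_pow, hred, ← pow_mul, ← pow_two]

/-- (L2) after reduction: `Ψ̄₂(ū^{q²}) = db' (ū^{q²} - ū)^{q-1} (ū^{q⁴} - ū)`, where
`u' = u^q - q δ`, `u'' = u'^q - q δ'`, `red q = 0`, `red u'' = (red u)^{q²}`. -/
theorem eis_red_L2 (q : ℕ) (hq : ∀ x : V, (q : V) * x = 0 → x = 0) (red : V →+* κ)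
    (hq0 : red (q : V) = 0)
    (u u' u'' δ δ' : V) (Φ₂ Ψ₂ : V[X])
    (hΦ : Φ₂ = (X - C (u ^ q ^ 2)) * (X - C u) ^ (q - 1) * (X ^ q ^ 2 - C u) + C (q : V) * Ψ₂)
    (hroot : Φ₂.eval u'' = 0) (hδ : u' = u ^ q - q * δ) (hδ' : u'' = u' ^ q - q * δ')
    (hred : red u'' = red u ^ q ^ 2) :
    (Ψ₂.map red).eval (red u ^ q ^ 2) =
      red δ' * (red u ^ q ^ 2 - red u) ^ (q - 1) * (red u ^ q ^ 4 - red u) := by
  obtain ⟨e, he⟩ := eis_d2 q u u' u'' δ δ' hδ hδ'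
  have h := congrArg red (eis_L2 q hq u u'' (δ' + q * e) Φ₂ Ψ₂ hΦ hroot he)
  rw [← hred, eval_map_apply, h]
  simp only [map_mul, map_sub, map_pow, map_add, hq0, zero_mul, add_zero, hred]
  rw [← pow_mul, ← pow_add]

end Ring

section Ord

variable {k κ : Type*} [Field k] [Field κ] [Algebra k κ]

open Fermat.Agent.RED.H17

/-- If `ū - c` has a simple zero at `z`, `c^{q^m} = c` in characteristic `q` (`m ≥ 1`), then
`ū^{q^m} - ū` has a simple zero at `z`. -/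
theorem ord_frob_sub (q : ℕ) [hqp : Fact q.Prime] [CharP κ q] (z : Place k κ) (ū : κ) (c : k)
    (hu : z.ord (ū - algebraMap k κ c) = 1) {m : ℕ} (hm : 0 < m) (hc : c ^ q ^ m = c) :
    z.ord (ū ^ q ^ m - ū) = 1 := by
  set t := ū - algebraMap k κ c with ht
  have ht0 : t ≠ 0 := by
    intro h
    rw [h, Place.ord_zero] at hu
    exact absurd hu (by norm_num)
  have hkey : ū ^ q ^ m - ū = -t + t ^ q ^ m := by
    have h1 : t ^ q ^ m = ū ^ q ^ m - (algebraMap k κ c) ^ q ^ m := sub_pow_char_pow ū _ m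
    rw [h1, ← map_pow, hc, ht]
    ring
  have hq2 : 2 ≤ q ^ m := by
    calc 2 ≤ q := hqp.out.two_le
      _ = q ^ 1 := (pow_one q).symm
      _ ≤ q ^ m := Nat.pow_le_pow_right hqp.out.pos hm
  have hneg : z.ord (-t) = 1 := by
    have h0 : (-t) = (-1 : κ) * t := by ring
    have h1 : z.ord (-1 : κ) = 0 := by
      have := ord_algebraMap z (-1 : k)
      simpa using this
    have h2 : z.ord ((-1 : κ) * t) = z.ord (-1 : κ) + z.ord t :=
      Place.ord_mul z (neg_ne_zero.mpr one_ne_zero) ht0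
    rw [h0, h2, h1, zero_add, hu]
  rw [hkey, ord_add_of_lt z (neg_ne_zero.mpr ht0)]
  · exact hneg
  · right
    rw [hneg, ord_pow, hu, mul_one]
    exact_mod_cast hq2

/-- **N5, order count.**  `ū - c` a local coordinate at `z`, `c ∈ 𝔽_{q²}`, and `d'` with a pole
of order `q` at `z` (`d' = db^q` with `db` a simple pole): then
`d' (ū^{q²} - ū)^{q-1} (ū^{q⁴} - ū)` is a unit at `z`. -/
theorem eis_ord (q : ℕ) [hqp : Fact q.Prime] [CharP κ q] (z : Place k κ) (ū d' : κ) (c : k)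
    (hu : z.ord (ū - algebraMap k κ c) = 1) (hc : c ^ q ^ 2 = c) (hd : z.ord d' = -(q : ℤ)) :
    z.ord (d' * (ū ^ q ^ 2 - ū) ^ (q - 1) * (ū ^ q ^ 4 - ū)) = 0 := by
  have h2 : z.ord (ū ^ q ^ 2 - ū) = 1 := ord_frob_sub q z ū c hu (by norm_num) hc
  have hc4 : c ^ q ^ 4 = c := by
    have : q ^ 4 = q ^ 2 * q ^ 2 := by ring
    rw [this, pow_mul, hc, hc]
  have h4 : z.ord (ū ^ q ^ 4 - ū) = 1 := ord_frob_sub q z ū c hu (by norm_num) hc4
  have hq1 : 1 ≤ q := hqp.out.pos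
  have hd0 : d' ≠ 0 := by
    intro h
    rw [h, Place.ord_zero] at hd
    have : (0 : ℤ) < q := by exact_mod_cast hqp.out.pos
    omega
  have h20 : ū ^ q ^ 2 - ū ≠ 0 := by
    intro h
    rw [h, Place.ord_zero] at h2
    exact absurd h2 (by norm_num)
  have h40 : ū ^ q ^ 4 - ū ≠ 0 := by
    intro h
    rw [h, Place.ord_zero] at h4
    exact absurd h4 (by norm_num)
  rw [Place.ord_mul z (mul_ne_zero hd0 (pow_ne_zero _ h20)) h40,
    Place.ord_mul z hd0 (pow_ne_zero _ h20), ord_pow, hd, h2, h4]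
  push_cast [Nat.cast_sub hq1]
  ring

/-- The same with `d' = db^q`, `db` a simple pole. -/
theorem eis_ord' (q : ℕ) [Fact q.Prime] [CharP κ q] (z : Place k κ) (ū db : κ) (c : k)
    (hu : z.ord (ū - algebraMap k κ c) = 1) (hc : c ^ q ^ 2 = c) (hd : z.ord db = -1) :
    z.ord (db ^ q * (ū ^ q ^ 2 - ū) ^ (q - 1) * (ū ^ q ^ 4 - ū)) = 0 := by
  refine eis_ord q z ū (db ^ q) c hu hc ?_
  rw [ord_pow, hd]
  ring

/-- By (L1): if `Ψ̄(ū^q)` is regular at `z` and `ū - c` is a local coordinate at `z`, then a pole of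
`db` at `z` is simple. -/
theorem eis_pole_le_one (q : ℕ) (z : Place k κ) (ū db P : κ)
    (hL1 : P = db * (ū ^ q ^ 2 - ū)) (hP : RegAt z P)
    (h2 : z.ord (ū ^ q ^ 2 - ū) ≤ 1) (hne : ū ^ q ^ 2 - ū ≠ 0) :
    -1 ≤ z.ord db := by
  by_cases hd0 : db = 0
  · rw [hd0, Place.ord_zero]; norm_num
  have hP0 : P ≠ 0 := by rw [hL1]; exact mul_ne_zero hd0 hne
  have h := hP.ord_nonneg
  rw [hL1, Place.ord_mul z hd0 hne] at h
  omega

/-- **N5** (abstract form): in the situation of `eis_red_L2`, with `κ` a function field over `k`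
of characteristic `q`, `z` a place at which `red u - c` is a local coordinate, `c ∈ 𝔽_{q²}`,
and `red δ'` with a pole of order `q` at `z`: the function `Ψ₂~(u~^{q²})` (= the reduction of
`W = Ψ₂(u'')` on the component of `∞`) is a unit at `z`. -/
theorem eis_N5 {V : Type*} [CommRing V] (q : ℕ) [Fact q.Prime] [CharP κ q]
    (hq : ∀ x : V, (q : V) * x = 0 → x = 0) (red : V →+* κ)
    (u u' u'' δ δ' : V) (Φ₂ Ψ₂ : V[X])
    (hΦ : Φ₂ = (X - C (u ^ q ^ 2)) * (X - C u) ^ (q - 1) * (X ^ q ^ 2 - C u) + C (q : V) * Ψ₂)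
    (hroot : Φ₂.eval u'' = 0) (hδ : u' = u ^ q - q * δ) (hδ' : u'' = u' ^ q - q * δ')
    (hred : red u'' = red u ^ q ^ 2)
    (z : Place k κ) (c : k) (hu : z.ord (red u - algebraMap k κ c) = 1) (hc : c ^ q ^ 2 = c)
    (hd : z.ord (red δ') = -(q : ℤ)) :
    z.ord ((Ψ₂.map red).eval (red u ^ q ^ 2)) = 0 := by
  have hq0 : red (q : V) = 0 := by
    rw [map_natCast]
    exact CharP.cast_eq_zero κ q
  rw [eis_red_L2 q hq red hq0 u u' u'' δ δ' Φ₂ Ψ₂ hΦ hroot hδ hδ' hred]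
  exact eis_ord q z (red u) (red δ') c hu hc hd

end Ord

end Fermat.Agent.S36.NU.H10
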