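import Fermat.Agent.S36.NU.H10_FinTopDefs
import Fermat.Agent.RED.H17_Place

/-!
# S36 / NU-B, FIN-TOP (helper10): `Stmt_NUCoreTame` from the modular targets

* `fin_top` : `Stmt_FinMod → Stmt_ValVecMod → Stmt_NormPow0 → Stmt_NormFix →` the body of
  `H81.Stmt_NUCoreK (M q) q` with the exponent `K = (q + 1) E`;
* `nuCoreK_of`, `nuCore_of` : `H81.Stmt_NUCoreK (M q) q`, `H81.Stmt_NUCore (M q) q p`;
* `nuCoreTame_of` : `H81.Stmt_NUCoreTame` from the four targets at all tame levels.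
-/

set_option autoImplicit false
set_option linter.style.haveILetI false
set_option linter.unusedSectionVars false
set_option maxHeartbeats 1000000
set_option synthInstance.maxHeartbeats 400000

noncomputable section

open ModularCurve AlgebraicCurve
open Fermat.Agent.S24 Fermat.Agent.BAD Fermat.Agent.BAD.H88 Fermat.Agent.Lib.HeckeComm
open Fermat.Agent.S36.NU.H23 Fermat.Agent.S36.NU.H81

namespace Fermat.Agent.S36.NU.H10

/-! ### Generalities on `normAlongHom` -/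

section Norm

variable {E L : Type*} [Field E] [Field L] (φ : E →+* L)

theorem normAlongHom_mul (x y : L) :
    normAlongHom φ (x * y) = normAlongHom φ x * normAlongHom φ y := by
  letI := φ.toAlgebra
  exact map_mul (Algebra.norm E) x y

theorem normAlongHom_pow (x : L) (n : ℕ) : normAlongHom φ (x ^ n) = normAlongHom φ x ^ n := by
  letI := φ.toAlgebra
  exact map_pow (Algebra.norm E) x n

theorem normAlongHom_apply (x : E) :
    normAlongHom φ (φ x) = x ^ (letI := φ.toAlgebra; Module.finrank E L) := by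
  letI := φ.toAlgebra
  exact Algebra.norm_algebraMap x

end Norm

/-! ### Inertia-fixed functions -/

theorem mem_L0_of_galF (A : ValuationSubring Kbar) {N : ℕ} (f : FN N)
    (h : ∀ σ ∈ A.inertiaSubgroupIn ℚ, galF N σ • f = f) : f ∈ L0 A N :=
  fun σ hσ => h σ hσ

section Main

variable (A : ValuationSubring Kbar) (q M : ℕ) (B k : ℤ) (hB : B * M + k * q = 1) (hq : q.Prime)
  [NeZero M] [NeZero q] [NeZero (M * q * q)]

/-- The norm of a constant is a constant. -/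
theorem normAlongHom_const (φ : FN (M * q) →ₐ[Kbar] FN (M * q * q)) (c : Kbar) :
    ∃ d : ℕ, normAlongHom φ.toRingHom (algebraMap Kbar (FN (M * q * q)) c)
      = algebraMap Kbar (FN (M * q)) (c ^ d) := by
  refine ⟨(letI := φ.toRingHom.toAlgebra; Module.finrank (FN (M * q)) (FN (M * q * q))), ?_⟩
  have h1 : algebraMap Kbar (FN (M * q * q)) c
      = φ.toRingHom (algebraMap Kbar (FN (M * q)) c) := (φ.commutes c).symm
  rw [h1, normAlongHom_apply, map_pow]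

include hq in
/-- `IsNormPow0` is stable under `f ↦ f ^ E * const * wⁿ`. -/
theorem isNormPow0_mul (φ : FN (M * q) →ₐ[Kbar] FN (M * q * q)) (n : ℕ) (E : ℕ)
    (f w : FN (M * q * q)) (c₀ : Kbar) (hc₀ : ∀ σ ∈ A.inertiaSubgroupIn ℚ, σ c₀ = c₀)
    (hw : normAlongHom φ.toRingHom w ∈ L0 A (M * q))
    (hf : IsNormPow0 A q M φ n f) :
    IsNormPow0 A q M φ n (f ^ E * algebraMap Kbar (FN (M * q * q)) c₀ * w ^ n) := by
  obtain ⟨c, g, hc, hg, hN⟩ := hf
  obtain ⟨d, hd⟩ := normAlongHom_const q M φ c₀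
  refine ⟨c ^ E * c₀ ^ d, g ^ E * normAlongHom φ.toRingHom w, ?_, ?_, ?_⟩
  · intro σ hσ
    rw [map_mul, map_pow, map_pow, hc σ hσ, hc₀ σ hσ]
  · exact mul_mem (pow_mem hg E) hw
  · rw [normAlongHom_mul, normAlongHom_mul, normAlongHom_pow, normAlongHom_pow, hN, hd,
      map_mul, map_pow, map_pow]
    ring

include hq in
/-- **FIN-TOP**: the body of `Stmt_NUCoreK (M q) q` from the modular targets. -/
theorem fin_top (hFin : Stmt_FinMod A q M B k hB hq) (hVV : Stmt_ValVecMod A q M B k hB hq)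
    (hNP : Stmt_NormPow0 A q M) (hNF : Stmt_NormFix A q M) :
    ∃ K : ℕ, K ≠ 0 ∧ ∀ (n : ℕ), ¬ q ∣ n → ∀ (f : FN (M * q * q)), f ≠ 0 →
      (∀ P : Place Kbar (FN (M * q * q)), (n : ℤ) ∣ P.ord f) →
      (∀ σ ∈ A.inertiaSubgroupIn ℚ, galF (M * q * q) σ • f = f) →
      ∀ (hα : HeckeAlphaBarIntegral Kbar (M * q) q) (hβ : HeckeBetaBarIntegral Kbar (M * q) q)
        (D : Divisor Kbar (FN (M * q * q))), (∀ P, D P = P.ord f) →
      (∃ g : FN (M * q), g ≠ 0 ∧ ∀ Q : Place Kbar (FN (M * q)),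
        Divisor.pushforwardAlong (heckeAlphaBar Kbar (M * q) q) hα D Q = n * Q.ord g) →
      (∃ g : FN (M * q), g ≠ 0 ∧ ∀ Q : Place Kbar (FN (M * q)),
        Divisor.pushforwardAlong (heckeBetaBar Kbar (M * q) q) hβ D Q = n * Q.ord g) →
      ∃ t : FN (M * q * q), t ^ n = f ^ K := by
  obtain ⟨E, hE0, hE⟩ := hFin
  refine ⟨(q + 1) * E, Nat.mul_ne_zero (Nat.succ_ne_zero q) hE0, ?_⟩
  intro n hqn f hf0 hdiv hI hα hβ D hD hpα hpβ
  have hn : 0 < n := Nat.pos_of_ne_zero (by rintro rfl; exact hqn (dvd_zero q))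
  have hcop : Nat.Coprime n q := ((Nat.Prime.coprime_iff_not_dvd hq).2 hqn).symm
  have hfL : f ∈ L0 A (M * q * q) := mem_L0_of_galF A f hI
  obtain ⟨hNα, hNβ⟩ := hNP n hn f hf0 hfL hα hβ D hD hpα hpβ
  have hf0' : (⟨f, hfL⟩ : ↥(L0 A (M * q * q))) ≠ 0 := fun h => hf0 (congrArg Subtype.val h)
  obtain ⟨b, w, hw0, hU⟩ := hVV n hn ⟨f, hfL⟩ hf0' hNα hNβ
  -- the constant `q ^ (-b)`
  set c₀ : Kbar := ((q : ℕ) : Kbar) ^ (-b) with hc₀
  have hq0 : ((q : ℕ) : Kbar) ≠ 0 := Nat.cast_ne_zero.mpr hq.ne_zero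
  have hc₀0 : c₀ ≠ 0 := zpow_ne_zero _ hq0
  have hc₀I : ∀ σ ∈ A.inertiaSubgroupIn ℚ, σ c₀ = c₀ := fun σ _ => by
    rw [hc₀, map_zpow₀, map_natCast]
  set h : ↥(L0 A (M * q * q)) :=
    (⟨f, hfL⟩ : ↥(L0 A (M * q * q))) ^ (q + 1) * ((q : ℕ) : ↥(L0 A (M * q * q))) ^ (-b) * w ^ n
    with hh
  have hcoe : (h : FN (M * q * q))
      = f ^ (q + 1) * algebraMap Kbar (FN (M * q * q)) c₀ * (w : FN (M * q * q)) ^ n := by
    rw [hh, hc₀, map_zpow₀, map_natCast]
    push_cast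
    rfl
  have hw0' : (w : FN (M * q * q)) ≠ 0 := fun h0 => hw0 (Subtype.ext h0)
  have hC0 : algebraMap Kbar (FN (M * q * q)) c₀ ≠ 0 :=
    (map_ne_zero (algebraMap Kbar (FN (M * q * q)))).2 hc₀0
  -- divisibility of the divisor of `h`
  have hdivh : ∀ P : Place Kbar (FN (M * q * q)), (n : ℤ) ∣ P.ord (h : FN (M * q * q)) := by
    intro P
    rw [hcoe, Place.ord_mul P (mul_ne_zero (pow_ne_zero _ hf0) hC0) (pow_ne_zero _ hw0'),
      Place.ord_mul P (pow_ne_zero _ hf0) hC0, Fermat.Agent.RED.H17.ord_pow,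
      Fermat.Agent.RED.H17.ord_pow, Fermat.Agent.RED.H17.ord_algebraMap, add_zero]
    exact dvd_add (Dvd.dvd.mul_left (hdiv P) _) (dvd_mul_right _ _)
  -- the norms of `h`
  have hNαh : IsNormPow0 A q M (heckeAlphaBar Kbar (M * q) q) n (h : FN (M * q * q)) := by
    rw [hcoe]
    exact isNormPow0_mul A q M hq _ n (q + 1) f w c₀ hc₀I (hNF w w.2).1 hNα
  have hNβh : IsNormPow0 A q M (heckeBetaBar Kbar (M * q) q) n (h : FN (M * q * q)) := by
    rw [hcoe]
    exact isNormPow0_mul A q M hq _ n (q + 1) f w c₀ hc₀I (hNF w w.2).2 hNβ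
  obtain ⟨s, c, hs0, hsc⟩ := hE n hn hcop h hU hdivh hNαh hNβh
  -- an `n`-th root of the constant
  obtain ⟨γ, hγ⟩ := IsAlgClosed.exists_pow_nat_eq (c * (c₀⁻¹) ^ E) hn
  refine ⟨algebraMap Kbar (FN (M * q * q)) γ * ((w : FN (M * q * q)) ^ E * s)⁻¹, ?_⟩
  have hWs : ((w : FN (M * q * q)) ^ E * s) ^ n ≠ 0 :=
    pow_ne_zero _ (mul_ne_zero (pow_ne_zero _ hw0') hs0)
  rw [mul_pow, inv_pow, ← map_pow, hγ, map_mul, map_pow, map_inv₀, ← hsc, hcoe,
    mul_inv_eq_iff_eq_mul₀ hWs]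
  have hCE : algebraMap Kbar (FN (M * q * q)) c₀ ^ E ≠ 0 := pow_ne_zero _ hC0
  rw [inv_pow]
  have key : (f ^ (q + 1) * algebraMap Kbar (FN (M * q * q)) c₀ * (w : FN (M * q * q)) ^ n) ^ E
        * s ^ n * (algebraMap Kbar (FN (M * q * q)) c₀ ^ E)⁻¹
      = f ^ ((q + 1) * E) * ((w : FN (M * q * q)) ^ E * s) ^ n
        * (algebraMap Kbar (FN (M * q * q)) c₀ ^ E * (algebraMap Kbar (FN (M * q * q)) c₀ ^ E)⁻¹) := by
    ring
  rw [key, mul_inv_cancel₀ hCE, mul_one]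

include hq in
/-- **`Stmt_NUCoreK (M q) q`** from the four modular targets. -/
theorem nuCoreK_of [NeZero (M * q)] (hA : A.LiesOverPrime q)
    (hFin : Stmt_FinMod A q M B k hB hq) (hVV : Stmt_ValVecMod A q M B k hB hq)
    (hNP : Stmt_NormPow0 A q M) (hNF : Stmt_NormFix A q M) :
    Stmt_NUCoreK (M * q) q := by
  intro _ _ _
  obtain ⟨K, hK0, hK⟩ := fin_top A q M B k hB hq hFin hVV hNP hNF
  exact ⟨A, hA, K, hK0, fun n hqn f hf0 hdiv hI _ hα hβ D hD hpα hpβ =>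
    hK n hqn f hf0 hdiv hI hα hβ D hD hpα hpβ⟩

include hq in
/-- **`Stmt_NUCore (M q) q p`** from the four modular targets. -/
theorem nuCore_of [NeZero (M * q)] (p : ℕ) (hA : A.LiesOverPrime q)
    (hFin : Stmt_FinMod A q M B k hB hq) (hVV : Stmt_ValVecMod A q M B k hB hq)
    (hNP : Stmt_NormPow0 A q M) (hNF : Stmt_NormFix A q M) :
    Stmt_NUCore (M * q) q p :=
  nuCore_of_K (M * q) q p (nuCoreK_of A q M B k hB hq hA hFin hVV hNP hNF)

end Main

/-- The four modular targets at the level `M q²` (`q ∤ M`), for some valuation ring over `q`. -/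
def Stmt_FinTopInputs (q M : ℕ) [NeZero M] [NeZero q] [NeZero (M * q * q)] : Prop :=
  ∀ hq : q.Prime, ¬ q ∣ M → TameNU (M * q) q →
    ∃ (A : ValuationSubring Kbar) (B k : ℤ) (hB : B * M + k * q = 1), A.LiesOverPrime q ∧
      Stmt_FinMod A q M B k hB hq ∧ Stmt_ValVecMod A q M B k hB hq ∧
      Stmt_NormPow0 A q M ∧ Stmt_NormFix A q M

/-- **The Kummer form of (NU) at every tame level** from the four modular targets. -/
theorem nuCore_tame_of
    (h : ∀ (q M : ℕ) [NeZero M] [NeZero q] [NeZero (M * q * q)], Stmt_FinTopInputs q M)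
    (p M₁ q : ℕ) [NeZero M₁] [NeZero q] (ht : TameNU M₁ q) : Stmt_NUCore M₁ q p := by
  intro hq hqM hq2 hp hqp
  obtain ⟨M, hM⟩ := hqM
  have hM' : M₁ = M * q := by rw [hM, mul_comm]
  subst hM'
  have hM0 : M ≠ 0 := fun h0 => NeZero.ne (M * q) (by rw [h0, zero_mul])
  haveI : NeZero M := ⟨hM0⟩
  haveI : NeZero (M * q * q) := ⟨Nat.mul_ne_zero (NeZero.ne (M * q)) hq.ne_zero⟩
  have hqM' : ¬ q ∣ M := by
    rintro ⟨r, hr⟩
    apply hq2
    refine ⟨r, ?_⟩
    rw [hr]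
    ring
  obtain ⟨A, B, k, hB, hA, hFin, hVV, hNP, hNF⟩ := h q M hq hqM' ht
  exact nuCore_of A q M B k hB hq p hA hFin hVV hNP hNF hq ⟨M, mul_comm M q⟩ hq2 hp hqp

end Fermat.Agent.S36.NU.H10
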