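import Fermat.Agent.S36.NU.H23_Mod1
import Fermat.Agent.S36.NU.H81_NUCore

/-!
# S36 / NU-B, FIN-TOP (helper10): the modular targets

Level `N = M q²`, `q ∤ M`, `A` a valuation ring of `ℚ̄` over `q`, `I` its inertia group,
`L0 A N` the `I`-fixed functions of level `N` (helper23), `V20o`, `V11o`, `V02o` the three
valuations of `L0 A N` (helper23 `H23_Mod1`).

* `IsUnit3` : `h` is a unit for the three valuations.
* `IsNormPow0 φ n h` : the norm of `h` along `φ` (`= α, β : F_{Mq} → F_{Mq²}`) is `c gⁿ` with a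
  constant `c` fixed by `I` and `g` fixed by `I`.
* `Stmt_FinMod` (target of INST = the modular instance of `H24.fin_local`, with (HOR) of helper44
  inside): a unit `h` for the three valuations, fixed by `I`, with `n ∣ div h` and norms
  `c gⁿ`, has `h ^ E = constant · n-th power` (`E ≠ 0` fixed).
* `Stmt_ValVecMod` (target of VALVEC-MOD = the modular instance of `H16.valvec`): for `f ≠ 0`
  fixed by `I` with norms `c gⁿ` there are `b`, `w` with `f ^ (q + 1) q ^ (-b) wⁿ` a unit for the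
  three valuations.
* `Stmt_NormPow0` (target of DIV→NORM, helper26): the hypotheses of `H81.Stmt_NUCoreK` give
  `IsNormPow0` for `α` and `β`.
-/

set_option autoImplicit false
set_option linter.style.haveILetI false
set_option linter.unusedSectionVars false

noncomputable section

open ModularCurve AlgebraicCurve
open Fermat.Agent.S24 Fermat.Agent.BAD Fermat.Agent.BAD.H88 Fermat.Agent.Lib.HeckeComm
open Fermat.Agent.S36.NU.H23

namespace Fermat.Agent.S36.NU.H10

section Defs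

variable (A : ValuationSubring Kbar) (q M : ℕ) (B k : ℤ) (hB : B * M + k * q = 1) (hq : q.Prime)
  [NeZero M] [NeZero q] [NeZero (M * q * q)]

/-- `h` is a unit for the three valuations `V₂₀`, `V₁₁`, `V₀₂` of `L0 A (M q²)`. -/
def IsUnit3 (h : ↥(L0 A (M * q * q))) : Prop :=
  (h ∈ V20o A q M ∧ h⁻¹ ∈ V20o A q M) ∧
  (h ∈ V11o A q M B k hB hq ∧ h⁻¹ ∈ V11o A q M B k hB hq) ∧
  (h ∈ V02o A q M B k hB ∧ h⁻¹ ∈ V02o A q M B k hB)

/-- The norm of `h` along `φ` is `c gⁿ` with `c ∈ ℚ̄` and `g` fixed by the inertia group. -/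
def IsNormPow0 (φ : FN (M * q) →ₐ[Kbar] FN (M * q * q)) (n : ℕ) (h : FN (M * q * q)) : Prop :=
  ∃ (c : Kbar) (g : FN (M * q)), (∀ σ ∈ A.inertiaSubgroupIn ℚ, σ c = c) ∧ g ∈ L0 A (M * q) ∧
    normAlongHom φ.toRingHom h = algebraMap Kbar (FN (M * q)) c * g ^ n

/-- **Target of INST** (modular instance of `H24.fin_local` + (HOR)). -/
def Stmt_FinMod : Prop :=
  ∃ E : ℕ, E ≠ 0 ∧ ∀ n : ℕ, 0 < n → Nat.Coprime n q →
    ∀ h : ↥(L0 A (M * q * q)), IsUnit3 A q M B k hB hq h →
      (∀ P : Place Kbar (FN (M * q * q)), (n : ℤ) ∣ P.ord (h : FN (M * q * q))) →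
      IsNormPow0 A q M (heckeAlphaBar Kbar (M * q) q) n (h : FN (M * q * q)) →
      IsNormPow0 A q M (heckeBetaBar Kbar (M * q) q) n (h : FN (M * q * q)) →
      ∃ (s : FN (M * q * q)) (c : Kbar), s ≠ 0 ∧
        (h : FN (M * q * q)) ^ E * s ^ n = algebraMap Kbar (FN (M * q * q)) c

/-- **Target of VALVEC-MOD** (modular instance of `H16.valvec`). -/
def Stmt_ValVecMod : Prop :=
  ∀ n : ℕ, 0 < n → ∀ f : ↥(L0 A (M * q * q)), f ≠ 0 →
    IsNormPow0 A q M (heckeAlphaBar Kbar (M * q) q) n (f : FN (M * q * q)) →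
    IsNormPow0 A q M (heckeBetaBar Kbar (M * q) q) n (f : FN (M * q * q)) →
    ∃ (b : ℤ) (w : ↥(L0 A (M * q * q))), w ≠ 0 ∧
      IsUnit3 A q M B k hB hq (f ^ (q + 1) * ((q : ℕ) : ↥(L0 A (M * q * q))) ^ (-b) * w ^ n)

/-- **Target of DIV→NORM** (helper26): the divisor hypotheses of `H81.Stmt_NUCoreK` give
`IsNormPow0` along `α` and `β`. -/
def Stmt_NormPow0 : Prop :=
  ∀ (n : ℕ), 0 < n → ∀ f : FN (M * q * q), f ≠ 0 → f ∈ L0 A (M * q * q) →
    ∀ (hα : HeckeAlphaBarIntegral Kbar (M * q) q) (hβ : HeckeBetaBarIntegral Kbar (M * q) q)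
      (D : Divisor Kbar (FN (M * q * q))), (∀ P, D P = P.ord f) →
      (∃ g : FN (M * q), g ≠ 0 ∧ ∀ Q : Place Kbar (FN (M * q)),
        Divisor.pushforwardAlong (heckeAlphaBar Kbar (M * q) q) hα D Q = n * Q.ord g) →
      (∃ g : FN (M * q), g ≠ 0 ∧ ∀ Q : Place Kbar (FN (M * q)),
        Divisor.pushforwardAlong (heckeBetaBar Kbar (M * q) q) hβ D Q = n * Q.ord g) →
      IsNormPow0 A q M (heckeAlphaBar Kbar (M * q) q) n f ∧
      IsNormPow0 A q M (heckeBetaBar Kbar (M * q) q) n f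

/-- **Norms of inertia-fixed functions are inertia-fixed** (along `α` and `β`). -/
def Stmt_NormFix : Prop :=
  ∀ w : FN (M * q * q), w ∈ L0 A (M * q * q) →
    normAlongHom (heckeAlphaBar Kbar (M * q) q).toRingHom w ∈ L0 A (M * q) ∧
    normAlongHom (heckeBetaBar Kbar (M * q) q).toRingHom w ∈ L0 A (M * q)

end Defs

end Fermat.Agent.S36.NU.H10
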