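import Fermat.Agent.S36.NU.H26_DivNormL0
import Fermat.Agent.S36.NU.H10_FinTopDefs

/-!
# S36 / NU-B, leaf DIV→NORM (helper26): the targets `Stmt_NormPow0`, `Stmt_NormFix` of FIN-TOP

* `stmt_NormPow0 : H10.Stmt_NormPow0 A q M`;
* `stmt_NormFix : H10.Stmt_NormFix A q M`.
-/

set_option autoImplicit false
set_option linter.style.haveILetI false
set_option linter.unusedSectionVars false
set_option synthInstance.maxHeartbeats 400000
set_option maxHeartbeats 1000000

noncomputable section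

namespace Fermat.Agent.S36.NU.H26

open AlgebraicCurve ModularCurve Fermat.Agent.S24 Fermat.Agent.Lib.HeckeComm
  Fermat.Agent.S36.H44 Fermat.Agent.BAD Fermat.Agent.S36.NU.H23 Fermat.Agent.BAD.H88
  Fermat.Agent.S36.NU.H10

variable (A : ValuationSubring Kbar) (q M : ℕ) [NeZero M] [NeZero q] [NeZero (M * q * q)]

/-- **DIV→NORM**: the target `Stmt_NormPow0` of FIN-TOP. -/
theorem stmt_NormPow0 : Stmt_NormPow0 A q M := by
  intro n hn f hf hfI hα hβ D hD hDα hDβ
  constructor
  · obtain ⟨c, g₀, -, hc, -, hg, -, h⟩ :=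
      divNorm_L0_alpha A (M * q) q n hn.ne' f hf hfI hα D hD hDα
    exact ⟨c, g₀, hc, hg, h⟩
  · obtain ⟨c, g₀, -, hc, -, hg, -, h⟩ :=
      divNorm_L0_beta A (M * q) q n hn.ne' f hf hfI hβ D hD hDβ
    exact ⟨c, g₀, hc, hg, h⟩

/-- **Norms of inertia-fixed functions are inertia-fixed**: the target `Stmt_NormFix`. -/
theorem stmt_NormFix : Stmt_NormFix A q M := by
  intro w hw
  exact ⟨norm_mem_L0 A (heckeAlphaBar Kbar (M * q) q) (arithEquivariant_alpha (M * q) q)
      (alpha_finite (M * q) q) w hw,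
    norm_mem_L0 A (heckeBetaBar Kbar (M * q) q) (arithEquivariant_beta (M * q) q)
      (beta_finite (M * q) q) w hw⟩

end Fermat.Agent.S36.NU.H26
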