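import Fermat.Agent.S36.NU.H10_FinTop
import Fermat.Agent.S36.NU.H26_NormPow0
import Fermat.Agent.S36.NU.H81_NUFinal
import Fermat.Agent.Lib.FrobExists

/-!
# S36 / NU-B (helper10): `Stmt_NUCoreTame` and `Stmt_TatePieceNU` from `Stmt_FinMod` and
`Stmt_ValVecMod`

`Stmt_NormPow0`, `Stmt_NormFix` are theorems (helper26).  The two remaining targets are asked for
EVERY valuation ring `A` over `q` and EVERY Bezout relation `B M + k q = 1`, at the tame levels.
-/

set_option autoImplicit false
set_option linter.style.haveILetI false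
set_option linter.unusedSectionVars false

noncomputable section

open ModularCurve AlgebraicCurve
open Fermat.Agent.S24 Fermat.Agent.BAD Fermat.Agent.BAD.H88 Fermat.Agent.Lib.HeckeComm
open Fermat.Agent.S36.NU.H23 Fermat.Agent.S36.NU.H81

namespace Fermat.Agent.S36.NU.H10

/-- **The two remaining modular targets of NU-B**, at the tame levels. -/
def Stmt_S36Targets : Prop :=
  ∀ (A : ValuationSubring Kbar) (q M : ℕ) (B k : ℤ) (hB : B * M + k * q = 1) (hq : q.Prime)
    [NeZero M] [NeZero q] [NeZero (M * q * q)], ¬ q ∣ M → A.LiesOverPrime q → TameNU (M * q) q →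
    Stmt_FinMod A q M B k hB hq ∧ Stmt_ValVecMod A q M B k hB hq

theorem finTopInputs_of (h : Stmt_S36Targets) (q M : ℕ) [NeZero M] [NeZero q]
    [NeZero (M * q * q)] : Stmt_FinTopInputs q M := by
  intro hq hqM ht
  obtain ⟨A, hA⟩ := Fermat.Agent.Lib.FrobExists.exists_liesOverPrime q hq
  have hcop : IsCoprime (M : ℤ) (q : ℤ) :=
    Nat.isCoprime_iff_coprime.mpr ((Nat.Prime.coprime_iff_not_dvd hq).2 hqM).symm
  obtain ⟨B, k, hBk⟩ := hcop
  have hB : B * M + k * q = 1 := hBk
  obtain ⟨hFin, hVV⟩ := h A q M B k hB hq hqM hA ht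
  exact ⟨A, B, k, hB, hA, hFin, hVV, Fermat.Agent.S36.NU.H26.stmt_NormPow0 A q M,
    Fermat.Agent.S36.NU.H26.stmt_NormFix A q M⟩

/-- **`Stmt_NUCoreTame` from the two targets.** -/
theorem nuCoreTame_of (h : Stmt_S36Targets) : Stmt_NUCoreTame :=
  fun p M₁ q _ _ ht => nuCore_tame_of (fun q M _ _ _ => finTopInputs_of h q M) p M₁ q ht

/-- **The Tate piece without inertia invariants from the two targets.** -/
theorem tatePieceNU_of_targets (h : Stmt_S36Targets) : Fermat.Agent.S35.Stmt_TatePieceNU :=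
  tatePieceNU_of_core (nuCoreTame_of h)

end Fermat.Agent.S36.NU.H10
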