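import Fermat.Agent.S36.NU.H10_Top
import Fermat.Agent.S36.NU.H10_S36Of

/-!
# S36 / NU-B, FINAL (helper10): `Stmt_S36Targets` from the three remaining modular statements

* `Stmt_NuMAll`   : the modular datum `H79.Stmt_NuM` at every tame level (helper79);
* `Stmt_TopAll`   : `TopInputs` for every modular datum (helpers 88, 99, 82, 28);
* `Stmt_ValVecAll`: `Stmt_ValVecMod` (helper51).

`s36Targets_of`, `nuCoreTame_final : … → H81.Stmt_NUCoreTame`.
-/

set_option autoImplicit false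
set_option synthInstance.maxHeartbeats 400000
set_option maxHeartbeats 1000000
set_option linter.style.haveILetI false
set_option linter.unusedSectionVars false

noncomputable section

open ModularCurve AlgebraicCurve

namespace Fermat.Agent.S36.NU.H10

open Fermat.Agent.S24 Fermat.Agent.BAD Fermat.Agent.BAD.H88 Fermat.Agent.S28 Fermat.Agent.S28.H73
  Fermat.Agent.S36.NU.H23 Fermat.Agent.S36.NU.H79 Fermat.Agent.S36.NU.H81

/-- The modular datum at every tame level. -/
def Stmt_NuMAll : Prop :=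
  ∀ (A : ValuationSubring Kbar) (q M : ℕ) (B k : ℤ) (hB : B * M + k * q = 1) (hq : q.Prime)
    [NeZero M] [NeZero q] [NeZero (M * q)] [NeZero (M * q * q)]
    (hqM : ¬ q ∣ M) (hA : A.LiesOverPrime q) (ht : H91.TameAt M q),
    (5 ≤ q ∧ 4 ∣ M) ∨ (q = 3 ∧ 4 ∣ M) ∨ (q = 2 ∧ 9 ∣ M) →
    Stmt_NuM A q M B k hB hq hqM hA ht

/-- The remaining local inputs, for every modular datum at every tame level. -/
def Stmt_TopAll : Prop :=
  ∀ (A : ValuationSubring Kbar) (q M : ℕ) (B k : ℤ) (hB : B * M + k * q = 1) (hq : q.Prime)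
    [NeZero M] [NeZero q] [NeZero (M * q)] [NeZero (M * q * q)]
    (hqM : ¬ q ∣ M) (hA : A.LiesOverPrime q) (ht : H91.TameAt M q),
    (5 ≤ q ∧ 4 ∣ M) ∨ (q = 3 ∧ 4 ∣ M) ∨ (q = 2 ∧ 9 ∣ M) →
    ∀ D : NUDataM A q M, IsNuM A q M B k hB hq hqM hA ht D →
      TopInputs A q M B k hB hq hqM hA ht D

/-- VALVEC at every tame level. -/
def Stmt_ValVecAll : Prop :=
  ∀ (A : ValuationSubring Kbar) (q M : ℕ) (B k : ℤ) (hB : B * M + k * q = 1) (hq : q.Prime)
    [NeZero M] [NeZero q] [NeZero (M * q)] [NeZero (M * q * q)]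
    (_hqM : ¬ q ∣ M) (_hA : A.LiesOverPrime q) (_ht : H91.TameAt M q),
    (5 ≤ q ∧ 4 ∣ M) ∨ (q = 3 ∧ 4 ∣ M) ∨ (q = 2 ∧ 9 ∣ M) →
    Stmt_ValVecMod A q M B k hB hq

/-- **`Stmt_S36Targets`** from the three remaining modular statements. -/
theorem s36Targets_of (hNu : Stmt_NuMAll) (hTop : Stmt_TopAll) (hVV : Stmt_ValVecAll) :
    Stmt_S36Targets := by
  intro A q M B k hB hq _ _ _ hqM hA htame
  haveI : NeZero (M * q) := ⟨Nat.mul_ne_zero (NeZero.ne M) (NeZero.ne q)⟩
  have ht : H91.TameAt M q := tameAt_of_tameNU hq htame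
  have hc := cases_of_tameNU hq htame
  obtain ⟨D, hD⟩ := hNu A q M B k hB hq hqM hA ht hc
  exact ⟨finMod_top A q M B k hB hq hqM hA ht D hD (hTop A q M B k hB hq hqM hA ht hc D hD),
    hVV A q M B k hB hq hqM hA ht hc⟩

/-- **`Stmt_NUCoreTame`** from the three remaining modular statements. -/
theorem nuCoreTame_final (hNu : Stmt_NuMAll) (hTop : Stmt_TopAll) (hVV : Stmt_ValVecAll) :
    Stmt_NUCoreTame :=
  nuCoreTame_of (s36Targets_of hNu hTop hVV)

end Fermat.Agent.S36.NU.H10
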