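import Fermat.Agent.S36.NU.H17_TIVal

/-!
# S36 / NU-B, leaf (L2-i) for `q = 2, 3`, abstract part (helper17): change of chart `h ↦ j`

`h` a Hauptmodul chart, `j h^p = P(h)` with `P` monic of degree `p + 1`, `P(0) ≠ 0`
(`p = 2`: `P = (X + 256)³`; `p = 3`: `P = (X + 27)(X + 243)³`).

* `exists_pow_mul_isIntegral` : `y` integral over `k[j]` ⟹ `h^e y` integral over `k[h]`;
* `isIntegral_haupt`, `isIntegral_haupt_inv` : `h` and `1/h` are integral over `C[j]`;
* `isIntegral_adjoin_trans` : integral over `C[h]` ⟹ integral over `C[j]`;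
* `isIntegral_div_pow` : `f` integral over `C[h]` ⟹ `f / h^e` integral over `C[j]`.
-/

set_option autoImplicit false
set_option linter.style.haveILetI false
set_option linter.unusedSectionVars false

noncomputable section

open Polynomial

namespace Fermat.Agent.S36.NU.H17

section Scale

variable {k κ : Type*} [Field k] [Field κ] [Algebra k κ]

/-- Every element of `k[j]` times a high power of `h` lies in `k[h]`, if `j h^p ∈ k[h]`. -/
theorem exists_pow_mul_mem_adjoin (h j : κ) (p : ℕ)
    (hrel : j * h ^ p ∈ Algebra.adjoin k {h}) {c : κ} (hc : c ∈ Algebra.adjoin k {j}) :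
    ∃ m : ℕ, ∀ n, m ≤ n → h ^ n * c ∈ Algebra.adjoin k {h} := by
  have hh : h ∈ Algebra.adjoin k {h} := Algebra.subset_adjoin rfl
  induction hc using Algebra.adjoin_induction with
  | mem c hc =>
    rw [Set.mem_singleton_iff] at hc
    subst hc
    refine ⟨p, fun n hn => ?_⟩
    obtain ⟨d, rfl⟩ := Nat.exists_eq_add_of_le hn
    have : h ^ (p + d) * c = h ^ d * (c * h ^ p) := by ring
    rw [this]
    exact mul_mem (pow_mem hh d) hrel
  | algebraMap r =>
    exact ⟨0, fun n _ => mul_mem (pow_mem hh n) (Subalgebra.algebraMap_mem _ r)⟩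
  | add a b _ _ ha hb =>
    obtain ⟨ma, hma⟩ := ha
    obtain ⟨mb, hmb⟩ := hb
    refine ⟨max ma mb, fun n hn => ?_⟩
    rw [mul_add]
    exact add_mem (hma n (le_trans (le_max_left _ _) hn)) (hmb n (le_trans (le_max_right _ _) hn))
  | mul a b _ _ ha hb =>
    obtain ⟨ma, hma⟩ := ha
    obtain ⟨mb, hmb⟩ := hb
    refine ⟨ma + mb, fun n hn => ?_⟩
    obtain ⟨d, rfl⟩ := Nat.exists_eq_add_of_le hn
    have : h ^ (ma + mb + d) * (a * b) = (h ^ ma * a) * (h ^ (mb + d) * b) := by ring
    rw [this]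
    exact mul_mem (hma ma le_rfl) (hmb (mb + d) (Nat.le_add_right _ _))

/-- `y` integral over `k[j]` ⟹ `h^e y` integral over `k[h]`, if `j h^p ∈ k[h]`. -/
theorem exists_pow_mul_isIntegral (h j : κ) (p : ℕ)
    (hrel : j * h ^ p ∈ Algebra.adjoin k {h}) {y : κ}
    (hy : IsIntegral ↥(Algebra.adjoin k {j}) y) :
    ∃ e : ℕ, IsIntegral ↥(Algebra.adjoin k {h}) (h ^ e * y) := by
  classical
  obtain ⟨Φ, hΦ, hΦc, hΦy⟩ := exists_monic_coeff_mem (Algebra.adjoin k {j}) hy
  have hh : h ∈ Algebra.adjoin k {h} := Algebra.subset_adjoin rfl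
  choose m hm using fun i => exists_pow_mul_mem_adjoin h j p hrel (hΦc i)
  set M := (Finset.range (Φ.natDegree + 1)).sup m with hM
  have hMi : ∀ i, i ≤ Φ.natDegree → h ^ M * Φ.coeff i ∈ Algebra.adjoin k {h} := fun i hi =>
    hm i M (Finset.le_sup (f := m) (Finset.mem_range.2 (Nat.lt_succ_of_le hi)))
  refine ⟨M, isIntegral_of_monic_coeff_mem (Algebra.adjoin k {h}) _ (Φ.scaleRoots (h ^ M))
    ((monic_scaleRoots_iff _).2 hΦ) (fun i => ?_) ?_⟩
  · rw [coeff_scaleRoots]
    rcases lt_trichotomy i Φ.natDegree with hi | hi | hi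
    · obtain ⟨d, hd⟩ := Nat.exists_eq_add_of_lt hi
      have e1 : Φ.natDegree - i = d + 1 := by omega
      rw [e1, pow_succ]
      have : Φ.coeff i * ((h ^ M) ^ d * h ^ M) = (h ^ M) ^ d * (h ^ M * Φ.coeff i) := by ring
      rw [this]
      exact mul_mem (pow_mem (pow_mem hh M) d) (hMi i hi.le)
    · rw [hi, Nat.sub_self, pow_zero, mul_one]
      have : Φ.coeff Φ.natDegree = 1 := hΦ
      rw [this]
      exact one_mem _
    · rw [Polynomial.coeff_eq_zero_of_natDegree_lt hi, zero_mul]
      exact zero_mem _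
  · rw [scaleRoots_eval_mul, hΦy, mul_zero]

end Scale

section Haupt

variable {E F : Type*} [Field E] [Field F] [Algebra E F]

/-- `h` is integral over `C[j]`, if `j h^p = P(h)` with `P` monic of degree `> p`. -/
theorem isIntegral_haupt (h j : F) (P : E[X]) (p : ℕ) (hP : P.Monic) (hPd : p < P.natDegree)
    (hrel : j * h ^ p = aeval h P) : IsIntegral ↥(Algebra.adjoin E {j}) h := by
  have hdeg : (C j * X ^ p : F[X]).degree < (P.map (algebraMap E F)).degree := by
    refine degree_lt_degree (lt_of_le_of_lt (natDegree_C_mul_le _ _) ?_)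
    rw [natDegree_X_pow, hP.natDegree_map]
    exact hPd
  refine isIntegral_of_monic_coeff_mem (Algebra.adjoin E {j}) h
    (P.map (algebraMap E F) - C j * X ^ p) ((hP.map _).sub_of_left hdeg) (fun i => ?_) ?_
  · rw [coeff_sub, coeff_map, coeff_C_mul, coeff_X_pow]
    refine sub_mem (Subalgebra.algebraMap_mem _ _) ?_
    split_ifs
    · rw [mul_one]
      exact Algebra.subset_adjoin rfl
    · rw [mul_zero]
      exact zero_mem _
  · rw [eval_sub, eval_mul, eval_C, eval_pow, eval_X, eval_map, ← aeval_def, hrel, sub_self]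

/-- `1/h` is integral over `C[j]`, if `j h^p = P(h)`, `P` monic of degree `> p ≥ 1`,
`P(0) ≠ 0`. -/
theorem isIntegral_haupt_inv (h j : F) (P : E[X]) (p : ℕ) (hP : P.Monic) (hPd : p < P.natDegree)
    (hp : 0 < p) (hP0 : P.coeff 0 ≠ 0) (hrel : j * h ^ p = aeval h P) :
    IsIntegral ↥(Algebra.adjoin E {j}) h⁻¹ := by
  have hh := isIntegral_haupt h j P p hP hPd hrel
  -- `h * w = P(0)` with `w = j h^(p-1) - (divX P)(h)`
  set w : F := j * h ^ (p - 1) - aeval h (divX P) with hw
  have e1 : aeval h P = aeval h (divX P) * h + algebraMap E F (P.coeff 0) := by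
    conv_lhs => rw [← divX_mul_X_add P]
    simp only [map_add, map_mul, aeval_X, aeval_C]
  have e2 : h * w = algebraMap E F (P.coeff 0) := by
    have hp' : h ^ p = h * h ^ (p - 1) := by
      rw [← pow_succ', Nat.sub_add_cancel hp]
    rw [hw, mul_sub, ← mul_assoc, mul_comm h j, mul_assoc, ← hp', hrel, e1]
    ring
  have ha0 : algebraMap E F (P.coeff 0) ≠ 0 := by
    rw [Ne, map_eq_zero]
    exact hP0
  have hh0 : h ≠ 0 := by
    rintro rfl
    rw [zero_mul] at e2
    exact ha0 e2.symm
  have e3 : h⁻¹ = algebraMap E F (P.coeff 0)⁻¹ * w := by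
    rw [map_inv₀, ← e2, mul_inv, mul_assoc, inv_mul_cancel₀ ?_]
    · rw [mul_one]
    · intro hw0
      rw [hw0, mul_zero] at e2
      exact ha0 e2.symm
  have hjint : IsIntegral ↥(Algebra.adjoin E {j}) j := by
    have : j = algebraMap ↥(Algebra.adjoin E {j}) F ⟨j, Algebra.subset_adjoin rfl⟩ := rfl
    rw [this]
    exact isIntegral_algebraMap
  have hcint : ∀ c : E, IsIntegral ↥(Algebra.adjoin E {j}) (algebraMap E F c) := fun c => by
    have : algebraMap E F c = algebraMap ↥(Algebra.adjoin E {j}) F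
        ⟨algebraMap E F c, Subalgebra.algebraMap_mem _ c⟩ := rfl
    rw [this]
    exact isIntegral_algebraMap
  have hpoly : ∀ Q : E[X], IsIntegral ↥(Algebra.adjoin E {j}) (aeval h Q) := by
    intro Q
    induction Q using Polynomial.induction_on with
    | C a => rw [aeval_C]; exact hcint a
    | add Q Q' hQ hQ' => rw [map_add]; exact hQ.add hQ'
    | monomial n a _ =>
      rw [map_mul, aeval_C, map_pow, aeval_X]
      exact (hcint a).mul (hh.pow _)
  rw [e3, hw]
  exact (hcint _).mul ((hjint.mul (hh.pow _)).sub (hpoly _))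

/-- Integrality over `C[h]` implies integrality over `C[j]`, if `h` is integral over `C[j]`. -/
theorem isIntegral_adjoin_trans (h j : F) (hh : IsIntegral ↥(Algebra.adjoin E {j}) h) {f : F}
    (hf : IsIntegral ↥(Algebra.adjoin E {h}) f) : IsIntegral ↥(Algebra.adjoin E {j}) f := by
  set S := integralClosure ↥(Algebra.adjoin E {j}) F with hS
  have hle : ∀ b ∈ Algebra.adjoin E {h}, b ∈ S := by
    intro b hb
    induction hb using Algebra.adjoin_induction with
    | mem b hb =>
      rw [Set.mem_singleton_iff] at hb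
      subst hb
      exact hh
    | algebraMap c =>
      have : algebraMap E F c = algebraMap ↥(Algebra.adjoin E {j}) F
          ⟨algebraMap E F c, Subalgebra.algebraMap_mem _ c⟩ := rfl
      rw [this]
      exact Subalgebra.algebraMap_mem S _
    | add a b _ _ ha hb => exact add_mem ha hb
    | mul a b _ _ ha hb => exact mul_mem ha hb
  have h1 : IsIntegral ↥S f :=
    isIntegral_of_le (A := ↥(Algebra.adjoin E {h})) (B := ↥S)
      (fun a => ⟨⟨(a : F), hle a a.2⟩, rfl⟩) hf
  exact isIntegral_trans f h1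

/-- `f` integral over `C[h]` ⟹ `f / h^e` integral over `C[j]`. -/
theorem isIntegral_div_pow (h j : F) (P : E[X]) (p : ℕ) (hP : P.Monic) (hPd : p < P.natDegree)
    (hp : 0 < p) (hP0 : P.coeff 0 ≠ 0) (hrel : j * h ^ p = aeval h P) {f : F}
    (hf : IsIntegral ↥(Algebra.adjoin E {h}) f) (e : ℕ) :
    IsIntegral ↥(Algebra.adjoin E {j}) (f * h⁻¹ ^ e) :=
  (isIntegral_adjoin_trans h j (isIntegral_haupt h j P p hP hPd hrel) hf).mul
    ((isIntegral_haupt_inv h j P p hP hPd hp hP0 hrel).pow e)

end Haupt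

end Fermat.Agent.S36.NU.H17
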