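import Fermat.Agent.S36.NU.H24_NormalImg
import Fermat.Agent.S36.NU.H17_NormalQ23Abs

/-!
# S36 / NU-B, (L2-iv) local form (helper17): branches from LOCAL lifts

In the chart at infinity (`B = ` integral closure of `R[1/j]`) the component `02` is not globally
the image of the normal chart of the good level: the lift `f(q²τ)` of a function `f` of the good
level is integral over `K[1/j'']`, `j'' = j(q²τ)`, and `1/j''` has poles outside the cusps.  But
`j` is integral over `R[j'']`, so that `G · (1/j'')` is integral over `R[1/j]` for some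
`G ∈ R[1/j]`, `G ≡ 1` modulo `1/j`; hence every function of the good level lifts after
multiplication by a power of `G`, which is a unit at the cusps.

* `branch_of_dedekind_local` : local form of `H61.branch_of_dedekind_finiteType`:
  `φ : B → A` a (not necessarily surjective) model of the component `i`, `A` a Dedekind domain of
  finite type over `k = k̄` with fraction field `κ i`, and every `a ∈ A` is `φ b / φ g` with
  `g ∉ 𝔪`; then the component has a branch through `𝔪`;
* `branch_of_normal_local` : local form of `H24.branch_of_normal`;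
* `exists_unit_mul_inv_isIntegral` : `x` integral over `R[y]` ⟹ `G(1/x) · (1/y)` is integral
  over `R[1/x]` for some `G ∈ R[X]` with `G(0) = 1`;
* `exists_pow_mul_isIntegral_of_mul` : `F` integral over `K[u'']`, `G u''` integral over
  `K[u]`, `G ∈ K[u]` ⟹ `G^m F` integral over `K[u]`.
-/

set_option autoImplicit false
set_option linter.style.haveILetI false
set_option linter.unusedSectionVars false

noncomputable section

namespace Fermat.Agent.S36.NU.H17

open Fermat.Agent.S36.NU.H16 Fermat.Agent.S36.NU.H61 Fermat.Agent.S36.NU.H24 IsDedekindDomain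
  IntermediateField Polynomial

section Local

variable {R F k ι : Type*} {κ : ι → Type*} [CommRing R] [Field F] [Algebra R F]
  [Field k] [∀ i, Field (κ i)] [∀ i, Algebra k (κ i)]

variable (C : Chart R F k ι κ) (i : ι) {A : Type*} [CommRing A] (φ : C.B →+* A)
  (𝔪 : Ideal C.B)

/-- The prime of the model defined by a closed point with local lifts:
`a ∈ 𝔓 ↔ φ b = φ g * a` for some `g ∉ 𝔪`, `b ∈ 𝔪`. -/
def locPrime [h𝔪 : 𝔪.IsPrime] (hloc : ∀ a : A, ∃ g b : C.B, g ∉ 𝔪 ∧ φ b = φ g * a) : Ideal A where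
  carrier := {a | ∃ g b : C.B, g ∉ 𝔪 ∧ b ∈ 𝔪 ∧ φ b = φ g * a}
  zero_mem' := ⟨1, 0, fun h => h𝔪.ne_top ((Ideal.eq_top_iff_one 𝔪).2 h), 𝔪.zero_mem, by simp⟩
  add_mem' := by
    rintro a₁ a₂ ⟨g₁, b₁, hg₁, hb₁, e₁⟩ ⟨g₂, b₂, hg₂, hb₂, e₂⟩
    refine ⟨g₁ * g₂, b₁ * g₂ + b₂ * g₁, fun h => ?_, ?_, ?_⟩
    · rcases h𝔪.mem_or_mem h with h | h
      · exact hg₁ h
      · exact hg₂ h
    · exact 𝔪.add_mem (𝔪.mul_mem_right _ hb₁) (𝔪.mul_mem_right _ hb₂)
    · rw [map_add, map_mul, map_mul, map_mul, e₁, e₂]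
      ring
  smul_mem' := by
    rintro c a ⟨g, b, hg, hb, e⟩
    obtain ⟨g', b', hg', e'⟩ := hloc c
    refine ⟨g' * g, b' * b, fun h => ?_, 𝔪.mul_mem_left _ hb, ?_⟩
    · rcases h𝔪.mem_or_mem h with h | h
      · exact hg' h
      · exact hg h
    · rw [map_mul, map_mul, e, e', smul_eq_mul]
      ring

variable {C i φ 𝔪}

theorem mem_locPrime [h𝔪 : 𝔪.IsPrime] (hloc : ∀ a : A, ∃ g b : C.B, g ∉ 𝔪 ∧ φ b = φ g * a)
    (a : A) : a ∈ locPrime C φ 𝔪 hloc ↔ ∃ g b : C.B, g ∉ 𝔪 ∧ b ∈ 𝔪 ∧ φ b = φ g * a := Iff.rfl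

/-- `φ⁻¹ 𝔓 = 𝔪`. -/
theorem map_mem_locPrime [h𝔪 : 𝔪.IsPrime] (hloc : ∀ a : A, ∃ g b : C.B, g ∉ 𝔪 ∧ φ b = φ g * a)
    (hker : RingHom.ker φ ≤ 𝔪) (β : C.B) : φ β ∈ locPrime C φ 𝔪 hloc ↔ β ∈ 𝔪 := by
  constructor
  · rintro ⟨g, b, hg, hb, e⟩
    have h1 : b - g * β ∈ 𝔪 := by
      apply hker
      rw [RingHom.mem_ker, map_sub, map_mul, e, sub_self]
    have h2 : g * β ∈ 𝔪 := by
      have := 𝔪.sub_mem hb h1
      rwa [sub_sub_cancel] at this
    rcases h𝔪.mem_or_mem h2 with h | h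
    · exact absurd h hg
    · exact h
  · intro hβ
    exact ⟨1, β, fun h => h𝔪.ne_top ((Ideal.eq_top_iff_one 𝔪).2 h), hβ, by simp⟩

theorem locPrime_isMaximal (hmax : 𝔪.IsMaximal)
    (hloc : ∀ a : A, ∃ g b : C.B, g ∉ 𝔪 ∧ φ b = φ g * a) (hker : RingHom.ker φ ≤ 𝔪) :
    haveI := hmax.isPrime
    (locPrime C φ 𝔪 hloc).IsMaximal := by
  haveI := hmax.isPrime
  rw [Ideal.isMaximal_iff]
  refine ⟨fun h1 => ?_, fun J a hJ ha haJ => ?_⟩
  · have : φ 1 ∈ locPrime C φ 𝔪 hloc := by rwa [map_one]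
    rw [map_mem_locPrime hloc hker] at this
    exact hmax.ne_top ((Ideal.eq_top_iff_one 𝔪).2 this)
  · obtain ⟨g, b, hg, e⟩ := hloc a
    have hb : b ∉ 𝔪 := fun hb => ha ⟨g, b, hg, hb, e⟩
    obtain ⟨b', m, hm, hsum⟩ := hmax.exists_inv hb
    have h1 : φ (b' * b) ∈ J := by
      rw [map_mul, e, ← mul_assoc]
      exact J.mul_mem_left _ haJ
    have h2 : φ m ∈ J := hJ ((map_mem_locPrime hloc hker m).2 hm)
    have h3 : φ (b' * b) + φ m = 1 := by rw [← map_add, hsum, map_one]
    rw [← h3]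
    exact J.add_mem h1 h2

end Local

section Branch

variable {R F k ι : Type*} {κ : ι → Type*} [CommRing R] [Field F] [Algebra R F]
  [Field k] [∀ i, Field (κ i)] [∀ i, Algebra k (κ i)]

/-- **Local form of `H61.branch_of_dedekind_finiteType`**: `φ : B → A` a model of the component
`i` (`A` a Dedekind domain of finite type over `k = k̄` with fraction field `κ i`), not necessarily
surjective, but every `a ∈ A` is `φ b / φ g` with `g ∉ 𝔪`.  Then the component has a branch
through `𝔪`. -/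
theorem branch_of_dedekind_local [IsAlgClosed k] (C : Chart R F k ι κ) (i : ι)
    {A : Type*} [CommRing A] [IsDedekindDomain A] [Algebra k A] [Algebra.FiniteType k A]
    [Algebra A (κ i)] [IsFractionRing A (κ i)] [IsScalarTower k A (κ i)]
    (φ : C.B →+* A) (hcomp : ∀ β, algebraMap A (κ i) (φ β) = C.rdB i β)
    (𝔪 : Ideal C.B) (hmax : 𝔪.IsMaximal) (h𝔪 : C.Icomp i ≤ 𝔪)
    (hloc : ∀ a : A, ∃ g b : C.B, g ∉ 𝔪 ∧ φ b = φ g * a) :
    Nonempty (Branch C 𝔪 i) := by
  classical
  haveI hprime : 𝔪.IsPrime := hmax.isPrime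
  have hinj : Function.Injective (algebraMap A (κ i)) := IsFractionRing.injective A (κ i)
  have hker : RingHom.ker φ ≤ 𝔪 := by
    rw [ker_model C i φ hinj hcomp]
    exact h𝔪
  set P : Ideal A := locPrime C φ 𝔪 hloc with hP
  have hmem : ∀ β : C.B, β ∈ 𝔪 ↔ φ β ∈ P := fun β => (map_mem_locPrime hloc hker β).symm
  have hPmax : P.IsMaximal := locPrime_isMaximal hmax hloc hker
  -- the residue field of `𝔪` consists of constants
  have hk : ∀ β : C.B, ∃ r : R, β - algebraMap R C.B r ∈ 𝔪 := by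
    let _ : Field (A ⧸ P) := Ideal.Quotient.field _
    have hg : ((Ideal.Quotient.mk P).comp (algebraMap k A)).FiniteType := by
      apply RingHom.FiniteType.comp
      · exact RingHom.FiniteType.of_surjective _ Ideal.Quotient.mk_surjective
      · exact (RingHom.finiteType_algebraMap (A := k) (B := A)).2 inferInstance
    have hsurj := surjective_of_finiteType_field _ hg
    intro β
    obtain ⟨c, hc⟩ := hsurj (Ideal.Quotient.mk P (φ β))
    obtain ⟨r, rfl⟩ := C.res_surj c
    refine ⟨r, ?_⟩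
    have h1 : φ (algebraMap R C.B r) = algebraMap k A (C.res r) := by
      apply hinj
      rw [hcomp, rdB_algebraMap, ← IsScalarTower.algebraMap_apply]
    rw [hmem, map_sub, h1, ← Ideal.Quotient.eq, ← hc]
    rfl
  -- local surjectivity in the form used below
  have hlift : ∀ a : A, a ∉ P → ∃ g b : C.B, g ∉ 𝔪 ∧ b ∉ 𝔪 ∧ φ b = φ g * a := by
    intro a ha
    obtain ⟨g, b, hg, e⟩ := hloc a
    exact ⟨g, b, hg, fun hb => ha ⟨g, b, hg, hb, e⟩, e⟩
  by_cases hbot : P = ⊥
  · -- `A` is a field, `O = ⊤`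
    have hfield : IsField A := by
      rw [Ring.isField_iff_maximal_bot, ← hbot]
      exact hPmax
    have hsurj : Function.Surjective (algebraMap A (κ i)) :=
      IsFractionRing.surjective_iff_isField.2 hfield
    have hnon : ∀ x : κ i, x ∈ (⊤ : ValuationSubring (κ i)).nonunits ↔ x = 0 := by
      intro x
      rw [ValuationSubring.mem_nonunits_iff_or]
      constructor
      · rintro (h | h)
        · exact h
        · exact absurd (ValuationSubring.mem_top _) h
      · intro h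
        exact Or.inl h
    have van : ∀ β : C.B, β ∈ 𝔪 ↔ C.rdB i β ∈ (⊤ : ValuationSubring (κ i)).nonunits := by
      intro β
      rw [hnon, hmem, hbot, Ideal.mem_bot, ← hcomp]
      constructor
      · intro h
        rw [h, map_zero]
      · intro h
        exact hinj (by rw [h, map_zero])
    have normal : ∀ y ∈ (⊤ : ValuationSubring (κ i)),
        ∃ b β : C.B, β ∉ 𝔪 ∧ C.rdB i b = y * C.rdB i β := by
      intro y _
      obtain ⟨a, rfl⟩ := hsurj y
      obtain ⟨g, b, hg, e⟩ := hloc a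
      refine ⟨b, g, hg, ?_⟩
      rw [← hcomp, ← hcomp, e, map_mul, mul_comm]
    exact ⟨{
      O := ⊤
      reg := fun β => ValuationSubring.mem_top _
      van := van
      normal := normal
      arch := fun x _ y _ => ⟨0, fun M _ => ValuationSubring.mem_top _⟩
      value := value_of_normal C i 𝔪 hmax ⊤ van normal hk }⟩
  · -- the height one prime `P`
    let v : HeightOneSpectrum A := ⟨P, hPmax.isPrime, hbot⟩
    let O : ValuationSubring (κ i) := (v.valuation (κ i)).valuationSubring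
    have hOmem : ∀ x : κ i, x ∈ O ↔ v.valuation (κ i) x ≤ 1 := fun x => Iff.rfl
    have hOnon : ∀ x : κ i, x ∈ O.nonunits ↔ v.valuation (κ i) x < 1 := by
      intro x
      rw [ValuationSubring.mem_nonunits_iff]
      exact ((Valuation.isEquiv_valuation_valuationSubring (v.valuation (κ i))).lt_one_iff_lt_one).symm
    have reg : ∀ β : C.B, C.rdB i β ∈ O := by
      intro β
      rw [hOmem, ← hcomp]
      exact v.valuation_le_one _
    have van : ∀ β : C.B, β ∈ 𝔪 ↔ C.rdB i β ∈ O.nonunits := by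
      intro β
      rw [hOnon, ← hcomp, v.valuation_lt_one_iff_mem, hmem]
    have normal : ∀ y ∈ O, ∃ b β : C.B, β ∉ 𝔪 ∧ C.rdB i b = y * C.rdB i β := by
      intro y hy
      obtain ⟨n, d, hnd⟩ := v.exists_primeCompl_mul_eq_of_integer y ((hOmem y).1 hy)
      obtain ⟨g₁, b₁, hg₁, e₁⟩ := hloc n
      obtain ⟨g₂, b₂, hg₂, hb₂, e₂⟩ := hlift (d : A) d.2
      refine ⟨b₁ * g₂, b₂ * g₁, fun h => ?_, ?_⟩
      · rcases hprime.mem_or_mem h with h | h
        · exact hb₂ h
        · exact hg₁ h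
      · rw [map_mul, map_mul, ← hcomp, ← hcomp, ← hcomp, ← hcomp, e₁, e₂, map_mul, map_mul,
          ← hnd]
        ring
    have arch : ∀ x ∈ O.nonunits, ∀ y : κ i, y ≠ 0 →
        ∃ N : ℕ, ∀ M : ℕ, N ≤ M → x ^ M * y⁻¹ ∈ O := by
      intro x hx y hy
      have hy' : v.valuation (κ i) y ≠ 0 := (Valuation.ne_zero_iff _).2 hy
      obtain ⟨N, hN⟩ := exists_pow_le_of_lt_one _ _ ((hOnon x).1 hx) hy'
      refine ⟨N, fun M hM => ?_⟩
      rw [hOmem, map_mul, map_pow, map_inv₀]
      exact mul_inv_le_one_of_le₀ (hN M hM) zero_le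
    exact ⟨{
      O := O
      reg := reg
      van := van
      normal := normal
      arch := arch
      value := value_of_normal C i 𝔪 hmax O van normal hk }⟩

/-- **Local form of `H24.branch_of_normal`**: if the reduction of `j` is integral over `k[t]`,
`κ i / k(t)` is finite separable, and every element `y` of `κ i` integral over `k[t]` satisfies
`rdB b = rdB g * y` for some `b, g ∈ B`, `g ∉ 𝔪`, then the component `i` has a branch through the
closed point `𝔪 ⊇ Icomp i`. -/
theorem branch_of_normal_local [IsAlgClosed k] (C : Chart R F k ι κ) (i : ι) (j : F)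
    (hjB : j ∈ C.B) (hB : ∀ β : C.B, IsIntegral ↥(Algebra.adjoin R {j}) (β : F)) (t : κ i)
    [FiniteDimensional ↥k⟮t⟯ (κ i)] [Algebra.IsSeparable ↥k⟮t⟯ (κ i)]
    (hj : IsIntegral ↥(Algebra.adjoin k ({t} : Set (κ i))) (C.rdB i ⟨j, hjB⟩))
    (𝔪 : Ideal C.B) (hmax : 𝔪.IsMaximal) (h𝔪 : C.Icomp i ≤ 𝔪)
    (hlift : ∀ y : κ i, IsIntegral ↥(Algebra.adjoin k ({t} : Set (κ i))) y →
      ∃ g b : C.B, g ∉ 𝔪 ∧ C.rdB i b = C.rdB i g * y) :
    Nonempty (Branch C 𝔪 i) := by
  haveI := isDedekindDomain_intClosure k t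
  haveI := isFractionRing_intClosure k t
  haveI := finiteType_intClosure k t
  let φ : C.B →+* ↥(integralClosure ↥(Algebra.adjoin k ({t} : Set (κ i))) (κ i)) :=
    (C.rdB i).codRestrict
      (integralClosure ↥(Algebra.adjoin k ({t} : Set (κ i))) (κ i)).toSubring
      (fun β => rdB_mem_intClosure C i j hjB hB t hj β)
  refine branch_of_dedekind_local C i φ (fun β => rfl) 𝔪 hmax h𝔪 ?_
  rintro ⟨y, hy⟩
  obtain ⟨g, b, hg, e⟩ := hlift y hy
  exact ⟨g, b, hg, Subtype.ext e⟩

end Branch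

section InvInt

variable {R F : Type*} [CommRing R] [Field F] [Algebra R F]

theorem natDegree_reflect_le' (N : ℕ) (f : R[X]) (hf : f.natDegree ≤ N) :
    (reflect N f).natDegree ≤ N := by
  rw [natDegree_le_iff_coeff_eq_zero]
  intro m hm
  rw [coeff_reflect, revAt_eq_self_of_lt hm]
  exact coeff_eq_zero_of_natDegree_lt (lt_of_le_of_lt hf hm)

/-- `aeval y A * w ^ e = aeval w (reflect e A)` for `w = y⁻¹`. -/
theorem aeval_mul_inv_pow_eq_reflect {y : F} (hy : y ≠ 0) (A : R[X]) (e : ℕ)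
    (hA : A.natDegree ≤ e) : aeval y A * y⁻¹ ^ e = aeval y⁻¹ (reflect e A) := by
  letI : Invertible y⁻¹ := invertibleOfNonzero (inv_ne_zero hy)
  have h := eval₂_reflect_mul_pow (algebraMap R F) y⁻¹ e (reflect e A)
    (natDegree_reflect_le' e A hA)
  rw [invOf_eq_inv, inv_inv] at h
  have h2 : reflect e (reflect e A) = A := by
    ext n
    rw [coeff_reflect, coeff_reflect, revAt_invol]
  rw [h2] at h
  exact h

/-- **`x` integral over `R[y]` ⟹ `G(1/x) · (1/y)` integral over `R[1/x]`** for some polynomial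
`G ∈ R[X]` with constant coefficient `1`. -/
theorem exists_unit_mul_inv_isIntegral {x y : F} (hx : x ≠ 0) (hy : y ≠ 0)
    (h : IsIntegral ↥(Algebra.adjoin R {y}) x) :
    ∃ G : R[X], G.coeff 0 = 1 ∧ IsIntegral ↥(Algebra.adjoin R {x⁻¹}) (aeval x⁻¹ G * y⁻¹) := by
  classical
  obtain ⟨Φ, hΦ, hΦc, hΦx⟩ := exists_monic_coeff_mem (Algebra.adjoin R {y}) h
  have hc : ∀ i, ∃ A : R[X], aeval y A = Φ.coeff i := fun i => by
    have := hΦc i
    rw [Algebra.adjoin_singleton_eq_range_aeval] at this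
    exact this
  choose A hA using hc
  set d := Φ.natDegree with hd
  set e := (Finset.range d).sup (fun i => (A i).natDegree) with he
  have hAe : ∀ i, i < d → (A i).natDegree ≤ e := fun i hi =>
    Finset.le_sup (f := fun i => (A i).natDegree) (Finset.mem_range.2 hi)
  set T := Algebra.adjoin R {x⁻¹} with hT
  let uT : ↥T := ⟨x⁻¹, Algebra.subset_adjoin rfl⟩
  -- the polynomial relation for `w = y⁻¹` over `T`
  set p : (↥T)[X] := X ^ e + ∑ i ∈ Finset.range d,
    C (uT ^ (d - i)) * (reflect e (A i)).map (algebraMap R ↥T) with hp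
  set G : R[X] := 1 + ∑ i ∈ Finset.range d, C ((A i).coeff 0) * X ^ (d - i) with hG
  have hG0 : G.coeff 0 = 1 := by
    rw [hG, coeff_add, coeff_one_zero, finsetSum_coeff, Finset.sum_eq_zero, add_zero]
    intro i hi
    rw [coeff_C_mul, coeff_X_pow, if_neg, mul_zero]
    have := Finset.mem_range.1 hi
    omega
  have hpdeg : p.natDegree ≤ e := by
    rw [hp]
    refine le_trans (natDegree_add_le _ _) (max_le (natDegree_X_pow_le e) ?_)
    refine natDegree_sum_le_of_forall_le _ _ (fun i hi => ?_)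
    refine le_trans (natDegree_C_mul_le _ _) (le_trans natDegree_map_le ?_)
    exact natDegree_reflect_le' e (A i) (hAe i (Finset.mem_range.1 hi))
  have hpe : ((p.coeff e : ↥T) : F) = aeval x⁻¹ G := by
    rw [hp, hG, coeff_add, coeff_X_pow, if_pos rfl, finsetSum_coeff, map_add, map_one, map_sum]
    have h0 : ∀ i ∈ Finset.range d,
        (C (uT ^ (d - i)) * (reflect e (A i)).map (algebraMap R ↥T)).coeff e
          = uT ^ (d - i) * algebraMap R ↥T ((A i).coeff 0) := by
      intro i _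
      rw [coeff_C_mul, coeff_map, coeff_reflect, revAt_le le_rfl, Nat.sub_self]
    rw [Finset.sum_congr rfl h0]
    have h1 : ∀ i ∈ Finset.range d, aeval x⁻¹ (C ((A i).coeff 0) * X ^ (d - i))
        = ((uT ^ (d - i) * algebraMap R ↥T ((A i).coeff 0) : ↥T) : F) := by
      intro i _
      rw [map_mul, aeval_C, map_pow, aeval_X, mul_comm]
      rfl
    rw [Finset.sum_congr rfl h1]
    push_cast
    rfl
  have hpw : aeval y⁻¹ p = 0 := by
    rw [hp, map_add, map_pow, aeval_X, map_sum]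
    have h1 : ∀ i ∈ Finset.range d,
        aeval y⁻¹ (C (uT ^ (d - i)) * (reflect e (A i)).map (algebraMap R ↥T))
          = x⁻¹ ^ d * y⁻¹ ^ e * (Φ.coeff i * x ^ i) := by
      intro i hi
      have hi' := Finset.mem_range.1 hi
      rw [map_mul, aeval_C, aeval_map_algebraMap,
        ← aeval_mul_inv_pow_eq_reflect hy (A i) e (hAe i hi'), hA]
      have : (algebraMap ↥T F) (uT ^ (d - i)) = x⁻¹ ^ (d - i) := rfl
      rw [this]
      have h2 : x⁻¹ ^ d * x ^ i = x⁻¹ ^ (d - i) := by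
        obtain ⟨c, hc⟩ := Nat.exists_eq_add_of_lt hi'
        have e1 : d - i = c + 1 := by omega
        have e2 : d = (c + 1) + i := by omega
        rw [e1]
        conv_lhs => rw [e2]
        rw [pow_add, mul_assoc, ← mul_pow, inv_mul_cancel₀ hx, one_pow, mul_one]
      rw [← h2]
      ring
    rw [Finset.sum_congr rfl h1, ← Finset.mul_sum]
    have h3 : ∑ i ∈ Finset.range d, Φ.coeff i * x ^ i = - x ^ d := by
      have h4 := hΦx
      rw [eval_eq_sum_range, Finset.sum_range_succ, ← hd] at h4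
      have h5 : Φ.coeff d = 1 := hΦ
      rw [h5, one_mul] at h4
      exact eq_neg_of_add_eq_zero_left h4
    rw [h3]
    have h6 : x⁻¹ ^ d * x ^ d = 1 := by rw [← mul_pow, inv_mul_cancel₀ hx, one_pow]
    linear_combination (-(y⁻¹ ^ e)) * h6
  refine ⟨G, hG0, ?_⟩
  by_cases hz : p.coeff e = 0
  · have : aeval x⁻¹ G = 0 := by rw [← hpe, hz]; rfl
    rw [this, zero_mul]
    exact isIntegral_zero
  · have hnd : p.natDegree = e := le_antisymm hpdeg (le_natDegree_of_ne_zero hz)
    have hlc : p.leadingCoeff = p.coeff e := by rw [leadingCoeff, hnd]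
    have h7 := isIntegral_leadingCoeff_smul p y⁻¹ hpw
    rw [hlc, Algebra.smul_def] at h7
    have h8 : (algebraMap ↥T F) (p.coeff e) = aeval x⁻¹ G := hpe
    rwa [h8] at h7

end InvInt

section ScaleInt

variable {K F : Type*} [CommRing K] [Field F] [Algebra K F]

theorem isIntegral_of_mem_adjoin {u c : F} (hc : c ∈ Algebra.adjoin K {u}) :
    IsIntegral ↥(Algebra.adjoin K {u}) c := by
  have : c = algebraMap ↥(Algebra.adjoin K {u}) F ⟨c, hc⟩ := rfl
  rw [this]
  exact isIntegral_algebraMap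

/-- Every element of `K[w]` times a high power of `γ` is integral over `K[u]`, if `γ ∈ K[u]` and
`γ w` is integral over `K[u]`. -/
theorem exists_pow_mul_isIntegral_of_mem {u w γ : F}
    (hγ : γ ∈ Algebra.adjoin K {u}) (hγw : IsIntegral ↥(Algebra.adjoin K {u}) (γ * w))
    {c : F} (hc : c ∈ Algebra.adjoin K {w}) :
    ∃ m : ℕ, ∀ n, m ≤ n → IsIntegral ↥(Algebra.adjoin K {u}) (γ ^ n * c) := by
  have hγi : IsIntegral ↥(Algebra.adjoin K {u}) γ := isIntegral_of_mem_adjoin hγ
  induction hc using Algebra.adjoin_induction with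
  | mem c hc =>
    rw [Set.mem_singleton_iff] at hc
    subst hc
    refine ⟨1, fun n hn => ?_⟩
    obtain ⟨d, rfl⟩ := Nat.exists_eq_add_of_le hn
    have : γ ^ (1 + d) * c = γ ^ d * (γ * c) := by ring
    rw [this]
    exact (hγi.pow d).mul hγw
  | algebraMap r =>
    exact ⟨0, fun n _ => (hγi.pow n).mul
      (isIntegral_of_mem_adjoin (Subalgebra.algebraMap_mem _ r))⟩
  | add a b _ _ ha hb =>
    obtain ⟨ma, hma⟩ := ha
    obtain ⟨mb, hmb⟩ := hb
    refine ⟨max ma mb, fun n hn => ?_⟩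
    rw [mul_add]
    exact (hma n (le_trans (le_max_left _ _) hn)).add (hmb n (le_trans (le_max_right _ _) hn))
  | mul a b _ _ ha hb =>
    obtain ⟨ma, hma⟩ := ha
    obtain ⟨mb, hmb⟩ := hb
    refine ⟨ma + mb, fun n hn => ?_⟩
    obtain ⟨d, rfl⟩ := Nat.exists_eq_add_of_le hn
    have : γ ^ (ma + mb + d) * (a * b) = (γ ^ ma * a) * (γ ^ (mb + d) * b) := by ring
    rw [this]
    exact (hma ma le_rfl).mul (hmb (mb + d) (Nat.le_add_right _ _))

/-- **`f` integral over `K[w]` ⟹ `γ^n f` integral over `K[u]`** for all large `n`, if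
`γ ∈ K[u]` and `γ w` is integral over `K[u]`. -/
theorem exists_pow_mul_isIntegral_of_mul {u w γ : F}
    (hγ : γ ∈ Algebra.adjoin K {u}) (hγw : IsIntegral ↥(Algebra.adjoin K {u}) (γ * w))
    {f : F} (hf : IsIntegral ↥(Algebra.adjoin K {w}) f) :
    ∃ m : ℕ, ∀ n, m ≤ n → IsIntegral ↥(Algebra.adjoin K {u}) (γ ^ n * f) := by
  classical
  obtain ⟨Φ, hΦ, hΦc, hΦy⟩ := exists_monic_coeff_mem (Algebra.adjoin K {w}) hf
  have hγi : IsIntegral ↥(Algebra.adjoin K {u}) γ := isIntegral_of_mem_adjoin hγ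
  choose m hm using fun i => exists_pow_mul_isIntegral_of_mem hγ hγw (hΦc i)
  set M := (Finset.range (Φ.natDegree + 1)).sup m with hM
  refine ⟨M, fun n hn => ?_⟩
  have hMi : ∀ i, i ≤ Φ.natDegree → IsIntegral ↥(Algebra.adjoin K {u}) (γ ^ n * Φ.coeff i) :=
    fun i hi => hm i n (le_trans
      (Finset.le_sup (f := m) (Finset.mem_range.2 (Nat.lt_succ_of_le hi))) hn)
  have h1 : IsIntegral ↥(integralClosure ↥(Algebra.adjoin K {u}) F) (γ ^ n * f) := by
    refine isIntegral_of_monic_coeff_mem (integralClosure ↥(Algebra.adjoin K {u}) F) _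
      (Φ.scaleRoots (γ ^ n)) ((monic_scaleRoots_iff _).2 hΦ) (fun i => ?_) ?_
    · rw [coeff_scaleRoots]
      rcases lt_trichotomy i Φ.natDegree with hi | hi | hi
      · obtain ⟨d, hd⟩ := Nat.exists_eq_add_of_lt hi
        have e1 : Φ.natDegree - i = d + 1 := by omega
        rw [e1, pow_succ]
        have : Φ.coeff i * ((γ ^ n) ^ d * γ ^ n) = (γ ^ n) ^ d * (γ ^ n * Φ.coeff i) := by ring
        rw [this]
        exact ((hγi.pow n).pow d).mul (hMi i hi.le)
      · rw [hi, Nat.sub_self, pow_zero, mul_one]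
        have : Φ.coeff Φ.natDegree = 1 := hΦ
        rw [this]
        exact one_mem _
      · rw [Polynomial.coeff_eq_zero_of_natDegree_lt hi, zero_mul]
        exact zero_mem _
    · rw [scaleRoots_eval_mul, hΦy, mul_zero]
  exact isIntegral_trans _ h1

end ScaleInt

section Pack

variable {R K F : Type*} [CommRing R] [Field K] [Field F] [Algebra R K] [Algebra K F]
  [Algebra R F] [IsScalarTower R K F]

/-- **The local denominators**: if `x` is integral over `R[y]`, there is `G ∈ R[X]` with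
`G(0) = 1` such that every `f` integral over `K[1/y]` becomes integral over `K[1/x]` after
multiplication by a high power of `G(1/x)`. -/
theorem exists_unit_pow_mul_isIntegral {x y : F} (hx : x ≠ 0) (hy : y ≠ 0)
    (h : IsIntegral ↥(Algebra.adjoin R {y}) x) :
    ∃ G : R[X], G.coeff 0 = 1 ∧
      IsIntegral ↥(Algebra.adjoin R {x⁻¹}) (aeval x⁻¹ G * y⁻¹) ∧
      ∀ f : F, IsIntegral ↥(Algebra.adjoin K {y⁻¹}) f →
        ∃ m : ℕ, ∀ n, m ≤ n → IsIntegral ↥(Algebra.adjoin K {x⁻¹}) (aeval x⁻¹ G ^ n * f) := by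
  obtain ⟨G, hG0, hG⟩ := exists_unit_mul_inv_isIntegral (R := R) hx hy h
  refine ⟨G, hG0, hG, fun f hf => ?_⟩
  have hγ : aeval x⁻¹ G ∈ Algebra.adjoin K {x⁻¹} := by
    have h1 : aeval x⁻¹ G = aeval x⁻¹ (G.map (algebraMap R K)) := by
      rw [aeval_map_algebraMap]
    rw [h1, Algebra.adjoin_singleton_eq_range_aeval]
    exact ⟨_, rfl⟩
  have hγw : IsIntegral ↥(Algebra.adjoin K {x⁻¹}) (aeval x⁻¹ G * y⁻¹) :=
    isIntegral_adjoin_field R K x⁻¹ hG
  exact exists_pow_mul_isIntegral_of_mul hγ hγw hf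

/-- A polynomial with constant coefficient `1` in an element of a proper ideal is not in the
ideal. -/
theorem aeval_not_mem_of_coeff_zero {B : Type*} [CommRing B] [Algebra R B] (𝔪 : Ideal B)
    (h𝔪 : 𝔪 ≠ ⊤) {u : B} (hu : u ∈ 𝔪) (G : R[X]) (hG : G.coeff 0 = 1) : aeval u G ∉ 𝔪 := by
  intro h
  apply h𝔪
  rw [Ideal.eq_top_iff_one]
  have e : aeval u G = aeval u (divX G) * u + 1 := by
    conv_lhs => rw [← divX_mul_X_add G]
    simp only [map_add, map_mul, aeval_X, hG, map_one]
  have h2 : (1 : B) = aeval u G - aeval u (divX G) * u := by rw [e]; ring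
  rw [h2]
  exact 𝔪.sub_mem h (𝔪.mul_mem_left _ hu)

end Pack

end Fermat.Agent.S36.NU.H17
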