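import Fermat.Agent.S36.NU.H88_ChartMod
import Fermat.Agent.S15.H26_CuspEisGood

/-!
# S36, NU-B, (M1) CHART-MOD (helper88): integrality of `j'' = j(q²τ)`

* `isIntegral_adjoin_of_isIntegralElem` : for inertia-fixed `x`, `f`, integrality of `f` for
  `K^ur[X] → ℚ̄[X] → F_N`, `X ↦ x` (the form of helper17's NORMAL-IMG) is integrality over
  `K^ur[x]` inside `L₀`;
* `isIntegral_adjoin_L0` : an inertia-fixed function which is integral over `ℚ̄[x]` is integral
  over `K^ur[x]`;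
* `isIntegral_jdd` : **(H)** `j''` is integral over `K^ur[j]`;
* `jdd_mem_intSub` : `j''` is integral over `R[j]`, from the hypotheses `hG` (Gauss) and
  `hthree` (THREE) of helper17's TI3-VAL;
* `chartHyp_chart0'`, `chartHyp_chartInf'` : `ChartHyp` from `hG`, `hthree`.
-/

set_option autoImplicit false
set_option synthInstance.maxHeartbeats 400000
set_option maxHeartbeats 1000000
set_option linter.unusedSectionVars false
set_option linter.style.haveILetI false

noncomputable section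

open IntermediateField ModularCurve AlgebraicCurve Polynomial
open Fermat.Agent.S24 Fermat.Agent.BAD.H88 Fermat.Agent.S28 Fermat.Agent.S28.H73
open Fermat.Agent.RED.H73 Fermat.Agent.RED.H17

namespace Fermat.Agent.S36.NU.H88

open Fermat.Agent.S36.NU.H16 Fermat.Agent.S36.NU.H17 Fermat.Agent.S36.NU.H24
  Fermat.Agent.S36.NU.H65 Fermat.Agent.S36.NU.H79 Fermat.Agent.S36.NU.H23
  Fermat.Agent.S36.NU.H41 Fermat.Agent.BAD

section Int

variable (A : ValuationSubring Kbar) (N : ℕ) [NeZero N]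

/-- `K^ur[X] → L₀`, `X ↦ x`, composed with the inclusion, is `K^ur[X] → ℚ̄[X] → F_N`. -/
theorem subtype_comp_aeval (x : ↥(L0 A N)) :
    (L0 A N).subtype.comp (aeval x : (↥(Kur A))[X] →ₐ[↥(Kur A)] ↥(L0 A N)).toRingHom
      = (aeval (x : FN N) : Kbar[X] →ₐ[Kbar] FN N).toRingHom.comp
          (mapRingHom (iotaUr A)) := by
  refine Polynomial.ringHom_ext (fun c => ?_) ?_
  · show (((aeval x (C c) : ↥(L0 A N))) : FN N) = aeval (x : FN N) (map (iotaUr A) (C c))
    rw [aeval_C, map_C, aeval_C]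
    rfl
  · show (((aeval x (X : (↥(Kur A))[X]) : ↥(L0 A N))) : FN N)
      = aeval (x : FN N) (map (iotaUr A) X)
    rw [aeval_X, map_X, aeval_X]

/-- Integrality for `K^ur[X] → ℚ̄[X] → F_N` is integrality over `K^ur[x]` inside `L₀`. -/
theorem isIntegral_adjoin_of_isIntegralElem (x f : ↥(L0 A N))
    (hf : ((aeval (x : FN N) : Kbar[X] →ₐ[Kbar] FN N).toRingHom.comp
      (mapRingHom (iotaUr A))).IsIntegralElem (f : FN N)) :
    IsIntegral ↥(Algebra.adjoin ↥(Kur A) {x}) f := by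
  obtain ⟨Q, hQ, hQx⟩ := hf
  rw [← subtype_comp_aeval A N x] at hQx
  have h0 : eval₂ (aeval x : (↥(Kur A))[X] →ₐ[↥(Kur A)] ↥(L0 A N)).toRingHom f Q = 0 := by
    apply (L0 A N).subtype.injective
    rw [map_zero, Polynomial.hom_eval₂]
    exact hQx
  -- the polynomial over `K^ur[x]`
  have hx : ∀ p : (↥(Kur A))[X], aeval x p ∈ Algebra.adjoin ↥(Kur A) {x} := fun p => by
    rw [Algebra.adjoin_singleton_eq_range_aeval]
    exact ⟨p, rfl⟩
  let g : (↥(Kur A))[X] →+* ↥(Algebra.adjoin ↥(Kur A) {x}) :=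
    (aeval x : (↥(Kur A))[X] →ₐ[↥(Kur A)] ↥(L0 A N)).toRingHom.codRestrict
      (Algebra.adjoin ↥(Kur A) {x}) hx
  refine ⟨Q.map g, hQ.map g, ?_⟩
  rw [eval₂_map]
  exact h0

/-- An inertia-fixed function which is integral over `ℚ̄[x]` is integral over `K^ur[x]`. -/
theorem isIntegral_adjoin_L0 (x f : ↥(L0 A N))
    (hf : IsIntegral ↥(Algebra.adjoin Kbar {(x : FN N)}) (f : FN N)) :
    IsIntegral ↥(Algebra.adjoin ↥(Kur A) {x}) f := by
  haveI := isIntegral_Kur_Kbar A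
  exact isIntegral_adjoin_of_isIntegralElem A N x f
    (isIntegralElem_of_isIntegral_adjoin (K := ↥(Kur A)) (C := Kbar) (x : FN N) (f : FN N) hf)

/-- Integrality over `ℚ̄[X]` (`X ↦ j`) is integrality over `ℚ̄[j]`. -/
theorem isIntegral_adjoin_of_poly (f : FN N) (hf : IsIntegral Kbar[X] f) :
    IsIntegral ↥(Algebra.adjoin Kbar {jF N}) f := by
  refine isIntegral_of_le (A := Kbar[X]) (B := ↥(Algebra.adjoin Kbar {jF N})) ?_ hf
  intro p
  refine ⟨⟨aeval (jF N) p, ?_⟩, rfl⟩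
  rw [Algebra.adjoin_singleton_eq_range_aeval]
  exact ⟨p, rfl⟩

/-- `j(q^d)` is integral over `K^ur[j]`. -/
theorem isIntegral_jdF_L0 (d : ℕ) [NeZero d] (hd : d ∣ N) :
    IsIntegral ↥(Algebra.adjoin ↥(Kur A) {j0 A N})
      (⟨jdF N d hd, jdF_mem_L0 A N d hd⟩ : ↥(L0 A N)) :=
  isIntegral_adjoin_L0 A N (j0 A N) ⟨jdF N d hd, jdF_mem_L0 A N d hd⟩
    (isIntegral_adjoin_of_poly N _ (Fermat.Agent.S15.H26.isIntegral_jdF N d hd))

end Int

section Jdd

variable (A : ValuationSubring Kbar) (q M : ℕ) (B k : ℤ) (hB : B * M + k * q = 1) (hq : q.Prime)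
  [NeZero M] [NeZero q] [NeZero (M * q * q)] (hqM : ¬ q ∣ M) (hA : A.LiesOverPrime q)
  (ht : H91.TameAt M q)

attribute [local instance] algkM

/-- **(H)** `j''` is integral over `K^ur[j]`. -/
theorem isIntegral_jdd :
    IsIntegral ↥(Algebra.adjoin ↥(Kur A) {j0 A (M * q * q)}) (jdd A q M) :=
  isIntegral_jdF_L0 A (M * q * q) (q * q) (sq_dvd_lvl q M)

/-- `j''` lies in the three valuation rings. -/
theorem jdd_mem_totM (i : Fin 3) : jdd A q M ∈ (totM A q M B k hB hq hqM hA ht).V i := by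
  fin_cases i
  · exact jdd_mem20 A q M
  · exact jdd_mem11 A q M B k hB hq hA
  · exact jdd_mem02 A q M B k hB hq

/-- **`j''` is integral over `R[j]`**, from the hypotheses `hG` (Gauss) and `hthree` (THREE) of
TI3-VAL (helper17 `isIntegral_adjoin_of_forall_mem`). -/
theorem jdd_mem_intSub (i₀ : Fin 3)
    (hG : ∀ p : (↥(Kur A))[X],
      aeval (j0 A (M * q * q)) p ∈ (totM A q M B k hB hq hqM hA ht).V i₀ →
        ∀ i, p.coeff i ∈ (algebraMap ↥(Rur A) ↥(Kur A)).range)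
    (hthree : ∀ f : ↥(L0 A (M * q * q)),
      (∀ i, f ∈ (totM A q M B k hB hq hqM hA ht).V i) →
      ∃ P : (↥(L0 A (M * q * q)))[X], P.Monic ∧
        (∀ m, P.coeff m ∈ (totM A q M B k hB hq hqM hA ht).V i₀ ∧
          P.coeff m ∈ (↥(Kur A))⟮j0 A (M * q * q)⟯) ∧ P.eval f = 0) :
    jdd A q M ∈ intSub ↥(Rur A) (j0 A (M * q * q)) :=
  isIntegral_adjoin_of_forall_mem ↥(Rur A) ↥(Kur A) (j0 A (M * q * q))
    (transcendental_j0 A (M * q * q)) (totM A q M B k hB hq hqM hA ht).V i₀ hG hthree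
    (isIntegral_jdd A q M) (jdd_mem_totM A q M B k hB hq hqM hA ht)

/-- **`ChartHyp` for the chart of `j`**, from `hG` and `hthree`. -/
theorem chartHyp_chart0' (i₀ : Fin 3)
    (hG : ∀ p : (↥(Kur A))[X],
      aeval (j0 A (M * q * q)) p ∈ (totM A q M B k hB hq hqM hA ht).V i₀ →
        ∀ i, p.coeff i ∈ (algebraMap ↥(Rur A) ↥(Kur A)).range)
    (hthree : ∀ f : ↥(L0 A (M * q * q)),
      (∀ i, f ∈ (totM A q M B k hB hq hqM hA ht).V i) →
      ∃ P : (↥(L0 A (M * q * q)))[X], P.Monic ∧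
        (∀ m, P.coeff m ∈ (totM A q M B k hB hq hqM hA ht).V i₀ ∧
          P.coeff m ∈ (↥(Kur A))⟮j0 A (M * q * q)⟯) ∧ P.eval f = 0)
    (n : ℕ) (hn : 0 < n) (hcop : Nat.Coprime n q) :
    ChartHyp (chart0 A q M B k hB hq hqM hA ht) q n :=
  chartHyp_chart0 A q M B k hB hq hqM hA ht n hn hcop
    (jdd_mem_intSub A q M B k hB hq hqM hA ht i₀ hG hthree)

/-- **`ChartHyp` for the chart of `j⁻¹`**, from `hG` and `hthree`. -/
theorem chartHyp_chartInf' (i₀ : Fin 3)
    (hG : ∀ p : (↥(Kur A))[X],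
      aeval (j0 A (M * q * q)) p ∈ (totM A q M B k hB hq hqM hA ht).V i₀ →
        ∀ i, p.coeff i ∈ (algebraMap ↥(Rur A) ↥(Kur A)).range)
    (hthree : ∀ f : ↥(L0 A (M * q * q)),
      (∀ i, f ∈ (totM A q M B k hB hq hqM hA ht).V i) →
      ∃ P : (↥(L0 A (M * q * q)))[X], P.Monic ∧
        (∀ m, P.coeff m ∈ (totM A q M B k hB hq hqM hA ht).V i₀ ∧
          P.coeff m ∈ (↥(Kur A))⟮j0 A (M * q * q)⟯) ∧ P.eval f = 0)
    (n : ℕ) (hn : 0 < n) (hcop : Nat.Coprime n q) :
    ChartHyp (chartInf A q M B k hB hq hqM hA ht) q n :=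
  chartHyp_chartInf A q M B k hB hq hqM hA ht n hn hcop
    (jdd_mem_intSub A q M B k hB hq hqM hA ht i₀ hG hthree)

/-! ### The instances, for the charts -/

include hq hA in
theorem isNoetherianRing_chart0_B :
    IsNoetherianRing ↥(chart0 A q M B k hB hq hqM hA ht).B :=
  isNoetherianRing_chart0 A q M hq hA

theorem isFractionRing_chart0_B :
    IsFractionRing ↥(chart0 A q M B k hB hq hqM hA ht).B ↥(L0 A (M * q * q)) :=
  isFractionRing_chart0 A q M

include hq hA in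
theorem isNoetherianRing_chartInf_B :
    IsNoetherianRing ↥(chartInf A q M B k hB hq hqM hA ht).B :=
  isNoetherianRing_chartInf A q M hq hA

theorem isFractionRing_chartInf_B :
    IsFractionRing ↥(chartInf A q M B k hB hq hqM hA ht).B ↥(L0 A (M * q * q)) :=
  isFractionRing_chartInf A q M

end Jdd

end Fermat.Agent.S36.NU.H88
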