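import Fermat.Agent.S36.NU.H17_NormalQ23
import Fermat.Agent.S36.NU.H88_ChartInt

/-!
# S36, NU-B, `hbr` chart 0 (helper22 for helper17): the two integrality transfers

For `f ∈ L₀(M)` which is integral for `K^ur[X] → ℚ̄[X] → F_M`, `X ↦ j` (the third conjunct of
`H17.normalImg_tame`):

* `isIntegral_incl`  : **(A1)** `incl f ∈ L₀(M q²)` is integral over `K^ur[j]`;
* `isIntegral_incBB` : **(A2)** `f'' = f(t^{q²}) ∈ L₀(M q²)` is integral over `K^ur[j]`
  (via `j''`, which is integral over `K^ur[j]`: `H88.isIntegral_jdd`).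
-/

set_option autoImplicit false
set_option synthInstance.maxHeartbeats 400000
set_option maxHeartbeats 1000000
set_option linter.unusedSectionVars false
set_option linter.style.haveILetI false

noncomputable section

open IntermediateField ModularCurve AlgebraicCurve Polynomial
open Fermat.Agent.S24 Fermat.Agent.BAD.H88 Fermat.Agent.S28 Fermat.Agent.S28.H73
open Fermat.Agent.RED.H73 Fermat.Agent.RED.H17

namespace Fermat.Agent.S36.NU.H22

open Fermat.Agent.S36.NU.H17 Fermat.Agent.S36.NU.H88 Fermat.Agent.S36.NU.H23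
  Fermat.Agent.S36.NU.H41

section IntTransfer

variable (A : ValuationSubring Kbar) (q M : ℕ) [NeZero M] [NeZero q] [NeZero (M * q * q)]

/-- Transport of `IsIntegralElem` (for `K^ur[X] → ℚ̄[X] → F_M`, `X ↦ x`) along a `ℚ̄`-algebra
homomorphism `φ : F_M → F_N`: the image is integral for `X ↦ φ x`. -/
theorem isIntegralElem_map_algHom {N : ℕ} (φ : FN M →ₐ[Kbar] FN N) (x f : FN M)
    (hint : ((aeval x : Kbar[X] →ₐ[Kbar] FN M).toRingHom.comp
        (mapRingHom (iotaUr A))).IsIntegralElem f) :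
    ((aeval (φ x) : Kbar[X] →ₐ[Kbar] FN N).toRingHom.comp
        (mapRingHom (iotaUr A))).IsIntegralElem (φ f) := by
  obtain ⟨P, hP, hPf⟩ := hint
  refine ⟨P, hP, ?_⟩
  have h1 : (aeval (φ x) : Kbar[X] →ₐ[Kbar] FN N) = φ.comp (aeval x) := by
    apply Polynomial.algHom_ext
    rw [AlgHom.comp_apply, aeval_X, aeval_X]
  have key : (aeval (φ x) : Kbar[X] →ₐ[Kbar] FN N).toRingHom.comp (mapRingHom (iotaUr A))
      = (φ : FN M →+* FN N).comp
          ((aeval x : Kbar[X] →ₐ[Kbar] FN M).toRingHom.comp (mapRingHom (iotaUr A))) := by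
    rw [h1]
    rfl
  rw [key]
  have h2 := Polynomial.hom_eval₂ P
    ((aeval x : Kbar[X] →ₐ[Kbar] FN M).toRingHom.comp (mapRingHom (iotaUr A)))
    (φ : FN M →+* FN N) f
  rw [hPf, map_zero] at h2
  exact h2.symm

/-- **(A1)** `incl f` is integral over `K^ur[j]` inside `L₀(M q²)`. -/
theorem isIntegral_incl (f : FN M) (hf : f ∈ L0 A M)
    (hint : ((aeval (Fermat.Agent.RED.H73.jF (L := Kbar) M) : Kbar[X] →ₐ[Kbar] FN M).toRingHom.comp
        (mapRingHom (iotaUr A))).IsIntegralElem f) :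
    IsIntegral ↥(Algebra.adjoin ↥(Kur A) {j0 A (M * q * q)})
      (inclL0 A (hleMN q M) ⟨f, hf⟩) := by
  refine isIntegral_adjoin_of_isIntegralElem A (M * q * q) (j0 A (M * q * q))
    (inclL0 A (hleMN q M) ⟨f, hf⟩) ?_
  have h := isIntegralElem_map_algHom A M (incAA q M) _ f hint
  have hj : incAA q M (Fermat.Agent.RED.H73.jF (L := Kbar) M)
      = ((j0 A (M * q * q) : ↥(L0 A (M * q * q))) : FN (M * q * q)) := by
    rw [← Fermat.Agent.RED.H76.jF_eq, ← jdF_one_eq_jF M, incAA_jdF_one, coe_j0']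
  rw [hj] at h
  rw [coe_inclL0_eq_incAA]
  exact h

/-- `f'' = f(t^{q²})` is integral over `K^ur[j'']` inside `L₀(M q²)`. -/
theorem isIntegral_incBB_jdd (f : FN M) (hf : f ∈ L0 A M)
    (hint : ((aeval (Fermat.Agent.RED.H73.jF (L := Kbar) M) : Kbar[X] →ₐ[Kbar] FN M).toRingHom.comp
        (mapRingHom (iotaUr A))).IsIntegralElem f) :
    IsIntegral ↥(Algebra.adjoin ↥(Kur A) {jdd A q M})
      (⟨incBB q M f, incBB_mem_L0 A q M f hf⟩ : ↥(L0 A (M * q * q))) := by
  refine isIntegral_adjoin_of_isIntegralElem A (M * q * q) (jdd A q M)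
    ⟨incBB q M f, incBB_mem_L0 A q M f hf⟩ ?_
  have h := isIntegralElem_map_algHom A M (incBB q M) _ f hint
  haveI : NeZero (q * q) := ⟨mul_ne_zero (NeZero.ne q) (NeZero.ne q)⟩
  have hj : incBB q M (Fermat.Agent.RED.H73.jF (L := Kbar) M)
      = ((jdd A q M : ↥(L0 A (M * q * q))) : FN (M * q * q)) := by
    rw [← Fermat.Agent.RED.H76.jF_eq, ← jdF_one_eq_jF M, incBB_jdF_one q M (sq_dvd_lvl q M),
      coe_jdd]
  rw [hj] at h
  exact h

/-- **(A2)** `f'' = f(t^{q²})` is integral over `K^ur[j]` inside `L₀(M q²)`. -/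
theorem isIntegral_incBB (f : FN M) (hf : f ∈ L0 A M)
    (hint : ((aeval (Fermat.Agent.RED.H73.jF (L := Kbar) M) : Kbar[X] →ₐ[Kbar] FN M).toRingHom.comp
        (mapRingHom (iotaUr A))).IsIntegralElem f) :
    IsIntegral ↥(Algebra.adjoin ↥(Kur A) {j0 A (M * q * q)})
      (⟨incBB q M f, incBB_mem_L0 A q M f hf⟩ : ↥(L0 A (M * q * q))) :=
  isIntegral_adjoin_trans (E := ↥(Kur A)) (F := ↥(L0 A (M * q * q))) (jdd A q M)
    (j0 A (M * q * q)) (isIntegral_jdd A q M) (isIntegral_incBB_jdd A q M f hf hint)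

end IntTransfer

end Fermat.Agent.S36.NU.H22
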