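import Fermat.Agent.S36.NU.H28_RadQMod
import Fermat.Agent.S36.NU.H22_IntTransfer
import Fermat.Agent.S36.NU.H17_BranchLoc
import Fermat.Agent.RED.H73_GAFinal

/-!
# S36 / NU-B, (L2-iv) modular wiring (helper17): the branches of the chart of `j`

Level `N = M q²`, `q ∤ M` tame; `chart0` = the chart of `j` (helper88), `B = ` the integral
closure of `R^ur[j]` in the inertia-fixed functions of level `N`.

* `jbar A M` : the reduction of `j` at the good level `M`; `κ / k(j̄)` is finite separable;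
* `branch_chart0` : **every closed point of the special fibre of `chart0` has a branch on every
  component through it** (the hypothesis `hbr` of `H99.pointData_of_dichotomy`), by
  `H24.branch_of_normal`: the lift of `y`, integral over `k[j̄]`, is `incl f` on the components
  `20`, `11` and `f(q²τ)` on the component `02`, `f` from `H17.normalImg_tame`; it is integral over
  `K^ur[j]` (helper22) and lies in the three valuation rings, hence in `B` (helper28 `crit0`).
-/

set_option autoImplicit false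
set_option synthInstance.maxHeartbeats 400000
set_option maxHeartbeats 1000000
set_option linter.style.haveILetI false
set_option linter.unusedSectionVars false

noncomputable section

open ModularCurve AlgebraicCurve Polynomial IntermediateField
open Fermat.Agent.S24 Fermat.Agent.BAD.H88 Fermat.Agent.S28 Fermat.Agent.S28.H73
open Fermat.Agent.RED.H73 Fermat.Agent.RED.H17 Fermat.Agent.S36.NU.H88
open Fermat.Agent.S36.NU.H23 Fermat.Agent.S36.NU.H41
open Fermat.Agent.S36.NU.H16 Fermat.Agent.S36.NU.H65 Fermat.Agent.BAD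

namespace Fermat.Agent.S36.NU.H17

section Jbar

variable (A : ValuationSubring Kbar) (M : ℕ) [NeZero M]

/-- The reduction of `j` at the level `M`. -/
def jbar : FM A M := redM A M ⟨Fermat.Agent.RED.H73.jF (L := Kbar) M, jF_mem A M⟩

theorem coe_jbar : ((jbar A M : FM A M) : LaurentSeries (kV A)) = jqModC (kV A) :=
  red_jF A M

theorem Jred_eq_jqModC' : H88.Jred A = jqModC (kV A) := by
  unfold H88.Jred H88.jInt
  rw [qExpand_one_apply, coeffMap_jqModC]

variable {q : ℕ} (hq : q.Prime) (hqM : ¬ q ∣ M) (hA : A.LiesOverPrime q)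

include hq hqM hA in
theorem finiteDimensional_jbar : FiniteDimensional ↥(kV A)⟮jbar A M⟯ (FM A M) := by
  obtain ⟨-, h2, -, h4, -⟩ := goodChart_pre M q hq hqM A hA
  have hpos : 0 < Module.finrank ↥(kV A)⟮jbar A M⟯ (FM A M) := by
    have h5 : Module.finrank ↥(kV A)⟮jbar A M⟯ (FM A M)
        = Module.finrank ↥(Kbar⟮Fermat.Agent.RED.H73.jF (L := Kbar) M⟯)
            ↥(laurentBaseChange Kbar (modularFunctionFieldFull M)) := h4
    rw [h5]
    exact Module.finrank_pos
  exact Module.finite_of_finrank_pos hpos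

include hq hqM hA in
theorem isSeparable_jbar : Algebra.IsSeparable ↥(kV A)⟮jbar A M⟯ (FM A M) :=
  (goodChart_pre M q hq hqM A hA).2.2.2.2

end Jbar

section Lifts

variable (A : ValuationSubring Kbar) (q M : ℕ) (B k : ℤ) (hB : B * M + k * q = 1) (hq : q.Prime)
  [NeZero M] [NeZero q] [NeZero (M * q * q)] (hqM : ¬ q ∣ M) (hA : A.LiesOverPrime q)
  (ht : H91.TameAt M q)

attribute [local instance] algkM

/-- The lift `incl f` of a function of the good level lies in `B`. -/
theorem incl_mem_chart0 (f : FN M) (hf : f ∈ L0 A M) (hV : f ∈ VM A M)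
    (hint : ((aeval (Fermat.Agent.RED.H73.jF (L := Kbar) M) : Kbar[X] →ₐ[Kbar] FN M).toRingHom.comp
        (mapRingHom (iotaUr A))).IsIntegralElem f) :
    inclL0 A (hleMN q M) ⟨f, hf⟩ ∈ (chart0 A q M B k hB hq hqM hA ht).B := by
  refine H28.crit0 A q M B k hB hq hqM hA ht (H22.isIntegral_incl A q M f hf hint) ?_
  intro i
  fin_cases i
  · exact hVE20 A q M ⟨f, hf⟩ hV
  · exact hVE11 A q M B k hB hq ⟨f, hf⟩ hV
  · exact hVE02 A q M B k hB hq ⟨f, hf⟩ hV

/-- The lift `f(q²τ)` of a function of the good level lies in `B`. -/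
theorem incBB_mem_chart0 (f : FN M) (hf : f ∈ L0 A M) (hV : f ∈ VM A M)
    (hint : ((aeval (Fermat.Agent.RED.H73.jF (L := Kbar) M) : Kbar[X] →ₐ[Kbar] FN M).toRingHom.comp
        (mapRingHom (iotaUr A))).IsIntegralElem f) :
    (⟨incBB q M f, incBB_mem_L0 A q M f hf⟩ : ↥(L0 A (M * q * q)))
      ∈ (chart0 A q M B k hB hq hqM hA ht).B := by
  refine H28.crit0 A q M B k hB hq hqM hA ht (H22.isIntegral_incBB A q M f hf hint) ?_
  intro i
  fin_cases i
  · exact (incBB_mem_V20_iff A q M f).mpr hV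
  · exact (incBB_mem_V11_iff A q M B k hB hq f).mpr hV
  · exact (incBB_mem_V02_iff A q M B k hB hq f).mpr hV

end Lifts

section Branch0

variable (A : ValuationSubring Kbar) (q M : ℕ) (B k : ℤ) (hB : B * M + k * q = 1) (hq : q.Prime)
  [NeZero M] [NeZero q] [NeZero (M * q * q)] (hqM : ¬ q ∣ M) (hA : A.LiesOverPrime q)
  (ht : H91.TameAt M q)

attribute [local instance] algkM

theorem j0_mem_chart0 : j0 A (M * q * q) ∈ (chart0 A q M B k hB hq hqM hA ht).B :=
  self_mem_intSub _ _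

/-- The reduction of `j` on the components `20`, `11`. -/
theorem r20_j0_eq (h : j0 A (M * q * q) ∈ V20o A q M) :
    r20 A q M hq hqM hA ⟨_, h⟩ = jbar A M := by
  apply Subtype.ext
  rw [coe_r20, s20_j0, coe_jbar, Jred_eq_jqModC']

theorem r11_j0_eq (h : j0 A (M * q * q) ∈ V11o A q M B k hB hq) :
    r11 A q M B k hB hq hqM hA ⟨_, h⟩ = jbar A M := by
  apply Subtype.ext
  rw [coe_r11, s11_j0, coe_jbar, Jred_eq_jqModC']

/-- The reduction of `j` on the component `02` is `j̄ ^ q²`. -/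
theorem r02_j0_eq (h : j0 A (M * q * q) ∈ V02o A q M B k hB) :
    r02 A q M B k hB hq hqM hA ⟨_, h⟩ = jbar A M ^ q ^ 2 := by
  apply Subtype.ext
  rw [coe_r02, s02_j0 A q M B k hB hq, ← Jred_pow A q hq hA]
  have h1 : ((jbar A M ^ q ^ 2 : FM A M) : LaurentSeries (kV A))
      = ((jbar A M : FM A M) : LaurentSeries (kV A)) ^ q ^ 2 := rfl
  rw [h1, coe_jbar, Jred_eq_jqModC']

theorem isIntegral_self_adjoin {k' κ' : Type*} [Field k'] [Field κ'] [Algebra k' κ'] (t : κ') :
    IsIntegral ↥(Algebra.adjoin k' ({t} : Set κ')) t :=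
  isIntegral_of_mem_adjoin (Algebra.subset_adjoin rfl)

/-- **Branches on the component `20`.** -/
theorem branch_chart0_zero (𝔪 : Ideal (chart0 A q M B k hB hq hqM hA ht).B) (hmax : 𝔪.IsMaximal)
    (h𝔪 : (chart0 A q M B k hB hq hqM hA ht).Icomp 0 ≤ 𝔪) :
    Nonempty (Branch (chart0 A q M B k hB hq hqM hA ht) 𝔪 0) := by
  haveI : IsAlgClosed (kV A) := isAlgClosed_kV A
  refine @H24.branch_of_normal _ _ _ _ _ _ _ _ _ _ _ _ (chart0 A q M B k hB hq hqM hA ht) 0
    (j0 A (M * q * q)) (j0_mem_chart0 A q M B k hB hq hqM hA ht) (fun β => β.2) (jbar A M)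
    (finiteDimensional_jbar A M hq hqM hA) (isSeparable_jbar A M hq hqM hA) ?_ ?_ 𝔪 hmax h𝔪
  · have e : (chart0 A q M B k hB hq hqM hA ht).rdB 0
        ⟨j0 A (M * q * q), j0_mem_chart0 A q M B k hB hq hqM hA ht⟩ = jbar A M :=
      r20_j0_eq A q M hq hqM hA _
    rw [e]
    exact isIntegral_self_adjoin _
  · intro y hy
    obtain ⟨f, hf, -, hint, hV, hred⟩ :=
      normalImg_tame A M hq hA hqM ht _ rfl (jF_mem A M) y hy
    refine ⟨⟨_, incl_mem_chart0 A q M B k hB hq hqM hA ht f hf hV hint⟩, ?_⟩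
    have e : (chart0 A q M B k hB hq hqM hA ht).rdB 0
        ⟨_, incl_mem_chart0 A q M B k hB hq hqM hA ht f hf hV hint⟩ = redM A M ⟨f, hV⟩ :=
      r20_incl A q M hq hqM hA ⟨⟨f, hf⟩, hV⟩ _
    rw [e, hred]

/-- **Branches on the component `11`.** -/
theorem branch_chart0_one (𝔪 : Ideal (chart0 A q M B k hB hq hqM hA ht).B) (hmax : 𝔪.IsMaximal)
    (h𝔪 : (chart0 A q M B k hB hq hqM hA ht).Icomp 1 ≤ 𝔪) :
    Nonempty (Branch (chart0 A q M B k hB hq hqM hA ht) 𝔪 1) := by
  haveI : IsAlgClosed (kV A) := isAlgClosed_kV A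
  refine @H24.branch_of_normal _ _ _ _ _ _ _ _ _ _ _ _ (chart0 A q M B k hB hq hqM hA ht) 1
    (j0 A (M * q * q)) (j0_mem_chart0 A q M B k hB hq hqM hA ht) (fun β => β.2) (jbar A M)
    (finiteDimensional_jbar A M hq hqM hA) (isSeparable_jbar A M hq hqM hA) ?_ ?_ 𝔪 hmax h𝔪
  · have e : (chart0 A q M B k hB hq hqM hA ht).rdB 1
        ⟨j0 A (M * q * q), j0_mem_chart0 A q M B k hB hq hqM hA ht⟩ = jbar A M :=
      r11_j0_eq A q M B k hB hq hqM hA _
    rw [e]
    exact isIntegral_self_adjoin _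
  · intro y hy
    obtain ⟨f, hf, -, hint, hV, hred⟩ :=
      normalImg_tame A M hq hA hqM ht _ rfl (jF_mem A M) y hy
    refine ⟨⟨_, incl_mem_chart0 A q M B k hB hq hqM hA ht f hf hV hint⟩, ?_⟩
    have e : (chart0 A q M B k hB hq hqM hA ht).rdB 1
        ⟨_, incl_mem_chart0 A q M B k hB hq hqM hA ht f hf hV hint⟩ = redM A M ⟨f, hV⟩ :=
      r11_incl A q M B k hB hq hqM hA ⟨⟨f, hf⟩, hV⟩ _
    rw [e, hred]

/-- **Branches on the component `02`.** -/
theorem branch_chart0_two (𝔪 : Ideal (chart0 A q M B k hB hq hqM hA ht).B) (hmax : 𝔪.IsMaximal)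
    (h𝔪 : (chart0 A q M B k hB hq hqM hA ht).Icomp 2 ≤ 𝔪) :
    Nonempty (Branch (chart0 A q M B k hB hq hqM hA ht) 𝔪 2) := by
  haveI : IsAlgClosed (kV A) := isAlgClosed_kV A
  refine @H24.branch_of_normal _ _ _ _ _ _ _ _ _ _ _ _ (chart0 A q M B k hB hq hqM hA ht) 2
    (j0 A (M * q * q)) (j0_mem_chart0 A q M B k hB hq hqM hA ht) (fun β => β.2) (jbar A M)
    (finiteDimensional_jbar A M hq hqM hA) (isSeparable_jbar A M hq hqM hA) ?_ ?_ 𝔪 hmax h𝔪
  · have e : (chart0 A q M B k hB hq hqM hA ht).rdB 2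
        ⟨j0 A (M * q * q), j0_mem_chart0 A q M B k hB hq hqM hA ht⟩ = jbar A M ^ q ^ 2 :=
      r02_j0_eq A q M B k hB hq hqM hA _
    rw [e]
    exact (isIntegral_self_adjoin _).pow _
  · intro y hy
    obtain ⟨f, hf, -, hint, hV, hred⟩ :=
      normalImg_tame A M hq hA hqM ht _ rfl (jF_mem A M) y hy
    refine ⟨⟨_, incBB_mem_chart0 A q M B k hB hq hqM hA ht f hf hV hint⟩, ?_⟩
    have e : (chart0 A q M B k hB hq hqM hA ht).rdB 2
        ⟨_, incBB_mem_chart0 A q M B k hB hq hqM hA ht f hf hV hint⟩ = redM A M ⟨f, hV⟩ :=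
      r02_incBB A q M B k hB hq hqM hA ⟨⟨f, hf⟩, hV⟩
    rw [e, hred]

/-- **(L2-iv) `hbr` for the chart of `j`**: every closed point of the special fibre has a branch
on every component through it. -/
theorem branch_chart0 :
    ∀ 𝔪 : Ideal (chart0 A q M B k hB hq hqM hA ht).B, 𝔪.IsMaximal →
      ∀ i, (chart0 A q M B k hB hq hqM hA ht).Icomp i ≤ 𝔪 →
        Nonempty (Branch (chart0 A q M B k hB hq hqM hA ht) 𝔪 i) := by
  intro 𝔪 hmax i hi
  fin_cases i
  · exact branch_chart0_zero A q M B k hB hq hqM hA ht 𝔪 hmax hi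
  · exact branch_chart0_one A q M B k hB hq hqM hA ht 𝔪 hmax hi
  · exact branch_chart0_two A q M B k hB hq hqM hA ht 𝔪 hmax hi

end Branch0

end Fermat.Agent.S36.NU.H17
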