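import Mathlib

/-!
# S36 / NU-B, leaf TI3-FIN (helper17): the two charts `R[j]`, `R[1/j]` and the modules `M₀`, `M_∞`

`R` a domain, `F` a field containing `R`, `j ∈ F`, `h ∈ F`, `n ≥ 1`.

* `isIntegral_of_monic_coeff_mem` : integrality over a subalgebra from a monic polynomial of
  `F[X]` with coefficients in the subalgebra;
* `exists_pow_inv_mul_isIntegral` : **change of chart**: if `f` is integral over `R[j]` then
  `j⁻ᵉ f` is integral over `R[1/j]` for all large `e`;
* `MInt R j h n hn` : the `R[j]`-submodule `M₀ = {s | h sⁿ integral over R[j]}` of `F`;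
  `mul_mem_MInt` : it is a module over the integral closure of `R[j]`;
* `exists_pow_inv_mul_mem_MInt` : `M₀ ⊆ ⋃ jᵉ M_∞` (and, with `j⁻¹` for `j`, `M_∞ ⊆ ⋃ j⁻ᵉ M₀`);
* `MInt_fg` : `M₀` is a finitely generated `R[j]`-module (`R[j]` noetherian and integrally
  closed, `F` finite separable over `Frac R[j]`).
-/

set_option autoImplicit false
set_option linter.style.haveILetI false
set_option linter.unusedSectionVars false

noncomputable section

open Polynomial

namespace Fermat.Agent.S36.NU.H17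

section Generic

variable {R F : Type*} [CommRing R] [Field F] [Algebra R F]

/-- Integrality over a subalgebra from a monic polynomial with coefficients in it. -/
theorem isIntegral_of_monic_coeff_mem (A : Subalgebra R F) (x : F) (P : F[X]) (hP : P.Monic)
    (hc : ∀ i, P.coeff i ∈ A) (hx : P.eval x = 0) : IsIntegral A x := by
  have hl : P ∈ Polynomial.lifts (algebraMap A F) := by
    rw [Polynomial.lifts_iff_coeff_lifts]
    intro i
    exact ⟨⟨P.coeff i, hc i⟩, rfl⟩
  obtain ⟨Q, hQ, -, hQm⟩ := Polynomial.lifts_and_degree_eq_and_monic hl hP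
  refine ⟨Q, hQm, ?_⟩
  rw [← Polynomial.eval_map, hQ, hx]

/-- Conversely. -/
theorem exists_monic_coeff_mem (A : Subalgebra R F) {x : F} (hx : IsIntegral A x) :
    ∃ P : F[X], P.Monic ∧ (∀ i, P.coeff i ∈ A) ∧ P.eval x = 0 := by
  obtain ⟨Q, hQm, hQ⟩ := hx
  refine ⟨Q.map (algebraMap A F), hQm.map _, fun i => ?_, ?_⟩
  · rw [Polynomial.coeff_map]
    exact (Q.coeff i).2
  · rw [Polynomial.eval_map]
    exact hQ

/-- `P(j) j⁻ᵐ ∈ R[1/j]` for `m ≥ deg P`. -/
theorem aeval_mul_inv_pow_mem {j : F} (hj : j ≠ 0) (Q : R[X]) {m : ℕ} (hm : Q.natDegree ≤ m) :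
    aeval j Q * j⁻¹ ^ m ∈ Algebra.adjoin R {j⁻¹} := by
  letI : Invertible j := invertibleOfNonzero hj
  have h := Polynomial.eval₂_reflect_mul_pow (algebraMap R F) j m Q hm
  have e : aeval j Q * j⁻¹ ^ m = aeval j⁻¹ (Polynomial.reflect m Q) := by
    rw [aeval_def, aeval_def, ← h, invOf_eq_inv, mul_assoc, ← mul_pow, mul_inv_cancel₀ hj,
      one_pow, mul_one]
  rw [e, Algebra.adjoin_singleton_eq_range_aeval]
  exact ⟨_, rfl⟩

/-- Elements of `R[j]` times `j⁻ᵐ`, `m` large, lie in `R[1/j]`. -/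
theorem exists_mul_inv_pow_mem {j : F} (hj : j ≠ 0) {a : F} (ha : a ∈ Algebra.adjoin R {j}) :
    ∃ m₀ : ℕ, ∀ m ≥ m₀, a * j⁻¹ ^ m ∈ Algebra.adjoin R {j⁻¹} := by
  rw [Algebra.adjoin_singleton_eq_range_aeval] at ha
  obtain ⟨Q, rfl⟩ := ha
  exact ⟨Q.natDegree, fun m hm => aeval_mul_inv_pow_mem hj Q hm⟩

/-- **Change of chart**: if `f` is integral over `R[j]` then `j⁻ᵉ f` is integral over
`R[1/j]` for all large `e`. -/
theorem exists_pow_inv_mul_isIntegral {j : F} (hj : j ≠ 0) {f : F}
    (hf : IsIntegral (Algebra.adjoin R {j}) f) :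
    ∃ e₀ : ℕ, ∀ e ≥ e₀, IsIntegral (Algebra.adjoin R {j⁻¹}) (j⁻¹ ^ e * f) := by
  classical
  obtain ⟨P, hPm, hPc, hPx⟩ := exists_monic_coeff_mem _ hf
  -- a common bound for the coefficients
  have hex : ∀ i, ∃ m₀ : ℕ, ∀ m ≥ m₀, P.coeff i * j⁻¹ ^ m ∈ Algebra.adjoin R {j⁻¹} :=
    fun i => exists_mul_inv_pow_mem hj (hPc i)
  choose m₀ hm₀ using hex
  refine ⟨(Finset.range (P.natDegree + 1)).sup m₀, fun e he => ?_⟩
  refine isIntegral_of_monic_coeff_mem _ _ (P.scaleRoots (j⁻¹ ^ e))
    ((Polynomial.monic_scaleRoots_iff _).mpr hPm) (fun i => ?_) ?_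
  · rw [Polynomial.coeff_scaleRoots]
    by_cases hi : i < P.natDegree
    · rw [← pow_mul]
      apply hm₀
      have h1 : m₀ i ≤ (Finset.range (P.natDegree + 1)).sup m₀ :=
        Finset.le_sup (f := m₀) (Finset.mem_range.mpr (by omega))
      have h2 : e ≤ e * (P.natDegree - i) := Nat.le_mul_of_pos_right _ (by omega)
      omega
    · rcases Nat.lt_or_ge P.natDegree i with h | h
      · rw [Polynomial.coeff_eq_zero_of_natDegree_lt h, zero_mul]
        exact zero_mem _
      · have hi' : i = P.natDegree := by omega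
        subst hi'
        rw [Nat.sub_self, pow_zero, mul_one, Polynomial.coeff_natDegree, hPm.leadingCoeff]
        exact one_mem _
  · have := Polynomial.scaleRoots_eval_mul P f (j⁻¹ ^ e)
    rw [this, hPx, mul_zero]

end Generic

section Module

variable (R : Type*) {F : Type*} [CommRing R] [Field F] [Algebra R F] (j h : F) (n : ℕ)
  (hn : 0 < n)

/-- `M₀ = {s | h sⁿ integral over R[j]}`, an `R[j]`-submodule of `F`. -/
def MInt : Submodule ↥(Algebra.adjoin R {j}) F where
  carrier := {s | IsIntegral ↥(Algebra.adjoin R {j}) (h * s ^ n)}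
  zero_mem' := by
    show IsIntegral ↥(Algebra.adjoin R {j}) (h * 0 ^ n)
    rw [zero_pow hn.ne', mul_zero]
    exact isIntegral_zero
  add_mem' := by
    intro s s' hs hs'
    show IsIntegral ↥(Algebra.adjoin R {j}) (h * (s + s') ^ n)
    rw [add_pow, Finset.mul_sum]
    refine IsIntegral.sum _ fun m hm => ?_
    have hmn : m ≤ n := Nat.lt_succ_iff.mp (Finset.mem_range.mp hm)
    have e : h * (s ^ m * s' ^ (n - m) * (n.choose m : F))
        = (h * s ^ m * s' ^ (n - m)) * (n.choose m : F) := by ring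
    rw [e]
    refine IsIntegral.mul ?_ (isIntegral_natCast _)
    refine IsIntegral.of_pow hn ?_
    have e2 : (h * s ^ m * s' ^ (n - m)) ^ n = (h * s ^ n) ^ m * (h * s' ^ n) ^ (n - m) := by
      have : h ^ n = h ^ m * h ^ (n - m) := by rw [← pow_add, Nat.add_sub_cancel' hmn]
      rw [mul_pow, mul_pow, mul_pow, mul_pow, this, ← pow_mul, ← pow_mul, ← pow_mul, ← pow_mul,
        mul_comm m n, mul_comm (n - m) n]
      ring
    rw [e2]
    exact (hs.pow m).mul (hs'.pow (n - m))
  smul_mem' := by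
    intro a s hs
    show IsIntegral ↥(Algebra.adjoin R {j}) (h * (a • s) ^ n)
    have e : h * (a • s) ^ n = (algebraMap ↥(Algebra.adjoin R {j}) F a) ^ n * (h * s ^ n) := by
      rw [Algebra.smul_def, mul_pow]
      ring
    rw [e]
    exact (isIntegral_algebraMap.pow n).mul hs

theorem mem_MInt {s : F} :
    s ∈ MInt R j h n hn ↔ IsIntegral ↥(Algebra.adjoin R {j}) (h * s ^ n) := Iff.rfl

/-- `M₀` is a module over the integral closure of `R[j]`. -/
theorem mul_mem_MInt {b s : F} (hb : IsIntegral ↥(Algebra.adjoin R {j}) b)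
    (hs : s ∈ MInt R j h n hn) : b * s ∈ MInt R j h n hn := by
  rw [mem_MInt] at hs ⊢
  have e : h * (b * s) ^ n = b ^ n * (h * s ^ n) := by
    rw [mul_pow]
    ring
  rw [e]
  exact (hb.pow n).mul hs

/-- `j M₀ ⊆ M₀`. -/
theorem gen_mul_mem_MInt {s : F} (hs : s ∈ MInt R j h n hn) : j * s ∈ MInt R j h n hn := by
  refine mul_mem_MInt R j h n hn ?_ hs
  exact isIntegral_algebraMap (R := ↥(Algebra.adjoin R {j})) (A := F)
    (x := ⟨j, Algebra.self_mem_adjoin_singleton R j⟩)

/-- Elements of `M₀` are not `0`-divisible in the wrong way: if `h sⁿ` is integral over `R[j]`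
then `s ∈ M₀` (restatement), and `s ∈ M₀` iff `sⁿ ∈ h⁻¹ B₀`. -/
theorem mem_MInt_of_pow {s : F} (hh : h ≠ 0) {b : F}
    (hb : IsIntegral ↥(Algebra.adjoin R {j}) b) (hs : s ^ n = h⁻¹ * b) :
    s ∈ MInt R j h n hn := by
  rw [mem_MInt, hs, ← mul_assoc, mul_inv_cancel₀ hh, one_mul]
  exact hb

/-- **Change of chart** for `M₀`: `M₀ ⊆ ⋃ jᵉ M_∞`. -/
theorem exists_pow_inv_mul_mem_MInt (hj : j ≠ 0) {s : F} (hs : s ∈ MInt R j h n hn) :
    ∃ e₀ : ℕ, ∀ e ≥ e₀, j⁻¹ ^ e * s ∈ MInt R j⁻¹ h n hn := by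
  obtain ⟨e₀, he₀⟩ := exists_pow_inv_mul_isIntegral hj hs
  refine ⟨e₀, fun e he => ?_⟩
  rw [mem_MInt]
  have e1 : h * (j⁻¹ ^ e * s) ^ n = j⁻¹ ^ (e * n) * (h * s ^ n) := by
    rw [mul_pow, ← pow_mul]
    ring
  rw [e1]
  apply he₀
  have : e ≤ e * n := Nat.le_mul_of_pos_right _ hn
  omega

/-- **Change of chart**, other direction: `M_∞ ⊆ ⋃ j⁻ᵉ M₀`. -/
theorem exists_pow_mul_mem_MInt (hj : j ≠ 0) {s : F} (hs : s ∈ MInt R j⁻¹ h n hn) :
    ∃ e₀ : ℕ, ∀ e ≥ e₀, j ^ e * s ∈ MInt R j h n hn := by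
  obtain ⟨e₀, he₀⟩ := exists_pow_inv_mul_mem_MInt R j⁻¹ h n hn (inv_ne_zero hj) hs
  refine ⟨e₀, fun e he => ?_⟩
  have := he₀ e he
  rw [inv_inv] at this
  exact this

end Module

section Finite

variable (R : Type*) {F : Type*} [CommRing R] [Field F] [Algebra R F] (j h : F) (n : ℕ)
  (hn : 0 < n)

/-- **Finiteness**: `M₀` is a finitely generated `R[j]`-module, when `R[j]` is noetherian and
integrally closed and `F` is a finite separable extension of `L = Frac R[j]`. -/
theorem MInt_fg [IsNoetherianRing ↥(Algebra.adjoin R {j})]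
    [IsIntegrallyClosed ↥(Algebra.adjoin R {j})]
    (L : Type*) [Field L] [Algebra ↥(Algebra.adjoin R {j}) L]
    [IsFractionRing ↥(Algebra.adjoin R {j}) L] [Algebra L F]
    [IsScalarTower ↥(Algebra.adjoin R {j}) L F] [FiniteDimensional L F]
    [Algebra.IsSeparable L F] (hh : h ≠ 0) :
    (MInt R j h n hn).FG := by
  have hfin : Module.Finite ↥(Algebra.adjoin R {j})
      ↥(integralClosure ↥(Algebra.adjoin R {j}) F) :=
    IsIntegralClosure.finite ↥(Algebra.adjoin R {j}) L F _
  have hnoeth : IsNoetherian ↥(Algebra.adjoin R {j})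
      ↥(integralClosure ↥(Algebra.adjoin R {j}) F) :=
    isNoetherian_of_isNoetherianRing_of_finite _ _
  -- a denominator
  obtain ⟨a, ha0, ha⟩ := exists_integral_multiples ↥(Algebra.adjoin R {j}) L
    ({h⁻¹} : Finset F)
  have hah : IsIntegral ↥(Algebra.adjoin R {j}) (a • h⁻¹) := ha _ (Finset.mem_singleton_self _)
  have haF : algebraMap ↥(Algebra.adjoin R {j}) F a ≠ 0 := by
    intro h0
    apply ha0
    have hinj : Function.Injective (algebraMap ↥(Algebra.adjoin R {j}) F) :=
      Subtype.val_injective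
    exact hinj (by rw [h0, map_zero])
  have hint : ∀ s ∈ MInt R j h n hn,
      IsIntegral ↥(Algebra.adjoin R {j}) (algebraMap ↥(Algebra.adjoin R {j}) F a * s) := by
    intro s hs
    refine IsIntegral.of_pow hn ?_
    have e : (algebraMap ↥(Algebra.adjoin R {j}) F a * s) ^ n
        = (algebraMap ↥(Algebra.adjoin R {j}) F a) ^ (n - 1) * (a • h⁻¹) * (h * s ^ n) := by
      rw [Algebra.smul_def, mul_pow]
      have : (algebraMap ↥(Algebra.adjoin R {j}) F a) ^ n
          = (algebraMap ↥(Algebra.adjoin R {j}) F a) ^ (n - 1)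
            * algebraMap ↥(Algebra.adjoin R {j}) F a := by
        rw [← pow_succ, Nat.sub_add_cancel hn]
      rw [this]
      field_simp
    rw [e]
    exact ((isIntegral_algebraMap.pow _).mul hah).mul hs
  let φ : ↥(MInt R j h n hn) →ₗ[↥(Algebra.adjoin R {j})]
      ↥(integralClosure ↥(Algebra.adjoin R {j}) F) :=
    { toFun := fun s => ⟨algebraMap ↥(Algebra.adjoin R {j}) F a * (s : F), hint _ s.2⟩
      map_add' := fun s s' => by
        apply Subtype.ext
        show algebraMap ↥(Algebra.adjoin R {j}) F a * ((s : F) + (s' : F)) = _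
        rw [mul_add]
        rfl
      map_smul' := fun c s => by
        apply Subtype.ext
        show algebraMap ↥(Algebra.adjoin R {j}) F a * (c • (s : F)) = c • (_ : F)
        rw [Algebra.smul_def, Algebra.smul_def]
        ring }
  have hφ : Function.Injective φ := by
    intro s s' hss
    have h1 : algebraMap ↥(Algebra.adjoin R {j}) F a * (s : F)
        = algebraMap ↥(Algebra.adjoin R {j}) F a * (s' : F) := congrArg Subtype.val hss
    exact Subtype.ext (mul_left_cancel₀ haF h1)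
  have hN : IsNoetherian ↥(Algebra.adjoin R {j}) ↥(MInt R j h n hn) :=
    isNoetherian_of_injective φ hφ
  exact (Submodule.fg_top _).mp (hN.noetherian ⊤)

/-- `R[j]` is noetherian when `R` is and `j` is transcendental. -/
theorem isNoetherianRing_adjoin [IsNoetherianRing R] (hj : Transcendental R j) :
    IsNoetherianRing ↥(Algebra.adjoin R {j}) :=
  isNoetherianRing_of_ringEquiv R[X] (Polynomial.algEquivOfTranscendental R j hj).toRingEquiv

/-- `R[j]` is integrally closed when `R` is and `j` is transcendental. -/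
theorem isIntegrallyClosed_adjoin [IsDomain R] [IsIntegrallyClosed R]
    (hj : Transcendental R j) : IsIntegrallyClosed ↥(Algebra.adjoin R {j}) :=
  IsIntegrallyClosed.of_equiv (Polynomial.algEquivOfTranscendental R j hj).toRingEquiv

end Finite

section Bridge

open IntermediateField

variable (R K : Type*) {F : Type*} [CommRing R] [IsDomain R] [Field K] [Field F] [Algebra R K]
  [IsFractionRing R K] [Algebra K F] [Algebra R F] [IsScalarTower R K F] (j : F)

omit [IsDomain R] [IsFractionRing R K] in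
theorem adjoin_le_adjoinField {x : F} (hx : x ∈ Algebra.adjoin R {j}) : x ∈ K⟮j⟯ := by
  induction hx using Algebra.adjoin_induction with
  | mem y hy =>
    rw [Set.mem_singleton_iff] at hy
    subst hy
    exact mem_adjoin_simple_self K _
  | algebraMap r =>
    rw [IsScalarTower.algebraMap_apply R K F]
    exact K⟮j⟯.algebraMap_mem _
  | add _ _ _ _ h1 h2 => exact add_mem h1 h2
  | mul _ _ _ _ h1 h2 => exact mul_mem h1 h2

/-- The inclusion of `R[j]` into `K(j)`. -/
def toAdjoinField : ↥(Algebra.adjoin R {j}) →+* ↥K⟮j⟯ :=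
  (algebraMap ↥(Algebra.adjoin R {j}) F).codRestrict K⟮j⟯
    (fun x => adjoin_le_adjoinField R K j x.2)

theorem coe_toAdjoinField (x : ↥(Algebra.adjoin R {j})) :
    ((toAdjoinField R K j x : ↥K⟮j⟯) : F) = (x : F) := rfl

theorem toAdjoinField_injective : Function.Injective (toAdjoinField R K j) := by
  intro x y hxy
  apply Subtype.ext
  have := congrArg (Subtype.val : ↥K⟮j⟯ → F) hxy
  exact this

/-- `K(j)` is the fraction field of `R[j]`. -/
theorem isFractionRing_adjoin :
    letI : Algebra ↥(Algebra.adjoin R {j}) ↥K⟮j⟯ := (toAdjoinField R K j).toAlgebra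
    IsFractionRing ↥(Algebra.adjoin R {j}) ↥K⟮j⟯ := by
  letI : Algebra ↥(Algebra.adjoin R {j}) ↥K⟮j⟯ := (toAdjoinField R K j).toAlgebra
  haveI : FaithfulSMul ↥(Algebra.adjoin R {j}) ↥K⟮j⟯ :=
    (faithfulSMul_iff_algebraMap_injective _ _).mpr (toAdjoinField_injective R K j)
  refine IsFractionRing.of_field _ _ ?_
  rintro ⟨z, hz⟩
  obtain ⟨r, s, hrs⟩ := (mem_adjoin_simple_iff K z).mp hz
  obtain ⟨b, hb, hbr⟩ := IsLocalization.integerNormalization_spec (nonZeroDivisors R) r
  obtain ⟨c, hc, hcs⟩ := IsLocalization.integerNormalization_spec (nonZeroDivisors R) s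
  have hb0 : algebraMap R F b ≠ 0 := by
    rw [IsScalarTower.algebraMap_apply R K F]
    exact (_root_.map_ne_zero _).mpr
      ((map_ne_zero_iff _ (IsFractionRing.injective R K)).mpr (nonZeroDivisors.ne_zero hb))
  have hc0 : algebraMap R F c ≠ 0 := by
    rw [IsScalarTower.algebraMap_apply R K F]
    exact (_root_.map_ne_zero _).mpr
      ((map_ne_zero_iff _ (IsFractionRing.injective R K)).mpr (nonZeroDivisors.ne_zero hc))
  have er : aeval j (IsLocalization.integerNormalization (nonZeroDivisors R) r)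
      = algebraMap R F b * aeval j r := by
    rw [← Polynomial.aeval_map_algebraMap K, hbr, ← algebraMap_smul K b r, map_smul,
      Algebra.smul_def, ← IsScalarTower.algebraMap_apply]
  have es : aeval j (IsLocalization.integerNormalization (nonZeroDivisors R) s)
      = algebraMap R F c * aeval j s := by
    rw [← Polynomial.aeval_map_algebraMap K, hcs, ← algebraMap_smul K c s, map_smul,
      Algebra.smul_def, ← IsScalarTower.algebraMap_apply]
  have hmem : ∀ (a : R) (Q : R[X]), algebraMap R F a * aeval j Q ∈ Algebra.adjoin R {j} := by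
    intro a Q
    refine mul_mem (Subalgebra.algebraMap_mem _ a) ?_
    rw [Algebra.adjoin_singleton_eq_range_aeval]
    exact ⟨Q, rfl⟩
  refine ⟨⟨_, hmem c (IsLocalization.integerNormalization (nonZeroDivisors R) r)⟩,
    ⟨_, hmem b (IsLocalization.integerNormalization (nonZeroDivisors R) s)⟩, ?_⟩
  apply Subtype.ext
  show z = (algebraMap R F c * aeval j _) / (algebraMap R F b * aeval j _)
  rw [er, es, hrs]
  by_cases hs0 : aeval j s = 0
  · rw [hs0, mul_zero, mul_zero, div_zero, div_zero]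
  · field_simp

/-- **Finiteness** in terms of `K = Frac R`: `M₀` is a finitely generated `R[j]`-module. -/
theorem MInt_fg_of_finite [IsNoetherianRing R] [IsIntegrallyClosed R]
    (hj : Transcendental K j) [FiniteDimensional K⟮j⟯ F] [Algebra.IsSeparable K⟮j⟯ F]
    (h : F) (n : ℕ) (hn : 0 < n) (hh : h ≠ 0) : (MInt R j h n hn).FG := by
  have hjR : Transcendental R j :=
    Transcendental.restrictScalars (IsFractionRing.injective R K) hj
  haveI := isNoetherianRing_adjoin R j hjR
  haveI := isIntegrallyClosed_adjoin R j hjR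
  letI : Algebra ↥(Algebra.adjoin R {j}) ↥K⟮j⟯ := (toAdjoinField R K j).toAlgebra
  haveI := isFractionRing_adjoin R K j
  haveI : IsScalarTower ↥(Algebra.adjoin R {j}) ↥K⟮j⟯ F :=
    IsScalarTower.of_algebraMap_eq fun _ => rfl
  exact MInt_fg R j h n hn ↥K⟮j⟯ hh

/-- `K(j⁻¹) = K(j)`. -/
theorem adjoin_inv_eq : K⟮j⁻¹⟯ = K⟮j⟯ := by
  apply le_antisymm
  · rw [adjoin_simple_le_iff]
    exact inv_mem (mem_adjoin_simple_self K j)
  · rw [adjoin_simple_le_iff]
    have := inv_mem (mem_adjoin_simple_self K j⁻¹)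
    rwa [inv_inv] at this

/-- **Finiteness** for the chart at infinity. -/
theorem MInt_inv_fg_of_finite [IsNoetherianRing R] [IsIntegrallyClosed R]
    (hj : Transcendental K j) [hfd : FiniteDimensional K⟮j⟯ F]
    [hsep : Algebra.IsSeparable K⟮j⟯ F]
    (h : F) (n : ℕ) (hn : 0 < n) (hh : h ≠ 0) : (MInt R j⁻¹ h n hn).FG := by
  have hj' : Transcendental K j⁻¹ := fun halg => hj (IsAlgebraic.inv_iff.mp halg)
  haveI : FiniteDimensional K⟮j⁻¹⟯ F := by
    rw [adjoin_inv_eq]; exact hfd
  haveI : Algebra.IsSeparable K⟮j⁻¹⟯ F := by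
    rw [adjoin_inv_eq]; exact hsep
  exact MInt_fg_of_finite R K j⁻¹ hj' h n hn hh

end Bridge

end Fermat.Agent.S36.NU.H17
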