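import Fermat.Agent.S36.NU.H65_TIAlg
import Fermat.Agent.S36.NU.H17_TIFin

/-!
# S36 / NU-B, TI3: glue of TI3-ALG (`H65_TIAlg`) with TI3-FIN (`H17_TIFin`) (helper65)

* `intSub R j` : the integral closure of `R[j]` in `F` as an `R`-subalgebra; `locSub B j` : `B[1/j]`.
* `exists_finset_span_of_fg` : a finitely generated `R[j]`-submodule in the elementary form of `ti3_alg`.
* `ti3_main` : ONE pair `(a, b)` with `h aⁿ ≡ 1`, `h bⁿ ≡ 1`, `h a bⁿ⁻¹ ≡ 1` modulo the radical of `q`
  gives `s ≠ 0` with `h sⁿ` integral over `R[j]` and over `R[1/j]`.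
* `not_unit_intSub` : the hypothesis `hunit` of `ti3_main` from `¬ IsUnit q`, `j` transcendental.
* `mem_range_of_mem_adjoin_both` : `R[j] ∩ R[1/j] = R`.
* `isIntegral_of_isIntegral_both` : integral over `R[j]` and over `R[1/j]`  ⟹  integral over `R`
  (so `h sⁿ` is a constant).
-/

set_option linter.style.haveILetI false

set_option autoImplicit false

namespace Fermat.Agent.S36.NU.H65

open Fermat.Agent.S36.NU.H17 Polynomial IntermediateField

section Glue

variable (R : Type*) {F : Type*} [CommRing R] [Field F] [Algebra R F]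

/-- The integral closure of `R[j]` in `F`, as an `R`-subalgebra. -/
def intSub (j : F) : Subalgebra R F :=
  (integralClosure ↥(Algebra.adjoin R {j}) F).restrictScalars R

theorem mem_intSub {j x : F} : x ∈ intSub R j ↔ IsIntegral ↥(Algebra.adjoin R {j}) x := Iff.rfl

theorem self_mem_intSub (j : F) : j ∈ intSub R j :=
  isIntegral_algebraMap (R := ↥(Algebra.adjoin R {j})) (A := F)
    (x := ⟨j, Algebra.self_mem_adjoin_singleton R j⟩)

theorem root_mem_intSub (j : F) {n : ℕ} (hn : 0 < n) (x : F) (hx : x ^ n ∈ intSub R j) :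
    x ∈ intSub R j := IsIntegral.of_pow hn hx

variable {R}

/-- The localisation `B[1/j]` inside `F`. -/
def locSub (B : Subalgebra R F) (j : F) (hjB : j ∈ B) : Subalgebra R F where
  carrier := {x | ∃ k : ℕ, j ^ k * x ∈ B}
  mul_mem' := by
    rintro x y ⟨k, hk⟩ ⟨l, hl⟩
    refine ⟨k + l, ?_⟩
    have : j ^ (k + l) * (x * y) = (j ^ k * x) * (j ^ l * y) := by rw [pow_add]; ring
    rw [this]
    exact B.mul_mem hk hl
  add_mem' := by
    rintro x y ⟨k, hk⟩ ⟨l, hl⟩
    refine ⟨k + l, ?_⟩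
    have : j ^ (k + l) * (x + y) = j ^ l * (j ^ k * x) + j ^ k * (j ^ l * y) := by
      rw [pow_add]; ring
    rw [this]
    exact B.add_mem (B.mul_mem (B.pow_mem hjB _) hk) (B.mul_mem (B.pow_mem hjB _) hl)
  algebraMap_mem' := fun r => ⟨0, by rw [pow_zero, one_mul]; exact B.algebraMap_mem r⟩

theorem mem_locSub {B : Subalgebra R F} {j : F} {hjB : j ∈ B} {x : F} :
    x ∈ locSub B j hjB ↔ ∃ k : ℕ, j ^ k * x ∈ B := Iff.rfl

theorem le_locSub (B : Subalgebra R F) (j : F) (hjB : j ∈ B) : B ≤ locSub B j hjB :=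
  fun x hx => ⟨0, by rw [pow_zero, one_mul]; exact hx⟩

theorem root_mem_locSub (B : Subalgebra R F) (j : F) (hjB : j ∈ B) {n : ℕ} (hn : 0 < n)
    (hB : ∀ x : F, x ^ n ∈ B → x ∈ B) (x : F) (hx : x ^ n ∈ locSub B j hjB) :
    x ∈ locSub B j hjB := by
  obtain ⟨k, hk⟩ := hx
  refine ⟨k, hB _ ?_⟩
  obtain ⟨n1, rfl⟩ := Nat.exists_eq_add_of_le (Nat.succ_le_of_lt hn)
  have : (j ^ k * x) ^ (Nat.succ 0 + n1) = j ^ (k * n1) * (j ^ k * x ^ (Nat.succ 0 + n1)) := by
    ring
  rw [this]
  exact B.mul_mem (B.pow_mem hjB _) hk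

/-- Finite generation over `R[j⁻¹]` in the elementary form used by `ti3_alg`. -/
theorem exists_finset_span_of_fg (j : F) (N : Submodule ↥(Algebra.adjoin R {j}) F) (hN : N.FG) :
    ∃ μ : Finset F, (∀ u ∈ μ, u ∈ N) ∧
      ∀ x ∈ N, x ∈ Submodule.span R {y : F | ∃ e : ℕ, ∃ u ∈ μ, y = j ^ e * u} := by
  classical
  obtain ⟨μ, hμ⟩ := hN
  refine ⟨μ, fun u hu => by rw [← hμ]; exact Submodule.subset_span hu, ?_⟩
  set T : Submodule R F := Submodule.span R {y : F | ∃ e : ℕ, ∃ u ∈ μ, y = j ^ e * u} with hT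
  have hjT : ∀ x ∈ T, j * x ∈ T := by
    intro x hx
    have : T ≤ T.comap (LinearMap.mulLeft R j) := by
      rw [hT, Submodule.span_le]
      rintro y ⟨e, u, hu, rfl⟩
      show j * (j ^ e * u) ∈ T
      rw [hT]
      refine Submodule.subset_span ⟨e + 1, u, hu, ?_⟩
      rw [pow_succ]; ring
    exact this hx
  have hAT : ∀ c ∈ Algebra.adjoin R {j}, ∀ x ∈ T, c * x ∈ T := by
    intro c hc
    induction hc using Algebra.adjoin_induction with
    | mem y hy =>
      rw [Set.mem_singleton_iff] at hy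
      subst hy
      exact hjT
    | algebraMap r =>
      intro x hx
      rw [← Algebra.smul_def]
      exact T.smul_mem r hx
    | add a b _ _ iha ihb =>
      intro x hx
      rw [add_mul]
      exact T.add_mem (iha x hx) (ihb x hx)
    | mul a b _ _ iha ihb =>
      intro x hx
      rw [mul_assoc]
      exact iha _ (ihb x hx)
  let T' : Submodule ↥(Algebra.adjoin R {j}) F :=
    { carrier := T
      zero_mem' := T.zero_mem
      add_mem' := fun ha hb => T.add_mem ha hb
      smul_mem' := fun c x hx => by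
        show (c : F) * x ∈ T
        exact hAT c c.2 x hx }
  have hle : N ≤ T' := by
    rw [← hμ, Submodule.span_le]
    intro u hu
    show u ∈ T
    exact Submodule.subset_span ⟨0, u, hu, by rw [pow_zero, one_mul]⟩
  exact fun x hx => hle hx

/-- **TI3, integral-closure form.**  `B0`, `Boo` are the integral closures of `R[j]`, `R[1/j]` in `F`;
`Moo = {s : h sⁿ ∈ Boo}` is finitely generated over `R[1/j]` (TI3-FIN, `H17.MInt_inv_fg_of_finite`).
ONE pair `(a, b)` with `h aⁿ ≡ 1`, `h bⁿ ≡ 1`, `h a bⁿ⁻¹ ≡ 1` modulo the radical of `q` (in `B0`, `Boo`,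
`B0[1/j]`) gives `s ≠ 0` with `h sⁿ` integral over `R[j]` and over `R[1/j]`. -/
theorem ti3_main [IsNoetherianRing R] (q : R) (hq : algebraMap R F q ≠ 0) (n : ℕ) (hn : 0 < n)
    (n' : R) (hnn : (n : R) * n' = 1) (j : F) (hj : j ≠ 0) (h : F)
    (hfg : (MInt R j⁻¹ h n hn).FG)
    (hunit : ¬ ∃ z : F, IsIntegral ↥(Algebra.adjoin R {j}) z ∧ (1 : F) = q • z)
    (a b : F) (ha : IsIntegral ↥(Algebra.adjoin R {j}) (h * a ^ n))
    (hb : IsIntegral ↥(Algebra.adjoin R {j⁻¹}) (h * b ^ n))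
    (hra : ∃ e : ℕ, ∃ z : F, IsIntegral ↥(Algebra.adjoin R {j}) z ∧ (h * a ^ n - 1) ^ e = q • z)
    (hrb : ∃ e : ℕ, ∃ z : F, IsIntegral ↥(Algebra.adjoin R {j⁻¹}) z ∧
        (h * b ^ n - 1) ^ e = q • z)
    (hrab : ∃ e : ℕ, ∃ z : F, (∃ k : ℕ, IsIntegral ↥(Algebra.adjoin R {j}) (j ^ k * z)) ∧
        (h * a * b ^ (n - 1) - 1) ^ e = q • z) :
    ∃ s : F, s ≠ 0 ∧ IsIntegral ↥(Algebra.adjoin R {j}) (h * s ^ n) ∧
      IsIntegral ↥(Algebra.adjoin R {j⁻¹}) (h * s ^ n) := by
  obtain ⟨μ, hμ, hgen⟩ := exists_finset_span_of_fg j⁻¹ (MInt R j⁻¹ h n hn) hfg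
  have hoole : intSub R j⁻¹ ≤ locSub (intSub R j) j (self_mem_intSub R j) := by
    intro x hx
    obtain ⟨e₀, he₀⟩ := exists_pow_inv_mul_isIntegral (R := R) (inv_ne_zero hj) hx
    have := he₀ e₀ le_rfl
    rw [inv_inv] at this
    exact ⟨e₀, this⟩
  have hlocoo : ∀ β ∈ locSub (intSub R j) j (self_mem_intSub R j),
      ∃ k : ℕ, j⁻¹ ^ k * β ∈ intSub R j⁻¹ := by
    rintro β ⟨k, hk⟩
    obtain ⟨e₀, he₀⟩ := exists_pow_inv_mul_isIntegral (R := R) hj hk
    refine ⟨e₀, ?_⟩
    have := he₀ (e₀ + k) (by omega)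
    have e : j⁻¹ ^ (e₀ + k) * (j ^ k * β) = j⁻¹ ^ e₀ * β := by
      rw [pow_add, inv_pow, inv_pow]
      field_simp
    rw [e] at this
    exact this
  obtain ⟨e1, z1, hz1, h1⟩ := hra
  obtain ⟨e2, z2, hz2, h2⟩ := hrb
  obtain ⟨e3, z3, hz3, h3⟩ := hrab
  exact ti3_of_pair q hq n hn n' hnn j hj h (intSub R j) (intSub R j⁻¹)
    (locSub (intSub R j) j (self_mem_intSub R j)) (self_mem_intSub R j) (self_mem_intSub R j⁻¹)
    (le_locSub _ _ _) hoole (fun β hβ => hβ) hlocoo
    (root_mem_intSub R j hn) (root_mem_intSub R j⁻¹ hn)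
    (root_mem_locSub _ _ _ hn (root_mem_intSub R j hn))
    μ hμ hgen (fun ⟨z, hz, hz1⟩ => hunit ⟨z, hz, hz1⟩) a b ha hb
    ⟨e1, z1, hz1, h1⟩ ⟨e2, z2, hz2, h2⟩ ⟨e3, z3, hz3, h3⟩

/-- `q` is not a unit of the integral closure of `R[j]` when `q` is not a unit of `R` and `j` is
transcendental over `R`. -/
theorem not_unit_intSub (q : R) (hq : ¬ IsUnit q) (j : F) (hj : Transcendental R j) :
    ¬ ∃ z : F, IsIntegral ↥(Algebra.adjoin R {j}) z ∧ (1 : F) = q • z := by
  rintro ⟨z, hz, hqz⟩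
  obtain ⟨P, hPm, hPz⟩ := hz
  -- scale the roots by `q`
  set qA : ↥(Algebra.adjoin R {j}) := algebraMap R _ q with hqA
  have h1 := Polynomial.scaleRoots_eval₂_mul (p := P) (algebraMap ↥(Algebra.adjoin R {j}) F)
    (r := z) (s := qA)
  have hqz' : algebraMap ↥(Algebra.adjoin R {j}) F qA * z = 1 := by
    rw [hqz, Algebra.smul_def]
    rfl
  rw [hqz', hPz, mul_zero] at h1
  -- `eval 1 (scaleRoots P q) = 0` in `R[j]`
  have h2 : (Polynomial.scaleRoots P qA).eval 1 = 0 := by
    have hinj : Function.Injective (algebraMap ↥(Algebra.adjoin R {j}) F) :=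
      Subtype.val_injective
    apply hinj
    rw [map_zero, ← h1, Polynomial.eval₂_at_one]
  -- split off the leading term
  have h3 : ∃ G : ↥(Algebra.adjoin R {j}), (1 : ↥(Algebra.adjoin R {j})) + qA * G = 0 := by
    rw [Polynomial.eval_eq_sum_range, Polynomial.natDegree_scaleRoots,
      Finset.sum_range_succ] at h2
    simp only [Polynomial.coeff_scaleRoots, one_pow, mul_one, Nat.sub_self, pow_zero,
      Polynomial.coeff_natDegree, hPm.leadingCoeff] at h2
    refine ⟨∑ i ∈ Finset.range P.natDegree, P.coeff i * qA ^ (P.natDegree - i - 1), ?_⟩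
    rw [add_comm, Finset.mul_sum, ← h2]
    congr 1
    refine Finset.sum_congr rfl (fun i hi => ?_)
    have hi' : P.natDegree - i = (P.natDegree - i - 1) + 1 := by
      have := Finset.mem_range.1 hi
      omega
    nth_rewrite 2 [hi']
    rw [pow_succ]
    ring
  obtain ⟨G, hG⟩ := h3
  have hG2 : ∀ g : F, g ∈ Algebra.adjoin R {j} → ∃ Q : R[X], aeval j Q = g := by
    intro g hg
    rw [Algebra.adjoin_singleton_eq_range_aeval] at hg
    exact hg
  obtain ⟨Q, hQ⟩ := hG2 _ G.2
  have h4 : aeval j (1 + C q * Q) = 0 := by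
    rw [map_add, map_one, map_mul, aeval_C, hQ]
    have hqAF : (qA : F) = algebraMap R F q := rfl
    have := congrArg Subtype.val hG
    rw [← hqAF]
    simpa using this
  have h5 : (1 : R[X]) + C q * Q = 0 := by
    by_contra hne
    exact hj ⟨_, hne, h4⟩
  apply hq
  have h6 := congrArg (fun p : R[X] => p.coeff 0) h5
  simp only [Polynomial.coeff_add, Polynomial.coeff_one_zero, Polynomial.coeff_C_mul,
    Polynomial.coeff_zero] at h6
  exact IsUnit.of_mul_eq_one (-Q.coeff 0) (by linear_combination -h6)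

/-- `R[j] ∩ R[1/j] = R` for transcendental `j`. -/
theorem mem_range_of_mem_adjoin_both (j : F) (hj0 : j ≠ 0) (hj : Transcendental R j) (c : F)
    (h1 : c ∈ Algebra.adjoin R {j}) (h2 : c ∈ Algebra.adjoin R {j⁻¹}) :
    ∃ r : R, algebraMap R F r = c := by
  rw [Algebra.adjoin_singleton_eq_range_aeval] at h1 h2
  obtain ⟨P, hP⟩ := h1
  obtain ⟨Q, hQ⟩ := h2
  have hP' : aeval j P = c := hP
  have hQ' : eval₂ (algebraMap R F) j⁻¹ Q = c := hQ
  have h5 : eval₂ (algebraMap R F) j (Polynomial.reflect Q.natDegree Q) * j⁻¹ ^ Q.natDegree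
      = eval₂ (algebraMap R F) j⁻¹ Q := by
    letI : Invertible j⁻¹ := invertibleOfNonzero (inv_ne_zero hj0)
    have := Polynomial.eval₂_reflect_mul_pow (algebraMap R F) j⁻¹ Q.natDegree Q le_rfl
    rw [invOf_eq_inv, inv_inv] at this
    exact this
  have h4 : aeval j (Polynomial.reflect Q.natDegree Q) = aeval j (X ^ Q.natDegree * P) := by
    rw [map_mul, map_pow, aeval_X, hP', ← hQ', ← h5, aeval_def]
    have : j⁻¹ ^ Q.natDegree * j ^ Q.natDegree = 1 := by
      rw [← mul_pow, inv_mul_cancel₀ hj0, one_pow]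
    rw [mul_comm (j ^ Q.natDegree), mul_assoc, this, mul_one]
  have hinj := (transcendental_iff_injective.1 hj)
  have h6 : Polynomial.reflect Q.natDegree Q = X ^ Q.natDegree * P := hinj h4
  refine ⟨P.coeff 0, ?_⟩
  have h7 : ∀ i : ℕ, 0 < i → P.coeff i = 0 := by
    intro i hi
    have := congrArg (fun p : R[X] => p.coeff (Q.natDegree + i)) h6
    simp only [Polynomial.coeff_reflect, Polynomial.coeff_X_pow_mul'] at this
    rw [Polynomial.revAt_eq_self_of_lt (by omega),
      Polynomial.coeff_eq_zero_of_natDegree_lt (by omega)] at this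
    simp at this
    exact this.symm
  have h8 : P = C (P.coeff 0) := by
    ext i
    rcases Nat.eq_zero_or_pos i with rfl | hi
    · simp
    · rw [h7 i hi, Polynomial.coeff_C, if_neg hi.ne']
  rw [← hP']
  calc algebraMap R F (P.coeff 0) = aeval j (C (P.coeff 0)) := by rw [aeval_C]
    _ = aeval j P := by rw [← h8]

end Glue

section Const

variable (R K : Type*) {F : Type*} [CommRing R] [IsDomain R] [IsIntegrallyClosed R] [Field K]
  [Field F] [Algebra R K] [IsFractionRing R K] [Algebra K F] [Algebra R F] [IsScalarTower R K F]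

/-- The coefficients of the minimal polynomial over `K(j)` of an element integral over `R[j]` lie in
`R[j]`. -/
theorem minpoly_coeff_mem_adjoin (j : F) (hj : Transcendental K j) {f : F}
    (hf : IsIntegral ↥(Algebra.adjoin R {j}) f) (i : ℕ) :
    (((minpoly ↥K⟮j⟯ f).coeff i : ↥K⟮j⟯) : F) ∈ Algebra.adjoin R {j} := by
  have hjR : Transcendental R j :=
    Transcendental.restrictScalars (IsFractionRing.injective R K) hj
  haveI := isIntegrallyClosed_adjoin R j hjR
  letI : Algebra ↥(Algebra.adjoin R {j}) ↥K⟮j⟯ := (toAdjoinField R K j).toAlgebra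
  haveI := isFractionRing_adjoin R K j
  haveI : IsScalarTower ↥(Algebra.adjoin R {j}) ↥K⟮j⟯ F :=
    IsScalarTower.of_algebraMap_eq fun _ => rfl
  rw [minpoly.isIntegrallyClosed_eq_field_fractions' ↥K⟮j⟯ hf, Polynomial.coeff_map]
  exact ((minpoly ↥(Algebra.adjoin R {j}) f).coeff i).2

/-- The minimal polynomial over an intermediate field, mapped to `F`, only depends on the field. -/
theorem minpoly_map_congr {L L' : IntermediateField K F} (hLL : L = L') (f : F) :
    (minpoly ↥L f).map (algebraMap ↥L F) = (minpoly ↥L' f).map (algebraMap ↥L' F) := by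
  subst hLL
  rfl

/-- **Constants.**  An element of `F` integral over `R[j]` and over `R[1/j]` is integral over `R`
(`R` integrally closed, `j` transcendental, `F` algebraic over `K(j)` is not even needed). -/
theorem isIntegral_of_isIntegral_both (j : F) (hj : Transcendental K j) {f : F}
    (h1 : IsIntegral ↥(Algebra.adjoin R {j}) f) (h2 : IsIntegral ↥(Algebra.adjoin R {j⁻¹}) f) :
    IsIntegral R f := by
  have hj0 : j ≠ 0 := by
    rintro rfl
    exact hj (isAlgebraic_zero)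
  have hjR : Transcendental R j :=
    Transcendental.restrictScalars (IsFractionRing.injective R K) hj
  have hj' : Transcendental K j⁻¹ := fun halg => hj (IsAlgebraic.inv_iff.mp halg)
  have hfK : IsIntegral ↥K⟮j⟯ f := by
    letI : Algebra ↥(Algebra.adjoin R {j}) ↥K⟮j⟯ := (toAdjoinField R K j).toAlgebra
    haveI : IsScalarTower ↥(Algebra.adjoin R {j}) ↥K⟮j⟯ F :=
      IsScalarTower.of_algebraMap_eq fun _ => rfl
    exact h1.tower_top
  set m : F[X] := (minpoly ↥K⟮j⟯ f).map (algebraMap ↥K⟮j⟯ F) with hm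
  have hm1 : ∀ i, m.coeff i ∈ Algebra.adjoin R {j} := by
    intro i
    rw [hm, Polynomial.coeff_map]
    exact minpoly_coeff_mem_adjoin R K j hj h1 i
  have hm2 : ∀ i, m.coeff i ∈ Algebra.adjoin R {j⁻¹} := by
    intro i
    rw [hm, minpoly_map_congr K (adjoin_inv_eq K j).symm f, Polynomial.coeff_map]
    exact minpoly_coeff_mem_adjoin R K j⁻¹ hj' h2 i
  have hmR : ∀ i, ∃ r : R, algebraMap R F r = m.coeff i := fun i =>
    mem_range_of_mem_adjoin_both j hj0 hjR _ (hm1 i) (hm2 i)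
  have hmon : m.Monic := (minpoly.monic hfK).map _
  have hroot : m.eval f = 0 := by
    rw [hm, Polynomial.eval_map, ← Polynomial.aeval_def, minpoly.aeval]
  have hl : m ∈ Polynomial.lifts (algebraMap R F) := by
    rw [Polynomial.lifts_iff_coeff_lifts]
    intro i
    obtain ⟨r, hr⟩ := hmR i
    exact ⟨r, hr⟩
  obtain ⟨Q, hQ, -, hQm⟩ := Polynomial.lifts_and_degree_eq_and_monic hl hmon
  refine ⟨Q, hQm, ?_⟩
  rw [← Polynomial.eval_map, hQ, hroot]

end Const

end Fermat.Agent.S36.NU.H65
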