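import Fermat.Agent.S36.NU.H99_Units3L
import Fermat.Agent.S36.NU.H88_ChartAlg
import Fermat.Agent.S36.NU.H65_TIMain

/-!
# S36 / NU-B, leaf CUSPS (helper82): the elements of the chart at infinity and the targets

Level `N = M q²`, `L₀ = L0 A N`, `u = 1 / j` (`uoo`), chart `∞` = integral closure of `R[u]`.
With helper99's `E20o = eps2`, `E02o = q¹² / eps1`, `E11o = q¹² eps1 / eps2`:

* `E20oo = E20o · u^(q (q - 1))`, `E02oo = E02o^q · u^(q - 1)`, `E11oo = E11o · u^(2 (q - 1))`;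
* `j2o = j(q²τ)`, `x11oo = (j2o · u - 1) · E11oo`, `W2oo = x11oo^(q - 1) · E11oo² / q`.

Targets (the leaves of CUSPS):
* `Stmt_CuspRed20/11/02` (helper86): `red_i (E_i∞) = P̄ (red_i u)`, `P̄ (0) = 1`;
* `Stmt_CuspW2` (helper73): `red₁₁(W2oo)¹² · red₁₁(E11oo)
    = c · (1 - 1728 ū)^(6 (q - 1)) · red₁₁(E11oo)^(12 (q + 1))`, `c ≠ 0`;
* `Stmt_CuspInt` (helper82): `E20oo, E02oo, E11oo, x11oo` are integral over `ℚ̄[u]`;
* `Stmt_CuspKur`, `Stmt_CuspMem`: from integrality over `ℚ̄[u]` to membership in `B∞`.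
-/

set_option autoImplicit false
set_option synthInstance.maxHeartbeats 400000
set_option maxHeartbeats 1000000
set_option linter.unusedSectionVars false
set_option linter.style.haveILetI false

noncomputable section

open ModularCurve Polynomial
open Fermat.Agent.S24 Fermat.Agent.BAD.H88
open Fermat.Agent.S28 Fermat.Agent.S28.H73 Fermat.Agent.RED.H73 Fermat.Agent.RED.H17
open Fermat.Agent.S36.NU.H88 Fermat.Agent.S36.NU.H23 Fermat.Agent.S36.NU.H99

namespace Fermat.Agent.S36.NU.H82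

section Defs

variable (A : ValuationSubring Kbar)
variable (q M : ℕ) (B k : ℤ) (hB : B * M + k * q = 1) (hq : q.Prime) [NeZero M] [NeZero q]
  [NeZero (M * q)] [NeZero (M * q * q)]

/-- `u = 1 / j`, the coordinate of the chart at infinity. -/
def uoo : ↥(L0 A (M * q * q)) := (j0 A (M * q * q))⁻¹

/-- `E20∞ = eps2 / j^(q (q - 1))`. -/
def E20oo : ↥(L0 A (M * q * q)) := E20o A q M * uoo A q M ^ (q * (q - 1))

/-- `E02∞ = (q¹² / eps1)^q / j^(q - 1)`. -/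
def E02oo : ↥(L0 A (M * q * q)) := E02o A q M ^ q * uoo A q M ^ (q - 1)

/-- `E11∞ = q¹² eps1 / (eps2 j^(2 (q - 1)))`. -/
def E11oo : ↥(L0 A (M * q * q)) := E11o A q M * uoo A q M ^ (2 * (q - 1))

/-- `j″ = j(q²τ)` as an inertia-fixed function. -/
def j2o : ↥(L0 A (M * q * q)) :=
  haveI : NeZero (q * q) := ⟨mul_ne_zero (NeZero.ne q) (NeZero.ne q)⟩
  ⟨jdF (M * q * q) (q * q) ⟨M, by ring⟩, jdF_mem_L0 A (M * q * q) (q * q) ⟨M, by ring⟩⟩

/-- The local equation of `C₁₁` at the middle cusps: `x11 = (j″ / j - 1) E11∞`. -/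
def x11oo : ↥(L0 A (M * q * q)) := (j2o A q M * uoo A q M - 1) * E11oo A q M

/-- The unit `W₂ = x11^(q - 1) (E11∞)² / q` at the middle cusps. -/
def W2oo : ↥(L0 A (M * q * q)) :=
  x11oo A q M ^ (q - 1) * E11oo A q M ^ 2 * (((q : ℕ) : ↥(L0 A (M * q * q))))⁻¹

/-- **(CUSP-RED 20)** (helper86). -/
def Stmt_CuspRed20 : Prop :=
  ∃ (hu : uoo A q M ∈ V20o A q M) (hE : E20oo A q M ∈ V20o A q M) (P : Polynomial (kV A)),
    P.coeff 0 = 1 ∧
      s20 A q M ⟨E20oo A q M, hE⟩ = Polynomial.aeval (s20 A q M ⟨uoo A q M, hu⟩) P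

/-- **(CUSP-RED 11)** (helper86). -/
def Stmt_CuspRed11 : Prop :=
  ∃ (hu : uoo A q M ∈ V11o A q M B k hB hq) (hE : E11oo A q M ∈ V11o A q M B k hB hq)
    (P : Polynomial (kV A)), P.coeff 0 = 1 ∧
      s11 A q M B k hB hq ⟨E11oo A q M, hE⟩
        = Polynomial.aeval (s11 A q M B k hB hq ⟨uoo A q M, hu⟩) P

/-- **(CUSP-RED 02)** (helper86). -/
def Stmt_CuspRed02 : Prop :=
  ∃ (hu : uoo A q M ∈ V02o A q M B k hB) (hE : E02oo A q M ∈ V02o A q M B k hB)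
    (P : Polynomial (kV A)), P.coeff 0 = 1 ∧
      s02 A q M B k hB ⟨E02oo A q M, hE⟩
        = Polynomial.aeval (s02 A q M B k hB ⟨uoo A q M, hu⟩) P

/-- **(CUSP-W2)** (helper73): the reduction of `W₂` at `V₁₁`. -/
def Stmt_CuspW2 : Prop :=
  ∃ (hu : uoo A q M ∈ V11o A q M B k hB hq) (hE : E11oo A q M ∈ V11o A q M B k hB hq)
    (hW : W2oo A q M ∈ V11o A q M B k hB hq) (c : kV A), c ≠ 0 ∧
      s11 A q M B k hB hq ⟨W2oo A q M, hW⟩ ^ 12 * s11 A q M B k hB hq ⟨E11oo A q M, hE⟩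
        = HahnSeries.C c
          * (1 - HahnSeries.C (1728 : kV A) * s11 A q M B k hB hq ⟨uoo A q M, hu⟩)
              ^ (6 * (q - 1))
          * s11 A q M B k hB hq ⟨E11oo A q M, hE⟩ ^ (12 * (q + 1))

/-- **(CUSP-INT)** (helper82): integrality over `ℚ̄[1/j]` (as elements of `F_N · ℚ̄`). -/
def Stmt_CuspInt : Prop :=
  ∀ x ∈ ({E20oo A q M, E02oo A q M, E11oo A q M, x11oo A q M} :
      Set ↥(L0 A (M * q * q))),
    IsIntegral ↥(Algebra.adjoin Kbar ({(jF (M * q * q))⁻¹} : Set (FN (M * q * q))))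
      ((x : ↥(L0 A (M * q * q))) : FN (M * q * q))

/-- **(CUSP-KUR)**: descent of integrality from `ℚ̄[1/j]` to `K^ur[1/j]`
(`ℚ̄[u]` is integral over `K^ur[u]`). -/
def Stmt_CuspKur : Prop :=
  ∀ x : ↥(L0 A (M * q * q)),
    IsIntegral ↥(Algebra.adjoin Kbar ({(jF (M * q * q))⁻¹} : Set (FN (M * q * q))))
      ((x : ↥(L0 A (M * q * q))) : FN (M * q * q)) →
    IsIntegral ↥(Algebra.adjoin ↥(H41.Kur A) ({uoo A q M} : Set ↥(L0 A (M * q * q)))) x

/-- **(CUSP-MEM)**: membership in the chart at infinity `B∞ = intSub R u` from integrality over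
`K^ur[u]` and the three valuations (TI3-VAL for the coordinate `u = 1 / j`). -/
def Stmt_CuspMem : Prop :=
  ∀ x : ↥(L0 A (M * q * q)),
    IsIntegral ↥(Algebra.adjoin ↥(H41.Kur A) ({uoo A q M} : Set ↥(L0 A (M * q * q)))) x →
    x ∈ V20o A q M → x ∈ V11o A q M B k hB hq → x ∈ V02o A q M B k hB →
    x ∈ H65.intSub ↥(H41.Rur A) (uoo A q M)

end Defs

end Fermat.Agent.S36.NU.H82
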