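import Fermat.Agent.BAD.H73_NormFr

/-!
# S36 / NU-B, leaf TOT3-MOD, T3-g (helper23): the `Fr²`-twisted structure

`E ⊂ k((t))` a `φ`-stable field over the perfect field `k` of characteristic `q`, `E''` a field with
an isomorphism `e : E'' ≃+* E`, and `E` an `E''`-algebra through `Fr ∘ Fr ∘ e` (`Fr : t ↦ t ^ q`).
(Modular: the residue field of `V₀₂` at level `q² M'` over the residue field of level `M'`.)

* `isPurelyInseparable_of_Fr2`;
* `finrank_of_Fr2 : [E : E''] = q ^ 2`;
* `norm_of_Fr2 : N_{E/E''} g = e⁻¹ (φ (φ g))`;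
* `ord_norm_of_Fr2 : ord_z (e (N g)) = ord_{β (β z)} g`.
-/

set_option autoImplicit false
set_option synthInstance.maxHeartbeats 400000
set_option maxHeartbeats 1000000
set_option linter.style.haveILetI false
set_option linter.unusedSectionVars false

noncomputable section

open ModularCurve AlgebraicCurve Polynomial IntermediateField

namespace Fermat.Agent.S36.NU.H23

open Fermat.Agent.BAD.H73

section Twist2

variable {k : Type*} [Field k] {q : ℕ} [Fact q.Prime] [CharP k q] [PerfectRing k q]
variable {E : IntermediateField k (LaurentSeries k)} (h : FrobStable q E)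

/-- A copy of `E`, the middle of the tower `E'' → E → E`. -/
def MidE (_h : FrobStable q E) : Type _ := ↥E

instance : Field (MidE h) := inferInstanceAs (Field ↥E)

/-- the identification -/
def midEquiv : MidE h ≃+* ↥E := RingEquiv.refl ↥E

/-- `E` over the middle copy, through `Fr`. -/
@[reducible] def algMidTop : Algebra (MidE h) ↥E :=
  ((FrE h).toRingHom.comp (midEquiv h).toRingHom).toAlgebra

variable {E'' : Type*} [Field E''] [Algebra E'' ↥E] (e : E'' ≃+* ↥E)
variable (he : ∀ a : E'', algebraMap E'' ↥E a = FrE h (FrE h (e a)))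

/-- The middle copy over `E''`, through `Fr ∘ e`. -/
@[reducible] def algBotMid : Algebra E'' (MidE h) :=
  ((midEquiv h).symm.toRingHom.comp ((FrE h).toRingHom.comp e.toRingHom)).toAlgebra

include he in
theorem tower_Fr2 :
    @IsScalarTower E'' (MidE h) ↥E (algBotMid h e).toSMul (algMidTop h).toSMul Algebra.toSMul := by
  letI := algBotMid h e
  letI := algMidTop h
  refine IsScalarTower.of_algebraMap_eq fun a => ?_
  rw [he]
  rfl

include he in
/-- `x ^ (q ^ 2)` is in the image of `E''`. -/
theorem pow_sq_eq_algebraMap (x : ↥E) :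
    x ^ (q ^ 2) = algebraMap E'' ↥E (e.symm (frobE h (frobE h x))) := by
  rw [he, e.apply_symm_apply, FrE_frobE, map_pow, FrE_frobE, ← pow_mul, pow_two]

include e he in
/-- `E` is purely inseparable over `E''` (structure map `Fr ∘ Fr ∘ e`). -/
theorem isPurelyInseparable_of_Fr2 : IsPurelyInseparable E'' ↥E := by
  have : CharP E'' q := charP_of_equiv e
  rw [isPurelyInseparable_iff_pow_mem E'' q]
  intro x
  exact ⟨2, e.symm (frobE h (frobE h x)), (pow_sq_eq_algebraMap h e he x).symm⟩

include e he in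
/-- **`[E : E''] = q ^ 2`** for the structure map `Fr ∘ Fr ∘ e`. -/
theorem finrank_of_Fr2 (x : ↥E) {n : ℤ} (hn : ¬ (q : ℤ) ∣ n)
    (hx : (x : LaurentSeries k).coeff n ≠ 0)
    (hsep : ∀ y ∈ E, IsSeparable ↥(IntermediateField.adjoin k {(x : LaurentSeries k)}) y) :
    Module.finrank E'' ↥E = q ^ 2 := by
  letI := algBotMid h e
  letI := algMidTop h
  haveI := tower_Fr2 h e he
  -- the upper step
  have h2 : Module.finrank (MidE h) ↥E = q :=
    finrank_of_Fr h (midEquiv h) (fun _ => rfl) x hn hx hsep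
  -- the lower step
  have h1 : Module.finrank E'' (MidE h) = q := by
    letI a1 : Algebra E'' ↥E := ((FrE h).toRingHom.comp e.toRingHom).toAlgebra
    have h3 : @Module.finrank E'' ↥E _ _ a1.toModule = q :=
      @finrank_of_Fr k _ q _ _ _ E h E'' _ a1 e (fun _ => rfl) x n hn hx hsep
    exact h3
  haveI : Module.Free (MidE h) ↥E := Module.Free.of_divisionRing _ _
  haveI : Module.Free E'' (MidE h) := Module.Free.of_divisionRing _ _
  rw [← Module.finrank_mul_finrank E'' (MidE h) ↥E, h1, h2, pow_two]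

include e he in
/-- **`N_{E/E''} g = e⁻¹ (φ (φ g))`** for the structure map `Fr ∘ Fr ∘ e`. -/
theorem norm_of_Fr2 (x : ↥E) {n : ℤ} (hn : ¬ (q : ℤ) ∣ n)
    (hx : (x : LaurentSeries k).coeff n ≠ 0)
    (hsep : ∀ y ∈ E, IsSeparable ↥(IntermediateField.adjoin k {(x : LaurentSeries k)}) y)
    (g : ↥E) : Algebra.norm E'' g = e.symm (frobE h (frobE h g)) := by
  have : CharP E'' q := charP_of_equiv e
  have : IsPurelyInseparable E'' ↥E := isPurelyInseparable_of_Fr2 h e he
  apply (algebraMap E'' ↥E).injective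
  rw [algebraMap_norm_of_isPurelyInseparable q g, finrank_of_Fr2 h e he x hn hx hsep,
    pow_sq_eq_algebraMap h e he]

include e he in
/-- **`ord_z (e (N_{E/E''} g)) = ord_{β (β z)} g`**. -/
theorem ord_norm_of_Fr2 (x : ↥E) {n : ℤ} (hn : ¬ (q : ℤ) ∣ n)
    (hx : (x : LaurentSeries k).coeff n ≠ 0)
    (hsep : ∀ y ∈ E, IsSeparable ↥(IntermediateField.adjoin k {(x : LaurentSeries k)}) y)
    (z : Place k ↥E) (g : ↥E) :
    z.ord (e (Algebra.norm E'' g)) = (beta h (beta h z)).ord g := by
  rw [norm_of_Fr2 h e he x hn hx hsep, e.apply_symm_apply, beta_ord, beta_ord]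

end Twist2

end Fermat.Agent.S36.NU.H23
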