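import Fermat.Agent.BAD.H42_FundIneq

/-!
# S36 / NU-B, leaf TOT3-MOD (helper23): `NRData` for three valuations (abstract builder)

Three valuation rings `V₀`, `V₁`, `V₂` of `L₀` over the discrete valuation ring `VE` of `E₀`
(uniformiser `ϖ`), residue maps `r₀ : V₀ → C`, `r₁ : V₁ → K₁`, `r₂ : V₂ → C`, where `C` is the
residue field of `VE`; structure maps `C → C` the identity for `V₀`, a given one for `K₁` and for
`V₂` (modular: `Fr²`); ramification `e = (1, e₁, 1)` with uniformisers `(ϖ, π₁, ϖ)`.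

* `kap3 C K₁ : Fin 3 → Type`, `nr3 : NRData E₀ L₀ C (Fin 3) (kap3 C K₁)`;
* `finrank_K1_eq_one` : if `1 + e₁ + [C : C]₂ = [L₀ : E₀]` then `[K₁ : C] = 1`
  (fundamental inequality), `surjective_K1`.
-/

set_option autoImplicit false
set_option linter.style.haveILetI false
set_option linter.unusedSectionVars false

noncomputable section

namespace Fermat.Agent.S36.NU.H23

open Fermat.Agent.BAD

/-- The three residue fields. -/
def kap3 (C K₁ : Type) : Fin 3 → Type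
  | 0 => C
  | 1 => K₁
  | 2 => C

instance kap3Field (C K₁ : Type) [Field C] [Field K₁] : ∀ i, Field (kap3 C K₁ i)
  | 0 => inferInstanceAs (Field C)
  | 1 => inferInstanceAs (Field K₁)
  | 2 => inferInstanceAs (Field C)

/-- The three structure maps: the identity, a given one, a given one. -/
@[reducible] def kap3Alg (C K₁ : Type) [Field C] [Field K₁] (a₁ : Algebra C K₁)
    (a₂ : Algebra C C) : ∀ i, Algebra C (kap3 C K₁ i)
  | 0 => Algebra.id C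
  | 1 => a₁
  | 2 => a₂

section Builder

variable {E₀ L₀ C K₁ : Type} [Field E₀] [Field L₀] [Field C] [Field K₁] [Algebra E₀ L₀]
  (a₁ : Algebra C K₁) (a₂ : Algebra C C)
  (VE : ValuationSubring E₀) (redE : ↥VE →+* C)
  (V₀ V₁ V₂ : ValuationSubring L₀)
  (r₀ : ↥V₀ →+* C) (r₁ : ↥V₁ →+* K₁) (r₂ : ↥V₂ →+* C)
  (ϖ : E₀) (π₁ : L₀) (e₁ : ℕ)

/-- The three valuation rings. -/
def V3 : Fin 3 → ValuationSubring L₀
  | 0 => V₀
  | 1 => V₁
  | 2 => V₂

/-- The three residue maps. -/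
def red3 : ∀ i : Fin 3, ↥(V3 V₀ V₁ V₂ i) →+* kap3 C K₁ i
  | 0 => r₀
  | 1 => r₁
  | 2 => r₂

/-- The three uniformisers. -/
def pi3 : Fin 3 → L₀
  | 0 => algebraMap E₀ L₀ ϖ
  | 1 => π₁
  | 2 => algebraMap E₀ L₀ ϖ

/-- The three ramification indices. -/
def e3 : Fin 3 → ℕ
  | 0 => 1
  | 1 => e₁
  | 2 => 1

theorem val_lt_one_of_red_eq_zero {V : ValuationSubring L₀} {R : Type} [Field R]
    (r : ↥V →+* R) (x : L₀) (hx : x ∈ V) (h0 : r ⟨x, hx⟩ = 0) : V.valuation x < 1 := by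
  rw [lt_iff_le_and_ne]
  refine ⟨(ValuationSubring.valuation_le_one_iff V x).2 hx, fun h1 => ?_⟩
  have hu : IsUnit (⟨x, hx⟩ : ↥V) := (ValuationSubring.valuation_eq_one_iff V ⟨x, hx⟩).2 h1
  exact (hu.map r).ne_zero h0

/-- **The `NRData` of three valuations.** -/
def nr3 (hϖ0 : ϖ ≠ 0) (hϖ : ϖ ∈ VE) (hϖr : redE ⟨ϖ, hϖ⟩ = 0)
    (hE : ∀ a : E₀, VE.valuation a < 1 → VE.valuation a ≤ VE.valuation ϖ)
    (hVE₀ : ∀ a : E₀, a ∈ VE → algebraMap E₀ L₀ a ∈ V₀)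
    (hVE₁ : ∀ a : E₀, a ∈ VE → algebraMap E₀ L₀ a ∈ V₁)
    (hVE₂ : ∀ a : E₀, a ∈ VE → algebraMap E₀ L₀ a ∈ V₂)
    (hkerE : ∀ a : ↥VE, ¬ IsUnit a → redE a = 0)
    (hs₀ : Function.Surjective r₀) (hs₁ : Function.Surjective r₁) (hs₂ : Function.Surjective r₂)
    (hk₀ : ∀ a : ↥V₀, ¬ IsUnit a → r₀ a = 0) (hk₁ : ∀ a : ↥V₁, ¬ IsUnit a → r₁ a = 0)
    (hk₂ : ∀ a : ↥V₂, ¬ IsUnit a → r₂ a = 0)
    (hc₀ : ∀ (a : ↥VE) (ha : algebraMap E₀ L₀ (a : E₀) ∈ V₀), r₀ ⟨_, ha⟩ = redE a)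
    (hc₁ : ∀ (a : ↥VE) (ha : algebraMap E₀ L₀ (a : E₀) ∈ V₁),
      r₁ ⟨_, ha⟩ = @algebraMap C K₁ _ _ a₁ (redE a))
    (hc₂ : ∀ (a : ↥VE) (ha : algebraMap E₀ L₀ (a : E₀) ∈ V₂),
      r₂ ⟨_, ha⟩ = @algebraMap C C _ _ a₂ (redE a))
    (h01 : ¬ V₀ ≤ V₁) (h02 : ¬ V₀ ≤ V₂) (h10 : ¬ V₁ ≤ V₀) (h12 : ¬ V₁ ≤ V₂)
    (h20 : ¬ V₂ ≤ V₀) (h21 : ¬ V₂ ≤ V₁)
    (hA₀ : H42.IsArch V₀) (hA₁ : H42.IsArch V₁) (hA₂ : H42.IsArch V₂)
    (hπ₁ : V₁.valuation π₁ < 1) (he₁ : 0 < e₁)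
    (hram₁ : V₁.valuation (algebraMap E₀ L₀ ϖ) = V₁.valuation π₁ ^ e₁) :
    @H42.NRData E₀ L₀ C _ _ _ _ (Fin 3) (kap3 C K₁) _ (kap3Alg C K₁ a₁ a₂) :=
  letI := kap3Alg C K₁ a₁ a₂
  { VE := VE
    V := V3 V₀ V₁ V₂
    redE := redE
    red := red3 V₀ V₁ V₂ r₀ r₁ r₂
    ϖ := ϖ
    π := pi3 ϖ π₁
    e := e3 e₁
    hϖ0 := hϖ0
    hE := hE
    hVE := fun i => by
      fin_cases i
      · exact hVE₀
      · exact hVE₁
      · exact hVE₂
    hkerE := hkerE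
    hsurj := fun i => by
      fin_cases i
      · exact hs₀
      · exact hs₁
      · exact hs₂
    hker := fun i => by
      fin_cases i
      · exact hk₀
      · exact hk₁
      · exact hk₂
    hcompat := fun i => by
      fin_cases i
      · exact hc₀
      · exact hc₁
      · exact hc₂
    hinc := fun i j hij => by
      fin_cases i <;> fin_cases j
      · exact absurd rfl hij
      · exact h01
      · exact h02
      · exact h10
      · exact absurd rfl hij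
      · exact h12
      · exact h20
      · exact h21
      · exact absurd rfl hij
    hA := fun i => by
      fin_cases i
      · exact hA₀
      · exact hA₁
      · exact hA₂
    hπ := fun i => by
      fin_cases i
      · show V₀.valuation (algebraMap E₀ L₀ ϖ) < 1
        exact val_lt_one_of_red_eq_zero r₀ _ (hVE₀ ϖ hϖ) (by
          rw [hc₀ ⟨ϖ, hϖ⟩ (hVE₀ ϖ hϖ), hϖr])
      · exact hπ₁
      · show V₂.valuation (algebraMap E₀ L₀ ϖ) < 1
        exact val_lt_one_of_red_eq_zero r₂ _ (hVE₂ ϖ hϖ) (by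
          rw [hc₂ ⟨ϖ, hϖ⟩ (hVE₂ ϖ hϖ), hϖr, map_zero])
    he := fun i => by
      fin_cases i
      · exact Nat.one_pos
      · exact he₁
      · exact Nat.one_pos
    hram := fun i => by
      fin_cases i
      · exact (pow_one _).symm
      · exact hram₁
      · exact (pow_one _).symm }

end Builder

section Consequences

variable {E₀ L₀ C K₁ : Type} [Field E₀] [Field L₀] [Field C] [Field K₁] [Algebra E₀ L₀]
  [Module.Finite E₀ L₀]
  (a₁ : Algebra C K₁) (a₂ : Algebra C C)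
  (D : @H42.NRData E₀ L₀ C _ _ _ _ (Fin 3) (kap3 C K₁) _ (kap3Alg C K₁ a₁ a₂))

/-- **The fundamental inequality for three valuations.** -/
theorem fund3 (e₀ e₁ e₂ : ℕ)
    (he : letI := kap3Alg C K₁ a₁ a₂; D.e 0 = e₀ ∧ D.e 1 = e₁ ∧ D.e 2 = e₂) :
    e₀ * 1 + e₁ * @Module.finrank C K₁ _ _ a₁.toModule
        + e₂ * @Module.finrank C C _ _ a₂.toModule ≤ Module.finrank E₀ L₀ := by
  letI := kap3Alg C K₁ a₁ a₂
  have h := D.sum_le_finrank
  rw [Fin.sum_univ_three, he.1, he.2.1, he.2.2] at h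
  have h0 : @Module.finrank C (kap3 C K₁ 0) _ _ (kap3Alg C K₁ a₁ a₂ 0).toModule = 1 :=
    Module.finrank_self C
  rw [h0] at h
  exact h

include D in
/-- The residue field `K₁` is finite over `C`. -/
theorem finite_K1 : @Module.Finite C K₁ _ _ a₁.toModule := by
  letI := kap3Alg C K₁ a₁ a₂
  exact D.finite_res 1

include D in
/-- **`[K₁ : C] = 1`** if the degrees add up. -/
theorem finrank_K1_eq_one (n f₂ e₁ : ℕ) (hn : Module.finrank E₀ L₀ = n)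
    (he : letI := kap3Alg C K₁ a₁ a₂; D.e 0 = 1 ∧ D.e 1 = e₁ ∧ D.e 2 = 1) (hpos : 0 < e₁)
    (hf₂ : @Module.finrank C C _ _ a₂.toModule = f₂) (hsum : 1 + e₁ + f₂ = n) :
    @Module.finrank C K₁ _ _ a₁.toModule = 1 := by
  have h := fund3 a₁ a₂ D 1 e₁ 1 he
  rw [hf₂, hn, ← hsum] at h
  have hpos' : 0 < @Module.finrank C K₁ _ _ a₁.toModule := by
    letI := a₁
    haveI : Module.Finite C K₁ := finite_K1 a₁ a₂ D
    exact Module.finrank_pos
  have h1 : e₁ * @Module.finrank C K₁ _ _ a₁.toModule ≤ e₁ * 1 := by omega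
  have h2 := Nat.le_of_mul_le_mul_left h1 hpos
  omega

include D in
/-- The structure map `C → K₁` is surjective if the degrees add up. -/
theorem surjective_K1 (n f₂ e₁ : ℕ) (hn : Module.finrank E₀ L₀ = n)
    (he : letI := kap3Alg C K₁ a₁ a₂; D.e 0 = 1 ∧ D.e 1 = e₁ ∧ D.e 2 = 1) (hpos : 0 < e₁)
    (hf₂ : @Module.finrank C C _ _ a₂.toModule = f₂) (hsum : 1 + e₁ + f₂ = n) :
    Function.Surjective (@algebraMap C K₁ _ _ a₁) := by
  letI := a₁
  have h1 : Module.finrank C K₁ = 1 :=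
    finrank_K1_eq_one a₁ a₂ D n f₂ e₁ hn he hpos hf₂ hsum
  haveI : Module.Finite C K₁ := finite_K1 a₁ a₂ D
  intro y
  have hb : (⊥ : Subalgebra C K₁) = ⊤ := Subalgebra.bot_eq_top_of_finrank_eq_one h1
  have hy : y ∈ (⊥ : Subalgebra C K₁) := by rw [hb]; trivial
  exact Algebra.mem_bot.mp hy

end Consequences

end Fermat.Agent.S36.NU.H23
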