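import Mathlib
import Fermat.Agent.BAD.H42_NormRed2

/-!
# S36 / NU-B, leaf TOT3-MOD, step 2c (helper23): restriction of a valuation ring to a subfield

`F` a field, `L₀` a subfield, `V` a valuation ring of `F` with residue map `red : V → R`.
* `resV0 L₀ V : ValuationSubring L₀`, `resIncl : resV0 → V`, `resRed red : resV0 → R`;
* units, kernel of `resRed`, comparison of the valuations, `isArch_resV0`.
-/

set_option autoImplicit false

noncomputable section

namespace Fermat.Agent.S36.NU.H23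

open Fermat.Agent.BAD

section Generic

variable {F : Type} [Field F] (L₀ : Subfield F) (V : ValuationSubring F)

/-- The restriction of a valuation ring to a subfield. -/
def resV0 : ValuationSubring ↥L₀ := V.comap L₀.subtype

theorem mem_resV0_iff (x : ↥L₀) : x ∈ resV0 L₀ V ↔ (x : F) ∈ V := Iff.rfl

/-- The inclusion of the restricted valuation ring. -/
def resIncl : ↥(resV0 L₀ V) →+* ↥V :=
  (L₀.subtype.comp (resV0 L₀ V).subtype).codRestrict V (fun x => x.2)

theorem coe_resIncl (x : ↥(resV0 L₀ V)) : ((resIncl L₀ V x : ↥V) : F) = ((x : ↥L₀) : F) := rfl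

theorem resIncl_mk (x : ↥L₀) (h : x ∈ resV0 L₀ V) :
    resIncl L₀ V ⟨x, h⟩ = ⟨(x : F), h⟩ := rfl

theorem resIncl_injective : Function.Injective (resIncl L₀ V) := fun _ _ h =>
  Subtype.ext (Subtype.ext (congrArg (fun z : ↥V => (z : F)) h))

theorem isUnit_resV0_iff (x : ↥(resV0 L₀ V)) : IsUnit x ↔ IsUnit (resIncl L₀ V x) := by
  constructor
  · exact fun h => h.map (resIncl L₀ V)
  · intro h
    by_cases hx : (x : ↥L₀) = 0
    · exfalso
      have h0 : resIncl L₀ V x = 0 := by
        apply Subtype.ext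
        rw [coe_resIncl, hx]; rfl
      rw [h0] at h
      exact not_isUnit_zero h
    · obtain ⟨u, hu⟩ := h
      have hinv : ((x : ↥L₀)⁻¹ : ↥L₀) ∈ resV0 L₀ V := by
        rw [mem_resV0_iff]
        have h1 : (((u⁻¹ : (↥V)ˣ) : ↥V) : F) * ((x : ↥L₀) : F) = 1 := by
          have h2 : ((u⁻¹ : (↥V)ˣ) : ↥V) * resIncl L₀ V x = 1 := by rw [← hu]; exact u.inv_mul
          have h3 := congrArg (fun z : ↥V => (z : F)) h2
          simpa [coe_resIncl] using h3
        have h4 : (((x : ↥L₀)⁻¹ : ↥L₀) : F) = (((u⁻¹ : (↥V)ˣ) : ↥V) : F) := by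
          have hxF : ((x : ↥L₀) : F) ≠ 0 := fun h0 => hx (Subtype.ext h0)
          rw [Subfield.coe_inv]
          exact (eq_inv_of_mul_eq_one_left h1).symm
        rw [h4]
        exact ((u⁻¹ : (↥V)ˣ) : ↥V).2
      refine ⟨⟨x, ⟨_, hinv⟩, ?_, ?_⟩, rfl⟩
      · exact Subtype.ext (mul_inv_cancel₀ hx)
      · exact Subtype.ext (inv_mul_cancel₀ hx)

variable {R : Type*} [Field R] (red : ↥V →+* R)

/-- The residue map of the restricted valuation ring. -/
def resRed : ↥(resV0 L₀ V) →+* R := red.comp (resIncl L₀ V)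

theorem resRed_apply (x : ↥(resV0 L₀ V)) : resRed L₀ V red x = red (resIncl L₀ V x) := rfl

theorem resRed_mk (x : ↥L₀) (h : x ∈ resV0 L₀ V) :
    resRed L₀ V red ⟨x, h⟩ = red ⟨(x : F), h⟩ := rfl

theorem resRed_eq_zero_of_not_isUnit
    (hred : ∀ u : ↥V, red u = 0 ↔ u ∈ IsLocalRing.maximalIdeal ↥V)
    (x : ↥(resV0 L₀ V)) (hx : ¬ IsUnit x) : resRed L₀ V red x = 0 := by
  rw [resRed_apply, hred, IsLocalRing.mem_maximalIdeal, mem_nonunits_iff, ← isUnit_resV0_iff]
  exact hx

theorem resRed_eq_zero_iff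
    (hred : ∀ u : ↥V, red u = 0 ↔ u ∈ IsLocalRing.maximalIdeal ↥V)
    (x : ↥(resV0 L₀ V)) :
    resRed L₀ V red x = 0 ↔ x ∈ IsLocalRing.maximalIdeal ↥(resV0 L₀ V) := by
  rw [resRed_apply, hred, IsLocalRing.mem_maximalIdeal, mem_nonunits_iff,
    IsLocalRing.mem_maximalIdeal, mem_nonunits_iff, ← isUnit_resV0_iff]

/-! ### Valuations -/

theorem valuation_resV0_le_one_iff (x : ↥L₀) :
    (resV0 L₀ V).valuation x ≤ 1 ↔ V.valuation (x : F) ≤ 1 := by
  rw [ValuationSubring.valuation_le_one_iff, ValuationSubring.valuation_le_one_iff]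
  exact Iff.rfl

theorem valuation_resV0_le_iff (x y : ↥L₀) :
    (resV0 L₀ V).valuation x ≤ (resV0 L₀ V).valuation y
      ↔ V.valuation (x : F) ≤ V.valuation (y : F) := by
  by_cases hy : y = 0
  · subst hy
    simp only [map_zero, le_zero_iff, map_eq_zero, Subfield.coe_zero]
    exact ⟨fun h => by rw [h]; rfl, fun h => Subtype.ext h⟩
  · have hyF : (y : F) ≠ 0 := fun h0 => hy (Subtype.ext h0)
    have h1 : (resV0 L₀ V).valuation x ≤ (resV0 L₀ V).valuation y
        ↔ (resV0 L₀ V).valuation (x / y) ≤ 1 := by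
      rw [map_div₀, div_le_one₀ (zero_lt_iff.2 ((Valuation.ne_zero_iff _).2 hy))]
    have h2 : V.valuation (x : F) ≤ V.valuation (y : F)
        ↔ V.valuation ((x : F) / (y : F)) ≤ 1 := by
      rw [map_div₀, div_le_one₀ (zero_lt_iff.2 ((Valuation.ne_zero_iff _).2 hyF))]
    rw [h1, h2, valuation_resV0_le_one_iff]
    rfl

theorem valuation_resV0_lt_iff (x y : ↥L₀) :
    (resV0 L₀ V).valuation x < (resV0 L₀ V).valuation y
      ↔ V.valuation (x : F) < V.valuation (y : F) := by
  rw [lt_iff_not_ge, lt_iff_not_ge, valuation_resV0_le_iff]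

theorem valuation_resV0_eq_iff (x y : ↥L₀) :
    (resV0 L₀ V).valuation x = (resV0 L₀ V).valuation y
      ↔ V.valuation (x : F) = V.valuation (y : F) := by
  rw [le_antisymm_iff, le_antisymm_iff, valuation_resV0_le_iff, valuation_resV0_le_iff]

theorem valuation_resV0_lt_one_iff (x : ↥L₀) :
    (resV0 L₀ V).valuation x < 1 ↔ V.valuation (x : F) < 1 := by
  have := valuation_resV0_lt_iff L₀ V x 1
  simpa using this

/-- The restriction of a valuation ring of rank one is of rank one. -/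
theorem isArch_resV0 (h : H42.IsArch V) : H42.IsArch (resV0 L₀ V) := by
  intro x y hx hy
  have hyF : (y : F) ≠ 0 := fun h0 => hy (Subtype.ext h0)
  obtain ⟨n, hn⟩ := h (x : F) (y : F) ((valuation_resV0_lt_one_iff L₀ V x).1 hx) hyF
  exact ⟨n, (valuation_resV0_lt_iff L₀ V (x ^ n) y).2 (by simpa using hn)⟩

/-- Incomparability from a separating element of the subfield. -/
theorem not_resV0_le {V W : ValuationSubring F} (x : ↥L₀) (hV : (x : F) ∈ V) (hW : (x : F) ∉ W) :
    ¬ resV0 L₀ V ≤ resV0 L₀ W := fun h => hW (h hV)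

end Generic

end Fermat.Agent.S36.NU.H23
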