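import Fermat.Agent.S36.NU.H23_L0
import Fermat.Agent.S36.NU.H23_Res
import Fermat.Agent.BAD.H88_VM
import Fermat.Agent.FL.H38_UnrConst
import Fermat.Agent.RED.H73_GAFinal

/-!
# S36 / NU-B, leaf TOT3-MOD, step T3-f SURJ (helper42)

`A` a valuation ring of `ℚ̄` over the prime `q`, `k = A/𝔪`, `I ≤ Gal(ℚ̄/ℚ)` its inertia group,
`L₀ = F_M^I` the inertia-fixed functions of level `M` (helper23's `H23.L0`).

* `exists_fixed_lift`  : every `a ∈ k` is the residue of some `c ∈ A` fixed by `I` (restatement of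
  `FL.H38.exists_inertia_fixed_lift` with `resV`);
* `surj_L0`            : every `y ∈ k(j~(t^d) : d ∣ M)` is the reduction of some
  `x ∈ L₀ ∩ V_M` (induction on the generation of the field `fullC`).
* `surj_L0'`           : the same, as surjectivity of the restriction of `redM` to
  `L₀ ∩ V_M` onto `FM`, given `FM = fullC`.
-/

set_option autoImplicit false
set_option synthInstance.maxHeartbeats 400000
set_option maxHeartbeats 1000000
set_option linter.unusedSectionVars false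
set_option linter.unusedVariables false
set_option linter.style.haveILetI false

noncomputable section

open ModularCurve AlgebraicCurve Fermat.Agent.S24 Fermat.Agent.S28 Fermat.Agent.S28.H73
  Fermat.Agent.RED.H73 Fermat.Agent.BAD.H88

namespace Fermat.Agent.S36.NU.H42

variable (A : ValuationSubring Kbar)

/-- Teichmüller lifts: every residue is the residue of an inertia-fixed element of `A`. -/
theorem exists_fixed_lift {q : ℕ} (hq : q.Prime) (hA : A.LiesOverPrime q) (a : kV A) :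
    ∃ c : Kbar, ∃ hc : c ∈ A, (∀ σ ∈ A.inertiaSubgroupIn ℚ, σ c = c) ∧ resV A ⟨c, hc⟩ = a :=
  Fermat.Agent.FL.H38.exists_inertia_fixed_lift A hq hA a

variable (M : ℕ) [NeZero M]

/-- The coercion of the reduction. -/
theorem coe_redM (x : ↥(VM A M)) :
    ((redM A M x : FM A M) : LaurentSeries (kV A))
      = gaussRedV A ⟨((x : FN M) : LaurentSeries Kbar), x.2⟩ := rfl

/-- The statement `P y`: `y` is the reduction of an inertia-fixed Gauss-integral function. -/
def IsRedL0 (y : LaurentSeries (kV A)) : Prop :=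
  ∃ x : FN M, x ∈ H23.L0 A M ∧ ∃ h : x ∈ VM A M,
    ((redM A M ⟨x, h⟩ : FM A M) : LaurentSeries (kV A)) = y

theorem isRedL0_add {y z : LaurentSeries (kV A)} (hy : IsRedL0 A M y) (hz : IsRedL0 A M z) :
    IsRedL0 A M (y + z) := by
  obtain ⟨x, hx, hxV, rfl⟩ := hy
  obtain ⟨x', hx', hxV', rfl⟩ := hz
  refine ⟨x + x', add_mem hx hx', add_mem hxV hxV', ?_⟩
  have e : (⟨x + x', add_mem hxV hxV'⟩ : ↥(VM A M)) = ⟨x, hxV⟩ + ⟨x', hxV'⟩ := rfl
  rw [e, map_add]
  rfl

theorem isRedL0_mul {y z : LaurentSeries (kV A)} (hy : IsRedL0 A M y) (hz : IsRedL0 A M z) :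
    IsRedL0 A M (y * z) := by
  obtain ⟨x, hx, hxV, rfl⟩ := hy
  obtain ⟨x', hx', hxV', rfl⟩ := hz
  refine ⟨x * x', mul_mem hx hx', mul_mem hxV hxV', ?_⟩
  have e : (⟨x * x', mul_mem hxV hxV'⟩ : ↥(VM A M)) = ⟨x, hxV⟩ * ⟨x', hxV'⟩ := rfl
  rw [e, map_mul]
  rfl

theorem isRedL0_zero : IsRedL0 A M 0 :=
  ⟨0, zero_mem _, zero_mem _, by
    have e : (⟨0, zero_mem _⟩ : ↥(VM A M)) = 0 := rfl
    rw [e, map_zero]; rfl⟩

theorem isRedL0_inv {y : LaurentSeries (kV A)} (hy : IsRedL0 A M y) :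
    IsRedL0 A M y⁻¹ := by
  by_cases hy0 : y = 0
  · rw [hy0, inv_zero]; exact isRedL0_zero A M
  obtain ⟨x, hx, hxV, rfl⟩ := hy
  have hne : redM A M ⟨x, hxV⟩ ≠ 0 := fun h0 => hy0 (by rw [h0]; rfl)
  have hunit : IsUnit (⟨x, hxV⟩ : ↥(VM A M)) :=
    (Fermat.Agent.RED.H17.gaussResF'_ne_zero_iff_isUnit A (hScM A M) _).mp hne
  obtain ⟨v, hv⟩ := hunit.exists_right_inv
  have hv' : x * (v : FN M) = 1 := congrArg Subtype.val hv
  have e : x⁻¹ = (v : FN M) := (eq_inv_of_mul_eq_one_right hv').symm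
  have hinvV : x⁻¹ ∈ VM A M := by rw [e]; exact v.2
  refine ⟨x⁻¹, inv_mem hx, hinvV, ?_⟩
  have e2 : (⟨x⁻¹, hinvV⟩ : ↥(VM A M)) = v := Subtype.ext e
  rw [e2]
  have h1 : redM A M ⟨x, hxV⟩ * redM A M v = 1 := by rw [← map_mul, hv, map_one]
  have h2 : redM A M v = (redM A M ⟨x, hxV⟩)⁻¹ := eq_inv_of_mul_eq_one_right h1
  rw [h2]
  rfl

theorem isRedL0_const {q : ℕ} (hq : q.Prime) (hA : A.LiesOverPrime q) (a : kV A) :
    IsRedL0 A M (algebraMap (kV A) (LaurentSeries (kV A)) a) := by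
  obtain ⟨c, hc, hfix, hres⟩ := exists_fixed_lift A hq hA a
  have hV : algebraMap Kbar (FN M) c ∈ VM A M := (const_memM A M c).mpr hc
  refine ⟨algebraMap Kbar (FN M) c, (H23.const_mem_L0_iff A c).mpr hfix, hV, ?_⟩
  have h1 := gaussResF_algebraMap A (hScM A M) ⟨c, hc⟩ hV
  rw [algebraMap_kV, ← hres]
  exact h1

theorem isRedL0_jd (d : ℕ) [NeZero d] (hd : d ∣ M) :
    IsRedL0 A M (qExpand (kV A) d (jqModC (kV A))) := by
  have hcoe : ((jdF M d hd : FN M) : LaurentSeries Kbar) = qExpand Kbar d (jqModC Kbar) :=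
    coeffEmb_qExpand_jq d
  have hm : ((jdF M d hd : FN M) : LaurentSeries Kbar) ∈ gaussRingV A := by
    rw [hcoe]
    exact qExpand_jqModC_mem_gaussRingV A d
  refine ⟨jdF M d hd, H23.jdF_mem_L0 A M d hd, hm, ?_⟩
  rw [coe_redM]
  have e : (⟨((jdF M d hd : FN M) : LaurentSeries Kbar), hm⟩ : gaussRingV A)
      = ⟨qExpand Kbar d (jqModC Kbar), qExpand_jqModC_mem_gaussRingV A d⟩ :=
    Subtype.ext hcoe
  exact (congrArg (gaussRedV A) e).trans (gaussRedV_qExpand_jqModC A d _)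

/-- The induction: every element of `k(j~(t^d) : d ∣ M)` is such a reduction. -/
theorem isRedL0_of_mem {q : ℕ} (hq : q.Prime) (hA : A.LiesOverPrime q)
    (y : LaurentSeries (kV A)) (hy : y ∈ modularFunctionFieldFullC (kV A) M) :
    IsRedL0 A M y := by
  have hy' : y ∈ IntermediateField.adjoin (kV A) (divisorExpansionsC (kV A) M) := hy
  clear hy
  induction hy' using IntermediateField.adjoin_induction with
  | mem z hz =>
    obtain ⟨d, hd0, hd, rfl⟩ := hz
    exact isRedL0_jd A M d hd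
  | algebraMap c => exact isRedL0_const A M hq hA c
  | add y z _ _ hy hz => exact isRedL0_add A M hy hz
  | inv y _ hy => exact isRedL0_inv A M hy
  | mul y z _ _ hy hz => exact isRedL0_mul A M hy hz

end Fermat.Agent.S36.NU.H42

namespace Fermat.Agent.S36.NU.H42

/-- **T3-f SURJ**: every element of `k(j~(t^d) : d ∣ M)` is the reduction of an inertia-fixed
Gauss-integral function of level `M`. -/
theorem surj_L0 (A : ValuationSubring Kbar) (q M : ℕ) [NeZero M] (hq : q.Prime)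
    (hqM : ¬ q ∣ M) (hA : A.LiesOverPrime q)
    (y : LaurentSeries (kV A)) (hy : y ∈ modularFunctionFieldFullC (kV A) M) :
    ∃ x : FN M, x ∈ H23.L0 A M ∧ ∃ h : x ∈ VM A M,
      ((redM A M ⟨x, h⟩ : FM A M) : LaurentSeries (kV A)) = y :=
  isRedL0_of_mem A M hq hA y hy

/-- Every element of the residue field `FM` of `V_M` is the reduction of an inertia-fixed
function, given (GA): `FM = fullC`. -/
theorem surj_L0_FM (A : ValuationSubring Kbar) (q M : ℕ) [NeZero M] (hq : q.Prime)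
    (hqM : ¬ q ∣ M) (hA : A.LiesOverPrime q)
    (hGA : redField A (modularFunctionFieldBar M) (hScM A M)
      = modularFunctionFieldFullC (kV A) M)
    (y : FM A M) :
    ∃ x : FN M, x ∈ H23.L0 A M ∧ ∃ h : x ∈ VM A M, redM A M ⟨x, h⟩ = y := by
  have hy : (y : LaurentSeries (kV A)) ∈ modularFunctionFieldFullC (kV A) M := by
    rw [← hGA]; exact y.2
  obtain ⟨x, hx, hxV, e⟩ := surj_L0 A q M hq hqM hA _ hy
  exact ⟨x, hx, hxV, Subtype.ext e⟩

/-- The residue map of the restriction of `V_M` to `L₀` is onto `FM`, given (GA). -/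
theorem surjective_resRed_L0 (A : ValuationSubring Kbar) (q M : ℕ) [NeZero M] (hq : q.Prime)
    (hqM : ¬ q ∣ M) (hA : A.LiesOverPrime q)
    (hGA : redField A (modularFunctionFieldBar M) (hScM A M)
      = modularFunctionFieldFullC (kV A) M) :
    Function.Surjective (H23.resRed (H23.L0 A M) (VM A M) (redM A M)) := by
  intro y
  obtain ⟨x, hx, hxV, e⟩ := surj_L0_FM A q M hq hqM hA hGA y
  exact ⟨⟨⟨x, hx⟩, hxV⟩, e⟩

/-- (GA) at level `M`: the residue field of `V_M` is `k(j~(t^d) : d ∣ M)`. -/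
theorem FM_eq_fullC (A : ValuationSubring Kbar) (q M : ℕ) [NeZero M] (hq : q.Prime)
    (hqM : ¬ q ∣ M) (hA : A.LiesOverPrime q) :
    redField A (modularFunctionFieldBar M) (hScM A M) = modularFunctionFieldFullC (kV A) M :=
  Fermat.Agent.RED.H73.stmt_GA M q hq hqM A hA

/-- **T3-f SURJ**, final form: the residue map of `V_M ∩ L₀` is onto the residue field of
`V_M`. -/
theorem surjective_resRed_L0' (A : ValuationSubring Kbar) (q M : ℕ) [NeZero M] (hq : q.Prime)
    (hqM : ¬ q ∣ M) (hA : A.LiesOverPrime q) :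
    Function.Surjective (H23.resRed (H23.L0 A M) (VM A M) (redM A M)) :=
  surjective_resRed_L0 A q M hq hqM hA (FM_eq_fullC A q M hq hqM hA)

end Fermat.Agent.S36.NU.H42
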