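import Fermat.Agent.S36.NU.H88_Ram11
import Fermat.Agent.S36.NU.H23_L0
import Fermat.Agent.S36.NU.H23_Res
import Fermat.Agent.R.H6_UnrFix
import Fermat.Agent.BAD.H82_ArchF
import Fermat.Agent.BAD.H42_Arch
import Fermat.Agent.BAD.H82_KronF
import Fermat.Agent.RED.H73_GAModular

/-!
# S36 / NU-B, leaf T3-c VAL0 (helper82): the three valuations on the inertia-fixed functions

`A` a valuation ring of `Q̄` over `q`, `I` its inertia group, `L₀ = F_N^I` (helper23's `L0 A N`).

* `exists_zpow_gaussUnit` (abstract): a quotient of two elements of `IntSpan C` with coefficients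
  in a subfield `K₀` whose nonzero elements have valuations in `v(π)^ℤ` is `π^m` times a Gauss
  unit (descent by a `K₀`-linear form, then the Gauss norm is attained at a coefficient);
* `exists_val20_eq_zpow`, `disc20` : on `L0 A N` the Gauss valuation `V20` takes its values in
  `v(q)^ℤ`, and `q` is a uniformiser;  `exists_val02_eq_zpow`, `disc02` : the same for `V02`;
* `isArch_V20`, `isArch_V02`, `isArch_V11` : the three valuations are of rank one;
* `not_resV0_le_*` : the three valuations are pairwise incomparable on `L0 A N`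
  (separating elements with rational coefficients).
-/

set_option autoImplicit false
set_option synthInstance.maxHeartbeats 400000
set_option maxHeartbeats 1000000
set_option linter.unusedSectionVars false
set_option linter.style.haveILetI false

noncomputable section

open ModularCurve Fermat.Agent.S24 Fermat.Agent.S28 Fermat.Agent.S28.H73 Fermat.Agent.RED.H73
open Fermat.Agent.BAD.H88 Fermat.Agent.S36.NU.H88 Fermat.Agent.S36.NU.H23

namespace Fermat.Agent.S36.NU.H82


section Descent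

variable {C : Type} [Field C]

/-- `φ` is linear over `K₀` and `x` has coefficients in `K₀`:
`φ` applied coefficientwise commutes with the multiplication by `x`. -/
theorem map_mul_of_coeff_mem (K₀ : Subfield C) (φ : C →+ C)
    (hφ : ∀ k ∈ K₀, ∀ c, φ (k * c) = k * φ c) (x b : LaurentSeries C)
    (hx : ∀ n, x.coeff n ∈ K₀) :
    (x * b).map φ = x * b.map φ := by
  ext n
  have hsub : (b.map φ).support ⊆ b.support := by
    intro j hj
    rw [HahnSeries.mem_support] at hj ⊢
    intro h0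
    apply hj
    rw [HahnSeries.map_coeff, h0, map_zero]
  rw [HahnSeries.map_coeff, HahnSeries.coeff_mul,
    HahnSeries.coeff_mul_right' b.isPWO_support hsub, map_sum]
  refine Finset.sum_congr rfl fun ij _ => ?_
  rw [hφ _ (hx ij.1), HahnSeries.map_coeff]

/-- `φ` applied coefficientwise to an element of `IntSpan C` in explicit form. -/
theorem map_repr (φ : C →+ C) {ι : Type} [Fintype ι] (c : ι → C) (m : ι → LaurentSeries ℤ) :
    (∑ i, HahnSeries.C (c i) * coeffMap (Int.castRingHom C) (m i)).map φ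
      = ∑ i, HahnSeries.C (φ (c i)) * coeffMap (Int.castRingHom C) (m i) := by
  ext k
  rw [HahnSeries.map_coeff, coeff_repr (C := C), coeff_repr (C := C), map_sum]
  refine Finset.sum_congr rfl fun i _ => ?_
  have h1 : c i * (((m i).coeff k : ℤ) : C) = ((m i).coeff k) • c i := by
    rw [zsmul_eq_mul, mul_comm]
  have h2 : φ (c i) * (((m i).coeff k : ℤ) : C) = ((m i).coeff k) • φ (c i) := by
    rw [zsmul_eq_mul, mul_comm]
  rw [h1, h2, map_zsmul]

theorem map_mem_intSpan (φ : C →+ C) {a : LaurentSeries C} (ha : a ∈ IntSpan C) :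
    a.map φ ∈ IntSpan C := by
  obtain ⟨ι, _, c, m, rfl⟩ := exists_repr_of_mem_intSpan ha
  rw [map_repr]
  refine Subalgebra.sum_mem _ fun i _ => ?_
  have hC : (HahnSeries.C (φ (c i)) : LaurentSeries C) ∈ IntSpan C := by
    have e : (HahnSeries.C (φ (c i)) : LaurentSeries C)
        = algebraMap C (LaurentSeries C) (φ (c i)) := by
      rw [algebraMap_laurentSeries_eq_single]; rfl
    rw [e]
    exact Subalgebra.algebraMap_mem _ _
  exact Subalgebra.mul_mem _ hC (coeffMap_int_mem_intSpan (C := C) (m i))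

variable (O : ValuationSubring C)

/-- A nonzero element of `IntSpan C` whose coefficients have valuations in `v(π)^ℤ` is a Gauss
unit times a power of `π`. -/
theorem exists_zpow_gaussUnit_of_intSpan (π : C) (hπ : π ≠ 0) {y : LaurentSeries C}
    (hy : y ∈ IntSpan C) (hy0 : y ≠ 0)
    (hval : ∀ n, y.coeff n ≠ 0 → ∃ m : ℤ, O.valuation (y.coeff n) = O.valuation π ^ m) :
    ∃ m : ℤ, GaussUnit O (HahnSeries.C (π ^ m) * y) := by
  obtain ⟨c, hc0, hP⟩ := exists_primSeries_scale O hy hy0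
  obtain ⟨hall, n, hn0, hninv⟩ := hP
  have hcoeff : (HahnSeries.C c * y).coeff n = c * y.coeff n := by
    rw [HahnSeries.C_mul_eq_smul, HahnSeries.coeff_smul, smul_eq_mul]
  rw [hcoeff] at hn0 hninv
  have hyn : y.coeff n ≠ 0 := right_ne_zero_of_mul hn0
  obtain ⟨m, hm⟩ := hval n hyn
  have hmem : c * y.coeff n ∈ O := by
    have := hall n
    rw [hcoeff] at this
    exact this
  have h1 : O.valuation (c * y.coeff n) = 1 := by
    apply le_antisymm
    · exact (ValuationSubring.valuation_le_one_iff _ _).2 hmem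
    · have h2 : O.valuation (c * y.coeff n)⁻¹ ≤ 1 :=
        (ValuationSubring.valuation_le_one_iff _ _).2 hninv
      rw [map_inv₀] at h2
      have hpos : 0 < O.valuation (c * y.coeff n) :=
        zero_lt_iff.2 ((Valuation.ne_zero_iff _).2 hn0)
      exact (inv_le_one₀ hpos).1 h2
  -- `u = π^(-m) / c` is a unit of `O`
  have hπm : (π ^ (-m) : C) ≠ 0 := zpow_ne_zero _ hπ
  have hvc : O.valuation c = O.valuation (π ^ (-m)) := by
    rw [map_mul, hm] at h1
    rw [map_zpow₀, zpow_neg]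
    exact eq_inv_of_mul_eq_one_left h1
  have hu : GaussUnit O (HahnSeries.C (π ^ (-m) * c⁻¹)) := by
    rw [gaussUnit_C_iff]
    refine ⟨?_, mul_ne_zero hπm (inv_ne_zero hc0), ?_⟩
    · rw [← ValuationSubring.valuation_le_one_iff, map_mul, map_inv₀, hvc]
      rw [mul_inv_cancel₀ ((Valuation.ne_zero_iff _).2 hπm)]
    · rw [← ValuationSubring.valuation_le_one_iff, map_inv₀, map_mul, map_inv₀, hvc]
      rw [mul_inv_cancel₀ ((Valuation.ne_zero_iff _).2 hπm), inv_one]
  refine ⟨-m, ?_⟩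
  have e : HahnSeries.C (π ^ (-m)) * y
      = HahnSeries.C (π ^ (-m) * c⁻¹) * (HahnSeries.C c * y) := by
    rw [← mul_assoc, ← map_mul, mul_assoc, inv_mul_cancel₀ hc0, mul_one]
  rw [e]
  exact hu.mul (gaussUnit_of_primSeries O ⟨hall, n, by rwa [hcoeff], by rwa [hcoeff]⟩)

/-- **Descent of the Gauss norm.**  `K₀` a subfield of `C` all of whose nonzero elements have
valuation in `v(π)^ℤ`; `x` a series with coefficients in `K₀` which is a quotient of two
elements of `IntSpan C`.  Then `x` is a power of `π` times a Gauss unit. -/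
theorem exists_zpow_gaussUnit (K₀ : Subfield C) (π : C) (hπ : π ≠ 0)
    (hK₀ : ∀ c ∈ K₀, c ≠ 0 → ∃ m : ℤ, O.valuation c = O.valuation π ^ m)
    {x a b : LaurentSeries C} (hx : ∀ n, x.coeff n ∈ K₀) (hx0 : x ≠ 0)
    (ha : a ∈ IntSpan C) (hb : b ∈ IntSpan C) (hb0 : b ≠ 0) (hxb : x * b = a) :
    ∃ m : ℤ, GaussUnit O (HahnSeries.C (π ^ m) * x) := by
  classical
  -- a coefficient of `b` which is not zero
  obtain ⟨n₀, hn₀⟩ : ∃ n, b.coeff n ≠ 0 := by
    by_contra hcon
    apply hb0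
    ext n
    by_contra hn
    exact hcon ⟨n, hn⟩
  -- a `K₀`-linear form which does not vanish at it
  obtain ⟨ψ, hψ⟩ : ∃ ψ : Module.Dual ↥K₀ C, ψ (b.coeff n₀) ≠ 0 := by
    by_contra hcon
    apply hn₀
    rw [← Module.forall_dual_apply_eq_zero_iff (↥K₀)]
    intro ψ
    by_contra h
    exact hcon ⟨ψ, h⟩
  let φ : C →+ C := (K₀.subtype : ↥K₀ →+ C).comp ψ.toAddMonoidHom
  have hφ : ∀ k ∈ K₀, ∀ c, φ (k * c) = k * φ c := by
    intro k hk c
    show ((ψ (k * c) : ↥K₀) : C) = k * ((ψ c : ↥K₀) : C)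
    have : ψ ((⟨k, hk⟩ : ↥K₀) • c) = (⟨k, hk⟩ : ↥K₀) • ψ c := map_smul ψ _ _
    have h2 : (⟨k, hk⟩ : ↥K₀) • c = k * c := rfl
    rw [h2] at this
    rw [this]
    rfl
  have hφmem : ∀ c, φ c ∈ K₀ := fun c => (ψ c).2
  set a' := a.map φ with ha'
  set b' := b.map φ with hb'
  have hb'0 : b' ≠ 0 := by
    intro h0
    apply hψ
    have := congrArg (fun s : LaurentSeries C => s.coeff n₀) h0
    simp only [hb', HahnSeries.map_coeff, HahnSeries.coeff_zero] at this
    exact Subtype.ext this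
  have hxb' : x * b' = a' := by
    rw [ha', hb', ← map_mul_of_coeff_mem K₀ φ hφ x b hx, hxb]
  have ha'0 : a' ≠ 0 := by
    rw [← hxb']
    exact mul_ne_zero hx0 hb'0
  obtain ⟨ma, hma⟩ := exists_zpow_gaussUnit_of_intSpan O π hπ (map_mem_intSpan φ ha) ha'0
    (fun n hn => hK₀ _ (hφmem _) hn)
  obtain ⟨mb, hmb⟩ := exists_zpow_gaussUnit_of_intSpan O π hπ (map_mem_intSpan φ hb) hb'0
    (fun n hn => hK₀ _ (hφmem _) hn)
  refine ⟨ma - mb, ?_⟩
  have hCb : (HahnSeries.C (π ^ mb) : LaurentSeries C) ≠ 0 := C_ne_zero' (zpow_ne_zero _ hπ)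
  have e : HahnSeries.C (π ^ (ma - mb)) * x
      = (HahnSeries.C (π ^ ma) * a') * (HahnSeries.C (π ^ mb) * b')⁻¹ := by
    rw [← hxb', zpow_sub₀ hπ, div_eq_mul_inv, map_mul, C_inv', mul_inv]
    field_simp
  rw [e]
  exact hma.mul hmb.inv

end Descent


/-! ## The inertia field -/

section Kur

variable (A : ValuationSubring Kbar)

/-- The subfield of `Q̄` fixed by the inertia group of `A`. -/
def Kur : Subfield Kbar where
  carrier := {x | ∀ σ ∈ A.inertiaSubgroupIn ℚ, σ x = x}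
  mul_mem' := fun {x y} hx hy σ hσ => by rw [map_mul, hx σ hσ, hy σ hσ]
  one_mem' := fun σ _ => map_one σ
  add_mem' := fun {x y} hx hy σ hσ => by rw [map_add, hx σ hσ, hy σ hσ]
  zero_mem' := fun σ _ => map_zero σ
  neg_mem' := fun {x} hx σ hσ => by rw [map_neg, hx σ hσ]
  inv_mem' := fun x hx σ hσ => by rw [map_inv₀, hx σ hσ]

theorem mem_Kur_iff (x : Kbar) : x ∈ Kur A ↔ ∀ σ ∈ A.inertiaSubgroupIn ℚ, σ x = x := Iff.rfl

/-- The coefficients of an inertia-fixed function are fixed by inertia. -/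
theorem coeff_mem_Kur {N : ℕ} {x : FN N} (hx : x ∈ L0 A N) (n : ℤ) :
    (x : LaurentSeries Kbar).coeff n ∈ Kur A := by
  intro σ hσ
  have h := (mem_L0_iff_coeffMap A x).1 hx σ hσ
  exact congrArg (fun s : LaurentSeries Kbar => s.coeff n) h

/-- The inertia field is unramified: helper6's `stmt_UnrFix`. -/
theorem valuation_Kur {q : ℕ} (hq : q.Prime) (hA : A.LiesOverPrime q) (c : Kbar)
    (hc : c ∈ Kur A) (hc0 : c ≠ 0) :
    ∃ m : ℤ, A.valuation c = A.valuation (q : Kbar) ^ m :=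
  Fermat.Agent.R.H6.stmt_UnrFix q hq A hA c hc0 hc

/-- Every function of level `N` is a quotient of two elements of `IntSpan`. -/
theorem exists_intSpan_frac (N : ℕ) (x : FN N) :
    ∃ a b : LaurentSeries Kbar, a ∈ IntSpan Kbar ∧ b ∈ IntSpan Kbar ∧ b ≠ 0 ∧
      (x : LaurentSeries Kbar) * b = a := by
  have hx : (x : LaurentSeries Kbar) ∈ modularFunctionFieldFullC Kbar N := by
    rw [← laurentBaseChange_full_eq]; exact x.2
  rw [modularFunctionFieldFullC] at hx
  obtain ⟨a, ha, b, hb, hab⟩ := IntermediateField.mem_adjoin_iff_div.1 hx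
  have hle : Algebra.adjoin Kbar (divisorExpansionsC Kbar N) ≤ IntSpan Kbar :=
    Algebra.adjoin_le (divisorExpansionsC_subset_intSpan N)
  by_cases hb0 : b = 0
  · refine ⟨0, 1, zero_mem _, one_mem _, one_ne_zero, ?_⟩
    rw [hab, hb0, div_zero, zero_mul]
  · refine ⟨a, b, hle ha, hle hb, hb0, ?_⟩
    rw [hab, div_mul_cancel₀ _ hb0]

/-- **Discreteness, series form**: an inertia-fixed function is a power of `q` times a Gauss
unit. -/
theorem exists_zpow_gaussUnit_L0 {q : ℕ} (hq : q.Prime) (hA : A.LiesOverPrime q) {N : ℕ}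
    (x : FN N) (hx : x ∈ L0 A N) (hx0 : x ≠ 0) :
    ∃ m : ℤ, GaussUnit A (HahnSeries.C ((q : Kbar) ^ m) * (x : LaurentSeries Kbar)) := by
  obtain ⟨a, b, ha, hb, hb0, hab⟩ := exists_intSpan_frac N x
  have hq0 : (q : Kbar) ≠ 0 := Nat.cast_ne_zero.2 hq.ne_zero
  exact exists_zpow_gaussUnit A (Kur A) (q : Kbar) hq0
    (fun c hc hc0 => valuation_Kur A hq hA c hc hc0) (coeff_mem_Kur A hx)
    (fun h => hx0 (Subtype.ext h)) ha hb hb0 hab

end Kur

/-! ## Generic lemmas on valuation rings -/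

section GenericVal

variable {F F' : Type*} [Field F] [Field F']

/-- Comparison of the valuations of a valuation ring and of its preimage. -/
theorem val_le_iff_of_mem_iff (W : ValuationSubring F) (V : ValuationSubring F') (f : F →+* F')
    (h : ∀ x, x ∈ W ↔ f x ∈ V) (x y : F) :
    W.valuation x ≤ W.valuation y ↔ V.valuation (f x) ≤ V.valuation (f y) := by
  by_cases hy : y = 0
  · subst hy
    simp only [map_zero, le_zero_iff, map_eq_zero]
  · have hyF : f y ≠ 0 := fun h0 => hy ((map_eq_zero f).1 h0)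
    have h1 : W.valuation x ≤ W.valuation y ↔ W.valuation (x / y) ≤ 1 := by
      rw [map_div₀, div_le_one₀ (zero_lt_iff.2 ((Valuation.ne_zero_iff _).2 hy))]
    have h2 : V.valuation (f x) ≤ V.valuation (f y) ↔ V.valuation (f x / f y) ≤ 1 := by
      rw [map_div₀, div_le_one₀ (zero_lt_iff.2 ((Valuation.ne_zero_iff _).2 hyF))]
    rw [h1, h2, ValuationSubring.valuation_le_one_iff, ValuationSubring.valuation_le_one_iff,
      h, map_div₀]

theorem val_lt_iff_of_mem_iff (W : ValuationSubring F) (V : ValuationSubring F') (f : F →+* F')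
    (h : ∀ x, x ∈ W ↔ f x ∈ V) (x y : F) :
    W.valuation x < W.valuation y ↔ V.valuation (f x) < V.valuation (f y) := by
  rw [lt_iff_not_ge, lt_iff_not_ge, val_le_iff_of_mem_iff W V f h]

theorem val_eq_iff_of_mem_iff (W : ValuationSubring F) (V : ValuationSubring F') (f : F →+* F')
    (h : ∀ x, x ∈ W ↔ f x ∈ V) (x y : F) :
    W.valuation x = W.valuation y ↔ V.valuation (f x) = V.valuation (f y) := by
  rw [le_antisymm_iff, le_antisymm_iff, val_le_iff_of_mem_iff W V f h,
    val_le_iff_of_mem_iff W V f h]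

/-- An element and its inverse in the valuation ring: valuation one. -/
theorem val_eq_one_of_mem_of_inv_mem (V : ValuationSubring F) {y : F} (h1 : y ∈ V)
    (h2 : y⁻¹ ∈ V) (hy : y ≠ 0) : V.valuation y = 1 := by
  apply le_antisymm ((ValuationSubring.valuation_le_one_iff _ _).2 h1)
  have h3 := (ValuationSubring.valuation_le_one_iff _ _).2 h2
  rw [map_inv₀] at h3
  exact (inv_le_one₀ (zero_lt_iff.2 ((Valuation.ne_zero_iff _).2 hy))).1 h3

/-- If the values lie in `v(π)^ℤ` and `v(π) < 1` then `π` is a uniformiser. -/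
theorem val_le_of_eq_zpow (V : ValuationSubring F) {π x : F} (hπ : V.valuation π < 1)
    (hπ0 : π ≠ 0) {m : ℤ} (hm : V.valuation x = V.valuation π ^ m) (hx : V.valuation x < 1) :
    V.valuation x ≤ V.valuation π := by
  have hpos : 0 < V.valuation π := zero_lt_iff.2 ((Valuation.ne_zero_iff _).2 hπ0)
  rw [hm] at hx ⊢
  have h1 : 0 < m := (zpow_lt_one_iff_right_of_lt_one₀ hpos hπ).1 hx
  have h2 := zpow_le_zpow_right_of_le_one₀ hpos hπ.le (show (1 : ℤ) ≤ m by omega)
  rwa [zpow_one] at h2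

end GenericVal

/-! ## Discreteness of `V₂₀` and `V₀₂` on the inertia-fixed functions -/

section Disc

variable (A : ValuationSubring Kbar) (N : ℕ) [NeZero N]

theorem val20_eq_one_of_gaussUnit (y : FN N) (hy : GaussUnit A (y : LaurentSeries Kbar)) :
    (V20 A N).valuation y = 1 := by
  have hy0 : y ≠ 0 := fun h => hy.ne_zero (by rw [h]; rfl)
  refine val_eq_one_of_mem_of_inv_mem _ hy.mem ?_ hy0
  rw [mem_V20_iff]
  have e : ((y⁻¹ : FN N) : LaurentSeries Kbar) = (y : LaurentSeries Kbar)⁻¹ := rfl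
  rw [e]
  exact hy.inv.mem

theorem val20_natCast_lt_one {q : ℕ} (hA : A.LiesOverPrime q) :
    (V20 A N).valuation ((q : ℕ) : FN N) < 1 := by
  have e : ((q : ℕ) : FN N) = algebraMap Kbar (FN N) (q : Kbar) := (map_natCast _ q).symm
  rw [e]
  apply lt_of_le_of_ne
  · rw [ValuationSubring.valuation_le_one_iff, const_mem20]
    exact ((A.mem_nonunits_iff_exists_mem_maximalIdeal).1 hA).1
  · intro h1
    have hq0 : algebraMap Kbar (FN N) (q : Kbar) ≠ 0 := by
      intro h0
      rw [h0, map_zero] at h1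
      exact zero_ne_one h1
    have h2 : (algebraMap Kbar (FN N) (q : Kbar))⁻¹ ∈ V20 A N := by
      rw [← ValuationSubring.valuation_le_one_iff, map_inv₀, h1, inv_one]
    rw [← map_inv₀, const_mem20] at h2
    have h3 : A.valuation (q : Kbar) < 1 := (A.mem_nonunits_iff).1 hA
    have h4 : A.valuation (q : Kbar)⁻¹ ≤ 1 := (ValuationSubring.valuation_le_one_iff _ _).2 h2
    rw [map_inv₀] at h4
    have hq0' : (q : Kbar) ≠ 0 := fun h => hq0 (by rw [h, map_zero])
    have h5 := (inv_le_one₀ (zero_lt_iff.2 ((Valuation.ne_zero_iff _).2 hq0'))).1 h4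
    exact absurd h3 (not_lt.2 h5)

/-- **Value group of `V₂₀` on `L₀`**: it is generated by the value of `q`. -/
theorem exists_val20_eq_zpow {q : ℕ} (hq : q.Prime) (hA : A.LiesOverPrime q) (x : FN N)
    (hx : x ∈ L0 A N) (hx0 : x ≠ 0) :
    ∃ m : ℤ, (V20 A N).valuation x = (V20 A N).valuation ((q : ℕ) : FN N) ^ m := by
  obtain ⟨m, hm⟩ := exists_zpow_gaussUnit_L0 A hq hA x hx hx0
  refine ⟨-m, ?_⟩
  have hq0 : (q : Kbar) ≠ 0 := Nat.cast_ne_zero.2 hq.ne_zero
  have hy : ((algebraMap Kbar (FN N) ((q : Kbar) ^ m) * x : FN N) : LaurentSeries Kbar)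
      = HahnSeries.C ((q : Kbar) ^ m) * (x : LaurentSeries Kbar) := by
    show ((algebraMap Kbar (FN N) ((q : Kbar) ^ m) : FN N) : LaurentSeries Kbar)
      * (x : LaurentSeries Kbar) = _
    rw [coe_algebraMap_F]
  have h1 := val20_eq_one_of_gaussUnit A N _ (by rw [hy]; exact hm)
  rw [map_mul, map_zpow₀, map_natCast, map_zpow₀] at h1
  rw [zpow_neg]
  exact eq_inv_of_mul_eq_one_right h1

/-- **`q` is a uniformiser of `V₂₀ ∩ L₀`.** -/
theorem disc20 {q : ℕ} (hq : q.Prime) (hA : A.LiesOverPrime q) (x : FN N)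
    (hx : x ∈ L0 A N) (hlt : (V20 A N).valuation x < 1) :
    (V20 A N).valuation x ≤ (V20 A N).valuation ((q : ℕ) : FN N) := by
  by_cases hx0 : x = 0
  · rw [hx0, map_zero]; exact zero_le
  obtain ⟨m, hm⟩ := exists_val20_eq_zpow A N hq hA x hx hx0
  have hq0 : ((q : ℕ) : FN N) ≠ 0 := Nat.cast_ne_zero.2 hq.ne_zero
  exact val_le_of_eq_zpow _ (val20_natCast_lt_one A N hA) hq0 hm hlt

end Disc

section Disc02

variable (A : ValuationSubring Kbar)
variable (N q M : ℕ) (B k : ℤ) (hN : N = M * (q * q)) (hB : B * M + k * q = 1)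
  [NeZero N] [NeZero q]

include hN hB

/-- `W_{q²}` preserves the inertia-fixed functions. -/
theorem wSq_mem_L0 (x : FN N) (hx : x ∈ L0 A N) : wSq N q M B k hN hB x ∈ L0 A N := by
  intro σ hσ
  have h := wQ_arith N (q * q) M (k ^ 2) (B ^ 2 * M + 2 * B * k * q) hN
    (bezout_sq q M B k hB) σ x
  rw [hx σ hσ] at h
  exact h.symm

theorem val02_le_iff (x y : FN N) :
    (V02 A N q M B k hN hB).valuation x ≤ (V02 A N q M B k hN hB).valuation y
      ↔ (V20 A N).valuation (wSq N q M B k hN hB x)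
          ≤ (V20 A N).valuation (wSq N q M B k hN hB y) :=
  val_le_iff_of_mem_iff (V02 A N q M B k hN hB) (V20 A N)
    ((wSq N q M B k hN hB : FN N ≃ₐ[Kbar] FN N) : FN N →+* FN N)
    (fun x => mem_V02_iff A N q M B k hN hB x) x y

theorem val02_lt_iff (x y : FN N) :
    (V02 A N q M B k hN hB).valuation x < (V02 A N q M B k hN hB).valuation y
      ↔ (V20 A N).valuation (wSq N q M B k hN hB x)
          < (V20 A N).valuation (wSq N q M B k hN hB y) := by
  rw [lt_iff_not_ge, lt_iff_not_ge, val02_le_iff]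

theorem val02_eq_iff (x y : FN N) :
    (V02 A N q M B k hN hB).valuation x = (V02 A N q M B k hN hB).valuation y
      ↔ (V20 A N).valuation (wSq N q M B k hN hB x)
          = (V20 A N).valuation (wSq N q M B k hN hB y) := by
  rw [le_antisymm_iff, le_antisymm_iff, val02_le_iff, val02_le_iff]

theorem val02_natCast_lt_one (hA : A.LiesOverPrime q) :
    (V02 A N q M B k hN hB).valuation ((q : ℕ) : FN N) < 1 := by
  have h := (val02_lt_iff A N q M B k hN hB ((q : ℕ) : FN N) 1).2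
    (by rw [map_natCast, map_one, map_one]; exact val20_natCast_lt_one A N hA)
  rwa [map_one] at h

/-- **Value group of `V₀₂` on `L₀`**: it is generated by the value of `q`. -/
theorem exists_val02_eq_zpow (hq : q.Prime) (hA : A.LiesOverPrime q) (x : FN N)
    (hx : x ∈ L0 A N) (hx0 : x ≠ 0) :
    ∃ m : ℤ, (V02 A N q M B k hN hB).valuation x
      = (V02 A N q M B k hN hB).valuation ((q : ℕ) : FN N) ^ m := by
  have hw0 : wSq N q M B k hN hB x ≠ 0 := by
    intro h0
    exact hx0 ((map_eq_zero_iff _ (wSq N q M B k hN hB).injective).1 h0)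
  obtain ⟨m, hm⟩ := exists_val20_eq_zpow A N hq hA _ (wSq_mem_L0 A N q M B k hN hB x hx) hw0
  refine ⟨m, ?_⟩
  rw [← map_zpow₀, val02_eq_iff, map_zpow₀ (wSq N q M B k hN hB), map_natCast, map_zpow₀]
  exact hm

/-- **`q` is a uniformiser of `V₀₂ ∩ L₀`.** -/
theorem disc02 (hq : q.Prime) (hA : A.LiesOverPrime q) (x : FN N)
    (hx : x ∈ L0 A N) (hlt : (V02 A N q M B k hN hB).valuation x < 1) :
    (V02 A N q M B k hN hB).valuation x
      ≤ (V02 A N q M B k hN hB).valuation ((q : ℕ) : FN N) := by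
  by_cases hx0 : x = 0
  · rw [hx0, map_zero]; exact zero_le
  obtain ⟨m, hm⟩ := exists_val02_eq_zpow A N q M B k hN hB hq hA x hx hx0
  have hq0 : ((q : ℕ) : FN N) ≠ 0 := Nat.cast_ne_zero.2 hq.ne_zero
  exact val_le_of_eq_zpow _ (val02_natCast_lt_one A N q M B k hN hB hA) hq0 hm hlt

end Disc02

/-! ## Rank one -/

section Arch

/-- Rank one from the constants: a valuation ring of a field over `Q̄` which induces `A` on the
constants and has the scaling property is of rank one. -/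
theorem isArch_of_const {F : Type} [Field F] [Algebra Kbar F] (A : ValuationSubring Kbar)
    {q : ℕ} (hq : q.Prime) (hA : A.LiesOverPrime q) (V : ValuationSubring F)
    (hconst : ∀ c : Kbar, algebraMap Kbar F c ∈ V ↔ c ∈ A)
    (hscale : ∀ f : F, f ≠ 0 → ∃ c : Kbar, c ≠ 0 ∧ V.valuation (algebraMap Kbar F c * f) = 1) :
    Fermat.Agent.BAD.H42.IsArch V := by
  refine Fermat.Agent.BAD.H42.isArch_of_scale (K := Kbar) V hscale ?_
  intro c d hc hd
  have hcA : c ∈ A.nonunits := by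
    rw [A.mem_nonunits_iff]
    by_contra hcon
    rw [not_lt] at hcon
    have hc0 : c ≠ 0 := by
      rintro rfl
      rw [map_zero] at hcon
      exact not_le.2 zero_lt_one hcon
    have h1 : c⁻¹ ∈ A := by
      rw [← ValuationSubring.valuation_le_one_iff, map_inv₀]
      exact inv_le_one_of_one_le₀ hcon
    have h2 : algebraMap Kbar F c⁻¹ ∈ V := (hconst _).2 h1
    have h3 : V.valuation (algebraMap Kbar F c⁻¹) ≤ 1 :=
      (ValuationSubring.valuation_le_one_iff _ _).2 h2
    rw [map_inv₀, map_inv₀] at h3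
    have hcF : algebraMap Kbar F c ≠ 0 := by rwa [Ne, map_eq_zero]
    have h4 := (inv_le_one₀ (zero_lt_iff.2 ((Valuation.ne_zero_iff _).2 hcF))).1 h3
    exact absurd hc (not_lt.2 h4)
  obtain ⟨m, hm⟩ := Fermat.Agent.BAD.H82.arch_Qbar A hq hA hcA hd
  exact ⟨m, (ValuationSubring.valuation_le_one_iff _ _).2 ((hconst _).2 hm)⟩

/-- A residue map with kernel the maximal ideal: non-zero reduction means valuation one. -/
theorem val_eq_one_of_red_ne_zero {F : Type*} [Field F] (V : ValuationSubring F) {R : Type*}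
    [Field R] (red : ↥V →+* R)
    (hker : ∀ u : ↥V, red u = 0 ↔ u ∈ IsLocalRing.maximalIdeal ↥V) (u : ↥V) (hu : red u ≠ 0) :
    V.valuation (u : F) = 1 := by
  rw [← ValuationSubring.valuation_eq_one_iff]
  by_contra hnu
  apply hu
  rw [hker]
  exact (IsLocalRing.mem_maximalIdeal _).2 hnu

variable (A : ValuationSubring Kbar) {q : ℕ} (hq : q.Prime) (hA : A.LiesOverPrime q)

include hq hA in
/-- `V₂₀` is of rank one. -/
theorem isArch_V20 (N : ℕ) [NeZero N] : Fermat.Agent.BAD.H42.IsArch (V20 A N) := by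
  refine isArch_of_const A hq hA (V20 A N) (const_mem20 A N) ?_
  intro f hf
  obtain ⟨c, hc0, h, hr⟩ := exists_scale20 A N f hf
  exact ⟨c, hc0, val_eq_one_of_red_ne_zero _ (red20 A N) (red20_eq_zero_iff A N) ⟨_, h⟩ hr⟩

variable (N M : ℕ) (B k : ℤ) (hN : N = M * (q * q)) (hB : B * M + k * q = 1)
  [NeZero N] [NeZero q]

include hq hA in
/-- `V₀₂` is of rank one. -/
theorem isArch_V02 : Fermat.Agent.BAD.H42.IsArch (V02 A N q M B k hN hB) := by
  refine isArch_of_const A hq hA _ (const_mem02 A N q M B k hN hB) ?_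
  intro f hf
  obtain ⟨c, hc0, h, hr⟩ := exists_scale02 A N q M B k hN hB f hf
  exact ⟨c, hc0, val_eq_one_of_red_ne_zero _ (red02 A N q M B k hN hB)
    (red02_eq_zero_iff A N q M B k hN hB) ⟨_, h⟩ hr⟩

include hA in
/-- `V₁₁` is of rank one. -/
theorem isArch_V11 : Fermat.Agent.BAD.H42.IsArch (V11 A N q M B k hN hB hq) := by
  refine isArch_of_const A hq hA _ (const_mem11 A N q M B k hN hB hq) ?_
  intro f hf
  obtain ⟨c, hc0, h, hr⟩ := exists_scale11 A N q M B k hN hB hq f hf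
  exact ⟨c, hc0, val_eq_one_of_red_ne_zero _ (red11 A N q M B k hN hB hq)
    (red11_eq_zero_iff A N q M B k hN hB hq) ⟨_, h⟩ hr⟩

end Arch

/-! ## The degeneracy maps preserve the inertia-fixed functions -/

section Degeneracy

/-- `qExpand` commutes with maps on coefficients. -/
theorem coeffMap_qExp82 {R S : Type*} [CommRing R] [CommRing S] (f : R →+* S) (n : ℕ)
    [NeZero n] (x : LaurentSeries R) : coeffMap f (qExpand R n x) = qExpand S n (coeffMap f x) := by
  ext k
  by_cases hk : (n : ℤ) ∣ k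
  · obtain ⟨m, rfl⟩ := hk
    rw [coeffMap_coeff, qExpand_coeff_mul, qExpand_coeff_mul, coeffMap_coeff]
  · rw [coeffMap_coeff, qExpand_coeff_of_not_dvd n _ hk, qExpand_coeff_of_not_dvd n _ hk,
      map_zero]

variable (A : ValuationSubring Kbar) (M q : ℕ) [NeZero M] [NeZero q]

theorem alpha_mem_L0 (x : FN M) (hx : x ∈ L0 A M) :
    heckeAlphaBar Kbar M q x ∈ L0 A (M * q) := by
  rw [mem_L0_iff_coeffMap] at hx ⊢
  intro σ hσ
  rw [coe_heckeAlphaBar]
  exact hx σ hσ

theorem beta_mem_L0 (x : FN M) (hx : x ∈ L0 A M) :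
    heckeBetaBar Kbar M q x ∈ L0 A (M * q) := by
  rw [mem_L0_iff_coeffMap] at hx ⊢
  intro σ hσ
  rw [coe_heckeBetaBar, coeffMap_qExp82, hx σ hσ]

end Degeneracy

/-! ## The three valuations are pairwise incomparable on the inertia-fixed functions -/

section Sep

open Fermat.Agent.BAD.H82

variable (A : ValuationSubring Kbar)
variable (q M : ℕ) (B k : ℤ) (hB : B * M + k * q = 1) (hq : q.Prime) [NeZero M] [NeZero q]

theorem kronF_mem_L0 : kronF q M ∈ L0 A (M * q) :=
  sub_mem (jdF_mem_L0 A _ _ _) (pow_mem (jdF_mem_L0 A _ _ _) _)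

theorem kronG_mem_L0 : kronG q M ∈ L0 A (M * q) :=
  sub_mem (jdF_mem_L0 A _ _ _) (pow_mem (jdF_mem_L0 A _ _ _) _)

include hq in
theorem kronG_ne_zero (hA : A.LiesOverPrime q) : kronG q M ≠ 0 := by
  intro h0
  apply gaussRes_kronG_ne_zero q M hq A hA
  have e : (⟨kronG q M, kronG_mem q M A⟩ : ↥(Fermat.Agent.BAD.gaussV A (M * q))) = 0 :=
    Subtype.ext h0
  rw [e, map_zero]

include hq in
/-- `(j - j_q^q)⁻¹` lies in the Gauss valuation ring of level `M q`. -/
theorem kronG_inv_mem (hA : A.LiesOverPrime q) : (kronG q M)⁻¹ ∈ V20 A (M * q) := by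
  obtain ⟨h, -⟩ := inv_mem_gaussV (M * q) A ⟨kronG q M, kronG_mem q M A⟩
    (gaussRes_kronG_ne_zero q M hq A hA)
  exact h

include hB hq in
theorem wL_kronF : wL q M B k hB hq (kronF q M) = kronG q M :=
  wq_kronF q M k B (hab_of_hB q M B k hB) hq

include hB hq in
theorem wL_kronG : wL q M B k hB hq (kronG q M) = kronF q M := by
  rw [← wL_kronF q M B k hB hq]
  exact Fermat.Agent.BAD.H88.wq_wq q M k B (hab_of_hB q M B k hB) hq _

include hB hq in
theorem kronF_ne_zero (hA : A.LiesOverPrime q) : kronF q M ≠ 0 := by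
  intro h0
  apply kronG_ne_zero A q M hq hA
  rw [← wL_kronF q M B k hB hq, h0, map_zero]

include hB hq in
/-- `(j_q - j^q)⁻¹` does not lie in the Gauss valuation ring of level `M q`. -/
theorem kronF_inv_not_mem (hA : A.LiesOverPrime q) : (kronF q M)⁻¹ ∉ V20 A (M * q) := by
  intro h
  have h0 := gaussRes_kronF q M hq A hA
  have hu : IsUnit (⟨kronF q M, kronF_mem q M A⟩ : ↥(V20 A (M * q))) := by
    refine IsUnit.of_mul_eq_one (⟨(kronF q M)⁻¹, h⟩ : ↥(V20 A (M * q))) ?_
    exact Subtype.ext (mul_inv_cancel₀ (kronF_ne_zero A q M B k hB hq hA))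
  have h1 := (hu.map (red20 A (M * q))).ne_zero
  exact h1 h0

/-- The four separating functions are inertia-fixed. -/
theorem alpha_kronF_inv_mem_L0 :
    heckeAlphaBar Kbar (M * q) q (kronF q M)⁻¹ ∈ L0 A (M * q * q) :=
  alpha_mem_L0 A (M * q) q _ (inv_mem (kronF_mem_L0 A q M))

theorem alpha_kronG_inv_mem_L0 :
    heckeAlphaBar Kbar (M * q) q (kronG q M)⁻¹ ∈ L0 A (M * q * q) :=
  alpha_mem_L0 A (M * q) q _ (inv_mem (kronG_mem_L0 A q M))

theorem beta_kronF_inv_mem_L0 :
    heckeBetaBar Kbar (M * q) q (kronF q M)⁻¹ ∈ L0 A (M * q * q) :=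
  beta_mem_L0 A (M * q) q _ (inv_mem (kronF_mem_L0 A q M))

theorem beta_kronG_inv_mem_L0 :
    heckeBetaBar Kbar (M * q) q (kronG q M)⁻¹ ∈ L0 A (M * q * q) :=
  beta_mem_L0 A (M * q) q _ (inv_mem (kronG_mem_L0 A q M))

include hB hq

theorem wL_kronF_inv : wL q M B k hB hq (kronF q M)⁻¹ = (kronG q M)⁻¹ := by
  rw [map_inv₀, wL_kronF]

theorem wL_kronG_inv : wL q M B k hB hq (kronG q M)⁻¹ = (kronF q M)⁻¹ := by
  rw [map_inv₀, wL_kronG]

/-- `V₂₀ ⊄ V₁₁` on `L₀`. -/
theorem not_le_20_11 (hA : A.LiesOverPrime q) :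
    ¬ resV0 (L0 A (M * q * q)) (V20 A (M * q * q))
      ≤ resV0 (L0 A (M * q * q)) (V11 A (M * q * q) q M B k (lvl q M) hB hq) :=
  not_resV0_le _ ⟨_, beta_kronG_inv_mem_L0 A q M⟩
    ((beta_mem_V20_iff A q M _).2 (kronG_inv_mem A q M hq hA))
    (fun h => kronF_inv_not_mem A q M B k hB hq hA (by
      have := (beta_mem_V11_iff A q M B k hB hq _).1 h
      rwa [wL_kronG_inv] at this))

/-- `V₁₁ ⊄ V₂₀` on `L₀`. -/
theorem not_le_11_20 (hA : A.LiesOverPrime q) :
    ¬ resV0 (L0 A (M * q * q)) (V11 A (M * q * q) q M B k (lvl q M) hB hq)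
      ≤ resV0 (L0 A (M * q * q)) (V20 A (M * q * q)) :=
  not_resV0_le _ ⟨_, beta_kronF_inv_mem_L0 A q M⟩
    ((beta_mem_V11_iff A q M B k hB hq _).2 (by
      rw [wL_kronF_inv]; exact kronG_inv_mem A q M hq hA))
    (fun h => kronF_inv_not_mem A q M B k hB hq hA ((beta_mem_V20_iff A q M _).1 h))

/-- `V₂₀ ⊄ V₀₂` on `L₀`. -/
theorem not_le_20_02 (hA : A.LiesOverPrime q) :
    ¬ resV0 (L0 A (M * q * q)) (V20 A (M * q * q))
      ≤ resV0 (L0 A (M * q * q)) (V02 A (M * q * q) q M B k (lvl q M) hB) :=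
  not_resV0_le _ ⟨_, alpha_kronG_inv_mem_L0 A q M⟩
    ((alpha_mem_V20_iff A q M _).2 (kronG_inv_mem A q M hq hA))
    (fun h => kronF_inv_not_mem A q M B k hB hq hA (by
      have := (alpha_mem_V02_iff A q M B k hB hq _).1 h
      rwa [wL_kronG_inv] at this))

/-- `V₀₂ ⊄ V₂₀` on `L₀`. -/
theorem not_le_02_20 (hA : A.LiesOverPrime q) :
    ¬ resV0 (L0 A (M * q * q)) (V02 A (M * q * q) q M B k (lvl q M) hB)
      ≤ resV0 (L0 A (M * q * q)) (V20 A (M * q * q)) :=
  not_resV0_le _ ⟨_, alpha_kronF_inv_mem_L0 A q M⟩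
    ((alpha_mem_V02_iff A q M B k hB hq _).2 (by
      rw [wL_kronF_inv]; exact kronG_inv_mem A q M hq hA))
    (fun h => kronF_inv_not_mem A q M B k hB hq hA ((alpha_mem_V20_iff A q M _).1 h))

/-- `V₁₁ ⊄ V₀₂` on `L₀`. -/
theorem not_le_11_02 (hA : A.LiesOverPrime q) :
    ¬ resV0 (L0 A (M * q * q)) (V11 A (M * q * q) q M B k (lvl q M) hB hq)
      ≤ resV0 (L0 A (M * q * q)) (V02 A (M * q * q) q M B k (lvl q M) hB) :=
  not_resV0_le _ ⟨_, alpha_kronG_inv_mem_L0 A q M⟩
    ((alpha_mem_V11_iff A q M B k hB hq _).2 (kronG_inv_mem A q M hq hA))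
    (fun h => kronF_inv_not_mem A q M B k hB hq hA (by
      have := (alpha_mem_V02_iff A q M B k hB hq _).1 h
      rwa [wL_kronG_inv] at this))

/-- `V₀₂ ⊄ V₁₁` on `L₀`. -/
theorem not_le_02_11 (hA : A.LiesOverPrime q) :
    ¬ resV0 (L0 A (M * q * q)) (V02 A (M * q * q) q M B k (lvl q M) hB)
      ≤ resV0 (L0 A (M * q * q)) (V11 A (M * q * q) q M B k (lvl q M) hB hq) :=
  not_resV0_le _ ⟨_, alpha_kronF_inv_mem_L0 A q M⟩
    ((alpha_mem_V02_iff A q M B k hB hq _).2 (by
      rw [wL_kronF_inv]; exact kronG_inv_mem A q M hq hA))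
    (fun h => kronF_inv_not_mem A q M B k hB hq hA ((alpha_mem_V11_iff A q M B k hB hq _).1 h))

end Sep

end Fermat.Agent.S36.NU.H82
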