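import Fermat.Agent.S36.NU.H23_Mod1
import Fermat.Agent.S36.NU.H23_NR3
import Fermat.Agent.S36.NU.H23_Fr2
import Fermat.Agent.S36.NU.H82_Val0
import Fermat.Agent.S36.NU.H42_Surj
import Fermat.Agent.BAD.H73_NormFrF1
import Fermat.Agent.Lib.HeckeComm.H2_Deg
import Fermat.Agent.RED.H51_Final
import Fermat.Agent.RED.H95_IsFF

/-!
# S36 / NU-B, leaf TOT3-MOD (helper23): the residue maps into the residue field of level `M`

Level `N = M q²`, `q ∤ M`, `C = FM A M` the residue field of the Gauss valuation of level `M`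
(`= k(j~(t^d) : d ∣ M)` by GA).

* `rE : VE0 → C`, `r20 : V20o → C`, `r02 : V02o → C` (ring homomorphisms), surjective;
* `FrM : C →ₐ[k] C` (`t ↦ t ^ q`), `alg2M` the structure `Fr²` of `C` over `C`, of degree `q²`;
* `inc20`, `inc11`, `inc02 : VE0 → V..o`, compatibilities `r20_inc`, `r02_inc`;
* `ϖ = q`, `π₁ = j(t^{q²}) - j(t)`, ramification `hram11`;
* `finrank_L0_NU : [L0 N : L0 M] = q² + q`.
-/

set_option autoImplicit false
set_option synthInstance.maxHeartbeats 400000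
set_option maxHeartbeats 1000000
set_option linter.style.haveILetI false
set_option linter.unusedSectionVars false

noncomputable section

open ModularCurve AlgebraicCurve
open Fermat.Agent.S24 Fermat.Agent.BAD.H88 Fermat.Agent.S28 Fermat.Agent.S28.H73
open Fermat.Agent.RED.H73 Fermat.Agent.RED.H17 Fermat.Agent.S36.NU.H88

namespace Fermat.Agent.S36.NU.H23

section Mod2

variable (A : ValuationSubring Kbar) (q M : ℕ) (B k : ℤ) (hB : B * M + k * q = 1) (hq : q.Prime)
  [NeZero M] [NeZero q] [NeZero (M * q * q)] (hqM : ¬ q ∣ M) (hA : A.LiesOverPrime q)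

/-! ### The residue field of level `M` -/

include hq hqM hA in
/-- (GA) -/
theorem FM_eq :
    redField A (modularFunctionFieldBar M) (hScM A M) = modularFunctionFieldFullC (kV A) M :=
  stmt_GA M q hq hqM A hA

/-- The residue map of `VE0`. -/
def rE : ↥(VE0 A M) →+* FM A M := resRed (L0 A M) (VM A M) (redM A M)

theorem coe_rE (x : ↥(VE0 A M)) : ((rE A M x : FM A M) : LaurentSeries (kV A)) = sE A M x := rfl

include hq hqM hA in
theorem rE_surjective : Function.Surjective (rE A M) :=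
  Fermat.Agent.S36.NU.H42.surjective_resRed_L0' A q M hq hqM hA

theorem rE_eq_zero_of_not_isUnit (x : ↥(VE0 A M)) (hx : ¬ IsUnit x) : rE A M x = 0 :=
  resRed_eq_zero_of_not_isUnit (L0 A M) (VM A M) (redM A M)
    (gaussResF'_eq_zero_iff A (hScM A M)) x hx

include hq hqM hA in
theorem s20_memM (x : ↥(V20o A q M)) :
    s20 A q M x ∈ redField A (modularFunctionFieldBar M) (hScM A M) := by
  rw [FM_eq A q M hq hqM hA]
  exact s20_mem A q M hq hqM hA x

include hq hqM hA in
theorem s02_memM (x : ↥(V02o A q M B k hB)) :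
    s02 A q M B k hB x ∈ redField A (modularFunctionFieldBar M) (hScM A M) := by
  rw [FM_eq A q M hq hqM hA]
  exact s02_mem A q M B k hB hq hqM hA x

/-- The residue map of `V20o`, into the residue field of level `M`. -/
def r20 : ↥(V20o A q M) →+* FM A M where
  toFun x := ⟨s20 A q M x, s20_memM A q M hq hqM hA x⟩
  map_one' := Subtype.ext (map_one (s20 A q M))
  map_mul' x y := Subtype.ext (map_mul (s20 A q M) x y)
  map_zero' := Subtype.ext (map_zero (s20 A q M))
  map_add' x y := Subtype.ext (map_add (s20 A q M) x y)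

/-- The residue map of `V02o`, into the residue field of level `M`. -/
def r02 : ↥(V02o A q M B k hB) →+* FM A M where
  toFun x := ⟨s02 A q M B k hB x, s02_memM A q M B k hB hq hqM hA x⟩
  map_one' := Subtype.ext (map_one (s02 A q M B k hB))
  map_mul' x y := Subtype.ext (map_mul (s02 A q M B k hB) x y)
  map_zero' := Subtype.ext (map_zero (s02 A q M B k hB))
  map_add' x y := Subtype.ext (map_add (s02 A q M B k hB) x y)

theorem coe_r20 (x : ↥(V20o A q M)) :
    ((r20 A q M hq hqM hA x : FM A M) : LaurentSeries (kV A)) = s20 A q M x := rfl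

theorem coe_r02 (x : ↥(V02o A q M B k hB)) :
    ((r02 A q M B k hB hq hqM hA x : FM A M) : LaurentSeries (kV A)) = s02 A q M B k hB x := rfl

theorem r20_eq_zero_of_not_isUnit (x : ↥(V20o A q M)) (hx : ¬ IsUnit x) :
    r20 A q M hq hqM hA x = 0 := by
  apply Subtype.ext
  rw [coe_r20, s20_eq_zero_of_not_isUnit A q M x hx]
  rfl

theorem r02_eq_zero_of_not_isUnit (x : ↥(V02o A q M B k hB)) (hx : ¬ IsUnit x) :
    r02 A q M B k hB hq hqM hA x = 0 := by
  apply Subtype.ext
  rw [coe_r02, s02_eq_zero_of_not_isUnit A q M B k hB x hx]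
  rfl

/-! ### The maps `VE0 → V..o` -/

/-- `VE0 → V20o`. -/
def inc20 : ↥(VE0 A M) →+* ↥(V20o A q M) where
  toFun a := ⟨inclL0 A (hleMN q M) (a : ↥(L0 A M)), hVE20 A q M a a.2⟩
  map_one' := Subtype.ext (map_one (inclL0 A (hleMN q M)))
  map_mul' x y := Subtype.ext (map_mul (inclL0 A (hleMN q M)) (x : ↥(L0 A M)) (y : ↥(L0 A M)))
  map_zero' := Subtype.ext (map_zero (inclL0 A (hleMN q M)))
  map_add' x y := Subtype.ext (map_add (inclL0 A (hleMN q M)) (x : ↥(L0 A M)) (y : ↥(L0 A M)))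

/-- `VE0 → V11o`. -/
def inc11 : ↥(VE0 A M) →+* ↥(V11o A q M B k hB hq) where
  toFun a := ⟨inclL0 A (hleMN q M) (a : ↥(L0 A M)), hVE11 A q M B k hB hq a a.2⟩
  map_one' := Subtype.ext (map_one (inclL0 A (hleMN q M)))
  map_mul' x y := Subtype.ext (map_mul (inclL0 A (hleMN q M)) (x : ↥(L0 A M)) (y : ↥(L0 A M)))
  map_zero' := Subtype.ext (map_zero (inclL0 A (hleMN q M)))
  map_add' x y := Subtype.ext (map_add (inclL0 A (hleMN q M)) (x : ↥(L0 A M)) (y : ↥(L0 A M)))

/-- `VE0 → V02o`. -/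
def inc02 : ↥(VE0 A M) →+* ↥(V02o A q M B k hB) where
  toFun a := ⟨inclL0 A (hleMN q M) (a : ↥(L0 A M)), hVE02 A q M B k hB hq a a.2⟩
  map_one' := Subtype.ext (map_one (inclL0 A (hleMN q M)))
  map_mul' x y := Subtype.ext (map_mul (inclL0 A (hleMN q M)) (x : ↥(L0 A M)) (y : ↥(L0 A M)))
  map_zero' := Subtype.ext (map_zero (inclL0 A (hleMN q M)))
  map_add' x y := Subtype.ext (map_add (inclL0 A (hleMN q M)) (x : ↥(L0 A M)) (y : ↥(L0 A M)))

theorem r20_incl (a : ↥(VE0 A M)) (h : inclL0 A (hleMN q M) (a : ↥(L0 A M)) ∈ V20o A q M) :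
    r20 A q M hq hqM hA ⟨_, h⟩ = rE A M a := by
  apply Subtype.ext
  rw [coe_r20, coe_rE]
  exact s20_incl A q M a h

include hq hqM hA in
theorem r20_surjective : Function.Surjective (r20 A q M hq hqM hA) := by
  intro y
  obtain ⟨a, rfl⟩ := rE_surjective A q M hq hqM hA y
  exact ⟨⟨_, hVE20 A q M a a.2⟩, r20_incl A q M hq hqM hA a _⟩

/-! ### `u ↦ u(t^{q²})` on the inertia-fixed functions -/

theorem incBB_mem_L0 (x : FN M) (hx : x ∈ L0 A M) : incBB q M x ∈ L0 A (M * q * q) :=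
  Fermat.Agent.S36.NU.H82.beta_mem_L0 A (M * q) q _
    (Fermat.Agent.S36.NU.H82.beta_mem_L0 A M q x hx)

include hq in
theorem incBB_mem_V02o (a : ↥(VE0 A M)) :
    (⟨incBB q M ((a : ↥(L0 A M)) : FN M), incBB_mem_L0 A q M _ (a : ↥(L0 A M)).2⟩ :
      ↥(L0 A (M * q * q))) ∈ V02o A q M B k hB :=
  (incBB_mem_V02_iff A q M B k hB hq _).mpr a.2

theorem r02_incBB (a : ↥(VE0 A M)) :
    r02 A q M B k hB hq hqM hA ⟨_, incBB_mem_V02o A q M B k hB hq a⟩ = rE A M a := by
  apply Subtype.ext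
  rw [coe_r02, coe_rE, s02_mk]
  show _ = gaussRedV A ⟨(((a : ↥(L0 A M)) : FN M) : LaurentSeries Kbar), a.2⟩
  congr 1
  apply Subtype.ext
  show ((wS q M B k hB (incBB q M ((a : ↥(L0 A M)) : FN M)) : FN (M * q * q)) :
    LaurentSeries Kbar) = _
  rw [wS_incBB q M B k hB hq, coe_incAA]

include hq hqM hA in
theorem r02_surjective : Function.Surjective (r02 A q M B k hB hq hqM hA) := by
  intro y
  obtain ⟨a, rfl⟩ := rE_surjective A q M hq hqM hA y
  exact ⟨⟨_, incBB_mem_V02o A q M B k hB hq a⟩, r02_incBB A q M B k hB hq hqM hA a⟩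

/-! ### The structure `Fr²` of the residue field over itself -/

include hq hqM hA in
/-- The residue field of level `M` is stable under the coefficientwise Frobenius. -/
theorem frobStable_FM :
    @Fermat.Agent.BAD.H73.FrobStable (kV A) _ q ⟨hq⟩ (Fermat.Agent.BAD.H82.charP_kV A hq hA)
      (@Fermat.Agent.BAD.H73.perfectRing_kV _ _ _ A q ⟨hq⟩
        (Fermat.Agent.BAD.H82.charP_kV A hq hA))
      (redField A (modularFunctionFieldBar M) (hScM A M)) := by
  rw [FM_eq A q M hq hqM hA]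
  exact @Fermat.Agent.BAD.H73.frobStable_fullC (kV A) _ q ⟨hq⟩
    (Fermat.Agent.BAD.H82.charP_kV A hq hA)
    (@Fermat.Agent.BAD.H73.perfectRing_kV _ _ _ A q ⟨hq⟩
      (Fermat.Agent.BAD.H82.charP_kV A hq hA)) M

/-- `Fr : t ↦ t ^ q` on the residue field of level `M`. -/
def FrM : FM A M →ₐ[kV A] FM A M :=
  @Fermat.Agent.BAD.H73.FrE (kV A) _ q ⟨hq⟩ (Fermat.Agent.BAD.H82.charP_kV A hq hA)
    (@Fermat.Agent.BAD.H73.perfectRing_kV _ _ _ A q ⟨hq⟩
      (Fermat.Agent.BAD.H82.charP_kV A hq hA)) _ (frobStable_FM A q M hq hqM hA)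

/-- The coefficientwise Frobenius `φ` on the residue field of level `M`. -/
def phiM : FM A M ≃+* FM A M :=
  @Fermat.Agent.BAD.H73.frobE (kV A) _ q ⟨hq⟩ (Fermat.Agent.BAD.H82.charP_kV A hq hA)
    (@Fermat.Agent.BAD.H73.perfectRing_kV _ _ _ A q ⟨hq⟩
      (Fermat.Agent.BAD.H82.charP_kV A hq hA)) _ (frobStable_FM A q M hq hqM hA)

/-- **`β`** on the places of the residue field of level `M`. -/
def betaM : Place (kV A) (FM A M) ≃ Place (kV A) (FM A M) :=
  @Fermat.Agent.BAD.H73.beta (kV A) _ q ⟨hq⟩ (Fermat.Agent.BAD.H82.charP_kV A hq hA)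
    (@Fermat.Agent.BAD.H73.perfectRing_kV _ _ _ A q ⟨hq⟩
      (Fermat.Agent.BAD.H82.charP_kV A hq hA)) _ (frobStable_FM A q M hq hqM hA)

theorem coe_FrM (g : FM A M) :
    ((FrM A q M hq hqM hA g : FM A M) : LaurentSeries (kV A))
      = qExpand (kV A) q (g : LaurentSeries (kV A)) := rfl

/-- `ord_{β z} y = ord_z (φ y)`. -/
theorem betaM_ord (z : Place (kV A) (FM A M)) (y : FM A M) :
    (betaM A q M hq hqM hA z).ord y = z.ord (phiM A q M hq hqM hA y) :=
  @Fermat.Agent.BAD.H73.beta_ord (kV A) _ q ⟨hq⟩ (Fermat.Agent.BAD.H82.charP_kV A hq hA)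
    (@Fermat.Agent.BAD.H73.perfectRing_kV _ _ _ A q ⟨hq⟩
      (Fermat.Agent.BAD.H82.charP_kV A hq hA)) _ (frobStable_FM A q M hq hqM hA) z y

/-- The structure `Fr²` of the residue field of level `M` over itself. -/
@[reducible] def alg2M : Algebra (FM A M) (FM A M) :=
  ((FrM A q M hq hqM hA).toRingHom.comp (FrM A q M hq hqM hA).toRingHom).toAlgebra

theorem algebraMap_alg2M (y : FM A M) :
    @algebraMap (FM A M) (FM A M) _ _ (alg2M A q M hq hqM hA) y
      = FrM A q M hq hqM hA (FrM A q M hq hqM hA y) := rfl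

include hq hqM hA in
theorem jqModC_mem_FM :
    jqModC (kV A) ∈ redField A (modularFunctionFieldBar M) (hScM A M) := by
  rw [FM_eq A q M hq hqM hA]
  exact jqModC_mem_full (kV A) M

include hq hqM hA in
theorem isSeparable_FM :
    ∀ y ∈ redField A (modularFunctionFieldBar M) (hScM A M),
      IsSeparable ↥(IntermediateField.adjoin (kV A)
        ({jqModC (kV A)} : Set (LaurentSeries (kV A)))) y := by
  have : IsAlgClosed (kV A) := isAlgClosed_kV A
  have : Infinite (kV A) := IsAlgClosed.instInfinite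
  intro y hy
  rw [FM_eq A q M hq hqM hA] at hy
  exact isSeparable_fullC_red A (inv_natCast_mem_of_liesOver A M hq hqM hA) (caDataBar M) hy

include hq in
theorem not_dvd_neg_one : ¬ (q : ℤ) ∣ (-1 : ℤ) := by
  intro hd
  have h1 : ((q : ℕ) : ℤ) ∣ 1 := (dvd_neg (a := (q : ℤ)) (b := 1)).mp hd
  have h2 : q ∣ 1 := by exact_mod_cast h1
  exact hq.one_lt.ne' (Nat.dvd_one.mp h2)

theorem coeff_jqM :
    ((⟨jqModC (kV A), jqModC_mem_FM A q M hq hqM hA⟩ : FM A M) :
      LaurentSeries (kV A)).coeff (-1) ≠ 0 := by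
  show (jqModC (kV A)).coeff (-1) ≠ 0
  rw [coeff_jqModC_neg_one]
  exact one_ne_zero

/-- **`[C : C] = q²`** for the structure `Fr²`. -/
theorem finrank_alg2M :
    @Module.finrank (FM A M) (FM A M) _ _ (alg2M A q M hq hqM hA).toModule = q ^ 2 :=
  @finrank_of_Fr2 (kV A) _ q ⟨hq⟩ (Fermat.Agent.BAD.H82.charP_kV A hq hA)
    (@Fermat.Agent.BAD.H73.perfectRing_kV _ _ _ A q ⟨hq⟩
      (Fermat.Agent.BAD.H82.charP_kV A hq hA)) _ (frobStable_FM A q M hq hqM hA)
    (FM A M) _ (alg2M A q M hq hqM hA) (RingEquiv.refl _) (fun _ => rfl)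
    ⟨jqModC (kV A), jqModC_mem_FM A q M hq hqM hA⟩ (-1) (not_dvd_neg_one q hq)
    (coeff_jqM A q M hq hqM hA) (isSeparable_FM A q M hq hqM hA)

theorem finite_alg2M :
    @Module.Finite (FM A M) (FM A M) _ _ (alg2M A q M hq hqM hA).toModule :=
  @Module.finite_of_finrank_pos (FM A M) (FM A M) _ _ (alg2M A q M hq hqM hA).toModule
    (@Module.Free.of_divisionRing (FM A M) (FM A M) _ _ (alg2M A q M hq hqM hA).toModule) _ (by
    rw [finrank_alg2M A q M hq hqM hA]; exact pow_pos hq.pos 2)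

/-- **`ord_z (N g) = ord_{β (β z)} g`** for the structure `Fr²`. -/
theorem ord_norm_alg2M (z : Place (kV A) (FM A M)) (g : FM A M) :
    z.ord (@Algebra.norm (FM A M) (FM A M) _ _ (alg2M A q M hq hqM hA) g)
      = (betaM A q M hq hqM hA (betaM A q M hq hqM hA z)).ord g :=
  @ord_norm_of_Fr2 (kV A) _ q ⟨hq⟩ (Fermat.Agent.BAD.H82.charP_kV A hq hA)
    (@Fermat.Agent.BAD.H73.perfectRing_kV _ _ _ A q ⟨hq⟩
      (Fermat.Agent.BAD.H82.charP_kV A hq hA)) _ (frobStable_FM A q M hq hqM hA)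
    (FM A M) _ (alg2M A q M hq hqM hA) (RingEquiv.refl _) (fun _ => rfl)
    ⟨jqModC (kV A), jqModC_mem_FM A q M hq hqM hA⟩ (-1) (not_dvd_neg_one q hq)
    (coeff_jqM A q M hq hqM hA) (isSeparable_FM A q M hq hqM hA) z g

theorem r02_incl (a : ↥(VE0 A M)) (h : inclL0 A (hleMN q M) (a : ↥(L0 A M)) ∈ V02o A q M B k hB) :
    r02 A q M B k hB hq hqM hA ⟨_, h⟩
      = FrM A q M hq hqM hA (FrM A q M hq hqM hA (rE A M a)) := by
  apply Subtype.ext
  rw [coe_r02, coe_FrM, coe_FrM, coe_rE]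
  exact s02_incl A q M B k hB hq a h

/-! ### The uniformisers -/

/-- The uniformiser `q` of `VE0`. -/
def piE : ↥(L0 A M) := ((q : ℕ) : ↥(L0 A M))

theorem coe_piE : ((piE A q M : ↥(L0 A M)) : FN M) = ((q : ℕ) : FN M) :=
  map_natCast (L0 A M).subtype q

include hq in
theorem piE_ne_zero : piE A q M ≠ 0 := by
  intro h
  have h1 : ((q : ℕ) : FN M) = 0 := by rw [← coe_piE A q M, h]; rfl
  exact (Nat.cast_ne_zero (R := FN M)).2 hq.ne_zero h1

include hA in
theorem val_piE_lt_one : (VE0 A M).valuation (piE A q M) < 1 := by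
  rw [VE0, valuation_resV0_lt_one_iff, coe_piE]
  exact Fermat.Agent.S36.NU.H82.val20_natCast_lt_one A M hA

include hA in
theorem piE_mem : piE A q M ∈ VE0 A M :=
  (ValuationSubring.valuation_le_one_iff _ _).1 (le_of_lt (val_piE_lt_one A q M hA))

include hA in
theorem rE_piE : rE A M ⟨piE A q M, piE_mem A q M hA⟩ = 0 := by
  apply rE_eq_zero_of_not_isUnit
  intro hu
  have h1 := (ValuationSubring.valuation_eq_one_iff (VE0 A M) ⟨piE A q M, piE_mem A q M hA⟩).1 hu
  exact (val_piE_lt_one A q M hA).ne h1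

include hq hA in
/-- `q` is a uniformiser of `VE0`. -/
theorem hE_mod (a : ↥(L0 A M)) (h : (VE0 A M).valuation a < 1) :
    (VE0 A M).valuation a ≤ (VE0 A M).valuation (piE A q M) := by
  rw [VE0, valuation_resV0_le_iff, coe_piE]
  exact Fermat.Agent.S36.NU.H82.disc20 A M hq hA (a : FN M) a.2
    ((valuation_resV0_lt_one_iff _ _ a).1 h)

theorem sq_dvd_lvl : q * q ∣ M * q * q := ⟨M, by ring⟩

/-- The uniformiser `j(t^{q²}) - j(t)` of `V11o`. -/
def pi11 : ↥(L0 A (M * q * q)) :=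
  ⟨jdF (M * q * q) (q * q) (sq_dvd_lvl q M) - jdF (M * q * q) 1 (one_dvd _),
    sub_mem (jdF_mem_L0 A (M * q * q) (q * q) (sq_dvd_lvl q M))
      (jdF_mem_L0 A (M * q * q) 1 (one_dvd _))⟩

theorem coe_inclL0_piE :
    ((inclL0 A (hleMN q M) (piE A q M) : ↥(L0 A (M * q * q))) : FN (M * q * q))
      = ((q : ℕ) : FN (M * q * q)) := by
  rw [coe_inclL0, coe_piE, map_natCast]

include hA in
/-- **Ramification of `V11o`**: `v₁₁(q) = v₁₁(π₁) ^ (q - 1)`. -/
theorem hram11 :
    (V11o A q M B k hB hq).valuation (inclL0 A (hleMN q M) (piE A q M))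
      = (V11o A q M B k hB hq).valuation (pi11 A q M) ^ (q - 1) := by
  rw [← map_pow, V11o, valuation_resV0_eq_iff, coe_inclL0_piE]
  have h := ram11_j A q M B k hB hq hA (sq_dvd_lvl q M)
  rw [← map_pow] at h
  exact h.symm

/-- Constants of the maximal ideal have value `< 1`. -/
theorem val_const_lt_one {F : Type} [Field F] [Algebra Kbar F] (V : ValuationSubring F)
    (hV : ∀ c : Kbar, algebraMap Kbar F c ∈ V ↔ c ∈ A) (c : Kbar) (hc : c ∈ A.nonunits) :
    V.valuation (algebraMap Kbar F c) < 1 := by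
  apply lt_of_le_of_ne
  · rw [ValuationSubring.valuation_le_one_iff, hV]
    exact ((A.mem_nonunits_iff_exists_mem_maximalIdeal).1 hc).1
  · intro h1
    have hc0 : algebraMap Kbar F c ≠ 0 := by
      intro h0
      rw [h0, map_zero] at h1
      exact zero_ne_one h1
    have h2 : (algebraMap Kbar F c)⁻¹ ∈ V := by
      rw [← ValuationSubring.valuation_le_one_iff, map_inv₀, h1, inv_one]
    rw [← map_inv₀, hV] at h2
    have h3 : A.valuation c < 1 := (A.mem_nonunits_iff).1 hc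
    have h4 : A.valuation c⁻¹ ≤ 1 := (ValuationSubring.valuation_le_one_iff _ _).2 h2
    rw [map_inv₀] at h4
    have hc0' : c ≠ 0 := fun h => hc0 (by rw [h, map_zero])
    have h5 := (inv_le_one₀ (zero_lt_iff.2 ((Valuation.ne_zero_iff _).2 hc0'))).1 h4
    exact absurd h3 (not_lt.2 h5)

include hA in
theorem val11_piE_lt_one :
    (V11o A q M B k hB hq).valuation (inclL0 A (hleMN q M) (piE A q M)) < 1 := by
  rw [V11o, valuation_resV0_lt_one_iff, coe_inclL0_piE]
  have e : ((q : ℕ) : FN (M * q * q)) = algebraMap Kbar (FN (M * q * q)) (q : Kbar) :=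
    (map_natCast _ q).symm
  rw [e]
  exact val_const_lt_one A _ (const_mem11 A (M * q * q) q M B k (lvl q M) hB hq) _ hA

include hA in
theorem val_pi11_lt_one : (V11o A q M B k hB hq).valuation (pi11 A q M) < 1 := by
  by_contra hge
  rw [not_lt] at hge
  have h1 : 1 ≤ (V11o A q M B k hB hq).valuation (pi11 A q M) ^ (q - 1) := one_le_pow₀ hge
  rw [← hram11 A q M B k hB hq hA] at h1
  exact absurd (val11_piE_lt_one A q M B k hB hq hA) (not_lt.2 h1)

/-! ### Degrees -/

theorem finite_FNU :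
    @Module.Finite (FN M) (FN (M * q * q)) _ _ (algF (hleMN q M)).toModule :=
  (Fermat.Agent.RED.H51.stmt_FFB_finite _ _ _ (Fermat.Agent.RED.H95.stmt_HKA_isFF M)
    (Fermat.Agent.RED.H95.stmt_HKA_isFF (M * q * q))
    (IntermediateField.inclusion (hleMN q M))).2

include hq hqM in
theorem finrank_FNU :
    @Module.finrank (FN M) (FN (M * q * q)) _ _ (algF (hleMN q M)).toModule = q ^ 2 + q :=
  (Fermat.Agent.Lib.HeckeComm.relfinrank_FN M (M * q * q) ⟨q * q, mul_assoc M q q⟩).symm.trans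
    (Fermat.Agent.S36.NU.H82.relfinrank_NU q M hq hqM)

theorem finite_L0_NU :
    @Module.Finite ↥(L0 A M) ↥(L0 A (M * q * q)) _ _ (algL0 A (hleMN q M)).toModule :=
  finite_L0 A (hleMN q M) (finite_FNU q M)

include hq hqM in
/-- **`[L0 (M q²) : L0 M] = q² + q`**. -/
theorem finrank_L0_NU :
    @Module.finrank ↥(L0 A M) ↥(L0 A (M * q * q)) _ _ (algL0 A (hleMN q M)).toModule
      = q ^ 2 + q :=
  (finrank_L0 A (hleMN q M) (finite_FNU q M)).trans (finrank_FNU q M hq hqM)

end Mod2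

end Fermat.Agent.S36.NU.H23
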