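import Fermat.Agent.S36.NU.H99_OrdInt
import Fermat.Agent.S36.NU.H23_Mod2

/-!
# S36 / NU-B, (M4) LOCEQ at the ordinary points, modular part 1 (helper99)

The modular units of level `M` (`q ∤ M`) inside the inertia-fixed functions of level `M q²`:
`Uo d = Δ(t)/Δ(t^d)`, `d ∣ M`: units at the three valuations, reductions, horizontal integrality.
Horizontal integrality of `eps1o`, `eps2o`, `E20o`, `E02o`, `E11o`.
-/

set_option autoImplicit false
set_option synthInstance.maxHeartbeats 400000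
set_option maxHeartbeats 1000000
set_option linter.unusedSectionVars false
set_option linter.style.haveILetI false

noncomputable section

open ModularCurve AlgebraicCurve IntermediateField
open Fermat.Agent.S24 Fermat.Agent.BAD.H88 Fermat.Agent.BAD.H30 Fermat.Agent.BAD.H21
open Fermat.Agent.S28 Fermat.Agent.S28.H73 Fermat.Agent.RED.H73 Fermat.Agent.RED.H17
open Fermat.Agent.S36.NU.H88 Fermat.Agent.S36.NU.H23
open Fermat.Agent.S36.NU.H41 Fermat.Agent.RED

namespace Fermat.Agent.S36.NU.H99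

section LevelM

variable (A : ValuationSubring Kbar)
variable (q M : ℕ) (B k : ℤ) (hB : B * M + k * q = 1) (hq : q.Prime) [NeZero M] [NeZero q]
  [NeZero (M * q)] [NeZero (M * q * q)]
variable (d : ℕ) [NeZero d] (hd : d ∣ M)

theorem unitF_mem_L0 : unitF M d hd ∈ L0 A M := by
  rw [mem_L0_iff_coeffMap]
  intro σ _
  rw [unitF_coe]
  exact coeffMap_coeffEmb σ _

theorem unitF_mem_VM : unitF M d hd ∈ VM A M := unitF_mem_gaussV A M d hd

theorem unitF_inv_mem_VM : (unitF M d hd)⁻¹ ∈ VM A M := by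
  have h := gaussRes_unitF_ne_zero A M d hd
  have hu : IsUnit (⟨unitF M d hd, unitF_mem_VM A M d hd⟩ : ↥(VM A M)) := by
    by_contra hnu
    apply h
    have := (red20_eq_zero_iff A M ⟨unitF M d hd, unitF_mem_VM A M d hd⟩).2
      ((IsLocalRing.mem_maximalIdeal _).2 hnu)
    exact this
  obtain ⟨v, hv⟩ := hu
  have h1 : ((v⁻¹ : (↥(VM A M))ˣ) : ↥(VM A M)) * ⟨unitF M d hd, unitF_mem_VM A M d hd⟩ = 1 := by
    rw [← hv]
    exact v.inv_mul
  have h2 : (((v⁻¹ : (↥(VM A M))ˣ) : ↥(VM A M)) : FN M) * unitF M d hd = 1 :=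
    congrArg Subtype.val h1
  have h3 : (unitF M d hd)⁻¹ = (((v⁻¹ : (↥(VM A M))ˣ) : ↥(VM A M)) : FN M) :=
    (eq_inv_of_mul_eq_one_left h2).symm
  rw [h3]
  exact Subtype.mem _

/-- The unit `Δ(t)/Δ(t^d)` as an element of the Gauss ring of `L0 A M`. -/
def uE : ↥(VE0 A M) := ⟨⟨unitF M d hd, unitF_mem_L0 A M d hd⟩, unitF_mem_VM A M d hd⟩

/-- Its inverse. -/
def uEi : ↥(VE0 A M) :=
  ⟨⟨(unitF M d hd)⁻¹, inv_mem (unitF_mem_L0 A M d hd)⟩, unitF_inv_mem_VM A M d hd⟩

theorem uE_mul_uEi : uE A M d hd * uEi A M d hd = 1 := by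
  apply Subtype.ext
  apply Subtype.ext
  show unitF M d hd * (unitF M d hd)⁻¹ = 1
  exact mul_inv_cancel₀ (unitF_ne_zero M d hd)

theorem sE_uE : sE A M (uE A M d hd)
    = deltaR (kV A) * (qExpand (kV A) d (deltaR (kV A)))⁻¹ :=
  gaussRes_unitF A M d hd

/-- The unit `Δ(t)/Δ(t^d)` as an inertia-fixed function of level `M q²`. -/
def Uo : ↥(L0 A (M * q * q)) := inclL0 A (hleMN q M) (uE A M d hd : ↥(L0 A M))

/-- Its inverse. -/
def Uoi : ↥(L0 A (M * q * q)) := inclL0 A (hleMN q M) (uEi A M d hd : ↥(L0 A M))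

theorem Uo_mul_Uoi : Uo A q M d hd * Uoi A q M d hd = 1 := by
  rw [Uo, Uoi, ← map_mul]
  have h := congrArg Subtype.val (uE_mul_uEi A M d hd)
  have h' : (uE A M d hd : ↥(L0 A M)) * (uEi A M d hd : ↥(L0 A M)) = 1 := h
  rw [h', map_one]

include hd in
theorem dvd_lvl : d ∣ M * q * q := Dvd.dvd.mul_right (Dvd.dvd.mul_right hd q) q

theorem coe_Uo : ((Uo A q M d hd : ↥(L0 A (M * q * q))) : FN (M * q * q))
    = unitF (M * q * q) d (dvd_lvl q M d hd) := by
  apply Subtype.ext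
  rw [Uo, coe_inclL0_series]
  rfl

theorem coe_Uoi : ((Uoi A q M d hd : ↥(L0 A (M * q * q))) : FN (M * q * q))
    = (unitF (M * q * q) d (dvd_lvl q M d hd))⁻¹ := by
  have h := congrArg Subtype.val (Uo_mul_Uoi A q M d hd)
  have h' : ((Uo A q M d hd : ↥(L0 A (M * q * q))) : FN (M * q * q))
      * ((Uoi A q M d hd : ↥(L0 A (M * q * q))) : FN (M * q * q)) = 1 := h
  rw [coe_Uo] at h'
  exact eq_inv_of_mul_eq_one_right h'

theorem Uo_mem20 : Uo A q M d hd ∈ V20o A q M := hVE20 A q M _ (uE A M d hd).2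

theorem Uoi_mem20 : Uoi A q M d hd ∈ V20o A q M := hVE20 A q M _ (uEi A M d hd).2

include hq in
theorem Uo_mem11 : Uo A q M d hd ∈ V11o A q M B k hB hq :=
  hVE11 A q M B k hB hq _ (uE A M d hd).2

include hq in
theorem Uoi_mem11 : Uoi A q M d hd ∈ V11o A q M B k hB hq :=
  hVE11 A q M B k hB hq _ (uEi A M d hd).2

include hq in
theorem Uo_mem02 : Uo A q M d hd ∈ V02o A q M B k hB :=
  hVE02 A q M B k hB hq _ (uE A M d hd).2

include hq in
theorem Uoi_mem02 : Uoi A q M d hd ∈ V02o A q M B k hB :=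
  hVE02 A q M B k hB hq _ (uEi A M d hd).2

include hq in
theorem s11_Uo : s11 A q M B k hB hq ⟨Uo A q M d hd, Uo_mem11 A q M B k hB hq d hd⟩
    = deltaR (kV A) * (qExpand (kV A) d (deltaR (kV A)))⁻¹ := by
  rw [← sE_uE A M d hd]
  exact s11_incl A q M B k hB hq (uE A M d hd) _

/-- Horizontal integrality of the units of level `M`. -/
theorem isIntegral_Uo :
    IsIntegral ↥(Algebra.adjoin ↥(Kur A) ({j0 A (M * q * q)} : Set ↥(L0 A (M * q * q))))
      (Uo A q M d hd) := by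
  apply isIntegral_Kur_of_bar
  rw [coe_Uo]
  exact isIntegral_bar_of_unitOff (isUnitOff_unitF d _)

theorem isIntegral_Uoi :
    IsIntegral ↥(Algebra.adjoin ↥(Kur A) ({j0 A (M * q * q)} : Set ↥(L0 A (M * q * q))))
      (Uoi A q M d hd) := by
  apply isIntegral_Kur_of_bar
  rw [coe_Uoi]
  exact isIntegral_bar_of_unitOff (isUnitOff_unitF d _).inv

end LevelM

section Wit

variable (A : ValuationSubring Kbar)
variable (q M : ℕ) (B k : ℤ) (hB : B * M + k * q = 1) (hq : q.Prime) [NeZero M] [NeZero q]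
  [NeZero (M * q)] [NeZero (M * q * q)]

theorem q_dvd_lvl : q ∣ M * q * q := Dvd.intro_left (M * q) rfl

theorem qq_dvd_lvl : q * q ∣ M * q * q := ⟨M, by ring⟩

theorem eps1_eq_unitF : eps1 q M = unitF (M * q * q) q (q_dvd_lvl q M) := by
  apply Subtype.ext
  rw [eps1, coe_heckeAlphaBar]
  rfl

theorem eps2_eq_unitF :
    haveI : NeZero (q * q) := ⟨mul_ne_zero (NeZero.ne q) (NeZero.ne q)⟩
    eps2 q M = unitF (M * q * q) (q * q) (qq_dvd_lvl q M)
      * (unitF (M * q * q) q (q_dvd_lvl q M))⁻¹ := by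
  haveI : NeZero (q * q) := ⟨mul_ne_zero (NeZero.ne q) (NeZero.ne q)⟩
  apply Subtype.ext
  have h1 : ((eps2 q M : FN (M * q * q)) : LaurentSeries Kbar)
      = qExpand Kbar q (coeffEmb Kbar (modularUnitSeries q)) := by
    rw [eps2, coe_heckeBetaBar]
    rfl
  have h2 : ((unitF (M * q * q) (q * q) (qq_dvd_lvl q M)
      * (unitF (M * q * q) q (q_dvd_lvl q M))⁻¹ : FN (M * q * q)) : LaurentSeries Kbar)
      = coeffEmb Kbar (modularUnitSeries (q * q)) * (coeffEmb Kbar (modularUnitSeries q))⁻¹ :=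
    rfl
  rw [h1, h2, coeffEmb_modularUnitSeries, coeffEmb_modularUnitSeries, map_mul, map_inv₀,
    qExpand_qExpand]
  have hd : deltaR Kbar ≠ 0 := deltaR_ne_zero Kbar
  have h3 : qExpand Kbar q (deltaR Kbar) ≠ 0 := qExpand_deltaR_ne_zero Kbar q
  have h4 : qExpand Kbar (q * q) (deltaR Kbar) ≠ 0 := qExpand_deltaR_ne_zero Kbar (q * q)
  field_simp

theorem isUnitOff_eps1 : IsUnitOff (M * q * q) (eps1 q M) := by
  rw [eps1_eq_unitF]
  exact isUnitOff_unitF q _

theorem isUnitOff_eps2 : IsUnitOff (M * q * q) (eps2 q M) := by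
  haveI : NeZero (q * q) := ⟨mul_ne_zero (NeZero.ne q) (NeZero.ne q)⟩
  rw [eps2_eq_unitF]
  exact (isUnitOff_unitF (q * q) _).mul (isUnitOff_unitF q _).inv

theorem isUnitOff_cQ : IsUnitOff (M * q * q) (cQ q M) :=
  isUnitOff_const (Nat.cast_ne_zero.2 (NeZero.ne q))

theorem isIntegral_eps1o :
    IsIntegral ↥(Algebra.adjoin ↥(Kur A) ({j0 A (M * q * q)} : Set ↥(L0 A (M * q * q))))
      (eps1o A q M) :=
  isIntegral_Kur_of_bar A _ _ (isIntegral_bar_of_unitOff (isUnitOff_eps1 q M))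

theorem isIntegral_eps2o :
    IsIntegral ↥(Algebra.adjoin ↥(Kur A) ({j0 A (M * q * q)} : Set ↥(L0 A (M * q * q))))
      (eps2o A q M) :=
  isIntegral_Kur_of_bar A _ _ (isIntegral_bar_of_unitOff (isUnitOff_eps2 q M))

theorem isIntegral_E20o :
    IsIntegral ↥(Algebra.adjoin ↥(Kur A) ({j0 A (M * q * q)} : Set ↥(L0 A (M * q * q))))
      (E20o A q M) := isIntegral_eps2o A q M

theorem isIntegral_E02o :
    IsIntegral ↥(Algebra.adjoin ↥(Kur A) ({j0 A (M * q * q)} : Set ↥(L0 A (M * q * q))))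
      (E02o A q M) :=
  isIntegral_Kur_of_bar A _ _ (isIntegral_bar_of_unitOff
    (((isUnitOff_cQ q M).pow 12).mul (isUnitOff_eps1 q M).inv))

theorem isIntegral_E11o :
    IsIntegral ↥(Algebra.adjoin ↥(Kur A) ({j0 A (M * q * q)} : Set ↥(L0 A (M * q * q))))
      (E11o A q M) :=
  isIntegral_Kur_of_bar A _ _ (isIntegral_bar_of_unitOff
    ((((isUnitOff_cQ q M).pow 12).mul (isUnitOff_eps1 q M)).mul (isUnitOff_eps2 q M).inv))

/-! ### Membership of the witnesses in the three valuation rings -/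

theorem natCast_mem_of_div {V : ValuationSubring ↥(L0 A (M * q * q))}
    {x : ↥(L0 A (M * q * q))}
    (h : ∃ f' ∈ V, x = ((q : ℕ) : ↥(L0 A (M * q * q))) * f') : x ∈ V := by
  obtain ⟨f', hf', rfl⟩ := h
  exact mul_mem (_root_.natCast_mem V q) hf'

include hq in
theorem E20o_mem11 (hA : (q : Kbar) ∈ A) : E20o A q M ∈ V11o A q M B k hB hq :=
  natCast_mem_of_div A q M (E20o_div_mem11 A q M B k hB hq hA)

include hq in
theorem E20o_mem02 (hA : (q : Kbar) ∈ A) : E20o A q M ∈ V02o A q M B k hB :=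
  natCast_mem_of_div A q M (E20o_div_mem02 A q M B k hB hq hA)

theorem E02o_mem20 (hA : (q : Kbar) ∈ A) : E02o A q M ∈ V20o A q M :=
  natCast_mem_of_div A q M (E02o_div_mem20 A q M hA)

include hq in
theorem E02o_mem11 (hA : (q : Kbar) ∈ A) : E02o A q M ∈ V11o A q M B k hB hq :=
  natCast_mem_of_div A q M (E02o_div_mem11 A q M B k hB hq hA)

theorem E11o_mem20 (hA : (q : Kbar) ∈ A) : E11o A q M ∈ V20o A q M :=
  natCast_mem_of_div A q M (E11o_div_mem20 A q M hA)

include hq in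
theorem E11o_mem02 (hA : (q : Kbar) ∈ A) : E11o A q M ∈ V02o A q M B k hB :=
  natCast_mem_of_div A q M (E11o_div_mem02 A q M B k hB hq hA)

theorem eps1o_eq : eps1o A q M
    = ((q : ℕ) : ↥(L0 A (M * q * q))) ^ 12 * (E02o A q M)⁻¹ := by
  apply Subtype.ext
  show eps1 q M = ((q : ℕ) : FN (M * q * q)) ^ 12 * (E02 q M)⁻¹
  rw [← cQ_eq_natCast, E02]
  have h0 := cQ_ne_zero q M
  have h1 := eps1_ne_zero q M
  field_simp

include hq in
theorem eps1o_mem02 : eps1o A q M ∈ V02o A q M B k hB := by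
  rw [eps1o_eq]
  exact mul_mem (pow_mem (_root_.natCast_mem _ q) 12) (E02o_inv_mem02 A q M B k hB hq)

end Wit

end Fermat.Agent.S36.NU.H99
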