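import Fermat.Agent.S36.NU.H82_CuspEta
import Fermat.Agent.S36.NU.H82_CuspDefs
import Fermat.Agent.S36.NU.H99_OrdMod1

/-!
# S36 / NU-B, leaf CUSPS (helper31): `E02∞` is integral over `ℚ̄[1/j]`

Level `N = M q²`.  `E02∞ = (q¹² / eps1)^q · j^-(q - 1)` with `eps1 = Δ(τ)/Δ(qτ)`
(`= BAD.H30.unitF N q`).  The conjugates of `eps1⁻q` are the family `H82.Y02` and
`H82.isIntegral_of_family` applies with `K₀ = q - 1`.

* `unitU_eq_div` : the conjugates of the unit `Δ(z)/Δ(dz)` are `D_1 / D_d`;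
* `coeffMap_psi_unitF` : the expansion of `unitF N d` at the identity coset over `ℂ`;
* `Y02_eq`, `hx_E02` : the link between `eps1⁻q` and `Y02` at the identity coset;
* `isIntegral_E02oo` : the target.
-/

set_option autoImplicit false
set_option synthInstance.maxHeartbeats 400000
set_option maxHeartbeats 1000000
set_option linter.unusedSectionVars false
set_option linter.unusedVariables false
set_option linter.style.haveILetI false

open ModularCurve Polynomial

noncomputable section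

namespace Fermat.Agent.S36.NU.H31C

open Fermat.Agent.S23.H22 (Q q1)
open Fermat.Agent.S28 Fermat.Agent.S28.H30
open Fermat.Agent.S24 (Kbar FN jF iotaC)
open Fermat.Agent.S15.H30 (psi psi_apply psi_injective psi_jF dM dP dMm)
open Fermat.Agent.BAD.H30 (unitU unitF psi_unitF liftUnit coeffMap_liftUnit dM_dvd_of_dvd)
open Fermat.Agent.RED.H30
open Fermat.Agent.S36.NU.H23 (L0)

section General

variable (N : ℕ) [NeZero N] (d : ℕ)

/-- The conjugates of the unit `Δ(z)/Δ(dz)` as quotients of the conjugates of `Δ`. -/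
theorem unitU_eq_div (hd : d ∣ N) (c : Q N) :
    unitU N d c = pexp N (fam N 1 DeltaMF c) / pexp N (fam N d DeltaMF c) := by
  unfold unitU Ueta
  rw [pexp_prodF (dM_dvd_of_dvd hd), pexp_prodF (dM_dvd_of_dvd hd), Fintype.prod_bool,
    Fintype.prod_bool]
  simp only [dP, dM, dMm, if_true, Bool.false_eq_true, if_false, pow_zero, pow_one, one_mul,
    mul_one]

/-- The expansion of the unit of `F_N` at the identity coset, over `ℂ`. -/
theorem coeffMap_psi_unitF [NeZero d] (hd : d ∣ N) :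
    coeffMap iotaC (psi N (unitF N d hd))
      = HahnSeries.C ((d : ℂ) ^ ((12 : ℤ) - 1)) * unitU N d (q1 : Q N) := by
  rw [psi_unitF, map_mul, coeffMap_C, coeffMap_liftUnit, map_zpow₀, map_natCast]

end General

section E02

variable (A : ValuationSubring Kbar)
variable (q M : ℕ) (hq : q.Prime) [NeZero M] [NeZero q] [NeZero (M * q)] [NeZero (M * q * q)]

/-- The family `Y02` is the family of the conjugates of `eps1⁻q`. -/
theorem Y02_eq (c : Q (M * q * q)) :
    H82.Y02 q M c = ((unitU (M * q * q) q c)⁻¹) ^ q := by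
  rw [H82.Y02, unitU_eq_div _ _ (H82.dvd_lvl_q q M), inv_div]

/-- The expansion of `eps1⁻q` at the identity coset is a constant multiple of `Y02`. -/
theorem hx_E02 :
    coeffMap iotaC (psi (M * q * q) (((H99.eps1 q M)⁻¹) ^ q))
      = HahnSeries.C (iotaC (((q : Kbar) ^ (11 * q))⁻¹))
          * H82.Y02 q M (q1 : Q (M * q * q)) := by
  have hc : (HahnSeries.C ((q : ℂ) ^ ((12 : ℤ) - 1)) : LaurentSeries ℂ)⁻¹ ^ q
      = HahnSeries.C (iotaC (((q : Kbar) ^ (11 * q))⁻¹)) := by
    have e1 : ((12 : ℤ) - 1) = ((11 : ℕ) : ℤ) := by norm_num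
    rw [e1, zpow_natCast, ← map_inv₀, ← map_pow, map_inv₀ iotaC, map_pow iotaC, map_natCast,
      inv_pow, pow_mul]
  rw [Y02_eq, map_pow, map_inv₀, map_pow, map_inv₀, H99.eps1_eq_unitF, coeffMap_psi_unitF,
    mul_inv, mul_pow, hc]

include hq in
/-- **(CUSP-INT), `E02∞`**: `E02∞ = (q¹²/eps1)^q / j^(q - 1)` is integral over `ℚ̄[1/j]`. -/
theorem isIntegral_E02oo :
    IsIntegral ↥(Algebra.adjoin Kbar ({(jF (M * q * q))⁻¹} : Set (FN (M * q * q))))
      ((H82.E02oo A q M : ↥(L0 A (M * q * q))) : FN (M * q * q)) := by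
  have h := H82.isIntegral_of_family (H82.Y02 q M) (H82.sym_Y02 q M) (H82.coeff_Y02 q M) (q - 1)
    (fun c n hn => H82.ord_Y02 q M hq c n hn) (((H99.eps1 q M)⁻¹) ^ q)
    (((q : Kbar) ^ (11 * q))⁻¹) (hx_E02 q M)
  have hc : IsIntegral ↥(Algebra.adjoin Kbar ({(jF (M * q * q))⁻¹} : Set (FN (M * q * q))))
      (H99.cQ q M ^ (12 * q)) := by
    refine IsIntegral.pow ?_ _
    have : H99.cQ q M
        = algebraMap ↥(Algebra.adjoin Kbar ({(jF (M * q * q))⁻¹} : Set (FN (M * q * q))))
            (FN (M * q * q)) (algebraMap Kbar _ (q : Kbar)) := rfl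
    rw [this]
    exact isIntegral_algebraMap
  have e : ((H82.E02oo A q M : ↥(L0 A (M * q * q))) : FN (M * q * q))
      = H99.cQ q M ^ (12 * q)
          * (((H99.eps1 q M)⁻¹) ^ q * (jF (M * q * q))⁻¹ ^ (q - 1)) := by
    have e0 : ((H82.E02oo A q M : ↥(L0 A (M * q * q))) : FN (M * q * q))
        = H99.E02 q M ^ q * (jF (M * q * q))⁻¹ ^ (q - 1) := rfl
    rw [e0, H99.E02, mul_pow, ← pow_mul, mul_assoc (H99.cQ q M ^ (12 * q))]
  rw [e]
  exact hc.mul h

end E02

end Fermat.Agent.S36.NU.H31C
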