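import Fermat.Agent.S36.NU.H82_CuspIntA

/-!
# S36 / NU-B, leaf CUSPS, slice CUSP-INT (helper73): the families `E11∞` and `x11∞`

Level `N = M q²`.  With helper82's families `Y11`, `Yx` of conjugates (over `ℂ`):

* `ord_Yx` : the conjugates of `(j″ - j) eps1 / eps2` have `t`-order `≥ - (2 q - 1) N`;
* `Y11_q1`, `Yx_q1` : the two families at the identity coset;
* `cm_psi_E11`, `cm_psi_x11` : the expansions of `E11` and of `(j″ - j) E11` are `q¹² ·` the
  members at the identity coset;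
* `isIntegral_E11oo`, `isIntegral_x11oo` : `E11∞` and `x11∞` are integral over `ℚ̄[1/j]`.
-/

set_option autoImplicit false
set_option linter.unusedSectionVars false
set_option linter.unusedVariables false
set_option synthInstance.maxHeartbeats 400000
set_option maxHeartbeats 1000000
set_option linter.style.haveILetI false

open UpperHalfPlane ModularForm ModularCurve Function
open scoped MatrixGroups ModularForm Manifold

noncomputable section

namespace Fermat.Agent.S36.NU.H73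

open Fermat.Agent.S23.H22 (G0 Q toSL piPerm q1 E12)
open Fermat.Agent.S28 Fermat.Agent.S28.H30
open Fermat.Agent.S36.NU.H82 (Dc Ec Y11 Yx ordAt_cases ordAt_one_eq dvd_lvl_q dvd_lvl_qq
  DeltaC Dc_q1 Ec_q1 Dc_q1_ne_zero qExpand_hahnC DeltaC_ne_zero qExpand_DeltaC_ne_zero)

section OrdYx

variable (q M : ℕ) [NeZero (M * q * q)]

/-- **The pole orders of the family `Yx`**: `ord ≥ - (2 q - 1) N`. -/
theorem ord_Yx (hq : q.Prime) (c : Q (M * q * q)) (n : ℤ)
    (hn : n < -(((2 * q - 1 : ℕ) : ℤ) * ((M * q * q : ℕ) : ℤ))) : (Yx q M c).coeff n = 0 := by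
  obtain ⟨γ, rfl⟩ := exists_rep (M * q * q) c
  have hD1 := uls_fam_Delta (M * q * q) (one_dvd _) γ
  have hDq := uls_fam_Delta (M * q * q) (dvd_lvl_q q M) γ
  have hDqq := uls_fam_Delta (M * q * q) (dvd_lvl_qq q M) γ
  have hE1 := uls_fam_of_intQ (M * q * q) (one_dvd _) E12 intQ_E12 qExpansion_E12_coeff_zero
    (⟦toSL γ⟧ : Q (M * q * q))
  have hEqq := uls_fam_of_intQ (M * q * q) (dvd_lvl_qq q M) E12 intQ_E12
    qExpansion_E12_coeff_zero (⟦toSL γ⟧ : Q (M * q * q))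
  have hA := hEqq.mul hD1
  have hB := hE1.mul hDqq
  have hden := (hDq.pow 2).inv
  rw [ordAt_one_eq] at hA
  rw [Yx]
  by_cases h0 : Ec q M (q * q) (⟦toSL γ⟧ : Q (M * q * q)) * Dc q M 1 (⟦toSL γ⟧ : Q (M * q * q))
      - Ec q M 1 (⟦toSL γ⟧ : Q (M * q * q)) * Dc q M (q * q) (⟦toSL γ⟧ : Q (M * q * q)) = 0
  · rw [h0, zero_div, HahnSeries.coeff_zero]
  · have hmin := HahnSeries.min_order_le_order_add (Γ := ℤ)
      (x := Ec q M (q * q) (⟦toSL γ⟧ : Q (M * q * q)) * Dc q M 1 (⟦toSL γ⟧ : Q (M * q * q)))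
      (y := -(Ec q M 1 (⟦toSL γ⟧ : Q (M * q * q)) * Dc q M (q * q) (⟦toSL γ⟧ : Q (M * q * q))))
      (by rwa [← sub_eq_add_neg])
    rw [HahnSeries.order_neg, hA.ord, hB.ord, ← sub_eq_add_neg] at hmin
    apply HahnSeries.coeff_eq_zero_of_lt_order
    rw [div_eq_mul_inv, HahnSeries.order_mul h0 hden.ne, hden.ord]
    refine lt_of_lt_of_le hn ?_
    have hq1 : (1 : ℤ) ≤ q := by exact_mod_cast hq.one_le
    have hM0 : (0 : ℤ) ≤ M := by exact_mod_cast Nat.zero_le M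
    have hc : ((2 * q - 1 : ℕ) : ℤ) = 2 * (q : ℤ) - 1 := by
      have : 1 ≤ 2 * q := by have := hq.one_le; omega
      rw [Nat.cast_sub this]
      push_cast
      ring
    have hMq : (0 : ℤ) ≤ M * q := mul_nonneg hM0 (le_trans zero_le_one hq1)
    have hMqq : (0 : ℤ) ≤ M * q * q := mul_nonneg hMq (le_trans zero_le_one hq1)
    have hq0 : (0 : ℤ) ≤ q := le_trans zero_le_one hq1
    have hq10 : (0 : ℤ) ≤ (q : ℤ) - 1 := sub_nonneg.2 hq1
    rcases ordAt_cases q M hq ((γ⁻¹ : SL(2, ℤ)) 1 0) with ⟨h1, h2⟩ | ⟨h1, h2⟩ | ⟨h1, h2⟩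
    · rw [h2] at hmin
      rw [h1, hc]
      push_cast at hmin ⊢
      have hb1 : (M : ℤ) ≤ 0 + (M : ℤ) * q * q := by
        nlinarith [mul_nonneg hMq hq10, mul_nonneg hM0 hq10]
      have hb2 : (M : ℤ) ≤ 0 + (M : ℤ) := by linarith
      have hL := le_trans (le_min hb1 hb2) hmin
      nlinarith [mul_nonneg hM0 hq10, mul_nonneg (mul_nonneg hM0 hq10) hq0,
        mul_nonneg (mul_nonneg (mul_nonneg hM0 hq10) hq0) hq0,
        mul_nonneg (mul_nonneg hM0 hq10) hq10,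
        mul_nonneg (mul_nonneg (mul_nonneg hM0 hq10) hq10) hq0]
    · rw [h2] at hmin
      rw [h1, hc]
      push_cast at hmin ⊢
      have hb1 : (M : ℤ) * q * q ≤ 0 + (M : ℤ) * q * q := by linarith
      have hL := le_trans (le_min hb1 hb1) hmin
      linarith
    · rw [h2] at hmin
      rw [h1, hc]
      push_cast at hmin ⊢
      have hb1 : (M : ℤ) * q * q ≤ 0 + (M : ℤ) * q * q := by linarith
      have hb2 : (M : ℤ) * q * q ≤ 0 + (q : ℤ) * q * ((M : ℤ) * q * q) := by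
        nlinarith [mul_nonneg hMqq hq10, mul_nonneg (mul_nonneg hMqq hq10) hq0,
          mul_nonneg hMqq hq0]
      have hL := le_trans (le_min hb1 hb2) hmin
      linarith

end OrdYx

section AtQ1

open Fermat.Agent.S24 (Kbar FN jF iotaC)
open Fermat.Agent.S15.H30 (psi psi_apply psi_injective psi_jF)
open Fermat.Agent.S36.NU.H82 (UC UC_eq coeffMap_psi_eps1 coeffMap_psi_eps2
  hahnC_natCast_pow_ne_zero coeffMap_iotaC_coeffEmb isIntegral_of_family sym_Y11 sym_Yx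
  coeff_Y11 coeff_Yx ord_Y11 E11oo x11oo j2o uoo)
open Fermat.Agent.S36.NU.H99 (E11 eps1 eps2 cQ E11o)

variable (q M : ℕ) [NeZero q] [NeZero (M * q * q)]

/-- **The family `Y11` at the identity coset.** -/
theorem Y11_q1 :
    qExpand ℂ (M * q * q) (UC q) * (qExpand ℂ (M * q * q) (qExpand ℂ q (UC q)))⁻¹
      = Y11 q M (q1 : Q (M * q * q)) := by
  haveI : NeZero (q * q) := ⟨mul_ne_zero (NeZero.ne q) (NeZero.ne q)⟩
  have ha : qExpand ℂ (M * q * q) DeltaC ≠ 0 := by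
    intro h
    exact DeltaC_ne_zero (qExpand_injective (M * q * q) (by rw [h, map_zero]))
  have hb : qExpand ℂ (M * q * q) (qExpand ℂ q DeltaC) ≠ 0 := by
    intro h
    exact qExpand_DeltaC_ne_zero q (qExpand_injective (M * q * q) (by rw [h, map_zero]))
  have hc' : qExpand ℂ (M * q * q) (qExpand ℂ (q * q) DeltaC) ≠ 0 := by
    intro h
    exact qExpand_DeltaC_ne_zero (q * q) (qExpand_injective (M * q * q) (by rw [h, map_zero]))
  have hc := hahnC_natCast_pow_ne_zero q 11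
  have e1 : (HahnSeries.C (((q * q : ℕ) : ℂ) ^ 11) : LaurentSeries ℂ)
      = HahnSeries.C ((q : ℂ) ^ 11) * HahnSeries.C ((q : ℂ) ^ 11) := by
    rw [← map_mul]
    congr 1
    push_cast
    ring
  have e0 : (HahnSeries.C (((1 : ℕ) : ℂ) ^ 11) : LaurentSeries ℂ) = 1 := by
    rw [Nat.cast_one, one_pow, map_one]
  have e2 : qExpand ℂ q (qExpand ℂ q DeltaC) = qExpand ℂ (q * q) DeltaC :=
    qExpand_qExpand (R := ℂ) (N := q) q DeltaC
  have e3 : qExpand ℂ 1 DeltaC = DeltaC := qExpand_one_apply DeltaC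
  rw [Y11, Dc_q1 q M 1 (one_dvd _), Dc_q1 q M q (dvd_lvl_q q M),
    Dc_q1 q M (q * q) (dvd_lvl_qq q M), e0, e1, e3, UC_eq]
  simp only [map_mul, map_inv₀]
  rw [e2]
  generalize qExpand ℂ (M * q * q) DeltaC = a at ha ⊢
  generalize qExpand ℂ (M * q * q) (qExpand ℂ q DeltaC) = b at hb ⊢
  generalize qExpand ℂ (M * q * q) (qExpand ℂ (q * q) DeltaC) = c at hc' ⊢
  generalize (HahnSeries.C ((q : ℂ) ^ 11) : LaurentSeries ℂ) = κ at hc ⊢
  field_simp

/-- **The family `Yx` at the identity coset.** -/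
theorem Yx_q1 :
    (iotaN (M * q * q) (qExpand ℚ (q * q) jq) - iotaN (M * q * q) jq)
        * Y11 q M (q1 : Q (M * q * q))
      = Yx q M (q1 : Q (M * q * q)) := by
  haveI : NeZero (q * q) := ⟨mul_ne_zero (NeZero.ne q) (NeZero.ne q)⟩
  have e3 : qExpand ℚ 1 jq = jq := qExpand_one_apply jq
  rw [Yx, Y11, Ec_q1 q M 1 (one_dvd _), Ec_q1 q M (q * q) (dvd_lvl_qq q M), e3]
  ring

end AtQ1

section Int

open Fermat.Agent.S24 (Kbar FN iotaC)
open Fermat.Agent.S15.H30 (psi psi_apply psi_injective psi_jF)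
open Fermat.Agent.S36.NU.H82 (UC UC_eq coeffMap_psi_eps1 coeffMap_psi_eps2
  hahnC_natCast_pow_ne_zero coeffMap_iotaC_coeffEmb isIntegral_of_family sym_Y11 sym_Yx
  coeff_Y11 coeff_Yx ord_Y11 E11oo x11oo j2o uoo)
open Fermat.Agent.S36.NU.H99 (E11 eps1 eps2 cQ E11o)

variable (A : ValuationSubring Kbar)
variable (q M : ℕ) [NeZero M] [NeZero q] [NeZero (M * q)] [NeZero (M * q * q)]

theorem cm_psi_cQ :
    coeffMap iotaC (psi (M * q * q) (cQ q M)) = HahnSeries.C ((q : ℂ)) := by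
  rw [cQ, AlgHom.commutes, LaurentSeries.algebraMap_apply, Fermat.Agent.RED.H30.coeffMap_C,
    map_natCast]

/-- **The expansion of `E11 = q¹² eps1 / eps2`** is `q¹² ·` the member of `Y11` at the identity
coset. -/
theorem cm_psi_E11 :
    coeffMap iotaC (psi (M * q * q) (E11 q M))
      = HahnSeries.C (iotaC ((q : Kbar) ^ 12)) * Y11 q M (q1 : Q (M * q * q)) := by
  have e : iotaC ((q : Kbar) ^ 12) = (q : ℂ) ^ 12 := by rw [map_pow, map_natCast]
  rw [e, map_pow HahnSeries.C, ← Y11_q1, E11, map_mul, map_mul, map_mul, map_mul, map_inv₀,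
    map_inv₀, coeffMap_psi_eps1, coeffMap_psi_eps2, map_pow, map_pow, cm_psi_cQ, mul_assoc]

theorem cm_psi_jF :
    coeffMap iotaC (psi (M * q * q) (Fermat.Agent.S24.jF (M * q * q)))
      = iotaN (M * q * q) jq := by
  rw [psi_jF]
  exact Fermat.Agent.RED.H30.coeffMap_qExpand_jqModC_one iotaC (M * q * q)

theorem cm_psi_j2 :
    coeffMap iotaC (psi (M * q * q) ((j2o A q M : ↥(Fermat.Agent.S36.NU.H23.L0 A (M * q * q))) :
        FN (M * q * q)))
      = iotaN (M * q * q) (qExpand ℚ (q * q) jq) := by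
  rw [psi_apply]
  show coeffMap iotaC (qExpand Kbar (M * q * q) (coeffEmb Kbar (qExpand ℚ (q * q) jq))) = _
  rw [ModularCurve.coeffMap_qExpand, coeffMap_iotaC_coeffEmb]
  rfl

/-- **The expansion of `(j″ - j) E11`** is `q¹² ·` the member of `Yx` at the identity coset. -/
theorem cm_psi_x11 :
    coeffMap iotaC (psi (M * q * q)
        ((((j2o A q M : ↥(Fermat.Agent.S36.NU.H23.L0 A (M * q * q))) : FN (M * q * q))
          - Fermat.Agent.S24.jF (M * q * q)) * E11 q M))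
      = HahnSeries.C (iotaC ((q : Kbar) ^ 12)) * Yx q M (q1 : Q (M * q * q)) := by
  rw [map_mul, map_mul, map_sub, map_sub, cm_psi_j2, cm_psi_jF, cm_psi_E11, ← Yx_q1]
  ring

theorem coe_E11oo :
    ((E11oo A q M : ↥(Fermat.Agent.S36.NU.H23.L0 A (M * q * q))) : FN (M * q * q))
      = E11 q M * (Fermat.Agent.S24.jF (M * q * q))⁻¹ ^ (2 * (q - 1)) := rfl

theorem coe_x11oo (hq : q.Prime) :
    ((x11oo A q M : ↥(Fermat.Agent.S36.NU.H23.L0 A (M * q * q))) : FN (M * q * q))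
      = ((((j2o A q M : ↥(Fermat.Agent.S36.NU.H23.L0 A (M * q * q))) : FN (M * q * q))
          - Fermat.Agent.S24.jF (M * q * q)) * E11 q M)
        * (Fermat.Agent.S24.jF (M * q * q))⁻¹ ^ (2 * q - 1) := by
  have hj : Fermat.Agent.S24.jF (M * q * q) ≠ 0 := fun h =>
    Fermat.Agent.S36.NU.H88.j0_ne_zero A (M * q * q) (Subtype.ext h)
  have e : 2 * q - 1 = 2 * (q - 1) + 1 := by
    have := hq.one_le
    omega
  show (((j2o A q M : ↥(Fermat.Agent.S36.NU.H23.L0 A (M * q * q))) : FN (M * q * q))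
      * (Fermat.Agent.S24.jF (M * q * q))⁻¹ - 1)
      * (E11 q M * (Fermat.Agent.S24.jF (M * q * q))⁻¹ ^ (2 * (q - 1))) = _
  rw [e, pow_succ]
  generalize ((j2o A q M : ↥(Fermat.Agent.S36.NU.H23.L0 A (M * q * q))) : FN (M * q * q)) = j2
  generalize E11 q M = E
  generalize (Fermat.Agent.S24.jF (M * q * q))⁻¹ ^ (2 * (q - 1)) = P
  field_simp

/-- **`E11∞` is integral over `ℚ̄[1/j]`.** -/
theorem isIntegral_E11oo (hq : q.Prime) :
    IsIntegral ↥(Algebra.adjoin Kbar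
        ({(Fermat.Agent.S24.jF (M * q * q))⁻¹} : Set (FN (M * q * q))))
      ((E11oo A q M : ↥(Fermat.Agent.S36.NU.H23.L0 A (M * q * q))) : FN (M * q * q)) := by
  rw [coe_E11oo]
  exact isIntegral_of_family (Y11 q M) (sym_Y11 q M) (coeff_Y11 q M) (2 * (q - 1))
    (ord_Y11 q M hq) (E11 q M) ((q : Kbar) ^ 12) (cm_psi_E11 q M)

/-- **`x11∞` is integral over `ℚ̄[1/j]`.** -/
theorem isIntegral_x11oo (hq : q.Prime) :
    IsIntegral ↥(Algebra.adjoin Kbar
        ({(Fermat.Agent.S24.jF (M * q * q))⁻¹} : Set (FN (M * q * q))))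
      ((x11oo A q M : ↥(Fermat.Agent.S36.NU.H23.L0 A (M * q * q))) : FN (M * q * q)) := by
  rw [coe_x11oo A q M hq]
  exact isIntegral_of_family (Yx q M) (sym_Yx q M) (coeff_Yx q M) (2 * q - 1)
    (ord_Yx q M hq) _ ((q : Kbar) ^ 12) (cm_psi_x11 A q M)

end Int

end Fermat.Agent.S36.NU.H73
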