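import Fermat.Agent.S36.NU.H79_NUGlue
import Fermat.Agent.S36.NU.H74_FinHyps
import Fermat.Agent.S35.H89_FrobDefs

/-!
# S36 / NU-B, ND (helper79): the modular instance of `NUData`, interface

Level `N = M q²`, `q ∤ M` tame, `A` over `q`.

* `TlowM` : the conservation datum of the lower level `M q` (`S35.H89.modTot` with `a = k`,
  `b = B`);
* `NUDataM`, `NUPreM` : the types of the modular data `NUData`, `NUPre`
  (`K = ℚ̄`, `L₀ = L0 A (M q²)`, `L = F_{M q²}`, `k = kV A`, `ι = Fin 3`,
  `Z = Place k (FM A M)`, `E = kap3 (FM A M) (FM A M)`, `K' = ℚ̄`, `L' = F_{M q}`,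
  `L₁ = L₂ = F1 A q M`);
* `IsNuM D` : `D : NUDataM` is a modular instance: `D.T = totM`, `D.SS = ssM`, `D.q = q`,
  `D.Nα`, `D.Nβ` are the norms along `α`, `β`, and the components are `0`, `1`, `2`;
* `Stmt_NuM` : there is a modular instance (the target of ND; input of INST).
-/

set_option autoImplicit false
set_option synthInstance.maxHeartbeats 400000
set_option maxHeartbeats 1000000
set_option linter.style.haveILetI false
set_option linter.unusedSectionVars false

noncomputable section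

open ModularCurve AlgebraicCurve
open Fermat.Agent.S24 Fermat.Agent.BAD.H88 Fermat.Agent.S28 Fermat.Agent.S28.H73
open Fermat.Agent.RED.H73 Fermat.Agent.RED.H17 Fermat.Agent.S36.NU.H88
open Fermat.Agent.Lib.HeckeComm Fermat.Agent.S36.NU.H23 Fermat.Agent.S36.NU.H74

namespace Fermat.Agent.S36.NU.H79

open Fermat.Agent.BAD Fermat.Agent.RED Fermat.Agent.BAD.H79

section NuM

variable (A : ValuationSubring Kbar) (q M : ℕ) (B k : ℤ) (hB : B * M + k * q = 1) (hq : q.Prime)
  [NeZero M] [NeZero q] [NeZero (M * q)] [NeZero (M * q * q)]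
  (hqM : ¬ q ∣ M) (hA : A.LiesOverPrime q) (ht : H91.TameAt M q)

include hB in
/-- The Bézout relation in the form of the lower level. -/
theorem hab_nuM : k * q + B * M = 1 := by
  rw [← hB]
  ring

/-- **The conservation datum of the lower level `M q`.** -/
abbrev TlowM : TotData Kbar (FN (M * q)) (kV A) (F1 A q M) (F1 A q M) :=
  S35.H89.modTot A q M k B (hab_nuM q M B k hB) hq hA hqM ht

/-- The type of the modular data `NUPre`. -/
abbrev NUPreM : Type _ :=
  @NUPre Kbar ↥(L0 A (M * q * q)) (FN (M * q * q)) (kV A) (Fin 3) (Place (kV A) (FM A M))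
    (kap3 (FM A M) (FM A M)) Kbar (FN (M * q)) (F1 A q M) (F1 A q M)
    _ _ _ _ _ _ _ _ (algkM A M) _ _ _ _ _ _ _

/-- The type of the modular data `NUData`. -/
abbrev NUDataM : Type _ :=
  @NUData Kbar ↥(L0 A (M * q * q)) (FN (M * q * q)) (kV A) (Fin 3) (Place (kV A) (FM A M))
    (kap3 (FM A M) (FM A M)) Kbar (FN (M * q)) (F1 A q M) (F1 A q M)
    _ _ _ _ _ _ _ _ (algkM A M) _ _ _ _ _ _ _

/-- **`D` is a modular instance of `NUData`.** -/
structure IsNuM (D : NUDataM A q M) : Prop where
  hT : letI := algkM A M; D.T = totM A q M B k hB hq hqM hA ht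
  hT' : letI := algkM A M; D.T' = TlowM A q M B k hB hq hqM hA ht
  hSS : letI := algkM A M; D.SS = ssM A q M
  hq : letI := algkM A M; D.q = q
  hNα : letI := algkM A M; ∀ h : ↥(L0 A (M * q * q)),
    D.Nα h = normAlongHom (heckeAlphaBar Kbar (M * q) q).toRingHom (h : FN (M * q * q))
  hNβ : letI := algkM A M; ∀ h : ↥(L0 A (M * q * q)),
    D.Nβ h = normAlongHom (heckeBetaBar Kbar (M * q) q).toRingHom (h : FN (M * q * q))
  hi₂₀ : letI := algkM A M; D.i₂₀ = 0
  hi₁₁ : letI := algkM A M; D.i₁₁ = 1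
  hi₀₂ : letI := algkM A M; D.i₀₂ = 2

/-- **Target of ND**: there is a modular instance of `NUData`. -/
def Stmt_NuM : Prop :=
  ∃ D : NUDataM A q M, IsNuM A q M B k hB hq hqM hA ht D

end NuM

end Fermat.Agent.S36.NU.H79
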