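import Fermat.Agent.S36.NU.H74_HssFive
import Fermat.Agent.S36.NU.H28_RadQMod
import Fermat.Agent.S36.NU.H79_NuMDefs

/-!
# S36 / NU-B, leaf HSS-ASM, final form (helper74)

* `hss_five_unc` : the hypothesis `hss` of `H99.pointData_of_dichotomy` on helper88's `chart0`
  for `q ≥ 5`, `4 ∣ M`, **unconditional** (helper28's `hG_totM`, `hthree_totM`);
* `hss_D_of_chart0` : the adapter to a modular instance `D` of `NUData` (`hD : IsNuM D`):
  `D.T = totM`, `D.SS = ssM`, `D.i₂₀ = 0`;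
* `hss_gen_D` : `hss` for `D`, generic in the coordinate `(f, u₀)`, from the pole data at the
  points of `ssM` (for `q = 2, 3`);
* `hss_five_D` : **`hss` for `D`, `q ≥ 5`**, in the shape of `H99.pointData_of_dichotomy` /
  `H10.TopInputs.hpt0`.
-/

set_option autoImplicit false
set_option synthInstance.maxHeartbeats 400000
set_option maxHeartbeats 1000000
set_option linter.style.haveILetI false
set_option linter.unusedSectionVars false

noncomputable section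

open ModularCurve AlgebraicCurve Polynomial

namespace Fermat.Agent.S36.NU.H74

open Fermat.Agent.S24 Fermat.Agent.BAD.H88 Fermat.Agent.BAD.H30 Fermat.Agent.BAD.H21
open Fermat.Agent.S28 Fermat.Agent.S28.H73 Fermat.Agent.RED.H73 Fermat.Agent.RED.H17
open Fermat.Agent.S36.NU.H88 Fermat.Agent.S36.NU.H23 Fermat.Agent.S36.NU.H16
open Fermat.Agent.S36.NU.H41 Fermat.Agent.S36.NU.H65 Fermat.Agent.S36.NU.H73
open Fermat.Agent.S36.NU.H79 Fermat.Agent.BAD Fermat.Agent.RED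

section Final

variable (A : ValuationSubring Kbar) (q M : ℕ) (B k : ℤ) (hB : B * M + k * q = 1) (hq : q.Prime)
  [NeZero M] [NeZero q] [NeZero (M * q)] [NeZero (M * q * q)] (hqM : ¬ q ∣ M)
  (hA : A.LiesOverPrime q) (ht : H91.TameAt M q)

attribute [local instance] algkM

include hB in
/-- **HSS-ASM, `q ≥ 5`, unconditional**, on `chart0`. -/
theorem hss_five_unc (h5 : 5 ≤ q) (h4 : 4 ∣ M) :
    ∀ z ∈ ssM A q M, ∀ 𝔪 : Ideal (chart0 A q M B k hB hq hqM hA ht).B, 𝔪.IsMaximal →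
      (∀ β : (chart0 A q M B k hB hq hqM hA ht).B,
        β ∈ 𝔪 ↔ VanAt ((totM A q M B k hB hq hqM hA ht).pt 0 z)
          ((chart0 A q M B k hB hq hqM hA ht).rdB 0 β)) →
      Nonempty (LocEq (chart0 A q M B k hB hq hqM hA ht) ((q : ℕ) : ↥(Rur A)) 𝔪) :=
  hss_five A q M B k hB hq hqM hA ht h5 h4 0 (H28.hG_totM A q M B k hB hq hqM hA ht)
    (H28.hthree_totM A q M B k hB hq hqM hA ht)

include hB in
/-- **HSS-ASM at one point, generic in the coordinate, unconditional in `hG`, `hthree`**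
(helper16's `hss_gen` with helper28's TI3-VAL). -/
theorem hss_gen_unc
    (f : FN M) (u₀ : LaurentSeries ℤ) (hf : (f : LaurentSeries Kbar) = H65.intSer Kbar u₀)
    (hθ : H65.ThetaNZ q (coeffMap (Int.castRingHom (kV A)) u₀))
    (huI : IsIntegral ↥(Algebra.adjoin ↥(Kur A) {j0 A (M * q * q)}) (uo A q M f u₀ hf))
    (hu2I : IsIntegral ↥(Algebra.adjoin ↥(Kur A) {j0 A (M * q * q)}) (u2o A q M f u₀ hf))
    (z : Place (kV A) (FM A M)) (c : kV A) (u y₂ : FM A M)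
    (hu : (u : LaurentSeries (kV A)) = coeffMap (Int.castRingHom (kV A)) u₀)
    (hy₂ : (y₂ : LaurentSeries (kV A))
      = - coeffMap (Int.castRingHom (kV A)) (H65.kdel q u₀) ^ q)
    (hord : z.ord (u - algebraMap (kV A) (FM A M) c) = 1) (hc : c ^ q ^ 2 = c)
    (hd : z.ord y₂ = -(q : ℤ))
    (𝔪 : Ideal (chart0 A q M B k hB hq hqM hA ht).B) (hmax : 𝔪.IsMaximal)
    (h𝔪 : ∀ β : (chart0 A q M B k hB hq hqM hA ht).B,
      β ∈ 𝔪 ↔ VanAt ((totM A q M B k hB hq hqM hA ht).pt 0 z)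
        ((chart0 A q M B k hB hq hqM hA ht).rdB 0 β)) :
    (∀ i, (chart0 A q M B k hB hq hqM hA ht).Icomp i ≤ 𝔪) ∧
      Nonempty (LocEq (chart0 A q M B k hB hq hqM hA ht) ((q : ℕ) : ↥(Rur A)) 𝔪) := by
  haveI : 𝔪.IsPrime := hmax.isPrime
  exact hss_gen A q M B k hB hq hqM hA ht 0 (H28.hG_totM A q M B k hB hq hqM hA ht)
    (H28.hthree_totM A q M B k hB hq hqM hA ht) f u₀ hf hθ huI hu2I z c u y₂ hu hy₂ hord hc hd
    𝔪 h𝔪

/-- **The adapter** to a modular instance `D` of `NUData`. -/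
theorem hss_D_of_chart0 (D : NUDataM A q M) (hD : IsNuM A q M B k hB hq hqM hA ht D)
    (h : ∀ z ∈ ssM A q M, ∀ 𝔪 : Ideal (chart0 A q M B k hB hq hqM hA ht).B, 𝔪.IsMaximal →
      (∀ β : (chart0 A q M B k hB hq hqM hA ht).B,
        β ∈ 𝔪 ↔ VanAt ((totM A q M B k hB hq hqM hA ht).pt 0 z)
          ((chart0 A q M B k hB hq hqM hA ht).rdB 0 β)) →
      Nonempty (LocEq (chart0 A q M B k hB hq hqM hA ht) ((q : ℕ) : ↥(Rur A)) 𝔪)) :
    ∀ z ∈ D.SS, ∀ 𝔪 : Ideal (chart0 A q M B k hB hq hqM hA ht).B, 𝔪.IsMaximal →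
      (∀ β : (chart0 A q M B k hB hq hqM hA ht).B,
        β ∈ 𝔪 ↔ VanAt (D.T.pt D.i₂₀ z) ((chart0 A q M B k hB hq hqM hA ht).rdB D.i₂₀ β)) →
      Nonempty (LocEq (chart0 A q M B k hB hq hqM hA ht) ((q : ℕ) : ↥(Rur A)) 𝔪) := by
  have key : ∀ (T : @TotN Kbar ↥(L0 A (M * q * q)) (FN (M * q * q)) (kV A) (Fin 3)
      (Place (kV A) (FM A M)) (kap3 (FM A M) (FM A M)) _ _ _ _ _ _ _ _ (algkM A M))
      (i : Fin 3) (SS : Set (Place (kV A) (FM A M))),
      T = totM A q M B k hB hq hqM hA ht → i = 0 → SS = ssM A q M →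
      ∀ z ∈ SS, ∀ 𝔪 : Ideal (chart0 A q M B k hB hq hqM hA ht).B, 𝔪.IsMaximal →
        (∀ β : (chart0 A q M B k hB hq hqM hA ht).B,
          β ∈ 𝔪 ↔ VanAt (T.pt i z) ((chart0 A q M B k hB hq hqM hA ht).rdB i β)) →
        Nonempty (LocEq (chart0 A q M B k hB hq hqM hA ht) ((q : ℕ) : ↥(Rur A)) 𝔪) := by
    rintro T i SS rfl rfl rfl
    exact h
  exact key D.T D.i₂₀ D.SS hD.hT hD.hi₂₀ hD.hSS

include hB in
/-- **`hss` for a modular instance `D`, generic in the coordinate** (for `q = 2, 3`): from the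
integrality of `u`, `u''` and COORD + POLE at the points of `ssM`. -/
theorem hss_gen_D (D : NUDataM A q M) (hD : IsNuM A q M B k hB hq hqM hA ht D)
    (f : FN M) (u₀ : LaurentSeries ℤ) (hf : (f : LaurentSeries Kbar) = H65.intSer Kbar u₀)
    (hθ : H65.ThetaNZ q (coeffMap (Int.castRingHom (kV A)) u₀))
    (huI : IsIntegral ↥(Algebra.adjoin ↥(Kur A) {j0 A (M * q * q)}) (uo A q M f u₀ hf))
    (hu2I : IsIntegral ↥(Algebra.adjoin ↥(Kur A) {j0 A (M * q * q)}) (u2o A q M f u₀ hf))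
    (hpole : ∀ z ∈ ssM A q M, ∃ (c : kV A) (u y₂ : FM A M),
      (u : LaurentSeries (kV A)) = coeffMap (Int.castRingHom (kV A)) u₀ ∧
      (y₂ : LaurentSeries (kV A)) = - coeffMap (Int.castRingHom (kV A)) (H65.kdel q u₀) ^ q ∧
      z.ord (u - algebraMap (kV A) (FM A M) c) = 1 ∧ c ^ q ^ 2 = c ∧ z.ord y₂ = -(q : ℤ)) :
    ∀ z ∈ D.SS, ∀ 𝔪 : Ideal (chart0 A q M B k hB hq hqM hA ht).B, 𝔪.IsMaximal →
      (∀ β : (chart0 A q M B k hB hq hqM hA ht).B,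
        β ∈ 𝔪 ↔ VanAt (D.T.pt D.i₂₀ z) ((chart0 A q M B k hB hq hqM hA ht).rdB D.i₂₀ β)) →
      Nonempty (LocEq (chart0 A q M B k hB hq hqM hA ht) ((q : ℕ) : ↥(Rur A)) 𝔪) := by
  refine hss_D_of_chart0 A q M B k hB hq hqM hA ht D hD ?_
  intro z hz 𝔪 hmax h𝔪
  obtain ⟨c, u, y₂, hu, hy₂, hord, hc, hd⟩ := hpole z hz
  exact (hss_gen_unc A q M B k hB hq hqM hA ht f u₀ hf hθ huI hu2I z c u y₂ hu hy₂ hord hc hd
    𝔪 hmax h𝔪).2

include hB in
/-- **`hss` for a modular instance `D`, `q ≥ 5`, `4 ∣ M`**: the hypothesis `hss` of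
`H99.pointData_of_dichotomy` for `C = chart0`. -/
theorem hss_five_D (h5 : 5 ≤ q) (h4 : 4 ∣ M) (D : NUDataM A q M)
    (hD : IsNuM A q M B k hB hq hqM hA ht D) :
    ∀ z ∈ D.SS, ∀ 𝔪 : Ideal (chart0 A q M B k hB hq hqM hA ht).B, 𝔪.IsMaximal →
      (∀ β : (chart0 A q M B k hB hq hqM hA ht).B,
        β ∈ 𝔪 ↔ VanAt (D.T.pt D.i₂₀ z) ((chart0 A q M B k hB hq hqM hA ht).rdB D.i₂₀ β)) →
      Nonempty (LocEq (chart0 A q M B k hB hq hqM hA ht) ((q : ℕ) : ↥(Rur A)) 𝔪) :=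
  hss_D_of_chart0 A q M B k hB hq hqM hA ht D hD
    (hss_five_unc A q M B k hB hq hqM hA ht h5 h4)

end Final

end Fermat.Agent.S36.NU.H74
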