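import Fermat.Agent.S36.NU.H16_LocEq1

/-!
# S36 / NU-B, leaf (M4) LOCEQ (helper99): local equation data from ramification indices

Abstract part (pure algebra on a `H16.Chart`).  The global valuation-theoretic inputs are

* `(VALQ)` : `B ∩ ⋂ q V i = q B` (helper17's criterion applied to `β / q`);
* `ValE C q e` : the ramification index of `V i` over `q` is at most `e i`
  (`f ∈ 𝔪_{V i} ⟹ f ^ e i ∈ q V i`; modular: `e = (1, q - 1, 1)`, helper82 VAL0 / FUND-e).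

Results:

* `unif_of_valE`  : `x ^ e i = q * (unit of V i)` ⟹ `x` is a uniformizer of `V i`;
* `locEq_ord`     : a point with ONE branch: `q W₂ = x ^ e i W'`, `W₂, W' ∉ 𝔪`, `W' ∈ q V i'` for the
                    other components ⟹ `LocEq` and `i` is the only branch;
* `locEq_ord_one` : the case `e i = 1`, `x = q`, `W₂ = W'`;
* `all_branches`  : a point with `q W = ∏ t i ^ e i`, `W ∉ 𝔪`, `t i ∈ 𝔪`, `t i ^ e i ∈ q V i`:
                    ALL components pass through `𝔪`;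
* `locEq_ss`      : and there is a local equation datum at `𝔪` (`x = t`, `y = 1`).
-/

set_option autoImplicit false

noncomputable section

namespace Fermat.Agent.S36.NU.H99

open Fermat.Agent.S36.NU.H16

variable {R F k ι : Type*} {κ : ι → Type*} [CommRing R] [Field F] [Algebra R F]
  [Field k] [∀ i, Field (κ i)] [∀ i, Algebra k (κ i)]

/-- **(VALe)**: the ramification index of `V i` over `q` is at most `e i`. -/
def ValE (C : Chart R F k ι κ) (q : R) (e : ι → ℕ) : Prop :=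
  ∀ i, ∀ f ∈ (C.V i).nonunits, ∃ f' ∈ C.V i, f ^ e i = algebraMap R F q * f'

section Val

variable (V : ValuationSubring F)

/-- `x ∈ V`, `y ∈ V`, `x * y` a unit of `V` ⟹ `x⁻¹ ∈ V`. -/
theorem inv_mem_of_mul {x y w : F} (hx : x ∈ V) (hy : y ∈ V) (hxy : x * y = w)
    (hw : w⁻¹ ∈ V) (hw0 : w ≠ 0) : x⁻¹ ∈ V := by
  have hx0 : x ≠ 0 := by
    rintro rfl
    rw [zero_mul] at hxy
    exact hw0 hxy.symm
  have : x⁻¹ = y * w⁻¹ := by
    rw [← hxy]
    have hy0 : y ≠ 0 := by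
      rintro rfl
      rw [mul_zero] at hxy
      exact hw0 hxy.symm
    field_simp
  rw [this]
  exact mul_mem hy hw

/-- `n`-th roots in a valuation ring. -/
theorem mem_of_pow_mem' {x : F} {n : ℕ} (hn : 0 < n) (hx : x ^ n ∈ V) : x ∈ V := by
  rw [← ValuationSubring.valuation_le_one_iff] at hx ⊢
  rw [map_pow] at hx
  exact (pow_le_one_iff_of_nonneg zero_le hn.ne').1 hx

/-- `x ^ n ∈ q ^ n V` ⟹ `x ∈ q V`. -/
theorem mem_mul_of_pow {x c : F} {n : ℕ} (hn : 0 < n) (hc : c ≠ 0)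
    (hx : ∃ f' ∈ V, x ^ n = c ^ n * f') : ∃ f' ∈ V, x = c * f' := by
  obtain ⟨f', hf', hxf⟩ := hx
  refine ⟨x * c⁻¹, mem_of_pow_mem' V hn ?_, by field_simp⟩
  have : (x * c⁻¹) ^ n = f' := by
    rw [mul_pow, hxf, inv_pow]
    field_simp
  rw [this]
  exact hf'

/-- A nonunit: membership with nonzero inverse outside. -/
theorem mem_nonunits_of_mul {c f' : F} (hc : c ∈ V.nonunits) (hf' : f' ∈ V) :
    c * f' ∈ V.nonunits := by
  rw [ValuationSubring.mem_nonunits_iff] at hc ⊢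
  rw [map_mul]
  have h2 : V.valuation f' ≤ 1 := (V.valuation_le_one_iff _).2 hf'
  calc V.valuation c * V.valuation f' ≤ V.valuation c * 1 := by gcongr
    _ < 1 := by rwa [mul_one]

theorem mem_nonunits_of_pow {x : F} {n : ℕ} (hx : x ^ n ∈ V.nonunits) : x ∈ V.nonunits := by
  rw [ValuationSubring.mem_nonunits_iff] at hx ⊢
  rw [map_pow] at hx
  by_contra h
  rw [not_lt] at h
  exact absurd hx (not_lt.2 (one_le_pow₀ h))

end Val

section Chart

variable (C : Chart R F k ι κ) (q : R)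

/-- **A uniformizer from the ramification index.** -/
theorem unif_of_valE (e : ι → ℕ) (hE : ValE C q e) (i : ι) (he : 0 < e i)
    (hq0 : algebraMap R F q ≠ 0) (x w : F) (hwi : w⁻¹ ∈ C.V i) (hw0 : w ≠ 0)
    (hxw : x ^ e i = algebraMap R F q * w) :
    ∀ f ∈ (C.V i).nonunits, ∃ f' ∈ C.V i, f = x * f' := by
  intro f hf
  obtain ⟨f', hf', hff'⟩ := hE i f hf
  have hx0 : x ≠ 0 := by
    rintro rfl
    rw [zero_pow he.ne'] at hxw
    exact (mul_ne_zero hq0 hw0) hxw.symm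
  refine ⟨f * x⁻¹, mem_of_pow_mem' (C.V i) he ?_, by field_simp⟩
  have : (f * x⁻¹) ^ e i = f' * w⁻¹ := by
    rw [mul_pow, inv_pow, hff', hxw]
    field_simp
  rw [this]
  exact mul_mem hf' hwi

/-- Elements of `B ∖ 𝔪` are units of `V i` for every branch `i` through `𝔪`. -/
theorem rd_ne_zero_of_not_mem (𝔪 : Ideal C.B) (i : ι) (hi : C.Icomp i ≤ 𝔪) (W : C.B)
    (hW : W ∉ 𝔪) : C.rd i (W : F) ≠ 0 := by
  rw [C.rd_coe]
  exact fun h0 => hW (hi ((C.mem_Icomp i W).2 h0))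

theorem mem_Icomp_iff_nonunits (i : ι) (β : C.B) :
    β ∈ C.Icomp i ↔ (β : F) ∈ (C.V i).nonunits := by
  rw [C.mem_Icomp, ← C.rd_coe, C.rd_eq_zero_iff i (C.B_le i _ β.2)]

/-- **Local equation datum at a point with one branch**, from the ramification index. -/
theorem locEq_ord [Fintype ι] [DecidableEq ι] (e : ι → ℕ) (hE : ValE C q e)
    (hq0 : algebraMap R F q ≠ 0)
    (hqV : ∀ i, algebraMap R F q ∈ (C.V i).nonunits)
    (hVALQ : ∀ β : C.B, (∀ i, ∃ f' ∈ C.V i, (β : F) = algebraMap R F q * f') →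
      ∃ β' : C.B, β = algebraMap R C.B q * β')
    (𝔪 : Ideal C.B) [h𝔪 : 𝔪.IsPrime] (i : ι) (hi : C.Icomp i ≤ 𝔪) (he : 0 < e i)
    (x W₂ W' : C.B) (hW₂ : W₂ ∉ 𝔪) (hW' : W' ∉ 𝔪)
    (heq : algebraMap R C.B q * W₂ = x ^ e i * W')
    (hW'v : ∀ i', i' ≠ i → ∃ f' ∈ C.V i', (W' : F) = algebraMap R F q * f') :
    Nonempty (LocEq C q 𝔪) ∧ ∀ i', C.Icomp i' ≤ 𝔪 → i' = i := by
  have hrd2 := rd_ne_zero_of_not_mem C 𝔪 i hi W₂ hW₂
  have hrd' := rd_ne_zero_of_not_mem C 𝔪 i hi W' hW'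
  have hW'0 : (W' : F) ≠ 0 := fun h0 => hrd' (by rw [h0, C.rd_zero])
  have hW₂0 : (W₂ : F) ≠ 0 := fun h0 => hrd2 (by rw [h0, C.rd_zero])
  have heqF : (x : F) ^ e i = algebraMap R F q * ((W₂ : F) * (W' : F)⁻¹) := by
    have h1 : ((algebraMap R C.B q * W₂ : C.B) : F) = ((x ^ e i * W' : C.B) : F) := by rw [heq]
    push_cast at h1
    field_simp
    rw [← h1]
  have hwV : (W₂ : F) * (W' : F)⁻¹ ∈ C.V i :=
    mul_mem (C.B_le i _ W₂.2) (C.inv_mem_of_rd_ne_zero i hrd')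
  have hwiV : ((W₂ : F) * (W' : F)⁻¹)⁻¹ ∈ C.V i := by
    rw [mul_inv, inv_inv]
    exact mul_mem (C.inv_mem_of_rd_ne_zero i hrd2) (C.B_le i _ W'.2)
  have hunif := unif_of_valE C q e hE i he hq0 (x : F) _ hwiV
    (mul_ne_zero hW₂0 (inv_ne_zero hW'0)) heqF
  have hx : x ∈ C.Icomp i := by
    rw [mem_Icomp_iff_nonunits]
    apply mem_nonunits_of_pow (C.V i) (n := e i)
    rw [heqF]
    exact mem_nonunits_of_mul (C.V i) (hqV i) hwV
  exact LocEq.single C q hq0 hqV hVALQ 𝔪 i hi x (e i) he W₂ W' hW₂ hW' hx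
    (fun f hf => hunif (f : F) ((mem_Icomp_iff_nonunits C i f).1 hf)) heq hW'v

/-- **Local equation datum at a point of a component of multiplicity one** (`x = q`). -/
theorem locEq_ord_one [Fintype ι] [DecidableEq ι] (e : ι → ℕ) (hE : ValE C q e)
    (hq0 : algebraMap R F q ≠ 0)
    (hqV : ∀ i, algebraMap R F q ∈ (C.V i).nonunits)
    (hVALQ : ∀ β : C.B, (∀ i, ∃ f' ∈ C.V i, (β : F) = algebraMap R F q * f') →
      ∃ β' : C.B, β = algebraMap R C.B q * β')
    (𝔪 : Ideal C.B) [h𝔪 : 𝔪.IsPrime] (i : ι) (hi : C.Icomp i ≤ 𝔪) (he : e i = 1)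
    (W' : C.B) (hW' : W' ∉ 𝔪)
    (hW'v : ∀ i', i' ≠ i → ∃ f' ∈ C.V i', (W' : F) = algebraMap R F q * f') :
    Nonempty (LocEq C q 𝔪) ∧ ∀ i', C.Icomp i' ≤ 𝔪 → i' = i := by
  refine locEq_ord C q e hE hq0 hqV hVALQ 𝔪 i hi (by omega) (algebraMap R C.B q) W' W' hW' hW' ?_
    hW'v
  rw [he, pow_one]

/-- **All components pass through a point with an Eisenstein equation.** -/
theorem all_branches [Fintype ι] [DecidableEq ι] (e : ι → ℕ) (hE : ValE C q e)
    (hq0 : algebraMap R F q ≠ 0)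
    (hVALQ : ∀ β : C.B, (∀ i, ∃ f' ∈ C.V i, (β : F) = algebraMap R F q * f') →
      ∃ β' : C.B, β = algebraMap R C.B q * β')
    (𝔪 : Ideal C.B) [h𝔪 : 𝔪.IsPrime] (he : ∀ i, 0 < e i)
    (t : ι → C.B) (W : C.B) (hW : W ∉ 𝔪) (ht : ∀ i, t i ∈ 𝔪)
    (heq : algebraMap R C.B q * W = ∏ i, t i ^ e i)
    (hpow : ∀ i, ∃ f' ∈ C.V i, ((t i : F)) ^ e i = algebraMap R F q * f') :
    ∀ i, C.Icomp i ≤ 𝔪 := by
  intro i β hβ
  by_contra hβm
  have hq0' : algebraMap R C.B q ≠ 0 := by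
    intro h0
    apply hq0
    have : ((algebraMap R C.B q : C.B) : F) = 0 := by rw [h0]; rfl
    exact this
  obtain ⟨m, hm⟩ : ∃ m, e i = m + 1 := ⟨e i - 1, by have := he i; omega⟩
  -- `γ = β t_i^{e_i - 1} ∏_{i' ≠ i} t_i'^{e_i'}`
  set P : C.B := ∏ i' ∈ Finset.univ.erase i, t i' ^ e i' with hP
  set γ : C.B := β * t i ^ m * P with hγ
  have hprod : ∏ i', t i' ^ e i' = t i ^ (m + 1) * P := by
    rw [← Finset.mul_prod_erase Finset.univ _ (Finset.mem_univ i), hm]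
  have hγq : ∀ i'', ∃ f' ∈ C.V i'', (γ : F) = algebraMap R F q * f' := by
    intro i''
    by_cases hi'' : i'' = i
    · subst hi''
      -- `(β t^m)^(m+1) = β^(m+1) (t^(m+1))^m ∈ q^(m+1) V`
      obtain ⟨b', hb', hbb'⟩ := hE i'' (β : F) ((mem_Icomp_iff_nonunits C i'' β).1 hβ)
      obtain ⟨f', hf', hff'⟩ := hpow i''
      rw [hm] at hbb' hff'
      have h1 : ∃ f'' ∈ C.V i'', ((β : F) * (t i'' : F) ^ m) ^ (m + 1)
          = algebraMap R F q ^ (m + 1) * f'' := by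
        refine ⟨b' * f' ^ m, mul_mem hb' (pow_mem hf' m), ?_⟩
        calc ((β : F) * (t i'' : F) ^ m) ^ (m + 1)
            = (β : F) ^ (m + 1) * ((t i'' : F) ^ (m + 1)) ^ m := by ring
          _ = algebraMap R F q ^ (m + 1) * (b' * f' ^ m) := by rw [hbb', hff']; ring
      obtain ⟨g, hg, hgg⟩ := mem_mul_of_pow (C.V i'') (Nat.succ_pos m) hq0 h1
      refine ⟨g * (P : F), mul_mem hg (C.B_le i'' _ P.2), ?_⟩
      rw [hγ]
      push_cast
      rw [hgg]
      ring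
    · obtain ⟨f', hf', hff'⟩ := hpow i''
      have hmem : i'' ∈ Finset.univ.erase i := Finset.mem_erase.2 ⟨hi'', Finset.mem_univ i''⟩
      set Z : C.B := β * t i ^ m * ∏ i' ∈ (Finset.univ.erase i).erase i'', t i' ^ e i' with hZ
      have h1 : γ = Z * t i'' ^ e i'' := by
        rw [hγ, hP, hZ, ← Finset.mul_prod_erase (Finset.univ.erase i) _ hmem]
        ring
      refine ⟨(Z : F) * f', mul_mem (C.B_le _ _ Z.2) hf', ?_⟩
      rw [h1]
      push_cast
      rw [hff']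
      ring
  obtain ⟨γ', hγ'⟩ := hVALQ γ hγq
  have hkey : β * W = t i * γ' := by
    apply mul_left_cancel₀ hq0'
    calc algebraMap R C.B q * (β * W) = β * (algebraMap R C.B q * W) := by ring
      _ = β * (t i ^ (m + 1) * P) := by rw [heq, hprod]
      _ = t i * γ := by rw [hγ]; ring
      _ = t i * (algebraMap R C.B q * γ') := by rw [hγ']
      _ = algebraMap R C.B q * (t i * γ') := by ring
  have hmem : β * W ∈ 𝔪 := by
    rw [hkey]
    exact 𝔪.mul_mem_right _ (ht i)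
  rcases h𝔪.mem_or_mem hmem with h1 | h1
  · exact hβm h1
  · exact hW h1

/-- **Local equation datum at a point with an Eisenstein equation** (the triple points). -/
theorem locEq_ss [Fintype ι] [DecidableEq ι] (e : ι → ℕ) (hE : ValE C q e)
    (hq0 : algebraMap R F q ≠ 0)
    (hqV : ∀ i, algebraMap R F q ∈ (C.V i).nonunits)
    (hVALQ : ∀ β : C.B, (∀ i, ∃ f' ∈ C.V i, (β : F) = algebraMap R F q * f') →
      ∃ β' : C.B, β = algebraMap R C.B q * β')
    (𝔪 : Ideal C.B) [h𝔪 : 𝔪.IsPrime] (he : ∀ i, 0 < e i)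
    (t : ι → C.B) (W : C.B) (hW : W ∉ 𝔪) (ht : ∀ i, t i ∈ 𝔪)
    (heq : algebraMap R C.B q * W = ∏ i, t i ^ e i)
    (hpow : ∀ i, ∃ f' ∈ C.V i, ((t i : F)) ^ e i = algebraMap R F q * f') :
    (∀ i, C.Icomp i ≤ 𝔪) ∧ Nonempty (LocEq C q 𝔪) := by
  have hall := all_branches C q e hE hq0 hVALQ 𝔪 he t W hW ht heq hpow
  refine ⟨hall, ?_⟩
  have hW0 : (W : F) ≠ 0 := by
    intro h0
    apply hW
    have : W = 0 := Subtype.ext h0
    rw [this]
    exact 𝔪.zero_mem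
  have hq0' : algebraMap R C.B q ≠ 0 := by
    intro h0
    apply hq0
    have : ((algebraMap R C.B q : C.B) : F) = 0 := by rw [h0]; rfl
    exact this
  have hprod0 : ∏ i, t i ^ e i ≠ 0 := by
    rw [← heq]
    exact mul_ne_zero hq0' (fun h0 => hW (h0 ▸ 𝔪.zero_mem))
  have ht0 : ∀ i, t i ≠ 0 := by
    intro i h0
    apply hprod0
    apply Finset.prod_eq_zero (Finset.mem_univ i)
    rw [h0, zero_pow (he i).ne']
  -- `t i ^ e i / q` is a unit of `V i`
  have hunit : ∀ i, ∃ w : F, w ∈ C.V i ∧ w⁻¹ ∈ C.V i ∧ w ≠ 0 ∧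
      (t i : F) ^ e i = algebraMap R F q * w := by
    intro i
    obtain ⟨f', hf', hff'⟩ := hpow i
    set P : C.B := ∏ i' ∈ Finset.univ.erase i, t i' ^ e i' with hP
    have hprod : ∏ i', t i' ^ e i' = t i ^ e i * P := by
      rw [← Finset.mul_prod_erase Finset.univ _ (Finset.mem_univ i)]
    have h1 : algebraMap R F q * (W : F) = (t i : F) ^ e i * (P : F) := by
      have := congrArg (fun z : C.B => (z : F)) (heq.trans hprod)
      simpa using this
    have h2 : f' * (P : F) = (W : F) := by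
      apply mul_left_cancel₀ hq0
      rw [h1, hff']
      ring
    have hrdW := rd_ne_zero_of_not_mem C 𝔪 i (hall i) W hW
    have hf'i : f'⁻¹ ∈ C.V i :=
      inv_mem_of_mul (C.V i) hf' (C.B_le i _ P.2) h2 (C.inv_mem_of_rd_ne_zero i hrdW) hW0
    have hf'0 : f' ≠ 0 := by
      rintro rfl
      rw [zero_mul] at h2
      exact hW0 h2.symm
    exact ⟨f', hf', hf'i, hf'0, hff'⟩
  refine ⟨LocEq.ofVal C q hq0 hVALQ 𝔪 t e W 1 hW ?_ ht0 ?_ ?_ ?_ hpow (fun i _ => he i) ?_⟩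
  · intro h1
    exact h𝔪.ne_top ((Ideal.eq_top_iff_one 𝔪).2 h1)
  · intro i _
    rw [mem_Icomp_iff_nonunits]
    apply mem_nonunits_of_pow (C.V i) (n := e i)
    obtain ⟨f', hf', hff'⟩ := hpow i
    rw [hff']
    exact mem_nonunits_of_mul (C.V i) (hqV i) hf'
  · intro i hi
    exact absurd (hall i) hi
  · rw [mul_one]
    exact heq
  · intro i _ f hf
    obtain ⟨w, hw, hwi, hw0, hxw⟩ := hunit i
    exact unif_of_valE C q e hE i (he i) hq0 (t i : F) w hwi hw0 hxw (f : F)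
      ((mem_Icomp_iff_nonunits C i f).1 hf)

end Chart

end Fermat.Agent.S36.NU.H99
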