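import Fermat.Agent.S36.NU.H51_ValVecCore
import Fermat.Agent.S36.NU.H99_LocEqAbs

/-!
# S36 / NU-B, leaf VALE-MOD (helper22): the ramification indices of the modular valuations

For ANY chart `C` on `L0 A (M q²)` whose three valuation rings are `V20o`, `V11o`, `V02o`
(helper23), with `e = (1, q - 1, 1)` and `algebraMap qR = q`:

* `valE_mod : H99.ValE C qR e`, i.e. `f ∈ 𝔪_{V i} ⟹ f ^ e i ∈ q V i`.

Proof: **EXACT** (`H51.exact20/11/02`: the values are powers of the value of the uniformiser) and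
the ramification of `V11o` (`H51.hram11'`).

* `pow_eq_mul_of_exact` : the abstract statement on one valuation ring;
* `valE20`, `valE11`, `valE02` : the three modular cases.
-/

set_option autoImplicit false
set_option synthInstance.maxHeartbeats 400000
set_option maxHeartbeats 1000000
set_option linter.unusedSectionVars false
set_option linter.style.haveILetI false

noncomputable section

namespace Fermat.Agent.S36.NU.H22

open Fermat.Agent.S24 Fermat.Agent.BAD.H88 ModularCurve AlgebraicCurve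
open Fermat.Agent.S28 Fermat.Agent.S28.H73 Fermat.Agent.RED.H73 Fermat.Agent.RED.H17
open Fermat.Agent.S36.NU.H88 Fermat.Agent.S36.NU.H23 Fermat.Agent.S36.NU.H16 Fermat.Agent.BAD

/-! ### The abstract statement -/

/-- If the values of `V` are powers of the value of `π` and `v(ϖ) = v(π) ^ e < 1`, then the
`e`-th power of every element of the maximal ideal is divisible by `ϖ`. -/
theorem pow_eq_mul_of_exact {F : Type*} [Field F] (V : ValuationSubring F) (ϖ π : F) (e : ℕ)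
    (he : 0 < e) (hϖ : V.valuation ϖ < 1) (hϖ0 : ϖ ≠ 0)
    (hram : V.valuation ϖ = V.valuation π ^ e)
    (hex : ∀ x : F, x ≠ 0 → ∃ m : ℤ, V.valuation x = V.valuation π ^ m)
    (f : F) (hf : f ∈ V.nonunits) : ∃ f' ∈ V, f ^ e = ϖ * f' := by
  by_cases hf0 : f = 0
  · refine ⟨0, V.zero_mem, ?_⟩
    rw [hf0, zero_pow he.ne', mul_zero]
  have hvϖ0 : V.valuation ϖ ≠ 0 := (Valuation.ne_zero_iff _).2 hϖ0
  have hvπ0 : V.valuation π ≠ 0 := by
    intro h0
    rw [h0, zero_pow he.ne'] at hram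
    exact hvϖ0 hram
  have hvπpos : 0 < V.valuation π := zero_lt_iff.2 hvπ0
  have hvπ1 : V.valuation π < 1 := by
    by_contra hge
    rw [not_lt] at hge
    have h1 : 1 ≤ V.valuation π ^ e := one_le_pow₀ hge
    rw [← hram] at h1
    exact absurd hϖ (not_lt.2 h1)
  have hvf : V.valuation f < 1 := (V.mem_nonunits_iff).1 hf
  obtain ⟨m, hm⟩ := hex f hf0
  -- `m ≥ 1`
  have hm1 : 1 ≤ m := by
    by_contra hlt
    rw [not_le] at hlt
    have hm0 : m ≤ 0 := by omega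
    obtain ⟨n, hn⟩ : ∃ n : ℕ, m = -(n : ℤ) := ⟨m.natAbs, by omega⟩
    rw [hn, zpow_neg, zpow_natCast] at hm
    have h1 : V.valuation π ^ n ≤ 1 := pow_le_one₀ zero_le hvπ1.le
    have h2 : 0 < V.valuation π ^ n := pow_pos hvπpos n
    have h3 : 1 ≤ (V.valuation π ^ n)⁻¹ := (one_le_inv₀ h2).2 h1
    rw [← hm] at h3
    exact absurd hvf (not_lt.2 h3)
  obtain ⟨n, hn⟩ : ∃ n : ℕ, m = (n : ℤ) + 1 := ⟨(m - 1).toNat, by omega⟩
  have hvf' : V.valuation f = V.valuation π ^ (n + 1) := by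
    rw [hm, hn]
    exact_mod_cast rfl
  refine ⟨ϖ⁻¹ * f ^ e, ?_, ?_⟩
  · have hpe0 : V.valuation π ^ e ≠ 0 := pow_ne_zero e hvπ0
    rw [← ValuationSubring.valuation_le_one_iff, map_mul, map_inv₀, map_pow, hvf', hram,
      ← pow_mul, mul_comm (n + 1) e, pow_mul, pow_succ, mul_left_comm,
      inv_mul_cancel₀ hpe0, mul_one]
    exact pow_le_one₀ zero_le (pow_le_one₀ zero_le hvπ1.le)
  · rw [← mul_assoc, mul_inv_cancel₀ hϖ0, one_mul]

/-! ### The three modular valuations -/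

section Mod

variable (A : ValuationSubring Kbar)
variable (q M : ℕ) (B k : ℤ) (hB : B * M + k * q = 1) (hq : q.Prime) [NeZero M] [NeZero q]
  [NeZero (M * q)] [NeZero (M * q * q)]
variable (hqM : ¬ q ∣ M) (hA : A.LiesOverPrime q)

include hq in
theorem natCast_L0_ne_zero : ((q : ℕ) : ↥(L0 A (M * q * q))) ≠ 0 := by
  rw [← H51.inclL0_piE_eq A q M]
  exact (map_ne_zero (inclL0 A (hleMN q M))).2 (piE_ne_zero A q M hq)

include hB hq hqM hA in
theorem val20_q_lt_one :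
    (V20o A q M).valuation ((q : ℕ) : ↥(L0 A (M * q * q))) < 1 := by
  have h := @H42.NRData.val_ϖ_lt_one ↥(L0 A M) ↥(L0 A (M * q * q)) (FM A M) _ _ _
    (algL0 A (hleMN q M)) (Fin 3) (kap3 (FM A M) (FM A M)) _ (algM A q M hq hqM hA)
    (nrM A q M B k hB hq hqM hA) 0
  rw [← H51.inclL0_piE_eq A q M]
  exact h

include hq hA in
theorem val11_q_lt_one :
    (V11o A q M B k hB hq).valuation ((q : ℕ) : ↥(L0 A (M * q * q))) < 1 := by
  rw [← H51.inclL0_piE_eq A q M]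
  exact val11_piE_lt_one A q M B k hB hq hA

include hB hq hqM hA in
theorem val02_q_lt_one :
    (V02o A q M B k hB).valuation ((q : ℕ) : ↥(L0 A (M * q * q))) < 1 := by
  have h := @H42.NRData.val_ϖ_lt_one ↥(L0 A M) ↥(L0 A (M * q * q)) (FM A M) _ _ _
    (algL0 A (hleMN q M)) (Fin 3) (kap3 (FM A M) (FM A M)) _ (algM A q M hq hqM hA)
    (nrM A q M B k hB hq hqM hA) 2
  rw [← H51.inclL0_piE_eq A q M]
  exact h

include hB hq hqM hA in
/-- **VALe** for `V₂₀` (`e = 1`). -/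
theorem valE20 (f : ↥(L0 A (M * q * q))) (hf : f ∈ (V20o A q M).nonunits) :
    ∃ f' ∈ V20o A q M, f ^ 1 = ((q : ℕ) : ↥(L0 A (M * q * q))) * f' :=
  pow_eq_mul_of_exact (V20o A q M) _ _ 1 one_pos (val20_q_lt_one A q M B k hB hq hqM hA)
    (natCast_L0_ne_zero A q M hq) (pow_one _).symm
    (H51.exact20 A q M B k hB hq hqM hA) f hf

include hB hq hqM hA in
/-- **VALe** for `V₁₁` (`e = q - 1`). -/
theorem valE11 (f : ↥(L0 A (M * q * q))) (hf : f ∈ (V11o A q M B k hB hq).nonunits) :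
    ∃ f' ∈ V11o A q M B k hB hq, f ^ (q - 1) = ((q : ℕ) : ↥(L0 A (M * q * q))) * f' :=
  pow_eq_mul_of_exact (V11o A q M B k hB hq) _ (pi11 A q M) (q - 1)
    (Nat.sub_pos_of_lt hq.one_lt) (val11_q_lt_one A q M B k hB hq hA)
    (natCast_L0_ne_zero A q M hq) (H51.hram11' A q M B k hB hq hA)
    (H51.exact11 A q M B k hB hq hqM hA) f hf

include hB hq hqM hA in
/-- **VALe** for `V₀₂` (`e = 1`). -/
theorem valE02 (f : ↥(L0 A (M * q * q))) (hf : f ∈ (V02o A q M B k hB).nonunits) :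
    ∃ f' ∈ V02o A q M B k hB, f ^ 1 = ((q : ℕ) : ↥(L0 A (M * q * q))) * f' :=
  pow_eq_mul_of_exact (V02o A q M B k hB) _ _ 1 one_pos (val02_q_lt_one A q M B k hB hq hqM hA)
    (natCast_L0_ne_zero A q M hq) (pow_one _).symm
    (H51.exact02 A q M B k hB hq hqM hA) f hf

variable {R k' ι : Type*} {κ : ι → Type*} [CommRing R] [Algebra R ↥(L0 A (M * q * q))]
  [Field k'] [∀ i, Field (κ i)] [∀ i, Algebra k' (κ i)]

include hB hq hqM hA in
/-- **VALE-MOD**: `H99.ValE` for any chart on `L0 A (M q²)` with the valuation rings `V20o`,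
`V11o`, `V02o` and `e = (1, q - 1, 1)`. -/
theorem valE_mod (C : Chart R ↥(L0 A (M * q * q)) k' ι κ) (qR : R)
    (hqR : algebraMap R ↥(L0 A (M * q * q)) qR = ((q : ℕ) : ↥(L0 A (M * q * q))))
    (e : ι → ℕ) (i₂₀ i₁₁ i₀₂ : ι) (hcases : ∀ i, i = i₂₀ ∨ i = i₁₁ ∨ i = i₀₂)
    (he₂₀ : e i₂₀ = 1) (he₁₁ : e i₁₁ = q - 1) (he₀₂ : e i₀₂ = 1)
    (hV20 : C.V i₂₀ = V20o A q M) (hV11 : C.V i₁₁ = V11o A q M B k hB hq)
    (hV02 : C.V i₀₂ = V02o A q M B k hB) :
    H99.ValE C qR e := by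
  intro i f hf
  rw [hqR]
  rcases hcases i with rfl | rfl | rfl
  · rw [hV20] at hf ⊢
    rw [he₂₀]
    exact valE20 A q M B k hB hq hqM hA f hf
  · rw [hV11] at hf ⊢
    rw [he₁₁]
    exact valE11 A q M B k hB hq hqM hA f hf
  · rw [hV02] at hf ⊢
    rw [he₀₂]
    exact valE02 A q M B k hB hq hqM hA f hf

include hB hq hqM hA in
/-- The hypothesis `hqV` of `H16.locEq_ss_modV`: `q` is a nonunit of the three valuation
rings. -/
theorem q_mem_nonunits (C : Chart R ↥(L0 A (M * q * q)) k' ι κ) (qR : R)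
    (hqR : algebraMap R ↥(L0 A (M * q * q)) qR = ((q : ℕ) : ↥(L0 A (M * q * q))))
    (i₂₀ i₁₁ i₀₂ : ι) (hcases : ∀ i, i = i₂₀ ∨ i = i₁₁ ∨ i = i₀₂)
    (hV20 : C.V i₂₀ = V20o A q M) (hV11 : C.V i₁₁ = V11o A q M B k hB hq)
    (hV02 : C.V i₀₂ = V02o A q M B k hB) :
    ∀ i, algebraMap R ↥(L0 A (M * q * q)) qR ∈ (C.V i).nonunits := by
  intro i
  rw [hqR, ValuationSubring.mem_nonunits_iff]
  rcases hcases i with rfl | rfl | rfl
  · rw [hV20]; exact val20_q_lt_one A q M B k hB hq hqM hA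
  · rw [hV11]; exact val11_q_lt_one A q M B k hB hq hA
  · rw [hV02]; exact val02_q_lt_one A q M B k hB hq hqM hA

end Mod

end Fermat.Agent.S36.NU.H22
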