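import Fermat.Agent.S36.NU.H24_FinLocal
import Fermat.Agent.S36.NU.H65_PtTransfer

/-!
# S36 / NU-B, INST-SKEL part 1 (helper65): `fin_local'`

`fin_local'` = helper24's `H24.fin_local`, where the local data of the chart at infinity
(`PointData`: branches, local equation, DISJ / triple point) are asked only at the closed points
where `1 / j` vanishes (the cusps of the special fibre).  At the other closed points of the chart
at infinity the conclusion of the local lemma (`∃ β ∉ 𝔪, Good β`) is transferred from the chart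
`C0` (`good_transfer`, `Linked.isMaximal`).

* `good_transfer` : transfer of `∃ β ∉ 𝔪, C.Good h n g β` between glued charts;
* `point_main` : the pointwise form of `H16.chart_main`;
* `PointDataAt`, `point_of_bridge` : the pointwise forms of `H24.PointData`, `H24.chart_of_bridge`;
* `fin_local'`.
-/

set_option autoImplicit false
set_option linter.style.haveILetI false

noncomputable section

open AlgebraicCurve

attribute [local instance] Classical.propDecidable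

namespace Fermat.Agent.S36.NU.H65

open Fermat.Agent.RED.H17 Fermat.Agent.RED Fermat.Agent.S36.NU.H16 Fermat.Agent.S36.NU.H79
  Fermat.Agent.S36.NU.H24 Fermat.Agent.S36.NU.H17

section Good

variable {R F k ι : Type*} {κ : ι → Type*} [CommRing R] [Field F] [Algebra R F]
  [Field k] [∀ i, Field (κ i)] [∀ i, Algebra k (κ i)]
  {C C' : Chart R F k ι κ} {u : F} {𝔪 : Ideal C.B} {𝔪' : Ideal C'.B}

/-- **Transfer of the conclusion of the local lemma** between glued charts. -/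
theorem good_transfer (G : Glue C C' u) (L : Linked C C' u 𝔪 𝔪') (qn n : ℕ) (h : F)
    (g : ∀ i, κ i) (S : Setup C qn n h g)
    (hgood : ∃ β : C.B, β ∉ 𝔪 ∧ C.Good h n g β) :
    ∃ β' : C'.B, β' ∉ 𝔪' ∧ C'.Good h n g β' := by
  obtain ⟨β, hβ, s, hs, hrd⟩ := hgood
  obtain ⟨K₁, hK₁⟩ := G.loc_ge β.2
  obtain ⟨K₂, hK₂⟩ := G.loc_ge hs
  have hn := S.n_pos
  have hβ' : (β : F) * u⁻¹ ^ (K₁ + K₂) ∈ C'.B := hK₁ _ (Nat.le_add_right _ _)
  have e1 : h * (s * u⁻¹ ^ (K₁ + K₂)) ^ n = h * s ^ n * u⁻¹ ^ ((K₁ + K₂) * n) := by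
    rw [mul_pow, ← pow_mul, mul_assoc]
  have hs' : h * (s * u⁻¹ ^ (K₁ + K₂)) ^ n ∈ C'.B := by
    rw [e1]
    exact hK₂ _ ((Nat.le_add_left _ _).trans (Nat.le_mul_of_pos_right _ hn))
  refine ⟨⟨_, hβ'⟩, ?_, s * u⁻¹ ^ (K₁ + K₂), hs', fun i => ?_⟩
  · intro hmem
    refine hβ ((L β ⟨_, hβ'⟩ (K₁ + K₂) ?_).2 hmem)
    show (β : F) = (β : F) * u⁻¹ ^ (K₁ + K₂) * u ^ (K₁ + K₂)
    rw [mul_assoc, ← mul_pow, inv_mul_cancel₀ G.u_ne, one_pow, mul_one]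
  · have hsV : s ∈ C.V i := S.mem_V i hs
    rw [← C'.rd_coe, ← G.hrd, ← G.hrd]
    show C.rd i (s * u⁻¹ ^ (K₁ + K₂)) = C.rd i ((β : F) * u⁻¹ ^ (K₁ + K₂)) * g i
    rw [C.rd_mul i hsV (pow_mem (G.inv_memV i) _),
      C.rd_mul i (C.B_le i _ β.2) (pow_mem (G.inv_memV i) _), hrd i, C.rd_coe]
    ring

/-- **The main local theorem at one closed point** (pointwise form of `H16.chart_main`). -/
theorem point_main [Fintype ι] (C : Chart R F k ι κ) [IsNoetherianRing C.B]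
    [IsFractionRing C.B F] (qn : ℕ) (q : R) (n : ℕ) (h : F) (g : ∀ i, κ i)
    (S : Setup C qn n h g) (h0 : h ≠ 0)
    (hHOR : ∀ W : ValuationSubring F, (∀ β : C.B, (β : F) ∈ W) → (algebraMap R F q)⁻¹ ∈ W →
      W ≠ ⊤ → ∃ s : F, s ≠ 0 ∧ h * s ^ n ∈ W ∧ (h * s ^ n)⁻¹ ∈ W)
    (𝔪 : Ideal C.B) (hmax : 𝔪.IsMaximal) (hex : ∃ i, C.Icomp i ≤ 𝔪)
    (hpt : (∀ i, C.Icomp i ≤ 𝔪 → Nonempty (Branch C 𝔪 i)) ∧ Nonempty (LocEq C q 𝔪) ∧
      ((∃ i₀, ∀ i, C.Icomp i ≤ 𝔪 → i = i₀) ∨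
        ∀ (s : F) (hs : h * s ^ n ∈ C.B), (⟨h * s ^ n, hs⟩ : C.B) ∉ 𝔪 →
          ∀ br : (∀ i, C.Icomp i ≤ 𝔪 → Branch C 𝔪 i), ∃ c : k,
            ∀ (i : ι) (hi : C.Icomp i ≤ 𝔪),
              g i * (C.rd i s)⁻¹ - algebraMap k (κ i) c ∈ (br i hi).O.nonunits)) :
    ∃ β : C.B, β ∉ 𝔪 ∧ C.Good h n g β := by
  obtain ⟨hbr, ⟨L⟩, hcase⟩ := hpt
  obtain ⟨i₁, hi₁⟩ := hex
  obtain ⟨b₁⟩ := hbr i₁ hi₁
  have hh : ∀ i, h ∈ C.V i ∧ h⁻¹ ∈ C.V i := fun i => ⟨S.h_mem i, S.h_inv_mem i⟩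
  obtain ⟨s, hs, hu⟩ := reg_abs C q n S.n_pos h hh h0 𝔪 hmax i₁ b₁ L hHOR
  rcases hcase with ⟨i₀, honly⟩ | heqv
  · have h1 : i₁ = i₀ := honly i₁ hi₁
    subst h1
    exact ll_single C qn n h g S 𝔪 hmax i₁ b₁ honly s hs hu
  · obtain ⟨c, hc⟩ := heqv s hs hu (fun i hi => (hbr i hi).some)
    exact ll C qn n h g S 𝔪 hmax (fun i hi => (hbr i hi).some) s hs hu c hc

end Good

section Bridge

variable {R F k ι Z K L : Type*} {κ : ι → Type*} [CommRing R] [Field F] [Algebra R F]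
  [Field k] [∀ i, Field (κ i)] [∀ i, Algebra k (κ i)] [Fintype ι]
  [Field K] [Field L] [Algebra K L] [Algebra F L]
  {K' L' L₁ L₂ : Type*} [Field K'] [Field L'] [Algebra K' L'] [Field L₁] [Algebra k L₁]
  [Field L₂] [Algebra k L₂]

/-- The local data at ONE closed point of the special fibre of the chart
(the body of `H24.PointData`). -/
def PointDataAt (C : Chart R F k ι κ) (D : NUData K F L k ι Z κ K' L' L₁ L₂) (q : R)
    (𝔪 : Ideal C.B) : Prop :=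
  (∀ i, C.Icomp i ≤ 𝔪 → Nonempty (Branch C 𝔪 i)) ∧ Nonempty (LocEq C q 𝔪) ∧
    ((∃ i₀, ∀ i, C.Icomp i ≤ 𝔪 → i = i₀) ∨
      ∃ z ∈ D.SS, InChart C D.T z ∧
        ∃ i₀, ∀ β : C.B, β ∈ 𝔪 ↔ VanAt (D.T.pt i₀ z) (C.rdB i₀ β))

theorem pointData_iff (C : Chart R F k ι κ) (D : NUData K F L k ι Z κ K' L' L₁ L₂) (q : R) :
    PointData C D q ↔
      ∀ 𝔪 : Ideal C.B, 𝔪.IsMaximal → (∃ i, C.Icomp i ≤ 𝔪) → PointDataAt C D q 𝔪 := Iff.rfl

variable {C : Chart R F k ι κ} (D : NUData K F L k ι Z κ K' L' L₁ L₂)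

/-- **One closed point of one chart** (pointwise form of `H24.chart_of_bridge`). -/
theorem point_of_bridge [Infinite k] [IsNoetherianRing C.B] [IsFractionRing C.B F]
    (hc : Compat C D.T) (hP : HasPrincipalDivisors K L) (qn : ℕ) (q : R) (n : ℕ) (H : F)
    (g : ∀ i, κ i) (S : Setup C qn n H g) (H0 : H ≠ 0) (hHOR : HOR C q n H)
    (𝔪 : Ideal C.B) (hmax : 𝔪.IsMaximal) (hex : ∃ i, C.Icomp i ≤ 𝔪)
    (hpt : PointDataAt C D q 𝔪) (hu : ∀ i, D.T.rdN i H ≠ 0)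
    (heqv : ∀ z ∈ D.SS, ∀ s : F, D.IsGen n z H s →
      ∃ c : k, ∀ i, HasValue (D.T.pt i z) (g i * (D.T.rdN i s)⁻¹) c) :
    ∃ β : C.B, β ∉ 𝔪 ∧ C.Good H n g β := by
  refine point_main C qn q n H g S H0 hHOR 𝔪 hmax hex ?_
  obtain ⟨hbr, hL, hcase⟩ := hpt
  refine ⟨hbr, hL, ?_⟩
  rcases hcase with h1 | ⟨z, hzSS, hz, i₀, h𝔪⟩
  · exact Or.inl h1
  · exact Or.inr fun s hs hsm br =>
      eqv_of_bridge D hc hP hzSS hz i₀ h𝔪 S.n_pos hu g (heqv z hzSS) s hs hsm br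

/-- **FIN-LOCAL with PT-TRANSFER**: as `H24.fin_local`, but the local data of the chart at
infinity are asked only at the closed points where `1 / j` vanishes. -/
theorem fin_local' [IsAlgClosed k] [IsNoetherianRing R] [IsDomain R] [IsIntegrallyClosed R]
    (Kf : Type*) [Field Kf] [Algebra R Kf] [IsFractionRing R Kf] [Algebra Kf F]
    [IsScalarTower R Kf F]
    (C0 Coo : Chart R F k ι κ) [IsNoetherianRing C0.B] [IsFractionRing C0.B F]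
    [IsNoetherianRing Coo.B] [IsFractionRing Coo.B F]
    (hc0 : Compat C0 D.T) (hcoo : Compat Coo D.T) (hP : HasPrincipalDivisors K L)
    (n : ℕ) (hC0 : ChartHyp C0 D.q n) (hCoo : ChartHyp Coo D.q n)
    (j : F) (hjt : Transcendental Kf j) (hB0 : C0.B = intSub R j) (hBoo : Coo.B = intSub R j⁻¹)
    (q : R) (hq0 : q ≠ 0) (hqu : ¬ IsUnit q) (n' : R) (hnn : (n : R) * n' = 1)
    (hpt0 : PointData C0 D q)
    (hptoo : ∀ 𝔪 : Ideal Coo.B, 𝔪.IsMaximal → (∃ i, Coo.Icomp i ≤ 𝔪) →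
      (∀ β : Coo.B, (β : F) = j⁻¹ → β ∈ 𝔪) → PointDataAt Coo D q 𝔪)
    (hSS0 : ∀ z ∈ D.SS, InChart C0 D.T z) (hSS : D.SS.Nonempty)
    (hk₁ : RootClosed k L₁ n) (hk₂ : RootClosed k L₂ n)
    (hrad0 : ∀ β ∈ C0.B, (∀ i, C0.rd i β = 0) → IsRadQ C0.B q β)
    (hradoo : ∀ β ∈ Coo.B, (∀ i, Coo.rd i β = 0) → IsRadQ Coo.B q β)
    (h : F) (hu : ∀ i, D.T.rdN i h ≠ 0) (hHOR0 : HOR C0 q n h) (hHORoo : HOR Coo q n h)
    (hfg : (MInt R j⁻¹ (h ^ ((D.q + 1) * (D.q - 1))) n hC0.n_pos).FG)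
    {cα cβ : K'} {gα gβ : L'}
    (hα : D.Nα h = algebraMap K' L' cα * gα ^ n)
    (hβ : D.Nβ h = algebraMap K' L' cβ * gβ ^ n) :
    ∃ s : F, s ≠ 0 ∧ IsIntegral R (h ^ ((D.q + 1) * (D.q - 1)) * s ^ n) := by
  have hn : 0 < n := hC0.n_pos
  haveI : Infinite k := IsAlgClosed.instInfinite
  set H : F := h ^ ((D.q + 1) * (D.q - 1)) with hH
  -- B2 + B3
  have hgen : ∀ z ∈ D.SS, ∃ s, D.IsGen n z h s := fun z hz =>
    exists_isGen D hc0 hP q hn hHOR0 hpt0 hu hz (hSS0 z hz)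
  have htriv : D.TrivRed n H :=
    D.trivRed hP hn.ne' hC0.coprime.symm hC0.q_prime.one_le hk₁ hk₂ hSS hu hgen hα hβ
  have hm : ∀ i, h ∈ D.T.V i := fun i => D.T.mem_of_rdN_ne_zero (hu i)
  have huH : ∀ i, D.T.rdN i H ≠ 0 := fun i => by
    rw [hH, D.T.rdN_pow (hm i)]
    exact pow_ne_zero _ (hu i)
  have H0 : H ≠ 0 := by
    intro h0
    apply huH D.i₂₀
    rw [h0, D.T.rdN_of_mem (D.T.V _).zero_mem]
    exact map_zero _
  -- the residues `g`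
  obtain ⟨g, hg, heqv⟩ := exists_g_of_trivRed D hn.ne'
    (fun c => IsAlgClosed.exists_pow_nat_eq c hn) huH htriv
  have S0 : Setup C0 D.q n H g := hC0.setup (fun i => by rw [hc0.hrd]; exact hg i)
  have Soo : Setup Coo D.q n H g := hCoo.setup (fun i => by rw [hcoo.hrd]; exact hg i)
  have hVV : ∀ i, C0.V i = Coo.V i := fun i => by rw [hc0.hV, hcoo.hV]
  have hrr : ∀ i x, C0.rd i x = Coo.rd i x := fun i x => by rw [hc0.hrd, hcoo.hrd]
  have hj : j ≠ 0 := by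
    rintro rfl
    exact hjt ⟨Polynomial.X, Polynomial.X_ne_zero, by simp⟩
  have G : Glue C0 Coo j := glue_of_intSub C0 Coo j hj hB0 hBoo hVV hrr
  have hint : ∀ y ∈ Coo.B, IsIntegral (Algebra.adjoin R {j⁻¹}) y := by
    intro y hy
    rw [hBoo] at hy
    exact hy
  -- the chart `C0`
  obtain ⟨a, ha, hra⟩ := chart_of_bridge D hc0 hP D.q q n H g S0 H0 (hHOR0.pow _) hpt0 huH heqv
  -- the chart at infinity
  obtain ⟨b, hb, hrb⟩ := patch Coo D.q n H g Soo (fun 𝔪 hmax hex => by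
    by_cases hcusp : (⟨j⁻¹, G.inv_mem⟩ : Coo.B) ∈ 𝔪
    · refine point_of_bridge D hcoo hP D.q q n H g Soo H0 (hHORoo.pow _) 𝔪 hmax hex
        (hptoo 𝔪 hmax hex (fun β hβ => ?_)) huH heqv
      have : β = ⟨j⁻¹, G.inv_mem⟩ := Subtype.ext hβ
      rw [this]
      exact hcusp
    · haveI := hmax.isPrime
      haveI := hmax
      have L : Linked C0 Coo j (pull G 𝔪) 𝔪 := linked_pull G 𝔪 hcusp
      obtain ⟨i₀, hi₀⟩ := hex
      have hmax0 : (pull G 𝔪).IsMaximal := L.isMaximal G hint i₀ hi₀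
      have hex0 : ∃ i, C0.Icomp i ≤ pull G 𝔪 :=
        ⟨i₀, (L.symm G.u_ne).icomp_le G.symm hi₀⟩
      exact good_transfer G L D.q n H g S0
        (point_of_bridge D hc0 hP D.q q n H g S0 H0 (hHOR0.pow _) _ hmax0 hex0
          (hpt0 _ hmax0 hex0) huH heqv))
  -- TI3
  exact ti3_const Kf C0 Coo D.q n H g S0 Soo j hjt hB0 hBoo hVV hrr q hq0 hqu n' hnn
    hfg hrad0 hradoo a b ha hra hb hrb

end Bridge

end Fermat.Agent.S36.NU.H65
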