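import Fermat.Agent.RED.H10_Kronecker
import Fermat.Agent.S28.H73_GaussV

/-!
# S36 / NU-B, leaf NU-LOC (helper65), SERIES level

Kronecker's congruence at level `q²` for a GENERAL `u ∈ ℤ((t))` (not only `j`), as statements about
Laurent series.  `φ = qExpand q` is `t ↦ t ^ q`.

* `kdel q u` : the series `δ = (u ^ q - u(t ^ q)) / q ∈ ℤ((t))` (`kdel_spec`);
* `sq_sub_eq` : `u ^ (q²) - u(t ^ (q²)) = q (δ(t ^ q) + q h)`;
* `kdel2 q u` : `(u ^ (q²) - u(t ^ (q²))) / q`, with `kdel2 ≡ δ(t ^ q) mod q` (`coeffMap_kdel2`).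
-/

set_option autoImplicit false
set_option linter.unusedSectionVars false

noncomputable section

open ModularCurve HahnSeries

namespace Fermat.Agent.S36.NU.H65

section DivQ

variable (q : ℕ)

/-- Coefficientwise division by `q` (exact when all coefficients are divisible by `q`). -/
def divQ (x : LaurentSeries ℤ) : LaurentSeries ℤ :=
  HahnSeries.ofSuppBddBelow (fun n : ℤ => x.coeff n / (q : ℤ)) (by
    refine ⟨x.order, fun n hn => ?_⟩
    by_contra h
    exact hn (by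
      show x.coeff n / (q : ℤ) = 0
      rw [HahnSeries.coeff_eq_zero_of_lt_order (not_le.mp h), Int.zero_ediv]))

@[simp] theorem divQ_coeff (x : LaurentSeries ℤ) (n : ℤ) :
    (divQ q x).coeff n = x.coeff n / (q : ℤ) := rfl

theorem natCast_mul_coeff {R : Type*} [CommRing R] (x : LaurentSeries R) (n : ℤ) :
    (((q : ℕ) : LaurentSeries R) * x).coeff n = (q : R) * x.coeff n := by
  rw [← map_natCast (HahnSeries.C : R →+* LaurentSeries R) q, HahnSeries.C_mul_eq_smul,
    HahnSeries.coeff_smul, smul_eq_mul]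

theorem natCast_mul_divQ (x : LaurentSeries ℤ) (h : ∀ n, (q : ℤ) ∣ x.coeff n) :
    ((q : ℕ) : LaurentSeries ℤ) * divQ q x = x := by
  ext n
  rw [natCast_mul_coeff, divQ_coeff, Int.mul_ediv_cancel' (h n)]

theorem coeffMap_natCast_mul {R S : Type*} [CommRing R] [CommRing S] (f : R →+* S)
    (x : LaurentSeries R) :
    coeffMap f (((q : ℕ) : LaurentSeries R) * x) = ((q : ℕ) : LaurentSeries S) * coeffMap f x := by
  rw [map_mul, map_natCast]

end DivQ

section Kron

variable (q : ℕ) [NeZero q] [Fact q.Prime]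

/-- A series over `ℤ` whose reduction mod `q` vanishes has all coefficients divisible by `q`. -/
theorem dvd_coeff_of_coeffMap_eq_zero (x : LaurentSeries ℤ)
    (h : coeffMap (Int.castRingHom (ZMod q)) x = 0) (n : ℤ) : (q : ℤ) ∣ x.coeff n := by
  have h1 := congrArg (fun y : LaurentSeries (ZMod q) => y.coeff n) h
  simp only [coeffMap_coeff, HahnSeries.coeff_zero] at h1
  exact (ZMod.intCast_zmod_eq_zero_iff_dvd _ q).1 h1

/-- In characteristic `q`, for a series with coefficients in the prime field: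
`x ^ q = x (t ^ q)`. -/
theorem pow_eq_qExpand_zmod (x : LaurentSeries (ZMod q)) : x ^ q = qExpand (ZMod q) q x := by
  rw [Fermat.Agent.RED.H10.pow_char_eq q x, ZMod.frobenius_zmod, coeffMap_id]

theorem coeffMap_pow_sub_qExpand (u : LaurentSeries ℤ) :
    coeffMap (Int.castRingHom (ZMod q)) (u ^ q - qExpand ℤ q u) = 0 := by
  rw [map_sub, map_pow, coeffMap_qExpand, pow_eq_qExpand_zmod, sub_self]

/-- `δ = (u ^ q - u (t ^ q)) / q`. -/
def kdel (u : LaurentSeries ℤ) : LaurentSeries ℤ := divQ q (u ^ q - qExpand ℤ q u)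

/-- **Kronecker** for `u ∈ ℤ((t))`: `u ^ q = u (t ^ q) + q δ`. -/
theorem kdel_spec (u : LaurentSeries ℤ) :
    ((q : ℕ) : LaurentSeries ℤ) * kdel q u = u ^ q - qExpand ℤ q u :=
  natCast_mul_divQ q _ (dvd_coeff_of_coeffMap_eq_zero q _ (coeffMap_pow_sub_qExpand q u))

theorem pow_eq (u : LaurentSeries ℤ) :
    u ^ q = qExpand ℤ q u + ((q : ℕ) : LaurentSeries ℤ) * kdel q u := by
  rw [kdel_spec]; ring

/-- `u ^ (q²) - u (t ^ (q²))` is divisible by `q`, and the quotient is `δ (t ^ q)` modulo `q`: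
there is `h` with `u ^ (q²) = u (t ^ (q²)) + q (δ (t ^ q) + q h)`. -/
theorem sq_sub_eq (u : LaurentSeries ℤ) :
    ∃ h : LaurentSeries ℤ, u ^ (q ^ 2) - qExpand ℤ q (qExpand ℤ q u)
      = ((q : ℕ) : LaurentSeries ℤ) *
          (qExpand ℤ q (kdel q u) + ((q : ℕ) : LaurentSeries ℤ) * h) := by
  -- `q² ∣ (u^q)^q - (φ u)^q` because `q ∣ u^q - φ u`
  have h1 : ((q : ℕ) : LaurentSeries ℤ) ∣ u ^ q - qExpand ℤ q u :=
    ⟨kdel q u, (kdel_spec q u).symm⟩
  have h2 := dvd_sub_pow_of_dvd_sub h1 1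
  obtain ⟨h, hh⟩ := h2
  refine ⟨h, ?_⟩
  have h3 : qExpand ℤ q u ^ q = qExpand ℤ q (qExpand ℤ q u)
      + ((q : ℕ) : LaurentSeries ℤ) * qExpand ℤ q (kdel q u) := by
    rw [← map_pow, pow_eq q u, map_add, map_mul, map_natCast]
  have h4 : u ^ (q ^ 2) = (u ^ q) ^ q ^ 1 := by rw [pow_one, ← pow_mul, pow_two]
  rw [pow_one] at hh
  rw [h4, pow_one]
  linear_combination hh + h3

/-- `(u ^ (q²) - u (t ^ (q²))) / q`. -/
def kdel2 (u : LaurentSeries ℤ) : LaurentSeries ℤ :=
  divQ q (u ^ (q ^ 2) - qExpand ℤ q (qExpand ℤ q u))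

theorem kdel2_spec (u : LaurentSeries ℤ) :
    ((q : ℕ) : LaurentSeries ℤ) * kdel2 q u = u ^ (q ^ 2) - qExpand ℤ q (qExpand ℤ q u) := by
  obtain ⟨h, hh⟩ := sq_sub_eq q u
  refine natCast_mul_divQ q _ fun n => ?_
  rw [hh, natCast_mul_coeff]
  exact dvd_mul_right _ _

theorem natCast_mul_left_cancel_int {x y : LaurentSeries ℤ}
    (h : ((q : ℕ) : LaurentSeries ℤ) * x = ((q : ℕ) : LaurentSeries ℤ) * y) : x = y := by
  ext n
  have h1 := congrArg (fun z : LaurentSeries ℤ => z.coeff n) h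
  simp only [natCast_mul_coeff] at h1
  have hq : ((q : ℕ) : ℤ) ≠ 0 := by exact_mod_cast (Fact.out : q.Prime).ne_zero
  exact mul_left_cancel₀ hq h1

/-- `(u ^ (q²) - u (t ^ (q²))) / q ≡ δ (t ^ q) = δ ^ q` modulo `q`. -/
theorem coeffMap_kdel2 (u : LaurentSeries ℤ) :
    coeffMap (Int.castRingHom (ZMod q)) (kdel2 q u)
      = qExpand (ZMod q) q (coeffMap (Int.castRingHom (ZMod q)) (kdel q u)) := by
  obtain ⟨h, hh⟩ := sq_sub_eq q u
  have e : kdel2 q u = qExpand ℤ q (kdel q u) + ((q : ℕ) : LaurentSeries ℤ) * h :=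
    natCast_mul_left_cancel_int q (by rw [kdel2_spec, hh])
  rw [e, map_add, coeffMap_natCast_mul, coeffMap_qExpand]
  have : ((q : ℕ) : LaurentSeries (ZMod q)) = 0 := by
    rw [← map_natCast (HahnSeries.C : ZMod q →+* LaurentSeries (ZMod q)) q, ZMod.natCast_self,
      map_zero]
  rw [this, zero_mul, add_zero]

theorem coeffMap_kdel2_eq_pow (u : LaurentSeries ℤ) :
    coeffMap (Int.castRingHom (ZMod q)) (kdel2 q u)
      = coeffMap (Int.castRingHom (ZMod q)) (kdel q u) ^ q := by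
  rw [coeffMap_kdel2, pow_eq_qExpand_zmod]

end Kron

/-! ## Series with integer coefficients in the Gauss ring -/

section GaussInt

open Fermat.Agent.S28.H73

variable {C : Type} [Field C] (O : ValuationSubring C)

/-- The image of `x ∈ ℤ((t))` in `C((t))`. -/
def intSer (C : Type) [Field C] (x : LaurentSeries ℤ) : LaurentSeries C :=
  coeffMap (Int.castRingHom C) x

theorem intSer_eq_iotaV (x : LaurentSeries ℤ) :
    intSer C x = iotaV O (coeffMap (Int.castRingHom ↥O) x) := by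
  rw [intSer, iotaV, coeffMap_coeffMap]
  exact coeffMap_congr (RingHom.ext_int _ _) x

theorem intSer_mem (x : LaurentSeries ℤ) : intSer C x ∈ gaussRingV O := by
  rw [intSer_eq_iotaV O]
  exact iotaV_mem_gaussRingV O _

/-- The Gauss reduction of a series with integer coefficients is its reduction modulo the
residue characteristic. -/
theorem gaussRedV_intSer (x : LaurentSeries ℤ) (h : intSer C x ∈ gaussRingV O) :
    gaussRedV O ⟨intSer C x, h⟩ = coeffMap (Int.castRingHom (kV O)) x := by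
  have e : (⟨intSer C x, h⟩ : gaussRingV O)
      = ⟨iotaV O (coeffMap (Int.castRingHom ↥O) x), iotaV_mem_gaussRingV O _⟩ :=
    Subtype.ext (intSer_eq_iotaV O x)
  rw [e, gaussRedV_iotaV, redV, coeffMap_coeffMap]
  exact coeffMap_congr (RingHom.ext_int _ _) x

theorem intSer_qExpand (n : ℕ) [NeZero n] (x : LaurentSeries ℤ) :
    intSer C (qExpand ℤ n x) = qExpand C n (intSer C x) := coeffMap_qExpand _ _ _

/-- Reduction modulo `q` through `ZMod q`, when the residue field has characteristic `q`. -/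
theorem coeffMap_kV_eq (q : ℕ) [CharP (kV O) q] (x : LaurentSeries ℤ) :
    coeffMap (Int.castRingHom (kV O)) x
      = coeffMap (ZMod.castHom (dvd_refl q) (kV O))
          (coeffMap (Int.castRingHom (ZMod q)) x) := by
  rw [coeffMap_coeffMap]
  exact coeffMap_congr (RingHom.ext_int _ _) x

end GaussInt

/-! ## The cusp `∞` (valuation `V_20`): `t_20 = u(t^(q²)) - u^(q²)` has valuation `v(q)` -/

section T20

open Fermat.Agent.S28.H73

variable {C : Type} [Field C] (O : ValuationSubring C) (q : ℕ) [NeZero q] [Fact q.Prime]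

/-- `t_20 = u (t ^ (q²)) - u ^ (q²)`, as a series over `C`. -/
def T20 (C : Type) [Field C] (q : ℕ) [NeZero q] (u : LaurentSeries ℤ) : LaurentSeries C :=
  qExpand C q (qExpand C q (intSer C u)) - intSer C u ^ (q ^ 2)

/-- `t_20 = q · (-(u^(q²) - u(t^(q²)))/q)`. -/
theorem T20_eq (u : LaurentSeries ℤ) :
    T20 C q u = ((q : ℕ) : LaurentSeries C) * intSer C (-kdel2 q u) := by
  have h := congrArg (coeffMap (Int.castRingHom C)) (kdel2_spec q u)
  rw [coeffMap_natCast_mul, map_sub, map_pow, coeffMap_qExpand, coeffMap_qExpand] at h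
  rw [T20, intSer, intSer, map_neg, mul_neg, h]
  ring

/-- The reduction of `t_20 / q` at the Gauss valuation is `- δ~ ^ q`, `δ = (u^q - u(t^q))/q`. -/
theorem gaussRedV_T20_div [CharP (kV O) q] (u : LaurentSeries ℤ)
    (h : intSer C (-kdel2 q u) ∈ gaussRingV O) :
    gaussRedV O ⟨intSer C (-kdel2 q u), h⟩
      = - coeffMap (Int.castRingHom (kV O)) (kdel q u) ^ q := by
  rw [gaussRedV_intSer, map_neg, coeffMap_kV_eq O q (kdel2 q u), coeffMap_kdel2_eq_pow, map_pow,
    ← coeffMap_kV_eq O q]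

end T20

/-! ## Rotation `t ↦ ζ t` (the middle cusp, valuation `V_11`) -/

section Rot

open Fermat.Agent.RED.H10

variable {R : Type*} [CommRing R]

/-- `(ζ ^ n - 1) / (ζ - 1)` for `n ∈ ℤ`. -/
def gsum (ζ : Rˣ) (n : ℤ) : R :=
  if 0 ≤ n then ∑ i ∈ Finset.range n.toNat, (ζ : R) ^ i
  else - (((ζ ^ n : Rˣ) : R) * ∑ i ∈ Finset.range (-n).toNat, (ζ : R) ^ i)

theorem gsum_spec (ζ : Rˣ) (n : ℤ) : ((ζ : R) - 1) * gsum ζ n = ((ζ ^ n : Rˣ) : R) - 1 := by
  unfold gsum
  split_ifs with h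
  · lift n to ℕ using h
    rw [Int.toNat_natCast, mul_geom_sum, zpow_natCast, Units.val_pow_eq_pow_val]
  · push Not at h
    obtain ⟨m, rfl⟩ : ∃ m : ℕ, n = -(m : ℤ) := ⟨(-n).toNat, by omega⟩
    rw [neg_neg, Int.toNat_natCast, mul_neg, mul_left_comm, mul_geom_sum,
      ← Units.val_pow_eq_pow_val, mul_sub, mul_one, ← Units.val_mul, zpow_neg, zpow_natCast,
      inv_mul_cancel, Units.val_one]
    ring

theorem map_gsum {S : Type*} [CommRing S] (f : R →+* S) (ζ : Rˣ) (hζ : f ζ = 1) (n : ℤ) :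
    f (gsum ζ n) = (n : S) := by
  have hz : ∀ k : ℤ, f ((ζ ^ k : Rˣ) : R) = 1 := by
    intro k
    have h1 : Units.map (f : R →* S) ζ = 1 := Units.ext hζ
    have h2 : f ((ζ ^ k : Rˣ) : R) = ((Units.map (f : R →* S) (ζ ^ k) : Sˣ) : S) := rfl
    rw [h2, map_zpow, h1, one_zpow, Units.val_one]
  unfold gsum
  split_ifs with h
  · lift n to ℕ using h
    rw [Int.toNat_natCast, map_sum]
    simp [hζ]
  · push Not at h
    obtain ⟨m, rfl⟩ : ∃ m : ℕ, n = -(m : ℤ) := ⟨(-n).toNat, by omega⟩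
    rw [neg_neg, Int.toNat_natCast, map_neg, map_mul, hz, one_mul, map_sum]
    simp [hζ]

/-- The series `(u (ζ t) - u (t)) / (ζ - 1)`, coefficientwise. -/
def rotQuot (ζ : Rˣ) (x : LaurentSeries R) : LaurentSeries R :=
  HahnSeries.ofSuppBddBelow (fun n : ℤ => gsum ζ n * x.coeff n) (by
    refine ⟨x.order, fun n hn => ?_⟩
    by_contra h
    exact hn (by
      show gsum ζ n * x.coeff n = 0
      rw [HahnSeries.coeff_eq_zero_of_lt_order (not_le.mp h), mul_zero]))

@[simp] theorem rotQuot_coeff (ζ : Rˣ) (x : LaurentSeries R) (n : ℤ) :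
    (rotQuot ζ x).coeff n = gsum ζ n * x.coeff n := rfl

/-- `u (ζ t) - u (t) = (ζ - 1) · rotQuot`. -/
theorem rot_sub_self (ζ : Rˣ) (x : LaurentSeries R) :
    rot ζ x - x = HahnSeries.C ((ζ : R) - 1) * rotQuot ζ x := by
  ext n
  rw [HahnSeries.coeff_sub, rot_coeff, HahnSeries.C_mul_eq_smul, HahnSeries.coeff_smul,
    rotQuot_coeff, smul_eq_mul, ← mul_assoc, gsum_spec]
  ring

/-- If `ζ ≡ 1`, then `(u (ζ t) - u (t)) / (ζ - 1) ≡ θ u`, `θ = t d/dt`. -/
theorem coeffMap_rotQuot {S : Type*} [CommRing S] (f : R →+* S) (ζ : Rˣ) (hζ : f ζ = 1)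
    (x : LaurentSeries R) (n : ℤ) :
    (coeffMap f (rotQuot ζ x)).coeff n = (n : S) * (coeffMap f x).coeff n := by
  rw [coeffMap_coeff, rotQuot_coeff, map_mul, map_gsum f ζ hζ, coeffMap_coeff]

end Rot

/-! ## Non-vanishing: series with `θ u ≠ 0` -/

section NonVanish

variable {k : Type*} [CommRing k]

/-- `θ u ≠ 0` modulo `q`: some coefficient of index prime to `q` is not `0`. -/
def ThetaNZ (q : ℕ) (x : LaurentSeries k) : Prop := ∃ n : ℤ, ¬ (q : ℤ) ∣ n ∧ x.coeff n ≠ 0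

theorem qExpand_ne_self (q m : ℕ) [NeZero m] (hm : q ∣ m) (x : LaurentSeries k)
    (hx : ThetaNZ q x) : qExpand k m x ≠ x := by
  obtain ⟨n, hn, hc⟩ := hx
  intro h
  apply hc
  rw [← h]
  refine qExpand_coeff_of_not_dvd m x fun hmn => hn ?_
  exact dvd_trans (by exact_mod_cast hm) hmn

theorem qExpand_sub_self_ne_zero (q m : ℕ) [NeZero m] (hm : q ∣ m) (x : LaurentSeries k)
    (hx : ThetaNZ q x) : qExpand k m x - x ≠ 0 :=
  sub_ne_zero.2 (qExpand_ne_self q m hm x hx)

theorem self_sub_qExpand_ne_zero (q m : ℕ) [NeZero m] (hm : q ∣ m) (x : LaurentSeries k)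
    (hx : ThetaNZ q x) : x - qExpand k m x ≠ 0 :=
  sub_ne_zero.2 (qExpand_ne_self q m hm x hx).symm

variable (q : ℕ) [NeZero q] [Fact q.Prime] [CharP k q]

/-- Frobenius on the reduction of a series with integer coefficients. -/
theorem intRed_pow (u : LaurentSeries ℤ) :
    coeffMap (Int.castRingHom k) u ^ q = qExpand k q (coeffMap (Int.castRingHom k) u) := by
  rw [Fermat.Agent.RED.H10.pow_char_eq q, coeffMap_coeffMap]
  congr 1
  exact coeffMap_congr (RingHom.ext_int _ _) u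

theorem intRed_pow_sq (u : LaurentSeries ℤ) :
    coeffMap (Int.castRingHom k) u ^ (q ^ 2)
      = qExpand k q (qExpand k q (coeffMap (Int.castRingHom k) u)) := by
  rw [pow_two, pow_mul, intRed_pow, ← map_pow, intRed_pow]

end NonVanish

end Fermat.Agent.S36.NU.H65
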