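import Fermat.Agent.S36.NU.H88_Ram11
import Fermat.Agent.S36.NU.H65_Series
import Fermat.Agent.S36.NU.H23_Mod2

/-!
# S36 / NU-B, leaf UNIF3-MOD (helper16): the valuation vectors of `t₂₀`, `t₁₁`, `t₀₂`

Level `N = M q²`.  `f ∈ F_M` with integral expansion `u₀ ∈ ℤ((t))` (the coordinate `u`),
`u = incAA f`, `u'' = incBB f`:

  `t₂₀ = u'' - u ^ q²`,  `t₁₁ = u'' - u` (helper88),  `t₀₂ = u - u'' ^ q² = W_{q²} (t₂₀)`.

* `d20 f = t₂₀ / q ∈ V₂₀` with reduction `- δ̄ ^ q`, `δ = (u ^ q - u (t ^ q)) / q` (helper65 `kdel`);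
* the valuation vectors for `(V₂₀, V₁₁, V₀₂)`:
  `t₂₀ : (v (q), 1, 1)`, `t₁₁ : (1, v (q) ^ (1 / (q - 1)), 1)`, `t₀₂ : (1, 1, v (q))`.
-/

set_option autoImplicit false
set_option synthInstance.maxHeartbeats 400000
set_option maxHeartbeats 1000000
set_option linter.unusedSectionVars false
set_option linter.style.haveILetI false

noncomputable section

namespace Fermat.Agent.S36.NU.H16

open Fermat.Agent.S24 Fermat.Agent.BAD.H88 ModularCurve
open Fermat.Agent.S28 Fermat.Agent.S28.H73 Fermat.Agent.RED.H73 Fermat.Agent.RED.H17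
open Fermat.Agent.S36.NU.H88

section Comap

variable {F₁ F₂ : Type*} [Field F₁] [Field F₂] (V : ValuationSubring F₂) (φ : F₁ →+* F₂)

theorem valuation_comap_le_one_iff (x : F₁) :
    (V.comap φ).valuation x ≤ 1 ↔ V.valuation (φ x) ≤ 1 := by
  rw [ValuationSubring.valuation_le_one_iff, ValuationSubring.valuation_le_one_iff]
  exact Iff.rfl

theorem valuation_comap_le_iff (x y : F₁) :
    (V.comap φ).valuation x ≤ (V.comap φ).valuation y ↔ V.valuation (φ x) ≤ V.valuation (φ y) := by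
  by_cases hy : y = 0
  · subst hy
    simp only [map_zero, le_zero_iff, map_eq_zero]
  · have hyF : φ y ≠ 0 := (map_ne_zero φ).2 hy
    have h1 : (V.comap φ).valuation x ≤ (V.comap φ).valuation y
        ↔ (V.comap φ).valuation (x / y) ≤ 1 := by
      rw [map_div₀, div_le_one₀ (zero_lt_iff.2 ((Valuation.ne_zero_iff _).2 hy))]
    have h2 : V.valuation (φ x) ≤ V.valuation (φ y) ↔ V.valuation (φ x / φ y) ≤ 1 := by
      rw [map_div₀, div_le_one₀ (zero_lt_iff.2 ((Valuation.ne_zero_iff _).2 hyF))]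
    rw [h1, h2, valuation_comap_le_one_iff, map_div₀]

theorem valuation_comap_eq_iff (x y : F₁) :
    (V.comap φ).valuation x = (V.comap φ).valuation y ↔ V.valuation (φ x) = V.valuation (φ y) := by
  rw [le_antisymm_iff, le_antisymm_iff, valuation_comap_le_iff, valuation_comap_le_iff]

theorem valuation_comap_eq_one_iff (x : F₁) :
    (V.comap φ).valuation x = 1 ↔ V.valuation (φ x) = 1 := by
  have := valuation_comap_eq_iff V φ x 1
  simpa using this

theorem valuation_comap_lt_one_iff (x : F₁) :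
    (V.comap φ).valuation x < 1 ↔ V.valuation (φ x) < 1 := by
  rw [lt_iff_not_ge, lt_iff_not_ge]
  have := valuation_comap_le_iff V φ 1 x
  simpa using not_congr this

theorem valuation_comap_pow_eq_iff (x y : F₁) (n : ℕ) :
    (V.comap φ).valuation x ^ n = (V.comap φ).valuation y
      ↔ V.valuation (φ x) ^ n = V.valuation (φ y) := by
  rw [← map_pow, ← map_pow, valuation_comap_eq_iff, map_pow]

end Comap

section Unif3

variable (A : ValuationSubring Kbar)
variable (q M : ℕ) (B k : ℤ) (hB : B * M + k * q = 1) (hq : q.Prime) [NeZero M] [NeZero q]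

/-- `t₂₀ = u'' - u ^ q²`. -/
def t20 (f : FN M) : FN (M * q * q) := incBB q M f - incAA q M f ^ q ^ 2

/-- `t₀₂ = u - u'' ^ q²`. -/
def t02 (f : FN M) : FN (M * q * q) := incAA q M f - incBB q M f ^ q ^ 2

/-- `d₂₀ = t₂₀ / q`. -/
def d20 (f : FN M) : FN (M * q * q) :=
  (algebraMap Kbar (FN (M * q * q)) (q : Kbar))⁻¹ * t20 q M f

theorem coe_t20 (f : FN M) (u₀ : LaurentSeries ℤ)
    (hf : (f : LaurentSeries Kbar) = H65.intSer Kbar u₀) :
    ((t20 q M f : FN (M * q * q)) : LaurentSeries Kbar) = H65.T20 Kbar q u₀ := by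
  rw [t20, H65.T20, AddSubgroupClass.coe_sub, IntermediateField.coe_pow, coe_incBB, coe_incAA,
    hf]

include hq in
theorem natCast_ne_zero_FN : algebraMap Kbar (FN (M * q * q)) (q : Kbar) ≠ 0 := by
  rw [Ne, map_eq_zero]
  exact_mod_cast hq.ne_zero

include hq in
theorem t20_eq (f : FN M) :
    t20 q M f = algebraMap Kbar (FN (M * q * q)) (q : Kbar) * d20 q M f := by
  rw [d20, ← mul_assoc, mul_inv_cancel₀ (natCast_ne_zero_FN q M hq), one_mul]

include hq in
/-- The expansion of `d₂₀ = t₂₀ / q` is `- kdel2`. -/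
theorem coe_d20 (f : FN M) (u₀ : LaurentSeries ℤ)
    (hf : (f : LaurentSeries Kbar) = H65.intSer Kbar u₀) :
    ((d20 q M f : FN (M * q * q)) : LaurentSeries Kbar)
      = H65.intSer Kbar (-H65.kdel2 q u₀) := by
  haveI : Fact q.Prime := ⟨hq⟩
  have h1 : ((t20 q M f : FN (M * q * q)) : LaurentSeries Kbar)
      = ((q : ℕ) : LaurentSeries Kbar) * H65.intSer Kbar (-H65.kdel2 q u₀) := by
    rw [coe_t20 q M f u₀ hf, H65.T20_eq]
  have h2 : ((algebraMap Kbar (FN (M * q * q)) (q : Kbar) : FN (M * q * q)) : LaurentSeries Kbar)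
      = ((q : ℕ) : LaurentSeries Kbar) := by
    rw [map_natCast]
    exact map_natCast (modularFunctionFieldBar (M * q * q)).val q
  have hq0 : ((q : ℕ) : LaurentSeries Kbar) ≠ 0 := by
    rw [← h2]
    intro h0
    exact natCast_ne_zero_FN q M hq (Subtype.ext h0)
  rw [d20, IntermediateField.coe_mul, IntermediateField.coe_inv, h2, h1, ← mul_assoc,
    inv_mul_cancel₀ hq0, one_mul]

include hq in
theorem d20_mem_V20 (f : FN M) (u₀ : LaurentSeries ℤ)
    (hf : (f : LaurentSeries Kbar) = H65.intSer Kbar u₀) :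
    d20 q M f ∈ V20 A (M * q * q) := by
  rw [mem_V20_iff, coe_d20 q M hq f u₀ hf]
  exact H65.intSer_mem A _

/-- An element of `V₂₀` whose expansion has non-zero reduction has valuation `1`. -/
theorem val20_eq_one (x : FN (M * q * q)) (h : x ∈ V20 A (M * q * q))
    (hne : gaussRedV A ⟨(x : LaurentSeries Kbar), h⟩ ≠ 0) :
    (V20 A (M * q * q)).valuation x = 1 := by
  have hne' : red20 A (M * q * q) ⟨x, h⟩ ≠ 0 := by
    intro h0
    apply hne
    have := congrArg (fun y : F20 A (M * q * q) => (y : LaurentSeries (kV A))) h0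
    simpa [coe_gaussResF'_eq] using this
  have hu : IsUnit (⟨x, h⟩ : ↥(V20 A (M * q * q))) := by
    by_contra hnu
    apply hne'
    rw [red20_eq_zero_iff]
    exact (IsLocalRing.mem_maximalIdeal _).mpr hnu
  exact (ValuationSubring.valuation_eq_one_iff _ _).mp hu

/-- An element with integral expansion whose reduction modulo `q` is non-zero has
`V₂₀`-valuation `1`. -/
theorem val20_eq_one_of_int (x : FN (M * q * q)) (x₀ : LaurentSeries ℤ)
    (hx : (x : LaurentSeries Kbar) = H65.intSer Kbar x₀)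
    (hne : coeffMap (Int.castRingHom (kV A)) x₀ ≠ 0) :
    (V20 A (M * q * q)).valuation x = 1 := by
  have h : x ∈ V20 A (M * q * q) := by
    rw [mem_V20_iff, hx]
    exact H65.intSer_mem A _
  refine val20_eq_one A q M x h ?_
  have e : (⟨(x : LaurentSeries Kbar), h⟩ : gaussRingV A)
      = ⟨H65.intSer Kbar x₀, H65.intSer_mem A x₀⟩ := Subtype.ext hx
  rw [e, H65.gaussRedV_intSer]
  exact hne

include hq in
/-- **`v₂₀ (t₂₀) = v₂₀ (q)`** if `δ̄ ≠ 0`. -/
theorem val20_t20 (hA : (q : Kbar) ∈ A.nonunits) (f : FN M) (u₀ : LaurentSeries ℤ)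
    (hf : (f : LaurentSeries Kbar) = H65.intSer Kbar u₀)
    (hδ : coeffMap (Int.castRingHom (kV A)) (H65.kdel q u₀) ≠ 0) :
    (V20 A (M * q * q)).valuation (t20 q M f)
      = (V20 A (M * q * q)).valuation (algebraMap Kbar (FN (M * q * q)) (q : Kbar)) := by
  haveI : Fact q.Prime := ⟨hq⟩
  haveI : CharP (kV A) q := Fermat.Agent.BAD.H82.charP_kV A hq hA
  have h1 : (V20 A (M * q * q)).valuation (d20 q M f) = 1 := by
    refine val20_eq_one_of_int A q M _ (-H65.kdel2 q u₀) (coe_d20 q M hq f u₀ hf) ?_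
    rw [map_neg, H65.coeffMap_kV_eq A q (H65.kdel2 q u₀), H65.coeffMap_kdel2_eq_pow, map_pow,
      ← H65.coeffMap_kV_eq A q]
    exact neg_ne_zero.2 (pow_ne_zero _ hδ)
  rw [t20_eq q M hq f, map_mul, h1, mul_one]

/-! ### Non-vanishing -/

omit [NeZero M] in
/-- A series with `θ x ≠ 0` is not of the form `y (t ^ q)`. -/
theorem sub_qExpand_ne_zero {κ : Type*} [CommRing κ] (x y : LaurentSeries κ)
    (hx : H65.ThetaNZ q x) : x - qExpand κ q y ≠ 0 := by
  obtain ⟨n, hn, hc⟩ := hx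
  intro h
  apply hc
  have h1 := congrArg (fun s : LaurentSeries κ => s.coeff n) h
  simp only [HahnSeries.coeff_sub, HahnSeries.coeff_zero] at h1
  rw [qExpand_coeff_of_not_dvd q y hn, sub_zero] at h1
  exact h1

omit [NeZero M] in
theorem qExpand_sub_ne_zero {κ : Type*} [CommRing κ] (x y : LaurentSeries κ)
    (hx : H65.ThetaNZ q x) : qExpand κ q y - x ≠ 0 := by
  intro h
  apply sub_qExpand_ne_zero q x y hx
  rw [← neg_sub, h, neg_zero]

/-! ### The valuation `V₂₀` -/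

/-- **`v₂₀ (t₁₁) = 1`.** -/
theorem val20_t11 (f : FN M) (u₀ : LaurentSeries ℤ)
    (hf : (f : LaurentSeries Kbar) = H65.intSer Kbar u₀)
    (hθ : H65.ThetaNZ q (coeffMap (Int.castRingHom (kV A)) u₀)) :
    (V20 A (M * q * q)).valuation (t11 q M f) = 1 := by
  refine val20_eq_one_of_int A q M _ (qExpand ℤ q (qExpand ℤ q u₀) - u₀) ?_ ?_
  · rw [t11, AddSubgroupClass.coe_sub, coe_incBB, coe_incAA, hf, H65.intSer, H65.intSer,
      map_sub, coeffMap_qExpand, coeffMap_qExpand]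
  · rw [map_sub, coeffMap_qExpand]
    exact qExpand_sub_ne_zero q _ _ hθ

include hq in
/-- **`v₂₀ (t₀₂) = 1`.** -/
theorem val20_t02 (hA : (q : Kbar) ∈ A.nonunits) (f : FN M) (u₀ : LaurentSeries ℤ)
    (hf : (f : LaurentSeries Kbar) = H65.intSer Kbar u₀)
    (hθ : H65.ThetaNZ q (coeffMap (Int.castRingHom (kV A)) u₀)) :
    (V20 A (M * q * q)).valuation (t02 q M f) = 1 := by
  haveI : Fact q.Prime := ⟨hq⟩
  haveI : CharP (kV A) q := Fermat.Agent.BAD.H82.charP_kV A hq hA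
  refine val20_eq_one_of_int A q M _ (u₀ - qExpand ℤ q (qExpand ℤ q u₀) ^ q ^ 2) ?_ ?_
  · rw [t02, AddSubgroupClass.coe_sub, IntermediateField.coe_pow, coe_incBB, coe_incAA, hf,
      H65.intSer, H65.intSer, map_sub, map_pow, coeffMap_qExpand, coeffMap_qExpand]
  · rw [map_sub, map_pow, H65.intRed_pow_sq q]
    exact sub_qExpand_ne_zero q _ _ hθ

/-! ### The valuation `V₁₁` -/

include hB hq

/-- An element of `V₁₁` whose expansion at the middle cusp has non-zero reduction has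
valuation `1`. -/
theorem val11_eq_one (x : FN (M * q * q)) (h : x ∈ V11 A (M * q * q) q M B k (lvl q M) hB hq)
    (hne : gaussRedV A ⟨cM q M B k hB hq x, h⟩ ≠ 0) :
    (V11 A (M * q * q) q M B k (lvl q M) hB hq).valuation x = 1 := by
  have hne' : red11 A (M * q * q) q M B k (lvl q M) hB hq ⟨x, h⟩ ≠ 0 := by
    intro h0
    apply hne
    have := congrArg (fun y : F11 A (M * q * q) q M B k (lvl q M) hB hq =>
      (y : LaurentSeries (kV A))) h0
    simpa [coe_red11] using this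
  have hu : IsUnit (⟨x, h⟩ : ↥(V11 A (M * q * q) q M B k (lvl q M) hB hq)) := by
    by_contra hnu
    apply hne'
    rw [red11_eq_zero_iff]
    exact (IsLocalRing.mem_maximalIdeal _).mpr hnu
  exact (ValuationSubring.valuation_eq_one_iff _ _).mp hu

omit hB in
/-- The twist of a series with integral coefficients is Gauss-integral. -/
theorem twist_intSer_mem (u₀ : LaurentSeries ℤ) :
    twist (zetaK q ^ B) (H65.intSer Kbar u₀) ∈ gaussRingV A := by
  rw [← coe_zUnit A q B hq]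
  exact twist_mem_gaussRingV A (zUnit A q B hq) (H65.intSer_mem A u₀)

omit hB in
/-- The reduction of the twist of a series with integral coefficients. -/
theorem gaussRedV_twist_intSer (hA : (q : Kbar) ∈ A.nonunits) (u₀ : LaurentSeries ℤ)
    (h : twist (zetaK q ^ B) (H65.intSer Kbar u₀) ∈ gaussRingV A) :
    gaussRedV A ⟨_, h⟩ = coeffMap (Int.castRingHom (kV A)) u₀ := by
  have h1 := gaussRedV_twist_of_res_eq_one A (zUnit A q B hq) (resV_zUnit A q B hq hA)
    ⟨H65.intSer Kbar u₀, H65.intSer_mem A u₀⟩ (by rw [coe_zUnit]; exact h)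
  rw [H65.gaussRedV_intSer] at h1
  rw [← h1]
  congr 1

/-- **`v₁₁ (t₂₀) = 1`.** -/
theorem val11_t20 (hA : (q : Kbar) ∈ A.nonunits) (f : FN M) (u₀ : LaurentSeries ℤ)
    (hf : (f : LaurentSeries Kbar) = H65.intSer Kbar u₀)
    (hθ : H65.ThetaNZ q (coeffMap (Int.castRingHom (kV A)) u₀)) :
    (V11 A (M * q * q) q M B k (lvl q M) hB hq).valuation (t20 q M f) = 1 := by
  haveI : Fact q.Prime := ⟨hq⟩
  haveI : CharP (kV A) q := Fermat.Agent.BAD.H82.charP_kV A hq hA
  have ha := twist_intSer_mem A q B hq u₀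
  have hb := H65.intSer_mem A u₀
  have e : cM q M B k hB hq (t20 q M f)
      = twist (zetaK q ^ B) (H65.intSer Kbar u₀) - H65.intSer Kbar u₀ ^ q ^ 2 := by
    rw [t20, map_sub, map_pow, cM_incBB, cM_incAA, hf]
  have hmem : t20 q M f ∈ V11 A (M * q * q) q M B k (lvl q M) hB hq := by
    rw [mem_V11_iff]
    change cM q M B k hB hq (t20 q M f) ∈ gaussRingV A
    rw [e]
    exact sub_mem ha (pow_mem hb _)
  refine val11_eq_one A q M B k hB hq _ hmem ?_
  have e2 : (⟨cM q M B k hB hq (t20 q M f), hmem⟩ : gaussRingV A)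
      = (⟨_, ha⟩ : gaussRingV A) - (⟨_, hb⟩ : gaussRingV A) ^ q ^ 2 := Subtype.ext e
  rw [e2, map_sub, map_pow, gaussRedV_twist_intSer A q B hq hA u₀ ha, H65.gaussRedV_intSer,
    H65.intRed_pow_sq q]
  exact sub_qExpand_ne_zero q _ _ hθ

/-- **`v₁₁ (t₀₂) = 1`.** -/
theorem val11_t02 (hA : (q : Kbar) ∈ A.nonunits) (f : FN M) (u₀ : LaurentSeries ℤ)
    (hf : (f : LaurentSeries Kbar) = H65.intSer Kbar u₀)
    (hθ : H65.ThetaNZ q (coeffMap (Int.castRingHom (kV A)) u₀)) :
    (V11 A (M * q * q) q M B k (lvl q M) hB hq).valuation (t02 q M f) = 1 := by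
  haveI : Fact q.Prime := ⟨hq⟩
  haveI : CharP (kV A) q := Fermat.Agent.BAD.H82.charP_kV A hq hA
  have ha := twist_intSer_mem A q B hq u₀
  have hb := H65.intSer_mem A u₀
  have e : cM q M B k hB hq (t02 q M f)
      = H65.intSer Kbar u₀ - twist (zetaK q ^ B) (H65.intSer Kbar u₀) ^ q ^ 2 := by
    rw [t02, map_sub, map_pow, cM_incBB, cM_incAA, hf]
  have hmem : t02 q M f ∈ V11 A (M * q * q) q M B k (lvl q M) hB hq := by
    rw [mem_V11_iff]
    change cM q M B k hB hq (t02 q M f) ∈ gaussRingV A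
    rw [e]
    exact sub_mem hb (pow_mem ha _)
  refine val11_eq_one A q M B k hB hq _ hmem ?_
  have e2 : (⟨cM q M B k hB hq (t02 q M f), hmem⟩ : gaussRingV A)
      = (⟨_, hb⟩ : gaussRingV A) - (⟨_, ha⟩ : gaussRingV A) ^ q ^ 2 := Subtype.ext e
  rw [e2, map_sub, map_pow, gaussRedV_twist_intSer A q B hq hA u₀ ha, H65.gaussRedV_intSer,
    H65.intRed_pow_sq q]
  exact sub_qExpand_ne_zero q _ _ hθ

/-- **RAM11** (helper88): `v₁₁ (t₁₁) ^ (q - 1) = v₁₁ (q)`. -/
theorem val11_t11 (hA : (q : Kbar) ∈ A.nonunits) (f : FN M) (u₀ : LaurentSeries ℤ)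
    (hf : (f : LaurentSeries Kbar) = H65.intSer Kbar u₀)
    (hθ : H65.ThetaNZ q (coeffMap (Int.castRingHom (kV A)) u₀)) :
    (V11 A (M * q * q) q M B k (lvl q M) hB hq).valuation (t11 q M f) ^ (q - 1)
      = (V11 A (M * q * q) q M B k (lvl q M) hB hq).valuation
          (algebraMap Kbar (FN (M * q * q)) (q : Kbar)) :=
  ram11 A q M B k hB hq hA f u₀ hf hθ

/-! ### The valuation `V₀₂ = V₂₀ ∘ W_{q²}` -/

theorem wS_t20 (f : FN M) : wS q M B k hB (t20 q M f) = t02 q M f := by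
  rw [t20, t02, map_sub, map_pow, wS_incBB q M B k hB hq, wS_incAA q M B k hB hq]

theorem wS_t02 (f : FN M) : wS q M B k hB (t02 q M f) = t20 q M f := by
  rw [t20, t02, map_sub, map_pow, wS_incBB q M B k hB hq, wS_incAA q M B k hB hq]

theorem wS_t11 (f : FN M) : wS q M B k hB (t11 q M f) = -t11 q M f := by
  rw [t11, map_sub, wS_incBB q M B k hB hq, wS_incAA q M B k hB hq, neg_sub]

omit hq in
theorem val02_eq_iff (x y : FN (M * q * q)) :
    (V02 A (M * q * q) q M B k (lvl q M) hB).valuation x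
        = (V02 A (M * q * q) q M B k (lvl q M) hB).valuation y
      ↔ (V20 A (M * q * q)).valuation (wS q M B k hB x)
        = (V20 A (M * q * q)).valuation (wS q M B k hB y) :=
  valuation_comap_eq_iff (V20 A (M * q * q)) _ x y

omit hq in
theorem val02_eq_one_iff (x : FN (M * q * q)) :
    (V02 A (M * q * q) q M B k (lvl q M) hB).valuation x = 1
      ↔ (V20 A (M * q * q)).valuation (wS q M B k hB x) = 1 :=
  valuation_comap_eq_one_iff (V20 A (M * q * q)) _ x

/-- **`v₀₂ (t₀₂) = v₀₂ (q)`** if `δ̄ ≠ 0`. -/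
theorem val02_t02 (hA : (q : Kbar) ∈ A.nonunits) (f : FN M) (u₀ : LaurentSeries ℤ)
    (hf : (f : LaurentSeries Kbar) = H65.intSer Kbar u₀)
    (hδ : coeffMap (Int.castRingHom (kV A)) (H65.kdel q u₀) ≠ 0) :
    (V02 A (M * q * q) q M B k (lvl q M) hB).valuation (t02 q M f)
      = (V02 A (M * q * q) q M B k (lvl q M) hB).valuation
          (algebraMap Kbar (FN (M * q * q)) (q : Kbar)) := by
  rw [val02_eq_iff, wS_t02 q M B k hB hq, AlgEquiv.commutes]
  exact val20_t20 A q M hq hA f u₀ hf hδ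

/-- **`v₀₂ (t₂₀) = 1`.** -/
theorem val02_t20 (hA : (q : Kbar) ∈ A.nonunits) (f : FN M) (u₀ : LaurentSeries ℤ)
    (hf : (f : LaurentSeries Kbar) = H65.intSer Kbar u₀)
    (hθ : H65.ThetaNZ q (coeffMap (Int.castRingHom (kV A)) u₀)) :
    (V02 A (M * q * q) q M B k (lvl q M) hB).valuation (t20 q M f) = 1 := by
  rw [val02_eq_one_iff, wS_t20 q M B k hB hq]
  exact val20_t02 A q M hq hA f u₀ hf hθ

/-- **`v₀₂ (t₁₁) = 1`.** -/
theorem val02_t11 (f : FN M) (u₀ : LaurentSeries ℤ)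
    (hf : (f : LaurentSeries Kbar) = H65.intSer Kbar u₀)
    (hθ : H65.ThetaNZ q (coeffMap (Int.castRingHom (kV A)) u₀)) :
    (V02 A (M * q * q) q M B k (lvl q M) hB).valuation (t11 q M f) = 1 := by
  rw [val02_eq_one_iff, wS_t11 q M B k hB hq, Valuation.map_neg]
  exact val20_t11 A q M f u₀ hf hθ

end Unif3

/-! ## The inertia-fixed functions -/

section L0

open Fermat.Agent.S36.NU.H23

variable (A : ValuationSubring Kbar)
variable (q M : ℕ) (B k : ℤ) (hB : B * M + k * q = 1) (hq : q.Prime) [NeZero M] [NeZero q]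

/-- A function with integral expansion is fixed by inertia. -/
theorem mem_L0_of_int {N : ℕ} (x : FN N) (x₀ : LaurentSeries ℤ)
    (hx : (x : LaurentSeries Kbar) = H65.intSer Kbar x₀) : x ∈ L0 A N := by
  rw [mem_L0_iff_coeffMap]
  intro σ _
  rw [hx, H65.intSer, coeffMap_coeffMap]
  exact coeffMap_congr (RingHom.ext_int _ _) x₀

theorem incAA_mem_L0_of_int (f : FN M) (u₀ : LaurentSeries ℤ)
    (hf : (f : LaurentSeries Kbar) = H65.intSer Kbar u₀) :
    incAA q M f ∈ L0 A (M * q * q) :=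
  mem_L0_of_int A _ u₀ (by rw [coe_incAA, hf])

theorem incAB_mem_L0_of_int (f : FN M) (u₀ : LaurentSeries ℤ)
    (hf : (f : LaurentSeries Kbar) = H65.intSer Kbar u₀) :
    incAB q M f ∈ L0 A (M * q * q) :=
  mem_L0_of_int A _ (qExpand ℤ q u₀) (by
    rw [coe_incAB, hf, H65.intSer, H65.intSer, coeffMap_qExpand])

theorem incBB_mem_L0_of_int (f : FN M) (u₀ : LaurentSeries ℤ)
    (hf : (f : LaurentSeries Kbar) = H65.intSer Kbar u₀) :
    incBB q M f ∈ L0 A (M * q * q) :=
  mem_L0_of_int A _ (qExpand ℤ q (qExpand ℤ q u₀)) (by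
    rw [coe_incBB, hf, H65.intSer, H65.intSer, coeffMap_qExpand, coeffMap_qExpand])

theorem natCast_mem_L0 : algebraMap Kbar (FN (M * q * q)) (q : Kbar) ∈ L0 A (M * q * q) := by
  rw [map_natCast]
  exact natCast_mem _ q

theorem t20_mem_L0 (f : FN M) (u₀ : LaurentSeries ℤ)
    (hf : (f : LaurentSeries Kbar) = H65.intSer Kbar u₀) : t20 q M f ∈ L0 A (M * q * q) :=
  sub_mem (incBB_mem_L0_of_int A q M f u₀ hf) (pow_mem (incAA_mem_L0_of_int A q M f u₀ hf) _)

theorem t11_mem_L0 (f : FN M) (u₀ : LaurentSeries ℤ)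
    (hf : (f : LaurentSeries Kbar) = H65.intSer Kbar u₀) : t11 q M f ∈ L0 A (M * q * q) :=
  sub_mem (incBB_mem_L0_of_int A q M f u₀ hf) (incAA_mem_L0_of_int A q M f u₀ hf)

theorem t02_mem_L0 (f : FN M) (u₀ : LaurentSeries ℤ)
    (hf : (f : LaurentSeries Kbar) = H65.intSer Kbar u₀) : t02 q M f ∈ L0 A (M * q * q) :=
  sub_mem (incAA_mem_L0_of_int A q M f u₀ hf) (pow_mem (incBB_mem_L0_of_int A q M f u₀ hf) _)

theorem d20_mem_L0 (f : FN M) (u₀ : LaurentSeries ℤ)
    (hf : (f : LaurentSeries Kbar) = H65.intSer Kbar u₀) : d20 q M f ∈ L0 A (M * q * q) :=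
  mul_mem (inv_mem (natCast_mem_L0 A q M)) (t20_mem_L0 A q M f u₀ hf)

/-! ### The element `W₁ = (u ^ q - u') (u' ^ q - u) / q` (regularity of (L1)) -/

/-- The integral expansion of `W₁`. -/
def w1Z (u₀ : LaurentSeries ℤ) : LaurentSeries ℤ :=
  H65.kdel q u₀ * (qExpand ℤ q u₀ ^ q - u₀)

/-- The integral expansion of `W_{q²} (W₁)`. -/
def w1Z' (u₀ : LaurentSeries ℤ) : LaurentSeries ℤ :=
  (qExpand ℤ q (qExpand ℤ q u₀) ^ q - qExpand ℤ q u₀) * H65.kdel q (qExpand ℤ q u₀)

/-- `W₁ = (u ^ q - u') (u' ^ q - u) / q`. -/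
def w1 (f : FN M) : FN (M * q * q) :=
  (algebraMap Kbar (FN (M * q * q)) (q : Kbar))⁻¹ * (incAA q M f ^ q - incAB q M f)
    * (incAB q M f ^ q - incAA q M f)

include hq in
theorem coe_natCast_FN :
    ((algebraMap Kbar (FN (M * q * q)) (q : Kbar) : FN (M * q * q)) : LaurentSeries Kbar)
      = ((q : ℕ) : LaurentSeries Kbar) := by
  rw [map_natCast]
  exact map_natCast (modularFunctionFieldBar (M * q * q)).val q

omit [NeZero M] [NeZero q] in
include hq in
theorem natCast_series_ne_zero : ((q : ℕ) : LaurentSeries Kbar) ≠ 0 := by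
  have e : ((q : ℕ) : LaurentSeries Kbar) = algebraMap Kbar (LaurentSeries Kbar) (q : Kbar) :=
    (map_natCast _ q).symm
  rw [e, Ne, map_eq_zero]
  exact_mod_cast hq.ne_zero

include hq in
theorem coe_w1 (f : FN M) (u₀ : LaurentSeries ℤ)
    (hf : (f : LaurentSeries Kbar) = H65.intSer Kbar u₀) :
    ((w1 q M f : FN (M * q * q)) : LaurentSeries Kbar) = H65.intSer Kbar (w1Z q u₀) := by
  haveI : Fact q.Prime := ⟨hq⟩
  have h1 := congrArg (coeffMap (Int.castRingHom Kbar)) (H65.kdel_spec q u₀)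
  rw [H65.coeffMap_natCast_mul, map_sub, map_pow, coeffMap_qExpand] at h1
  have hq0 := natCast_series_ne_zero q hq
  rw [w1, w1Z, IntermediateField.coe_mul, IntermediateField.coe_mul, IntermediateField.coe_inv,
    coe_natCast_FN q M hq, AddSubgroupClass.coe_sub, AddSubgroupClass.coe_sub,
    IntermediateField.coe_pow, IntermediateField.coe_pow, coe_incAA, coe_incAB, hf, H65.intSer,
    H65.intSer, map_mul, map_sub, map_pow, coeffMap_qExpand, ← h1]
  field_simp

include hq in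
theorem w1_mem_V20 (f : FN M) (u₀ : LaurentSeries ℤ)
    (hf : (f : LaurentSeries Kbar) = H65.intSer Kbar u₀) : w1 q M f ∈ V20 A (M * q * q) := by
  rw [mem_V20_iff, coe_w1 q M hq f u₀ hf]
  exact H65.intSer_mem A _

include hq in
theorem w1_mem_L0 (f : FN M) (u₀ : LaurentSeries ℤ)
    (hf : (f : LaurentSeries Kbar) = H65.intSer Kbar u₀) : w1 q M f ∈ L0 A (M * q * q) :=
  mem_L0_of_int A _ _ (coe_w1 q M hq f u₀ hf)

include hB hq in
theorem w1_mem_V11 (f : FN M) (u₀ : LaurentSeries ℤ)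
    (hf : (f : LaurentSeries Kbar) = H65.intSer Kbar u₀) :
    w1 q M f ∈ V11 A (M * q * q) q M B k (lvl q M) hB hq := by
  rw [mem_V11_iff]
  change cM q M B k hB hq (w1 q M f) ∈ gaussRingV A
  have e : cM q M B k hB hq (w1 q M f) = ((w1 q M f : FN (M * q * q)) : LaurentSeries Kbar) := by
    have h2 : cM q M B k hB hq (algebraMap Kbar (FN (M * q * q)) (q : Kbar))
        = ((q : ℕ) : LaurentSeries Kbar) := by
      rw [AlgHom.commutes, map_natCast]
    rw [w1, map_mul, map_mul, map_inv₀, h2, map_sub, map_sub, map_pow, map_pow, cM_incAA,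
      cM_incAB, IntermediateField.coe_mul, IntermediateField.coe_mul, IntermediateField.coe_inv,
      coe_natCast_FN q M hq, AddSubgroupClass.coe_sub, AddSubgroupClass.coe_sub,
      IntermediateField.coe_pow, IntermediateField.coe_pow, coe_incAA, coe_incAB]
  rw [e, coe_w1 q M hq f u₀ hf]
  exact H65.intSer_mem A _

include hB hq in
theorem coe_wS_w1 (f : FN M) (u₀ : LaurentSeries ℤ)
    (hf : (f : LaurentSeries Kbar) = H65.intSer Kbar u₀) :
    ((wS q M B k hB (w1 q M f) : FN (M * q * q)) : LaurentSeries Kbar)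
      = H65.intSer Kbar (w1Z' q u₀) := by
  haveI : Fact q.Prime := ⟨hq⟩
  have h1 := congrArg (coeffMap (Int.castRingHom Kbar)) (H65.kdel_spec q (qExpand ℤ q u₀))
  rw [H65.coeffMap_natCast_mul, map_sub, map_pow] at h1
  simp only [coeffMap_qExpand] at h1
  have hq0 := natCast_series_ne_zero q hq
  rw [w1, map_mul, map_mul, map_inv₀, AlgEquiv.commutes, map_sub, map_sub, map_pow, map_pow,
    wS_incAA q M B k hB hq, wS_incAB q M B k hB hq, w1Z', IntermediateField.coe_mul,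
    IntermediateField.coe_mul, IntermediateField.coe_inv,
    coe_natCast_FN q M hq, AddSubgroupClass.coe_sub, AddSubgroupClass.coe_sub,
    IntermediateField.coe_pow, IntermediateField.coe_pow, coe_incBB, coe_incAB, hf, H65.intSer,
    H65.intSer, map_mul, map_sub, map_pow]
  simp only [coeffMap_qExpand]
  rw [← h1]
  field_simp

include hB hq in
theorem w1_mem_V02 (f : FN M) (u₀ : LaurentSeries ℤ)
    (hf : (f : LaurentSeries Kbar) = H65.intSer Kbar u₀) :
    w1 q M f ∈ V02 A (M * q * q) q M B k (lvl q M) hB := by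
  rw [mem_V02_iff]
  change wS q M B k hB (w1 q M f) ∈ V20 A (M * q * q)
  rw [mem_V20_iff, coe_wS_w1 q M B k hB hq f u₀ hf]
  exact H65.intSer_mem A _

include hq in
/-- The reduction of `W₁` at `V₂₀` is `δ̄ (ū ^ q² - ū)`: the left-hand side of (L1). -/
theorem coeffMap_w1Z (κ : Type*) [Field κ] [CharP κ q] (u₀ : LaurentSeries ℤ) :
    coeffMap (Int.castRingHom κ) (w1Z q u₀)
      = coeffMap (Int.castRingHom κ) (H65.kdel q u₀)
        * (coeffMap (Int.castRingHom κ) u₀ ^ q ^ 2 - coeffMap (Int.castRingHom κ) u₀) := by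
  haveI : Fact q.Prime := ⟨hq⟩
  rw [w1Z, map_mul, map_sub, map_pow, coeffMap_qExpand, ← H65.intRed_pow q u₀, ← pow_mul,
    ← pow_two]

/-! ### The valuation vectors on `L0 A (M q²)` (shapes of helper51's `valVecMod_core`) -/

variable [NeZero (M * q * q)]

/-- `t₂₀`, `t₁₁`, `t₀₂`, `d₂₀`, `W₁` as inertia-fixed functions. -/
def t20o (f : FN M) (u₀ : LaurentSeries ℤ)
    (hf : (f : LaurentSeries Kbar) = H65.intSer Kbar u₀) : ↥(L0 A (M * q * q)) :=
  ⟨t20 q M f, t20_mem_L0 A q M f u₀ hf⟩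

def t11o (f : FN M) (u₀ : LaurentSeries ℤ)
    (hf : (f : LaurentSeries Kbar) = H65.intSer Kbar u₀) : ↥(L0 A (M * q * q)) :=
  ⟨t11 q M f, t11_mem_L0 A q M f u₀ hf⟩

def t02o (f : FN M) (u₀ : LaurentSeries ℤ)
    (hf : (f : LaurentSeries Kbar) = H65.intSer Kbar u₀) : ↥(L0 A (M * q * q)) :=
  ⟨t02 q M f, t02_mem_L0 A q M f u₀ hf⟩

def d20o (f : FN M) (u₀ : LaurentSeries ℤ)
    (hf : (f : LaurentSeries Kbar) = H65.intSer Kbar u₀) : ↥(L0 A (M * q * q)) :=
  ⟨d20 q M f, d20_mem_L0 A q M f u₀ hf⟩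

omit [NeZero M] [NeZero q] [NeZero (M * q * q)] in
theorem valuation_resV0_eq_one_iff {F : Type} [Field F] (L₀ : Subfield F)
    (V : ValuationSubring F) (x : ↥L₀) :
    (resV0 L₀ V).valuation x = 1 ↔ V.valuation (x : F) = 1 := by
  have := valuation_resV0_eq_iff L₀ V x 1
  simpa using this

theorem coe_natCast_L0 :
    ((((q : ℕ) : ↥(L0 A (M * q * q))) : ↥(L0 A (M * q * q))) : FN (M * q * q))
      = algebraMap Kbar (FN (M * q * q)) (q : Kbar) := by
  rw [map_natCast]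
  exact map_natCast (L0 A (M * q * q)).subtype q

include hq in
theorem t20o_eq (f : FN M) (u₀ : LaurentSeries ℤ)
    (hf : (f : LaurentSeries Kbar) = H65.intSer Kbar u₀) :
    t20o A q M f u₀ hf = ((q : ℕ) : ↥(L0 A (M * q * q))) * d20o A q M f u₀ hf := by
  apply Subtype.ext
  change t20 q M f = (((q : ℕ) : ↥(L0 A (M * q * q))) : FN (M * q * q)) * d20 q M f
  rw [coe_natCast_L0, ← t20_eq q M hq f]

include hq in
theorem d20o_mem (f : FN M) (u₀ : LaurentSeries ℤ)
    (hf : (f : LaurentSeries Kbar) = H65.intSer Kbar u₀) :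
    d20o A q M f u₀ hf ∈ V20o A q M :=
  d20_mem_V20 A q M hq f u₀ hf

include hq in
/-- The reduction of `d₂₀ = t₂₀ / q` at `V₂₀`: `- δ̄ ^ q`. -/
theorem s20_d20o (hA : (q : Kbar) ∈ A.nonunits) (f : FN M) (u₀ : LaurentSeries ℤ)
    (hf : (f : LaurentSeries Kbar) = H65.intSer Kbar u₀) :
    s20 A q M ⟨d20o A q M f u₀ hf, d20o_mem A q M hq f u₀ hf⟩
      = - coeffMap (Int.castRingHom (kV A)) (H65.kdel q u₀) ^ q := by
  haveI : Fact q.Prime := ⟨hq⟩
  haveI : CharP (kV A) q := Fermat.Agent.BAD.H82.charP_kV A hq hA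
  rw [s20_mk]
  exact (congrArg (gaussRedV A) (Subtype.ext (coe_d20 q M hq f u₀ hf))).trans
    (H65.gaussRedV_T20_div A q u₀ (H65.intSer_mem A _))

include hB hq in
/-- **The valuation vector of `t₁₁`** on `L0 A (M q²)`: `(0, 1, 0)`. -/
theorem val_t11o (hA : (q : Kbar) ∈ A.nonunits) (f : FN M) (u₀ : LaurentSeries ℤ)
    (hf : (f : LaurentSeries Kbar) = H65.intSer Kbar u₀)
    (hθ : H65.ThetaNZ q (coeffMap (Int.castRingHom (kV A)) u₀)) :
    (V20o A q M).valuation (t11o A q M f u₀ hf) = 1 ∧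
    (V11o A q M B k hB hq).valuation (t11o A q M f u₀ hf) ^ (q - 1)
      = (V11o A q M B k hB hq).valuation ((q : ℕ) : ↥(L0 A (M * q * q))) ∧
    (V02o A q M B k hB).valuation (t11o A q M f u₀ hf) = 1 := by
  refine ⟨?_, ?_, ?_⟩
  · exact (valuation_resV0_eq_one_iff (L0 A (M * q * q)) _ (t11o A q M f u₀ hf)).2
      (val20_t11 A q M f u₀ hf hθ)
  · rw [← map_pow]
    refine (valuation_resV0_eq_iff (L0 A (M * q * q)) _ _ _).2 ?_
    rw [coe_natCast_L0, ← val11_t11 A q M B k hB hq hA f u₀ hf hθ, ← map_pow]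
    rfl
  · exact (valuation_resV0_eq_one_iff (L0 A (M * q * q)) _ (t11o A q M f u₀ hf)).2
      (val02_t11 A q M B k hB hq f u₀ hf hθ)

include hB hq in
/-- **The valuation vector of `t₀₂`** on `L0 A (M q²)`: `(0, 0, 1)`. -/
theorem val_t02o (hA : (q : Kbar) ∈ A.nonunits) (f : FN M) (u₀ : LaurentSeries ℤ)
    (hf : (f : LaurentSeries Kbar) = H65.intSer Kbar u₀)
    (hθ : H65.ThetaNZ q (coeffMap (Int.castRingHom (kV A)) u₀))
    (hδ : coeffMap (Int.castRingHom (kV A)) (H65.kdel q u₀) ≠ 0) :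
    (V20o A q M).valuation (t02o A q M f u₀ hf) = 1 ∧
    (V11o A q M B k hB hq).valuation (t02o A q M f u₀ hf) = 1 ∧
    (V02o A q M B k hB).valuation (t02o A q M f u₀ hf)
      = (V02o A q M B k hB).valuation ((q : ℕ) : ↥(L0 A (M * q * q))) := by
  refine ⟨?_, ?_, ?_⟩
  · exact (valuation_resV0_eq_one_iff (L0 A (M * q * q)) _ (t02o A q M f u₀ hf)).2
      (val20_t02 A q M hq hA f u₀ hf hθ)
  · exact (valuation_resV0_eq_one_iff (L0 A (M * q * q)) _ (t02o A q M f u₀ hf)).2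
      (val11_t02 A q M B k hB hq hA f u₀ hf hθ)
  · refine (valuation_resV0_eq_iff (L0 A (M * q * q)) _ _ _).2 ?_
    rw [coe_natCast_L0]
    exact val02_t02 A q M B k hB hq hA f u₀ hf hδ

include hB hq in
/-- **The valuation vector of `t₂₀`** on `L0 A (M q²)`: `(1, 0, 0)`. -/
theorem val_t20o (hA : (q : Kbar) ∈ A.nonunits) (f : FN M) (u₀ : LaurentSeries ℤ)
    (hf : (f : LaurentSeries Kbar) = H65.intSer Kbar u₀)
    (hθ : H65.ThetaNZ q (coeffMap (Int.castRingHom (kV A)) u₀))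
    (hδ : coeffMap (Int.castRingHom (kV A)) (H65.kdel q u₀) ≠ 0) :
    (V20o A q M).valuation (t20o A q M f u₀ hf)
      = (V20o A q M).valuation ((q : ℕ) : ↥(L0 A (M * q * q))) ∧
    (V11o A q M B k hB hq).valuation (t20o A q M f u₀ hf) = 1 ∧
    (V02o A q M B k hB).valuation (t20o A q M f u₀ hf) = 1 := by
  refine ⟨?_, ?_, ?_⟩
  · refine (valuation_resV0_eq_iff (L0 A (M * q * q)) _ _ _).2 ?_
    rw [coe_natCast_L0]
    exact val20_t20 A q M hq hA f u₀ hf hδ
  · exact (valuation_resV0_eq_one_iff (L0 A (M * q * q)) _ (t20o A q M f u₀ hf)).2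
      (val11_t20 A q M B k hB hq hA f u₀ hf hθ)
  · exact (valuation_resV0_eq_one_iff (L0 A (M * q * q)) _ (t20o A q M f u₀ hf)).2
      (val02_t20 A q M B k hB hq hA f u₀ hf hθ)

end L0

end Fermat.Agent.S36.NU.H16
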