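import Fermat.Agent.S36.NU.H73_Theta
import Fermat.Agent.BAD.H21_RamSeries
import Fermat.Agent.BAD.H21_SSBridge

/-!
# `(θ j)⁶ = j⁴ (j - 1728)³ Δ` and the function `G_j = (θ j̄)^{q-1}` (S36 / NU-B / GPOLE, series part;
helper73)

* `thetaL_DZ : θ Δ = E₂ Δ`, `thetaL_jZ_mul_DZ : θ j * Δ = - E₄² E₆` in `ℤ((t))`.
* `thetaL_jZ_pow_six : (θ j)⁶ = j⁴ (j - 1728)³ Δ` in `ℤ((t))`, `thetaL_jq_pow_six` in `F((t))`.
* `G_pow_six_mul_aeval : ((θ j̄)^{q-1})⁶ * H(j̄) = j̄^{4(q-1)} (j̄ - 1728)^{3(q-1)}` for every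
  polynomial `H` with `H(j̄) = Δ̄^{1-q}` (the supersingular polynomial, `H21_supersingular_jq`).
-/

set_option autoImplicit false

noncomputable section

open ModularCurve

namespace Fermat.Agent.S36.NU.H73

open Fermat.Agent.BAD.H21 Fermat.Agent.S23.H96

section Integral

/-- `j ∈ ℤ((t))`. -/
abbrev jZ : LaurentSeries ℤ := jqModC ℤ

/-- `Δ ∈ ℤ((t))`. -/
def DZ : LaurentSeries ℤ := HahnSeries.ofPowerSeries ℤ ℤ deltaSeries

/-- `E₄ ∈ ℤ((t))`. -/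
def QZ : LaurentSeries ℤ := HahnSeries.ofPowerSeries ℤ ℤ e4Series

/-- `E₆ ∈ ℤ((t))`. -/
def RZ : LaurentSeries ℤ := HahnSeries.ofPowerSeries ℤ ℤ e6Series

/-- `E₂ ∈ ℤ((t))`. -/
def PZ : LaurentSeries ℤ := HahnSeries.ofPowerSeries ℤ ℤ H21_e2Series

theorem DZ_ne_zero : DZ ≠ 0 := by
  intro h
  have h1 := congrArg (fun x => x.coeff ((1 : ℕ) : ℤ)) h
  simp only [DZ, HahnSeries.ofPowerSeries_apply_coeff, HahnSeries.coeff_zero] at h1
  rw [coeff_one_deltaSeries] at h1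
  exact one_ne_zero h1

theorem jZ_mul_DZ : jZ * DZ = QZ ^ 3 := by
  have h2 : jNum * dedekindEtaUnit = e4Series ^ 3 := by
    rw [jNum, mul_assoc, mul_comm dedekindEtaUnitInv, dedekindEtaUnit_mul_inv, mul_one,
      H21_eisenstein4_eq]
  have h3 : (HahnSeries.single (-1 : ℤ) (1 : ℤ)) * HahnSeries.single (1 : ℤ) (1 : ℤ) = 1 := by
    rw [HahnSeries.single_mul_single]
    simp
  have hj : jZ = HahnSeries.single (-1 : ℤ) (1 : ℤ) * HahnSeries.ofPowerSeries ℤ ℤ jNum := by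
    show jqModC ℤ = _
    rw [jqModC]
    congr 2
  rw [hj, DZ, ← H21_X_mul_etaUnit, map_mul, HahnSeries.ofPowerSeries_X, QZ, ← map_pow, ← h2,
    map_mul]
  calc HahnSeries.single (-1 : ℤ) (1 : ℤ) * HahnSeries.ofPowerSeries ℤ ℤ jNum *
        (HahnSeries.single 1 1 * HahnSeries.ofPowerSeries ℤ ℤ dedekindEtaUnit)
      = (HahnSeries.single (-1 : ℤ) (1 : ℤ) * HahnSeries.single (1 : ℤ) (1 : ℤ)) *
        (HahnSeries.ofPowerSeries ℤ ℤ jNum * HahnSeries.ofPowerSeries ℤ ℤ dedekindEtaUnit) := by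
        ring
    _ = _ := by rw [h3, one_mul]

theorem QZ_cube_sub : QZ ^ 3 - RZ ^ 2 = 1728 * DZ := by
  have h := congrArg (HahnSeries.ofPowerSeries ℤ ℤ) e4Series_cube_sub_e6Series_sq
  rw [map_sub, map_pow, map_pow, map_mul] at h
  rw [QZ, RZ, DZ, h]
  congr 1
  rw [show (PowerSeries.C (1728 : ℤ) : PowerSeries ℤ) = 1728 by simp, map_ofNat]

theorem thetaL_QZ : 3 * thetaL QZ = PZ * QZ - RZ := by
  have h := congrArg (HahnSeries.ofPowerSeries ℤ ℤ) H21_theta_e4Series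
  rw [map_mul, map_sub, map_mul (HahnSeries.ofPowerSeries ℤ ℤ) H21_e2Series, map_ofNat] at h
  rw [QZ, thetaL_ofPowerSeries, h, PZ, RZ]

theorem thetaL_RZ : 2 * thetaL RZ = PZ * RZ - QZ ^ 2 := by
  have h := congrArg (HahnSeries.ofPowerSeries ℤ ℤ) H21_theta_e6Series
  rw [map_mul, map_sub, map_mul (HahnSeries.ofPowerSeries ℤ ℤ) H21_e2Series, map_pow,
    map_ofNat] at h
  rw [RZ, thetaL_ofPowerSeries, h, PZ, QZ]

/-- **Ramanujan**: `θ Δ = E₂ Δ`. -/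
theorem thetaL_DZ : thetaL DZ = PZ * DZ := by
  have h := congrArg thetaL QZ_cube_sub
  rw [map_sub, thetaL_pow, thetaL_pow, thetaL_mul] at h
  have h0 : thetaL (1728 : LaurentSeries ℤ) = 0 := by
    have := Derivation.map_natCast (thetaL (R := ℤ)) 1728
    simpa using this
  rw [h0, mul_zero, add_zero] at h
  have h1 : (1728 : LaurentSeries ℤ) * thetaL DZ = 1728 * (PZ * DZ) := by
    rw [← h]
    have e1 := thetaL_QZ
    have e2 := thetaL_RZ
    have e3 := QZ_cube_sub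
    push_cast
    simp only [pow_one]
    linear_combination (QZ ^ 2) * e1 - RZ * e2 + PZ * e3
  have h1728 : (1728 : LaurentSeries ℤ) ≠ 0 := by
    intro h
    have h1 := congrArg (fun x => x.coeff 0) h
    have h2 : (1728 : LaurentSeries ℤ) = HahnSeries.C (1728 : ℤ) := by
      rw [map_ofNat]
    simp only [h2, HahnSeries.coeff_zero] at h1
    rw [HahnSeries.C_apply, HahnSeries.coeff_single_same] at h1
    norm_num at h1
  exact mul_left_cancel₀ h1728 h1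

theorem three_ne_zero_LZ : (3 : LaurentSeries ℤ) ≠ 0 := by
  intro h
  have h1 := congrArg (fun x => x.coeff 0) h
  have h2 : (3 : LaurentSeries ℤ) = HahnSeries.C (3 : ℤ) := by
    rw [map_ofNat]
  simp only [h2, HahnSeries.coeff_zero] at h1
  rw [HahnSeries.C_apply, HahnSeries.coeff_single_same] at h1
  norm_num at h1

/-- `θ j * Δ = - E₄² E₆`. -/
theorem thetaL_jZ_mul_DZ : thetaL jZ * DZ = -(QZ ^ 2 * RZ) := by
  have h := congrArg thetaL jZ_mul_DZ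
  rw [thetaL_mul, thetaL_pow, thetaL_DZ] at h
  have e1 := thetaL_QZ
  have e3 := jZ_mul_DZ
  push_cast at h
  refine mul_left_cancel₀ three_ne_zero_LZ ?_
  linear_combination 3 * h + 3 * (QZ ^ 2) * e1 - 3 * PZ * e3

/-- **`(θ j)⁶ = j⁴ (j - 1728)³ Δ`** in `ℤ((t))`. -/
theorem thetaL_jZ_pow_six : thetaL jZ ^ 6 = jZ ^ 4 * (jZ - 1728) ^ 3 * DZ := by
  have hD6 : DZ ^ 6 ≠ 0 := pow_ne_zero 6 DZ_ne_zero
  refine mul_right_cancel₀ hD6 ?_
  have e1 := thetaL_jZ_mul_DZ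
  have e2 := jZ_mul_DZ
  have e3 := QZ_cube_sub
  have h1 : thetaL jZ ^ 6 * DZ ^ 6 = (QZ ^ 2 * RZ) ^ 6 := by
    rw [← mul_pow, e1]
    ring
  have h2 : jZ ^ 4 * (jZ - 1728) ^ 3 * DZ * DZ ^ 6 =
      (jZ * DZ) ^ 4 * (jZ * DZ - 1728 * DZ) ^ 3 := by ring
  rw [h1, h2, e2, ← e3]
  ring

end Integral

section Field

variable (F : Type*) [Field F]

/-- **`(θ j̄)⁶ = j̄⁴ (j̄ - 1728)³ Δ̄`** in `F((t))`. -/
theorem thetaL_jq_pow_six :
    thetaL (jqModC F) ^ 6 = jqModC F ^ 4 * (jqModC F - 1728) ^ 3 * H21_DL F := by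
  have h := congrArg (coeffMap (Int.castRingHom F)) thetaL_jZ_pow_six
  rw [map_pow, ← thetaL_coeffMap, map_mul, map_mul, map_pow, map_pow, map_sub, map_ofNat,
    coeffMap_jqModC, DZ, coeffMap_ofPowerSeries] at h
  exact h

variable {F}

/-- **The function `G_j = (θ j̄)^{q-1}`**: `G_j⁶ * H(j̄) = j̄^{4(q-1)} (j̄ - 1728)^{3(q-1)}` for every
polynomial `H` with `H(j̄) = Δ̄^{-n}`, `n = q - 1`. -/
theorem G_pow_six_mul_aeval {n : ℕ} {H : Polynomial F}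
    (hH : Polynomial.aeval (jqModC F) H = (H21_DL F ^ n)⁻¹) :
    (thetaL (jqModC F) ^ n) ^ 6 * Polynomial.aeval (jqModC F) H =
      jqModC F ^ (4 * n) * (jqModC F - 1728) ^ (3 * n) := by
  have hD : H21_DL F ^ n ≠ 0 := pow_ne_zero n H21_DL_ne_zero
  rw [hH, ← pow_mul, mul_comm n 6, pow_mul, thetaL_jq_pow_six, mul_pow, mul_pow, ← pow_mul,
    ← pow_mul, mul_assoc, mul_inv_cancel₀ hD, mul_one]

end Field

end Fermat.Agent.S36.NU.H73
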