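import Fermat.Agent.S36.NU.H99_Units3L
import Fermat.Agent.S36.NU.H88_ChartAlg
import Fermat.Agent.S36.NU.H16_Unif3
import Fermat.Agent.S36.NU.H73_ThetaJ
import Fermat.Agent.BAD.H30_UnitGaussSS
import Fermat.Agent.S36.NU.H82_CuspDefs

/-!
# S36 / NU-B, leaf CUSPS, slice (a) (helper73): the `W₂` identity at the middle component

Level `N = M q²`.  `u = 1 / j`, `E = E11∞ = E11 · u^{2(q-1)}`, `x = (j″ u - 1) E`,
`W₂ = x^{q-1} E² / q`.  At the valuation `V₁₁`: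

* `s₁₁ j = j̄`, `s₁₁ u = j̄⁻¹`, `s₁₁ E = (j̄ Δ̄)^{-2(q-1)}`;
* `(j″ - j)^{q-1} / q` is a unit with reduction `c₀ (θ j̄)^{q-1}`, `c₀ ≠ 0` a constant
  (the residue of `(z - 1)^{q-1} / q`, `z = ζ_q^B`);
* **`s₁₁(W₂)¹² · s₁₁(E) = c₀¹² (1 - 1728 ū)^{6(q-1)} · s₁₁(E)^{12(q+1)}`**
  (from `(θ j̄)⁶ = j̄⁴ (j̄ - 1728)³ Δ̄`).
-/

set_option autoImplicit false
set_option synthInstance.maxHeartbeats 400000
set_option maxHeartbeats 1000000
set_option linter.unusedSectionVars false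
set_option linter.style.haveILetI false

noncomputable section

open ModularCurve
open Fermat.Agent.S24 Fermat.Agent.BAD.H88 Fermat.Agent.BAD.H30 Fermat.Agent.BAD.H21
open Fermat.Agent.S28 Fermat.Agent.S28.H73 Fermat.Agent.RED.H73 Fermat.Agent.RED.H17
open Fermat.Agent.S36.NU.H88 Fermat.Agent.S36.NU.H23 Fermat.Agent.S36.NU.H82
open Fermat.Agent.S36.NU.H99 Fermat.Agent.S36.NU.H16

namespace Fermat.Agent.S36.NU.H73

/-! ### The algebra -/

section Alg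

variable {F : Type*} [Field F]

/-- The base identity: `Θ¹² J⁻¹⁴ D⁻² = (1 - 1728 J⁻¹)⁶`. -/
theorem cuspW2_base {J Θ D : F} (hJ : J ≠ 0) (hD : D ≠ 0)
    (hΘ : Θ ^ 6 = J ^ 4 * (J - 1728) ^ 3 * D) :
    Θ ^ 12 * J⁻¹ ^ 14 * D⁻¹ ^ 2 = (1 - 1728 * J⁻¹) ^ 6 := by
  have h12 : Θ ^ 12 = (J ^ 4 * (J - 1728) ^ 3 * D) ^ 2 := by
    rw [← hΘ]; ring
  rw [h12]
  field_simp

/-- The `W₂` identity, abstractly. -/
theorem cuspW2_alg (n : ℕ) {J Θ D E W c₀ : F} (hJ : J ≠ 0) (hD : D ≠ 0)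
    (hΘ : Θ ^ 6 = J ^ 4 * (J - 1728) ^ 3 * D)
    (hE : E = (D ^ n)⁻¹ * (D ^ n)⁻¹ * J⁻¹ ^ (2 * n))
    (hW : W = c₀ * Θ ^ n * J⁻¹ ^ n * E ^ (n + 2)) :
    W ^ 12 * E = c₀ ^ 12 * (1 - 1728 * J⁻¹) ^ (6 * n) * E ^ (12 * (n + 2)) := by
  have hb := cuspW2_base hJ hD hΘ
  have h1 : (Θ ^ n) ^ 12 * (J⁻¹ ^ n) ^ 12 * E = (1 - 1728 * J⁻¹) ^ (6 * n) := by
    rw [pow_mul, ← hb, hE, ← inv_pow D n]
    ring
  calc W ^ 12 * E
      = c₀ ^ 12 * ((Θ ^ n) ^ 12 * (J⁻¹ ^ n) ^ 12 * E) * E ^ (12 * (n + 2)) := by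
        rw [hW]; ring
    _ = c₀ ^ 12 * (1 - 1728 * J⁻¹) ^ (6 * n) * E ^ (12 * (n + 2)) := by rw [h1]

end Alg

section CuspW2

variable (A : ValuationSubring Kbar)
variable (q M : ℕ) (B k : ℤ) (hB : B * M + k * q = 1) (hq : q.Prime) [NeZero M] [NeZero q]
  [NeZero (M * q)] [NeZero (M * q * q)]

/-! ### `j` and `u = 1 / j` at `V₁₁` -/

include hB hq in
theorem cM_jF : cM q M B k hB hq (Fermat.Agent.S24.jF (M * q * q)) = H65.intSer Kbar jInt := by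
  rw [← jdF_one_eq_jF, ← incAA_jdF_one q M, cM_incAA, coe_jdF_one]

theorem coeffMap_jInt (R : Type*) [CommRing R] :
    coeffMap (Int.castRingHom R) jInt = jqModC R := by
  rw [jInt, qExpand_one_apply, coeffMap_jqModC]

include hq in
theorem j0_mem11 : j0 A (M * q * q) ∈ V11o A q M B k hB hq := by
  rw [mem_V11o_iff, coe_j0, cM_jF]
  exact H65.intSer_mem A _

include hq in
theorem s11_j0 :
    s11 A q M B k hB hq ⟨j0 A (M * q * q), j0_mem11 A q M B k hB hq⟩ = jqModC (kV A) := by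
  rw [s11_mk]
  have e : (⟨cM q M B k hB hq ((j0 A (M * q * q) : ↥(L0 A (M * q * q))) : FN (M * q * q)),
      j0_mem11 A q M B k hB hq⟩ : gaussRingV A)
      = ⟨H65.intSer Kbar jInt, H65.intSer_mem A _⟩ :=
    Subtype.ext (cM_jF q M B k hB hq)
  rw [e, H65.gaussRedV_intSer, coeffMap_jInt]


include hq in
/-- Inverses at `V₁₁`: an element with non-zero reduction is a unit. -/
theorem s11_inv (x : ↥(L0 A (M * q * q))) (h : x ∈ V11o A q M B k hB hq)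
    (hne : s11 A q M B k hB hq ⟨x, h⟩ ≠ 0) :
    ∃ h' : x⁻¹ ∈ V11o A q M B k hB hq,
      s11 A q M B k hB hq ⟨x⁻¹, h'⟩ = (s11 A q M B k hB hq ⟨x, h⟩)⁻¹ := by
  have hu : IsUnit (⟨x, h⟩ : ↥(V11o A q M B k hB hq)) := by
    by_contra hnu
    exact hne (s11_eq_zero_of_not_isUnit A q M B k hB hq _ hnu)
  obtain ⟨u, hu'⟩ := hu
  have h1 : ((u⁻¹ : (↥(V11o A q M B k hB hq))ˣ) : ↥(V11o A q M B k hB hq)) * ⟨x, h⟩ = 1 := by
    rw [← hu']
    exact u.inv_mul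
  have h2 := congrArg (fun z : ↥(V11o A q M B k hB hq) => (z : ↥(L0 A (M * q * q)))) h1
  simp only [MulMemClass.coe_mul, OneMemClass.coe_one] at h2
  have h3 : x⁻¹ = (((u⁻¹ : (↥(V11o A q M B k hB hq))ˣ) : ↥(V11o A q M B k hB hq)) :
      ↥(L0 A (M * q * q))) := (eq_inv_of_mul_eq_one_left h2).symm
  have hm : x⁻¹ ∈ V11o A q M B k hB hq := by
    rw [h3]
    exact Subtype.mem _
  refine ⟨hm, ?_⟩
  have e : (⟨x⁻¹, hm⟩ : ↥(V11o A q M B k hB hq))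
      = ((u⁻¹ : (↥(V11o A q M B k hB hq))ˣ) : ↥(V11o A q M B k hB hq)) := Subtype.ext h3
  rw [e]
  have h4 := congrArg (s11 A q M B k hB hq) h1
  rw [map_mul, map_one] at h4
  exact eq_inv_of_mul_eq_one_left h4

theorem jqModC_ne_zero_kV : jqModC (kV A) ≠ 0 := by
  intro h
  have h1 := congrArg (fun s : LaurentSeries (kV A) => s.coeff (-1)) h
  simp only [HahnSeries.coeff_zero] at h1
  have h2 : (jqModC (kV A)).coeff (-1) = 1 := by
    rw [← coeffMap_jInt (kV A), coeffMap_coeff, jInt_coeff_neg_one, map_one]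
  rw [h2] at h1
  exact one_ne_zero h1

/-! ### The constant `(z - 1)^{q-1} / q` -/

/-- `c' = (z - 1)^{q-1} / q`, `z = ζ_q^B`. -/
def cW : Kbar := (zetaK q ^ B - 1) ^ (q - 1) * ((q : ℕ) : Kbar)⁻¹

include hB hq in
theorem val_cW : A.valuation (cW q B) = 1 := by
  have hq0 : ((q : ℕ) : Kbar) ≠ 0 := by exact_mod_cast (NeZero.ne q)
  have hv : A.valuation ((q : ℕ) : Kbar) ≠ 0 := (Valuation.ne_zero_iff _).mpr hq0
  rw [cW, map_mul, map_pow, val_zMid_sub_one A q M B k hB hq, map_inv₀, mul_inv_cancel₀ hv]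

include hB hq in
theorem cW_mem : cW q B ∈ A :=
  (ValuationSubring.valuation_le_one_iff A _).mp (val_cW A q M B k hB hq).le

include hB hq in
theorem resV_cW_ne_zero : resV A ⟨cW q B, cW_mem A q M B k hB hq⟩ ≠ 0 := by
  intro h
  have h1 : (⟨cW q B, cW_mem A q M B k hB hq⟩ : ↥A) ∈ IsLocalRing.maximalIdeal ↥A :=
    (IsLocalRing.residue_eq_zero_iff _).mp h
  have h2 : IsUnit (⟨cW q B, cW_mem A q M B k hB hq⟩ : ↥A) :=
    (ValuationSubring.valuation_eq_one_iff A _).mpr (val_cW A q M B k hB hq)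
  exact (IsLocalRing.mem_maximalIdeal _).mp h1 h2

/-- The Gauss reduction of a constant. -/
theorem gaussRedV_const (c : Kbar) (hc : c ∈ A)
    (h : algebraMap Kbar (LaurentSeries Kbar) c ∈ gaussRingV A) :
    gaussRedV A ⟨algebraMap Kbar (LaurentSeries Kbar) c, h⟩ = HahnSeries.C (resV A ⟨c, hc⟩) := by
  have h3 : iotaV A (HahnSeries.C (⟨c, hc⟩ : ↥A)) = algebraMap Kbar (LaurentSeries Kbar) c := by
    rw [algebraMap_laurentSeries_eq_single]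
    exact coeffMap_single A.subtype 0 _
  have e : (⟨algebraMap Kbar (LaurentSeries Kbar) c, h⟩ : gaussRingV A)
      = ⟨iotaV A (HahnSeries.C (⟨c, hc⟩ : ↥A)), iotaV_mem_gaussRingV A _⟩ :=
    Subtype.ext h3.symm
  rw [e, gaussRedV_iotaV, redV]
  exact coeffMap_single (resV A) 0 _

/-! ### `(j″ - j)^{q-1} / q` at `V₁₁` -/

include hB hq in
/-- `(j″ - j)^{q-1} / q = c' · θ₁₁(j)^{q-1}`. -/
theorem t11_pow_div :
    t11 q M (jdF M 1 (one_dvd M)) ^ (q - 1) * (algebraMap Kbar (FN (M * q * q)) ((q : ℕ) : Kbar))⁻¹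
      = algebraMap Kbar (FN (M * q * q)) (cW q B) * th11 q M B (jdF M 1 (one_dvd M)) ^ (q - 1) := by
  rw [t11_eq q M B k hB hq, mul_pow, cW, map_mul, map_pow, map_inv₀]
  ring

include hB hq in
/-- The expansion at the middle cusp of `(j″ - j)^{q-1} / q` is in the Gauss ring, with
reduction `c₀ (θ j̄)^{q-1}`. -/
theorem gaussRedV_t11_pow_div (hA : (q : Kbar) ∈ A.nonunits)
    (h : cM q M B k hB hq (t11 q M (jdF M 1 (one_dvd M)) ^ (q - 1)
        * (algebraMap Kbar (FN (M * q * q)) ((q : ℕ) : Kbar))⁻¹) ∈ gaussRingV A) :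
    gaussRedV A ⟨_, h⟩
      = HahnSeries.C (resV A ⟨cW q B, cW_mem A q M B k hB hq⟩)
        * thetaL (jqModC (kV A)) ^ (q - 1) := by
  have hth := th11_mem_V11 A q M B k hB hq (jdF M 1 (one_dvd M)) jInt (coe_jdF_one M)
  have hth' : cM q M B k hB hq (th11 q M B (jdF M 1 (one_dvd M))) ∈ gaussRingV A := hth
  have hc : algebraMap Kbar (LaurentSeries Kbar) (cW q B) ∈ gaussRingV A := by
    have h3 : iotaV A (HahnSeries.C (⟨cW q B, cW_mem A q M B k hB hq⟩ : ↥A))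
        = algebraMap Kbar (LaurentSeries Kbar) (cW q B) := by
      rw [algebraMap_laurentSeries_eq_single]
      exact coeffMap_single A.subtype 0 _
    rw [← h3]
    exact iotaV_mem_gaussRingV A _
  have e : (⟨_, h⟩ : gaussRingV A)
      = ⟨algebraMap Kbar (LaurentSeries Kbar) (cW q B), hc⟩
        * ⟨cM q M B k hB hq (th11 q M B (jdF M 1 (one_dvd M))), hth'⟩ ^ (q - 1) := by
    apply Subtype.ext
    show cM q M B k hB hq (t11 q M (jdF M 1 (one_dvd M)) ^ (q - 1)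
        * (algebraMap Kbar (FN (M * q * q)) ((q : ℕ) : Kbar))⁻¹)
      = algebraMap Kbar (LaurentSeries Kbar) (cW q B)
        * cM q M B k hB hq (th11 q M B (jdF M 1 (one_dvd M))) ^ (q - 1)
    rw [t11_pow_div q M B k hB hq, map_mul, map_pow, AlgHom.commutes]
  rw [e, map_mul, map_pow, gaussRedV_const A _ (cW_mem A q M B k hB hq)]
  have h5 := red11_th11_j A q M B k hB hq hA hth
  rw [coe_red11, coeffMap_jInt] at h5
  rw [h5]


/-! ### The reduction of `HU` -/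

include hq in
/-- `HU = (Δ̄^{q-1})⁻¹` in characteristic `q`. -/
theorem HU_eq_inv_pow (hA : (q : Kbar) ∈ A.nonunits) :
    HU A q M = (deltaR (kV A) ^ (q - 1))⁻¹ := by
  haveI : Fact q.Prime := ⟨hq⟩
  haveI : CharP (kV A) q := Fermat.Agent.BAD.H82.charP_kV A hq hA
  have hD : deltaR (kV A) ≠ 0 := deltaR_ne_zero (kV A)
  rw [HU_eq, qExpand_deltaR_char (kV A) q]
  have hq1 : q = (q - 1) + 1 := (Nat.sub_add_cancel hq.one_le).symm
  conv_lhs => rw [hq1, pow_succ]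
  field_simp

/-! ### The core -/

include hq in
/-- **The `W₂` identity** for `u = 1 / j`, `E = E11 u^{2(q-1)}`,
`W = ((j″ u - 1) E)^{q-1} E² / q`. -/
theorem cuspW2_core (hA : (q : Kbar) ∈ A.nonunits) (u E j2 W : ↥(L0 A (M * q * q)))
    (hu : u = (j0 A (M * q * q))⁻¹) (hE : E = E11o A q M * u ^ (2 * (q - 1)))
    (hj2 : (j2 : FN (M * q * q)) = incBB q M (jdF M 1 (one_dvd M)))
    (hW : W = ((j2 * u - 1) * E) ^ (q - 1) * E ^ 2 * ((q : ℕ) : ↥(L0 A (M * q * q)))⁻¹) :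
    ∃ (hum : u ∈ V11o A q M B k hB hq) (hEm : E ∈ V11o A q M B k hB hq)
      (hWm : W ∈ V11o A q M B k hB hq) (c : kV A), c ≠ 0 ∧
      s11 A q M B k hB hq ⟨W, hWm⟩ ^ 12 * s11 A q M B k hB hq ⟨E, hEm⟩
        = HahnSeries.C c
          * (1 - HahnSeries.C (1728 : kV A) * s11 A q M B k hB hq ⟨u, hum⟩) ^ (6 * (q - 1))
          * s11 A q M B k hB hq ⟨E, hEm⟩ ^ (12 * (q + 1)) := by
  have hJ : jqModC (kV A) ≠ 0 := jqModC_ne_zero_kV A
  have hD : deltaR (kV A) ≠ 0 := deltaR_ne_zero (kV A)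
  -- `u`
  obtain ⟨hum0, hsu0⟩ := s11_inv A q M B k hB hq (j0 A (M * q * q)) (j0_mem11 A q M B k hB hq)
    (by rw [s11_j0]; exact hJ)
  rw [s11_j0] at hsu0
  have hum : u ∈ V11o A q M B k hB hq := by rw [hu]; exact hum0
  have hsu : s11 A q M B k hB hq ⟨u, hum⟩ = (jqModC (kV A))⁻¹ := by
    rw [← hsu0]
    congr 1
    exact Subtype.ext hu
  -- `E`
  have hEm : E ∈ V11o A q M B k hB hq := by
    rw [hE]
    exact mul_mem (E11o_mem11 A q M B k hB hq) (pow_mem hum _)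
  have hsE : s11 A q M B k hB hq ⟨E, hEm⟩
      = (deltaR (kV A) ^ (q - 1))⁻¹ * (deltaR (kV A) ^ (q - 1))⁻¹
        * (jqModC (kV A))⁻¹ ^ (2 * (q - 1)) := by
    have e : (⟨E, hEm⟩ : ↥(V11o A q M B k hB hq))
        = ⟨E11o A q M, E11o_mem11 A q M B k hB hq⟩ * ⟨u, hum⟩ ^ (2 * (q - 1)) :=
      Subtype.ext hE
    rw [e, map_mul, map_pow, s11_E11 A q M B k hB hq hA, hsu, HU_eq_inv_pow A q M hq hA]
  -- `f = (j″ - j)^{q-1} / q`
  set f : ↥(L0 A (M * q * q)) :=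
    (j2 - j0 A (M * q * q)) ^ (q - 1) * ((q : ℕ) : ↥(L0 A (M * q * q)))⁻¹ with hf
  have hfFN : (f : FN (M * q * q))
      = t11 q M (jdF M 1 (one_dvd M)) ^ (q - 1)
        * (algebraMap Kbar (FN (M * q * q)) ((q : ℕ) : Kbar))⁻¹ := by
    rw [hf, t11, incAA_jdF_one, ← hj2, map_natCast, jdF_one_eq_jF]
    rfl
  have hfc : cM q M B k hB hq (t11 q M (jdF M 1 (one_dvd M)) ^ (q - 1)
        * (algebraMap Kbar (FN (M * q * q)) ((q : ℕ) : Kbar))⁻¹) ∈ gaussRingV A := by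
    rw [t11_pow_div q M B k hB hq]
    have h1 : algebraMap Kbar (FN (M * q * q)) (cW q B)
        ∈ V11 A (M * q * q) q M B k (lvl q M) hB hq :=
      (const_mem11 A (M * q * q) q M B k (lvl q M) hB hq _).2 (cW_mem A q M B k hB hq)
    have h2 := th11_mem_V11 A q M B k hB hq (jdF M 1 (one_dvd M)) jInt (coe_jdF_one M)
    exact mul_mem h1 (pow_mem h2 _)
  have hfm : f ∈ V11o A q M B k hB hq := by
    rw [mem_V11o_iff, hfFN]
    exact hfc
  have hsf : s11 A q M B k hB hq ⟨f, hfm⟩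
      = HahnSeries.C (resV A ⟨cW q B, cW_mem A q M B k hB hq⟩)
        * thetaL (jqModC (kV A)) ^ (q - 1) := by
    rw [s11_mk, ← gaussRedV_t11_pow_div A q M B k hB hq hA hfc]
    congr 1
    exact Subtype.ext (congrArg (cM q M B k hB hq) hfFN)
  -- `W`
  have hj0 : j0 A (M * q * q) ≠ 0 := j0_ne_zero A (M * q * q)
  have hWf : W = f * u ^ (q - 1) * E ^ (q - 1 + 2) := by
    have h1 : j2 * u - 1 = (j2 - j0 A (M * q * q)) * u := by
      rw [hu, sub_mul, mul_inv_cancel₀ hj0]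
    rw [hW, h1, hf, mul_pow, mul_pow, pow_add]
    ring
  have hWm : W ∈ V11o A q M B k hB hq := by
    rw [hWf]
    exact mul_mem (mul_mem hfm (pow_mem hum _)) (pow_mem hEm _)
  have hsW : s11 A q M B k hB hq ⟨W, hWm⟩
      = HahnSeries.C (resV A ⟨cW q B, cW_mem A q M B k hB hq⟩)
        * thetaL (jqModC (kV A)) ^ (q - 1) * (jqModC (kV A))⁻¹ ^ (q - 1)
        * s11 A q M B k hB hq ⟨E, hEm⟩ ^ (q - 1 + 2) := by
    have e : (⟨W, hWm⟩ : ↥(V11o A q M B k hB hq))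
        = ⟨f, hfm⟩ * ⟨u, hum⟩ ^ (q - 1) * ⟨E, hEm⟩ ^ (q - 1 + 2) := Subtype.ext hWf
    rw [e, map_mul, map_mul, map_pow, map_pow, hsf, hsu]
  refine ⟨hum, hEm, hWm, resV A ⟨cW q B, cW_mem A q M B k hB hq⟩ ^ 12,
    pow_ne_zero _ (resV_cW_ne_zero A q M B k hB hq), ?_⟩
  have hΘ : thetaL (jqModC (kV A)) ^ 6
      = jqModC (kV A) ^ 4 * (jqModC (kV A) - 1728) ^ 3 * deltaR (kV A) := by
    rw [deltaR_eq_DL]
    exact thetaL_jq_pow_six (kV A)
  have key := cuspW2_alg (q - 1) hJ hD hΘ hsE hsW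
  have hq1 : q + 1 = q - 1 + 2 := by
    have := hq.one_le
    omega
  rw [hsu, map_pow, hq1, map_ofNat]
  exact key


/-! ### The target of helper82 -/

include hq in
/-- **(CUSP-W2)**: `s₁₁(W₂)¹² · s₁₁(E11∞) = c (1 - 1728 ū)^{6(q-1)} · s₁₁(E11∞)^{12(q+1)}`,
`c ≠ 0`. -/
theorem stmt_CuspW2 (hA : A.LiesOverPrime q) : H82.Stmt_CuspW2 A q M B k hB hq := by
  haveI : NeZero (q * q) := ⟨mul_ne_zero (NeZero.ne q) (NeZero.ne q)⟩
  refine cuspW2_core A q M B k hB hq hA (H82.uoo A q M) (H82.E11oo A q M) (H82.j2o A q M)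
    (H82.W2oo A q M) rfl rfl ?_ rfl
  exact (incBB_jdF_one q M ⟨M, by ring⟩).symm

end CuspW2

end Fermat.Agent.S36.NU.H73
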