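import Fermat.Agent.S36.NU.H99_LocEqAbs

/-!
# S36 / NU-B, leaf CUSPS (helper82), abstract part: local equations at the points with `u ∈ 𝔪`

`C` a chart (`H16.Chart`), `u ∈ B` (the coordinate `1 / j` of the chart at infinity), `𝔪` a prime
ideal of `B` with `u ∈ 𝔪` and `Icomp i ≤ 𝔪`.

* `not_mem_of_sub_aeval` : `E ≡ P(u)` modulo the maximal ideal of `V i`, `P ∈ R[X]` with
  `res (P(0)) ≠ 0`  ⟹  `E ∉ 𝔪`;
* `not_mem_of_rd_eq_aeval` : the same with `rd i E = P̄ (rd i u)`, `P̄ ∈ k[X]`, `P̄(0) ≠ 0`;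
* `cusp_locEq_one` : a cusp on a component of multiplicity one (`x = q`, `W' = E`);
* `cusp_locEq_mid` : a cusp on a component of multiplicity `e` (`q W₂ = x ^ e E ^ 2`, with
  `W₂ ^ n E ^ a ≡ P₂(u) E ^ m`).
-/

set_option autoImplicit false

noncomputable section

open Polynomial

namespace Fermat.Agent.S36.NU.H82

open Fermat.Agent.S36.NU.H16 Fermat.Agent.S36.NU.H99

variable {R F k ι : Type*} {κ : ι → Type*} [CommRing R] [Field F] [Algebra R F]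
  [Field k] [∀ i, Field (κ i)] [∀ i, Algebra k (κ i)]

section Abs

variable (C : Chart R F k ι κ)

/-- `P(u) ≡ P(0)` modulo `u`. -/
theorem aeval_sub_coeff_zero_mem (𝔪 : Ideal C.B) (u : C.B) (hu : u ∈ 𝔪) (P : R[X]) :
    aeval u P - algebraMap R C.B (P.coeff 0) ∈ 𝔪 := by
  have h := Polynomial.divX_mul_X_add P
  have e : aeval u P = aeval u P.divX * u + algebraMap R C.B (P.coeff 0) := by
    conv_lhs => rw [← h]
    rw [map_add, map_mul, aeval_X, aeval_C]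
  rw [e, add_sub_cancel_right]
  exact 𝔪.mul_mem_left _ hu

/-- The residue of a constant. -/
theorem rdB_algebraMap (i : ι) (r : R) :
    C.rdB i (algebraMap R C.B r) = algebraMap k (κ i) (C.res r) := by
  rw [← C.rd_coe]
  exact C.rd_algebraMap i r

/-- Constants with nonzero residue are not in `𝔪`. -/
theorem algebraMap_not_mem (𝔪 : Ideal C.B) [h𝔪 : 𝔪.IsPrime] (i : ι) (hi : C.Icomp i ≤ 𝔪)
    (r : R) (hr : C.res r ≠ 0) : algebraMap R C.B r ∉ 𝔪 := by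
  intro hmem
  apply hr
  have h0 : C.rdB i (algebraMap R C.B r) ≠ 0 → False := by
    intro hne
    obtain ⟨r', hr'⟩ := C.res_surj (C.res r)⁻¹
    have h1 : algebraMap R C.B (r * r' - 1) ∈ C.Icomp i := by
      rw [C.mem_Icomp, rdB_algebraMap, map_sub, map_mul, map_one, hr',
        mul_inv_cancel₀ (fun h => hne (by rw [rdB_algebraMap, h, map_zero])), sub_self, map_zero]
    have h2 : algebraMap R C.B (r * r' - 1) ∈ 𝔪 := hi h1
    have h3 : algebraMap R C.B r * algebraMap R C.B r' ∈ 𝔪 := 𝔪.mul_mem_right _ hmem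
    have h4 : (1 : C.B) ∈ 𝔪 := by
      have : (1 : C.B) = algebraMap R C.B r * algebraMap R C.B r'
          - algebraMap R C.B (r * r' - 1) := by
        rw [map_sub, map_mul, map_one]; ring
      rw [this]
      exact 𝔪.sub_mem h3 h2
    exact h𝔪.ne_top ((Ideal.eq_top_iff_one 𝔪).2 h4)
  by_contra hne
  exact h0 (by rw [rdB_algebraMap]; exact fun h => hne ((algebraMap k (κ i)).injective
    (by rw [h, map_zero])))

/-- **A unit at the cusp**, congruence form: `E ≡ P(u)` modulo the maximal ideal of `V i`. -/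
theorem not_mem_of_sub_aeval (𝔪 : Ideal C.B) [h𝔪 : 𝔪.IsPrime] (u : C.B) (hu : u ∈ 𝔪) (i : ι)
    (hi : C.Icomp i ≤ 𝔪) (E : C.B) (P : R[X]) (h0 : C.res (P.coeff 0) ≠ 0)
    (hE : (E : F) - aeval ((u : C.B) : F) P ∈ (C.V i).nonunits) : E ∉ 𝔪 := by
  intro hmem
  have h1 : E - aeval u P ∈ C.Icomp i := by
    rw [mem_Icomp_iff_nonunits]
    have : ((E - aeval u P : C.B) : F) = (E : F) - aeval ((u : C.B) : F) P := by
      rw [Subalgebra.coe_sub, aeval_subalgebra_coe]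
    rw [this]
    exact hE
  have h2 : aeval u P ∈ 𝔪 := by
    have : aeval u P = E - (E - aeval u P) := by ring
    rw [this]
    exact 𝔪.sub_mem hmem (hi h1)
  have h3 := aeval_sub_coeff_zero_mem C 𝔪 u hu P
  have h4 : algebraMap R C.B (P.coeff 0) ∈ 𝔪 := by
    have : algebraMap R C.B (P.coeff 0) = aeval u P - (aeval u P - algebraMap R C.B (P.coeff 0)) := by
      ring
    rw [this]
    exact 𝔪.sub_mem h2 h3
  exact algebraMap_not_mem C 𝔪 i hi _ h0 h4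

/-- The reduction of `P(u)`. -/
theorem rdB_aeval (i : ι) (u : C.B) (P : R[X]) :
    C.rdB i (aeval u P) = aeval (C.rdB i u) (P.map C.res) := by
  rw [aeval_def, aeval_def, Polynomial.hom_eval₂, Polynomial.eval₂_map]
  congr 1
  ext r
  exact rdB_algebraMap C i r

/-- **A unit at the cusp**, residue form: `rd i E = P̄ (rd i u)`, `P̄(0) ≠ 0`. -/
theorem not_mem_of_rd_eq_aeval (𝔪 : Ideal C.B) [h𝔪 : 𝔪.IsPrime] (u : C.B) (hu : u ∈ 𝔪) (i : ι)
    (hi : C.Icomp i ≤ 𝔪) (E : C.B) (Pb : k[X]) (h0 : Pb.coeff 0 ≠ 0)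
    (hE : C.rdB i E = aeval (C.rdB i u) Pb) : E ∉ 𝔪 := by
  obtain ⟨P, hP⟩ := Polynomial.map_surjective C.res C.res_surj Pb
  refine not_mem_of_sub_aeval C 𝔪 u hu i hi E P ?_ ?_
  · have : C.res (P.coeff 0) = Pb.coeff 0 := by rw [← hP, Polynomial.coeff_map]
    rw [this]
    exact h0
  · have h1 : E - aeval u P ∈ C.Icomp i := by
      rw [C.mem_Icomp, map_sub, rdB_aeval, hP, hE, sub_self]
    rw [mem_Icomp_iff_nonunits] at h1
    have : ((E - aeval u P : C.B) : F) = (E : F) - aeval ((u : C.B) : F) P := by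
      rw [Subalgebra.coe_sub, aeval_subalgebra_coe]
    rw [← this]
    exact h1

/-- **LocEq + DISJ at a cusp of a component of multiplicity one.** -/
theorem cusp_locEq_one [Fintype ι] [DecidableEq ι] (q : R) (e : ι → ℕ) (hVE : ValE C q e)
    (hq0 : algebraMap R F q ≠ 0)
    (hqV : ∀ i, algebraMap R F q ∈ (C.V i).nonunits)
    (hVALQ : ∀ β : C.B, (∀ i, ∃ f' ∈ C.V i, (β : F) = algebraMap R F q * f') →
      ∃ β' : C.B, β = algebraMap R C.B q * β')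
    (𝔪 : Ideal C.B) [h𝔪 : 𝔪.IsPrime] (u : C.B) (hu : u ∈ 𝔪) (i : ι) (hi : C.Icomp i ≤ 𝔪)
    (he : e i = 1) (E : C.B) (P : R[X]) (h0 : C.res (P.coeff 0) ≠ 0)
    (hE : (E : F) - aeval ((u : C.B) : F) P ∈ (C.V i).nonunits)
    (hEv : ∀ i', i' ≠ i → ∃ f' ∈ C.V i', (E : F) = algebraMap R F q * f') :
    Nonempty (LocEq C q 𝔪) ∧ ∀ i', C.Icomp i' ≤ 𝔪 → i' = i :=
  locEq_ord_one C q e hVE hq0 hqV hVALQ 𝔪 i hi he E
    (not_mem_of_sub_aeval C 𝔪 u hu i hi E P h0 hE) hEv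

/-- **LocEq + DISJ at a cusp of a component of multiplicity `e i`**: `q W₂ = x ^ (e i) W'`,
`W' ≡ P(u)`, `W₂ ^ n W' ^ a ≡ P₂(u) W' ^ m` modulo the maximal ideal of `V i`. -/
theorem cusp_locEq_mid [Fintype ι] [DecidableEq ι] (q : R) (e : ι → ℕ) (hVE : ValE C q e)
    (hq0 : algebraMap R F q ≠ 0)
    (hqV : ∀ i, algebraMap R F q ∈ (C.V i).nonunits)
    (hVALQ : ∀ β : C.B, (∀ i, ∃ f' ∈ C.V i, (β : F) = algebraMap R F q * f') →
      ∃ β' : C.B, β = algebraMap R C.B q * β')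
    (𝔪 : Ideal C.B) [h𝔪 : 𝔪.IsPrime] (u : C.B) (hu : u ∈ 𝔪) (i : ι) (hi : C.Icomp i ≤ 𝔪)
    (he : 0 < e i) (x W₂ W' : C.B)
    (heq : algebraMap R C.B q * W₂ = x ^ e i * W')
    (P : R[X]) (h0 : C.res (P.coeff 0) ≠ 0)
    (hW' : (W' : F) - aeval ((u : C.B) : F) P ∈ (C.V i).nonunits)
    (P₂ : R[X]) (h02 : C.res (P₂.coeff 0) ≠ 0) (n a m : ℕ) (hn : 0 < n)
    (hW₂ : (W₂ : F) ^ n * (W' : F) ^ a - aeval ((u : C.B) : F) P₂ * (W' : F) ^ m
      ∈ (C.V i).nonunits)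
    (hW'v : ∀ i', i' ≠ i → ∃ f' ∈ C.V i', (W' : F) = algebraMap R F q * f') :
    Nonempty (LocEq C q 𝔪) ∧ ∀ i', C.Icomp i' ≤ 𝔪 → i' = i := by
  have hW'm : W' ∉ 𝔪 := not_mem_of_sub_aeval C 𝔪 u hu i hi W' P h0 hW'
  have hG : aeval u P₂ ∉ 𝔪 := by
    refine not_mem_of_sub_aeval C 𝔪 u hu i hi (aeval u P₂) P₂ h02 ?_
    rw [aeval_subalgebra_coe, sub_self, ValuationSubring.mem_nonunits_iff, map_zero]
    exact zero_lt_one
  have hW₂m : W₂ ∉ 𝔪 := by
    intro hmem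
    have h1 : W₂ ^ n * W' ^ a - aeval u P₂ * W' ^ m ∈ C.Icomp i := by
      rw [mem_Icomp_iff_nonunits]
      have : ((W₂ ^ n * W' ^ a - aeval u P₂ * W' ^ m : C.B) : F)
          = (W₂ : F) ^ n * (W' : F) ^ a - aeval ((u : C.B) : F) P₂ * (W' : F) ^ m := by
        rw [Subalgebra.coe_sub, Subalgebra.coe_mul, Subalgebra.coe_mul, Subalgebra.coe_pow,
          Subalgebra.coe_pow, Subalgebra.coe_pow, aeval_subalgebra_coe]
      rw [this]
      exact hW₂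
    have h2 : W₂ ^ n * W' ^ a ∈ 𝔪 :=
      𝔪.mul_mem_right _ (Ideal.pow_mem_of_mem 𝔪 hmem n hn)
    have h3 : aeval u P₂ * W' ^ m ∈ 𝔪 := by
      have : aeval u P₂ * W' ^ m = W₂ ^ n * W' ^ a - (W₂ ^ n * W' ^ a - aeval u P₂ * W' ^ m) := by
        ring
      rw [this]
      exact 𝔪.sub_mem h2 (hi h1)
    rcases h𝔪.mem_or_mem h3 with h4 | h4
    · exact hG h4
    · exact hW'm (h𝔪.mem_of_pow_mem m h4)
  exact locEq_ord C q e hVE hq0 hqV hVALQ 𝔪 i hi he x W₂ W' hW₂m hW'm heq hW'v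

end Abs

end Fermat.Agent.S36.NU.H82
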