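import Fermat.Agent.S36.NU.H86_CuspRed

/-!
# S36 / NU-B, leaf CUSPS, reduction half, part 3 (helper86): `1/j` and `x₁₁`

* `j0_inv_mem20/11/02`, `s20_j0_inv`, `s11_j0_inv`, `s02_j0_inv` : `u = 1/j` is in the three
  valuation rings, with reductions `1/j~`, `1/j~`, `1/j~(t^{q²})` (so `j` is a unit at the three
  valuations);
* `j2_mem11`, `s11_j2` : `j(q²τ)` at the middle valuation reduces to `j~`;
* `x11_mem_nonunits` : `x₁₁ = (j(q²τ)/j - 1) · E11 u^{2(q-1)}` is a non-unit of `V₁₁`.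
-/

set_option autoImplicit false
set_option synthInstance.maxHeartbeats 400000
set_option maxHeartbeats 1000000
set_option linter.unusedSectionVars false
set_option linter.style.haveILetI false

noncomputable section

open ModularCurve Polynomial
open Fermat.Agent.S24 Fermat.Agent.BAD.H88 Fermat.Agent.BAD.H30 Fermat.Agent.BAD.H21
open Fermat.Agent.S28 Fermat.Agent.S28.H73 Fermat.Agent.RED.H73 Fermat.Agent.RED.H17
open Fermat.Agent.S36.NU.H88 Fermat.Agent.S36.NU.H23 Fermat.Agent.S36.NU.H82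
open Fermat.Agent.S36.NU.H99

namespace Fermat.Agent.S36.NU.H86

section Red2

variable (A : ValuationSubring Kbar)
variable (q M : ℕ) (B k : ℤ) (hB : B * M + k * q = 1) (hq : q.Prime) [NeZero M] [NeZero q]
  [NeZero (M * q)] [NeZero (M * q * q)]

/-! ### `u = 1/j` -/

theorem j0_inv_mem20 : (j0 A (M * q * q))⁻¹ ∈ V20o A q M :=
  (inv_mem_of_res_ne_zero (V20o A q M) (s20 A q M)
    (s20_eq_zero_of_not_isUnit A q M) (j0 A (M * q * q)) (j0_mem20 A q M)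
    (by rw [s20_j0]; exact jqModC_ne_zero' (kV A))).1

theorem s20_j0_inv :
    s20 A q M ⟨(j0 A (M * q * q))⁻¹, j0_inv_mem20 A q M⟩ = (jqModC (kV A))⁻¹ := by
  obtain ⟨h, hs⟩ := inv_mem_of_res_ne_zero (V20o A q M) (s20 A q M)
    (s20_eq_zero_of_not_isUnit A q M) (j0 A (M * q * q)) (j0_mem20 A q M)
    (by rw [s20_j0]; exact jqModC_ne_zero' (kV A))
  rw [s20_j0] at hs
  exact hs

include hq in
theorem j0_inv_mem11 : (j0 A (M * q * q))⁻¹ ∈ V11o A q M B k hB hq :=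
  (inv_mem_of_res_ne_zero (V11o A q M B k hB hq) (s11 A q M B k hB hq)
    (s11_eq_zero_of_not_isUnit A q M B k hB hq) (j0 A (M * q * q)) (j0_mem11 A q M B k hB hq)
    (by rw [s11_j0]; exact jqModC_ne_zero' (kV A))).1

include hq in
theorem s11_j0_inv :
    s11 A q M B k hB hq ⟨(j0 A (M * q * q))⁻¹, j0_inv_mem11 A q M B k hB hq⟩
      = (jqModC (kV A))⁻¹ := by
  obtain ⟨h, hs⟩ := inv_mem_of_res_ne_zero (V11o A q M B k hB hq) (s11 A q M B k hB hq)
    (s11_eq_zero_of_not_isUnit A q M B k hB hq) (j0 A (M * q * q)) (j0_mem11 A q M B k hB hq)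
    (by rw [s11_j0]; exact jqModC_ne_zero' (kV A))
  rw [s11_j0] at hs
  exact hs

theorem qExpand_sq_jqModC_ne_zero :
    haveI : NeZero (q * q) := ⟨Nat.mul_ne_zero (NeZero.ne q) (NeZero.ne q)⟩
    qExpand (kV A) (q * q) (jqModC (kV A)) ≠ 0 := by
  haveI : NeZero (q * q) := ⟨Nat.mul_ne_zero (NeZero.ne q) (NeZero.ne q)⟩
  intro h
  exact jqModC_ne_zero' (kV A) (qExpand_injective (q * q) (h.trans (map_zero _).symm))

theorem j0_inv_mem02 : (j0 A (M * q * q))⁻¹ ∈ V02o A q M B k hB :=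
  (inv_mem_of_res_ne_zero (V02o A q M B k hB) (s02 A q M B k hB)
    (s02_eq_zero_of_not_isUnit A q M B k hB) (j0 A (M * q * q)) (j0_mem02 A q M B k hB)
    (by rw [s02_j0]; exact qExpand_sq_jqModC_ne_zero A q)).1

theorem s02_j0_inv :
    haveI : NeZero (q * q) := ⟨Nat.mul_ne_zero (NeZero.ne q) (NeZero.ne q)⟩
    s02 A q M B k hB ⟨(j0 A (M * q * q))⁻¹, j0_inv_mem02 A q M B k hB⟩
      = (qExpand (kV A) (q * q) (jqModC (kV A)))⁻¹ := by
  haveI : NeZero (q * q) := ⟨Nat.mul_ne_zero (NeZero.ne q) (NeZero.ne q)⟩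
  obtain ⟨h, hs⟩ := inv_mem_of_res_ne_zero (V02o A q M B k hB) (s02 A q M B k hB)
    (s02_eq_zero_of_not_isUnit A q M B k hB) (j0 A (M * q * q)) (j0_mem02 A q M B k hB)
    (by rw [s02_j0]; exact qExpand_sq_jqModC_ne_zero A q)
  rw [s02_j0] at hs
  exact hs

/-! ### `j(q²τ)` at the middle valuation -/

include hq in
theorem cM_j2 (h2 : q * q ∣ M * q * q) :
    haveI : NeZero (q * q) := ⟨Nat.mul_ne_zero (NeZero.ne q) (NeZero.ne q)⟩
    cM q M B k hB hq (jdF (M * q * q) (q * q) h2) = twist (zetaK q ^ B) (jqModC Kbar) := by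
  haveI : NeZero (q * q) := ⟨Nat.mul_ne_zero (NeZero.ne q) (NeZero.ne q)⟩
  haveI : NeZero (1 : ℕ) := ⟨one_ne_zero⟩
  rw [cM_jdF3 q M B k hB hq (q * q) 1 M (one_mul _).symm (one_mul M).symm h2, qExpand_one_apply,
    jBar_eq_jqModC]

include hq in
theorem j2_mem11 (j2 : ↥(L0 A (M * q * q))) (h2 : q * q ∣ M * q * q)
    (hj2 : haveI : NeZero (q * q) := ⟨Nat.mul_ne_zero (NeZero.ne q) (NeZero.ne q)⟩
      (j2 : FN (M * q * q)) = jdF (M * q * q) (q * q) h2) :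
    j2 ∈ V11o A q M B k hB hq := by
  rw [mem_V11o_iff, hj2, cM_j2 q M B k hB hq h2]
  exact (twist_z_mem_iff A q B hq _).2 (jqModC_mem_gaussRingV A)

include hq in
theorem s11_j2 (hA : A.LiesOverPrime q) (j2 : ↥(L0 A (M * q * q))) (h2 : q * q ∣ M * q * q)
    (hj2 : haveI : NeZero (q * q) := ⟨Nat.mul_ne_zero (NeZero.ne q) (NeZero.ne q)⟩
      (j2 : FN (M * q * q)) = jdF (M * q * q) (q * q) h2) :
    s11 A q M B k hB hq ⟨j2, j2_mem11 A q M B k hB hq j2 h2 hj2⟩ = jqModC (kV A) := by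
  rw [s11_mk]
  have hm : twist (((zUnit A q B hq : (↥A)ˣ) : ↥A) : Kbar)
      ((⟨jqModC Kbar, jqModC_mem_gaussRingV A⟩ : ↥(gaussRingV A)) : LaurentSeries Kbar)
      ∈ gaussRingV A := (twist_z_mem_iff A q B hq _).2 (jqModC_mem_gaussRingV A)
  have e : (⟨cM q M B k hB hq (j2 : FN (M * q * q)),
      j2_mem11 A q M B k hB hq j2 h2 hj2⟩ : ↥(gaussRingV A))
      = ⟨twist (((zUnit A q B hq : (↥A)ˣ) : ↥A) : Kbar)
          ((⟨jqModC Kbar, jqModC_mem_gaussRingV A⟩ : ↥(gaussRingV A)) : LaurentSeries Kbar),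
          hm⟩ := by
    apply Subtype.ext
    show cM q M B k hB hq (j2 : FN (M * q * q)) = twist (zetaK q ^ B) (jqModC Kbar)
    rw [hj2, cM_j2 q M B k hB hq h2]
  rw [e, gaussRedV_twist_of_res_eq_one A (zUnit A q B hq) (resV_zUnit A q B hq hA) _ hm]
  exact gaussRedV_jqModC A _

include hq in
/-- **`x₁₁` is a non-unit of `V₁₁`.** -/
theorem x11_mem_nonunits (hA : A.LiesOverPrime q) (j2 : ↥(L0 A (M * q * q)))
    (h2 : q * q ∣ M * q * q)
    (hj2 : haveI : NeZero (q * q) := ⟨Nat.mul_ne_zero (NeZero.ne q) (NeZero.ne q)⟩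
      (j2 : FN (M * q * q)) = jdF (M * q * q) (q * q) h2) :
    (j2 * (j0 A (M * q * q))⁻¹ - 1) * (E11o A q M * (j0 A (M * q * q))⁻¹ ^ (2 * (q - 1)))
      ∈ (V11o A q M B k hB hq).nonunits := by
  have hu := j0_inv_mem11 A q M B k hB hq
  have hj := j2_mem11 A q M B k hB hq j2 h2 hj2
  have hE : E11o A q M * (j0 A (M * q * q))⁻¹ ^ (2 * (q - 1)) ∈ V11o A q M B k hB hq :=
    mul_mem (E11o_mem11 A q M B k hB hq) (pow_mem hu _)
  have hy : j2 * (j0 A (M * q * q))⁻¹ - 1 ∈ V11o A q M B k hB hq :=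
    sub_mem (mul_mem hj hu) (one_mem _)
  have hmem : (j2 * (j0 A (M * q * q))⁻¹ - 1)
      * (E11o A q M * (j0 A (M * q * q))⁻¹ ^ (2 * (q - 1))) ∈ V11o A q M B k hB hq :=
    mul_mem hy hE
  refine mem_nonunits_of_map_eq_zero (V11o A q M B k hB hq) (s11 A q M B k hB hq) ⟨_, hmem⟩ ?_
  have e : (⟨(j2 * (j0 A (M * q * q))⁻¹ - 1)
      * (E11o A q M * (j0 A (M * q * q))⁻¹ ^ (2 * (q - 1))), hmem⟩ : ↥(V11o A q M B k hB hq))
      = (⟨j2, hj⟩ * ⟨(j0 A (M * q * q))⁻¹, hu⟩ - 1) * ⟨_, hE⟩ := Subtype.ext rfl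
  rw [e, map_mul, map_sub, map_mul, map_one, s11_j2 A q M B k hB hq hA j2 h2 hj2,
    s11_j0_inv A q M B k hB hq, mul_inv_cancel₀ (jqModC_ne_zero' (kV A)), sub_self, zero_mul]

end Red2

end Fermat.Agent.S36.NU.H86
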