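import Fermat.Agent.S36.NU.H82_CuspDefs
import Fermat.Agent.S36.NU.H86_CuspRed2

/-!
# S36 / NU-B, leaf CUSPS, reduction half (helper86): the targets of helper82

* `stmt_CuspRed20 : H82.Stmt_CuspRed20 A q M`,
  `stmt_CuspRed11 : H82.Stmt_CuspRed11 A q M B k hB hq`,
  `stmt_CuspRed02 : H82.Stmt_CuspRed02 A q M B k hB`   (for `q` prime, `A` over `q`);
* `uoo_mem20/11/02`, `s20_uoo`, `s11_uoo`, `s02_uoo` : `u = 1/j` at the three valuations;
* `uoo_inv_mem20/11/02` : `j = 1/u` at the three valuations;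
* `E20oo_mem20`, `E11oo_mem11`, `E02oo_mem02`;
* `x11oo_mem_nonunits` : `x11oo` is a non-unit of `V₁₁`.
-/

set_option autoImplicit false
set_option synthInstance.maxHeartbeats 400000
set_option maxHeartbeats 1000000
set_option linter.unusedSectionVars false
set_option linter.style.haveILetI false

noncomputable section

open ModularCurve Polynomial
open Fermat.Agent.S24 Fermat.Agent.BAD.H88
open Fermat.Agent.S28 Fermat.Agent.S28.H73 Fermat.Agent.RED.H73 Fermat.Agent.RED.H17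
open Fermat.Agent.S36.NU.H88 Fermat.Agent.S36.NU.H23 Fermat.Agent.S36.NU.H99
open Fermat.Agent.S36.NU.H82

namespace Fermat.Agent.S36.NU.H86

section Final

variable (A : ValuationSubring Kbar)
variable (q M : ℕ) (B k : ℤ) (hB : B * M + k * q = 1) (hq : q.Prime) [NeZero M] [NeZero q]
  [NeZero (M * q)] [NeZero (M * q * q)]

include hq in
/-- **(CUSP-RED 20).** -/
theorem stmt_CuspRed20 (hA : A.LiesOverPrime q) : Stmt_CuspRed20 A q M :=
  cuspRed20_core A q M hq hA

include hq in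
/-- **(CUSP-RED 11).** -/
theorem stmt_CuspRed11 (hA : A.LiesOverPrime q) : Stmt_CuspRed11 A q M B k hB hq :=
  cuspRed11_core A q M B k hB hq hA

include hq in
/-- **(CUSP-RED 02).** -/
theorem stmt_CuspRed02 (hA : A.LiesOverPrime q) : Stmt_CuspRed02 A q M B k hB :=
  cuspRed02_core A q M B k hB hq hA

/-! ### `u = 1/j` and `j` at the three valuations -/

theorem uoo_mem20 : uoo A q M ∈ V20o A q M := j0_inv_mem20 A q M

theorem s20_uoo : s20 A q M ⟨uoo A q M, uoo_mem20 A q M⟩ = (jqModC (kV A))⁻¹ :=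
  s20_j0_inv A q M

include hq in
theorem uoo_mem11 : uoo A q M ∈ V11o A q M B k hB hq := j0_inv_mem11 A q M B k hB hq

include hq in
theorem s11_uoo :
    s11 A q M B k hB hq ⟨uoo A q M, uoo_mem11 A q M B k hB hq⟩ = (jqModC (kV A))⁻¹ :=
  s11_j0_inv A q M B k hB hq

theorem uoo_mem02 : uoo A q M ∈ V02o A q M B k hB := j0_inv_mem02 A q M B k hB

theorem s02_uoo :
    haveI : NeZero (q * q) := ⟨Nat.mul_ne_zero (NeZero.ne q) (NeZero.ne q)⟩
    s02 A q M B k hB ⟨uoo A q M, uoo_mem02 A q M B k hB⟩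
      = (qExpand (kV A) (q * q) (jqModC (kV A)))⁻¹ :=
  s02_j0_inv A q M B k hB

theorem uoo_inv_eq : (uoo A q M)⁻¹ = j0 A (M * q * q) := inv_inv _

theorem uoo_ne_zero : uoo A q M ≠ 0 := inv_ne_zero (j0_ne_zero A (M * q * q))

theorem uoo_inv_mem20 : (uoo A q M)⁻¹ ∈ V20o A q M := by
  rw [uoo_inv_eq]
  exact j0_mem20 A q M

include hq in
theorem uoo_inv_mem11 : (uoo A q M)⁻¹ ∈ V11o A q M B k hB hq := by
  rw [uoo_inv_eq]
  exact j0_mem11 A q M B k hB hq

theorem uoo_inv_mem02 : (uoo A q M)⁻¹ ∈ V02o A q M B k hB := by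
  rw [uoo_inv_eq]
  exact j0_mem02 A q M B k hB

/-! ### Memberships of the witnesses -/

theorem E20oo_mem20 : E20oo A q M ∈ V20o A q M :=
  mul_mem (E20o_mem20 A q M) (pow_mem (uoo_mem20 A q M) _)

include hq in
theorem E11oo_mem11 : E11oo A q M ∈ V11o A q M B k hB hq :=
  mul_mem (E11o_mem11 A q M B k hB hq) (pow_mem (uoo_mem11 A q M B k hB hq) _)

include hq in
theorem E02oo_mem02 : E02oo A q M ∈ V02o A q M B k hB :=
  mul_mem (pow_mem (E02o_mem02 A q M B k hB hq) _) (pow_mem (uoo_mem02 A q M B k hB) _)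

include hq in
/-- **`x11oo` is a non-unit of `V₁₁`.** -/
theorem x11oo_mem_nonunits (hA : A.LiesOverPrime q) :
    x11oo A q M ∈ (V11o A q M B k hB hq).nonunits :=
  x11_mem_nonunits A q M B k hB hq hA (j2o A q M) ⟨M, by ring⟩ rfl

end Final

end Fermat.Agent.S36.NU.H86
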