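import Fermat.Agent.S36.NU.H99_OrdMod2
import Fermat.Agent.S36.NU.H99_OrdAbs

/-!
# S36 / NU-B, (M4) LOCEQ at the ordinary points, modular part 3 (helper99)

`C` a chart over `F = L0 A (M q²)` whose three valuation rings are `V20o`, `V11o`, `V02o`
(`ChartL0`: the chart criterion for the integral closure of `K^ur[j]`, the ramification indices
`(1, q - 1, 1)`).

* `ChartL0.mem_B` : membership in `B` from horizontal integrality and the three valuations;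
* `ord20_mod`, `ord02_mod` : **local equation datum and only one branch** at the closed points
  `𝔪 ⊇ Icomp₂₀` with `E20 = eps2 ∉ 𝔪`, resp. `𝔪 ⊇ Icomp₀₂` with `E02 = q¹²/eps1 ∉ 𝔪`;
* `ord11_of_cert` : the same at `𝔪 ⊇ Icomp₁₁` from a coordinate `f` with integral expansion and a
  certificate `red₁₁ ((E11 t₁₁^(q-1)/q)^m A) = red₁₁ Y`, `Y ∉ 𝔪`.
-/

set_option autoImplicit false
set_option synthInstance.maxHeartbeats 400000
set_option maxHeartbeats 1000000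
set_option linter.unusedSectionVars false
set_option linter.style.haveILetI false

noncomputable section

open ModularCurve AlgebraicCurve IntermediateField
open Fermat.Agent.S24 Fermat.Agent.BAD.H88 Fermat.Agent.BAD.H30 Fermat.Agent.BAD.H21
open Fermat.Agent.S28 Fermat.Agent.S28.H73 Fermat.Agent.RED.H73 Fermat.Agent.RED.H17
open Fermat.Agent.S36.NU.H88 Fermat.Agent.S36.NU.H23
open Fermat.Agent.S36.NU.H41 Fermat.Agent.RED

namespace Fermat.Agent.S36.NU.H99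

open Fermat.Agent.S36.NU.H16 (Chart LocEq valq_of_crit)

section ChartMod

variable (A : ValuationSubring Kbar)
variable (q M : ℕ) (B k : ℤ) (hB : B * M + k * q = 1) (hq : q.Prime) [NeZero M] [NeZero q]
  [NeZero (M * q)] [NeZero (M * q * q)]

variable {R k' ι : Type*} {κ : ι → Type*} [CommRing R] [Algebra R ↥(L0 A (M * q * q))]
  [Field k'] [∀ i, Field (κ i)] [∀ i, Algebra k' (κ i)]

/-- **The hypotheses on a chart of the inertia-fixed functions of level `M q²`**: its valuation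
rings are `V20o`, `V11o`, `V02o` with ramification indices `(1, q - 1, 1)`, and `B` is cut out of
the integral closure of `K^ur[j]` by the three valuations. -/
structure ChartL0 (C : Chart R ↥(L0 A (M * q * q)) k' ι κ) (qR : R) (e : ι → ℕ)
    (i₂₀ i₁₁ i₀₂ : ι) : Prop where
  hqR : algebraMap R ↥(L0 A (M * q * q)) qR = ((q : ℕ) : ↥(L0 A (M * q * q)))
  hqV : ∀ i, algebraMap R ↥(L0 A (M * q * q)) qR ∈ (C.V i).nonunits
  crit : ∀ f : ↥(L0 A (M * q * q)),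
    IsIntegral ↥(Algebra.adjoin ↥(Kur A) ({j0 A (M * q * q)} : Set ↥(L0 A (M * q * q)))) f →
      (∀ i, f ∈ C.V i) → f ∈ C.B
  hint : ∀ x ∈ C.B,
    IsIntegral ↥(Algebra.adjoin ↥(Kur A) ({j0 A (M * q * q)} : Set ↥(L0 A (M * q * q)))) x
  hE : ValE C qR e
  hcases : ∀ i, i = i₂₀ ∨ i = i₁₁ ∨ i = i₀₂
  he₂₀ : e i₂₀ = 1
  he₁₁ : e i₁₁ = q - 1
  he₀₂ : e i₀₂ = 1
  hV20 : C.V i₂₀ = V20o A q M
  hV11 : C.V i₁₁ = V11o A q M B k hB hq
  hV02 : C.V i₀₂ = V02o A q M B k hB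

namespace ChartL0

variable {A q M B k hB hq}
variable {C : Chart R ↥(L0 A (M * q * q)) k' ι κ} {qR : R} {e : ι → ℕ} {i₂₀ i₁₁ i₀₂ : ι}
  (S : ChartL0 A q M B k hB hq C qR e i₂₀ i₁₁ i₀₂)

include S

theorem mem_V {x : ↥(L0 A (M * q * q))} (h20 : x ∈ V20o A q M)
    (h11 : x ∈ V11o A q M B k hB hq) (h02 : x ∈ V02o A q M B k hB) (i : ι) : x ∈ C.V i := by
  rcases S.hcases i with rfl | rfl | rfl
  · rw [S.hV20]; exact h20
  · rw [S.hV11]; exact h11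
  · rw [S.hV02]; exact h02

/-- Membership in `B`. -/
theorem mem_B {x : ↥(L0 A (M * q * q))}
    (hx : IsIntegral ↥(Algebra.adjoin ↥(Kur A)
      ({j0 A (M * q * q)} : Set ↥(L0 A (M * q * q)))) x)
    (h20 : x ∈ V20o A q M) (h11 : x ∈ V11o A q M B k hB hq) (h02 : x ∈ V02o A q M B k hB) :
    x ∈ C.B :=
  S.crit x hx (S.mem_V h20 h11 h02)

include hq in
theorem hq0 : algebraMap R ↥(L0 A (M * q * q)) qR ≠ 0 := by
  rw [S.hqR]
  exact Nat.cast_ne_zero.2 hq.ne_zero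

/-- The integral closure of `K^ur[j]`. -/
def Hint (A : ValuationSubring Kbar) (q M : ℕ) [NeZero (M * q * q)] :
    Subring ↥(L0 A (M * q * q)) :=
  (integralClosure ↥(Algebra.adjoin ↥(Kur A)
    ({j0 A (M * q * q)} : Set ↥(L0 A (M * q * q)))) ↥(L0 A (M * q * q))).toSubring

omit S in
theorem mem_Hint {x : ↥(L0 A (M * q * q))} : x ∈ Hint A q M ↔
    IsIntegral ↥(Algebra.adjoin ↥(Kur A)
      ({j0 A (M * q * q)} : Set ↥(L0 A (M * q * q)))) x := Iff.rfl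

theorem hBH : ∀ x ∈ C.B, x ∈ Hint A q M := S.hint

include hq in
theorem hqH : (algebraMap R ↥(L0 A (M * q * q)) qR)⁻¹ ∈ Hint A q M := by
  rw [S.hqR, mem_Hint]
  have e1 : (((q : ℕ) : ↥(L0 A (M * q * q))))⁻¹
      = algebraMap ↥(Algebra.adjoin ↥(Kur A)
          ({j0 A (M * q * q)} : Set ↥(L0 A (M * q * q)))) ↥(L0 A (M * q * q))
        (algebraMap ↥(Kur A) _ (((q : ℕ) : ↥(Kur A)))⁻¹) := by
    rw [← IsScalarTower.algebraMap_apply, map_inv₀, map_natCast]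
  rw [e1]
  exact isIntegral_algebraMap

theorem critH : ∀ f ∈ Hint A q M, (∀ i, f ∈ C.V i) → f ∈ C.B := fun f hf h => S.crit f hf h

/-! ### The witnesses lie in `B` -/

include hq in
theorem E20o_mem_B (hA : (q : Kbar) ∈ A.nonunits) : E20o A q M ∈ C.B :=
  have hA' : (q : Kbar) ∈ A := ((A.mem_nonunits_iff_exists_mem_maximalIdeal).1 hA).1
  S.mem_B (isIntegral_E20o A q M) (E20o_mem20 A q M) (E20o_mem11 A q M B k hB hq hA')
    (E20o_mem02 A q M B k hB hq hA')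

include hq in
theorem E02o_mem_B (hA : (q : Kbar) ∈ A.nonunits) : E02o A q M ∈ C.B :=
  have hA' : (q : Kbar) ∈ A := ((A.mem_nonunits_iff_exists_mem_maximalIdeal).1 hA).1
  S.mem_B (isIntegral_E02o A q M) (E02o_mem20 A q M hA') (E02o_mem11 A q M B k hB hq hA')
    (E02o_mem02 A q M B k hB hq)

include hq in
theorem E11o_mem_B (hA : (q : Kbar) ∈ A.nonunits) : E11o A q M ∈ C.B :=
  have hA' : (q : Kbar) ∈ A := ((A.mem_nonunits_iff_exists_mem_maximalIdeal).1 hA).1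
  S.mem_B (isIntegral_E11o A q M) (E11o_mem20 A q M hA') (E11o_mem11 A q M B k hB hq)
    (E11o_mem02 A q M B k hB hq hA')

include hq in
theorem eps1o_mem_B : eps1o A q M ∈ C.B :=
  S.mem_B (isIntegral_eps1o A q M) (eps1o_mem20 A q M) (eps1o_mem11 A q M B k hB hq)
    (eps1o_mem02 A q M B k hB hq)

end ChartL0

section Ord

variable [Fintype ι] [DecidableEq ι]
variable {A q M B k hB hq}
variable {C : Chart R ↥(L0 A (M * q * q)) k' ι κ} {qR : R} {e : ι → ℕ} {i₂₀ i₁₁ i₀₂ : ι}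
  (S : ChartL0 A q M B k hB hq C qR e i₂₀ i₁₁ i₀₂)

include hq in
/-- **Ordinary points of `C₂₀`**: if `eps2 ∉ 𝔪 ⊇ Icomp₂₀` then `𝔪` has a local equation datum
and `C₂₀` is the only component through `𝔪`. -/
theorem ord20_mod (hA : (q : Kbar) ∈ A.nonunits) (𝔪 : Ideal C.B) [h𝔪 : 𝔪.IsPrime]
    (hi : C.Icomp i₂₀ ≤ 𝔪) (hw : (⟨E20o A q M, S.E20o_mem_B hA⟩ : C.B) ∉ 𝔪) :
    Nonempty (LocEq C qR 𝔪) ∧ ∀ i', C.Icomp i' ≤ 𝔪 → i' = i₂₀ := by
  have hA' : (q : Kbar) ∈ A := ((A.mem_nonunits_iff_exists_mem_maximalIdeal).1 hA).1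
  refine locEq_ord_crit_one C qR (S.hq0 (hq := hq)) S.hqV (ChartL0.Hint A q M) S.hBH
    (S.hqH (hq := hq)) S.critH e S.hE 𝔪 i₂₀ hi S.he₂₀ ⟨E20o A q M, S.E20o_mem_B hA⟩ hw ?_
  intro i' hi'
  rw [S.hqR]
  rcases S.hcases i' with rfl | rfl | rfl
  · exact absurd rfl hi'
  · rw [S.hV11]
    exact E20o_div_mem11 A q M B k hB hq hA'
  · rw [S.hV02]
    exact E20o_div_mem02 A q M B k hB hq hA'

include hq in
/-- **Ordinary points of `C₀₂`**: if `q¹²/eps1 ∉ 𝔪 ⊇ Icomp₀₂` then `𝔪` has a local equation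
datum and `C₀₂` is the only component through `𝔪`. -/
theorem ord02_mod (hA : (q : Kbar) ∈ A.nonunits) (𝔪 : Ideal C.B) [h𝔪 : 𝔪.IsPrime]
    (hi : C.Icomp i₀₂ ≤ 𝔪) (hw : (⟨E02o A q M, S.E02o_mem_B hA⟩ : C.B) ∉ 𝔪) :
    Nonempty (LocEq C qR 𝔪) ∧ ∀ i', C.Icomp i' ≤ 𝔪 → i' = i₀₂ := by
  have hA' : (q : Kbar) ∈ A := ((A.mem_nonunits_iff_exists_mem_maximalIdeal).1 hA).1
  refine locEq_ord_crit_one C qR (S.hq0 (hq := hq)) S.hqV (ChartL0.Hint A q M) S.hBH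
    (S.hqH (hq := hq)) S.critH e S.hE 𝔪 i₀₂ hi S.he₀₂ ⟨E02o A q M, S.E02o_mem_B hA⟩ hw ?_
  intro i' hi'
  rw [S.hqR]
  rcases S.hcases i' with rfl | rfl | rfl
  · rw [S.hV20]
    exact E02o_div_mem20 A q M hA'
  · rw [S.hV11]
    exact E02o_div_mem11 A q M B k hB hq hA'
  · exact absurd rfl hi'

include S in
/-- Equality of the residues at `V₁₁` from the residue map `s11`. -/
theorem rd11_eq_of_s11 {x y : ↥(L0 A (M * q * q))} (hx : x ∈ V11o A q M B k hB hq)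
    (hy : y ∈ V11o A q M B k hB hq)
    (h : s11 A q M B k hB hq ⟨x, hx⟩ = s11 A q M B k hB hq ⟨y, hy⟩) :
    C.rd i₁₁ x = C.rd i₁₁ y := by
  have hxV : x ∈ C.V i₁₁ := by rw [S.hV11]; exact hx
  have hyV : y ∈ C.V i₁₁ := by rw [S.hV11]; exact hy
  have hsub : x - y ∈ (C.V i₁₁).nonunits := by
    rw [S.hV11]
    refine mem_nonunits_of_map_eq_zero (V11o A q M B k hB hq) (s11 A q M B k hB hq)
      ⟨x - y, sub_mem hx hy⟩ ?_
    have e : (⟨x - y, sub_mem hx hy⟩ : ↥(V11o A q M B k hB hq)) = ⟨x, hx⟩ - ⟨y, hy⟩ := rfl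
    rw [e, map_sub, h, sub_self]
  have h0 := (C.rd_eq_zero_iff i₁₁ (sub_mem hxV hyV)).2 hsub
  rw [C.rd_sub i₁₁ hxV hyV] at h0
  exact sub_eq_zero.1 h0

include hq in
/-- `E11 ∉ 𝔪` if `eps1 ∉ 𝔪 ⊇ Icomp₁₁`. -/
theorem E11o_not_mem (hA : (q : Kbar) ∈ A.nonunits) (𝔪 : Ideal C.B) [h𝔪 : 𝔪.IsPrime]
    (hi : C.Icomp i₁₁ ≤ 𝔪) (hw : (⟨eps1o A q M, S.eps1o_mem_B⟩ : C.B) ∉ 𝔪) :
    (⟨E11o A q M, S.E11o_mem_B hA⟩ : C.B) ∉ 𝔪 := by
  refine not_mem_of_rdB_eq C 𝔪 i₁₁ hi ?_ (pow_not_mem C 𝔪 hw 2)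
  rw [← C.rd_coe, ← C.rd_coe]
  refine rd11_eq_of_s11 S (E11o_mem11 A q M B k hB hq)
    (pow_mem (eps1o_mem11 A q M B k hB hq) 2) ?_
  have e : (⟨eps1o A q M ^ 2, pow_mem (eps1o_mem11 A q M B k hB hq) 2⟩ :
      ↥(V11o A q M B k hB hq)) = ⟨eps1o A q M, eps1o_mem11 A q M B k hB hq⟩ ^ 2 := rfl
  rw [s11_E11 A q M B k hB hq hA]
  show _ = s11 A q M B k hB hq ⟨eps1o A q M ^ 2, _⟩
  rw [e, map_pow, s11_eps1, pow_two]

include hB hq in
/-- **Ordinary points of `C₁₁` from a coordinate and a certificate.** -/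
theorem ord11_of_cert (hA : (q : Kbar) ∈ A.nonunits) (f : FN M) (u₀ : LaurentSeries ℤ)
    (hf : (f : LaurentSeries Kbar) = H65.intSer Kbar u₀)
    (hint : IsIntegral ↥(Algebra.adjoin ↥(Kur A)
      ({j0 A (M * q * q)} : Set ↥(L0 A (M * q * q)))) (t11o A q M f u₀ hf))
    (𝔪 : Ideal C.B) [h𝔪 : 𝔪.IsPrime] (hi : C.Icomp i₁₁ ≤ 𝔪)
    (hw : (⟨eps1o A q M, S.eps1o_mem_B⟩ : C.B) ∉ 𝔪)
    (m : ℕ) (hm : 0 < m) (Ao Yo : C.B) (hY : Yo ∉ 𝔪)
    (hs : ∀ (h1 : (E11o A q M * f11o A q M f u₀ hf) ^ m * (Ao : ↥(L0 A (M * q * q)))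
        ∈ V11o A q M B k hB hq) (h2 : (Yo : ↥(L0 A (M * q * q))) ∈ V11o A q M B k hB hq),
      s11 A q M B k hB hq ⟨_, h1⟩ = s11 A q M B k hB hq ⟨_, h2⟩) :
    Nonempty (LocEq C qR 𝔪) ∧ ∀ i', C.Icomp i' ≤ 𝔪 → i' = i₁₁ := by
  have hA' : (q : Kbar) ∈ A := ((A.mem_nonunits_iff_exists_mem_maximalIdeal).1 hA).1
  have htB : t11o A q M f u₀ hf ∈ C.B :=
    S.mem_B hint (t11o_mem20 A q M f u₀ hf) (t11o_mem11 A q M B k hB hq f u₀ hf)
      (t11o_mem02 A q M B k hB hq f u₀ hf)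
  have hAoV : (Ao : ↥(L0 A (M * q * q))) ∈ V11o A q M B k hB hq := by
    rw [← S.hV11]; exact C.B_le i₁₁ _ Ao.2
  have hYoV : (Yo : ↥(L0 A (M * q * q))) ∈ V11o A q M B k hB hq := by
    rw [← S.hV11]; exact C.B_le i₁₁ _ Yo.2
  have hfV := f11o_mem11 A q M B k hB hq f u₀ hf
  have h1 : (E11o A q M * f11o A q M f u₀ hf) ^ m * (Ao : ↥(L0 A (M * q * q)))
      ∈ V11o A q M B k hB hq :=
    mul_mem (pow_mem (mul_mem (E11o_mem11 A q M B k hB hq) hfV) m) hAoV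
  have he : 0 < e i₁₁ := by
    rw [S.he₁₁]
    have := hq.two_le
    omega
  refine locEq_ord_crit_mid C qR (S.hq0 (hq := hq)) S.hqV (ChartL0.Hint A q M) S.hBH
    (S.hqH (hq := hq)) S.critH e S.hE 𝔪 i₁₁ hi he ⟨t11o A q M f u₀ hf, htB⟩
    ⟨E11o A q M, S.E11o_mem_B hA⟩ (E11o_not_mem S hA 𝔪 hi hw) ?_
    (f11o A q M f u₀ hf) (by rw [S.hV11]; exact hfV) ?_ m hm Ao Yo hY ?_
  · intro i' hi'
    rw [S.hqR]
    rcases S.hcases i' with rfl | rfl | rfl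
    · rw [S.hV20]
      exact E11o_div_mem20 A q M hA'
    · exact absurd rfl hi'
    · rw [S.hV02]
      exact E11o_div_mem02 A q M B k hB hq hA'
  · rw [S.he₁₁, S.hqR]
    exact t11o_pow_eq A q M hq f u₀ hf
  · rw [← C.rd_coe]
    exact rd11_eq_of_s11 S h1 hYoV (hs h1 hYoV)

end Ord

end ChartMod

end Fermat.Agent.S36.NU.H99
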