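import Fermat.Agent.S36.NU.H82_CuspKur
import Fermat.Agent.S36.NU.H82_CuspAbs
import Fermat.Agent.S36.NU.H86_CuspRedFinal
import Fermat.Agent.S36.NU.H73_CuspW2
import Fermat.Agent.S36.NU.H22_ValE
import Fermat.Agent.S36.NU.H99_OrdMod3
import Fermat.Agent.S36.NU.H65_Inst
import Fermat.Agent.S36.NU.H88_Gauss

/-!
# S36 / NU-B, leaf CUSPS, final assembly CUSP-ASM (helper88)

`C` a chart over `F = L0 A (M q²)` whose three valuation rings are `V20o`, `V11o`, `V02o`, cut out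
of the integral closure of `K^ur[u]`, `u = 1 / j` (`ChartLoo`; the chart at infinity `chartInf`).
At every prime `𝔪` of `B` with `u ∈ 𝔪` lying on a component `i` of the special fibre:

* `cusp_locEq_mod` : **local equation datum and only one branch** (`H16.LocEq`, DISJ), from
  (CUSP-INT) (helper82/helper73, hypothesis `hInt`), (CUSP-RED) (helper86), (CUSP-W2) (helper73);
* `chartLoo_chartInf` : `ChartLoo` for `chartInf` (unconditional);
* `cusp_locEq_chartInf`, `pointDataAt_chartInf` : the instance, in the form of the hypothesis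
  `hptoo` of `H65.finMod_of`.
-/

set_option autoImplicit false
set_option synthInstance.maxHeartbeats 400000
set_option maxHeartbeats 1000000
set_option linter.unusedSectionVars false
set_option linter.style.haveILetI false

noncomputable section

open IntermediateField ModularCurve AlgebraicCurve Polynomial
open Fermat.Agent.S24 Fermat.Agent.BAD.H88 Fermat.Agent.S28 Fermat.Agent.S28.H73
open Fermat.Agent.RED.H73 Fermat.Agent.RED.H17

namespace Fermat.Agent.S36.NU.H88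

open Fermat.Agent.S36.NU.H16 Fermat.Agent.S36.NU.H17 Fermat.Agent.S36.NU.H24
  Fermat.Agent.S36.NU.H65 Fermat.Agent.S36.NU.H79 Fermat.Agent.S36.NU.H23
  Fermat.Agent.S36.NU.H41 Fermat.Agent.BAD
open Fermat.Agent.S36.NU.H82 (uoo E20oo E02oo E11oo j2o x11oo W2oo)
open Fermat.Agent.S36.NU.H99 (E20o E02o E11o ValE)

/-! ### Generic lemmas on a chart and a residue map of one of its valuation rings -/

section Generic

variable {R F k ι : Type*} {κ : ι → Type*} [CommRing R] [Field F] [Algebra R F]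
  [Field k] [∀ i, Field (κ i)] [∀ i, Algebra k (κ i)]

/-- The reduction of a polynomial in `u` with constant coefficients. -/
theorem red_aeval_const {S : Type*} [CommRing S] [Algebra k S]
    (V : ValuationSubring F) (s : ↥V →+* S) (res : R →+* k)
    (hR : ∀ r, algebraMap R F r ∈ V)
    (hconst : ∀ (r : R) (h : algebraMap R F r ∈ V),
      s ⟨algebraMap R F r, h⟩ = algebraMap k S (res r))
    (u : F) (hu : u ∈ V) (P : R[X]) :
    ∃ h : aeval u P ∈ V, s ⟨aeval u P, h⟩ = aeval (s ⟨u, hu⟩) (P.map res) := by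
  induction P using Polynomial.induction_on' with
  | add p₁ p₂ h₁ h₂ =>
    obtain ⟨m₁, e₁⟩ := h₁
    obtain ⟨m₂, e₂⟩ := h₂
    have hm : aeval u (p₁ + p₂) = aeval u p₁ + aeval u p₂ := map_add _ _ _
    have hmem : aeval u (p₁ + p₂) ∈ V := by rw [hm]; exact add_mem m₁ m₂
    refine ⟨hmem, ?_⟩
    have e : (⟨aeval u (p₁ + p₂), hmem⟩ : ↥V) = ⟨aeval u p₁, m₁⟩ + ⟨aeval u p₂, m₂⟩ :=
      Subtype.ext hm
    rw [e, map_add, e₁, e₂, Polynomial.map_add, map_add]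
  | monomial n a =>
    have hm : aeval u (monomial n a) = algebraMap R F a * u ^ n := by rw [aeval_monomial]
    have hmem : aeval u (monomial n a) ∈ V := by
      rw [hm]; exact mul_mem (hR a) (pow_mem hu n)
    refine ⟨hmem, ?_⟩
    have e : (⟨aeval u (monomial n a), hmem⟩ : ↥V) = ⟨algebraMap R F a, hR a⟩ * ⟨u, hu⟩ ^ n :=
      Subtype.ext hm
    rw [e, map_mul, map_pow, hconst, Polynomial.map_monomial, aeval_monomial]

/-- **A unit at the cusp**, from a reduction map `s` of `V i`: `s E = P̄ (s u)`, `P̄ (0) ≠ 0`,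
`u ∈ 𝔪` ⟹ `E ∉ 𝔪`. -/
theorem not_mem_of_red_aeval (C : Chart R F k ι κ) (i : ι) {S : Type*} [CommRing S]
    [Nontrivial S] [Algebra k S] (V : ValuationSubring F) (hV : C.V i = V) (s : ↥V →+* S)
    (hconst : ∀ (r : R) (h : algebraMap R F r ∈ V),
      s ⟨algebraMap R F r, h⟩ = algebraMap k S (C.res r))
    (𝔪 : Ideal C.B) [h𝔪 : 𝔪.IsPrime] (u : C.B) (hu : u ∈ 𝔪) (hi : C.Icomp i ≤ 𝔪) (E : C.B)
    (hEV : (E : F) ∈ V) (huV : (u : F) ∈ V) (Pb : k[X]) (h0 : Pb.coeff 0 ≠ 0)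
    (hE : s ⟨(E : F), hEV⟩ = aeval (s ⟨(u : F), huV⟩) Pb) : E ∉ 𝔪 := by
  obtain ⟨P, hP⟩ := Polynomial.map_surjective C.res C.res_surj Pb
  refine Fermat.Agent.S36.NU.H82.not_mem_of_sub_aeval C 𝔪 u hu i hi E P ?_ ?_
  · have : C.res (P.coeff 0) = Pb.coeff 0 := by rw [← hP, Polynomial.coeff_map]
    rw [this]
    exact h0
  · rw [hV]
    have hR : ∀ r, algebraMap R F r ∈ V := fun r => by
      rw [← hV]
      exact C.B_le i _ (C.B.algebraMap_mem r)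
    obtain ⟨hmem, hs⟩ := red_aeval_const V s C.res hR hconst (u : F) huV P
    have hsub : (E : F) - aeval (u : F) P ∈ V := sub_mem hEV hmem
    refine Fermat.Agent.S36.NU.H99.mem_nonunits_of_map_eq_zero V s ⟨_, hsub⟩ ?_
    have e : (⟨(E : F) - aeval (u : F) P, hsub⟩ : ↥V)
        = ⟨(E : F), hEV⟩ - ⟨aeval (u : F) P, hmem⟩ := rfl
    rw [e, map_sub, hE, hs, hP, sub_self]

/-- The constants of the Laurent series. -/
theorem algebraMap_eq_C_laurent {k₀ : Type*} [Field k₀] (c : k₀) :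
    algebraMap k₀ (LaurentSeries k₀) c = HahnSeries.C c := by
  have h1 : algebraMap k₀ (PowerSeries k₀) c = PowerSeries.C c := by simp
  rw [HahnSeries.algebraMap_apply', h1, HahnSeries.ofPowerSeries_C]

/-- Equality of the residues at `V i` from a reduction map `s` of `V i`. -/
theorem rd_eq_of_red_eq (C : Chart R F k ι κ) (i : ι) {S : Type*} [CommRing S] [Nontrivial S]
    (V : ValuationSubring F) (hV : C.V i = V) (s : ↥V →+* S) {x y : F} (hx : x ∈ V)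
    (hy : y ∈ V) (h : s ⟨x, hx⟩ = s ⟨y, hy⟩) : C.rd i x = C.rd i y := by
  have hxV : x ∈ C.V i := by rw [hV]; exact hx
  have hyV : y ∈ C.V i := by rw [hV]; exact hy
  have hsub : x - y ∈ (C.V i).nonunits := by
    rw [hV]
    refine Fermat.Agent.S36.NU.H99.mem_nonunits_of_map_eq_zero V s ⟨x - y, sub_mem hx hy⟩ ?_
    have e : (⟨x - y, sub_mem hx hy⟩ : ↥V) = ⟨x, hx⟩ - ⟨y, hy⟩ := rfl
    rw [e, map_sub, h, sub_self]
  have h0 := (C.rd_eq_zero_iff i (sub_mem hxV hyV)).2 hsub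
  rw [C.rd_sub i hxV hyV] at h0
  exact sub_eq_zero.1 h0

end Generic

/-! ### The chart at infinity of the inertia-fixed functions of level `M q²` -/

section ChartOo

variable (A : ValuationSubring Kbar)
variable (q M : ℕ) (B k : ℤ) (hB : B * M + k * q = 1) (hq : q.Prime) [NeZero M] [NeZero q]
  [NeZero (M * q)] [NeZero (M * q * q)]

variable {ι : Type*} {κ : ι → Type*} [∀ i, Field (κ i)] [∀ i, Algebra (kV A) (κ i)]

/-- **The hypotheses on a chart at infinity of the inertia-fixed functions of level `M q²`**: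
its valuation rings are `V20o`, `V11o`, `V02o` with ramification indices `(1, q - 1, 1)`, `B` is
cut out of the integral closure of `K^ur[u]`, `u = 1 / j`, by the three valuations, and the
residue map of the constants is `resRur`. -/
structure ChartLoo (C : Chart ↥(Rur A) ↥(L0 A (M * q * q)) (kV A) ι κ) (e : ι → ℕ)
    (i₂₀ i₁₁ i₀₂ : ι) : Prop where
  hqV : ∀ i, algebraMap ↥(Rur A) ↥(L0 A (M * q * q)) ((q : ℕ) : ↥(Rur A)) ∈ (C.V i).nonunits
  crit : ∀ f : ↥(L0 A (M * q * q)),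
    IsIntegral ↥(Algebra.adjoin ↥(Kur A) ({uoo A q M} : Set ↥(L0 A (M * q * q)))) f →
      (∀ i, f ∈ C.V i) → f ∈ C.B
  hint : ∀ x ∈ C.B,
    IsIntegral ↥(Algebra.adjoin ↥(Kur A) ({uoo A q M} : Set ↥(L0 A (M * q * q)))) x
  hE : ValE C ((q : ℕ) : ↥(Rur A)) e
  hcases : ∀ i, i = i₂₀ ∨ i = i₁₁ ∨ i = i₀₂
  he₂₀ : e i₂₀ = 1
  he₁₁ : e i₁₁ = q - 1
  he₀₂ : e i₀₂ = 1
  hV20 : C.V i₂₀ = V20o A q M
  hV11 : C.V i₁₁ = V11o A q M B k hB hq
  hV02 : C.V i₀₂ = V02o A q M B k hB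
  hres : C.res = resRur A

/-- The integral closure of `K^ur[u]`, `u = 1 / j`. -/
def HintOo : Subring ↥(L0 A (M * q * q)) :=
  (integralClosure ↥(Algebra.adjoin ↥(Kur A)
    ({uoo A q M} : Set ↥(L0 A (M * q * q)))) ↥(L0 A (M * q * q))).toSubring

theorem mem_HintOo {x : ↥(L0 A (M * q * q))} : x ∈ HintOo A q M ↔
    IsIntegral ↥(Algebra.adjoin ↥(Kur A)
      ({uoo A q M} : Set ↥(L0 A (M * q * q)))) x := Iff.rfl

theorem isIntegral_uoo :
    IsIntegral ↥(Algebra.adjoin ↥(Kur A) ({uoo A q M} : Set ↥(L0 A (M * q * q))))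
      (uoo A q M) := by
  have e : uoo A q M
      = algebraMap ↥(Algebra.adjoin ↥(Kur A) ({uoo A q M} : Set ↥(L0 A (M * q * q))))
          ↥(L0 A (M * q * q)) ⟨uoo A q M, Algebra.subset_adjoin (Set.mem_singleton _)⟩ := rfl
  rw [e]
  exact isIntegral_algebraMap

theorem isIntegral_const_oo (c : ↥(Kur A)) :
    IsIntegral ↥(Algebra.adjoin ↥(Kur A) ({uoo A q M} : Set ↥(L0 A (M * q * q))))
      (algebraMap ↥(Kur A) ↥(L0 A (M * q * q)) c) := by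
  rw [IsScalarTower.algebraMap_apply ↥(Kur A)
    ↥(Algebra.adjoin ↥(Kur A) ({uoo A q M} : Set ↥(L0 A (M * q * q)))) ↥(L0 A (M * q * q))]
  exact isIntegral_algebraMap

/-- `j″ = j(q²τ)`: the two names. -/
theorem asm_j2o_eq_jdd : j2o A q M = jdd A q M := rfl

/-! ### The valuations of the witnesses -/

include hq in
theorem asm_E20oo_mem11 (hA : (q : Kbar) ∈ A) : E20oo A q M ∈ V11o A q M B k hB hq :=
  mul_mem (Fermat.Agent.S36.NU.H99.E20o_mem11 A q M B k hB hq hA)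
    (pow_mem (Fermat.Agent.S36.NU.H86.uoo_mem11 A q M B k hB hq) _)

include hq in
theorem asm_E20oo_mem02 (hA : (q : Kbar) ∈ A) : E20oo A q M ∈ V02o A q M B k hB :=
  mul_mem (Fermat.Agent.S36.NU.H99.E20o_mem02 A q M B k hB hq hA)
    (pow_mem (Fermat.Agent.S36.NU.H86.uoo_mem02 A q M B k hB) _)

theorem asm_E02oo_mem20 (hA : (q : Kbar) ∈ A) : E02oo A q M ∈ V20o A q M :=
  mul_mem (pow_mem (Fermat.Agent.S36.NU.H99.E02o_mem20 A q M hA) _)
    (pow_mem (Fermat.Agent.S36.NU.H86.uoo_mem20 A q M) _)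

include hq in
theorem asm_E02oo_mem11 (hA : (q : Kbar) ∈ A) : E02oo A q M ∈ V11o A q M B k hB hq :=
  mul_mem (pow_mem (Fermat.Agent.S36.NU.H99.E02o_mem11 A q M B k hB hq hA) _)
    (pow_mem (Fermat.Agent.S36.NU.H86.uoo_mem11 A q M B k hB hq) _)

theorem asm_E11oo_mem20 (hA : (q : Kbar) ∈ A) : E11oo A q M ∈ V20o A q M :=
  mul_mem (Fermat.Agent.S36.NU.H99.E11o_mem20 A q M hA)
    (pow_mem (Fermat.Agent.S36.NU.H86.uoo_mem20 A q M) _)

include hq in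
theorem asm_E11oo_mem02 (hA : (q : Kbar) ∈ A) : E11oo A q M ∈ V02o A q M B k hB :=
  mul_mem (Fermat.Agent.S36.NU.H99.E11o_mem02 A q M B k hB hq hA)
    (pow_mem (Fermat.Agent.S36.NU.H86.uoo_mem02 A q M B k hB) _)

theorem asm_x11oo_mem20 (hA : (q : Kbar) ∈ A) : x11oo A q M ∈ V20o A q M :=
  mul_mem (sub_mem (mul_mem (jdd_mem20 A q M) (Fermat.Agent.S36.NU.H86.uoo_mem20 A q M))
    (one_mem _)) (asm_E11oo_mem20 A q M hA)

include hq in
theorem asm_x11oo_mem02 (hA : (q : Kbar) ∈ A) : x11oo A q M ∈ V02o A q M B k hB :=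
  mul_mem (sub_mem (mul_mem (jdd_mem02 A q M B k hB hq)
    (Fermat.Agent.S36.NU.H86.uoo_mem02 A q M B k hB)) (one_mem _))
    (asm_E11oo_mem02 A q M B k hB hq hA)

include hq in
theorem asm_x11oo_mem11 (hA : A.LiesOverPrime q) : x11oo A q M ∈ V11o A q M B k hB hq :=
  mul_mem (sub_mem (mul_mem (jdd_mem11 A q M B k hB hq hA)
    (Fermat.Agent.S36.NU.H86.uoo_mem11 A q M B k hB hq)) (one_mem _))
    (Fermat.Agent.S36.NU.H86.E11oo_mem11 A q M B k hB hq)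

/-! ### The cross valuations: divisibility by `q` on the other components -/

include hq in
theorem asm_E20oo_div_mem11 (hA : (q : Kbar) ∈ A) :
    ∃ f' ∈ V11o A q M B k hB hq, E20oo A q M = ((q : ℕ) : ↥(L0 A (M * q * q))) * f' := by
  obtain ⟨f', hf', h⟩ := Fermat.Agent.S36.NU.H99.E20o_div_mem11 A q M B k hB hq hA
  refine ⟨f' * uoo A q M ^ (q * (q - 1)),
    mul_mem hf' (pow_mem (Fermat.Agent.S36.NU.H86.uoo_mem11 A q M B k hB hq) _), ?_⟩
  rw [Fermat.Agent.S36.NU.H82.E20oo, h]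
  exact mul_assoc _ _ _

include hq in
theorem asm_E20oo_div_mem02 (hA : (q : Kbar) ∈ A) :
    ∃ f' ∈ V02o A q M B k hB, E20oo A q M = ((q : ℕ) : ↥(L0 A (M * q * q))) * f' := by
  obtain ⟨f', hf', h⟩ := Fermat.Agent.S36.NU.H99.E20o_div_mem02 A q M B k hB hq hA
  refine ⟨f' * uoo A q M ^ (q * (q - 1)),
    mul_mem hf' (pow_mem (Fermat.Agent.S36.NU.H86.uoo_mem02 A q M B k hB) _), ?_⟩
  rw [Fermat.Agent.S36.NU.H82.E20oo, h]
  exact mul_assoc _ _ _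

include hq in
theorem asm_E02oo_div_mem20 (hA : (q : Kbar) ∈ A) :
    ∃ f' ∈ V20o A q M, E02oo A q M = ((q : ℕ) : ↥(L0 A (M * q * q))) * f' := by
  obtain ⟨f', hf', h⟩ := Fermat.Agent.S36.NU.H99.E02o_div_mem20 A q M hA
  refine ⟨E02o A q M ^ (q - 1) * f' * uoo A q M ^ (q - 1),
    mul_mem (mul_mem (pow_mem (Fermat.Agent.S36.NU.H99.E02o_mem20 A q M hA) _) hf')
      (pow_mem (Fermat.Agent.S36.NU.H86.uoo_mem20 A q M) _), ?_⟩
  have e : E02o A q M ^ q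
      = E02o A q M ^ (q - 1) * (((q : ℕ) : ↥(L0 A (M * q * q))) * f') := by
    rw [← h, ← pow_succ, Nat.sub_add_cancel hq.one_le]
  rw [Fermat.Agent.S36.NU.H82.E02oo, e]
  ring

include hq in
theorem asm_E02oo_div_mem11 (hA : (q : Kbar) ∈ A) :
    ∃ f' ∈ V11o A q M B k hB hq, E02oo A q M = ((q : ℕ) : ↥(L0 A (M * q * q))) * f' := by
  obtain ⟨f', hf', h⟩ := Fermat.Agent.S36.NU.H99.E02o_div_mem11 A q M B k hB hq hA
  refine ⟨E02o A q M ^ (q - 1) * f' * uoo A q M ^ (q - 1),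
    mul_mem (mul_mem (pow_mem (Fermat.Agent.S36.NU.H99.E02o_mem11 A q M B k hB hq hA) _) hf')
      (pow_mem (Fermat.Agent.S36.NU.H86.uoo_mem11 A q M B k hB hq) _), ?_⟩
  have e : E02o A q M ^ q
      = E02o A q M ^ (q - 1) * (((q : ℕ) : ↥(L0 A (M * q * q))) * f') := by
    rw [← h, ← pow_succ, Nat.sub_add_cancel hq.one_le]
  rw [Fermat.Agent.S36.NU.H82.E02oo, e]
  ring

theorem asm_E11oo_sq_div_mem20 (hA : (q : Kbar) ∈ A) :
    ∃ f' ∈ V20o A q M, E11oo A q M ^ 2 = ((q : ℕ) : ↥(L0 A (M * q * q))) * f' := by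
  obtain ⟨f', hf', h⟩ := Fermat.Agent.S36.NU.H99.E11o_div_mem20 A q M hA
  refine ⟨f' * uoo A q M ^ (2 * (q - 1)) * E11oo A q M,
    mul_mem (mul_mem hf' (pow_mem (Fermat.Agent.S36.NU.H86.uoo_mem20 A q M) _))
      (asm_E11oo_mem20 A q M hA), ?_⟩
  have e : E11oo A q M
      = ((q : ℕ) : ↥(L0 A (M * q * q))) * f' * uoo A q M ^ (2 * (q - 1)) := by
    rw [Fermat.Agent.S36.NU.H82.E11oo, h]
  rw [pow_two]
  nth_rewrite 1 [e]
  ring

include hq in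
theorem asm_E11oo_sq_div_mem02 (hA : (q : Kbar) ∈ A) :
    ∃ f' ∈ V02o A q M B k hB, E11oo A q M ^ 2 = ((q : ℕ) : ↥(L0 A (M * q * q))) * f' := by
  obtain ⟨f', hf', h⟩ := Fermat.Agent.S36.NU.H99.E11o_div_mem02 A q M B k hB hq hA
  refine ⟨f' * uoo A q M ^ (2 * (q - 1)) * E11oo A q M,
    mul_mem (mul_mem hf' (pow_mem (Fermat.Agent.S36.NU.H86.uoo_mem02 A q M B k hB) _))
      (asm_E11oo_mem02 A q M B k hB hq hA), ?_⟩
  have e : E11oo A q M
      = ((q : ℕ) : ↥(L0 A (M * q * q))) * f' * uoo A q M ^ (2 * (q - 1)) := by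
    rw [Fermat.Agent.S36.NU.H82.E11oo, h]
  rw [pow_two]
  nth_rewrite 1 [e]
  ring

/-! ### Generalities on `ChartLoo` -/

theorem hqR_oo : algebraMap ↥(Rur A) ↥(L0 A (M * q * q)) ((q : ℕ) : ↥(Rur A))
    = ((q : ℕ) : ↥(L0 A (M * q * q))) := map_natCast _ q

include hq in
theorem hq0_oo : algebraMap ↥(Rur A) ↥(L0 A (M * q * q)) ((q : ℕ) : ↥(Rur A)) ≠ 0 := by
  rw [hqR_oo]
  exact Nat.cast_ne_zero.2 hq.ne_zero

theorem hqH_oo :
    (algebraMap ↥(Rur A) ↥(L0 A (M * q * q)) ((q : ℕ) : ↥(Rur A)))⁻¹ ∈ HintOo A q M := by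
  rw [hqR_oo, mem_HintOo]
  have e1 : (((q : ℕ) : ↥(L0 A (M * q * q))))⁻¹
      = algebraMap ↥(Kur A) ↥(L0 A (M * q * q)) (((q : ℕ) : ↥(Kur A)))⁻¹ := by
    rw [map_inv₀, map_natCast]
  rw [e1]
  exact isIntegral_const_oo A q M _

namespace ChartLoo

variable {A q M B k hB hq}
variable {C : Chart ↥(Rur A) ↥(L0 A (M * q * q)) (kV A) ι κ} {e : ι → ℕ} {i₂₀ i₁₁ i₀₂ : ι}
  (S : ChartLoo A q M B k hB hq C e i₂₀ i₁₁ i₀₂)

include S

theorem mem_V {x : ↥(L0 A (M * q * q))} (h20 : x ∈ V20o A q M)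
    (h11 : x ∈ V11o A q M B k hB hq) (h02 : x ∈ V02o A q M B k hB) (i : ι) : x ∈ C.V i := by
  rcases S.hcases i with rfl | rfl | rfl
  · rw [S.hV20]; exact h20
  · rw [S.hV11]; exact h11
  · rw [S.hV02]; exact h02

/-- Membership in `B`. -/
theorem mem_B {x : ↥(L0 A (M * q * q))}
    (hx : IsIntegral ↥(Algebra.adjoin ↥(Kur A)
      ({uoo A q M} : Set ↥(L0 A (M * q * q)))) x)
    (h20 : x ∈ V20o A q M) (h11 : x ∈ V11o A q M B k hB hq) (h02 : x ∈ V02o A q M B k hB) :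
    x ∈ C.B :=
  S.crit x hx (S.mem_V h20 h11 h02)

theorem hBH : ∀ x ∈ C.B, x ∈ HintOo A q M := S.hint

theorem critH : ∀ f ∈ HintOo A q M, (∀ i, f ∈ C.V i) → f ∈ C.B := fun f hf h => S.crit f hf h

/-! ### The witnesses lie in `B` -/

include hq in
theorem uoo_mem_B : uoo A q M ∈ C.B :=
  S.mem_B (isIntegral_uoo A q M) (Fermat.Agent.S36.NU.H86.uoo_mem20 A q M)
    (Fermat.Agent.S36.NU.H86.uoo_mem11 A q M B k hB hq)
    (Fermat.Agent.S36.NU.H86.uoo_mem02 A q M B k hB)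

include hq in
theorem E20oo_mem_B (hA : (q : Kbar) ∈ A) (hInt : Fermat.Agent.S36.NU.H82.Stmt_CuspInt A q M) :
    E20oo A q M ∈ C.B :=
  S.mem_B (Fermat.Agent.S36.NU.H82.stmt_CuspKur A q M _ (hInt _ (Set.mem_insert _ _)))
    (Fermat.Agent.S36.NU.H86.E20oo_mem20 A q M) (asm_E20oo_mem11 A q M B k hB hq hA)
    (asm_E20oo_mem02 A q M B k hB hq hA)

include hq in
theorem E02oo_mem_B (hA : (q : Kbar) ∈ A) (hInt : Fermat.Agent.S36.NU.H82.Stmt_CuspInt A q M) :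
    E02oo A q M ∈ C.B :=
  S.mem_B (Fermat.Agent.S36.NU.H82.stmt_CuspKur A q M _
      (hInt _ (Set.mem_insert_of_mem _ (Set.mem_insert _ _))))
    (asm_E02oo_mem20 A q M hA) (asm_E02oo_mem11 A q M B k hB hq hA)
    (Fermat.Agent.S36.NU.H86.E02oo_mem02 A q M B k hB hq)

include hq in
theorem E11oo_mem_B (hA : (q : Kbar) ∈ A) (hInt : Fermat.Agent.S36.NU.H82.Stmt_CuspInt A q M) :
    E11oo A q M ∈ C.B :=
  S.mem_B (Fermat.Agent.S36.NU.H82.stmt_CuspKur A q M _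
      (hInt _ (Set.mem_insert_of_mem _ (Set.mem_insert_of_mem _ (Set.mem_insert _ _)))))
    (asm_E11oo_mem20 A q M hA) (Fermat.Agent.S36.NU.H86.E11oo_mem11 A q M B k hB hq)
    (asm_E11oo_mem02 A q M B k hB hq hA)

include hq in
theorem x11oo_mem_B (hA : A.LiesOverPrime q)
    (hInt : Fermat.Agent.S36.NU.H82.Stmt_CuspInt A q M) : x11oo A q M ∈ C.B :=
  have hA' : (q : Kbar) ∈ A := ((A.mem_nonunits_iff_exists_mem_maximalIdeal).1 hA).1
  S.mem_B (Fermat.Agent.S36.NU.H82.stmt_CuspKur A q M _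
      (hInt _ (Set.mem_insert_of_mem _ (Set.mem_insert_of_mem _
        (Set.mem_insert_of_mem _ (Set.mem_singleton _))))))
    (asm_x11oo_mem20 A q M hA') (asm_x11oo_mem11 A q M B k hB hq hA)
    (asm_x11oo_mem02 A q M B k hB hq hA')

end ChartLoo

/-! ### The three kinds of cusps -/

section Cusp

variable [Fintype ι] [DecidableEq ι]
variable {A q M B k hB hq}
variable {C : Chart ↥(Rur A) ↥(L0 A (M * q * q)) (kV A) ι κ} {e : ι → ℕ} {i₂₀ i₁₁ i₀₂ : ι}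
  (S : ChartLoo A q M B k hB hq C e i₂₀ i₁₁ i₀₂)

include hq in
/-- **Cusps of `C₂₀`**. -/
theorem cusp20_mod (hA : A.LiesOverPrime q)
    (hInt : Fermat.Agent.S36.NU.H82.Stmt_CuspInt A q M)
    (𝔪 : Ideal C.B) [h𝔪 : 𝔪.IsPrime]
    (hu : (⟨uoo A q M, S.uoo_mem_B⟩ : C.B) ∈ 𝔪) (hi : C.Icomp i₂₀ ≤ 𝔪) :
    Nonempty (LocEq C ((q : ℕ) : ↥(Rur A)) 𝔪) ∧ ∀ i', C.Icomp i' ≤ 𝔪 → i' = i₂₀ := by
  have hA' : (q : Kbar) ∈ A := ((A.mem_nonunits_iff_exists_mem_maximalIdeal).1 hA).1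
  obtain ⟨hum, hEm, P, hP0, hs⟩ := Fermat.Agent.S36.NU.H86.stmt_CuspRed20 A q M hq hA
  have hW : (⟨E20oo A q M, S.E20oo_mem_B hA' hInt⟩ : C.B) ∉ 𝔪 := by
    refine not_mem_of_red_aeval C i₂₀ (V20o A q M) S.hV20 (s20 A q M) ?_ 𝔪
      ⟨uoo A q M, S.uoo_mem_B⟩ hu hi _ hEm hum P ?_ hs
    · intro r h
      rw [S.hres]
      exact s20_const A q M r h
    · rw [hP0]
      exact one_ne_zero
  refine Fermat.Agent.S36.NU.H99.locEq_ord_crit_one C ((q : ℕ) : ↥(Rur A))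
    (hq0_oo A q M hq) S.hqV (HintOo A q M) S.hBH (hqH_oo A q M) S.critH e S.hE 𝔪 i₂₀ hi S.he₂₀
    ⟨E20oo A q M, S.E20oo_mem_B hA' hInt⟩ hW ?_
  intro i' hi'
  rw [hqR_oo]
  rcases S.hcases i' with rfl | rfl | rfl
  · exact absurd rfl hi'
  · rw [S.hV11]
    exact asm_E20oo_div_mem11 A q M B k hB hq hA'
  · rw [S.hV02]
    exact asm_E20oo_div_mem02 A q M B k hB hq hA'

include hq in
/-- **Cusps of `C₀₂`**. -/
theorem cusp02_mod (hA : A.LiesOverPrime q)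
    (hInt : Fermat.Agent.S36.NU.H82.Stmt_CuspInt A q M)
    (𝔪 : Ideal C.B) [h𝔪 : 𝔪.IsPrime]
    (hu : (⟨uoo A q M, S.uoo_mem_B⟩ : C.B) ∈ 𝔪) (hi : C.Icomp i₀₂ ≤ 𝔪) :
    Nonempty (LocEq C ((q : ℕ) : ↥(Rur A)) 𝔪) ∧ ∀ i', C.Icomp i' ≤ 𝔪 → i' = i₀₂ := by
  have hA' : (q : Kbar) ∈ A := ((A.mem_nonunits_iff_exists_mem_maximalIdeal).1 hA).1
  obtain ⟨hum, hEm, P, hP0, hs⟩ := Fermat.Agent.S36.NU.H86.stmt_CuspRed02 A q M B k hB hq hA
  have hW : (⟨E02oo A q M, S.E02oo_mem_B hA' hInt⟩ : C.B) ∉ 𝔪 := by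
    refine not_mem_of_red_aeval C i₀₂ (V02o A q M B k hB) S.hV02 (s02 A q M B k hB) ?_ 𝔪
      ⟨uoo A q M, S.uoo_mem_B⟩ hu hi _ hEm hum P ?_ hs
    · intro r h
      rw [S.hres]
      exact s02_const A q M B k hB r h
    · rw [hP0]
      exact one_ne_zero
  refine Fermat.Agent.S36.NU.H99.locEq_ord_crit_one C ((q : ℕ) : ↥(Rur A))
    (hq0_oo A q M hq) S.hqV (HintOo A q M) S.hBH (hqH_oo A q M) S.critH e S.hE 𝔪 i₀₂ hi S.he₀₂
    ⟨E02oo A q M, S.E02oo_mem_B hA' hInt⟩ hW ?_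
  intro i' hi'
  rw [hqR_oo]
  rcases S.hcases i' with rfl | rfl | rfl
  · rw [S.hV20]
    exact asm_E02oo_div_mem20 A q M hq hA'
  · rw [S.hV11]
    exact asm_E02oo_div_mem11 A q M B k hB hq hA'
  · exact absurd rfl hi'

end Cusp

section Cusp11

variable [Fintype ι] [DecidableEq ι]
variable {A q M B k hB hq}
variable {C : Chart ↥(Rur A) ↥(L0 A (M * q * q)) (kV A) ι κ} {e : ι → ℕ} {i₂₀ i₁₁ i₀₂ : ι}
  (S : ChartLoo A q M B k hB hq C e i₂₀ i₁₁ i₀₂)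

include hq in
/-- **Cusps of `C₁₁`**. -/
theorem cusp11_mod (hA : A.LiesOverPrime q)
    (hInt : Fermat.Agent.S36.NU.H82.Stmt_CuspInt A q M)
    (𝔪 : Ideal C.B) [h𝔪 : 𝔪.IsPrime]
    (hu : (⟨uoo A q M, S.uoo_mem_B⟩ : C.B) ∈ 𝔪) (hi : C.Icomp i₁₁ ≤ 𝔪) :
    Nonempty (LocEq C ((q : ℕ) : ↥(Rur A)) 𝔪) ∧ ∀ i', C.Icomp i' ≤ 𝔪 → i' = i₁₁ := by
  have hA' : (q : Kbar) ∈ A := ((A.mem_nonunits_iff_exists_mem_maximalIdeal).1 hA).1
  have hq0L : ((q : ℕ) : ↥(L0 A (M * q * q))) ≠ 0 := Nat.cast_ne_zero.2 hq.ne_zero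
  have huB := S.uoo_mem_B
  have hEB := S.E11oo_mem_B hA' hInt
  have hxB := S.x11oo_mem_B hA hInt
  -- `E11∞ ∉ 𝔪`
  obtain ⟨hum, hEm, P, hP0, hs⟩ := Fermat.Agent.S36.NU.H86.stmt_CuspRed11 A q M B k hB hq hA
  have hEn : (⟨E11oo A q M, hEB⟩ : C.B) ∉ 𝔪 := by
    refine not_mem_of_red_aeval C i₁₁ (V11o A q M B k hB hq) S.hV11 (s11 A q M B k hB hq) ?_ 𝔪
      ⟨uoo A q M, huB⟩ hu hi _ hEm hum P ?_ hs
    · intro r h
      rw [S.hres]
      exact s11_const A q M B k hB hq r h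
    · rw [hP0]
      exact one_ne_zero
  -- `f' = x11 ^ (q - 1) / q`
  have hxn : x11oo A q M ∈ (C.V i₁₁).nonunits := by
    rw [S.hV11]
    exact Fermat.Agent.S36.NU.H86.x11oo_mem_nonunits A q M B k hB hq hA
  obtain ⟨f', hf', hxf⟩ := S.hE i₁₁ _ hxn
  have h1 : x11oo A q M ^ (q - 1) = ((q : ℕ) : ↥(L0 A (M * q * q))) * f' := by
    rw [← S.he₁₁, hxf, hqR_oo]
  -- `W₂ = E11∞² f'`
  obtain ⟨_, _, hWm, c, hc, hW⟩ := Fermat.Agent.S36.NU.H73.stmt_CuspW2 A q M B k hB hq hA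
  have hW2 : W2oo A q M = E11oo A q M ^ 2 * f' := by
    rw [Fermat.Agent.S36.NU.H82.W2oo, h1]
    field_simp
  -- the constants
  obtain ⟨r, hr⟩ := C.res_surj c
  have hrn : algebraMap ↥(Rur A) C.B r ∉ 𝔪 :=
    Fermat.Agent.S36.NU.H82.algebraMap_not_mem C 𝔪 i₁₁ hi r (by rw [hr]; exact hc)
  have hwn : (1 - algebraMap ↥(Rur A) C.B (1728 : ↥(Rur A)) * ⟨uoo A q M, huB⟩ : C.B) ∉ 𝔪 := by
    intro hw
    apply h𝔪.ne_top
    rw [Ideal.eq_top_iff_one]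
    have e1 : (1 : C.B) = (1 - algebraMap ↥(Rur A) C.B (1728 : ↥(Rur A)) * ⟨uoo A q M, huB⟩)
        + algebraMap ↥(Rur A) C.B (1728 : ↥(Rur A)) * ⟨uoo A q M, huB⟩ := by ring
    rw [e1]
    exact 𝔪.add_mem hw (𝔪.mul_mem_left _ hu)
  have hYn : (algebraMap ↥(Rur A) C.B r
      * (1 - algebraMap ↥(Rur A) C.B (1728 : ↥(Rur A)) * ⟨uoo A q M, huB⟩) ^ (6 * (q - 1))
      * (⟨E11oo A q M, hEB⟩ : C.B) ^ (12 * (q + 1)) : C.B) ∉ 𝔪 :=
    Fermat.Agent.S36.NU.H99.mul_not_mem C 𝔪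
      (Fermat.Agent.S36.NU.H99.mul_not_mem C 𝔪 hrn
        (Fermat.Agent.S36.NU.H99.pow_not_mem C 𝔪 hwn _))
      (Fermat.Agent.S36.NU.H99.pow_not_mem C 𝔪 hEn _)
  have he : 0 < e i₁₁ := by
    rw [S.he₁₁]
    have := hq.two_le
    omega
  -- the congruence
  have hcm : algebraMap ↥(Rur A) ↥(L0 A (M * q * q)) r ∈ V11o A q M B k hB hq :=
    const_mem_V11o A q M B k hB hq r
  have hc1728 : algebraMap ↥(Rur A) ↥(L0 A (M * q * q)) (1728 : ↥(Rur A))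
      ∈ V11o A q M B k hB hq := const_mem_V11o A q M B k hB hq _
  have hwm : 1 - algebraMap ↥(Rur A) ↥(L0 A (M * q * q)) (1728 : ↥(Rur A)) * uoo A q M
      ∈ V11o A q M B k hB hq := sub_mem (one_mem _) (mul_mem hc1728 hum)
  have hXm : W2oo A q M ^ 12 * E11oo A q M ∈ V11o A q M B k hB hq :=
    mul_mem (pow_mem hWm _) hEm
  have hYm : algebraMap ↥(Rur A) ↥(L0 A (M * q * q)) r
      * (1 - algebraMap ↥(Rur A) ↥(L0 A (M * q * q)) (1728 : ↥(Rur A)) * uoo A q M)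
          ^ (6 * (q - 1))
      * E11oo A q M ^ (12 * (q + 1)) ∈ V11o A q M B k hB hq :=
    mul_mem (mul_mem hcm (pow_mem hwm _)) (pow_mem hEm _)
  have hsr : s11 A q M B k hB hq ⟨_, hcm⟩ = HahnSeries.C c := by
    rw [s11_const, ← S.hres, hr]
    exact algebraMap_eq_C_laurent c
  have hs1728 : s11 A q M B k hB hq ⟨_, hc1728⟩ = HahnSeries.C (1728 : kV A) := by
    rw [s11_const, map_ofNat]
    exact algebraMap_eq_C_laurent _
  have hsXY : s11 A q M B k hB hq ⟨_, hXm⟩ = s11 A q M B k hB hq ⟨_, hYm⟩ := by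
    have e1 : (⟨W2oo A q M ^ 12 * E11oo A q M, hXm⟩ : ↥(V11o A q M B k hB hq))
        = ⟨W2oo A q M, hWm⟩ ^ 12 * ⟨E11oo A q M, hEm⟩ := rfl
    have e2 : (⟨_, hYm⟩ : ↥(V11o A q M B k hB hq))
        = ⟨_, hcm⟩ * (1 - ⟨_, hc1728⟩ * ⟨uoo A q M, hum⟩) ^ (6 * (q - 1))
          * ⟨E11oo A q M, hEm⟩ ^ (12 * (q + 1)) := rfl
    rw [e1, e2]
    simp only [map_mul, map_pow, map_sub, map_one]
    rw [hsr, hs1728]
    exact hW
  have hrd : C.rd i₁₁ (W2oo A q M ^ 12 * E11oo A q M)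
      = C.rd i₁₁ (algebraMap ↥(Rur A) ↥(L0 A (M * q * q)) r
        * (1 - algebraMap ↥(Rur A) ↥(L0 A (M * q * q)) (1728 : ↥(Rur A)) * uoo A q M)
            ^ (6 * (q - 1))
        * E11oo A q M ^ (12 * (q + 1))) :=
    rd_eq_of_red_eq C i₁₁ (V11o A q M B k hB hq) S.hV11 (s11 A q M B k hB hq) hXm hYm hsXY
  refine Fermat.Agent.S36.NU.H99.locEq_ord_crit_mid C ((q : ℕ) : ↥(Rur A))
    (hq0_oo A q M hq) S.hqV (HintOo A q M) S.hBH (hqH_oo A q M) S.critH e S.hE 𝔪 i₁₁ hi he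
    ⟨x11oo A q M, hxB⟩ ((⟨E11oo A q M, hEB⟩ : C.B) ^ 2)
    (Fermat.Agent.S36.NU.H99.pow_not_mem C 𝔪 hEn 2) ?_ f' hf' hxf 12 (by norm_num)
    ⟨E11oo A q M, hEB⟩ _ hYn ?_
  · intro i' hi'
    rw [hqR_oo]
    rcases S.hcases i' with rfl | rfl | rfl
    · rw [S.hV20]
      exact asm_E11oo_sq_div_mem20 A q M hA'
    · exact absurd rfl hi'
    · rw [S.hV02]
      exact asm_E11oo_sq_div_mem02 A q M B k hB hq hA'
  · rw [← C.rd_coe]
    have e3 : (((((⟨E11oo A q M, hEB⟩ : C.B) ^ 2 : C.B) : ↥(L0 A (M * q * q))) * f') ^ 12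
        * ((⟨E11oo A q M, hEB⟩ : C.B) : ↥(L0 A (M * q * q))))
        = W2oo A q M ^ 12 * E11oo A q M := by
      rw [hW2]
      rfl
    rw [e3]
    exact hrd

include S in
/-- **CUSP-ASM**: at every prime `𝔪` of the chart at infinity with `u = 1 / j ∈ 𝔪` on the
component `i`, there is a local equation datum and `i` is the only component through `𝔪`. -/
theorem cusp_locEq_mod (hA : A.LiesOverPrime q)
    (hInt : Fermat.Agent.S36.NU.H82.Stmt_CuspInt A q M)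
    (𝔪 : Ideal C.B) [h𝔪 : 𝔪.IsPrime]
    (hu : ∀ β : C.B, (β : ↥(L0 A (M * q * q))) = uoo A q M → β ∈ 𝔪) (i : ι)
    (hi : C.Icomp i ≤ 𝔪) :
    Nonempty (LocEq C ((q : ℕ) : ↥(Rur A)) 𝔪) ∧ ∀ i', C.Icomp i' ≤ 𝔪 → i' = i := by
  have hu' : (⟨uoo A q M, S.uoo_mem_B⟩ : C.B) ∈ 𝔪 := hu _ rfl
  rcases S.hcases i with rfl | rfl | rfl
  · exact cusp20_mod S hA hInt 𝔪 hu' hi
  · exact cusp11_mod S hA hInt 𝔪 hu' hi
  · exact cusp02_mod S hA hInt 𝔪 hu' hi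

end Cusp11

end ChartOo

/-! ### The instance: the chart of `1 / j` -/

section Inst

variable (A : ValuationSubring Kbar) (q M : ℕ) (B k : ℤ) (hB : B * M + k * q = 1) (hq : q.Prime)
  [NeZero M] [NeZero q] [NeZero (M * q)] [NeZero (M * q * q)] (hqM : ¬ q ∣ M)
  (hA : A.LiesOverPrime q) (ht : H91.TameAt M q)

attribute [local instance] algkM

/-- **`ChartLoo` for the chart of `1 / j`** (unconditional). -/
theorem chartLoo_chartInf :
    ChartLoo A q M B k hB hq (chartInf A q M B k hB hq hqM hA ht) ![1, q - 1, 1] 0 1 2 := by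
  have hqR := hqR_oo A q M
  have hcases : ∀ i : Fin 3, i = 0 ∨ i = 1 ∨ i = 2 := by
    intro i
    fin_cases i
    · exact Or.inl rfl
    · exact Or.inr (Or.inl rfl)
    · exact Or.inr (Or.inr rfl)
  have hV20 : (chartInf A q M B k hB hq hqM hA ht).V 0 = V20o A q M := rfl
  have hV11 : (chartInf A q M B k hB hq hqM hA ht).V 1 = V11o A q M B k hB hq := rfl
  have hV02 : (chartInf A q M B k hB hq hqM hA ht).V 2 = V02o A q M B k hB := rfl
  refine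
    { hqV := Fermat.Agent.S36.NU.H22.q_mem_nonunits A q M B k hB hq hqM hA _ _ hqR 0 1 2
        hcases hV20 hV11 hV02
      crit := ?_
      hint := ?_
      hE := Fermat.Agent.S36.NU.H22.valE_mod A q M B k hB hq hqM hA _ _ hqR _ 0 1 2 hcases
        rfl rfl rfl hV20 hV11 hV02
      hcases := hcases
      he₂₀ := rfl
      he₁₁ := rfl
      he₀₂ := rfl
      hV20 := hV20
      hV11 := hV11
      hV02 := hV02
      hres := rfl }
  · intro f hf hV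
    exact crit_mod_chartInf A q M B k hB hq hqM hA ht f hf hV
  · intro x hx
    exact isIntegral_adjoin_field ↥(Rur A) ↥(Kur A) (j0 A (M * q * q))⁻¹ hx

/-- **CUSP-ASM for the chart of `1 / j`**: local equation datum and only one branch at every
prime `𝔪` with `1 / j ∈ 𝔪` of the special fibre. -/
theorem cusp_locEq_chartInf (hInt : Fermat.Agent.S36.NU.H82.Stmt_CuspInt A q M)
    (𝔪 : Ideal (chartInf A q M B k hB hq hqM hA ht).B) [h𝔪 : 𝔪.IsPrime]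
    (hu : ∀ β : (chartInf A q M B k hB hq hqM hA ht).B,
      (β : ↥(L0 A (M * q * q))) = (j0 A (M * q * q))⁻¹ → β ∈ 𝔪) (i : Fin 3)
    (hi : (chartInf A q M B k hB hq hqM hA ht).Icomp i ≤ 𝔪) :
    Nonempty (LocEq (chartInf A q M B k hB hq hqM hA ht) ((q : ℕ) : ↥(Rur A)) 𝔪) ∧
      ∀ i', (chartInf A q M B k hB hq hqM hA ht).Icomp i' ≤ 𝔪 → i' = i :=
  cusp_locEq_mod (chartLoo_chartInf A q M B k hB hq hqM hA ht) hA hInt 𝔪 hu i hi

variable {Z K L K' L' L₁ L₂ : Type*} [Field K] [Field L] [Algebra K L]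
  [Algebra ↥(L0 A (M * q * q)) L] [Field K'] [Field L'] [Algebra K' L'] [Field L₁]
  [Algebra (kV A) L₁] [Field L₂] [Algebra (kV A) L₂]

/-- **The hypothesis `hptoo` of `H65.finMod_of`** for the chart of `1 / j`, from (CUSP-INT) and
the branches (M2). -/
theorem pointDataAt_chartInf
    (D : NUData K ↥(L0 A (M * q * q)) L (kV A) (Fin 3) Z (kap3 (FM A M) (FM A M)) K' L' L₁ L₂)
    (hInt : Fermat.Agent.S36.NU.H82.Stmt_CuspInt A q M)
    (hbr : ∀ 𝔪 : Ideal (chartInf A q M B k hB hq hqM hA ht).B, 𝔪.IsMaximal →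
      (∀ β : (chartInf A q M B k hB hq hqM hA ht).B,
        (β : ↥(L0 A (M * q * q))) = (j0 A (M * q * q))⁻¹ → β ∈ 𝔪) →
      ∀ i, (chartInf A q M B k hB hq hqM hA ht).Icomp i ≤ 𝔪 →
        Nonempty (Branch (chartInf A q M B k hB hq hqM hA ht) 𝔪 i)) :
    ∀ 𝔪 : Ideal (chartInf A q M B k hB hq hqM hA ht).B, 𝔪.IsMaximal →
      (∃ i, (chartInf A q M B k hB hq hqM hA ht).Icomp i ≤ 𝔪) →
      (∀ β : (chartInf A q M B k hB hq hqM hA ht).B,
        (β : ↥(L0 A (M * q * q))) = (j0 A (M * q * q))⁻¹ → β ∈ 𝔪) →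
      PointDataAt (chartInf A q M B k hB hq hqM hA ht) D ((q : ℕ) : ↥(Rur A)) 𝔪 := by
  intro 𝔪 hmax hex hu
  haveI : 𝔪.IsPrime := hmax.isPrime
  obtain ⟨i, hi⟩ := hex
  obtain ⟨hL, h1⟩ := cusp_locEq_chartInf A q M B k hB hq hqM hA ht hInt 𝔪 hu i hi
  exact ⟨hbr 𝔪 hmax hu, hL, Or.inl ⟨i, h1⟩⟩

end Inst

end Fermat.Agent.S36.NU.H88
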