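import Fermat.Agent.S36.NU.H91_HssAsm23
import Fermat.Agent.S36.NU.H79_NuMDefs

/-!
# S36 / NU-B, HSS-ASM in the shape of `H99.pointData_of_dichotomy` (helper91)

For a modular instance `D` of `NUData` (`hD : H79.IsNuM D`, i.e. `D.T = totM`, `D.SS = ssM`,
`D.i₂₀ = 0`):

* `vanAt_pt_congr` : transport of the condition `VanAt (T.pt i z) (C.rdB i β)`;
* `hss_D_of` : the adapter from the `totM`-form of `hss` (helper16 `hss_gen`, helper74 `hss_core`,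
  `hss_small`) to the `D`-form (`∀ z ∈ D.SS, … VanAt (D.T.pt D.i₂₀ z) (C.rdB D.i₂₀ β) …`);
* `hss_small_D`, `hss_small_chart0_D` : **the hypothesis `hss` of `H99.pointData_of_dichotomy`**
  for `q = 3` (`4 ∣ M`) and `q = 2` (`9 ∣ M`).
-/

set_option autoImplicit false
set_option linter.style.haveILetI false
set_option linter.unusedSectionVars false
set_option synthInstance.maxHeartbeats 400000
set_option maxHeartbeats 1000000

noncomputable section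

open Polynomial AlgebraicCurve IntermediateField ModularCurve

namespace Fermat.Agent.S36.NU.H91

open Fermat.Agent.S24 Fermat.Agent.BAD.H88 Fermat.Agent.BAD.H30 Fermat.Agent.BAD.H21
open Fermat.Agent.S28 Fermat.Agent.S28.H73 Fermat.Agent.RED.H73 Fermat.Agent.RED.H17
open Fermat.Agent.S36.NU.H88 Fermat.Agent.S36.NU.H23 Fermat.Agent.S36.NU.H16
open Fermat.Agent.S36.NU.H41 Fermat.Agent.S36.NU.H73 Fermat.Agent.S36.NU.H65
open Fermat.Agent.S36.NU.H5 Fermat.Agent.S36.NU.H74 Fermat.Agent.S36.NU.H24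
open Fermat.Agent.S36.NU.H79
open Fermat.Agent.RED Fermat.Agent.BAD

section Abs

variable {R K F L k ι Z : Type*} {κ : ι → Type*} [CommRing R] [Field K] [Field F] [Field L]
  [Algebra K L] [Algebra F L] [Algebra R F] [Field k] [Fintype ι] [∀ i, Field (κ i)]
  [∀ i, Algebra k (κ i)]

/-- Transport of the vanishing condition along `T = T'`, `i = i'`. -/
theorem vanAt_pt_congr {T T' : TotN K F L k ι Z κ} {i i' : ι} (hT : T = T') (hi : i = i')
    (C : Chart R F k ι κ) (z : Z) (β : C.B) :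
    VanAt (T.pt i z) (C.rdB i β) ↔ VanAt (T'.pt i' z) (C.rdB i' β) := by
  subst hT
  subst hi
  rfl

end Abs

section Mod

variable (A : ValuationSubring Kbar) (q M : ℕ) (B k : ℤ) (hB : B * M + k * q = 1)
  (hq : q.Prime) [NeZero M] [NeZero q] [NeZero (M * q)] [NeZero (M * q * q)] (hqM : ¬ q ∣ M)
  (hA : A.LiesOverPrime q) (ht : H91.TameAt M q)

attribute [local instance] algkM

/-- **The adapter**: `hss` for a modular instance `D` from `hss` for `totM`, `ssM`. -/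
theorem hss_D_of (D : NUDataM A q M) (hD : IsNuM A q M B k hB hq hqM hA ht D)
    (C : Chart ↥(Rur A) ↥(L0 A (M * q * q)) (kV A) (Fin 3) (kap3 (FM A M) (FM A M)))
    (qR : ↥(Rur A))
    (h : ∀ z ∈ ssM A q M, ∀ 𝔪 : Ideal C.B, 𝔪.IsMaximal →
      (∀ β : C.B, β ∈ 𝔪 ↔
        VanAt ((totM A q M B k hB hq hqM hA ht).pt 0 z) (C.rdB 0 β)) →
      Nonempty (LocEq C qR 𝔪)) :
    ∀ z ∈ D.SS, ∀ 𝔪 : Ideal C.B, 𝔪.IsMaximal →
      (∀ β : C.B, β ∈ 𝔪 ↔ VanAt (D.T.pt D.i₂₀ z) (C.rdB D.i₂₀ β)) →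
      Nonempty (LocEq C qR 𝔪) := by
  intro z hz 𝔪 hmax hv
  have hz' : z ∈ ssM A q M := by
    rw [← hD.hSS]
    exact hz
  refine h z hz' 𝔪 hmax fun β => ?_
  rw [hv β]
  exact vanAt_pt_congr hD.hT hD.hi₂₀ C z β

/-- **`hss` of `H99.pointData_of_dichotomy` for `q = 3` (`4 ∣ M`), `q = 2` (`9 ∣ M`)**, for a
chart compatible with `totM` satisfying `H99.ChartL0`. -/
theorem hss_small_D (h23 : (q = 3 ∧ 4 ∣ M) ∨ (q = 2 ∧ 9 ∣ M))
    (D : NUDataM A q M) (hD : IsNuM A q M B k hB hq hqM hA ht D)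
    (C : Chart ↥(Rur A) ↥(L0 A (M * q * q)) (kV A) (Fin 3) (kap3 (FM A M) (FM A M)))
    (hc : Compat C (totM A q M B k hB hq hqM hA ht)) (e : Fin 3 → ℕ)
    (S : H99.ChartL0 A q M B k hB hq C ((q : ℕ) : ↥(Rur A)) e 0 1 2) :
    ∀ z ∈ D.SS, ∀ 𝔪 : Ideal C.B, 𝔪.IsMaximal →
      (∀ β : C.B, β ∈ 𝔪 ↔ VanAt (D.T.pt D.i₂₀ z) (C.rdB D.i₂₀ β)) →
      Nonempty (LocEq C ((q : ℕ) : ↥(Rur A)) 𝔪) :=
  hss_D_of A q M B k hB hq hqM hA ht D hD C _
    (hss_small A q M B k hB hq hqM hA ht h23 C hc e S)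

/-- **`hss` of `H99.pointData_of_dichotomy` for `q = 3` (`4 ∣ M`), `q = 2` (`9 ∣ M`)** on
helper88's `chart0` (hypotheses `hG`, `hthree` of TI3-VAL as in helper16's `hss_gen`). -/
theorem hss_small_chart0_D (h23 : (q = 3 ∧ 4 ∣ M) ∨ (q = 2 ∧ 9 ∣ M))
    (D : NUDataM A q M) (hD : IsNuM A q M B k hB hq hqM hA ht D) (i₀ : Fin 3)
    (hG : ∀ p : (↥(Kur A))[X],
      aeval (j0 A (M * q * q)) p ∈ (totM A q M B k hB hq hqM hA ht).V i₀ →
        ∀ i, p.coeff i ∈ (algebraMap ↥(Rur A) ↥(Kur A)).range)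
    (hthree : ∀ f : ↥(L0 A (M * q * q)),
      (∀ i, f ∈ (totM A q M B k hB hq hqM hA ht).V i) →
      ∃ P : (↥(L0 A (M * q * q)))[X], P.Monic ∧
        (∀ m, P.coeff m ∈ (totM A q M B k hB hq hqM hA ht).V i₀ ∧
          P.coeff m ∈ IntermediateField.adjoin ↥(Kur A) {j0 A (M * q * q)}) ∧
        P.eval f = 0) :
    ∀ z ∈ D.SS, ∀ 𝔪 : Ideal (chart0 A q M B k hB hq hqM hA ht).B, 𝔪.IsMaximal →
      (∀ β : (chart0 A q M B k hB hq hqM hA ht).B, β ∈ 𝔪 ↔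
        VanAt (D.T.pt D.i₂₀ z) ((chart0 A q M B k hB hq hqM hA ht).rdB D.i₂₀ β)) →
      Nonempty (LocEq (chart0 A q M B k hB hq hqM hA ht) ((q : ℕ) : ↥(Rur A)) 𝔪) :=
  hss_D_of A q M B k hB hq hqM hA ht D hD _ _
    (hss_small_chart0 A q M B k hB hq hqM hA ht h23 i₀ hG hthree)

end Mod

end Fermat.Agent.S36.NU.H91
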