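import Fermat.Agent.S36.NU.H99_OrdMod3
import Fermat.Agent.S36.NU.H88_ChartInt
import Fermat.Agent.S36.NU.H22_ValE

/-!
# S36 / NU-B, leaf CHARTL0-INST (helper22): `H99.ChartL0` for the charts of `j` and `1/j`

* `chartL0_chart0`   : helper99's structure `H99.ChartL0` at helper88's chart `chart0` of `j`,
  with `qR = q`, `e = ![1, q - 1, 1]`, `(i₂₀, i₁₁, i₀₂) = (0, 1, 2)`, from the hypotheses `hG`
  (Gauss) and `hthree` (THREE) of helper17's TI3-VAL (= the hypotheses of `H88.jdd_mem_intSub`).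
-/

set_option autoImplicit false
set_option synthInstance.maxHeartbeats 400000
set_option maxHeartbeats 1000000
set_option linter.unusedSectionVars false
set_option linter.style.haveILetI false

noncomputable section

open IntermediateField ModularCurve AlgebraicCurve Polynomial
open Fermat.Agent.S24 Fermat.Agent.BAD.H88 Fermat.Agent.S28 Fermat.Agent.S28.H73
open Fermat.Agent.RED.H73 Fermat.Agent.RED.H17

namespace Fermat.Agent.S36.NU.H22

open Fermat.Agent.S36.NU.H16 Fermat.Agent.S36.NU.H17 Fermat.Agent.S36.NU.H24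
  Fermat.Agent.S36.NU.H65 Fermat.Agent.S36.NU.H79 Fermat.Agent.S36.NU.H23
  Fermat.Agent.S36.NU.H41 Fermat.Agent.S36.NU.H88 Fermat.Agent.BAD

section Inst

variable (A : ValuationSubring Kbar) (q M : ℕ) (B k : ℤ) (hB : B * M + k * q = 1) (hq : q.Prime)
  [NeZero M] [NeZero q] [NeZero (M * q)] [NeZero (M * q * q)] (hqM : ¬ q ∣ M)
  (hA : A.LiesOverPrime q) (ht : H91.TameAt M q)

attribute [local instance] algkM

/-- **CHARTL0-INST** for the chart of `j`. -/
theorem chartL0_chart0 (i₀ : Fin 3)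
    (hG : ∀ p : (↥(Kur A))[X],
      aeval (j0 A (M * q * q)) p ∈ (totM A q M B k hB hq hqM hA ht).V i₀ →
        ∀ i, p.coeff i ∈ (algebraMap ↥(Rur A) ↥(Kur A)).range)
    (hthree : ∀ f : ↥(L0 A (M * q * q)),
      (∀ i, f ∈ (totM A q M B k hB hq hqM hA ht).V i) →
      ∃ P : (↥(L0 A (M * q * q)))[X], P.Monic ∧
        (∀ m, P.coeff m ∈ (totM A q M B k hB hq hqM hA ht).V i₀ ∧
          P.coeff m ∈ (↥(Kur A))⟮j0 A (M * q * q)⟯) ∧ P.eval f = 0) :
    H99.ChartL0 A q M B k hB hq (chart0 A q M B k hB hq hqM hA ht) ((q : ℕ) : ↥(Rur A))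
      ![1, q - 1, 1] 0 1 2 := by
  have hqR : algebraMap ↥(Rur A) ↥(L0 A (M * q * q)) ((q : ℕ) : ↥(Rur A))
      = ((q : ℕ) : ↥(L0 A (M * q * q))) := map_natCast _ q
  have hcases : ∀ i : Fin 3, i = 0 ∨ i = 1 ∨ i = 2 := by
    intro i
    fin_cases i
    · exact Or.inl rfl
    · exact Or.inr (Or.inl rfl)
    · exact Or.inr (Or.inr rfl)
  have hV20 : (chart0 A q M B k hB hq hqM hA ht).V 0 = V20o A q M := rfl
  have hV11 : (chart0 A q M B k hB hq hqM hA ht).V 1 = V11o A q M B k hB hq := rfl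
  have hV02 : (chart0 A q M B k hB hq hqM hA ht).V 2 = V02o A q M B k hB := rfl
  refine
    { hqR := hqR
      hqV := q_mem_nonunits A q M B k hB hq hqM hA _ _ hqR 0 1 2 hcases hV20 hV11 hV02
      crit := ?_
      hint := ?_
      hE := valE_mod A q M B k hB hq hqM hA _ _ hqR _ 0 1 2 hcases rfl rfl rfl hV20 hV11 hV02
      hcases := hcases
      he₂₀ := rfl
      he₁₁ := rfl
      he₀₂ := rfl
      hV20 := hV20
      hV11 := hV11
      hV02 := hV02 }
  · intro f hf hV
    exact isIntegral_adjoin_of_forall_mem ↥(Rur A) ↥(Kur A) (j0 A (M * q * q))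
      (transcendental_j0 A (M * q * q)) (totM A q M B k hB hq hqM hA ht).V i₀ hG hthree hf hV
  · intro x hx
    exact isIntegral_adjoin_field ↥(Rur A) ↥(Kur A) (j0 A (M * q * q)) hx

end Inst

end Fermat.Agent.S36.NU.H22
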