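import Fermat.Agent.S36.NU.H99_PtAsm
import Fermat.Agent.S36.NU.H99_OrdMod5
import Fermat.Agent.S36.NU.H22_ChartL0
import Fermat.Agent.S36.NU.H88_Gauss
import Fermat.Agent.S36.NU.H79_NuMDefs
import Fermat.Agent.S36.NU.H74_FinHyps

/-!
# S36 / NU-B, (M4) the local data of the chart of `j` (helper99): assembly

* `chartL0_mod` : the hypotheses `ChartL0` for helper88's chart `chart0` of `j` (unconditional:
  helper22's `chartL0_chart0` with helper88's `hG_chart0`, `hthree_totM`);
* `wit0` : the ordinary witnesses `(E20, eps1, E02)` in the coordinate ring of `chart0`;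
* `pointData_chart0_of` : **`PointData chart0 D q`** for a modular datum `D`, from the middle
  ordinary points, the three point hypotheses, the supersingular local equations and the
  branches.
-/

set_option autoImplicit false
set_option synthInstance.maxHeartbeats 400000
set_option maxHeartbeats 1000000
set_option linter.unusedSectionVars false
set_option linter.style.haveILetI false

noncomputable section

open ModularCurve AlgebraicCurve IntermediateField
open Fermat.Agent.S24 Fermat.Agent.BAD Fermat.Agent.BAD.H88 Fermat.Agent.S28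
open Fermat.Agent.S28.H73 Fermat.Agent.RED.H73 Fermat.Agent.RED.H17
open Fermat.Agent.S36.NU.H88 Fermat.Agent.S36.NU.H23 Fermat.Agent.S36.NU.H41
open Fermat.Agent.S36.NU.H24 Fermat.Agent.S36.NU.H79 Fermat.Agent.S36.NU.H74
open Fermat.Agent.S36.NU.H65

namespace Fermat.Agent.S36.NU.H99

open Fermat.Agent.S36.NU.H16 (Chart LocEq Branch)

section Pt0

variable (A : ValuationSubring Kbar) (q M : ℕ) (B k : ℤ) (hB : B * M + k * q = 1) (hq : q.Prime)
  [NeZero M] [NeZero q] [NeZero (M * q)] [NeZero (M * q * q)]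
  (hqM : ¬ q ∣ M) (hA : A.LiesOverPrime q) (ht : H91.TameAt M q)

attribute [local instance] algkM

/-- **`ChartL0` for the chart of `j`.** -/
theorem chartL0_mod :
    ChartL0 A q M B k hB hq (chart0 A q M B k hB hq hqM hA ht) ((q : ℕ) : ↥(Rur A))
      ![1, q - 1, 1] 0 1 2 :=
  Fermat.Agent.S36.NU.H22.chartL0_chart0 A q M B k hB hq hqM hA ht 0
    (hG_chart0 A q M B k hB hq hqM hA ht) (hthree_totM A q M B k hB hq hqM hA ht)

/-- **The ordinary witnesses** `(E20, eps1, E02)` in the coordinate ring of the chart of `j`. -/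
def wit0 : Fin 3 → (chart0 A q M B k hB hq hqM hA ht).B :=
  (chartL0_mod A q M B k hB hq hqM hA ht).wit3 hA

theorem coe_wit0_zero :
    ((wit0 A q M B k hB hq hqM hA ht 0 : (chart0 A q M B k hB hq hqM hA ht).B) :
      ↥(L0 A (M * q * q))) = E20o A q M := rfl

theorem coe_wit0_one :
    ((wit0 A q M B k hB hq hqM hA ht 1 : (chart0 A q M B k hB hq hqM hA ht).B) :
      ↥(L0 A (M * q * q))) = eps1o A q M := rfl

theorem coe_wit0_two :
    ((wit0 A q M B k hB hq hqM hA ht 2 : (chart0 A q M B k hB hq hqM hA ht).B) :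
      ↥(L0 A (M * q * q))) = E02o A q M := rfl

/-- **The local data of the chart of `j`**, from the middle ordinary points (`hmid`), the three
point hypotheses (`hnc`, `hsurj`, `hSSchar`), the local equations at the supersingular points
(`hss`) and the branches (`hbr`). -/
theorem pointData_chart0_of (D : NUDataM A q M) (hD : IsNuM A q M B k hB hq hqM hA ht D)
    (hmid : (chartL0_mod A q M B k hB hq hqM hA ht).Mid)
    (hnc : ∀ i : Fin 3, ∃ β : (chart0 A q M B k hB hq hqM hA ht).B,
      ∀ c : kV A, (chart0 A q M B k hB hq hqM hA ht).rdB i β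
        ≠ algebraMap (kV A) (kap3 (FM A M) (FM A M) i) c)
    (hsurj : ∀ (i : Fin 3) (v : Place (kV A) (kap3 (FM A M) (FM A M) i)),
      (∀ β : (chart0 A q M B k hB hq hqM hA ht).B,
        RegAt v ((chart0 A q M B k hB hq hqM hA ht).rdB i β)) →
      ∃ z, (totM A q M B k hB hq hqM hA ht).pt i z = v)
    (hSSchar : ∀ (i : Fin 3) (z : Place (kV A) (FM A M)),
      (∀ β : (chart0 A q M B k hB hq hqM hA ht).B,
        RegAt ((totM A q M B k hB hq hqM hA ht).pt i z)
          ((chart0 A q M B k hB hq hqM hA ht).rdB i β)) →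
      VanAt ((totM A q M B k hB hq hqM hA ht).pt i z)
        ((chart0 A q M B k hB hq hqM hA ht).rdB i (wit0 A q M B k hB hq hqM hA ht i)) →
      z ∈ ssM A q M)
    (hss : ∀ z ∈ ssM A q M, ∀ 𝔪 : Ideal (chart0 A q M B k hB hq hqM hA ht).B, 𝔪.IsMaximal →
      (∀ β : (chart0 A q M B k hB hq hqM hA ht).B,
        β ∈ 𝔪 ↔ VanAt ((totM A q M B k hB hq hqM hA ht).pt 0 z)
          ((chart0 A q M B k hB hq hqM hA ht).rdB 0 β)) →
      Nonempty (LocEq (chart0 A q M B k hB hq hqM hA ht) ((q : ℕ) : ↥(Rur A)) 𝔪))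
    (hbr : ∀ 𝔪 : Ideal (chart0 A q M B k hB hq hqM hA ht).B, 𝔪.IsMaximal → ∀ i,
      (chart0 A q M B k hB hq hqM hA ht).Icomp i ≤ 𝔪 →
      Nonempty (Branch (chart0 A q M B k hB hq hqM hA ht) 𝔪 i)) :
    PointData (chart0 A q M B k hB hq hqM hA ht) D ((q : ℕ) : ↥(Rur A)) := by
  haveI : IsAlgClosed (kV A) := Fermat.Agent.RED.H73.isAlgClosed_kV A
  haveI : IsNoetherianRing ↥(chart0 A q M B k hB hq hqM hA ht).B :=
    isNoetherianRing_chart0 A q M hq hA
  have hT := hD.hT
  have hSSeq := hD.hSS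
  have h20 := hD.hi₂₀
  refine pointData_of_dichotomy (chart0 A q M B k hB hq hqM hA ht) D ((q : ℕ) : ↥(Rur A))
    (by rw [hT]; exact compat_chart0 A q M B k hB hq hqM hA ht)
    (Fermat.Agent.S36.NU.H74.hasPrincipalDivisors_FN (M * q * q))
    (by
      rw [hT, hSSeq]
      exact inChart_ssM A q M B k hB hq hqM hA ht _ rfl)
    (wit0 A q M B k hB hq hqM hA ht) hnc
    (by rw [hT]; exact hsurj)
    (by rw [hT, hSSeq]; exact hSSchar)
    (by rw [hT, hSSeq, h20]; exact hss)
    hbr
    (hord_mod (chartL0_mod A q M B k hB hq hqM hA ht) hA hmid)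

end Pt0

end Fermat.Agent.S36.NU.H99
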