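import Fermat.Agent.S36.NU.H10_Close
import Fermat.Agent.S36.NU.H99_Pt0
import Fermat.Agent.S36.NU.H88_CuspAsm
import Fermat.Agent.S36.NU.H17_BranchMod
import Fermat.Agent.S36.NU.H74_HssFinal
import Fermat.Agent.S36.NU.H91_HssD
import Fermat.Agent.S36.NU.H73_CuspIntB
import Fermat.Agent.S36.NU.H31_CuspIntE02

/-!
# S36 / NU-B, INPUTS (helper10): the two point-data statements from the last three leaves

Plugged (landed, unconditional): `H99.pointData_chart0_of` (helper99), `H17.branch_chart0`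
(helper17), `H74.hss_five_unc` (helper74), `H91.hss_small` (helper91), `H99.ChartL0.mid_u4`
(helper99), `H88.pointDataAt_chartInf` (helper88), (CUSP-INT) `H82.isIntegral_E20oo` (helper82),
`H31C.isIntegral_E02oo` (helper31), `H73.isIntegral_E11oo`, `H73.isIntegral_x11oo` (helper73).

What REMAINS:

* `Stmt_MidSmall`  : the middle ordinary points for `q = 2, 3` (helper65);
* `Stmt_PtHypsAll` : `hnc`, `hsurj`, `hSSchar` for the chart of `j` (helper41);
* `Stmt_BrooAll`   : the branches at the cusps of the chart of `1 / j` (helper44).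
-/

set_option autoImplicit false
set_option synthInstance.maxHeartbeats 400000
set_option maxHeartbeats 1000000
set_option linter.style.haveILetI false
set_option linter.unusedSectionVars false

noncomputable section

open ModularCurve AlgebraicCurve

namespace Fermat.Agent.S36.NU.H10

open Fermat.Agent.S24 Fermat.Agent.BAD Fermat.Agent.BAD.H88 Fermat.Agent.S28 Fermat.Agent.S28.H73
  Fermat.Agent.S36.NU.H23 Fermat.Agent.S36.NU.H79 Fermat.Agent.S36.NU.H81
  Fermat.Agent.S36.NU.H41 Fermat.Agent.S36.NU.H88 Fermat.Agent.S36.NU.H16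
  Fermat.Agent.S36.NU.H17 Fermat.Agent.S36.NU.H24 Fermat.Agent.S36.NU.H65
  Fermat.Agent.S36.NU.H74 Fermat.Agent.RED.H73 Fermat.Agent.RED.H17

attribute [local instance] algkM

/-- **(CUSP-INT)** (helpers 82, 31, 73). -/
theorem stmt_CuspInt_all (A : ValuationSubring Kbar) (q M : ℕ) (hq : q.Prime)
    [NeZero M] [NeZero q] [NeZero (M * q)] [NeZero (M * q * q)] :
    Fermat.Agent.S36.NU.H82.Stmt_CuspInt A q M := by
  intro x hx
  simp only [Set.mem_insert_iff, Set.mem_singleton_iff] at hx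
  rcases hx with rfl | rfl | rfl | rfl
  · exact Fermat.Agent.S36.NU.H82.isIntegral_E20oo A q M hq
  · exact Fermat.Agent.S36.NU.H31C.isIntegral_E02oo A q M hq
  · exact Fermat.Agent.S36.NU.H73.isIntegral_E11oo A q M hq
  · exact Fermat.Agent.S36.NU.H73.isIntegral_x11oo A q M hq

/-- The middle ordinary points for `q = 2, 3`. -/
def Stmt_MidSmall : Prop :=
  ∀ (A : ValuationSubring Kbar) (q M : ℕ) (B k : ℤ) (hB : B * M + k * q = 1) (hq : q.Prime)
    [NeZero M] [NeZero q] [NeZero (M * q)] [NeZero (M * q * q)]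
    (hqM : ¬ q ∣ M) (hA : A.LiesOverPrime q) (ht : H91.TameAt M q),
    (q = 3 ∧ 4 ∣ M) ∨ (q = 2 ∧ 9 ∣ M) →
    (Fermat.Agent.S36.NU.H99.chartL0_mod A q M B k hB hq hqM hA ht).Mid

/-- The three point hypotheses of the chart of `j`. -/
def Stmt_PtHypsAll : Prop :=
  ∀ (A : ValuationSubring Kbar) (q M : ℕ) (B k : ℤ) (hB : B * M + k * q = 1) (hq : q.Prime)
    [NeZero M] [NeZero q] [NeZero (M * q)] [NeZero (M * q * q)]
    (hqM : ¬ q ∣ M) (hA : A.LiesOverPrime q) (ht : H91.TameAt M q),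
    (5 ≤ q ∧ 4 ∣ M) ∨ (q = 3 ∧ 4 ∣ M) ∨ (q = 2 ∧ 9 ∣ M) →
    (∀ i : Fin 3, ∃ β : (chart0 A q M B k hB hq hqM hA ht).B,
      ∀ c : kV A, (chart0 A q M B k hB hq hqM hA ht).rdB i β
        ≠ algebraMap (kV A) (kap3 (FM A M) (FM A M) i) c) ∧
    (∀ (i : Fin 3) (v : Place (kV A) (kap3 (FM A M) (FM A M) i)),
      (∀ β : (chart0 A q M B k hB hq hqM hA ht).B,
        RegAt v ((chart0 A q M B k hB hq hqM hA ht).rdB i β)) →
      ∃ z, (totM A q M B k hB hq hqM hA ht).pt i z = v) ∧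
    (∀ (i : Fin 3) (z : Place (kV A) (FM A M)),
      (∀ β : (chart0 A q M B k hB hq hqM hA ht).B,
        RegAt ((totM A q M B k hB hq hqM hA ht).pt i z)
          ((chart0 A q M B k hB hq hqM hA ht).rdB i β)) →
      VanAt ((totM A q M B k hB hq hqM hA ht).pt i z)
        ((chart0 A q M B k hB hq hqM hA ht).rdB i
          (Fermat.Agent.S36.NU.H99.wit0 A q M B k hB hq hqM hA ht i)) →
      z ∈ ssM A q M)

/-- The branches at the cusps of the chart of `1 / j`. -/
def Stmt_BrooAll : Prop :=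
  ∀ (A : ValuationSubring Kbar) (q M : ℕ) (B k : ℤ) (hB : B * M + k * q = 1) (hq : q.Prime)
    [NeZero M] [NeZero q] [NeZero (M * q)] [NeZero (M * q * q)]
    (hqM : ¬ q ∣ M) (hA : A.LiesOverPrime q) (ht : H91.TameAt M q),
    (5 ≤ q ∧ 4 ∣ M) ∨ (q = 3 ∧ 4 ∣ M) ∨ (q = 2 ∧ 9 ∣ M) →
    ∀ 𝔪 : Ideal (chartInf A q M B k hB hq hqM hA ht).B, 𝔪.IsMaximal →
      (∀ β : (chartInf A q M B k hB hq hqM hA ht).B,
        (β : ↥(L0 A (M * q * q))) = (j0 A (M * q * q))⁻¹ → β ∈ 𝔪) →
      ∀ i, (chartInf A q M B k hB hq hqM hA ht).Icomp i ≤ 𝔪 →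
        Nonempty (Branch (chartInf A q M B k hB hq hqM hA ht) 𝔪 i)

/-- **`Stmt_Pt0All`** from the middle ordinary points for `q = 2, 3` and the three point
hypotheses. -/
theorem stmt_Pt0All_of (hmid : Stmt_MidSmall) (hpt : Stmt_PtHypsAll) : Stmt_Pt0All := by
  intro A q M B k hB hq _ _ _ _ hqM hA ht hc D hD
  obtain ⟨hnc, hsurj, hSSchar⟩ := hpt A q M B k hB hq hqM hA ht hc
  rcases hc with ⟨h5, h4⟩ | h23
  · exact Fermat.Agent.S36.NU.H99.pointData_chart0_of A q M B k hB hq hqM hA ht D hD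
      ((Fermat.Agent.S36.NU.H99.chartL0_mod A q M B k hB hq hqM hA ht).mid_u4 hA h5 h4)
      hnc hsurj hSSchar
      (hss_five_unc A q M B k hB hq hqM hA ht h5 h4)
      (branch_chart0 A q M B k hB hq hqM hA ht)
  · exact Fermat.Agent.S36.NU.H99.pointData_chart0_of A q M B k hB hq hqM hA ht D hD
      (hmid A q M B k hB hq hqM hA ht h23)
      hnc hsurj hSSchar
      (Fermat.Agent.S36.NU.H91.hss_small A q M B k hB hq hqM hA ht h23
        (chart0 A q M B k hB hq hqM hA ht) (compat_chart0 A q M B k hB hq hqM hA ht) _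
        (Fermat.Agent.S36.NU.H99.chartL0_mod A q M B k hB hq hqM hA ht))
      (branch_chart0 A q M B k hB hq hqM hA ht)

/-- **`Stmt_PtooAll`** from the branches at the cusps. -/
theorem stmt_PtooAll_of (hbr : Stmt_BrooAll) : Stmt_PtooAll := by
  intro A q M B k hB hq _ _ _ _ hqM hA ht hc D _
  exact pointDataAt_chartInf A q M B k hB hq hqM hA ht D (stmt_CuspInt_all A q M hq)
    (hbr A q M B k hB hq hqM hA ht hc)

/-- **`Stmt_NUCoreTame`** from the last three leaves. -/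
theorem nuCoreTame_inputs (hmid : Stmt_MidSmall) (hpt : Stmt_PtHypsAll) (hbr : Stmt_BrooAll) :
    Stmt_NUCoreTame :=
  nuCoreTame_close (stmt_Pt0All_of hmid hpt) (stmt_PtooAll_of hbr)

end Fermat.Agent.S36.NU.H10
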