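import Fermat.Agent.S36.NU.H81_NUCore
import Fermat.Agent.BAD.H91_Rho

/-!
# S36 / NU-B (helper10): the tameness hypotheses of the leaves from `TameNU (M q) q`

For `q` prime, `q ∤ M`: `H81.TameNU (M * q) q` (`4 ∣ M q` if `q ≠ 2`, `9 ∣ M q` if `q = 2`) gives
* `four_dvd_of_tameNU` : `q ≠ 2 → 4 ∣ M`;
* `nine_dvd_of_tameNU` : `q = 2 → 9 ∣ M`;
* `tameAt_of_tameNU` : `BAD.H91.TameAt M q` (`5 ≤ q ∨ (q = 3 ∧ 2 ∣ M) ∨ (q = 2 ∧ 3 ∣ M)`);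
* `cases_of_tameNU` : `(5 ≤ q ∧ 4 ∣ M) ∨ (q = 3 ∧ 4 ∣ M) ∨ (q = 2 ∧ 9 ∣ M)`.
-/

set_option autoImplicit false

namespace Fermat.Agent.S36.NU.H10

open Fermat.Agent.S36.NU.H81

theorem four_dvd_of_tameNU {q M : ℕ} (hq : q.Prime) (ht : TameNU (M * q) q) (h2 : q ≠ 2) :
    4 ∣ M := by
  rcases ht with ⟨-, h4⟩ | ⟨h, -⟩
  · have hodd : Nat.Coprime 4 q := by
      have h2q : Nat.Coprime 2 q :=
        (Nat.coprime_primes Nat.prime_two hq).2 (fun h => h2 h.symm)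
      have : Nat.Coprime (2 ^ 2) q := Nat.Coprime.pow_left 2 h2q
      simpa using this
    exact hodd.dvd_of_dvd_mul_right h4
  · exact absurd h h2

theorem nine_dvd_of_tameNU {q M : ℕ} (ht : TameNU (M * q) q) (h2 : q = 2) : 9 ∣ M := by
  rcases ht with ⟨h, -⟩ | ⟨-, h9⟩
  · exact absurd h2 h
  · subst h2
    have hc : Nat.Coprime 9 2 := by decide
    exact hc.dvd_of_dvd_mul_right h9

theorem cases_of_tameNU {q M : ℕ} (hq : q.Prime) (ht : TameNU (M * q) q) :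
    (5 ≤ q ∧ 4 ∣ M) ∨ (q = 3 ∧ 4 ∣ M) ∨ (q = 2 ∧ 9 ∣ M) := by
  by_cases h2 : q = 2
  · exact Or.inr (Or.inr ⟨h2, nine_dvd_of_tameNU ht h2⟩)
  · have h4 := four_dvd_of_tameNU hq ht h2
    by_cases h3 : q = 3
    · exact Or.inr (Or.inl ⟨h3, h4⟩)
    · refine Or.inl ⟨?_, h4⟩
      have h2' := hq.two_le
      by_contra hlt
      have hq4 : q = 4 := by omega
      subst hq4
      exact absurd hq (by decide)

theorem tameAt_of_tameNU {q M : ℕ} (hq : q.Prime) (ht : TameNU (M * q) q) :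
    Fermat.Agent.BAD.H91.TameAt M q := by
  rcases cases_of_tameNU hq ht with ⟨h5, -⟩ | ⟨h3, h4⟩ | ⟨h2, h9⟩
  · exact Or.inl h5
  · exact Or.inr (Or.inl ⟨h3, Dvd.dvd.trans (by decide) h4⟩)
  · exact Or.inr (Or.inr ⟨h2, Dvd.dvd.trans (by decide) h9⟩)

end Fermat.Agent.S36.NU.H10
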