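import Fermat.Agent.S36.NU.H23_Mod4
import Fermat.Agent.S36.NU.H10_FinTopDefs
import Fermat.Agent.S36.NU.H88_ChartAlg
import Fermat.Agent.S36.NU.H79_B3

/-!
# S36 / NU-B, INST-B (helper15): the three bridges of `H65.finMod_of`

Setting of helper65's `finMod_of` (`S36/NU/H65_Inst2.lean`): `F = L0 A (M q²)`, `R = Rur A`,
`D.T = H23.totM`.

* `rdN_ne_zero_iff` (abstract, any `TotN`): for `h ≠ 0`, `T.rdN i h ≠ 0 ↔ h, h⁻¹ ∈ T.V i`;
* `isUnit3_iff_rdN` : for `h ≠ 0`, `H10.IsUnit3 h ↔ ∀ i, totM.rdN i h ≠ 0`;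
* `hunit_totM` : the hypothesis `hunit` of `finMod_of` for `D.T = totM`;
* `hunit_of_eq` : the same for any `T` equal to `totM`;
* `hconst_L0` : the hypothesis `hconst` of `finMod_of`: an element of `L0 A N` integral over
  `Rur A` is a constant;
* `hN_of_isNormPow0`, `hN_of_isNormPow0_L0` : the hypotheses `hNα`, `hNβ` of `finMod_of` from
  `H10.IsNormPow0`, for a norm map `Nm` with values in `FN (M q)` (resp. in `L0 A (M q)` over
  `Kur A`) which is the norm along `φ`.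
-/

set_option autoImplicit false
set_option synthInstance.maxHeartbeats 400000
set_option maxHeartbeats 1000000
set_option linter.style.haveILetI false
set_option linter.unusedSectionVars false

noncomputable section

open ModularCurve AlgebraicCurve

namespace Fermat.Agent.S36.NU.H15

open Fermat.Agent.S24 Fermat.Agent.BAD Fermat.Agent.BAD.H88 Fermat.Agent.Lib.HeckeComm
  Fermat.Agent.S36.NU.H23 Fermat.Agent.S36.NU.H41 Fermat.Agent.S36.NU.H88
  Fermat.Agent.S36.NU.H79 Fermat.Agent.S36.NU.H10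

/-! ### (a) units -/

section Abstract

variable {K L₀ L k ι Z : Type*} {E : ι → Type*} [Field K] [Field L₀] [Field L]
  [Algebra K L] [Algebra L₀ L] [Field k] [Fintype ι] [∀ i, Field (E i)]
  [∀ i, Algebra k (E i)] (T : TotN K L₀ L k ι Z E)

/-- A non-zero `h` with `h, h⁻¹ ∈ V i` has non-zero reduction. -/
theorem rdN_ne_zero_of_mem {i : ι} {h : L₀} (h0 : h ≠ 0) (hm : h ∈ T.V i) (hi : h⁻¹ ∈ T.V i) :
    T.rdN i h ≠ 0 := by
  intro hz
  have h1 : T.rdN i (h⁻¹ * h) = T.rdN i h⁻¹ * T.rdN i h := T.rdN_mul hi hm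
  rw [inv_mul_cancel₀ h0, T.rdN_one, hz, mul_zero] at h1
  exact one_ne_zero h1

/-- For `h ≠ 0`: the reduction of `h` is non-zero iff `h` is a unit of the valuation ring. -/
theorem rdN_ne_zero_iff {i : ι} {h : L₀} (h0 : h ≠ 0) :
    T.rdN i h ≠ 0 ↔ h ∈ T.V i ∧ h⁻¹ ∈ T.V i :=
  ⟨fun hu => ⟨T.mem_of_rdN_ne_zero hu, T.inv_mem_of_rdN_ne_zero hu⟩,
    fun hm => rdN_ne_zero_of_mem T h0 hm.1 hm.2⟩

end Abstract

section Units

attribute [local instance] algkM

variable (A : ValuationSubring Kbar) (q M : ℕ) (B k : ℤ) (hB : B * M + k * q = 1) (hq : q.Prime)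
  [NeZero M] [NeZero q] [NeZero (M * q * q)] (hqM : ¬ q ∣ M) (hA : A.LiesOverPrime q)
  (ht : H91.TameAt M q)

/-- **INST-B (a)**: for `h ≠ 0`, `h` is a unit for the three valuations iff its three reductions
are non-zero. -/
theorem isUnit3_iff_rdN (h : ↥(L0 A (M * q * q))) (h0 : h ≠ 0) :
    IsUnit3 A q M B k hB hq h ↔ ∀ i, (totM A q M B k hB hq hqM hA ht).rdN i h ≠ 0 := by
  constructor
  · rintro ⟨⟨a1, a2⟩, ⟨b1, b2⟩, ⟨c1, c2⟩⟩ i
    fin_cases i
    · exact rdN_ne_zero_of_mem (totM A q M B k hB hq hqM hA ht) (i := 0) h0 a1 a2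
    · exact rdN_ne_zero_of_mem (totM A q M B k hB hq hqM hA ht) (i := 1) h0 b1 b2
    · exact rdN_ne_zero_of_mem (totM A q M B k hB hq hqM hA ht) (i := 2) h0 c1 c2
  · intro hu
    exact ⟨(rdN_ne_zero_iff (totM A q M B k hB hq hqM hA ht) (i := 0) h0).1 (hu 0),
      (rdN_ne_zero_iff (totM A q M B k hB hq hqM hA ht) (i := 1) h0).1 (hu 1),
      (rdN_ne_zero_iff (totM A q M B k hB hq hqM hA ht) (i := 2) h0).1 (hu 2)⟩

/-- **INST-B (a)**, the hypothesis `hunit` of `H65.finMod_of` for `D.T = totM`. -/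
theorem hunit_totM :
    ∀ h : ↥(L0 A (M * q * q)), h ≠ 0 → IsUnit3 A q M B k hB hq h →
      ∀ i, (totM A q M B k hB hq hqM hA ht).rdN i h ≠ 0 :=
  fun h h0 hU => (isUnit3_iff_rdN A q M B k hB hq hqM hA ht h h0).1 hU

/-- The converse: units for `totM` are units for the three valuations. -/
theorem isUnit3_of_rdN (h : ↥(L0 A (M * q * q)))
    (hu : ∀ i, (totM A q M B k hB hq hqM hA ht).rdN i h ≠ 0) :
    IsUnit3 A q M B k hB hq h :=
  ⟨⟨(totM A q M B k hB hq hqM hA ht).mem_of_rdN_ne_zero (hu 0),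
      (totM A q M B k hB hq hqM hA ht).inv_mem_of_rdN_ne_zero (hu 0)⟩,
    ⟨(totM A q M B k hB hq hqM hA ht).mem_of_rdN_ne_zero (hu 1),
      (totM A q M B k hB hq hqM hA ht).inv_mem_of_rdN_ne_zero (hu 1)⟩,
    ⟨(totM A q M B k hB hq hqM hA ht).mem_of_rdN_ne_zero (hu 2),
      (totM A q M B k hB hq hqM hA ht).inv_mem_of_rdN_ne_zero (hu 2)⟩⟩

end Units

/-! ### (b) integral over `Rur A` ⟹ constant -/

section Const

variable (A : ValuationSubring Kbar) (N : ℕ) [NeZero N]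

/-- An element of a field extension of an algebraically closed field which is integral over it
is a constant. -/
theorem exists_const_of_isIntegral {k₀ F₀ : Type*} [Field k₀] [IsAlgClosed k₀] [Field F₀]
    [Algebra k₀ F₀] {x : F₀} (hx : IsIntegral k₀ x) : ∃ c : k₀, x = algebraMap k₀ F₀ c := by
  have hdeg : (minpoly k₀ x).degree = 1 :=
    IsAlgClosed.degree_eq_one_of_irreducible k₀ (minpoly.irreducible hx)
  obtain ⟨c, hc⟩ := minpoly.mem_range_of_degree_eq_one k₀ x hdeg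
  exact ⟨c, hc.symm⟩

/-- An element of `L0 A N` integral over `Rur A` is integral over `ℚ̄` in `F_N`. -/
theorem isIntegral_Kbar_of_Rur (x : ↥(L0 A N)) (hx : IsIntegral ↥(Rur A) x) :
    IsIntegral Kbar (x : FN N) := by
  obtain ⟨p, hp, hpx⟩ := hx
  let φ : ↥(Rur A) →+* Kbar := (algebraMap ↥(Kur A) Kbar).comp (algebraMap ↥(Rur A) ↥(Kur A))
  refine ⟨p.map φ, hp.map φ, ?_⟩
  rw [Polynomial.eval₂_map]
  have e : (algebraMap Kbar (FN N)).comp φ
      = (L0 A N).subtype.comp (algebraMap ↥(Rur A) ↥(L0 A N)) := rfl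
  have h1 := Polynomial.hom_eval₂ p (algebraMap ↥(Rur A) ↥(L0 A N)) (L0 A N).subtype x
  rw [hpx, map_zero] at h1
  rw [e]
  exact h1.symm

/-- **INST-B (b)**, the hypothesis `hconst` of `H65.finMod_of`: an inertia-fixed function
integral over `Rur A` is a constant. -/
theorem hconst_L0 :
    ∀ x : ↥(L0 A N), IsIntegral ↥(Rur A) x →
      ∃ c : Kbar, (x : FN N) = algebraMap Kbar (FN N) c :=
  fun x hx => exists_const_of_isIntegral (isIntegral_Kbar_of_Rur A N x hx)

end Const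

/-! ### (c) the norms -/

section Norm

variable (A : ValuationSubring Kbar) (q M : ℕ) [NeZero M] [NeZero q] [NeZero (M * q * q)]

/-- **INST-B (c)**, the hypotheses `hNα`, `hNβ` of `H65.finMod_of` with `K' = ℚ̄`,
`L' = F_{Mq}`: for a norm map `Nm` which is the norm along `φ`. -/
theorem hN_of_isNormPow0 (φ : FN (M * q) →ₐ[Kbar] FN (M * q * q))
    (Nm : ↥(L0 A (M * q * q)) →* FN (M * q))
    (hNm : ∀ h : ↥(L0 A (M * q * q)), Nm h = normAlongHom φ.toRingHom (h : FN (M * q * q))) :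
    ∀ (n : ℕ) (h : ↥(L0 A (M * q * q))), IsNormPow0 A q M φ n (h : FN (M * q * q)) →
      ∃ (c : Kbar) (g : FN (M * q)), Nm h = algebraMap Kbar (FN (M * q)) c * g ^ n := by
  rintro n h ⟨c, g, -, -, hcg⟩
  exact ⟨c, g, (hNm h).trans hcg⟩

end Norm

end Fermat.Agent.S36.NU.H15
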