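import Fermat.Agent.S36.NU.H44_Hor
import Fermat.Agent.S36.NU.H88_ChartOf
import Fermat.Agent.S36.NU.H88_ChartAlg

/-!
# S36 / NU-B, INST-A (helper74): instances of the hypotheses of `H24.fin_local` / `H65.fin_local'`

Setting: `F = L0 A N` (inertia-fixed functions of level `N`), `R = Rur A`, `Kf = Kur A`
(helper41), `j = j0 A N` (helper88), `A` over the prime `q`.

* `isNoetherianRing_Rur`, `isIntegrallyClosed_Rur` : `R` is noetherian and integrally closed;
* `hfg_inv`, `hfg` : **(a)** `MInt R j⁻¹ H n` and `MInt R j H n` are finitely generated;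
* `isNoetherianRing_B0`, `isFractionRing_B0`, `isNoetherianRing_Boo`, `isFractionRing_Boo` :
  **(c)** for `B = intSub R j` and `B = intSub R j⁻¹`; `isNoetherianRing_chart`,
  `isFractionRing_chart` for a chart with such a coordinate ring;
* `const_mem_of_Rur` : a valuation ring of `F` containing `R` and `1 / q` contains the constants;
* `hor_inst` : **(b)** (HOR) for every chart over `R`, from helper44's `stmt_HOR`
  (the exponent `E₀` depends only on `N`).
-/

set_option autoImplicit false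
set_option synthInstance.maxHeartbeats 400000
set_option maxHeartbeats 1000000
set_option linter.style.haveILetI false
set_option linter.unusedSectionVars false

noncomputable section

open ModularCurve AlgebraicCurve IntermediateField

namespace Fermat.Agent.S36.NU.H74

open Fermat.Agent.S24 Fermat.Agent.BAD.H88 Fermat.Agent.S36.NU.H88 Fermat.Agent.S36.NU.H23
  Fermat.Agent.S36.NU.H16 Fermat.Agent.S36.NU.H24 Fermat.Agent.S36.NU.H65
  Fermat.Agent.S36.NU.H41 Fermat.Agent.S36.NU.H17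

section InstA

variable (A : ValuationSubring Kbar) (q : ℕ) (hq : q.Prime) (hA : A.LiesOverPrime q)
  (N : ℕ) [NeZero N]

include hq hA in
/-- `Rur A` is noetherian. -/
theorem isNoetherianRing_Rur : IsNoetherianRing ↥(Rur A) := by
  haveI := isDiscreteValuationRing_Rur A q hq hA
  infer_instance

/-- `Rur A` is integrally closed. -/
theorem isIntegrallyClosed_Rur : IsIntegrallyClosed ↥(Rur A) := inferInstance

/-! ### (a) finiteness -/

include hq hA in
/-- **(a) `hfg`** for the chart at infinity. -/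
theorem hfg_inv (H : ↥(L0 A N)) (hH : H ≠ 0) (n : ℕ) (hn : 0 < n) :
    (MInt ↥(Rur A) (j0 A N)⁻¹ H n hn).FG := by
  haveI := isNoetherianRing_Rur A q hq hA
  exact MInt_inv_fg_of_finite ↥(Rur A) ↥(Kur A) (j0 A N) (transcendental_j0 A N) H n hn hH

include hq hA in
/-- **(a)** for the chart `0`. -/
theorem hfg (H : ↥(L0 A N)) (hH : H ≠ 0) (n : ℕ) (hn : 0 < n) :
    (MInt ↥(Rur A) (j0 A N) H n hn).FG := by
  haveI := isNoetherianRing_Rur A q hq hA
  exact MInt_fg_of_finite ↥(Rur A) ↥(Kur A) (j0 A N) (transcendental_j0 A N) H n hn hH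

/-! ### (c) the coordinate rings -/

theorem finiteDimensional_inv :
    FiniteDimensional ↥((↥(Kur A))⟮(j0 A N)⁻¹⟯) ↥(L0 A N) := by
  rw [adjoin_inv_eq]
  exact finiteDimensional_L0 A N

theorem isSeparable_inv :
    Algebra.IsSeparable ↥((↥(Kur A))⟮(j0 A N)⁻¹⟯) ↥(L0 A N) := by
  rw [adjoin_inv_eq]
  exact isSeparable_L0 A N

theorem transcendental_j0_inv : Transcendental ↥(Kur A) (j0 A N)⁻¹ :=
  fun halg => transcendental_j0 A N (IsAlgebraic.inv_iff.mp halg)

include hq hA in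
theorem isNoetherianRing_B0 : IsNoetherianRing ↥(intSub ↥(Rur A) (j0 A N)) := by
  haveI := isNoetherianRing_Rur A q hq hA
  exact isNoetherianRing_intSub ↥(Rur A) ↥(Kur A) (j0 A N) (transcendental_j0 A N)

theorem isFractionRing_B0 : IsFractionRing ↥(intSub ↥(Rur A) (j0 A N)) ↥(L0 A N) :=
  isFractionRing_intSub ↥(Rur A) ↥(Kur A) (j0 A N)

include hq hA in
theorem isNoetherianRing_Boo : IsNoetherianRing ↥(intSub ↥(Rur A) (j0 A N)⁻¹) := by
  haveI := isNoetherianRing_Rur A q hq hA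
  haveI := finiteDimensional_inv A N
  haveI := isSeparable_inv A N
  exact isNoetherianRing_intSub ↥(Rur A) ↥(Kur A) (j0 A N)⁻¹ (transcendental_j0_inv A N)

theorem isFractionRing_Boo : IsFractionRing ↥(intSub ↥(Rur A) (j0 A N)⁻¹) ↥(L0 A N) := by
  haveI := finiteDimensional_inv A N
  exact isFractionRing_intSub ↥(Rur A) ↥(Kur A) (j0 A N)⁻¹

variable {k ι : Type*} {κ : ι → Type*} [Field k] [∀ i, Field (κ i)] [∀ i, Algebra k (κ i)]

include hq hA in
/-- **(c)** a chart with coordinate ring `intSub R j` or `intSub R j⁻¹` is noetherian. -/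
theorem isNoetherianRing_chart (C : Chart ↥(Rur A) ↥(L0 A N) k ι κ)
    (hC : C.B = intSub ↥(Rur A) (j0 A N) ∨ C.B = intSub ↥(Rur A) (j0 A N)⁻¹) :
    IsNoetherianRing ↥C.B := by
  rcases hC with h | h
  · rw [h]; exact isNoetherianRing_B0 A q hq hA N
  · rw [h]; exact isNoetherianRing_Boo A q hq hA N

/-- **(c)** `F` is the fraction field of such a chart. -/
theorem isFractionRing_chart (C : Chart ↥(Rur A) ↥(L0 A N) k ι κ)
    (hC : C.B = intSub ↥(Rur A) (j0 A N) ∨ C.B = intSub ↥(Rur A) (j0 A N)⁻¹) :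
    IsFractionRing ↥C.B ↥(L0 A N) := by
  rcases hC with h | h
  · rw [h]; exact isFractionRing_B0 A N
  · rw [h]; exact isFractionRing_Boo A N

/-! ### (b) HOR -/

include hq hA in
/-- A valuation ring of `L0 A N` which contains `Rur A` and `1 / q` contains the constants. -/
theorem const_mem_of_Rur (W : ValuationSubring ↥(L0 A N))
    (hR : ∀ r : ↥(Rur A), algebraMap ↥(Rur A) ↥(L0 A N) r ∈ W)
    (hqW : (algebraMap ↥(Rur A) ↥(L0 A N) ((q : ℕ) : ↥(Rur A)))⁻¹ ∈ W)
    (c : ↥(L0 A N)) (hc : ∃ c' : Kbar, (c : FN N) = algebraMap Kbar (FN N) c') : c ∈ W := by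
  obtain ⟨c', hc'⟩ := hc
  have hcK : c' ∈ Kur A := by
    rw [mem_Kur]
    have h1 : algebraMap Kbar (FN N) c' ∈ L0 A N := hc' ▸ c.2
    exact (const_mem_L0_iff A c').1 h1
  by_cases h0 : c' = 0
  · have : c = 0 := Subtype.ext (by rw [hc', h0, map_zero]; rfl)
    rw [this]
    exact W.zero_mem
  have hy0 : (⟨c', hcK⟩ : ↥(Kur A)) ≠ 0 := fun h => h0 (congrArg Subtype.val h)
  obtain ⟨m, u, hu⟩ := exists_unit_mul_zpow A q hq hA ⟨c', hcK⟩ hy0
  -- `c = u * q ^ m`
  set Q : ↥(L0 A N) := algebraMap ↥(Rur A) ↥(L0 A N) ((q : ℕ) : ↥(Rur A)) with hQ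
  have e : c = algebraMap ↥(Rur A) ↥(L0 A N) (u : ↥(Rur A)) * Q ^ m := by
    have h1 : c = algebraMap ↥(Kur A) ↥(L0 A N) ⟨c', hcK⟩ := Subtype.ext hc'
    have h2 : algebraMap ↥(Kur A) ↥(L0 A N) (((u : ↥(Rur A)) : ↥(Kur A)))
        = algebraMap ↥(Rur A) ↥(L0 A N) (u : ↥(Rur A)) := rfl
    have h3 : algebraMap ↥(Kur A) ↥(L0 A N) ((q : ℕ) : ↥(Kur A)) = Q := by
      rw [hQ, map_natCast, map_natCast]
    rw [h1, hu, map_mul, map_zpow₀, h2, h3]
  rw [e]
  refine W.mul_mem _ _ (hR _) ?_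
  rcases Int.le_total 0 m with hm | hm
  · obtain ⟨a, rfl⟩ := Int.eq_ofNat_of_zero_le hm
    rw [zpow_natCast]
    exact W.pow_mem (hR _) a
  · obtain ⟨a, ha⟩ := Int.eq_ofNat_of_zero_le (neg_nonneg.2 hm)
    have : m = -(a : ℤ) := by omega
    rw [this, zpow_neg, zpow_natCast, ← inv_pow]
    exact W.pow_mem hqW a

/-- **(b) HOR**: there is an exponent `E₀ ≠ 0` (depending only on `N`) such that for every
inertia-fixed function `h ≠ 0` whose divisor over `ℚ̄` is divisible by `n`, the function `h ^ E₀`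
satisfies (HOR) in every chart over `Rur A`. -/
theorem hor_inst (N : ℕ) [NeZero N] :
    ∃ E₀ : ℕ, E₀ ≠ 0 ∧ ∀ (A : ValuationSubring Kbar) (q : ℕ), q.Prime → A.LiesOverPrime q →
      ∀ (n : ℕ) (h : ↥(L0 A N)), h ≠ 0 →
      (∀ P : Place Kbar (FN N), (n : ℤ) ∣ P.ord (h : FN N)) →
      ∀ {k ι : Type*} {κ : ι → Type*} [Field k] [∀ i, Field (κ i)] [∀ i, Algebra k (κ i)]
        (C : Chart ↥(Rur A) ↥(L0 A N) k ι κ),
        HOR C ((q : ℕ) : ↥(Rur A)) n (h ^ E₀) := by
  obtain ⟨E₀, hE₀, hH⟩ := Fermat.Agent.S36.NU.H44.stmt_HOR N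
  refine ⟨E₀, hE₀, ?_⟩
  intro A q hq hA n h hh0 hdiv k ι κ _ _ _ C W hB hqW hW
  refine hH A n h hh0 hdiv W (fun c hc => ?_) hW
  refine const_mem_of_Rur A q hq hA N W (fun r => ?_) hqW c hc
  exact hB ⟨algebraMap ↥(Rur A) ↥(L0 A N) r, C.B.algebraMap_mem r⟩

end InstA

end Fermat.Agent.S36.NU.H74
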