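import Fermat.Agent.GTor.H75_DescDefs

/-!
# S36 / NU-B, leaf (L2-i) NORMAL-IMG, part 3 (helper17): generation `F_C = C · F_K`

`ι : K → C` fields with `C` integral over `K`, `F₀` a field of rational `q`-expansions,
`ψ = coeffMap ι`.

* `mem_span_coeffMap_of_mem_laurentBaseChange` : every element of `laurentBaseChange C F₀` is a
  `C`-linear combination of elements `ψ g`, `g ∈ laurentBaseChange K F₀`.
-/

set_option autoImplicit false
set_option linter.style.haveILetI false
set_option linter.unusedSectionVars false

noncomputable section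

open ModularCurve Polynomial

namespace Fermat.Agent.S36.NU.H17

section Gen

variable {K C : Type} [Field K] [Field C] [Algebra ℚ K] [Algebra ℚ C] (ι : K →+* C)
  (F₀ : IntermediateField ℚ (LaurentSeries ℚ))

/-- The `C`-span of a multiplicatively closed set is multiplicatively closed. -/
theorem mul_mem_span_of_mul_mem {S : Set (LaurentSeries C)}
    (hS : ∀ x ∈ S, ∀ y ∈ S, x * y ∈ S) {x y : LaurentSeries C}
    (hx : x ∈ Submodule.span C S) (hy : y ∈ Submodule.span C S) :
    x * y ∈ Submodule.span C S := by
  induction hx using Submodule.span_induction with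
  | mem x hx =>
    induction hy using Submodule.span_induction with
    | mem y hy => exact Submodule.subset_span (hS x hx y hy)
    | zero => rw [mul_zero]; exact Submodule.zero_mem _
    | add y z _ _ hy hz => rw [mul_add]; exact Submodule.add_mem _ hy hz
    | smul a y _ hy =>
      rw [← HahnSeries.C_mul_eq_smul, mul_left_comm, HahnSeries.C_mul_eq_smul]
      exact Submodule.smul_mem _ _ hy
  | zero => rw [zero_mul]; exact Submodule.zero_mem _
  | add x z _ _ hx hz => rw [add_mul]; exact Submodule.add_mem _ hx hz
  | smul a x _ hx =>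
    rw [← HahnSeries.C_mul_eq_smul, mul_assoc, HahnSeries.C_mul_eq_smul]
    exact Submodule.smul_mem _ _ hx

/-- **(GEN)**: if `C` is integral over `K`, the function field over `C` is spanned over `C` by
the function field over `K`. -/
theorem mem_span_coeffMap_of_mem_laurentBaseChange
    (halg : ∀ c : C, ι.IsIntegralElem c) {x : LaurentSeries C}
    (hx : x ∈ laurentBaseChange C F₀) :
    x ∈ Submodule.span C (⇑(coeffMap ι) '' (laurentBaseChange K F₀ : Set (LaurentSeries K))) := by
  set F' := laurentBaseChange K F₀ with hF'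
  set T : Submodule C (LaurentSeries C) :=
    Submodule.span C (⇑(coeffMap ι) '' (F' : Set (LaurentSeries K))) with hT
  letI : Algebra ↥F' (LaurentSeries C) :=
    ((coeffMap ι).comp (algebraMap ↥F' (LaurentSeries K))).toAlgebra
  have hmap : ∀ g : ↥F', algebraMap ↥F' (LaurentSeries C) g = coeffMap ι (g : LaurentSeries K) :=
    fun g => rfl
  have hψT : ∀ g : LaurentSeries K, g ∈ F' → coeffMap ι g ∈ T := fun g hg =>
    Submodule.subset_span ⟨g, hg, rfl⟩
  have hmulS : ∀ x ∈ ⇑(coeffMap ι) '' (F' : Set (LaurentSeries K)),
      ∀ y ∈ ⇑(coeffMap ι) '' (F' : Set (LaurentSeries K)),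
      x * y ∈ ⇑(coeffMap ι) '' (F' : Set (LaurentSeries K)) := by
    rintro _ ⟨g, hg, rfl⟩ _ ⟨g', hg', rfl⟩
    exact ⟨g * g', F'.mul_mem hg hg', map_mul _ _ _⟩
  have hconstT : ∀ c : C, algebraMap C (LaurentSeries C) c ∈ T := fun c => by
    have h1 : algebraMap C (LaurentSeries C) c = c • (coeffMap ι (1 : LaurentSeries K)) := by
      rw [map_one, ← HahnSeries.C_mul_eq_smul, mul_one, algebraMap_laurentSeries_eq_single]
      rfl
    rw [h1]
    exact Submodule.smul_mem _ _ (hψT 1 F'.one_mem)
  -- the subalgebra generated over `F'` by the constants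
  set T' : Subalgebra ↥F' (LaurentSeries C) :=
    Algebra.adjoin ↥F' (Set.range (algebraMap C (LaurentSeries C))) with hT'
  have hT'T : ∀ b ∈ T', b ∈ T := by
    intro b hb
    induction hb using Algebra.adjoin_induction with
    | mem b hb =>
      obtain ⟨c, rfl⟩ := hb
      exact hconstT c
    | algebraMap g => rw [hmap]; exact hψT _ g.2
    | add b b' _ _ hb hb' => exact T.add_mem hb hb'
    | mul b b' _ _ hb hb' => exact mul_mem_span_of_mul_mem hmulS hb hb'
  -- constants are integral over `F'`
  have hcomp : (algebraMap ↥F' (LaurentSeries C)).comp (algebraMap K ↥F')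
      = (algebraMap C (LaurentSeries C)).comp ι := by
    refine RingHom.ext fun k => ?_
    show coeffMap ι (algebraMap K (LaurentSeries K) k) = algebraMap C (LaurentSeries C) (ι k)
    exact Fermat.Agent.GTor.H75.coeffMap_algebraMap' ι k
  have hconstInt : ∀ c : C, IsIntegral ↥F' (algebraMap C (LaurentSeries C) c) := by
    intro c
    obtain ⟨p, hp, hpc⟩ := halg c
    refine ⟨p.map (algebraMap K ↥F'), hp.map _, ?_⟩
    rw [eval₂_map, hcomp, ← hom_eval₂, hpc, map_zero]
  have hint : ∀ b ∈ T', IsIntegral ↥F' b := by
    intro b hb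
    have hle : T' ≤ integralClosure ↥F' (LaurentSeries C) := by
      apply Algebra.adjoin_le
      rintro _ ⟨c, rfl⟩
      exact hconstInt c
    exact hle hb
  -- `T'` contains the function field over `C`
  have key : ∀ z ∈ laurentBaseChange C F₀, z ∈ T' := by
    intro z hz
    rw [mem_laurentBaseChange_iff] at hz
    induction hz using Subfield.closure_induction with
    | mem y hy =>
      rcases hy with ⟨a, rfl⟩ | ⟨w, hw, rfl⟩
      · exact Algebra.subset_adjoin ⟨a, rfl⟩
      · have h1 : coeffEmb C w
            = algebraMap ↥F' (LaurentSeries C) ⟨coeffEmb K w, coeffEmb_mem_laurentBaseChange K hw⟩ := by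
          rw [hmap]
          exact (Fermat.Agent.GTor.H75.coeffMap_coeffEmb' ι w).symm
        rw [h1]
        exact T'.algebraMap_mem _
    | one => exact T'.one_mem
    | add y z _ _ hy hz => exact T'.add_mem hy hz
    | neg y _ hy => exact T'.neg_mem hy
    | inv y _ hy => exact (hint y hy).inv_mem hy
    | mul y z _ _ hy hz => exact T'.mul_mem hy hz
  exact hT'T x (key x hx)

end Gen

end Fermat.Agent.S36.NU.H17
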