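import Fermat.Agent.S36.NU.H17_Normal
import Fermat.Agent.S36.NU.H17_NormalGen
import Fermat.Agent.RED.H76_GoodChartJ
import Fermat.Agent.S36.NU.H42_Surj
import Fermat.Agent.S36.NU.H41_DvrUr

/-!
# S36 / NU-B, leaf (L2-i) NORMAL-IMG, part 4 (helper17): inertia-fixed chart-normality

`A` a valuation ring of `ℚ̄` over `q`, `M` a level prime to `q`, `x ∈ F_M` an inertia-fixed
Gauss-integral function such that the chart `x` is normal over `ℚ̄` (`H79.ChartNormal`).

* `isIntegralElem_of_isIntegral_adjoin` : integrality over `C[x]` implies integrality over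
  `K[x]` (for `C / K` integral);
* `normalImg_of_chartNormal` : every element of the residue field integral over `k[x~]` is the
  reduction of an **inertia-fixed** Gauss-integral function, integral over `K^ur[x]`;
* `normalImg_good` (chart `j`, `q ≥ 5`), `normalImg_good_inv` (chart `1/j`).
-/

set_option autoImplicit false
set_option linter.style.haveILetI false
set_option linter.unusedSectionVars false
set_option synthInstance.maxHeartbeats 400000
set_option maxHeartbeats 1000000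

noncomputable section

open ModularCurve AlgebraicCurve Polynomial Fermat.Agent.S24 Fermat.Agent.S28
  Fermat.Agent.S28.H73 Fermat.Agent.RED.H73 Fermat.Agent.RED.H42 Fermat.Agent.BAD.H88
  Fermat.Agent.RED.H79

namespace Fermat.Agent.S36.NU.H17

section IntDescent

/-- Integrality over `C[x]` implies integrality over `K[x]`, if `C` is integral over `K`
(instance-free form: integrality for the ring homomorphism `K[X] → C[X] → F`). -/
theorem isIntegralElem_of_isIntegral_adjoin {K C F : Type*} [Field K] [Field C] [CommRing F]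
    [Algebra K C] [Algebra.IsIntegral K C] [Algebra C F] (x f : F)
    (hf : IsIntegral ↥(Algebra.adjoin C {x}) f) :
    ((aeval x : C[X] →ₐ[C] F).toRingHom.comp (mapRingHom (algebraMap K C))).IsIntegralElem f := by
  have h1 : (mapRingHom (algebraMap K C)).IsIntegral := by
    letI : Algebra K[X] C[X] := Polynomial.algebra K C
    have h0 : Algebra.IsIntegral K[X] C[X] := inferInstance
    exact algebraMap_isIntegral_iff.2 h0
  have hx : ∀ p : C[X], aeval x p ∈ Algebra.adjoin C {x} := fun p => by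
    rw [Algebra.adjoin_singleton_eq_range_aeval]
    exact ⟨p, rfl⟩
  let g : C[X] →+* ↥(Algebra.adjoin C {x}) :=
    (aeval x : C[X] →ₐ[C] F).toRingHom.codRestrict (Algebra.adjoin C {x}) hx
  have hg : Function.Surjective g := by
    rintro ⟨b, hb⟩
    have hb' := hb
    rw [Algebra.adjoin_singleton_eq_range_aeval] at hb'
    obtain ⟨p, hp⟩ := hb'
    exact ⟨p, Subtype.ext hp⟩
  have h2 : g.IsIntegral := g.isIntegral_of_surjective hg
  have h3 : (g.comp (mapRingHom (algebraMap K C))).IsIntegral := h1.trans _ _ h2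
  letI : Algebra K[X] ↥(Algebra.adjoin C {x}) := (g.comp (mapRingHom (algebraMap K C))).toAlgebra
  letI : Algebra K[X] F :=
    ((aeval x : C[X] →ₐ[C] F).toRingHom.comp (mapRingHom (algebraMap K C))).toAlgebra
  haveI : IsScalarTower K[X] ↥(Algebra.adjoin C {x}) F :=
    IsScalarTower.of_algebraMap_eq fun _ => rfl
  haveI : Algebra.IsIntegral K[X] ↥(Algebra.adjoin C {x}) := ⟨h3⟩
  exact isIntegral_trans f hf

end IntDescent

section Modular

variable (A : ValuationSubring Kbar)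

/-- `K^ur → ℚ̄`. -/
abbrev iotaUr : ↥(H41.Kur A) →+* Kbar := algebraMap ↥(H41.Kur A) Kbar

theorem iotaUr_fixed (σ : Kbar ≃ₐ[ℚ] Kbar) (hσ : σ ∈ A.inertiaSubgroupIn ℚ)
    (k : ↥(H41.Kur A)) : σ (iotaUr A k) = iotaUr A k :=
  H41.mem_Kur.1 k.2 σ hσ

theorem comp_iotaUr (σ : Kbar ≃ₐ[ℚ] Kbar) (hσ : σ ∈ A.inertiaSubgroupIn ℚ) :
    ((σ : Kbar ≃ₐ[ℚ] Kbar) : Kbar →+* Kbar).comp (iotaUr A) = iotaUr A :=
  RingHom.ext fun k => iotaUr_fixed A σ hσ k

/-- Teichmüller lifts in `K^ur`. -/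
theorem exists_res_iotaUr {q : ℕ} (hq : q.Prime) (hA : A.LiesOverPrime q) (a : ↥A) :
    ∃ r : ↥(A.comap (iotaUr A)), resV A (inclO (iotaUr A) A r) = resV A a := by
  obtain ⟨c, hc, hfix, hr⟩ := H42.exists_fixed_lift A hq hA (resV A a)
  exact ⟨⟨⟨c, H41.mem_Kur.2 hfix⟩, hc⟩, hr⟩

theorem isIntegralElem_iotaUr (c : Kbar) : (iotaUr A).IsIntegralElem c := by
  haveI : Algebra.IsAlgebraic ℚ Kbar := AlgebraicClosure.isAlgebraic ℚ
  have h1 : IsIntegral ℚ c := (Algebra.IsAlgebraic.isAlgebraic c).isIntegral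
  exact h1.tower_top (A := ↥(H41.Kur A))

theorem isIntegral_Kur_Kbar : Algebra.IsIntegral ↥(H41.Kur A) Kbar :=
  ⟨fun c => isIntegralElem_iotaUr A c⟩

variable (M : ℕ) [NeZero M]

/-- Integrality over `ℚ̄[x]` is stable under the arithmetic automorphisms fixing `x`. -/
theorem isIntegral_arith (x : FN M) (σ : Kbar ≃ₐ[ℚ] Kbar)
    (hσx : arithmeticRingAut (modularFunctionFieldFull M) σ x = x) {z : FN M}
    (hz : IsIntegral ↥(Algebra.adjoin Kbar {x}) z) :
    IsIntegral ↥(Algebra.adjoin Kbar {x}) (arithmeticRingAut (modularFunctionFieldFull M) σ z) := by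
  set Φ : FN M →+* FN M := (arithmeticRingAut (modularFunctionFieldFull M) σ).toRingHom with hΦ
  have hstab : ∀ b ∈ Algebra.adjoin Kbar {x}, Φ b ∈ Algebra.adjoin Kbar {x} := by
    intro b hb
    induction hb using Algebra.adjoin_induction with
    | mem b hb =>
      rw [Set.mem_singleton_iff] at hb
      subst hb
      have : Φ b = b := hσx
      rw [this]
      exact Algebra.subset_adjoin rfl
    | algebraMap c =>
      have : Φ (algebraMap Kbar (FN M) c) = algebraMap Kbar (FN M) (σ c) :=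
        arithmeticRingAut_algebraMap _ σ c
      rw [this]
      exact Subalgebra.algebraMap_mem _ _
    | add b b' _ _ hb hb' => rw [map_add]; exact add_mem hb hb'
    | mul b b' _ _ hb hb' => rw [map_mul]; exact mul_mem hb hb'
  let φ : ↥(Algebra.adjoin Kbar {x}) →+* ↥(Algebra.adjoin Kbar {x}) :=
    (Φ.comp (algebraMap ↥(Algebra.adjoin Kbar {x}) (FN M))).codRestrict
      (Algebra.adjoin Kbar {x}) (fun b => hstab b b.2)
  exact IsIntegral.map_of_comp_eq φ Φ (RingHom.ext fun b => rfl) hz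

/-- Series of level `M` integral over `ℚ̄[x]`, as a `ℚ̄`-subspace of `ℚ̄((t))`. -/
def intU (x : FN M) : Submodule Kbar (LaurentSeries Kbar) where
  carrier := {z | ∃ hz : z ∈ modularFunctionFieldBar M,
    IsIntegral ↥(Algebra.adjoin Kbar {x}) (⟨z, hz⟩ : FN M)}
  add_mem' := by
    rintro a b ⟨ha, ha'⟩ ⟨hb, hb'⟩
    exact ⟨add_mem ha hb, ha'.add hb'⟩
  zero_mem' := ⟨zero_mem _, isIntegral_zero⟩
  smul_mem' := by
    rintro c a ⟨ha, ha'⟩
    have hmem : c • a ∈ modularFunctionFieldBar M :=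
      smul_mem_intermediateField (modularFunctionFieldBar M) c ha
    refine ⟨hmem, ?_⟩
    have e : (⟨c • a, hmem⟩ : FN M) = algebraMap Kbar (FN M) c * ⟨a, ha⟩ := by
      apply Subtype.ext
      show c • a = algebraMap Kbar (LaurentSeries Kbar) c * a
      rw [← HahnSeries.C_mul_eq_smul, Fermat.Agent.RED.H42.C_eq_algebraMap]
    rw [e]
    have hc : IsIntegral ↥(Algebra.adjoin Kbar {x}) (algebraMap Kbar (FN M) c) := by
      have : algebraMap Kbar (FN M) c = algebraMap ↥(Algebra.adjoin Kbar {x}) (FN M)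
          ⟨algebraMap Kbar (FN M) c, Subalgebra.algebraMap_mem _ _⟩ := rfl
      rw [this]
      exact isIntegral_algebraMap
    exact hc.mul ha'

theorem mem_intU {x : FN M} {z : LaurentSeries Kbar} :
    z ∈ intU M x ↔ ∃ hz : z ∈ modularFunctionFieldBar M,
      IsIntegral ↥(Algebra.adjoin Kbar {x}) (⟨z, hz⟩ : FN M) := Iff.rfl

theorem intU_stable (x : FN M) (hxL : x ∈ H23.L0 A M) (σ : ↥(A.inertiaSubgroupIn ℚ))
    (z : LaurentSeries Kbar) (hz : z ∈ intU M x) :
    coeffMap (MulSemiringAction.toRingHom ↥(A.inertiaSubgroupIn ℚ) Kbar σ) z ∈ intU M x := by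
  obtain ⟨hzM, hzint⟩ := hz
  have e : coeffMap (MulSemiringAction.toRingHom ↥(A.inertiaSubgroupIn ℚ) Kbar σ) z
      = ((arithmeticRingAut (modularFunctionFieldFull M) (σ : Kbar ≃ₐ[ℚ] Kbar) ⟨z, hzM⟩ : FN M) :
        LaurentSeries Kbar) :=
    coeffMap_congr (RingHom.ext fun c => rfl) z
  have h1 := isIntegral_arith M x (σ : Kbar ≃ₐ[ℚ] Kbar) (hxL σ σ.2) hzint
  rw [e]
  exact ⟨(arithmeticRingAut (modularFunctionFieldFull M) (σ : Kbar ≃ₐ[ℚ] Kbar) ⟨z, hzM⟩).2, h1⟩

/-- **(L2-i) NORMAL-IMG, inertia-fixed form.**  If the chart `x` (inertia-fixed,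
Gauss-integral) is normal over `ℚ̄`, every element `y` of the residue field which is integral
over `k[x~]` is the reduction of an inertia-fixed Gauss-integral function `f`, integral over
`ℚ̄[x]` and over `K^ur[x]`; moreover `f` has coefficients in `K^ur`: `f = ψ f'` with `f'` in the
function field over `K^ur` and in the Gauss ring of `R^ur`. -/
theorem normalImg_of_chartNormal {q : ℕ} (hq : q.Prime) (hA : A.LiesOverPrime q)
    (x : FN M) (hxV : x ∈ VM A M) (hxL : x ∈ H23.L0 A M)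
    (hN : ChartNormal (redSetting A (hScM A M)) x hxV)
    (y : FM A M) (hy : IsIntegral ↥(Algebra.adjoin (kV A) {redM A M ⟨x, hxV⟩}) y) :
    ∃ f : FN M, f ∈ H23.L0 A M ∧ IsIntegral ↥(Algebra.adjoin Kbar {x}) f ∧
      ((aeval x : Kbar[X] →ₐ[Kbar] FN M).toRingHom.comp
        (mapRingHom (iotaUr A))).IsIntegralElem f ∧
      (∃ f' : LaurentSeries ↥(H41.Kur A),
        f' ∈ laurentBaseChange ↥(H41.Kur A) (modularFunctionFieldFull M) ∧
        f' ∈ gaussRingV (H41.Rur A) ∧ coeffMap (iotaUr A) f' = (f : LaurentSeries Kbar)) ∧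
      ∃ h : f ∈ VM A M, redM A M ⟨f, h⟩ = y := by
  obtain ⟨f₀, hf₀int, hf₀red⟩ := hN y hy
  have hfO : ((f₀ : FN M) : LaurentSeries Kbar) ∈ gaussRingV A := f₀.2
  have hfix : ∀ c : Kbar, (∀ σ : ↥(A.inertiaSubgroupIn ℚ), σ • c = c) → c ∈ (iotaUr A).range :=
    fun c hc => ⟨⟨c, H41.mem_Kur.2 fun σ hσ => hc ⟨σ, hσ⟩⟩, rfl⟩
  have hι : ∀ (σ : ↥(A.inertiaSubgroupIn ℚ)) (k : ↥(H41.Kur A)), σ • iotaUr A k = iotaUr A k :=
    fun σ k => iotaUr_fixed A σ σ.2 k
  obtain ⟨f', hf'F, hf'O, hf'U, h', hred⟩ := exists_rational_lift (iotaUr A) A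
    ↥(A.inertiaSubgroupIn ℚ) hfix hι (exists_res_iotaUr A hq hA)
    (laurentBaseChange ↥(H41.Kur A) (modularFunctionFieldFull M))
    (fracScalable_laurentBaseChange (A.comap (iotaUr A)) M)
    (intU M x) (intU_stable A M x hxL)
    ((f₀ : FN M) : LaurentSeries Kbar) ⟨(f₀ : FN M).2, hf₀int⟩ hfO
    (mem_span_coeffMap_of_mem_laurentBaseChange (iotaUr A) _ (isIntegralElem_iotaUr A)
      (f₀ : FN M).2)
  obtain ⟨hfM, hfint⟩ := hf'U
  haveI : Algebra.IsIntegral ↥(H41.Kur A) Kbar := isIntegral_Kur_Kbar A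
  refine ⟨⟨coeffMap (iotaUr A) f', hfM⟩, ?_, hfint,
    isIntegralElem_of_isIntegral_adjoin (K := ↥(H41.Kur A)) x _ hfint,
    ⟨f', hf'F, hf'O, rfl⟩, h', ?_⟩
  · rw [H23.mem_L0_iff_coeffMap]
    intro σ hσ
    show coeffMap (σ : Kbar →+* Kbar) (coeffMap (iotaUr A) f') = coeffMap (iotaUr A) f'
    rw [coeffMap_coeffMap, comp_iotaUr A σ hσ]
  · apply Subtype.ext
    rw [H42.coe_redM]
    show gaussRedV A ⟨coeffMap (iotaUr A) f', h'⟩ = (y : LaurentSeries (kV A))
    rw [hred, ← hf₀red]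
    rfl

/-- `j` is inertia-fixed. -/
theorem jF_mem_L0 : Fermat.Agent.RED.H73.jF (L := Kbar) M ∈ H23.L0 A M := by
  rw [← Fermat.Agent.RED.H76.jF_eq, Fermat.Agent.S24.jF_eq_jdF]
  exact H23.jdF_mem_L0 A M 1 (one_dvd M)

/-- **(L2-i) for the chart `j`**, `q ≥ 5`, `q ∤ M`.  The chart function is any `x` equal to
`j` (for instance `S24.jF M`, by `RED.H76.jF_eq`, or `RED.H73.jF M`, by `rfl`). -/
theorem normalImg_good {q : ℕ} (hq : q.Prime) (h5 : 5 ≤ q) (hA : A.LiesOverPrime q)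
    (hqM : ¬ q ∣ M) (x : FN M) (hx : x = Fermat.Agent.RED.H73.jF (L := Kbar) M)
    (hxV : x ∈ VM A M)
    (y : FM A M) (hy : IsIntegral ↥(Algebra.adjoin (kV A) {redM A M ⟨x, hxV⟩}) y) :
    ∃ f : FN M, f ∈ H23.L0 A M ∧ IsIntegral ↥(Algebra.adjoin Kbar {x}) f ∧
      ((aeval x : Kbar[X] →ₐ[Kbar] FN M).toRingHom.comp
        (mapRingHom (iotaUr A))).IsIntegralElem f ∧
      (∃ f' : LaurentSeries ↥(H41.Kur A),
        f' ∈ laurentBaseChange ↥(H41.Kur A) (modularFunctionFieldFull M) ∧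
        f' ∈ gaussRingV (H41.Rur A) ∧ coeffMap (iotaUr A) f' = (f : LaurentSeries Kbar)) ∧
      ∃ h : f ∈ VM A M, redM A M ⟨f, h⟩ = y := by
  subst hx
  exact normalImg_of_chartNormal A M hq hA _ hxV (jF_mem_L0 A M)
    (Fermat.Agent.RED.H76.goodChart_jF M hq hqM h5 A hA).normal y hy

/-- **(L2-i) for the chart `1/j`**, `q ∤ M`. -/
theorem normalImg_good_inv {q : ℕ} (hq : q.Prime) (hA : A.LiesOverPrime q)
    (hqM : ¬ q ∣ M) (x : FN M) (hx : x = (Fermat.Agent.RED.H73.jF (L := Kbar) M)⁻¹)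
    (hxV : x ∈ VM A M)
    (y : FM A M) (hy : IsIntegral ↥(Algebra.adjoin (kV A) {redM A M ⟨x, hxV⟩}) y) :
    ∃ f : FN M, f ∈ H23.L0 A M ∧ IsIntegral ↥(Algebra.adjoin Kbar {x}) f ∧
      ((aeval x : Kbar[X] →ₐ[Kbar] FN M).toRingHom.comp
        (mapRingHom (iotaUr A))).IsIntegralElem f ∧
      (∃ f' : LaurentSeries ↥(H41.Kur A),
        f' ∈ laurentBaseChange ↥(H41.Kur A) (modularFunctionFieldFull M) ∧
        f' ∈ gaussRingV (H41.Rur A) ∧ coeffMap (iotaUr A) f' = (f : LaurentSeries Kbar)) ∧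
      ∃ h : f ∈ VM A M, redM A M ⟨f, h⟩ = y := by
  subst hx
  exact normalImg_of_chartNormal A M hq hA _ hxV ((H23.L0 A M).inv_mem (jF_mem_L0 A M))
    (Fermat.Agent.RED.H76.goodChart_jF_inv M hq hqM A hA).normal y hy

end Modular

end Fermat.Agent.S36.NU.H17
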