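import Fermat.Agent.S36.NU.H79_Tot3
import Fermat.Agent.BAD.H42_NormRedR
import Fermat.Agent.BAD.H28_Tot
import Fermat.Agent.RED.H17_Local

/-!
# S36 / NU-B, leaf TOT3-MOD, step 1 (helper23): the law of total conservation from NORM-RED-r

Abstract bridge between helper42's norm reduction with ramification (`H42.NRData`, fields
`E₀ ⊆ L₀` with DISCRETE valuations; modular: the functions with coefficients in `K^ur`) and
helper79's conservation datum `TotN` (places of `L ⊇ L₀` over the algebraically closed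
field `K`; modular: `L = F_N · ℚ̄`, `E = F_{M'} · ℚ̄`).

Inputs:
* `D : NRData E₀ L₀ Et ι κ` with `∑ e i [κ i : Et] = [L₀ : E₀]`;
* `SE : RedSetup K E k E'`, the reduction datum of the lower level over `K`, compatible with
  `D.VE`, `D.redE` through `E₀ → E`, `j : Et → E'`;
* the norm formula for places of `L / E`, inertia degrees `1`;
* the norm of `L₀ / E₀` is the norm of `L / E` (`hNm`; modular: linear disjointness);
* the constants of `L₀` come from `E₀`;
* `ρ P = κz⁻¹ (SE.r (P | E))` and `ord_{κz z} (j (N_{κ i / Et} g)) = ord_{pt i z} g`.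

Output: `tot_of_normRedR` (the field `tot` of `TotN` with `m = D.e`) and `totN_of_normRedR`
(the structure `TotN`).
-/

set_option autoImplicit false
set_option linter.style.haveILetI false
set_option linter.unusedSectionVars false

noncomputable section

open AlgebraicCurve

attribute [local instance] Classical.propDecidable

namespace Fermat.Agent.S36.NU.H23

open Fermat.Agent.RED.H17 Fermat.Agent.RED Fermat.Agent.BAD Fermat.Agent.S36.NU.H79

variable {K E L k E' : Type} [Field K] [Field E] [Field L] [Field k] [Field E']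
  [Algebra K E] [Algebra K L] [Algebra E L] [IsScalarTower K E L] [Module.Finite E L]
  [Algebra k E']
  {E₀ L₀ Et : Type} [Field E₀] [Field L₀] [Field Et] [Algebra E₀ L₀] [Module.Finite E₀ L₀]
  [Algebra E₀ E] [Algebra L₀ L]
  {ι : Type} [Fintype ι] [DecidableEq ι] {κ : ι → Type} [∀ i, Field (κ i)]
  [∀ i, Algebra Et (κ i)] [∀ i, Module.Finite Et (κ i)] [∀ i, Algebra k (κ i)]
  {Z : Type}

/-- The residue maps of an `NRData` vanish exactly on the maximal ideal. -/
theorem nr_red_eq_zero_iff (D : H42.NRData E₀ L₀ Et ι κ) (i : ι) (u : ↥(D.V i)) :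
    D.red i u = 0 ↔ u ∈ IsLocalRing.maximalIdeal ↥(D.V i) := by
  rw [IsLocalRing.mem_maximalIdeal, mem_nonunits_iff]
  constructor
  · intro h hu
    exact (hu.map (D.red i)).ne_zero h
  · exact D.hker i u

/-- **TOT3-ABS (bridge)**: the law of total conservation for several valuations with
ramification, from NORM-RED-r and the conservation law of the lower level. -/
theorem tot_of_normRedR (SE : RedSetup K E k E') (hPE : HasPrincipalDivisors K E)
    (hin : ∀ w : Place K L, w.inertiaDeg E = 1)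
    (hnorm : Divisor.PushforwardNormFormula K E L)
    (D : H42.NRData E₀ L₀ Et ι κ)
    (hdeg : ∑ i, D.e i * Module.finrank Et (κ i) = Module.finrank E₀ L₀)
    (j : Et →+* E')
    (hsq : ∀ x : E₀, algebraMap E L (algebraMap E₀ E x) = algebraMap L₀ L (algebraMap E₀ L₀ x))
    (hNm : ∀ g : L₀, Algebra.norm E (algebraMap L₀ L g) = algebraMap E₀ E (Algebra.norm E₀ g))
    (hVE : ∀ a : E₀, a ∈ D.VE → algebraMap E₀ E a ∈ SE.V)
    (hredE : ∀ (a : ↥D.VE) (ha : algebraMap E₀ E (a : E₀) ∈ SE.V),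
      SE.red ⟨_, ha⟩ = j (D.redE a))
    (hconst : ∀ c : L₀, (∃ c' : K, algebraMap L₀ L c = algebraMap K L c') →
      ∃ c₀ : E₀, algebraMap E₀ L₀ c₀ = c)
    (ρ : Place K L → Z) (κz : Z → Place k E') (hκ : Function.Injective κz)
    (hρ : ∀ P : Place K L, κz (ρ P) = SE.r (P.restrict E))
    (pt : ∀ i, Z → Place k (κ i))
    (hN : ∀ (i : ι) (z : Z) (g : κ i), g ≠ 0 →
      (κz z).ord (j (Algebra.norm Et g)) = (pt i z).ord g) :
    ∀ (g : L₀) (c : ι → L₀),
      (∀ i, ∃ c' : K, c' ≠ 0 ∧ algebraMap L₀ L (c i) = algebraMap K L c') →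
      ∀ h : ∀ i, c i * g ∈ D.V i, (∀ i, D.red i ⟨_, h i⟩ ≠ 0) →
      ∀ Dv : Divisor K L, (∀ P, Dv P = P.ord (algebraMap L₀ L g)) → ∀ z : Z,
        Finsupp.mapDomain ρ Dv z = ∑ i, (D.e i : ℤ) * (pt i z).ord (D.red i ⟨_, h i⟩) := by
  intro g c hc h h0 Dv hDv z
  -- the constants
  choose c' hc'0 hc' using hc
  have hc₀ex : ∀ i, ∃ c₀ : E₀, algebraMap E₀ L₀ c₀ = c i := fun i => hconst (c i) ⟨c' i, hc' i⟩
  choose c₀ hc₀ using hc₀ex
  have hc₀E : ∀ i, algebraMap E₀ E (c₀ i) = algebraMap K E (c' i) := fun i => by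
    apply (algebraMap E L).injective
    rw [hsq, hc₀, hc' i, ← IsScalarTower.algebraMap_apply]
  have hc₀0 : ∀ i, c₀ i ≠ 0 := fun i h0 => by
    have := hc₀E i
    rw [h0, map_zero] at this
    exact hc'0 i ((map_eq_zero_iff _ (algebraMap K E).injective).mp this.symm)
  have hg0 : g ≠ 0 := by
    rintro rfl
    obtain ⟨i₀⟩ : Nonempty ι := by
      by_contra hemp
      rw [not_nonempty_iff] at hemp
      have : Module.finrank E₀ L₀ = 0 := by rw [← hdeg]; simp
      exact (Module.finrank_pos (R := E₀) (M := L₀)).ne' this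
    apply h0 i₀
    have : (⟨c i₀ * 0, h i₀⟩ : ↥(D.V i₀)) = 0 := Subtype.ext (mul_zero _)
    rw [this, map_zero]
  have hu : ∀ i, algebraMap E₀ L₀ (c₀ i) * g ∈ D.V i := fun i => by rw [hc₀]; exact h i
  have hred : ∀ i, D.red i ⟨algebraMap E₀ L₀ (c₀ i) * g, hu i⟩ = D.red i ⟨c i * g, h i⟩ :=
    fun i => congrArg (D.red i)
      (Subtype.ext (show algebraMap E₀ L₀ (c₀ i) * g = c i * g by rw [hc₀]))
  -- norm reduction
  obtain ⟨δ, hδ, hδr⟩ := D.normRed_scaled hdeg g c₀ hc₀0 hu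
  have hδV : algebraMap E₀ E (δ : E₀) ∈ SE.V := hVE _ δ.2
  have hnz : ∀ i, Algebra.norm Et (D.red i ⟨c i * g, h i⟩) ≠ 0 := fun i =>
    Algebra.norm_ne_zero_iff.2 (h0 i)
  have hjnz : ∀ i, j (Algebra.norm Et (D.red i ⟨c i * g, h i⟩)) ≠ 0 := fun i =>
    (map_ne_zero_iff _ j.injective).mpr (hnz i)
  have hδred : SE.red ⟨_, hδV⟩ =
      ∏ i, j (Algebra.norm Et (D.red i ⟨c i * g, h i⟩)) ^ D.e i := by
    rw [hredE δ hδV, hδr, map_prod]
    refine Finset.prod_congr rfl fun i _ => ?_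
    rw [map_pow, hred]
  have hδ0 : SE.red ⟨_, hδV⟩ ≠ 0 := by
    rw [hδred]
    exact Finset.prod_ne_zero_iff.2 fun i _ => pow_ne_zero _ (hjnz i)
  have hGU : SE.IsGU (algebraMap E₀ E (δ : E₀)) := ⟨hδV, by rw [SE.rd_of_mem hδV]; exact hδ0⟩
  -- the orders of the norm
  have hgL : algebraMap L₀ L g ≠ 0 := (map_ne_zero_iff _ (algebraMap L₀ L).injective).mpr hg0
  have hprodK : algebraMap E₀ E (∏ i, c₀ i ^ (D.e i * Module.finrank Et (κ i)))
      = algebraMap K E (∏ i, c' i ^ (D.e i * Module.finrank Et (κ i))) := by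
    rw [map_prod, map_prod]
    refine Finset.prod_congr rfl fun i _ => ?_
    rw [map_pow, map_pow, hc₀E]
  have hprod0 : (∏ i, c' i ^ (D.e i * Module.finrank Et (κ i))) ≠ 0 :=
    Finset.prod_ne_zero_iff.2 fun i _ => pow_ne_zero _ (hc'0 i)
  have hord : ∀ v : Place K E,
      v.ord (Algebra.norm E (algebraMap L₀ L g)) = v.ord (algebraMap E₀ E (δ : E₀)) := by
    intro v
    rw [hNm, ← hδ, map_mul, hprodK]
    exact (ord_algebraMap_mul v hprod0 _).symm
  have hpush : Divisor.pushforward E Dv = dv hPE (algebraMap E₀ E (δ : E₀)) :=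
    Finsupp.ext fun v => by rw [hnorm _ hgL Dv hDv v, hord, dv_apply]
  -- transport
  have h3 : Finsupp.mapDomain κz (Finsupp.mapDomain ρ Dv) =
      Finsupp.mapDomain SE.r (dv hPE (algebraMap E₀ E (δ : E₀))) := by
    rw [← hpush, H28.pushforward_eq_mapDomain hin, ← Finsupp.mapDomain_comp,
      ← Finsupp.mapDomain_comp]
    congr 1
    exact funext hρ
  have h4 : Finsupp.mapDomain ρ Dv z = (κz z).ord (SE.rd (algebraMap E₀ E (δ : E₀))) := by
    rw [← Finsupp.mapDomain_apply hκ (Finsupp.mapDomain ρ Dv) z, h3]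
    exact SE.mapDomain_dv hPE hGU (κz z)
  rw [h4, SE.rd_of_mem hδV, hδred,
    ord_prod _ _ _ (fun i _ => pow_ne_zero _ (hjnz i))]
  refine Finset.sum_congr rfl fun i _ => ?_
  rw [ord_pow, hN i z _ (h0 i)]

/-- **TOT3-ABS (bridge)**, as a structure: the conservation datum `TotN` from NORM-RED-r. -/
def totN_of_normRedR (SE : RedSetup K E k E') (hPE : HasPrincipalDivisors K E)
    (hin : ∀ w : Place K L, w.inertiaDeg E = 1)
    (hnorm : Divisor.PushforwardNormFormula K E L)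
    (D : H42.NRData E₀ L₀ Et ι κ)
    (hdeg : ∑ i, D.e i * Module.finrank Et (κ i) = Module.finrank E₀ L₀)
    (j : Et →+* E')
    (hsq : ∀ x : E₀, algebraMap E L (algebraMap E₀ E x) = algebraMap L₀ L (algebraMap E₀ L₀ x))
    (hNm : ∀ g : L₀, Algebra.norm E (algebraMap L₀ L g) = algebraMap E₀ E (Algebra.norm E₀ g))
    (hVE : ∀ a : E₀, a ∈ D.VE → algebraMap E₀ E a ∈ SE.V)
    (hredE : ∀ (a : ↥D.VE) (ha : algebraMap E₀ E (a : E₀) ∈ SE.V),
      SE.red ⟨_, ha⟩ = j (D.redE a))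
    (hconst : ∀ c : L₀, (∃ c' : K, algebraMap L₀ L c = algebraMap K L c') →
      ∃ c₀ : E₀, algebraMap E₀ L₀ c₀ = c)
    (ρ : Place K L → Z) (κz : Z → Place k E') (hκ : Function.Injective κz)
    (hρ : ∀ P : Place K L, κz (ρ P) = SE.r (P.restrict E))
    (pt : ∀ i, Z → Place k (κ i))
    (hN : ∀ (i : ι) (z : Z) (g : κ i), g ≠ 0 →
      (κz z).ord (j (Algebra.norm Et g)) = (pt i z).ord g)
    (hlift : ∀ a : k, ∃ c : L₀, (∃ c' : K, algebraMap L₀ L c = algebraMap K L c') ∧
      ∀ i, ∃ h : c ∈ D.V i, D.red i ⟨c, h⟩ = algebraMap k (κ i) a) :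
    TotN K L₀ L k ι Z κ where
  V := D.V
  red := D.red
  red_eq_zero_iff := nr_red_eq_zero_iff D
  m := D.e
  m_pos := D.he
  ρ := ρ
  pt := pt
  const_lift := hlift
  tot := tot_of_normRedR SE hPE hin hnorm D hdeg j hsq hNm hVE hredE hconst ρ κz hκ hρ pt hN

end Fermat.Agent.S36.NU.H23
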