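import Fermat.Agent.S36.NU.H23_Mod3
import Fermat.Agent.S36.NU.H23_Tot3Abs
import Fermat.Agent.BAD.H91_Rho

/-!
# S36 / NU-B, leaf TOT3-MOD (helper23): the modular conservation datum `TotN`

Level `N = M q²`, `q ∤ M`, `M` tame at `q`; `C = FM A M` the residue field of level `M`.

**`totM : TotN ℚ̄ (L0 A N) (F_N · ℚ̄) k (Fin 3) (Place k C) (C, C, C)`** with
`V = (V₂₀, V₁₁, V₀₂) ∩ L₀`, `red = (r20, r11, r02)`, `m = (1, q - 1, 1)`,
`ρ P = r_M (P | F_M)`, `pt z = (z, z, β² z)`.
-/

set_option autoImplicit false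
set_option synthInstance.maxHeartbeats 400000
set_option maxHeartbeats 1000000
set_option linter.style.haveILetI false
set_option linter.unusedSectionVars false

noncomputable section

open ModularCurve AlgebraicCurve
open Fermat.Agent.S24 Fermat.Agent.BAD.H88 Fermat.Agent.S28 Fermat.Agent.S28.H73
open Fermat.Agent.RED.H73 Fermat.Agent.RED.H17 Fermat.Agent.S36.NU.H88

namespace Fermat.Agent.S36.NU.H23

open Fermat.Agent.BAD Fermat.Agent.RED Fermat.Agent.S36.NU.H79

section Mod4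

variable (A : ValuationSubring Kbar) (q M : ℕ) (B k : ℤ) (hB : B * M + k * q = 1) (hq : q.Prime)
  [NeZero M] [NeZero q] [NeZero (M * q * q)] (hqM : ¬ q ∣ M) (hA : A.LiesOverPrime q)
  (ht : H91.TameAt M q)

/-! ### The tower `F_M ⊂ F_N` -/

theorem tower_FNU :
    letI := algF (hleMN q M)
    IsScalarTower Kbar (FN M) (FN (M * q * q)) :=
  isScalarTower_along (IntermediateField.inclusion (hleMN q M))

theorem finite_FNU' :
    letI := algF (hleMN q M)
    Module.Finite (FN M) (FN (M * q * q)) := finite_FNU q M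

/-- The norm formula for `F_N / F_M`. -/
theorem normFormula_FNU :
    letI := algF (hleMN q M)
    haveI := tower_FNU q M
    haveI := finite_FNU' q M
    Divisor.PushforwardNormFormula Kbar (FN M) (FN (M * q * q)) :=
  H51.stmt_FFB_norm Kbar (FN M) (FN (M * q * q)) (H95.stmt_HKA_isFF M)
    (H95.stmt_HKA_isFF (M * q * q)) (IntermediateField.inclusion (hleMN q M)) (finite_FNU q M)

/-- All inertia degrees are `1`. -/
theorem inertiaDeg_FNU (w : Place Kbar (FN (M * q * q))) :
    letI := algF (hleMN q M)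
    haveI := tower_FNU q M
    haveI := finite_FNU' q M
    w.inertiaDeg (FN M) = 1 := by
  letI := algF (hleMN q M)
  haveI := tower_FNU q M
  haveI := finite_FNU' q M
  have h := w.deg_restrict_mul_inertiaDeg (F := FN M)
  rw [H51.stmt_FFB_deg Kbar (FN M) (H95.stmt_HKA_isFF M),
    H51.stmt_FFB_deg Kbar (FN (M * q * q)) (H95.stmt_HKA_isFF (M * q * q)), one_mul] at h
  exact h

/-! ### The residue fields -/

/-- The natural structures of `k`-algebra of the three residue fields. -/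
@[reducible] def algkM : ∀ i, Algebra (kV A) (kap3 (FM A M) (FM A M) i)
  | 0 => inferInstanceAs (Algebra (kV A) (FM A M))
  | 1 => inferInstanceAs (Algebra (kV A) (FM A M))
  | 2 => inferInstanceAs (Algebra (kV A) (FM A M))

theorem finite_algM (i : Fin 3) :
    @Module.Finite (FM A M) (kap3 (FM A M) (FM A M) i) _ _ (algM A q M hq hqM hA i).toModule := by
  fin_cases i
  · exact Module.Finite.self (FM A M)
  · exact Module.Finite.self (FM A M)
  · exact finite_alg2M A q M hq hqM hA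

/-- The points of the three components over a point of the curve of level `M`. -/
def ptM : ∀ i : Fin 3, Place (kV A) (FM A M) →
    @Place (kV A) (kap3 (FM A M) (FM A M) i) _ _ (algkM A M i)
  | 0 => fun z => z
  | 1 => fun z => z
  | 2 => fun z => betaM A q M hq hqM hA (betaM A q M hq hqM hA z)

/-- The reduction map of `F_N` to the curve of level `M`. -/
def rhoM (P : Place Kbar (FN (M * q * q))) : Place (kV A) (FM A M) :=
  letI := algF (hleMN q M)
  haveI := tower_FNU q M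
  haveI := finite_FNU' q M
  (H91.seM hq hqM ht hA).r (P.restrict (FN M))

/-- `ord_z (N g) = ord_{pt i z} g`. -/
theorem hN_mod (i : Fin 3) (z : Place (kV A) (FM A M)) (g : kap3 (FM A M) (FM A M) i) :
    z.ord (@Algebra.norm (FM A M) (kap3 (FM A M) (FM A M) i) _ _ (algM A q M hq hqM hA i) g)
      = @Place.ord (kV A) (kap3 (FM A M) (FM A M) i) _ _ (algkM A M i)
          (ptM A q M hq hqM hA i z) g := by
  fin_cases i
  · show z.ord (@Algebra.norm (FM A M) (FM A M) _ _ (Algebra.id (FM A M)) g) = z.ord g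
    rw [Algebra.norm_self]
    rfl
  · show z.ord (@Algebra.norm (FM A M) (FM A M) _ _ (Algebra.id (FM A M)) g) = z.ord g
    rw [Algebra.norm_self]
    rfl
  · exact ord_norm_alg2M A q M hq hqM hA z g

/-! ### Constants -/

theorem coe_algebraMap_FM (a : kV A) :
    ((algebraMap (kV A) (FM A M) a : FM A M) : LaurentSeries (kV A))
      = algebraMap (kV A) (LaurentSeries (kV A)) a := rfl

include hq hA in
/-- Teichmüller lifts: constants of the residue field lift to inertia-fixed constants with the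
same reduction at the three valuations. -/
theorem hlift_mod (a : kV A) :
    ∃ c : ↥(L0 A (M * q * q)),
      (∃ c' : Kbar, ((c : FN (M * q * q))) = algebraMap Kbar (FN (M * q * q)) c') ∧
      (∃ h : c ∈ V20o A q M, s20 A q M ⟨c, h⟩ = algebraMap (kV A) (LaurentSeries (kV A)) a) ∧
      (∃ h : c ∈ V11o A q M B k hB hq,
        s11 A q M B k hB hq ⟨c, h⟩ = algebraMap (kV A) (LaurentSeries (kV A)) a) ∧
      (∃ h : c ∈ V02o A q M B k hB,
        s02 A q M B k hB ⟨c, h⟩ = algebraMap (kV A) (LaurentSeries (kV A)) a) := by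
  obtain ⟨c', hc', hfix, hres⟩ := Fermat.Agent.S36.NU.H42.exists_fixed_lift A hq hA a
  have h20 : algebraMap Kbar (FN (M * q * q)) c' ∈ V20 A (M * q * q) :=
    (const_mem20 A (M * q * q) c').mpr hc'
  have h11 : algebraMap Kbar (FN (M * q * q)) c' ∈ V11 A (M * q * q) q M B k (lvl q M) hB hq :=
    (const_mem11 A (M * q * q) q M B k (lvl q M) hB hq c').mpr hc'
  have h02 : algebraMap Kbar (FN (M * q * q)) c' ∈ V02 A (M * q * q) q M B k (lvl q M) hB :=
    (const_mem02 A (M * q * q) q M B k (lvl q M) hB c').mpr hc'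
  refine ⟨⟨algebraMap Kbar (FN (M * q * q)) c', (const_mem_L0_iff A c').mpr hfix⟩,
    ⟨c', rfl⟩, ⟨h20, ?_⟩, ⟨h11, ?_⟩, ⟨h02, ?_⟩⟩
  · show ((red20 A (M * q * q) ⟨_, h20⟩ : F20 A (M * q * q)) : LaurentSeries (kV A)) = _
    rw [red20_const A (M * q * q) ⟨c', hc'⟩ h20, hres]
    rfl
  · show ((red11 A (M * q * q) q M B k (lvl q M) hB hq ⟨_, h11⟩ :
      F11 A (M * q * q) q M B k (lvl q M) hB hq) : LaurentSeries (kV A)) = _
    rw [red11_const A (M * q * q) q M B k (lvl q M) hB hq ⟨c', hc'⟩ h11, hres]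
    rfl
  · show ((red02 A (M * q * q) q M B k (lvl q M) hB ⟨_, h02⟩ : F20 A (M * q * q)) :
      LaurentSeries (kV A)) = _
    rw [const_red02 A (M * q * q) q M B k (lvl q M) hB c' h20 h02,
      red20_const A (M * q * q) ⟨c', hc'⟩ h20, hres]
    rfl

/-! ### The conservation datum -/

/-- **TOT3-MOD**: the conservation datum of the three valuations `V₂₀`, `V₁₁`, `V₀₂` of the
inertia-fixed functions of level `M q²`, with multiplicities `(1, q - 1, 1)`. -/
def totM : @TotN Kbar ↥(L0 A (M * q * q)) (FN (M * q * q)) (kV A) (Fin 3)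
    (Place (kV A) (FM A M)) (kap3 (FM A M) (FM A M)) _ _ _ _ _ _ _ _ (algkM A M) :=
  letI := algF (hleMN q M)
  haveI := tower_FNU q M
  haveI := finite_FNU' q M
  letI := algL0 A (hleMN q M)
  haveI : Module.Finite ↥(L0 A M) ↥(L0 A (M * q * q)) := finite_L0_NU A q M
  letI := algM A q M hq hqM hA
  haveI : ∀ i, Module.Finite (FM A M) (kap3 (FM A M) (FM A M) i) :=
    finite_algM A q M hq hqM hA
  letI := algkM A M
  totN_of_normRedR (H91.seM hq hqM ht hA)
    (H51.stmt_FFB_principal Kbar (FN M) (H95.stmt_HKA_isFF M))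
    (inertiaDeg_FNU q M) (normFormula_FNU q M)
    (nrM A q M B k hB hq hqM hA) (nrM_hdeg A q M B k hB hq hqM hA)
    (RingHom.id (FM A M))
    (fun x => (coe_inclL0 A (hleMN q M) x).symm)
    (fun g => norm_L0 A (hleMN q M) (finite_FNU q M) g)
    (fun _ ha => ha)
    (fun _ _ => rfl)
    (fun c hc => const_L0 A (hleMN q M) c hc)
    (rhoM A q M hq hqM hA ht) id Function.injective_id (fun _ => rfl)
    (ptM A q M hq hqM hA)
    (fun i z g _ => hN_mod A q M hq hqM hA i z g)
    (fun a => by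
      obtain ⟨c, hc, ⟨h0, e0⟩, ⟨h1, e1⟩, ⟨h2, e2⟩⟩ := hlift_mod A q M B k hB hq hA a
      refine ⟨c, hc, fun i => ?_⟩
      fin_cases i
      · exact ⟨h0, Subtype.ext e0⟩
      · exact ⟨h1, Subtype.ext e1⟩
      · exact ⟨h2, Subtype.ext e2⟩)

theorem totM_V0 :
    @TotN.V Kbar ↥(L0 A (M * q * q)) (FN (M * q * q)) (kV A) (Fin 3)
      (Place (kV A) (FM A M)) (kap3 (FM A M) (FM A M)) _ _ _ _ _ _ _ _ (algkM A M)
      (totM A q M B k hB hq hqM hA ht) 0 = V20o A q M := rfl

theorem totM_V1 :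
    @TotN.V Kbar ↥(L0 A (M * q * q)) (FN (M * q * q)) (kV A) (Fin 3)
      (Place (kV A) (FM A M)) (kap3 (FM A M) (FM A M)) _ _ _ _ _ _ _ _ (algkM A M)
      (totM A q M B k hB hq hqM hA ht) 1 = V11o A q M B k hB hq := rfl

theorem totM_V2 :
    @TotN.V Kbar ↥(L0 A (M * q * q)) (FN (M * q * q)) (kV A) (Fin 3)
      (Place (kV A) (FM A M)) (kap3 (FM A M) (FM A M)) _ _ _ _ _ _ _ _ (algkM A M)
      (totM A q M B k hB hq hqM hA ht) 2 = V02o A q M B k hB := rfl

theorem totM_red0 :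
    @TotN.red Kbar ↥(L0 A (M * q * q)) (FN (M * q * q)) (kV A) (Fin 3)
      (Place (kV A) (FM A M)) (kap3 (FM A M) (FM A M)) _ _ _ _ _ _ _ _ (algkM A M)
      (totM A q M B k hB hq hqM hA ht) 0 = r20 A q M hq hqM hA := rfl

theorem totM_red1 :
    @TotN.red Kbar ↥(L0 A (M * q * q)) (FN (M * q * q)) (kV A) (Fin 3)
      (Place (kV A) (FM A M)) (kap3 (FM A M) (FM A M)) _ _ _ _ _ _ _ _ (algkM A M)
      (totM A q M B k hB hq hqM hA ht) 1 = r11 A q M B k hB hq hqM hA := rfl

theorem totM_red2 :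
    @TotN.red Kbar ↥(L0 A (M * q * q)) (FN (M * q * q)) (kV A) (Fin 3)
      (Place (kV A) (FM A M)) (kap3 (FM A M) (FM A M)) _ _ _ _ _ _ _ _ (algkM A M)
      (totM A q M B k hB hq hqM hA ht) 2 = r02 A q M B k hB hq hqM hA := rfl

theorem totM_m0 :
    @TotN.m Kbar ↥(L0 A (M * q * q)) (FN (M * q * q)) (kV A) (Fin 3)
      (Place (kV A) (FM A M)) (kap3 (FM A M) (FM A M)) _ _ _ _ _ _ _ _ (algkM A M)
      (totM A q M B k hB hq hqM hA ht) 0 = 1 := rfl

theorem totM_m1 :
    @TotN.m Kbar ↥(L0 A (M * q * q)) (FN (M * q * q)) (kV A) (Fin 3)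
      (Place (kV A) (FM A M)) (kap3 (FM A M) (FM A M)) _ _ _ _ _ _ _ _ (algkM A M)
      (totM A q M B k hB hq hqM hA ht) 1 = q - 1 := rfl

theorem totM_m2 :
    @TotN.m Kbar ↥(L0 A (M * q * q)) (FN (M * q * q)) (kV A) (Fin 3)
      (Place (kV A) (FM A M)) (kap3 (FM A M) (FM A M)) _ _ _ _ _ _ _ _ (algkM A M)
      (totM A q M B k hB hq hqM hA ht) 2 = 1 := rfl

theorem totM_rho :
    @TotN.ρ Kbar ↥(L0 A (M * q * q)) (FN (M * q * q)) (kV A) (Fin 3)
      (Place (kV A) (FM A M)) (kap3 (FM A M) (FM A M)) _ _ _ _ _ _ _ _ (algkM A M)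
      (totM A q M B k hB hq hqM hA ht) = rhoM A q M hq hqM hA ht := rfl

theorem totM_pt :
    @TotN.pt Kbar ↥(L0 A (M * q * q)) (FN (M * q * q)) (kV A) (Fin 3)
      (Place (kV A) (FM A M)) (kap3 (FM A M) (FM A M)) _ _ _ _ _ _ _ _ (algkM A M)
      (totM A q M B k hB hq hqM hA ht) = ptM A q M hq hqM hA := rfl

theorem ptM_zero (z : Place (kV A) (FM A M)) : ptM A q M hq hqM hA 0 z = z := rfl

theorem ptM_one (z : Place (kV A) (FM A M)) : ptM A q M hq hqM hA 1 z = z := rfl

theorem ptM_two (z : Place (kV A) (FM A M)) :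
    ptM A q M hq hqM hA 2 z = betaM A q M hq hqM hA (betaM A q M hq hqM hA z) := rfl

end Mod4

end Fermat.Agent.S36.NU.H23
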