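import Fermat.Agent.S36.NU.H88_ChartOf
import Fermat.Agent.S36.NU.H88_ChartAlg
import Fermat.Agent.S36.NU.H23_Mod4
import Fermat.Agent.S36.NU.H17_NormalMod

/-!
# S36, NU-B, (M1) CHART-MOD (helper88): the two modular charts

Level `N = M q²`, `q ∤ M`; `R = Rur A` (the valuation ring of the inertia field `K^ur`),
`F = L0 A N` (the inertia-fixed functions), `k = kV A`, `T = totM` (helper23), `j = j0 A N`.

* `resRur : R →+* k`, surjective;
* constants and `j`, `j⁻¹` at the three valuations, with their reductions;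
* `chartInput0`, `chartInputInf` : the inputs of `chartOf` for `j` and `j⁻¹`;
* `chart0`, `chartInf` : the two charts (`B = ` integral closure of `R[j]`, `R[j⁻¹]`), compatible
  with `totM`, noetherian, with fraction field `F`.
-/

set_option autoImplicit false
set_option synthInstance.maxHeartbeats 400000
set_option maxHeartbeats 1000000
set_option linter.unusedSectionVars false
set_option linter.style.haveILetI false

noncomputable section

open IntermediateField ModularCurve AlgebraicCurve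
open Fermat.Agent.S24 Fermat.Agent.BAD.H88 Fermat.Agent.S28 Fermat.Agent.S28.H73
open Fermat.Agent.RED.H73 Fermat.Agent.RED.H17

namespace Fermat.Agent.S36.NU.H88

open Fermat.Agent.S36.NU.H16 Fermat.Agent.S36.NU.H17 Fermat.Agent.S36.NU.H24
  Fermat.Agent.S36.NU.H65 Fermat.Agent.S36.NU.H79 Fermat.Agent.S36.NU.H23
  Fermat.Agent.S36.NU.H41 Fermat.Agent.BAD


/-! ### Generic: the chart of `j⁻¹` -/

section Inv

variable {R K F L k ι Z : Type*} {κ : ι → Type*} [CommRing R] [Field K] [Field F] [Field L]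
  [Algebra K L] [Algebra F L] [Algebra R F] [Field k] [Fintype ι] [∀ i, Field (κ i)]
  [∀ i, Algebra k (κ i)] (T : TotN K F L k ι Z κ) (j : F) (res : R →+* k)

theorem rdN_inv_ne_zero {i : ι} {x : F} (hx : T.rdN i x ≠ 0) : T.rdN i x⁻¹ ≠ 0 := by
  have hm := T.mem_of_rdN_ne_zero hx
  have hi := T.inv_mem_of_rdN_ne_zero hx
  have hx0 : x ≠ 0 := by
    rintro rfl
    apply hx
    rw [T.rdN_of_mem (T.V i).zero_mem]
    exact map_zero _
  intro h0
  have h1 : T.rdN i (x⁻¹ * x) = T.rdN i x⁻¹ * T.rdN i x := T.rdN_mul hi hm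
  rw [inv_mul_cancel₀ hx0, T.rdN_one, h0, zero_mul] at h1
  exact one_ne_zero h1

/-- The input for the chart of `j⁻¹`, if `j` is a unit for all the valuations. -/
theorem ChartInput.inv (h : ChartInput T j res) (hju : ∀ i, T.rdN i j ≠ 0) :
    ChartInput T j⁻¹ res where
  res_surj := h.res_surj
  const_mem := h.const_mem
  j_mem := fun i => T.inv_mem_of_rdN_ne_zero (hju i)
  red_const := h.red_const

/-- Separating elements for the chart of `j⁻¹` from separating elements for the chart of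
`j`. -/
theorem hinc_inv (h : ChartInput T j res) (hju : ∀ i, T.rdN i j ≠ 0)
    (hinc : ∀ i i' : ι, i ≠ i' → ∃ τ : F, τ ∈ intSub R j ∧ T.rdN i' τ = 0 ∧ T.rdN i τ ≠ 0) :
    ∀ i i' : ι, i ≠ i' → ∃ τ : F, τ ∈ intSub R j⁻¹ ∧ T.rdN i' τ = 0 ∧ T.rdN i τ ≠ 0 := by
  intro i i' hii
  obtain ⟨τ, hτ, h0, h1⟩ := hinc i i' hii
  have hj0 : j ≠ 0 := by
    rintro rfl
    apply hju i
    rw [T.rdN_of_mem (T.V i).zero_mem]
    exact map_zero _
  obtain ⟨e₀, he⟩ := exists_pow_inv_mul_isIntegral (R := R) hj0 hτ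
  have hmem : ∀ i₁ : ι, τ ∈ T.V i₁ := fun i₁ =>
    mem_of_isIntegral_adjoin R j (T.V i₁) (h.const_mem i₁) (h.j_mem i₁) hτ
  have hpm : ∀ i₁ : ι, j⁻¹ ^ e₀ ∈ T.V i₁ := fun i₁ =>
    (T.V i₁).pow_mem (T.inv_mem_of_rdN_ne_zero (hju i₁)) e₀
  refine ⟨j⁻¹ ^ e₀ * τ, he e₀ le_rfl, ?_, ?_⟩
  · rw [T.rdN_mul (hpm i') (hmem i'), h0, mul_zero]
  · rw [T.rdN_mul (hpm i) (hmem i), T.rdN_pow (T.inv_mem_of_rdN_ne_zero (hju i))]
    exact mul_ne_zero (pow_ne_zero _ (rdN_inv_ne_zero T (hju i))) h1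

end Inv

section InvField

variable (Kf : Type*) {F : Type*} [Field Kf] [Field F] [Algebra Kf F] (j : F)

theorem adjoin_inv_eq : Kf⟮j⁻¹⟯ = Kf⟮j⟯ := by
  apply le_antisymm
  · rw [adjoin_simple_le_iff]
    exact inv_mem (mem_adjoin_simple_self Kf j)
  · rw [adjoin_simple_le_iff]
    have h := inv_mem (mem_adjoin_simple_self Kf j⁻¹)
    rwa [inv_inv] at h

theorem finiteDimensional_adjoin_inv [h : FiniteDimensional ↥Kf⟮j⟯ F] :
    FiniteDimensional ↥Kf⟮j⁻¹⟯ F := by
  rw [adjoin_inv_eq]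
  exact h

theorem isSeparable_adjoin_inv [h : Algebra.IsSeparable ↥Kf⟮j⟯ F] :
    Algebra.IsSeparable ↥Kf⟮j⁻¹⟯ F := by
  rw [adjoin_inv_eq]
  exact h

theorem transcendental_inv (hj : Transcendental Kf j) : Transcendental Kf j⁻¹ := by
  intro h
  apply hj
  have := h.inv
  rwa [inv_inv] at this

end InvField

/-! ### The residue map of `R` -/

section Res

variable (A : ValuationSubring Kbar)

/-- The residue map `R → k`. -/
def resRur : ↥(Rur A) →+* kV A := (resV A).comp (inclO (iotaUr A) A)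

theorem resRur_apply (r : ↥(Rur A)) :
    resRur A r = resV A ⟨((r : ↥(Kur A)) : Kbar), r.2⟩ := rfl

theorem resRur_surjective {q : ℕ} (hq : q.Prime) (hA : A.LiesOverPrime q) :
    Function.Surjective (resRur A) := by
  intro a
  obtain ⟨c, hc, hfix, hr⟩ := Fermat.Agent.S36.NU.H42.exists_fixed_lift A hq hA a
  exact ⟨⟨⟨c, mem_Kur.2 hfix⟩, hc⟩, hr⟩

theorem isNoetherianRing_Rur {q : ℕ} (hq : q.Prime) (hA : A.LiesOverPrime q) :
    IsNoetherianRing ↥(Rur A) := by
  haveI := isDiscreteValuationRing_Rur A q hq hA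
  infer_instance

end Res

/-! ### Constants at the three valuations -/

section Const

variable (A : ValuationSubring Kbar) (q M : ℕ) (B k : ℤ) (hB : B * M + k * q = 1) (hq : q.Prime)
  [NeZero M] [NeZero q] [NeZero (M * q * q)] (hqM : ¬ q ∣ M) (hA : A.LiesOverPrime q)

theorem coe_algebraMap_Rur (r : ↥(Rur A)) :
    ((algebraMap ↥(Rur A) ↥(L0 A (M * q * q)) r : ↥(L0 A (M * q * q))) : FN (M * q * q))
      = algebraMap Kbar (FN (M * q * q)) (((r : ↥(Kur A)) : Kbar)) := rfl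

theorem const_mem_V20o (r : ↥(Rur A)) :
    algebraMap ↥(Rur A) ↥(L0 A (M * q * q)) r ∈ V20o A q M :=
  (const_mem20 A (M * q * q) _).mpr r.2

theorem const_mem_V11o (r : ↥(Rur A)) :
    algebraMap ↥(Rur A) ↥(L0 A (M * q * q)) r ∈ V11o A q M B k hB hq :=
  (const_mem11 A (M * q * q) q M B k (lvl q M) hB hq _).mpr r.2

theorem const_mem_V02o (r : ↥(Rur A)) :
    algebraMap ↥(Rur A) ↥(L0 A (M * q * q)) r ∈ V02o A q M B k hB :=
  (const_mem02 A (M * q * q) q M B k (lvl q M) hB _).mpr r.2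

theorem s20_const (r : ↥(Rur A))
    (h : algebraMap ↥(Rur A) ↥(L0 A (M * q * q)) r ∈ V20o A q M) :
    s20 A q M ⟨_, h⟩ = algebraMap (kV A) (LaurentSeries (kV A)) (resRur A r) := by
  have h20 : algebraMap Kbar (FN (M * q * q)) (((r : ↥(Kur A)) : Kbar)) ∈ V20 A (M * q * q) := h
  show ((red20 A (M * q * q) ⟨_, h20⟩ : F20 A (M * q * q)) : LaurentSeries (kV A)) = _
  rw [red20_const A (M * q * q) ⟨((r : ↥(Kur A)) : Kbar), r.2⟩ h20]
  rfl

theorem s11_const (r : ↥(Rur A))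
    (h : algebraMap ↥(Rur A) ↥(L0 A (M * q * q)) r ∈ V11o A q M B k hB hq) :
    s11 A q M B k hB hq ⟨_, h⟩ = algebraMap (kV A) (LaurentSeries (kV A)) (resRur A r) := by
  have h11 : algebraMap Kbar (FN (M * q * q)) (((r : ↥(Kur A)) : Kbar))
      ∈ V11 A (M * q * q) q M B k (lvl q M) hB hq := h
  show ((red11 A (M * q * q) q M B k (lvl q M) hB hq ⟨_, h11⟩ :
    F11 A (M * q * q) q M B k (lvl q M) hB hq) : LaurentSeries (kV A)) = _
  rw [red11_const A (M * q * q) q M B k (lvl q M) hB hq ⟨((r : ↥(Kur A)) : Kbar), r.2⟩ h11]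
  rfl

theorem s02_const (r : ↥(Rur A))
    (h : algebraMap ↥(Rur A) ↥(L0 A (M * q * q)) r ∈ V02o A q M B k hB) :
    s02 A q M B k hB ⟨_, h⟩ = algebraMap (kV A) (LaurentSeries (kV A)) (resRur A r) := by
  have h02 : algebraMap Kbar (FN (M * q * q)) (((r : ↥(Kur A)) : Kbar))
      ∈ V02 A (M * q * q) q M B k (lvl q M) hB := h
  have h20 : algebraMap Kbar (FN (M * q * q)) (((r : ↥(Kur A)) : Kbar)) ∈ V20 A (M * q * q) :=
    (const_mem20 A (M * q * q) _).mpr r.2
  show ((red02 A (M * q * q) q M B k (lvl q M) hB ⟨_, h02⟩ : F20 A (M * q * q)) :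
    LaurentSeries (kV A)) = _
  rw [const_red02 A (M * q * q) q M B k (lvl q M) hB _ h20 h02,
    red20_const A (M * q * q) ⟨((r : ↥(Kur A)) : Kbar), r.2⟩ h20]
  rfl

end Const

/-! ### `j` and `j'' = j(t^{q²})` at the three valuations -/

section JJ

variable (A : ValuationSubring Kbar) (q M : ℕ) (B k : ℤ) (hB : B * M + k * q = 1) (hq : q.Prime)
  [NeZero M] [NeZero q] [NeZero (M * q * q)] (hqM : ¬ q ∣ M) (hA : A.LiesOverPrime q)

/-- The reduction of `j`. -/
def Jred : LaurentSeries (kV A) := coeffMap (Int.castRingHom (kV A)) jInt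

/-- `j(t^{q²})` with integer coefficients. -/
def jInt2 : LaurentSeries ℤ := qExpand ℤ q (qExpand ℤ q jInt)

/-- The reduction of `j(t^{q²})`. -/
def Jred2 : LaurentSeries (kV A) := coeffMap (Int.castRingHom (kV A)) (jInt2 q)

theorem Jred2_eq : Jred2 A q = qExpand (kV A) q (qExpand (kV A) q (Jred A)) := by
  rw [Jred2, jInt2, coeffMap_qExpand, coeffMap_qExpand]
  rfl

/-- `j''` as an inertia-fixed function. -/
def jdd : ↥(L0 A (M * q * q)) :=
  ⟨jdF (M * q * q) (q * q) (sq_dvd_lvl q M), jdF_mem_L0 A (M * q * q) (q * q) (sq_dvd_lvl q M)⟩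

theorem coe_jdd :
    ((jdd A q M : ↥(L0 A (M * q * q))) : FN (M * q * q))
      = jdF (M * q * q) (q * q) (sq_dvd_lvl q M) := rfl

/-! #### Evaluation from integral expansions -/

theorem s20_of_intSer (x : ↥(L0 A (M * q * q))) (u : LaurentSeries ℤ)
    (hx : ((x : FN (M * q * q)) : LaurentSeries Kbar) = intSer Kbar u) :
    ∃ h : x ∈ V20o A q M, s20 A q M ⟨x, h⟩ = coeffMap (Int.castRingHom (kV A)) u := by
  have h : x ∈ V20o A q M := by
    rw [mem_V20o_iff, hx]
    exact intSer_mem A u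
  refine ⟨h, ?_⟩
  rw [s20_mk]
  have e : (⟨((x : FN (M * q * q)) : LaurentSeries Kbar), h⟩ : gaussRingV A)
      = ⟨intSer Kbar u, intSer_mem A u⟩ := Subtype.ext hx
  rw [e, gaussRedV_intSer]

theorem s11_of_intSer (x : ↥(L0 A (M * q * q))) (u : LaurentSeries ℤ)
    (hx : cM q M B k hB hq (x : FN (M * q * q)) = intSer Kbar u) :
    ∃ h : x ∈ V11o A q M B k hB hq,
      s11 A q M B k hB hq ⟨x, h⟩ = coeffMap (Int.castRingHom (kV A)) u := by
  have h : x ∈ V11o A q M B k hB hq := by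
    rw [mem_V11o_iff, hx]
    exact intSer_mem A u
  refine ⟨h, ?_⟩
  rw [s11_mk]
  have e : (⟨cM q M B k hB hq (x : FN (M * q * q)), h⟩ : gaussRingV A)
      = ⟨intSer Kbar u, intSer_mem A u⟩ := Subtype.ext hx
  rw [e, gaussRedV_intSer]

theorem s02_of_intSer (x : ↥(L0 A (M * q * q))) (u : LaurentSeries ℤ)
    (hx : ((wS q M B k hB (x : FN (M * q * q)) : FN (M * q * q)) : LaurentSeries Kbar)
      = intSer Kbar u) :
    ∃ h : x ∈ V02o A q M B k hB,
      s02 A q M B k hB ⟨x, h⟩ = coeffMap (Int.castRingHom (kV A)) u := by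
  have h : x ∈ V02o A q M B k hB := by
    show ((wS q M B k hB (x : FN (M * q * q)) : FN (M * q * q)) : LaurentSeries Kbar)
      ∈ gaussRingV A
    rw [hx]
    exact intSer_mem A u
  refine ⟨h, ?_⟩
  rw [s02_mk]
  have e : (⟨((wS q M B k hB (x : FN (M * q * q)) : FN (M * q * q)) : LaurentSeries Kbar), h⟩ :
      gaussRingV A) = ⟨intSer Kbar u, intSer_mem A u⟩ := Subtype.ext hx
  rw [e, gaussRedV_intSer]

/-! #### The expansions of `j` and `j''` -/

theorem coe_j0_series :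
    (((j0 A (M * q * q) : ↥(L0 A (M * q * q))) : FN (M * q * q)) : LaurentSeries Kbar)
      = intSer Kbar jInt := by
  rw [coe_j0', coe_jdF_one]

theorem coe_incBB_j :
    ((incBB q M (jdF M 1 (one_dvd M)) : FN (M * q * q)) : LaurentSeries Kbar)
      = intSer Kbar (jInt2 q) := by
  rw [coe_incBB, coe_jdF_one, jInt2, intSer_qExpand, intSer_qExpand]

theorem coe_jdd_series :
    (((jdd A q M : ↥(L0 A (M * q * q))) : FN (M * q * q)) : LaurentSeries Kbar)
      = intSer Kbar (jInt2 q) := by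
  rw [coe_jdd, ← incBB_jdF_one q M (sq_dvd_lvl q M), coe_incBB_j]

include hB hq in
theorem cM_j0 :
    cM q M B k hB hq ((j0 A (M * q * q) : ↥(L0 A (M * q * q))) : FN (M * q * q))
      = intSer Kbar jInt := by
  rw [coe_j0', ← incAA_jdF_one q M, cM_incAA q M B k hB hq, coe_jdF_one]

include hq in
theorem wS_j0 :
    ((wS q M B k hB ((j0 A (M * q * q) : ↥(L0 A (M * q * q))) : FN (M * q * q)) :
      FN (M * q * q)) : LaurentSeries Kbar) = intSer Kbar (jInt2 q) := by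
  rw [coe_j0', ← incAA_jdF_one q M, wS_incAA q M B k hB hq, coe_incBB_j]

include hq in
theorem wS_jdd :
    ((wS q M B k hB ((jdd A q M : ↥(L0 A (M * q * q))) : FN (M * q * q)) :
      FN (M * q * q)) : LaurentSeries Kbar) = intSer Kbar jInt := by
  rw [coe_jdd, ← incBB_jdF_one q M (sq_dvd_lvl q M), wS_incBB q M B k hB hq, coe_incAA,
    coe_jdF_one]

/-! #### Memberships and reductions -/

theorem j0_mem20 : j0 A (M * q * q) ∈ V20o A q M :=
  (s20_of_intSer A q M _ jInt (coe_j0_series A q M)).1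

theorem s20_j0 (h : j0 A (M * q * q) ∈ V20o A q M) : s20 A q M ⟨_, h⟩ = Jred A :=
  (s20_of_intSer A q M _ jInt (coe_j0_series A q M)).2

theorem jdd_mem20 : jdd A q M ∈ V20o A q M :=
  (s20_of_intSer A q M _ (jInt2 q) (coe_jdd_series A q M)).1

theorem s20_jdd (h : jdd A q M ∈ V20o A q M) : s20 A q M ⟨_, h⟩ = Jred2 A q :=
  (s20_of_intSer A q M _ (jInt2 q) (coe_jdd_series A q M)).2

theorem j0_mem11 : j0 A (M * q * q) ∈ V11o A q M B k hB hq :=
  (s11_of_intSer A q M B k hB hq _ jInt (cM_j0 A q M B k hB hq)).1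

theorem s11_j0 (h : j0 A (M * q * q) ∈ V11o A q M B k hB hq) :
    s11 A q M B k hB hq ⟨_, h⟩ = Jred A :=
  (s11_of_intSer A q M B k hB hq _ jInt (cM_j0 A q M B k hB hq)).2

include hq in
theorem j0_mem02 : j0 A (M * q * q) ∈ V02o A q M B k hB :=
  (s02_of_intSer A q M B k hB _ (jInt2 q) (wS_j0 A q M B k hB hq)).1

include hq in
theorem s02_j0 (h : j0 A (M * q * q) ∈ V02o A q M B k hB) :
    s02 A q M B k hB ⟨_, h⟩ = Jred2 A q :=
  (s02_of_intSer A q M B k hB _ (jInt2 q) (wS_j0 A q M B k hB hq)).2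

include hq in
theorem jdd_mem02 : jdd A q M ∈ V02o A q M B k hB :=
  (s02_of_intSer A q M B k hB _ jInt (wS_jdd A q M B k hB hq)).1

include hq in
theorem s02_jdd (h : jdd A q M ∈ V02o A q M B k hB) :
    s02 A q M B k hB ⟨_, h⟩ = Jred A :=
  (s02_of_intSer A q M B k hB _ jInt (wS_jdd A q M B k hB hq)).2

theorem jdd_eq : jdd A q M = pi11 A q M + j0 A (M * q * q) := by
  apply Subtype.ext
  show jdF (M * q * q) (q * q) (sq_dvd_lvl q M)
    = (jdF (M * q * q) (q * q) (sq_dvd_lvl q M) - jdF (M * q * q) 1 (one_dvd _)) + jF (M * q * q)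
  rw [jdF_one_eq_jF]
  ring

include hA in
theorem pi11_mem11 : pi11 A q M ∈ V11o A q M B k hB hq :=
  (ValuationSubring.valuation_le_one_iff _ _).1 (le_of_lt (val_pi11_lt_one A q M B k hB hq hA))

include hA in
theorem s11_pi11 (h : pi11 A q M ∈ V11o A q M B k hB hq) :
    s11 A q M B k hB hq ⟨_, h⟩ = 0 := by
  apply s11_eq_zero_of_not_isUnit
  intro hu
  have h1 := (ValuationSubring.valuation_eq_one_iff (V11o A q M B k hB hq) ⟨_, h⟩).1 hu
  exact (val_pi11_lt_one A q M B k hB hq hA).ne h1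

include hA in
theorem jdd_mem11 : jdd A q M ∈ V11o A q M B k hB hq := by
  rw [jdd_eq]
  exact add_mem (pi11_mem11 A q M B k hB hq hA) (j0_mem11 A q M B k hB hq)

include hA in
theorem s11_jdd (h : jdd A q M ∈ V11o A q M B k hB hq) :
    s11 A q M B k hB hq ⟨_, h⟩ = Jred A := by
  have e : (⟨jdd A q M, h⟩ : ↥(V11o A q M B k hB hq))
      = ⟨pi11 A q M, pi11_mem11 A q M B k hB hq hA⟩
        + ⟨j0 A (M * q * q), j0_mem11 A q M B k hB hq⟩ := Subtype.ext (jdd_eq A q M)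
  rw [e, map_add, s11_pi11 A q M B k hB hq hA, s11_j0, zero_add]

end JJ

/-! ### The separating elements -/

section Sep

variable (A : ValuationSubring Kbar) (q M : ℕ) (B k : ℤ) (hB : B * M + k * q = 1) (hq : q.Prime)
  [NeZero M] [NeZero q] [NeZero (M * q * q)] (hqM : ¬ q ∣ M) (hA : A.LiesOverPrime q)

include hq in
theorem qExpand_ne_Jred (Y : LaurentSeries (kV A)) : qExpand (kV A) q Y ≠ Jred A := by
  obtain ⟨n, hn, hc⟩ := thetaNZ_jInt q (kV A) hq
  intro h
  apply hc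
  show (Jred A).coeff n = 0
  rw [← h]
  exact qExpand_coeff_of_not_dvd q Y hn

include hq in
theorem Jred_ne_zero : Jred A ≠ 0 := by
  obtain ⟨n, hn, hc⟩ := thetaNZ_jInt q (kV A) hq
  intro h
  apply hc
  show (Jred A).coeff n = 0
  rw [h]
  rfl

include hq in
theorem Jred2_ne_zero : Jred2 A q ≠ 0 := by
  rw [Jred2_eq]
  intro h
  have h1 : qExpand (kV A) q (qExpand (kV A) q (Jred A)) = qExpand (kV A) q 0 := by
    rw [h, map_zero]
  have h2 := qExpand_injective q h1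
  have h3 : qExpand (kV A) q (Jred A) = qExpand (kV A) q 0 := by rw [h2, map_zero]
  exact Jred_ne_zero A q hq (qExpand_injective q h3)

include hq in
theorem Jred2_sub_ne_zero : Jred2 A q - Jred A ≠ 0 := by
  rw [Jred2_eq]
  exact sub_ne_zero.2 (qExpand_ne_Jred A q hq _)

include hq in
theorem Jred_sub_ne_zero : Jred A - Jred2 A q ≠ 0 := by
  rw [Jred2_eq]
  exact sub_ne_zero.2 (qExpand_ne_Jred A q hq _).symm

include hq hA in
theorem Jred_pow : Jred A ^ q ^ 2 = Jred2 A q := by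
  haveI : Fact q.Prime := ⟨hq⟩
  haveI : CharP (kV A) q := Fermat.Agent.BAD.H82.charP_kV A hq hA
  rw [Jred2_eq]
  exact intRed_pow_sq q jInt

include hq hA in
theorem Jred2_pow :
    Jred2 A q ^ q ^ 2 = qExpand (kV A) q (qExpand (kV A) q (Jred2 A q)) := by
  haveI : Fact q.Prime := ⟨hq⟩
  haveI : CharP (kV A) q := Fermat.Agent.BAD.H82.charP_kV A hq hA
  exact intRed_pow_sq q (jInt2 q)

include hq hA in
theorem Jred_sub_pow_ne_zero : Jred A - Jred2 A q ^ q ^ 2 ≠ 0 := by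
  rw [Jred2_pow A q hq hA]
  exact sub_ne_zero.2 (qExpand_ne_Jred A q hq _).symm

/-- Reduction of a difference `x - y ^ n`. -/
theorem red_sub_pow {F S : Type*} [Field F] [Ring S] (V : ValuationSubring F) (s : ↥V →+* S)
    {x y : F} (hx : x ∈ V) (hy : y ∈ V) (n : ℕ) (h : x - y ^ n ∈ V) :
    s ⟨x - y ^ n, h⟩ = s ⟨x, hx⟩ - s ⟨y, hy⟩ ^ n := by
  have e : (⟨x - y ^ n, h⟩ : ↥V) = ⟨x, hx⟩ - ⟨y, hy⟩ ^ n := Subtype.ext rfl
  rw [e, map_sub, map_pow]

theorem red_sub_pow' {F S : Type*} [Field F] [Ring S] (V : ValuationSubring F) (s : ↥V →+* S)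
    {x y : F} (hx : x ∈ V) (hy : y ∈ V) (n : ℕ) (z : F) (hz : z = x - y ^ n) (h : z ∈ V) :
    s ⟨z, h⟩ = s ⟨x, hx⟩ - s ⟨y, hy⟩ ^ n := by
  subst hz
  exact red_sub_pow V s hx hy n h

theorem sub_pow_mem {F : Type*} [Field F] (V : ValuationSubring F) {x y : F} (hx : x ∈ V)
    (hy : y ∈ V) (n : ℕ) : x - y ^ n ∈ V := sub_mem hx (pow_mem hy n)

/-- `τ_a = j'' - j` (zero on the middle component). -/
def tauA : ↥(L0 A (M * q * q)) := jdd A q M - j0 A (M * q * q) ^ 1

/-- `τ_b = j'' - j ^ q²` (zero on the component `20`). -/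
def tauB : ↥(L0 A (M * q * q)) := jdd A q M - j0 A (M * q * q) ^ q ^ 2

/-- `τ_c = j - j'' ^ q²` (zero on the component `02`). -/
def tauC : ↥(L0 A (M * q * q)) := j0 A (M * q * q) - jdd A q M ^ q ^ 2

/-! #### At `V₂₀` -/

theorem tauA_mem20 : tauA A q M ∈ V20o A q M :=
  sub_pow_mem _ (jdd_mem20 A q M) (j0_mem20 A q M) 1

theorem tauB_mem20 : tauB A q M ∈ V20o A q M :=
  sub_pow_mem _ (jdd_mem20 A q M) (j0_mem20 A q M) _

theorem tauC_mem20 : tauC A q M ∈ V20o A q M :=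
  sub_pow_mem _ (j0_mem20 A q M) (jdd_mem20 A q M) _

theorem s20_tauA (h : tauA A q M ∈ V20o A q M) :
    s20 A q M ⟨_, h⟩ = Jred2 A q - Jred A := by
  rw [red_sub_pow' _ _ (jdd_mem20 A q M) (j0_mem20 A q M) _ (tauA A q M) rfl h, s20_jdd, s20_j0, pow_one]

include hq hA in
theorem s20_tauB (h : tauB A q M ∈ V20o A q M) : s20 A q M ⟨_, h⟩ = 0 := by
  rw [red_sub_pow' _ _ (jdd_mem20 A q M) (j0_mem20 A q M) _ (tauB A q M) rfl h, s20_jdd, s20_j0, Jred_pow A q hq hA,
    sub_self]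

theorem s20_tauC (h : tauC A q M ∈ V20o A q M) :
    s20 A q M ⟨_, h⟩ = Jred A - Jred2 A q ^ q ^ 2 := by
  rw [red_sub_pow' _ _ (j0_mem20 A q M) (jdd_mem20 A q M) _ (tauC A q M) rfl h, s20_jdd, s20_j0]

/-! #### At `V₁₁` -/

include hA in
theorem tauA_mem11 : tauA A q M ∈ V11o A q M B k hB hq :=
  sub_pow_mem _ (jdd_mem11 A q M B k hB hq hA) (j0_mem11 A q M B k hB hq) 1

include hA in
theorem tauB_mem11 : tauB A q M ∈ V11o A q M B k hB hq :=
  sub_pow_mem _ (jdd_mem11 A q M B k hB hq hA) (j0_mem11 A q M B k hB hq) _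

include hA in
theorem tauC_mem11 : tauC A q M ∈ V11o A q M B k hB hq :=
  sub_pow_mem _ (j0_mem11 A q M B k hB hq) (jdd_mem11 A q M B k hB hq hA) _

include hA in
theorem s11_tauA (h : tauA A q M ∈ V11o A q M B k hB hq) :
    s11 A q M B k hB hq ⟨_, h⟩ = 0 := by
  rw [red_sub_pow' _ _ (jdd_mem11 A q M B k hB hq hA) (j0_mem11 A q M B k hB hq) _ (tauA A q M) rfl h,
    s11_jdd A q M B k hB hq hA, s11_j0, pow_one, sub_self]

include hA in
theorem s11_tauB (h : tauB A q M ∈ V11o A q M B k hB hq) :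
    s11 A q M B k hB hq ⟨_, h⟩ = Jred A - Jred2 A q := by
  rw [red_sub_pow' _ _ (jdd_mem11 A q M B k hB hq hA) (j0_mem11 A q M B k hB hq) _ (tauB A q M) rfl h,
    s11_jdd A q M B k hB hq hA, s11_j0, Jred_pow A q hq hA]

include hA in
theorem s11_tauC (h : tauC A q M ∈ V11o A q M B k hB hq) :
    s11 A q M B k hB hq ⟨_, h⟩ = Jred A - Jred2 A q := by
  rw [red_sub_pow' _ _ (j0_mem11 A q M B k hB hq) (jdd_mem11 A q M B k hB hq hA) _ (tauC A q M) rfl h,
    s11_jdd A q M B k hB hq hA, s11_j0, Jred_pow A q hq hA]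

/-! #### At `V₀₂` -/

include hq in
theorem tauA_mem02 : tauA A q M ∈ V02o A q M B k hB :=
  sub_pow_mem _ (jdd_mem02 A q M B k hB hq) (j0_mem02 A q M B k hB hq) 1

include hq in
theorem tauB_mem02 : tauB A q M ∈ V02o A q M B k hB :=
  sub_pow_mem _ (jdd_mem02 A q M B k hB hq) (j0_mem02 A q M B k hB hq) _

include hq in
theorem tauC_mem02 : tauC A q M ∈ V02o A q M B k hB :=
  sub_pow_mem _ (j0_mem02 A q M B k hB hq) (jdd_mem02 A q M B k hB hq) _

include hq in
theorem s02_tauA (h : tauA A q M ∈ V02o A q M B k hB) :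
    s02 A q M B k hB ⟨_, h⟩ = Jred A - Jred2 A q := by
  rw [red_sub_pow' _ _ (jdd_mem02 A q M B k hB hq) (j0_mem02 A q M B k hB hq) _ (tauA A q M) rfl h,
    s02_jdd A q M B k hB hq, s02_j0 A q M B k hB hq, pow_one]

include hq in
theorem s02_tauB (h : tauB A q M ∈ V02o A q M B k hB) :
    s02 A q M B k hB ⟨_, h⟩ = Jred A - Jred2 A q ^ q ^ 2 := by
  rw [red_sub_pow' _ _ (jdd_mem02 A q M B k hB hq) (j0_mem02 A q M B k hB hq) _ (tauB A q M) rfl h,
    s02_jdd A q M B k hB hq, s02_j0 A q M B k hB hq]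

include hq hA in
theorem s02_tauC (h : tauC A q M ∈ V02o A q M B k hB) :
    s02 A q M B k hB ⟨_, h⟩ = 0 := by
  rw [red_sub_pow' _ _ (j0_mem02 A q M B k hB hq) (jdd_mem02 A q M B k hB hq) _ (tauC A q M) rfl h,
    s02_jdd A q M B k hB hq, s02_j0 A q M B k hB hq, Jred_pow A q hq hA, sub_self]

end Sep

/-! ### The two charts -/

section Charts

variable (A : ValuationSubring Kbar) (q M : ℕ) (B k : ℤ) (hB : B * M + k * q = 1) (hq : q.Prime)
  [NeZero M] [NeZero q] [NeZero (M * q * q)] (hqM : ¬ q ∣ M) (hA : A.LiesOverPrime q)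
  (ht : H91.TameAt M q)

attribute [local instance] algkM

/-- The three reductions of `totM`. -/
theorem rdN_totM_zero (x : ↥(L0 A (M * q * q))) (h : x ∈ V20o A q M) :
    (totM A q M B k hB hq hqM hA ht).rdN 0 x = r20 A q M hq hqM hA ⟨x, h⟩ :=
  (totM A q M B k hB hq hqM hA ht).rdN_of_mem (i := 0) h

theorem rdN_totM_one (x : ↥(L0 A (M * q * q))) (h : x ∈ V11o A q M B k hB hq) :
    (totM A q M B k hB hq hqM hA ht).rdN 1 x = r11 A q M B k hB hq hqM hA ⟨x, h⟩ :=
  (totM A q M B k hB hq hqM hA ht).rdN_of_mem (i := 1) h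

theorem rdN_totM_two (x : ↥(L0 A (M * q * q))) (h : x ∈ V02o A q M B k hB) :
    (totM A q M B k hB hq hqM hA ht).rdN 2 x = r02 A q M B k hB hq hqM hA ⟨x, h⟩ :=
  (totM A q M B k hB hq hqM hA ht).rdN_of_mem (i := 2) h

theorem rdN_totM_zero_eq_zero (x : ↥(L0 A (M * q * q))) (h : x ∈ V20o A q M)
    (h0 : s20 A q M ⟨x, h⟩ = 0) : (totM A q M B k hB hq hqM hA ht).rdN 0 x = 0 := by
  rw [rdN_totM_zero A q M B k hB hq hqM hA ht x h]
  exact (show r20 A q M hq hqM hA ⟨x, h⟩ = (0 : FM A M) from Subtype.ext h0)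

theorem rdN_totM_one_eq_zero (x : ↥(L0 A (M * q * q))) (h : x ∈ V11o A q M B k hB hq)
    (h0 : s11 A q M B k hB hq ⟨x, h⟩ = 0) : (totM A q M B k hB hq hqM hA ht).rdN 1 x = 0 := by
  rw [rdN_totM_one A q M B k hB hq hqM hA ht x h]
  exact (show r11 A q M B k hB hq hqM hA ⟨x, h⟩ = (0 : FM A M) from Subtype.ext h0)

theorem rdN_totM_two_eq_zero (x : ↥(L0 A (M * q * q))) (h : x ∈ V02o A q M B k hB)
    (h0 : s02 A q M B k hB ⟨x, h⟩ = 0) : (totM A q M B k hB hq hqM hA ht).rdN 2 x = 0 := by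
  rw [rdN_totM_two A q M B k hB hq hqM hA ht x h]
  exact (show r02 A q M B k hB hq hqM hA ⟨x, h⟩ = (0 : FM A M) from Subtype.ext h0)

theorem rdN_totM_zero_ne_zero (x : ↥(L0 A (M * q * q))) (h : x ∈ V20o A q M)
    (h0 : s20 A q M ⟨x, h⟩ ≠ 0) : (totM A q M B k hB hq hqM hA ht).rdN 0 x ≠ 0 := by
  rw [rdN_totM_zero A q M B k hB hq hqM hA ht x h]
  intro e
  have e' : r20 A q M hq hqM hA ⟨x, h⟩ = (0 : FM A M) := e
  exact h0 (congrArg Subtype.val e')

theorem rdN_totM_one_ne_zero (x : ↥(L0 A (M * q * q))) (h : x ∈ V11o A q M B k hB hq)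
    (h0 : s11 A q M B k hB hq ⟨x, h⟩ ≠ 0) : (totM A q M B k hB hq hqM hA ht).rdN 1 x ≠ 0 := by
  rw [rdN_totM_one A q M B k hB hq hqM hA ht x h]
  intro e
  have e' : r11 A q M B k hB hq hqM hA ⟨x, h⟩ = (0 : FM A M) := e
  exact h0 (congrArg Subtype.val e')

theorem rdN_totM_two_ne_zero (x : ↥(L0 A (M * q * q))) (h : x ∈ V02o A q M B k hB)
    (h0 : s02 A q M B k hB ⟨x, h⟩ ≠ 0) : (totM A q M B k hB hq hqM hA ht).rdN 2 x ≠ 0 := by
  rw [rdN_totM_two A q M B k hB hq hqM hA ht x h]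
  intro e
  have e' : r02 A q M B k hB hq hqM hA ⟨x, h⟩ = (0 : FM A M) := e
  exact h0 (congrArg Subtype.val e')

/-- **The input of the chart of `j`.** -/
theorem chartInput0 :
    ChartInput (totM A q M B k hB hq hqM hA ht) (j0 A (M * q * q)) (resRur A) where
  res_surj := resRur_surjective A hq hA
  const_mem := fun i r => by
    fin_cases i
    · exact const_mem_V20o A q M r
    · exact const_mem_V11o A q M B k hB hq r
    · exact const_mem_V02o A q M B k hB r
  j_mem := fun i => by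
    fin_cases i
    · exact j0_mem20 A q M
    · exact j0_mem11 A q M B k hB hq
    · exact j0_mem02 A q M B k hB hq
  red_const := fun i r hr => by
    fin_cases i
    · exact Subtype.ext (s20_const A q M r hr)
    · exact Subtype.ext (s11_const A q M B k hB hq r hr)
    · exact Subtype.ext (s02_const A q M B k hB r hr)

/-- `j` is a unit for the three valuations. -/
theorem rdN_j0_ne_zero (i : Fin 3) :
    (totM A q M B k hB hq hqM hA ht).rdN i (j0 A (M * q * q)) ≠ 0 := by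
  fin_cases i
  · refine rdN_totM_zero_ne_zero A q M B k hB hq hqM hA ht _ (j0_mem20 A q M) ?_
    rw [s20_j0]
    exact Jred_ne_zero A q hq
  · refine rdN_totM_one_ne_zero A q M B k hB hq hqM hA ht _ (j0_mem11 A q M B k hB hq) ?_
    rw [s11_j0]
    exact Jred_ne_zero A q hq
  · refine rdN_totM_two_ne_zero A q M B k hB hq hqM hA ht _ (j0_mem02 A q M B k hB hq) ?_
    rw [s02_j0 A q M B k hB hq]
    exact Jred2_ne_zero A q hq

/-- **The input of the chart of `j⁻¹`.** -/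
theorem chartInputInf :
    ChartInput (totM A q M B k hB hq hqM hA ht) (j0 A (M * q * q))⁻¹ (resRur A) :=
  (chartInput0 A q M B k hB hq hqM hA ht).inv _ _ _ (rdN_j0_ne_zero A q M B k hB hq hqM hA ht)

/-- **The chart of `j`**: `B = ` the integral closure of `R[j]`. -/
def chart0 : Chart ↥(Rur A) ↥(L0 A (M * q * q)) (kV A) (Fin 3) (kap3 (FM A M) (FM A M)) :=
  chartOf (totM A q M B k hB hq hqM hA ht) (j0 A (M * q * q)) (resRur A)
    (chartInput0 A q M B k hB hq hqM hA ht)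

/-- **The chart of `j⁻¹`**: `B = ` the integral closure of `R[j⁻¹]`. -/
def chartInf : Chart ↥(Rur A) ↥(L0 A (M * q * q)) (kV A) (Fin 3) (kap3 (FM A M) (FM A M)) :=
  chartOf (totM A q M B k hB hq hqM hA ht) (j0 A (M * q * q))⁻¹ (resRur A)
    (chartInputInf A q M B k hB hq hqM hA ht)

theorem chart0_B :
    (chart0 A q M B k hB hq hqM hA ht).B = intSub ↥(Rur A) (j0 A (M * q * q)) := rfl

theorem chartInf_B :
    (chartInf A q M B k hB hq hqM hA ht).B = intSub ↥(Rur A) (j0 A (M * q * q))⁻¹ := rfl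

theorem compat_chart0 :
    Compat (chart0 A q M B k hB hq hqM hA ht) (totM A q M B k hB hq hqM hA ht) :=
  compat_chartOf _ _ _ _

theorem compat_chartInf :
    Compat (chartInf A q M B k hB hq hqM hA ht) (totM A q M B k hB hq hqM hA ht) :=
  compat_chartOf _ _ _ _

/-! #### Noetherianity and fraction fields -/

include hq hA in
theorem isNoetherianRing_chart0 :
    IsNoetherianRing ↥(intSub ↥(Rur A) (j0 A (M * q * q))) := by
  haveI := isNoetherianRing_Rur A hq hA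
  exact isNoetherianRing_intSub ↥(Rur A) ↥(Kur A) (j0 A (M * q * q))
    (transcendental_j0 A (M * q * q))

theorem isFractionRing_chart0 :
    IsFractionRing ↥(intSub ↥(Rur A) (j0 A (M * q * q))) ↥(L0 A (M * q * q)) :=
  isFractionRing_intSub ↥(Rur A) ↥(Kur A) (j0 A (M * q * q))

include hq hA in
theorem isNoetherianRing_chartInf :
    IsNoetherianRing ↥(intSub ↥(Rur A) (j0 A (M * q * q))⁻¹) := by
  haveI := isNoetherianRing_Rur A hq hA
  haveI := finiteDimensional_adjoin_inv ↥(Kur A) (j0 A (M * q * q))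
  haveI := isSeparable_adjoin_inv ↥(Kur A) (j0 A (M * q * q))
  exact isNoetherianRing_intSub ↥(Rur A) ↥(Kur A) (j0 A (M * q * q))⁻¹
    (transcendental_inv ↥(Kur A) _ (transcendental_j0 A (M * q * q)))

theorem isFractionRing_chartInf :
    IsFractionRing ↥(intSub ↥(Rur A) (j0 A (M * q * q))⁻¹) ↥(L0 A (M * q * q)) := by
  haveI := finiteDimensional_adjoin_inv ↥(Kur A) (j0 A (M * q * q))
  exact isFractionRing_intSub ↥(Rur A) ↥(Kur A) (j0 A (M * q * q))⁻¹

/-! #### The hypotheses `ChartHyp` -/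

include hq hA in
theorem charP_kap3 (i : Fin 3) : CharP (kap3 (FM A M) (FM A M) i) q := by
  haveI : CharP (kV A) q := Fermat.Agent.BAD.H82.charP_kV A hq hA
  have h : CharP (FM A M) q :=
    charP_of_injective_algebraMap (algebraMap (kV A) (FM A M)).injective q
  fin_cases i
  · exact h
  · exact h
  · exact h

/-- **The separating elements** of the chart of `j`, if `j'' = j(q²τ)` is integral over
`R[j]`. -/
theorem hinc_chart0 (hjdd : jdd A q M ∈ intSub ↥(Rur A) (j0 A (M * q * q))) :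
    ∀ i i' : Fin 3, i ≠ i' → ∃ τ : ↥(L0 A (M * q * q)),
      τ ∈ intSub ↥(Rur A) (j0 A (M * q * q)) ∧
      (totM A q M B k hB hq hqM hA ht).rdN i' τ = 0 ∧
      (totM A q M B k hB hq hqM hA ht).rdN i τ ≠ 0 := by
  have hj : j0 A (M * q * q) ∈ intSub ↥(Rur A) (j0 A (M * q * q)) := self_mem_intSub _ _
  have hA' : tauA A q M ∈ intSub ↥(Rur A) (j0 A (M * q * q)) :=
    sub_mem hjdd (pow_mem hj 1)
  have hB' : tauB A q M ∈ intSub ↥(Rur A) (j0 A (M * q * q)) :=
    sub_mem hjdd (pow_mem hj _)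
  have hC' : tauC A q M ∈ intSub ↥(Rur A) (j0 A (M * q * q)) :=
    sub_mem hj (pow_mem hjdd _)
  intro i i' hii
  fin_cases i <;> fin_cases i'
  · exact absurd rfl hii
  · -- (20, 11): τ_a
    refine ⟨tauA A q M, hA', ?_, ?_⟩
    · exact rdN_totM_one_eq_zero A q M B k hB hq hqM hA ht _ (tauA_mem11 A q M B k hB hq hA)
        (s11_tauA A q M B k hB hq hA _)
    · refine rdN_totM_zero_ne_zero A q M B k hB hq hqM hA ht _ (tauA_mem20 A q M) ?_
      rw [s20_tauA]
      exact Jred2_sub_ne_zero A q hq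
  · -- (20, 02): τ_c
    refine ⟨tauC A q M, hC', ?_, ?_⟩
    · exact rdN_totM_two_eq_zero A q M B k hB hq hqM hA ht _ (tauC_mem02 A q M B k hB hq)
        (s02_tauC A q M B k hB hq hA _)
    · refine rdN_totM_zero_ne_zero A q M B k hB hq hqM hA ht _ (tauC_mem20 A q M) ?_
      rw [s20_tauC]
      exact Jred_sub_pow_ne_zero A q hq hA
  · -- (11, 20): τ_b
    refine ⟨tauB A q M, hB', ?_, ?_⟩
    · exact rdN_totM_zero_eq_zero A q M B k hB hq hqM hA ht _ (tauB_mem20 A q M)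
        (s20_tauB A q M hq hA _)
    · refine rdN_totM_one_ne_zero A q M B k hB hq hqM hA ht _
        (tauB_mem11 A q M B k hB hq hA) ?_
      rw [s11_tauB A q M B k hB hq hA]
      exact Jred_sub_ne_zero A q hq
  · exact absurd rfl hii
  · -- (11, 02): τ_c
    refine ⟨tauC A q M, hC', ?_, ?_⟩
    · exact rdN_totM_two_eq_zero A q M B k hB hq hqM hA ht _ (tauC_mem02 A q M B k hB hq)
        (s02_tauC A q M B k hB hq hA _)
    · refine rdN_totM_one_ne_zero A q M B k hB hq hqM hA ht _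
        (tauC_mem11 A q M B k hB hq hA) ?_
      rw [s11_tauC A q M B k hB hq hA]
      exact Jred_sub_ne_zero A q hq
  · -- (02, 20): τ_b
    refine ⟨tauB A q M, hB', ?_, ?_⟩
    · exact rdN_totM_zero_eq_zero A q M B k hB hq hqM hA ht _ (tauB_mem20 A q M)
        (s20_tauB A q M hq hA _)
    · refine rdN_totM_two_ne_zero A q M B k hB hq hqM hA ht _
        (tauB_mem02 A q M B k hB hq) ?_
      rw [s02_tauB A q M B k hB hq]
      exact Jred_sub_pow_ne_zero A q hq hA
  · -- (02, 11): τ_a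
    refine ⟨tauA A q M, hA', ?_, ?_⟩
    · exact rdN_totM_one_eq_zero A q M B k hB hq hqM hA ht _ (tauA_mem11 A q M B k hB hq hA)
        (s11_tauA A q M B k hB hq hA _)
    · refine rdN_totM_two_ne_zero A q M B k hB hq hqM hA ht _
        (tauA_mem02 A q M B k hB hq) ?_
      rw [s02_tauA A q M B k hB hq]
      exact Jred_sub_ne_zero A q hq
  · exact absurd rfl hii

/-- **`ChartHyp` for the chart of `j`.** -/
theorem chartHyp_chart0 (n : ℕ) (hn : 0 < n) (hcop : Nat.Coprime n q)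
    (hjdd : jdd A q M ∈ intSub ↥(Rur A) (j0 A (M * q * q))) :
    ChartHyp (chart0 A q M B k hB hq hqM hA ht) q n :=
  chartHyp_chartOf _ _ _ _ q n hq (charP_kap3 A q M hq hA) hn hcop
    (hinc_chart0 A q M B k hB hq hqM hA ht hjdd)

/-- **`ChartHyp` for the chart of `j⁻¹`.** -/
theorem chartHyp_chartInf (n : ℕ) (hn : 0 < n) (hcop : Nat.Coprime n q)
    (hjdd : jdd A q M ∈ intSub ↥(Rur A) (j0 A (M * q * q))) :
    ChartHyp (chartInf A q M B k hB hq hqM hA ht) q n :=
  chartHyp_chartOf _ _ _ _ q n hq (charP_kap3 A q M hq hA) hn hcop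
    (hinc_inv _ _ _ (chartInput0 A q M B k hB hq hqM hA ht)
      (rdN_j0_ne_zero A q M B k hB hq hqM hA ht)
      (hinc_chart0 A q M B k hB hq hqM hA ht hjdd))

end Charts

end Fermat.Agent.S36.NU.H88
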