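import Fermat.Agent.S36.NU.H65_Inst2
import Fermat.Agent.S36.NU.H88_ChartMod
import Fermat.Agent.S36.NU.H74_InstA
import Fermat.Agent.S36.NU.H74_FinHyps
import Fermat.Agent.S36.NU.H79_NuMDefs
import Fermat.Agent.S36.NU.H15_InstB
import Fermat.Agent.S36.NU.H10_Tame

/-!
# S36 / NU-B, TOP (helper10): `Stmt_FinMod` from the modular datum and the local data

`finMod_top` : `H65.finMod_of` instantiated at the charts `H88.chart0`, `H88.chartInf`, a modular
datum `D` (`H79.IsNuM`), with the landed providers (`H74`: `hfg`, HOR, `hP`, `RootClosed`,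
`SS ≠ ∅`, `InChart`; `H88`: charts, `Compat`, `ChartHyp`).  The REMAINING inputs are the fields
of `TopInputs`:

* `hjdd`   : `j(q²τ)` is integral over `Rur[j]` (helper88, from crit);
* `hpt0`   : `PointData` of the chart `0` (helper99 assembly: M2 + M4);
* `hptoo`  : `PointDataAt` at the cusps of the chart at infinity (helper82);
* `hrad0`, `hradoo` : RADQ (helper28).
(`hunit`, `hconst`: INST-B of helper15, plugged.)
-/

set_option autoImplicit false
set_option synthInstance.maxHeartbeats 400000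
set_option maxHeartbeats 1000000
set_option linter.style.haveILetI false
set_option linter.unusedSectionVars false

noncomputable section

open ModularCurve AlgebraicCurve IntermediateField

attribute [local instance] Classical.propDecidable

namespace Fermat.Agent.S36.NU.H10

open Fermat.Agent.S24 Fermat.Agent.BAD Fermat.Agent.BAD.H88 Fermat.Agent.S28 Fermat.Agent.S28.H73
  Fermat.Agent.S36.NU.H23
  Fermat.Agent.S36.NU.H41 Fermat.Agent.S36.NU.H88 Fermat.Agent.S36.NU.H16
  Fermat.Agent.S36.NU.H17 Fermat.Agent.S36.NU.H24 Fermat.Agent.S36.NU.H79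
  Fermat.Agent.S36.NU.H65 Fermat.Agent.S36.NU.H74 Fermat.Agent.Lib.HeckeComm

section Top

variable (A : ValuationSubring Kbar) (q M : ℕ) (B k : ℤ) (hB : B * M + k * q = 1) (hq : q.Prime)
  [NeZero M] [NeZero q] [NeZero (M * q)] [NeZero (M * q * q)]
  (hqM : ¬ q ∣ M) (hA : A.LiesOverPrime q) (ht : H91.TameAt M q)

attribute [local instance] algkM

/-- **The remaining modular inputs** of `Stmt_FinMod` (for a modular datum `D`). -/
structure TopInputs (D : NUDataM A q M) : Prop where
  hjdd : jdd A q M ∈ intSub ↥(Rur A) (j0 A (M * q * q))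
  hpt0 : PointData (chart0 A q M B k hB hq hqM hA ht) D ((q : ℕ) : ↥(Rur A))
  hptoo : ∀ 𝔪 : Ideal (chartInf A q M B k hB hq hqM hA ht).B, 𝔪.IsMaximal →
    (∃ i, (chartInf A q M B k hB hq hqM hA ht).Icomp i ≤ 𝔪) →
    (∀ β : (chartInf A q M B k hB hq hqM hA ht).B,
      (β : ↥(L0 A (M * q * q))) = (j0 A (M * q * q))⁻¹ → β ∈ 𝔪) →
    PointDataAt (chartInf A q M B k hB hq hqM hA ht) D ((q : ℕ) : ↥(Rur A)) 𝔪
  hrad0 : ∀ β ∈ (chart0 A q M B k hB hq hqM hA ht).B,
    (∀ i, (chart0 A q M B k hB hq hqM hA ht).rd i β = 0) →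
    IsRadQ (chart0 A q M B k hB hq hqM hA ht).B ((q : ℕ) : ↥(Rur A)) β
  hradoo : ∀ β ∈ (chartInf A q M B k hB hq hqM hA ht).B,
    (∀ i, (chartInf A q M B k hB hq hqM hA ht).rd i β = 0) →
    IsRadQ (chartInf A q M B k hB hq hqM hA ht).B ((q : ℕ) : ↥(Rur A)) β

/-- **TOP**: `Stmt_FinMod` from a modular datum and the remaining inputs. -/
theorem finMod_top (D : NUDataM A q M) (hD : IsNuM A q M B k hB hq hqM hA ht D)
    (hI : TopInputs A q M B k hB hq hqM hA ht D) : Stmt_FinMod A q M B k hB hq := by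
  haveI : IsAlgClosed (kV A) := Fermat.Agent.RED.H73.isAlgClosed_kV A
  haveI : IsNoetherianRing ↥(chart0 A q M B k hB hq hqM hA ht).B :=
    isNoetherianRing_chart0 A q M hq hA
  haveI : IsFractionRing ↥(chart0 A q M B k hB hq hqM hA ht).B ↥(L0 A (M * q * q)) :=
    isFractionRing_chart0 A q M
  haveI : IsNoetherianRing ↥(chartInf A q M B k hB hq hqM hA ht).B :=
    isNoetherianRing_chartInf A q M hq hA
  haveI : IsFractionRing ↥(chartInf A q M B k hB hq hqM hA ht).B ↥(L0 A (M * q * q)) :=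
    isFractionRing_chartInf A q M
  obtain ⟨E₀, hE₀, hHOR⟩ := hor_inst (M * q * q)
  have hT := hD.hT
  have hSSeq := hD.hSS
  refine finMod_of A q M B k hB hq hA D hD.hq
    (chart0 A q M B k hB hq hqM hA ht) (chartInf A q M B k hB hq hqM hA ht)
    (by rw [hT]; exact compat_chart0 A q M B k hB hq hqM hA ht)
    (by rw [hT]; exact compat_chartInf A q M B k hB hq hqM hA ht)
    (Fermat.Agent.S36.NU.H74.hasPrincipalDivisors_FN (M * q * q)) rfl rfl
    (fun n hn hcop => chartHyp_chart0 A q M B k hB hq hqM hA ht n hn hcop hI.hjdd)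
    (fun n hn hcop => chartHyp_chartInf A q M B k hB hq hqM hA ht n hn hcop hI.hjdd)
    hI.hpt0 hI.hptoo
    (by
      rw [hT, hSSeq]
      exact inChart_ssM A q M B k hB hq hqM hA ht _ rfl)
    (by rw [hSSeq]; exact ssM_nonempty A q M hq hqM hA ht)
    (fun n hn _ => rootClosed_kV A _ hn) (fun n hn _ => rootClosed_kV A _ hn)
    hI.hrad0 hI.hradoo
    (fun H n hn hH => hfg_inv A q hq hA (M * q * q) H hH n hn)
    E₀ hE₀
    (fun n h h0 hdiv => hHOR A q hq hA n h h0 hdiv _)
    (fun n h h0 hdiv => hHOR A q hq hA n h h0 hdiv _)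
    (fun h h0 hU => by
      rw [hT]
      exact Fermat.Agent.S36.NU.H15.hunit_totM A q M B k hB hq hqM hA ht h h0 hU)
    (Fermat.Agent.S36.NU.H15.hconst_L0 A (M * q * q))
    (fun n h hα => by
      obtain ⟨c, g, -, -, hN⟩ := hα
      exact ⟨c, g, by rw [hD.hNα, hN]⟩)
    (fun n h hβ => by
      obtain ⟨c, g, -, -, hN⟩ := hβ
      exact ⟨c, g, by rw [hD.hNβ, hN]⟩)

end Top

end Fermat.Agent.S36.NU.H10
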