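import Fermat.Agent.S36.NU.H87_NrA1
import Fermat.Agent.S36.NU.H23_Mod4
import Fermat.Agent.S36.NU.H79_B3
import Fermat.Agent.S36.NU.H10_FinTop
import Fermat.Agent.S35.H89_FrobDefs

/-!
# S36 / NU-B, leaf NM-N (helper89): the norm half of the modular `NUData`, part 1

Level `N = M q²`, `q ∤ M` tame, `A` over `q`.  `T = H23.totM` (three valuations of `L0 (M q²)`,
residue fields `FM A M`), `T' = S35.H89.modTot` (two valuations of `F_{Mq}`, residue fields
`F1 A q M`).

* `NalphaM`, `NbetaM : L0 (M q²) →* F_{Mq}` : the norms along the two degeneracy maps;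
* `cFM : FM A M →ₐ F1 A q M`, `cF1 : F1 A q M →ₐ FM A M` : the identification (D) of the residue
  fields of levels `M` and `M q` (same subfield of `k((t))`), `coe_cFM`, `coe_cF1`;
* `resId`, `resFr : ResNorm k (FM A M) (F1 A q M)` : the norms of residue fields of degree `1`
  and `q` (`N = cFM`, `j = cF1`, resp. `N = cFM ∘ φ`, `j = Fr ∘ cF1`);
* `normAlpha1` : NORM-RED along `α` above `V₁` (from helper87's `nrA1`).
-/

set_option autoImplicit false
set_option linter.style.haveILetI false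
set_option linter.unusedSectionVars false
set_option synthInstance.maxHeartbeats 400000
set_option maxHeartbeats 1000000

noncomputable section

open HahnSeries IntermediateField AlgebraicCurve ModularCurve
open Fermat.Agent.S24 Fermat.Agent.BAD.H88 Fermat.Agent.S28 Fermat.Agent.S28.H73
open Fermat.Agent.RED.H73 Fermat.Agent.RED.H17 Fermat.Agent.S36.NU.H88
open Fermat.Agent.S36.NU.H23 Fermat.Agent.S36.NU.H79 Fermat.Agent.BAD Fermat.Agent.RED

namespace Fermat.Agent.S36.NU.H89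

section Norms

variable (A : ValuationSubring Kbar) (q M : ℕ) [NeZero M] [NeZero q] [NeZero (M * q * q)]
  [NeZero (M * q)]

theorem normAlongHom_one' {E L : Type*} [Field E] [Field L] (φ : E →+* L) :
    Fermat.Agent.Lib.HeckeComm.normAlongHom φ (1 : L) = 1 := by
  letI := φ.toAlgebra
  exact map_one (Algebra.norm E)

/-- The norm along `α : X₀(M q²) → X₀(M q)` on the inertia-fixed functions. -/
def NalphaM : ↥(L0 A (M * q * q)) →* FN (M * q) where
  toFun h := Fermat.Agent.Lib.HeckeComm.normAlongHom (heckeAlphaBar Kbar (M * q) q).toRingHom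
    (h : FN (M * q * q))
  map_one' := normAlongHom_one' _
  map_mul' _ _ := Fermat.Agent.S36.NU.H10.normAlongHom_mul _ _ _

/-- The norm along `β : X₀(M q²) → X₀(M q)` on the inertia-fixed functions. -/
def NbetaM : ↥(L0 A (M * q * q)) →* FN (M * q) where
  toFun h := Fermat.Agent.Lib.HeckeComm.normAlongHom (heckeBetaBar Kbar (M * q) q).toRingHom
    (h : FN (M * q * q))
  map_one' := normAlongHom_one' _
  map_mul' _ _ := Fermat.Agent.S36.NU.H10.normAlongHom_mul _ _ _

theorem NalphaM_apply (h : ↥(L0 A (M * q * q))) :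
    NalphaM A q M h = Fermat.Agent.Lib.HeckeComm.normAlongHom
      (heckeAlphaBar Kbar (M * q) q).toRingHom (h : FN (M * q * q)) := rfl

theorem NbetaM_apply (h : ↥(L0 A (M * q * q))) :
    NbetaM A q M h = Fermat.Agent.Lib.HeckeComm.normAlongHom
      (heckeBetaBar Kbar (M * q) q).toRingHom (h : FN (M * q * q)) := rfl

end Norms

section Res

variable (A : ValuationSubring Kbar) (q M : ℕ) (B k : ℤ) (hB : B * M + k * q = 1) (hq : q.Prime)
  [NeZero M] [NeZero q] [NeZero (M * q * q)] [NeZero (M * q)] (hqM : ¬ q ∣ M)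
  (hA : A.LiesOverPrime q)

include hB hq hA in
/-- (D): the residue fields of levels `M q` and `M` are the same subfield of `k((t))`. -/
theorem hD : redField A (modularFunctionFieldBar (M * q)) (hSc A q M)
    = redField A (modularFunctionFieldBar M) (hScM A M) :=
  H82.redField_eq_redField q M k B (hab_of_hB q M B k hB) hq A hA

/-- The identification `FM A M → F1 A q M` (same series). -/
def cFM : FM A M →ₐ[kV A] F1 A q M :=
  IntermediateField.inclusion (le_of_eq (hD A q M B k hB hq hA).symm)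

/-- The identification `F1 A q M → FM A M` (same series). -/
def cF1 : F1 A q M →ₐ[kV A] FM A M :=
  IntermediateField.inclusion (le_of_eq (hD A q M B k hB hq hA))

theorem coe_cFM (x : FM A M) :
    ((cFM A q M B k hB hq hA x : F1 A q M) : LaurentSeries (kV A))
      = (x : LaurentSeries (kV A)) :=
  IntermediateField.coe_inclusion _ x

theorem coe_cF1 (y : F1 A q M) :
    ((cF1 A q M B k hB hq hA y : FM A M) : LaurentSeries (kV A))
      = (y : LaurentSeries (kV A)) :=
  IntermediateField.coe_inclusion _ y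

theorem cF1_cFM (x : FM A M) : cF1 A q M B k hB hq hA (cFM A q M B k hB hq hA x) = x := by
  apply Subtype.ext
  rw [coe_cF1, coe_cFM]

theorem cFM_cF1 (y : F1 A q M) : cFM A q M B k hB hq hA (cF1 A q M B k hB hq hA y) = y := by
  apply Subtype.ext
  rw [coe_cFM, coe_cF1]

/-- The norm of residue fields of degree `1`: the identification (D). -/
def resId : ResNorm (kV A) (FM A M) (F1 A q M) where
  N := (cFM A q M B k hB hq hA : FM A M →* F1 A q M)
  j := cF1 A q M B k hB hq hA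
  f := 1
  hj := fun x => by
    rw [pow_one]
    exact cF1_cFM A q M B k hB hq hA x

/-- The norm of residue fields of degree `q`: `N = (D) ∘ φ`, `j = Fr ∘ (D)`. -/
def resFr : ResNorm (kV A) (FM A M) (F1 A q M) where
  N := (cFM A q M B k hB hq hA : FM A M →* F1 A q M).comp
    ((phiM A q M hq hqM hA : FM A M ≃+* FM A M) : FM A M →* FM A M)
  j := (FrM A q M hq hqM hA).comp (cF1 A q M B k hB hq hA)
  f := q
  hj := fun x => by
    show FrM A q M hq hqM hA (cF1 A q M B k hB hq hA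
      (cFM A q M B k hB hq hA (phiM A q M hq hqM hA x))) = x ^ q
    rw [cF1_cFM]
    exact @BAD.H73.FrE_frobE (kV A) _ q ⟨hq⟩ (BAD.H82.charP_kV A hq hA)
      (@BAD.H73.perfectRing_kV _ _ _ A q ⟨hq⟩ (BAD.H82.charP_kV A hq hA)) _
      (frobStable_FM A q M hq hqM hA) x

theorem resId_f : (resId A q M B k hB hq hA).f = 1 := rfl

theorem resFr_f : (resFr A q M B k hB hq hqM hA).f = q := rfl

theorem coe_resId_N (x : FM A M) :
    (((resId A q M B k hB hq hA).N x : F1 A q M) : LaurentSeries (kV A))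
      = (x : LaurentSeries (kV A)) :=
  coe_cFM A q M B k hB hq hA x

theorem coe_resFr_N (x : FM A M) :
    (((resFr A q M B k hB hq hqM hA).N x : F1 A q M) : LaurentSeries (kV A))
      = ((phiM A q M hq hqM hA x : FM A M) : LaurentSeries (kV A)) :=
  coe_cFM A q M B k hB hq hA _

end Res

section Alpha1

variable (A : ValuationSubring Kbar) (q M : ℕ) (B k : ℤ) (hB : B * M + k * q = 1) (hq : q.Prime)
  [NeZero M] [NeZero q] [NeZero (M * q * q)] [NeZero (M * q)] (hqM : ¬ q ∣ M)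
  (hA : A.LiesOverPrime q) (ht : H91.TameAt M q)

/-- The reduction of `h` for the `i`-th valuation of `totM` (`0` if `h` is not integral). -/
abbrev rd3 (i : Fin 3) (h : ↥(L0 A (M * q * q))) : kap3 (FM A M) (FM A M) i :=
  @TotN.rdN Kbar ↥(L0 A (M * q * q)) (FN (M * q * q)) (kV A) (Fin 3)
    (Place (kV A) (FM A M)) (kap3 (FM A M) (FM A M)) _ _ _ _ _ _ _ _ (algkM A M)
    (totM A q M B k hB hq hqM hA ht) i h

/-- The lower datum `T'`. -/
abbrev TL : H79.TotData Kbar (FN (M * q)) (kV A) (F1 A q M) (F1 A q M) :=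
  Fermat.Agent.S35.H89.modTot A q M k B (hab_of_hB q M B k hB) hq hA hqM ht

theorem mem20_of_rd3 {h : ↥(L0 A (M * q * q))} (hu : rd3 A q M B k hB hq hqM hA ht 0 h ≠ 0) :
    h ∈ V20o A q M :=
  @TotN.mem_of_rdN_ne_zero Kbar ↥(L0 A (M * q * q)) (FN (M * q * q)) (kV A) (Fin 3)
    (Place (kV A) (FM A M)) (kap3 (FM A M) (FM A M)) _ _ _ _ _ _ _ _ (algkM A M)
    (totM A q M B k hB hq hqM hA ht) 0 h hu

theorem mem11_of_rd3 {h : ↥(L0 A (M * q * q))} (hu : rd3 A q M B k hB hq hqM hA ht 1 h ≠ 0) :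
    h ∈ V11o A q M B k hB hq :=
  @TotN.mem_of_rdN_ne_zero Kbar ↥(L0 A (M * q * q)) (FN (M * q * q)) (kV A) (Fin 3)
    (Place (kV A) (FM A M)) (kap3 (FM A M) (FM A M)) _ _ _ _ _ _ _ _ (algkM A M)
    (totM A q M B k hB hq hqM hA ht) 1 h hu

theorem mem02_of_rd3 {h : ↥(L0 A (M * q * q))} (hu : rd3 A q M B k hB hq hqM hA ht 2 h ≠ 0) :
    h ∈ V02o A q M B k hB :=
  @TotN.mem_of_rdN_ne_zero Kbar ↥(L0 A (M * q * q)) (FN (M * q * q)) (kV A) (Fin 3)
    (Place (kV A) (FM A M)) (kap3 (FM A M) (FM A M)) _ _ _ _ _ _ _ _ (algkM A M)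
    (totM A q M B k hB hq hqM hA ht) 2 h hu

theorem rd3_zero {h : ↥(L0 A (M * q * q))} (hm : h ∈ V20o A q M) :
    @Eq (FM A M) (rd3 A q M B k hB hq hqM hA ht 0 h) (r20 A q M hq hqM hA ⟨h, hm⟩) :=
  @TotN.rdN_of_mem Kbar ↥(L0 A (M * q * q)) (FN (M * q * q)) (kV A) (Fin 3)
    (Place (kV A) (FM A M)) (kap3 (FM A M) (FM A M)) _ _ _ _ _ _ _ _ (algkM A M)
    (totM A q M B k hB hq hqM hA ht) 0 h hm

theorem rd3_one {h : ↥(L0 A (M * q * q))} (hm : h ∈ V11o A q M B k hB hq) :
    @Eq (FM A M) (rd3 A q M B k hB hq hqM hA ht 1 h) (r11 A q M B k hB hq hqM hA ⟨h, hm⟩) :=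
  @TotN.rdN_of_mem Kbar ↥(L0 A (M * q * q)) (FN (M * q * q)) (kV A) (Fin 3)
    (Place (kV A) (FM A M)) (kap3 (FM A M) (FM A M)) _ _ _ _ _ _ _ _ (algkM A M)
    (totM A q M B k hB hq hqM hA ht) 1 h hm

theorem rd3_two {h : ↥(L0 A (M * q * q))} (hm : h ∈ V02o A q M B k hB) :
    @Eq (FM A M) (rd3 A q M B k hB hq hqM hA ht 2 h) (r02 A q M B k hB hq hqM hA ⟨h, hm⟩) :=
  @TotN.rdN_of_mem Kbar ↥(L0 A (M * q * q)) (FN (M * q * q)) (kV A) (Fin 3)
    (Place (kV A) (FM A M)) (kap3 (FM A M) (FM A M)) _ _ _ _ _ _ _ _ (algkM A M)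
    (totM A q M B k hB hq hqM hA ht) 2 h hm

include hqM hA in
/-- **NORM-RED along `α` above `V₁`, series form**. -/
theorem normAlpha1_series (h : ↥(L0 A (M * q * q))) (h20 : h ∈ V20o A q M)
    (h11 : h ∈ V11o A q M B k hB hq) :
    ∃ hm : NalphaM A q M h ∈ V1 A q M,
      ((red1 A q M ⟨NalphaM A q M h, hm⟩ : F1 A q M) : LaurentSeries (kV A))
        = s20 A q M ⟨h, h20⟩ * s11 A q M B k hB hq ⟨h, h11⟩ ^ (q - 1) := by
  obtain ⟨hm, hs⟩ := Fermat.Agent.S36.NU.H87.normA1_F A q M B k hB hq hqM hA h h20 h11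
  exact ⟨hm, hs⟩

/-- **`normα₁`** of the modular `NUData`. -/
theorem normAlpha1 (h : ↥(L0 A (M * q * q)))
    (hu : ∀ i, rd3 A q M B k hB hq hqM hA ht i h ≠ 0) :
    (TL A q M B k hB hq hqM hA ht).p₁.rd (NalphaM A q M h)
      = (resId A q M B k hB hq hA).N (rd3 A q M B k hB hq hqM hA ht 0 h)
        * (resId A q M B k hB hq hA).N (rd3 A q M B k hB hq hqM hA ht 1 h) ^ (q - 1) := by
  have h20 := mem20_of_rd3 A q M B k hB hq hqM hA ht (hu 0)
  have h11 := mem11_of_rd3 A q M B k hB hq hqM hA ht (hu 1)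
  obtain ⟨hm, hs⟩ := normAlpha1_series A q M B k hB hq hqM hA h h20 h11
  have hm' : NalphaM A q M h ∈ (TL A q M B k hB hq hqM hA ht).p₁.V := hm
  rw [(TL A q M B k hB hq hqM hA ht).p₁.rd_of_mem hm']
  apply Subtype.ext
  refine Eq.trans hs ?_
  have e0 : (resId A q M B k hB hq hA).N (rd3 A q M B k hB hq hqM hA ht 0 h)
      = (resId A q M B k hB hq hA).N (r20 A q M hq hqM hA ⟨h, h20⟩) :=
    congrArg _ (rd3_zero A q M B k hB hq hqM hA ht h20)
  have e1 : (resId A q M B k hB hq hA).N (rd3 A q M B k hB hq hqM hA ht 1 h)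
      = (resId A q M B k hB hq hA).N (r11 A q M B k hB hq hqM hA ⟨h, h11⟩) :=
    congrArg _ (rd3_one A q M B k hB hq hqM hA ht h11)
  rw [e0, e1, MulMemClass.coe_mul, SubmonoidClass.coe_pow, coe_resId_N, coe_resId_N]
  rfl

end Alpha1

end Fermat.Agent.S36.NU.H89
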