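import Fermat.Agent.S36.NU.H15_InstB
import Fermat.Agent.S36.NU.H89_NmN

/-!
# S36 / NU-B, INST-B (helper15), part 2: `hNα`, `hNβ` for helper89's `NalphaM`, `NbetaM`

The hypotheses `hNα`, `hNβ` of `H65.finMod_of` for `D.Nα = H89.NalphaM A q M`,
`D.Nβ = H89.NbetaM A q M` (`K' = ℚ̄`, `L' = F_{Mq}`).
-/

set_option autoImplicit false
set_option synthInstance.maxHeartbeats 400000
set_option maxHeartbeats 1000000
set_option linter.style.haveILetI false
set_option linter.unusedSectionVars false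

noncomputable section

open ModularCurve AlgebraicCurve

namespace Fermat.Agent.S36.NU.H15

open Fermat.Agent.S24 Fermat.Agent.BAD Fermat.Agent.BAD.H88 Fermat.Agent.Lib.HeckeComm
  Fermat.Agent.S36.NU.H23 Fermat.Agent.S36.NU.H10

section NormM

variable (A : ValuationSubring Kbar) (q M : ℕ) [NeZero M] [NeZero q] [NeZero (M * q * q)]
  [NeZero (M * q)]

/-- **INST-B (c)** for `D.Nα = H89.NalphaM`. -/
theorem hNalphaM :
    ∀ (n : ℕ) (h : ↥(L0 A (M * q * q))),
      IsNormPow0 A q M (heckeAlphaBar Kbar (M * q) q) n (h : FN (M * q * q)) →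
      ∃ (c : Kbar) (g : FN (M * q)),
        Fermat.Agent.S36.NU.H89.NalphaM A q M h = algebraMap Kbar (FN (M * q)) c * g ^ n :=
  hN_of_isNormPow0 A q M (heckeAlphaBar Kbar (M * q) q)
    (Fermat.Agent.S36.NU.H89.NalphaM A q M) (fun _ => rfl)

/-- **INST-B (c)** for `D.Nβ = H89.NbetaM`. -/
theorem hNbetaM :
    ∀ (n : ℕ) (h : ↥(L0 A (M * q * q))),
      IsNormPow0 A q M (heckeBetaBar Kbar (M * q) q) n (h : FN (M * q * q)) →
      ∃ (c : Kbar) (g : FN (M * q)),
        Fermat.Agent.S36.NU.H89.NbetaM A q M h = algebraMap Kbar (FN (M * q)) c * g ^ n :=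
  hN_of_isNormPow0 A q M (heckeBetaBar Kbar (M * q) q)
    (Fermat.Agent.S36.NU.H89.NbetaM A q M) (fun _ => rfl)

end NormM

end Fermat.Agent.S36.NU.H15
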