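import Fermat.Agent.S36.NU.H73_Deriv
import Fermat.Agent.BAD.H73_NormFrF1

/-!
# `[κ : κ^q] = q` for the reduction of `X₀(M')` (S36 / NU-B / GPOLE, concrete input; helper73)

`κ = modularFunctionFieldFullC (kV A) M'`, `q ∤ M'`: `hasPBasis_fullC : HasPBasis q κ`.
-/

set_option autoImplicit false
set_option synthInstance.maxHeartbeats 400000
set_option maxHeartbeats 1000000

noncomputable section

open ModularCurve AlgebraicCurve Fermat.Agent.S28.H73 Fermat.Agent.RED.H73 Fermat.Agent.BAD.H88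
  Fermat.Agent.BAD.H82 Fermat.Agent.S24

namespace Fermat.Agent.S36.NU.H73

open Fermat.Agent.BAD.H73

section Abstract

variable {k : Type*} [Field k] {q : ℕ} [Fact q.Prime] [CharP k q] [PerfectRing k q]
variable {E : IntermediateField k (LaurentSeries k)}

/-- `HasPBasis` for a Frobenius-stable subfield `E ⊆ k((t))`, separable over `k(x)` for one
`x ∈ E` which is not a series in `t ^ q`. -/
theorem hasPBasis_of_frobStable (h : FrobStable q E) (x : ↥E) {n : ℤ} (hn : ¬ (q : ℤ) ∣ n)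
    (hx : (x : LaurentSeries k).coeff n ≠ 0)
    (hsep : ∀ y ∈ E, IsSeparable ↥(IntermediateField.adjoin k {(x : LaurentSeries k)}) y) :
    HasPBasis q ↥E := by
  have hq : q.Prime := Fact.out
  let inst : Algebra ↥E ↥E := (FrE h).toRingHom.toAlgebra
  have he : ∀ a : ↥E, @algebraMap ↥E ↥E _ _ inst a = FrE h ((RingEquiv.refl ↥E) a) :=
    fun a => rfl
  have hfin : @Module.finrank ↥E ↥E _ _ (@Algebra.toModule _ _ _ _ inst) = q :=
    @finrank_of_Fr k _ q _ _ _ E h ↥E _ inst (RingEquiv.refl ↥E) he x n hn hx hsep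
  refine @hasPBasis_of_finrank ↥E ↥E _ _ inst q hq hfin ?_
  intro a
  refine ⟨(frobE h).symm a, ?_⟩
  rw [he, RingEquiv.refl_apply, ← FrE_frobE, RingEquiv.apply_symm_apply]

end Abstract

section Concrete

variable (A : ValuationSubring Kbar) (q : ℕ) (hq : q.Prime) (hA : A.LiesOverPrime q)
variable (M' : ℕ) [NeZero M']

include hq hA in
/-- **`[κ : κ^q] = q`** for `κ = F_{M', k}`, `q ∤ M'`. -/
theorem hasPBasis_fullC (hM' : ¬ q ∣ M') :
    HasPBasis q ↥(modularFunctionFieldFullC (kV A) M') := by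
  have : IsAlgClosed (kV A) := isAlgClosed_kV A
  have : Infinite (kV A) := IsAlgClosed.instInfinite
  have hq1 : ¬ (q : ℤ) ∣ (-1 : ℤ) := by
    intro hd
    have h1 : ((q : ℕ) : ℤ) ∣ 1 := (dvd_neg (a := (q : ℤ)) (b := 1)).mp hd
    have h2 : q ∣ 1 := by exact_mod_cast h1
    exact hq.one_lt.ne' (Nat.dvd_one.mp h2)
  have hc : ((⟨jqModC (kV A), jqModC_mem_full (kV A) M'⟩ :
      ↥(modularFunctionFieldFullC (kV A) M')) : LaurentSeries (kV A)).coeff (-1) ≠ 0 := by
    show (jqModC (kV A)).coeff (-1) ≠ 0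
    rw [coeff_jqModC_neg_one]
    exact one_ne_zero
  exact @hasPBasis_of_frobStable (kV A) _ q ⟨hq⟩ (charP_kV A hq hA)
    (@perfectRing_kV _ _ _ A q ⟨hq⟩ (charP_kV A hq hA)) _
    (@frobStable_fullC (kV A) _ q ⟨hq⟩ (charP_kV A hq hA)
      (@perfectRing_kV _ _ _ A q ⟨hq⟩ (charP_kV A hq hA)) M')
    ⟨jqModC (kV A), jqModC_mem_full (kV A) M'⟩ (-1) hq1 hc
    (fun y hy => isSeparable_fullC_red A (inv_natCast_mem_of_liesOver A M' hq hM' hA)
      (caDataBar M') hy)

end Concrete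

end Fermat.Agent.S36.NU.H73
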