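import Fermat.Agent.S36.NU.H73_Coord
import Fermat.Agent.S36.NU.H73_PBasisC
import Fermat.Agent.BAD.H30_UnitGaussSS
import Fermat.Agent.BAD.H17_GenusF1
import Fermat.Agent.RED.H73_GAFinal

/-!
# COORD at `κ = modularFunctionFieldFullC (kV A) M'`, `4 ∣ M'`, `q ≥ 5` (S36 / NU-B; helper73)

* `uZ4 ∈ ℤ((t))` (`H73_UnitTheta.lean`) is the `q`-expansion of the modular unit
  `unitF M' 4 = Δ(t)/Δ(t⁴) ∈ F_{M'} ℚ̄` of helper30 (`coeffMap_uZ4_Kbar`), which is regular and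
  non-vanishing off the cusps (`H30.ord_unitF`), and its reduction `ū = ubar4 (kV A)` lies in `κ`
  (`ubar4_mem`).
* `coord_u4_full` : **COORD**.  At every place `z` of `κ` at which `j̄` has ramification index
  `e = 1, 3, 2` over `j₀ ≠ 0, 1728`, `j₀ = 0`, `j₀ = 1728` (RAM), `ū` is a unit and `ū - c` is a
  uniformizer for some `c ∈ k`.
-/

set_option autoImplicit false
set_option synthInstance.maxHeartbeats 400000
set_option maxHeartbeats 1000000

noncomputable section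

open ModularCurve AlgebraicCurve Fermat.Agent.S28.H73 Fermat.Agent.RED.H73 Fermat.Agent.BAD.H88
  Fermat.Agent.BAD.H82 Fermat.Agent.S24 Fermat.Agent.S28

namespace Fermat.Agent.S36.NU.H73

open Fermat.Agent.BAD.H73 Fermat.Agent.RED.H51 Fermat.Agent.BAD.H30 Fermat.Agent.BAD.H21

section Series

variable (k : Type*) [Field k]

theorem coeffMap_DZ : coeffMap (Int.castRingHom k) DZ = deltaR k := by
  rw [deltaR_eq_DL, DZ, ModularCurve.coeffMap_ofPowerSeries]
  rfl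

theorem vbar_mul : vbar k * qExpand k 2 (deltaR k) = deltaR k := by
  have h := congrArg (coeffMap (Int.castRingHom k)) hZ2_mul_D2Z
  rw [map_mul, D2Z, coeffMap_qExpand, coeffMap_DZ] at h
  exact h

theorem vbar_eq : vbar k = deltaR k * (qExpand k 2 (deltaR k))⁻¹ :=
  (eq_mul_inv_iff_mul_eq₀ (qExpand_deltaR_ne_zero k 2)).mpr (vbar_mul k)

theorem ubar4_eq : ubar4 k = deltaR k * (qExpand k 4 (deltaR k))⁻¹ := by
  have h := ubar4_mul k
  rw [coeffMap_DZ] at h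
  exact (eq_mul_inv_iff_mul_eq₀ (qExpand_deltaR_ne_zero k 4)).mpr h

theorem vbar_ne_zero : vbar k ≠ 0 := by
  rw [vbar_eq]
  exact mul_ne_zero (deltaR_ne_zero k) (inv_ne_zero (qExpand_deltaR_ne_zero k 2))

theorem vbar2_eq : vbar2 k = ubar4 k * (vbar k)⁻¹ := by
  rw [ubar4, mul_comm (vbar k), mul_assoc, mul_inv_cancel₀ (vbar_ne_zero k), mul_one]

end Series

section CharZero

/-- The `q`-expansion of helper30's modular unit `Δ(t)/Δ(t⁴) ∈ F_N ℚ̄` is `uZ4 ∈ ℤ((t))`. -/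
theorem coeffMap_uZ4_Kbar (N : ℕ) [NeZero N] (h4 : 4 ∣ N) :
    ((unitF N 4 h4 : FN N) : LaurentSeries Kbar) = coeffMap (Int.castRingHom Kbar) uZ4 := by
  rw [unitF_coe, coeffEmb_modularUnitSeries, coeffMap_uZ4, ubar4_eq]

end CharZero

section Concrete

variable (A : ValuationSubring Kbar) (q : ℕ) (hq : q.Prime) (hA : A.LiesOverPrime q)
variable (M' : ℕ) [NeZero M']

include hq hA in
/-- The reductions of the modular units `Δ(t)/Δ(t^d)`, `d ∣ M'`, lie in `κ`. -/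
theorem unit_series_mem (hqM : ¬ q ∣ M') (d : ℕ) [NeZero d] (hd : d ∣ M') :
    deltaR (kV A) * (qExpand (kV A) d (deltaR (kV A)))⁻¹
      ∈ modularFunctionFieldFullC (kV A) M' := by
  have h := Fermat.Agent.RED.H73.stmt_GA M' q hq hqM A hA
  have hm : deltaR (kV A) * (qExpand (kV A) d (deltaR (kV A)))⁻¹
      ∈ redField A (Fermat.Agent.BAD.FNbar M') (hasScale_laurentBaseChange A M') := by
    rw [← gaussRes_unitF A M' d hd]
    exact SetLike.coe_mem _
  rw [← h]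
  exact hm

include hq hA in
theorem vbar_mem (hqM : ¬ q ∣ M') (h2 : 2 ∣ M') :
    vbar (kV A) ∈ modularFunctionFieldFullC (kV A) M' := by
  rw [vbar_eq]
  exact unit_series_mem A q hq hA M' hqM 2 h2

include hq hA in
theorem ubar4_mem (hqM : ¬ q ∣ M') (h4 : 4 ∣ M') :
    ubar4 (kV A) ∈ modularFunctionFieldFullC (kV A) M' := by
  rw [ubar4_eq]
  exact unit_series_mem A q hq hA M' hqM 4 h4

include hq hA in
theorem vbar2_mem (hqM : ¬ q ∣ M') (h4 : 4 ∣ M') :
    vbar2 (kV A) ∈ modularFunctionFieldFullC (kV A) M' := by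
  rw [vbar2_eq]
  exact mul_mem (ubar4_mem A q hq hA M' hqM h4)
    (inv_mem (vbar_mem A q hq hA M' hqM (Dvd.dvd.trans (by norm_num) h4)))

include hq hA in
/-- Every place of `κ` has degree one (`q ≥ 5`). -/
theorem deg_fullC (hqM : ¬ q ∣ M') (h5 : 5 ≤ q)
    (z : Place (kV A) ↥(modularFunctionFieldFullC (kV A) M')) : z.deg = 1 :=
  (Fermat.Agent.BAD.H17.ffHyp_congr (Fermat.Agent.RED.H73.stmt_GA M' q hq hqM A hA)
    (Fermat.Agent.BAD.H17.ffHyp_redM hq hqM (Or.inl h5) hA)).deg_one z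

include hq hA in
/-- **COORD** at level `M'`, `4 ∣ M'`, `q ∤ M'`, `q ≥ 5`: `ū = Δ̄(t)/Δ̄(t⁴)` is a unit and a local
coordinate at every place `z` of `κ` with RAM. -/
theorem coord_u4_full (hqM : ¬ q ∣ M') (h5 : 5 ≤ q) (h4 : 4 ∣ M')
    (z : Place (kV A) ↥(modularFunctionFieldFullC (kV A) M'))
    (j0 : kV A) (e : ℕ)
    (hram : z.ord ((⟨jqModC (kV A), jqModC_mem_full (kV A) M'⟩ :
        ↥(modularFunctionFieldFullC (kV A) M'))
      - algebraMap (kV A) ↥(modularFunctionFieldFullC (kV A) M') j0) = e)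
    (hcase : (j0 ≠ 0 ∧ j0 ≠ 1728 ∧ e = 1) ∨ (j0 = 0 ∧ e = 3) ∨ (j0 = 1728 ∧ e = 2)) :
    z.ord (⟨ubar4 (kV A), ubar4_mem A q hq hA M' hqM h4⟩ :
        ↥(modularFunctionFieldFullC (kV A) M')) = 0 ∧
      ∃ c : kV A, z.ord ((⟨ubar4 (kV A), ubar4_mem A q hq hA M' hqM h4⟩ :
          ↥(modularFunctionFieldFullC (kV A) M'))
        - algebraMap (kV A) ↥(modularFunctionFieldFullC (kV A) M') c) = 1 := by
  have : Fact q.Prime := ⟨hq⟩
  have : CharP (kV A) q := charP_kV A hq hA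
  have h2 : 2 ∣ M' := Dvd.dvd.trans (by norm_num) h4
  have key := coord_u4 (hasPBasis_fullC A q hq hA M' hqM) z (deg_fullC A q hq hA M' hqM h5 z) h5
    (jE := ⟨jqModC (kV A), jqModC_mem_full (kV A) M'⟩)
    (vE := ⟨vbar (kV A), vbar_mem A q hq hA M' hqM h2⟩)
    (v2E := ⟨vbar2 (kV A), vbar2_mem A q hq hA M' hqM h4⟩) rfl rfl rfl j0 e hram hcase
  have he : (⟨vbar (kV A), vbar_mem A q hq hA M' hqM h2⟩ :
        ↥(modularFunctionFieldFullC (kV A) M'))
      * ⟨vbar2 (kV A), vbar2_mem A q hq hA M' hqM h4⟩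
      = ⟨ubar4 (kV A), ubar4_mem A q hq hA M' hqM h4⟩ := Subtype.ext rfl
  rw [he] at key
  exact key

end Concrete

end Fermat.Agent.S36.NU.H73
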