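import Fermat.Agent.S36.NU.H73_CoordC

/-!
# GU-UNIT: `G_u = (θ ū)^{q-1}` for `u = Δ(t)/Δ(t⁴)` (S36 / NU-B, input of LOCEQ-(11); helper73)

* `thetaL_uZ4_pow_D : (θ u)¹² = 3¹² v⁶ v₂¹⁶ Δ²` in `ℤ((t))`, `thetaL_ubar_pow_D` over any field.
* `Gu_ident : G¹² s² = 3^{12 n} (v̄⁶ v̄₂¹⁶)^n` for `G = (θ ū)^n`, `s = Δ̄^{-n}`, in any `E ⊆ k((t))`.
* `ord_Gu : 12 ord_z G + 2 ord_z s = 0` at every place `z` at which `j̄` is regular
  (characteristic `≠ 2, 3`); `ord_Gu_ordinary : ord_z G = 0` if `ord_z s = 0`.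
* `ord_Gu_full`, `ord_Gu_ordinary_full` : the same at `κ = modularFunctionFieldFullC (kV A) M'`,
  `n = q - 1`, `s = H(j̄) = Δ̄^{1-q}` the reduction of `Δ(t)/Δ(t^q)`: `G_u` is a unit at the
  ordinary points and has a double pole where `H(j̄)` vanishes to order `12`.
-/

set_option autoImplicit false
set_option synthInstance.maxHeartbeats 400000
set_option maxHeartbeats 1000000

noncomputable section

open ModularCurve AlgebraicCurve Fermat.Agent.S28.H73 Fermat.Agent.RED.H73 Fermat.Agent.BAD.H88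
  Fermat.Agent.BAD.H82 Fermat.Agent.S24 Fermat.Agent.S28

namespace Fermat.Agent.S36.NU.H73

open Fermat.Agent.BAD.H73 Fermat.Agent.RED.H51 Fermat.Agent.BAD.H30 Fermat.Agent.BAD.H21

section Series

/-- **`(θ u)¹² = 3¹² v⁶ v₂¹⁶ Δ²`** in `ℤ((t))`. -/
theorem thetaL_uZ4_pow_D :
    thetaL uZ4 ^ 12 = 3 ^ 12 * (Fermat.Agent.RED.H70.hZ2 ^ 6 * vZ2 ^ 16) * DZ ^ 2 := by
  rw [thetaL_uZ4]
  have hne : DZ ^ 4 * D4Z ^ 4 ≠ 0 :=
    mul_ne_zero (pow_ne_zero _ DZ_ne_zero) (pow_ne_zero _ D4Z_ne_zero)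
  refine mul_right_cancel₀ hne ?_
  have e1 := FZ_pow_twelve
  have hD2 : D2Z = vZ2 * D4Z := vZ2_mul_D4Z.symm
  have hD : DZ = Fermat.Agent.RED.H70.hZ2 * (vZ2 * D4Z) := by
    rw [← hD2, hZ2_mul_D2Z]
  rw [hD2] at e1
  generalize DZ = d at hD e1 ⊢
  subst hD
  rw [uZ4]
  linear_combination (Fermat.Agent.RED.H70.hZ2 * vZ2) ^ 12 * e1

variable (k : Type*) [Field k]

/-- **`(θ ū)¹² = 3¹² v̄⁶ v̄₂¹⁶ Δ̄²`** over any field. -/
theorem thetaL_ubar_pow_D :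
    thetaL (ubar4 k) ^ 12 = 3 ^ 12 * (vbar k ^ 6 * vbar2 k ^ 16) * deltaR k ^ 2 := by
  have h := congrArg (coeffMap (Int.castRingHom k)) thetaL_uZ4_pow_D
  simp only [map_mul, map_pow, map_ofNat] at h
  rw [← thetaL_coeffMap, coeffMap_uZ4, vZ2, coeffMap_qExpand, coeffMap_DZ] at h
  exact h

end Series

section Abs

variable {k : Type*} [Field k] {E : IntermediateField k (LaurentSeries k)}

/-- **`G¹² s² = 3^{12 n} (v̄⁶ v̄₂¹⁶)^n`** for `G = (θ ū)^n`, `s = Δ̄^{-n}`. -/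
theorem Gu_ident {n : ℕ} {vE v2E GuE sE : ↥E}
    (hv : (vE : LaurentSeries k) = vbar k) (hv2 : (v2E : LaurentSeries k) = vbar2 k)
    (hG : (GuE : LaurentSeries k) = thetaL (ubar4 k) ^ n)
    (hs : (sE : LaurentSeries k) = (deltaR k ^ n)⁻¹) :
    GuE ^ 12 * sE ^ 2 = (algebraMap k ↥E 3) ^ (12 * n) * (vE ^ 6 * v2E ^ 16) ^ n := by
  apply Subtype.ext
  have e1 : ((GuE ^ 12 * sE ^ 2 : ↥E) : LaurentSeries k)
      = (thetaL (ubar4 k) ^ n) ^ 12 * ((deltaR k ^ n)⁻¹) ^ 2 := by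
    rw [IntermediateField.coe_mul, IntermediateField.coe_pow, IntermediateField.coe_pow, hG, hs]
  have e2 : (((algebraMap k ↥E 3) ^ (12 * n) * (vE ^ 6 * v2E ^ 16) ^ n : ↥E) : LaurentSeries k)
      = 3 ^ (12 * n) * (vbar k ^ 6 * vbar2 k ^ 16) ^ n := by
    rw [IntermediateField.coe_mul, IntermediateField.coe_pow, IntermediateField.coe_pow,
      IntermediateField.coe_mul, IntermediateField.coe_pow, IntermediateField.coe_pow,
      coe_algebraMap_ofNat, hv, hv2]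
  rw [e1, e2]
  have hD : deltaR k ^ n ≠ 0 := pow_ne_zero _ (deltaR_ne_zero k)
  have h := thetaL_ubar_pow_D k
  calc (thetaL (ubar4 k) ^ n) ^ 12 * ((deltaR k ^ n)⁻¹) ^ 2
      = (thetaL (ubar4 k) ^ 12) ^ n * ((deltaR k ^ n)⁻¹) ^ 2 := by
        rw [← pow_mul, ← pow_mul, mul_comm n 12]
    _ = 3 ^ (12 * n) * (vbar k ^ 6 * vbar2 k ^ 16) ^ n
          * ((deltaR k ^ n) ^ 2 * ((deltaR k ^ n)⁻¹) ^ 2) := by
        rw [h, mul_pow, mul_pow, ← pow_mul, ← pow_mul, ← pow_mul, mul_comm 2 n]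
        ring
    _ = 3 ^ (12 * n) * (vbar k ^ 6 * vbar2 k ^ 16) ^ n := by
        rw [← mul_pow, mul_inv_cancel₀ hD, one_pow, mul_one]

/-- **`12 ord_z G_u + 2 ord_z s = 0`** at every place at which `j̄` is regular. -/
theorem ord_Gu (z : Place k ↥E) (h2 : (2 : k) ≠ 0) (h3 : (3 : k) ≠ 0) {n : ℕ}
    {jE vE v2E GuE sE : ↥E} (hj : (jE : LaurentSeries k) = jqModC k)
    (hv : (vE : LaurentSeries k) = vbar k) (hv2 : (v2E : LaurentSeries k) = vbar2 k)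
    (hG : (GuE : LaurentSeries k) = thetaL (ubar4 k) ^ n)
    (hs : (sE : LaurentSeries k) = (deltaR k ^ n)⁻¹)
    (hjO : jE ∈ z.toValuationSubring) :
    GuE ≠ 0 ∧ sE ≠ 0 ∧ 12 * z.ord GuE + 2 * z.ord sE = 0 := by
  obtain ⟨hvU, hv2U⟩ := unit_v z h2 hj hv hv2 hjO
  have hid := Gu_ident (n := n) hv hv2 hG hs
  have hs0 : sE ≠ 0 := by
    intro h0
    have h1 : (sE : LaurentSeries k) = 0 := by rw [h0]; rfl
    rw [hs] at h1
    exact inv_ne_zero (pow_ne_zero _ (deltaR_ne_zero k)) h1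
  have h3E : algebraMap k ↥E 3 ≠ 0 := by
    rw [Ne, map_eq_zero]; exact h3
  have hR0 : (algebraMap k ↥E 3) ^ (12 * n) * (vE ^ 6 * v2E ^ 16) ^ n ≠ 0 :=
    mul_ne_zero (pow_ne_zero _ h3E)
      (pow_ne_zero _ (mul_ne_zero (pow_ne_zero _ hvU.1) (pow_ne_zero _ hv2U.1)))
  have hG0 : GuE ≠ 0 := by
    rintro rfl
    rw [zero_pow (by norm_num), zero_mul] at hid
    exact hR0 hid.symm
  refine ⟨hG0, hs0, ?_⟩
  have h := congrArg z.ord hid
  rw [z.ord_mul (pow_ne_zero _ hG0) (pow_ne_zero _ hs0), ord_pow, ord_pow,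
    z.ord_mul (pow_ne_zero _ h3E)
      (pow_ne_zero _ (mul_ne_zero (pow_ne_zero _ hvU.1) (pow_ne_zero _ hv2U.1))),
    ord_pow, ord_pow, z.ord_mul (pow_ne_zero _ hvU.1) (pow_ne_zero _ hv2U.1), ord_pow, ord_pow,
    ord_algebraMap, hvU.2, hv2U.2] at h
  push_cast at h
  simp only [mul_zero, add_zero] at h
  linarith

/-- **GU-UNIT**: `G_u` is a unit at every place at which `j̄` is regular and `s = Δ̄^{-n}` is a
unit. -/
theorem ord_Gu_ordinary (z : Place k ↥E) (h2 : (2 : k) ≠ 0) (h3 : (3 : k) ≠ 0) {n : ℕ}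
    {jE vE v2E GuE sE : ↥E} (hj : (jE : LaurentSeries k) = jqModC k)
    (hv : (vE : LaurentSeries k) = vbar k) (hv2 : (v2E : LaurentSeries k) = vbar2 k)
    (hG : (GuE : LaurentSeries k) = thetaL (ubar4 k) ^ n)
    (hs : (sE : LaurentSeries k) = (deltaR k ^ n)⁻¹)
    (hjO : jE ∈ z.toValuationSubring) (hs0 : z.ord sE = 0) :
    GuE ≠ 0 ∧ z.ord GuE = 0 := by
  obtain ⟨hG0, -, h⟩ := ord_Gu z h2 h3 hj hv hv2 hG hs hjO
  refine ⟨hG0, ?_⟩
  rw [hs0] at h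
  omega

end Abs

section Concrete

variable (A : ValuationSubring Kbar) (q : ℕ) (hq : q.Prime) (hA : A.LiesOverPrime q)
variable (M' : ℕ) [NeZero M']

include hq hA in
/-- `12 ord_z G_u + 2 ord_z H(j̄) = 0` at every place `z` of `κ` at which `j̄` is regular
(`q ≥ 5`, `q ∤ M'`, `4 ∣ M'`; `G_u = (θ ū)^{q-1}`, `H(j̄) = Δ̄^{1-q}`). -/
theorem ord_Gu_full (hqM : ¬ q ∣ M') (h5 : 5 ≤ q) (h4 : 4 ∣ M')
    (z : Place (kV A) ↥(modularFunctionFieldFullC (kV A) M'))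
    (hz : 0 ≤ z.ord (⟨jqModC (kV A), jqModC_mem_full (kV A) M'⟩ :
      ↥(modularFunctionFieldFullC (kV A) M')))
    {GuE sE : ↥(modularFunctionFieldFullC (kV A) M')}
    (hG : (GuE : LaurentSeries (kV A)) = thetaL (ubar4 (kV A)) ^ (q - 1))
    (hs : (sE : LaurentSeries (kV A)) = (deltaR (kV A) ^ (q - 1))⁻¹) :
    GuE ≠ 0 ∧ sE ≠ 0 ∧ 12 * z.ord GuE + 2 * z.ord sE = 0 := by
  have : Fact q.Prime := ⟨hq⟩
  have : CharP (kV A) q := charP_kV A hq hA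
  have h2 : 2 ∣ M' := Dvd.dvd.trans (by norm_num) h4
  have hjne : (⟨jqModC (kV A), jqModC_mem_full (kV A) M'⟩ :
      ↥(modularFunctionFieldFullC (kV A) M')) ≠ 0 := by
    intro h0
    have h1 := congrArg (fun x : ↥(modularFunctionFieldFullC (kV A) M') =>
      (x : LaurentSeries (kV A)).coeff (-1)) h0
    simp only [ZeroMemClass.coe_zero, HahnSeries.coeff_zero] at h1
    rw [coeff_jqModC_neg_one] at h1
    exact one_ne_zero h1
  exact ord_Gu z (two_ne_zero_of_five_le h5) (three_ne_zero_of_five_le h5)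
    (jE := ⟨jqModC (kV A), jqModC_mem_full (kV A) M'⟩)
    (vE := ⟨vbar (kV A), vbar_mem A q hq hA M' hqM h2⟩)
    (v2E := ⟨vbar2 (kV A), vbar2_mem A q hq hA M' hqM h4⟩) rfl rfl rfl hG hs
    ((mem_iff_ord_nonneg z hjne).mpr hz)

include hq hA in
/-- **GU-UNIT** at `κ`: `G_u = (θ ū)^{q-1}` is a unit at every ordinary place (`j̄` regular,
`H(j̄) = Δ̄^{1-q}` a unit). -/
theorem ord_Gu_ordinary_full (hqM : ¬ q ∣ M') (h5 : 5 ≤ q) (h4 : 4 ∣ M')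
    (z : Place (kV A) ↥(modularFunctionFieldFullC (kV A) M'))
    (hz : 0 ≤ z.ord (⟨jqModC (kV A), jqModC_mem_full (kV A) M'⟩ :
      ↥(modularFunctionFieldFullC (kV A) M')))
    {GuE sE : ↥(modularFunctionFieldFullC (kV A) M')}
    (hG : (GuE : LaurentSeries (kV A)) = thetaL (ubar4 (kV A)) ^ (q - 1))
    (hs : (sE : LaurentSeries (kV A)) = (deltaR (kV A) ^ (q - 1))⁻¹) (hs0 : z.ord sE = 0) :
    GuE ≠ 0 ∧ z.ord GuE = 0 := by
  obtain ⟨hG0, -, h⟩ := ord_Gu_full A q hq hA M' hqM h5 h4 z hz hG hs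
  refine ⟨hG0, ?_⟩
  rw [hs0] at h
  omega

end Concrete

end Fermat.Agent.S36.NU.H73
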