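import Fermat.Agent.S36.NU.H16_LocEqSSMod
import Fermat.Agent.S36.NU.H88_ChartMod
import Fermat.Agent.S36.NU.H73_GuUnit
import Fermat.Agent.S36.NU.H73_CoordC

/-!
# S36 / NU-B, auxiliary lemmas for HSS-ASM (helper16)

* `thetaNZ_of_thetaL_ne_zero` : `θ x ≠ 0` in characteristic `q` ⟹ `ThetaNZ q x`;
  `thetaNZ_uZ4` : the hypothesis `hθ` of `locEq_ss_modV` for `u = Δ(t)/Δ(t⁴)`, `q ≥ 5`;
* `uo_mem20/11/02`, `u2o_mem20/11/02`, `s20_uo`, ... : the coordinate `u = f(τ)` and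
  `u'' = f(q²τ)` at the three valuations;
* `rdN_uo`, `rdN_d20o` : their reductions on the component `C₂₀` of `totM`.
-/

set_option autoImplicit false
set_option synthInstance.maxHeartbeats 400000
set_option maxHeartbeats 1000000
set_option linter.unusedSectionVars false
set_option linter.style.haveILetI false

noncomputable section

namespace Fermat.Agent.S36.NU.H16

open Fermat.Agent.S24 Fermat.Agent.BAD.H88 ModularCurve AlgebraicCurve
open Fermat.Agent.S28 Fermat.Agent.S28.H73 Fermat.Agent.RED.H73 Fermat.Agent.RED.H17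
open Fermat.Agent.S36.NU.H88 Fermat.Agent.S36.NU.H23 Fermat.Agent.S36.NU.H73
open Fermat.Agent.BAD.H30

section Theta

variable (k : Type*) [Field k]

/-- `θ x ≠ 0` in characteristic `q` ⟹ some coefficient of `x` of index prime to `q` is
non-zero. -/
theorem thetaNZ_of_thetaL_ne_zero (q : ℕ) [CharP k q] (x : LaurentSeries k)
    (h : thetaL x ≠ 0) : H65.ThetaNZ q x := by
  obtain ⟨n, hn⟩ : ∃ n : ℤ, (thetaL x).coeff n ≠ 0 := by
    by_contra hcon
    push Not at hcon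
    exact h (HahnSeries.ext (funext hcon))
  rw [thetaL_coeff] at hn
  refine ⟨n, ?_, right_ne_zero_of_mul hn⟩
  intro hdvd
  exact left_ne_zero_of_mul hn ((CharP.intCast_eq_zero_iff k q n).2 hdvd)

theorem ubar4_ne_zero : ubar4 k ≠ 0 := by
  rw [ubar4_eq]
  exact mul_ne_zero (deltaR_ne_zero k) (inv_ne_zero (qExpand_deltaR_ne_zero k 4))

theorem vbar2_ne_zero : vbar2 k ≠ 0 := by
  rw [vbar2_eq]
  exact mul_ne_zero (ubar4_ne_zero k) (inv_ne_zero (vbar_ne_zero k))

/-- `θ ū ≠ 0` if `3 ≠ 0`. -/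
theorem thetaL_ubar4_ne_zero (h3 : (3 : k) ≠ 0) : thetaL (ubar4 k) ≠ 0 := by
  intro h0
  have h := thetaL_ubar_pow_D k
  rw [h0, zero_pow (by norm_num)] at h
  have h3' : (3 : LaurentSeries k) ≠ 0 := by
    rw [← map_ofNat (algebraMap k (LaurentSeries k)) 3]
    exact (map_ne_zero _).2 h3
  exact absurd h.symm (mul_ne_zero (mul_ne_zero (pow_ne_zero _ h3')
    (mul_ne_zero (pow_ne_zero _ (vbar_ne_zero k)) (pow_ne_zero _ (vbar2_ne_zero k))))
    (pow_ne_zero _ (deltaR_ne_zero k)))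

/-- **`hθ` for `u = Δ(t)/Δ(t⁴)`**, `q ≥ 5`. -/
theorem thetaNZ_uZ4 (q : ℕ) (h5 : 5 ≤ q) [CharP k q] :
    H65.ThetaNZ q (coeffMap (Int.castRingHom k) uZ4) := by
  rw [coeffMap_uZ4]
  refine thetaNZ_of_thetaL_ne_zero k q _ (thetaL_ubar4_ne_zero k ?_)
  intro h3
  have h3' : ((3 : ℕ) : k) = 0 := by exact_mod_cast h3
  have := (CharP.cast_eq_zero_iff k q 3).1 h3'
  have := Nat.le_of_dvd (by norm_num) this
  omega

end Theta

section Coord

variable (A : ValuationSubring Kbar)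
variable (q M : ℕ) (B k : ℤ) (hB : B * M + k * q = 1) (hq : q.Prime) [NeZero M] [NeZero q]
  [NeZero (M * q * q)]

variable (f : FN M) (u₀ : LaurentSeries ℤ) (hf : (f : LaurentSeries Kbar) = H65.intSer Kbar u₀)

theorem coe_uo :
    (((uo A q M f u₀ hf : ↥(L0 A (M * q * q))) : FN (M * q * q)) : LaurentSeries Kbar)
      = H65.intSer Kbar u₀ := by
  show ((incAA q M f : FN (M * q * q)) : LaurentSeries Kbar) = _
  rw [coe_incAA, hf]

theorem coe_u2o :
    (((u2o A q M f u₀ hf : ↥(L0 A (M * q * q))) : FN (M * q * q)) : LaurentSeries Kbar)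
      = H65.intSer Kbar (qExpand ℤ q (qExpand ℤ q u₀)) := by
  show ((incBB q M f : FN (M * q * q)) : LaurentSeries Kbar) = _
  rw [coe_incBB, hf, H65.intSer, H65.intSer, coeffMap_qExpand, coeffMap_qExpand]

/-! ### At `V₂₀` -/

theorem uo_mem20 : uo A q M f u₀ hf ∈ V20o A q M :=
  (s20_of_intSer A q M _ u₀ (coe_uo A q M f u₀ hf)).1

theorem s20_uo (h : uo A q M f u₀ hf ∈ V20o A q M) :
    s20 A q M ⟨_, h⟩ = coeffMap (Int.castRingHom (kV A)) u₀ :=
  (s20_of_intSer A q M _ u₀ (coe_uo A q M f u₀ hf)).2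

theorem u2o_mem20 : u2o A q M f u₀ hf ∈ V20o A q M :=
  (s20_of_intSer A q M _ _ (coe_u2o A q M f u₀ hf)).1

theorem s20_u2o (h : u2o A q M f u₀ hf ∈ V20o A q M) :
    s20 A q M ⟨_, h⟩
      = qExpand (kV A) q (qExpand (kV A) q (coeffMap (Int.castRingHom (kV A)) u₀)) := by
  rw [(s20_of_intSer A q M _ _ (coe_u2o A q M f u₀ hf)).2, coeffMap_qExpand, coeffMap_qExpand]

/-! ### At `V₁₁` -/

include hq in
theorem uo_mem11 : uo A q M f u₀ hf ∈ V11o A q M B k hB hq :=
  (s11_of_intSer A q M B k hB hq _ u₀ (by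
    show cM q M B k hB hq (incAA q M f) = _
    rw [cM_incAA, hf])).1

include hq in
theorem s11_uo (h : uo A q M f u₀ hf ∈ V11o A q M B k hB hq) :
    s11 A q M B k hB hq ⟨_, h⟩ = coeffMap (Int.castRingHom (kV A)) u₀ :=
  (s11_of_intSer A q M B k hB hq _ u₀ (by
    show cM q M B k hB hq (incAA q M f) = _
    rw [cM_incAA, hf])).2

include hq in
theorem u2o_mem11 : u2o A q M f u₀ hf ∈ V11o A q M B k hB hq := by
  rw [mem_V11o_iff]
  show cM q M B k hB hq (incBB q M f) ∈ gaussRingV A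
  rw [cM_incBB, hf]
  exact twist_intSer_mem A q B hq u₀

include hq in
theorem s11_u2o (hA : (q : Kbar) ∈ A.nonunits) (h : u2o A q M f u₀ hf ∈ V11o A q M B k hB hq) :
    s11 A q M B k hB hq ⟨_, h⟩ = coeffMap (Int.castRingHom (kV A)) u₀ := by
  rw [s11_mk]
  have e : cM q M B k hB hq ((u2o A q M f u₀ hf : ↥(L0 A (M * q * q))) : FN (M * q * q))
      = twist (zetaK q ^ B) (H65.intSer Kbar u₀) := by
    show cM q M B k hB hq (incBB q M f) = _
    rw [cM_incBB, hf]
  rw [← gaussRedV_twist_intSer A q B hq hA u₀ (twist_intSer_mem A q B hq u₀)]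
  exact congrArg (gaussRedV A) (Subtype.ext e)

/-! ### At `V₀₂` -/

include hq in
theorem uo_mem02 : uo A q M f u₀ hf ∈ V02o A q M B k hB :=
  (s02_of_intSer A q M B k hB _ (qExpand ℤ q (qExpand ℤ q u₀)) (by
    show ((wS q M B k hB (incAA q M f) : FN (M * q * q)) : LaurentSeries Kbar) = _
    rw [wS_incAA q M B k hB hq]
    exact coe_u2o A q M f u₀ hf)).1

include hq in
theorem s02_uo (h : uo A q M f u₀ hf ∈ V02o A q M B k hB) :
    s02 A q M B k hB ⟨_, h⟩
      = qExpand (kV A) q (qExpand (kV A) q (coeffMap (Int.castRingHom (kV A)) u₀)) := by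
  rw [(s02_of_intSer A q M B k hB _ (qExpand ℤ q (qExpand ℤ q u₀)) (by
    show ((wS q M B k hB (incAA q M f) : FN (M * q * q)) : LaurentSeries Kbar) = _
    rw [wS_incAA q M B k hB hq]
    exact coe_u2o A q M f u₀ hf)).2, coeffMap_qExpand, coeffMap_qExpand]

include hq in
theorem u2o_mem02 : u2o A q M f u₀ hf ∈ V02o A q M B k hB :=
  (s02_of_intSer A q M B k hB _ u₀ (by
    show ((wS q M B k hB (incBB q M f) : FN (M * q * q)) : LaurentSeries Kbar) = _
    rw [wS_incBB q M B k hB hq]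
    exact coe_uo A q M f u₀ hf)).1

include hq in
theorem s02_u2o (h : u2o A q M f u₀ hf ∈ V02o A q M B k hB) :
    s02 A q M B k hB ⟨_, h⟩ = coeffMap (Int.castRingHom (kV A)) u₀ :=
  (s02_of_intSer A q M B k hB _ u₀ (by
    show ((wS q M B k hB (incBB q M f) : FN (M * q * q)) : LaurentSeries Kbar) = _
    rw [wS_incBB q M B k hB hq]
    exact coe_uo A q M f u₀ hf)).2

end Coord

end Fermat.Agent.S36.NU.H16
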