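import Fermat.Agent.S36.NU.H16_HssAux
import Fermat.Agent.S36.NU.H22_ValE
import Fermat.Agent.S36.NU.H88_ChartInt

/-!
# S36 / NU-B, HSS-ASM, generic form (helper16)

`hss_gen` : the hypothesis `hss` of `H99.pointData_of_dichotomy` on helper88's `chart0`
(`B = ` integral closure of `R^ur[j]`, valuations of helper23's `totM`), at ONE point `z`, for ANY
coordinate `f ∈ F_M` with integral expansion `u₀`:

* `hG`, `hthree` : the two hypotheses of TI3-VAL (helper28), as in `H88.chartHyp_chart0'`;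
* `huI`, `hu2I` : `u = f(τ)`, `u'' = f(q²τ)` are integral over `K^ur[j]`;
* `hord`, `hc`, `hd` : COORD + POLE at `z` (helper44 `pole_full_d2_FM`, `pole_full_three`,
  `pole_full_two`), for `u = ` the reduction of `f`, `y₂ = - δ̄^q`.
-/

set_option autoImplicit false
set_option synthInstance.maxHeartbeats 400000
set_option maxHeartbeats 1000000
set_option linter.unusedSectionVars false
set_option linter.style.haveILetI false

noncomputable section

namespace Fermat.Agent.S36.NU.H16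

open Fermat.Agent.S24 Fermat.Agent.BAD.H88 ModularCurve AlgebraicCurve Polynomial
open Fermat.Agent.S28 Fermat.Agent.S28.H73 Fermat.Agent.RED.H73 Fermat.Agent.RED.H17
open Fermat.Agent.S36.NU.H88 Fermat.Agent.S36.NU.H23 Fermat.Agent.S36.NU.H73
open Fermat.Agent.S36.NU.H41 Fermat.Agent.S36.NU.H65 Fermat.Agent.BAD

section HssGen

variable (A : ValuationSubring Kbar) (q M : ℕ) (B k : ℤ) (hB : B * M + k * q = 1) (hq : q.Prime)
  [NeZero M] [NeZero q] [NeZero (M * q * q)] (hqM : ¬ q ∣ M) (hA : A.LiesOverPrime q)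
  (ht : H91.TameAt M q)

attribute [local instance] algkM

/-- The functions which are integral over `K^ur[j]`. -/
def HK : Subring ↥(L0 A (M * q * q)) :=
  (integralClosure ↥(Algebra.adjoin ↥(Kur A) {j0 A (M * q * q)}) ↥(L0 A (M * q * q))).toSubring

theorem mem_HK (x : ↥(L0 A (M * q * q))) :
    x ∈ HK A q M ↔ IsIntegral ↥(Algebra.adjoin ↥(Kur A) {j0 A (M * q * q)}) x := Iff.rfl

/-- **`crit`** on `chart0`, from `hG` and `hthree`. -/
theorem crit_chart0 (i₀ : Fin 3)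
    (hG : ∀ p : (↥(Kur A))[X],
      aeval (j0 A (M * q * q)) p ∈ (totM A q M B k hB hq hqM hA ht).V i₀ →
        ∀ i, p.coeff i ∈ (algebraMap ↥(Rur A) ↥(Kur A)).range)
    (hthree : ∀ f : ↥(L0 A (M * q * q)),
      (∀ i, f ∈ (totM A q M B k hB hq hqM hA ht).V i) →
      ∃ P : (↥(L0 A (M * q * q)))[X], P.Monic ∧
        (∀ m, P.coeff m ∈ (totM A q M B k hB hq hqM hA ht).V i₀ ∧
          P.coeff m ∈ IntermediateField.adjoin ↥(Kur A) {j0 A (M * q * q)}) ∧ P.eval f = 0) :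
    ∀ f ∈ HK A q M, (∀ i, f ∈ (chart0 A q M B k hB hq hqM hA ht).V i) →
      f ∈ (chart0 A q M B k hB hq hqM hA ht).B := by
  intro f hf hfV
  exact H17.isIntegral_adjoin_of_forall_mem ↥(Rur A) ↥(Kur A) (j0 A (M * q * q))
    (transcendental_j0 A (M * q * q)) (totM A q M B k hB hq hqM hA ht).V i₀ hG hthree hf hfV


include hq hA in
/-- `1 / q` is integral over `K^ur[j]`. -/
theorem inv_q_mem_HK :
    (algebraMap ↥(Rur A) ↥(L0 A (M * q * q)) ((q : ℕ) : ↥(Rur A)))⁻¹ ∈ HK A q M := by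
  rw [mem_HK, map_natCast]
  have e : (((q : ℕ) : ↥(L0 A (M * q * q))))⁻¹
      = algebraMap ↥(Algebra.adjoin ↥(Kur A) {j0 A (M * q * q)}) ↥(L0 A (M * q * q))
          (algebraMap ↥(Kur A) _ (((q : ℕ) : ↥(Kur A)))⁻¹) := by
    rw [← IsScalarTower.algebraMap_apply, map_inv₀, map_natCast]
  rw [e]
  exact isIntegral_algebraMap

/-- The elements of `B` are integral over `K^ur[j]`. -/
theorem chart0_B_le_HK :
    ∀ x ∈ (chart0 A q M B k hB hq hqM hA ht).B, x ∈ HK A q M := by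
  intro x hx
  exact H17.isIntegral_adjoin_field ↥(Rur A) ↥(Kur A) (j0 A (M * q * q)) hx

/-- The coordinate `u = f(τ)` on the component `C₂₀`. -/
theorem rd_uo (f : FN M) (u₀ : LaurentSeries ℤ)
    (hf : (f : LaurentSeries Kbar) = H65.intSer Kbar u₀) (u : FM A M)
    (hu : (u : LaurentSeries (kV A)) = coeffMap (Int.castRingHom (kV A)) u₀) :
    (chart0 A q M B k hB hq hqM hA ht).rd 0 (uo A q M f u₀ hf) = u := by
  have h := uo_mem20 A q M f u₀ hf
  rw [chart0, chartOf_rd, rdN_totM_zero A q M B k hB hq hqM hA ht _ h]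
  exact Subtype.ext ((coe_r20 A q M hq hqM hA _).trans ((s20_uo A q M f u₀ hf h).trans hu.symm))

/-- The function `d₂₀ = t₂₀ / q` on the component `C₂₀`. -/
theorem rd_d20o (f : FN M) (u₀ : LaurentSeries ℤ)
    (hf : (f : LaurentSeries Kbar) = H65.intSer Kbar u₀) (y₂ : FM A M)
    (hy₂ : (y₂ : LaurentSeries (kV A))
      = - coeffMap (Int.castRingHom (kV A)) (H65.kdel q u₀) ^ q) :
    (chart0 A q M B k hB hq hqM hA ht).rd 0 (d20o A q M f u₀ hf) = y₂ := by
  have h := d20o_mem A q M hq f u₀ hf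
  rw [chart0, chartOf_rd, rdN_totM_zero A q M B k hB hq hqM hA ht _ h]
  exact Subtype.ext ((coe_r20 A q M hq hqM hA _).trans
    ((s20_d20o A q M hq hA f u₀ hf).trans hy₂.symm))

/-- **HSS-ASM, generic in the coordinate**: all components pass through the point of `chart0`
over a place `z` at which COORD + POLE hold, and there is a local equation datum there. -/
theorem hss_gen (i₀ : Fin 3)
    (hG : ∀ p : (↥(Kur A))[X],
      aeval (j0 A (M * q * q)) p ∈ (totM A q M B k hB hq hqM hA ht).V i₀ →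
        ∀ i, p.coeff i ∈ (algebraMap ↥(Rur A) ↥(Kur A)).range)
    (hthree : ∀ f : ↥(L0 A (M * q * q)),
      (∀ i, f ∈ (totM A q M B k hB hq hqM hA ht).V i) →
      ∃ P : (↥(L0 A (M * q * q)))[X], P.Monic ∧
        (∀ m, P.coeff m ∈ (totM A q M B k hB hq hqM hA ht).V i₀ ∧
          P.coeff m ∈ IntermediateField.adjoin ↥(Kur A) {j0 A (M * q * q)}) ∧ P.eval f = 0)
    (f : FN M) (u₀ : LaurentSeries ℤ) (hf : (f : LaurentSeries Kbar) = H65.intSer Kbar u₀)
    (hθ : H65.ThetaNZ q (coeffMap (Int.castRingHom (kV A)) u₀))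
    (huI : IsIntegral ↥(Algebra.adjoin ↥(Kur A) {j0 A (M * q * q)}) (uo A q M f u₀ hf))
    (hu2I : IsIntegral ↥(Algebra.adjoin ↥(Kur A) {j0 A (M * q * q)}) (u2o A q M f u₀ hf))
    (z : Place (kV A) (FM A M)) (c : kV A) (u y₂ : FM A M)
    (hu : (u : LaurentSeries (kV A)) = coeffMap (Int.castRingHom (kV A)) u₀)
    (hy₂ : (y₂ : LaurentSeries (kV A))
      = - coeffMap (Int.castRingHom (kV A)) (H65.kdel q u₀) ^ q)
    (hord : z.ord (u - algebraMap (kV A) (FM A M) c) = 1) (hc : c ^ q ^ 2 = c)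
    (hd : z.ord y₂ = -(q : ℤ))
    (𝔪 : Ideal (chart0 A q M B k hB hq hqM hA ht).B) [𝔪.IsPrime]
    (h𝔪 : ∀ β : (chart0 A q M B k hB hq hqM hA ht).B,
      β ∈ 𝔪 ↔ VanAt ((totM A q M B k hB hq hqM hA ht).pt 0 z)
        ((chart0 A q M B k hB hq hqM hA ht).rdB 0 β)) :
    (∀ i, (chart0 A q M B k hB hq hqM hA ht).Icomp i ≤ 𝔪) ∧
      Nonempty (LocEq (chart0 A q M B k hB hq hqM hA ht) ((q : ℕ) : ↥(Rur A)) 𝔪) := by
  have hqR : algebraMap ↥(Rur A) ↥(L0 A (M * q * q)) ((q : ℕ) : ↥(Rur A))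
      = ((q : ℕ) : ↥(L0 A (M * q * q))) := map_natCast _ _
  have hcases : ∀ i : Fin 3, i = 0 ∨ i = 1 ∨ i = 2 := by
    intro i; fin_cases i <;> simp
  have crit := crit_chart0 A q M B k hB hq hqM hA ht i₀ hG hthree
  have huV : ∀ i, uo A q M f u₀ hf ∈ (chart0 A q M B k hB hq hqM hA ht).V i := by
    intro i
    fin_cases i
    · exact uo_mem20 A q M f u₀ hf
    · exact uo_mem11 A q M B k hB hq f u₀ hf
    · exact uo_mem02 A q M B k hB hq f u₀ hf
  have hu2V : ∀ i, u2o A q M f u₀ hf ∈ (chart0 A q M B k hB hq hqM hA ht).V i := by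
    intro i
    fin_cases i
    · exact u2o_mem20 A q M f u₀ hf
    · exact u2o_mem11 A q M B k hB hq f u₀ hf
    · exact u2o_mem02 A q M B k hB hq f u₀ hf
  haveI : CharP (kap3 (FM A M) (FM A M) 0) q := charP_kap3 A q M hq hA 0
  refine locEq_ss_modV A q M B k hB hq (chart0 A q M B k hB hq hqM hA ht)
    ((q : ℕ) : ↥(Rur A)) hqR hA
    (H22.q_mem_nonunits A q M B k hB hq hqM hA _ _ hqR 0 1 2 hcases rfl rfl rfl)
    (HK A q M) (chart0_B_le_HK A q M B k hB hq hqM hA ht) (inv_q_mem_HK A q M hq hA) crit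
    ![1, q - 1, 1]
    (H22.valE_mod A q M B k hB hq hqM hA _ _ hqR _ 0 1 2 hcases rfl rfl rfl rfl rfl rfl)
    0 1 2 hcases (by decide) (by decide) (by decide) rfl rfl rfl rfl rfl rfl
    f u₀ hf hθ (crit _ huI huV) (crit _ hu2I hu2V)
    ((totM A q M B k hB hq hqM hA ht).pt 0 z) c ?_ hc ?_ 𝔪 h𝔪
  · rw [rd_uo A q M B k hB hq hqM hA ht f u₀ hf u hu]
    exact hord
  · rw [rd_d20o A q M B k hB hq hqM hA ht f u₀ hf y₂ hy₂]
    exact hd

end HssGen

end Fermat.Agent.S36.NU.H16
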