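import Fermat.Agent.S36.NU.H16_Patch

/-!
# S36 / NU-B, local side of TI3 (helper16): the local lemma (LL)

At a closed point `𝔪` of the chart with a local generator `s` (`h sⁿ ∈ B ∖ 𝔪`) the function
`γ_i = g_i / rd_i s` on the branch `i` is a unit at the point, and if the values of the `γ_i` at
the point agree (EQV) then the vector `(γ_i)` is the residue of an element of the local ring
`B_𝔪` on all branches (`Loc`).  The `n`-th root is obtained as a POWER (Frobenius in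
characteristic `q`): with `N = q ^ a`, `n m = 1 + N l`,
`γ = (rd uᵐ)⁻¹ · c ^ (-N l) · (((γ / c) ^ N) ^ l)⁻¹` and `(γ / c) ^ N = 1 + (γ / c - 1) ^ N`.

* `Loc C 𝔪 x` : the vector `x` of residues comes from `B_𝔪` (on the branches through `𝔪`);
  it is a ring (`Loc.add`, `Loc.mul`, `Loc.one`, `Loc.sum`, `Loc.of_mem`, `Loc.inv`).
* `Branch.loc_single` : on one branch, `((γ' ^ q ^ a) ^ l)⁻¹ - 1` for `γ' ≡ 1` comes from an
  element of `B_𝔪` vanishing on the other components, for `q ^ a` large.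
* `ll`, `stmt_LL : Stmt_LL`.
* `ll_single` : the case of a single branch (EQV automatic).
* `chart` : (LL) at all closed points + (PATCH).
-/

set_option autoImplicit false

noncomputable section

namespace Fermat.Agent.S36.NU.H16

open Fermat.Agent.S36.NU.H65

variable {R F k ι : Type*} {κ : ι → Type*} [CommRing R] [Field F] [Algebra R F]
  [Field k] [∀ i, Field (κ i)] [∀ i, Algebra k (κ i)]

/-- Field arithmetic for `Branch.loc_single`. -/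
theorem geom_aux {K : Type*} [Field K] (Z t : K) (l : ℕ) (hZ : Z ^ l ≠ 0) (ht : t ≠ 0) :
    (Z - 1) * t⁻¹ * (-(∑ e ∈ Finset.range l, Z ^ e)) * (Z ^ l)⁻¹ * t = (Z ^ l)⁻¹ - 1 := by
  have hgs := geom_sum_mul Z l
  have h1 : (Z - 1) * t⁻¹ * (-(∑ e ∈ Finset.range l, Z ^ e)) * (Z ^ l)⁻¹ * t =
      -((∑ e ∈ Finset.range l, Z ^ e) * (Z - 1)) * (Z ^ l)⁻¹ * (t⁻¹ * t) := by ring
  rw [h1, hgs, inv_mul_cancel₀ ht, mul_one, neg_mul, sub_mul, mul_inv_cancel₀ hZ]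
  ring

/-- Field arithmetic for `loc_gamma`. -/
theorem power_aux {K : Type*} [Field K] (G c : K) (N l : ℕ) (hG : G ≠ 0) (hc : c ≠ 0) :
    G ^ (N * l + 1) * (c⁻¹) ^ (N * l) * (1 + ((((G * c⁻¹) ^ N) ^ l)⁻¹ - 1)) = G := by
  have e1 : ((G * c⁻¹) ^ N) ^ l = G ^ (N * l) * (c ^ (N * l))⁻¹ := by
    rw [← pow_mul, mul_pow, inv_pow]
  have h3 : G ^ (N * l) ≠ 0 := pow_ne_zero _ hG
  have h4 : c ^ (N * l) ≠ 0 := pow_ne_zero _ hc
  rw [e1, pow_succ, inv_pow, mul_inv, inv_inv]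
  have e2 : (1 : K) + ((G ^ (N * l))⁻¹ * c ^ (N * l) - 1) = (G ^ (N * l))⁻¹ * c ^ (N * l) := by
    ring
  rw [e2]
  have e3 : G ^ (N * l) * G * (c ^ (N * l))⁻¹ * ((G ^ (N * l))⁻¹ * c ^ (N * l)) =
      G * (G ^ (N * l) * (G ^ (N * l))⁻¹) * ((c ^ (N * l))⁻¹ * c ^ (N * l)) := by ring
  rw [e3, mul_inv_cancel₀ h3, inv_mul_cancel₀ h4, mul_one, mul_one]

/-- The vector `x` of residues is the residue of an element of the local ring `B_𝔪` on all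
branches through `𝔪`. -/
def Loc (C : Chart R F k ι κ) (𝔪 : Ideal C.B) (x : ∀ i, κ i) : Prop :=
  ∃ E D : C.B, D ∉ 𝔪 ∧ ∀ i, C.Icomp i ≤ 𝔪 → C.rdB i E = x i * C.rdB i D

namespace Loc

variable {C : Chart R F k ι κ} {𝔪 : Ideal C.B}

theorem congr {x y : ∀ i, κ i} (hx : Loc C 𝔪 x) (h : ∀ i, C.Icomp i ≤ 𝔪 → x i = y i) :
    Loc C 𝔪 y := by
  obtain ⟨E, D, hD, hE⟩ := hx
  exact ⟨E, D, hD, fun i hi => by rw [hE i hi, h i hi]⟩

theorem of_mem (hm : 𝔪 ≠ ⊤) (b : C.B) : Loc C 𝔪 (fun i => C.rdB i b) :=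
  ⟨b, 1, (Ideal.ne_top_iff_one 𝔪).1 hm, fun i _ => by rw [map_one, mul_one]⟩

theorem one (hm : 𝔪 ≠ ⊤) : Loc C 𝔪 (fun _ => 1) :=
  (of_mem hm 1).congr (fun i _ => map_one _)

theorem zero (hm : 𝔪 ≠ ⊤) : Loc C 𝔪 (fun _ => 0) :=
  (of_mem hm 0).congr (fun i _ => map_zero _)

theorem const (hm : 𝔪 ≠ ⊤) (c : k) : Loc C 𝔪 (fun i => algebraMap k (κ i) c) := by
  obtain ⟨r, rfl⟩ := C.res_surj c
  refine (of_mem hm ⟨algebraMap R F r, C.B.algebraMap_mem r⟩).congr (fun i _ => ?_)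
  rw [← C.rd_coe]
  exact C.rd_algebraMap i r

theorem add [h𝔪 : 𝔪.IsPrime] {x y : ∀ i, κ i} (hx : Loc C 𝔪 x) (hy : Loc C 𝔪 y) :
    Loc C 𝔪 (fun i => x i + y i) := by
  obtain ⟨E₁, D₁, hD₁, hE₁⟩ := hx
  obtain ⟨E₂, D₂, hD₂, hE₂⟩ := hy
  refine ⟨E₁ * D₂ + E₂ * D₁, D₁ * D₂, ?_, fun i hi => ?_⟩
  · intro hmem
    rcases h𝔪.mem_or_mem hmem with h | h
    · exact hD₁ h
    · exact hD₂ h
  · rw [map_add, map_mul, map_mul, map_mul, hE₁ i hi, hE₂ i hi]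
    ring

theorem mul [h𝔪 : 𝔪.IsPrime] {x y : ∀ i, κ i} (hx : Loc C 𝔪 x) (hy : Loc C 𝔪 y) :
    Loc C 𝔪 (fun i => x i * y i) := by
  obtain ⟨E₁, D₁, hD₁, hE₁⟩ := hx
  obtain ⟨E₂, D₂, hD₂, hE₂⟩ := hy
  refine ⟨E₁ * E₂, D₁ * D₂, ?_, fun i hi => ?_⟩
  · intro hmem
    rcases h𝔪.mem_or_mem hmem with h | h
    · exact hD₁ h
    · exact hD₂ h
  · rw [map_mul, map_mul, hE₁ i hi, hE₂ i hi]
    ring

theorem sum [h𝔪 : 𝔪.IsPrime] {α : Type*} (s : Finset α) (f : α → ∀ i, κ i)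
    (h : ∀ a ∈ s, Loc C 𝔪 (f a)) : Loc C 𝔪 (fun i => ∑ a ∈ s, f a i) := by
  classical
  induction s using Finset.induction_on with
  | empty =>
    simp only [Finset.sum_empty]
    exact zero h𝔪.ne_top
  | insert a s ha ih =>
    have h1 := h a (Finset.mem_insert_self a s)
    have h2 := ih (fun b hb => h b (Finset.mem_insert_of_mem hb))
    refine (add h1 h2).congr (fun i _ => ?_)
    rw [Finset.sum_insert ha]

/-- Inverses of the elements outside `𝔪`. -/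
theorem inv (b : C.B) (hb : b ∉ 𝔪) : Loc C 𝔪 (fun i => (C.rdB i b)⁻¹) := by
  refine ⟨1, b, hb, fun i hi => ?_⟩
  have h1 : C.rdB i b ≠ 0 := fun h0 => hb (hi ((C.mem_Icomp i b).2 h0))
  rw [map_one, inv_mul_cancel₀ h1]

end Loc

namespace Branch

variable {C : Chart R F k ι κ} {𝔪 : Ideal C.B} {i : ι}

theorem mem_of_val_eq_one (b : Branch C 𝔪 i) {x : κ i} (hx : b.O.valuation x = 1) : x ∈ b.O :=
  (b.O.valuation_le_one_iff x).1 hx.le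

theorem val_rdB_eq_one (b : Branch C 𝔪 i) {β : C.B} (hβ : β ∉ 𝔪) :
    b.O.valuation (C.rdB i β) = 1 := by
  have h1 : b.O.valuation (C.rdB i β) ≤ 1 := (b.O.valuation_le_one_iff _).2 (b.reg β)
  have h2 : ¬ b.O.valuation (C.rdB i β) < 1 := fun h =>
    hβ ((b.van β).2 ((ValuationSubring.mem_nonunits_iff _).2 h))
  exact le_antisymm h1 (not_lt.1 h2)

theorem Icomp_le (b : Branch C 𝔪 i) : C.Icomp i ≤ 𝔪 := by
  intro β hβ
  rw [b.van]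
  rw [(C.mem_Icomp i β).1 hβ]
  rw [ValuationSubring.mem_nonunits_iff, map_zero]
  exact zero_lt_one

/-- On one branch: for `γ' ≡ 1` at the point and `q ^ a` large, `((γ' ^ q ^ a) ^ l)⁻¹ - 1` is the
residue of an element of `B_𝔪` which vanishes on the other components. -/
theorem loc_single [DecidableEq ι] [h𝔪 : 𝔪.IsPrime] (b : Branch C 𝔪 i) (q : ℕ) (hq : q.Prime)
    [CharP (κ i) q] (τ : C.B) (hτ : C.rdB i τ ≠ 0) (hτ' : ∀ i', i' ≠ i → C.rdB i' τ = 0)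
    (γ' : κ i) (hγ' : γ' - 1 ∈ b.O.nonunits) :
    ∃ N₀ : ℕ, ∀ a : ℕ, N₀ ≤ q ^ a → ∀ l : ℕ,
      Loc C 𝔪 (Pi.single i (((γ' ^ q ^ a) ^ l)⁻¹ - 1)) := by
  have : Fact q.Prime := ⟨hq⟩
  obtain ⟨N₀, hN₀⟩ := b.arch _ hγ' _ hτ
  refine ⟨N₀, fun a ha l => ?_⟩
  set v := b.O.valuation with hv
  have hlt : v (γ' - 1) < 1 := (ValuationSubring.mem_nonunits_iff _).1 hγ'
  have hγ1 : v γ' = 1 := by
    have : γ' = 1 + (γ' - 1) := by ring
    rw [this]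
    exact Valuation.map_one_add_of_lt v hlt
  set Z : κ i := γ' ^ q ^ a with hZ
  have hZ1 : v Z = 1 := by rw [hZ, map_pow, hγ1, one_pow]
  have hZsub : Z - 1 = (γ' - 1) ^ q ^ a := by
    rw [hZ, sub_pow_char_pow, one_pow]
  have hZmem : Z ∈ b.O := b.mem_of_val_eq_one hZ1
  have hZl : v (Z ^ l) = 1 := by rw [map_pow, hZ1, one_pow]
  have hZl0 : Z ^ l ≠ 0 := by
    intro h0
    rw [h0, map_zero] at hZl
    exact zero_ne_one hZl
  -- the regular function `y = x / rd τ`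
  set y : κ i := (Z - 1) * (C.rdB i τ)⁻¹ * (-(∑ t ∈ Finset.range l, Z ^ t)) * (Z ^ l)⁻¹ with hy
  have hy_mem : y ∈ b.O := by
    rw [hy]
    refine mul_mem (mul_mem ?_ (neg_mem (sum_mem (fun t _ => pow_mem hZmem t)))) ?_
    · rw [hZsub]
      exact hN₀ _ ha
    · apply b.mem_of_val_eq_one
      rw [map_inv₀, hZl, inv_one]
  have hyx : y * C.rdB i τ = (Z ^ l)⁻¹ - 1 := by
    rw [hy]
    exact geom_aux Z (C.rdB i τ) l hZl0 hτ
  obtain ⟨b₁, β₁, hβ₁, hb₁⟩ := b.normal y hy_mem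
  refine ⟨τ * b₁, β₁, hβ₁, fun i' _ => ?_⟩
  by_cases hi' : i' = i
  · subst hi'
    rw [Pi.single_eq_same, map_mul, hb₁, ← hyx]
    ring
  · rw [Pi.single_eq_of_ne hi', map_mul, hτ' i' hi', zero_mul, zero_mul]

end Branch

/-- The vector `γ = g / rd s` comes from the local ring. -/
theorem loc_gamma [Fintype ι] (C : Chart R F k ι κ) (q n : ℕ) (h : F) (g : ∀ i, κ i)
    (S : Setup C q n h g) (𝔪 : Ideal C.B) (hmax : 𝔪.IsMaximal)
    (br : ∀ i, C.Icomp i ≤ 𝔪 → Branch C 𝔪 i)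
    (s : F) (hs : h * s ^ n ∈ C.B) (hu : (⟨h * s ^ n, hs⟩ : C.B) ∉ 𝔪)
    (c : k) (hc : ∀ (i : ι) (hi : C.Icomp i ≤ 𝔪),
      g i * (C.rd i s)⁻¹ - algebraMap k (κ i) c ∈ (br i hi).O.nonunits) :
    Loc C 𝔪 (fun i => g i * (C.rd i s)⁻¹) := by
  classical
  have h𝔪 : 𝔪.IsPrime := hmax.isPrime
  have hq1 : 1 < q := S.q_prime.one_lt
  set u : C.B := ⟨h * s ^ n, hs⟩ with hu_def
  -- facts on the branches
  have hrdu : ∀ i, C.rdB i u = C.rd i h * C.rd i s ^ n := by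
    intro i
    rw [← C.rd_coe, hu_def]
    show C.rd i (h * s ^ n) = _
    rw [C.rd_mul i (S.h_mem i) (pow_mem (S.mem_V i hs) n), C.rd_pow i (S.mem_V i hs)]
  have hrdu0 : ∀ i, C.Icomp i ≤ 𝔪 → C.rdB i u ≠ 0 := fun i hi h0 =>
    hu (hi ((C.mem_Icomp i u).2 h0))
  have hs0 : ∀ i, C.Icomp i ≤ 𝔪 → C.rd i s ≠ 0 := by
    intro i hi h0
    apply hrdu0 i hi
    rw [hrdu, h0, zero_pow S.n_pos.ne', mul_zero]
  have hγ0 : ∀ i, C.Icomp i ≤ 𝔪 → g i * (C.rd i s)⁻¹ ≠ 0 := fun i hi =>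
    mul_ne_zero (S.g_ne_zero i) (inv_ne_zero (hs0 i hi))
  have hγn : ∀ i, C.Icomp i ≤ 𝔪 → (g i * (C.rd i s)⁻¹) ^ n * C.rdB i u = 1 := by
    intro i hi
    rw [hrdu, mul_pow, inv_pow]
    have h1 := S.root_g i
    have h2 : C.rd i s ^ n ≠ 0 := pow_ne_zero _ (hs0 i hi)
    field_simp
    linear_combination h1
  have hγv : ∀ (i : ι) (hi : C.Icomp i ≤ 𝔪),
      (br i hi).O.valuation (g i * (C.rd i s)⁻¹) = 1 := by
    intro i hi
    have h1 := congrArg (br i hi).O.valuation (hγn i hi)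
    rw [map_mul, map_pow, (br i hi).val_rdB_eq_one hu, mul_one, map_one] at h1
    exact (pow_eq_one_iff_of_nonneg zero_le S.n_pos.ne').1 h1
  have hcv : ∀ (i : ι) (hi : C.Icomp i ≤ 𝔪),
      (br i hi).O.valuation (algebraMap k (κ i) c) = 1 := by
    intro i hi
    have h1 := (ValuationSubring.mem_nonunits_iff _).1 (hc i hi)
    have h2 : algebraMap k (κ i) c =
        g i * (C.rd i s)⁻¹ - (g i * (C.rd i s)⁻¹ - algebraMap k (κ i) c) := by ring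
    rw [h2, Valuation.map_sub_eq_of_lt_left]
    · exact hγv i hi
    · rw [hγv i hi]
      exact h1
  have hc0 : ∀ i, C.Icomp i ≤ 𝔪 → algebraMap k (κ i) c ≠ 0 := by
    intro i hi h0
    have := hcv i hi
    rw [h0, map_zero] at this
    exact zero_ne_one this
  have hγ'1 : ∀ (i : ι) (hi : C.Icomp i ≤ 𝔪),
      g i * (C.rd i s)⁻¹ * (algebraMap k (κ i) c)⁻¹ - 1 ∈ (br i hi).O.nonunits := by
    intro i hi
    rw [ValuationSubring.mem_nonunits_iff]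
    have h1 := (ValuationSubring.mem_nonunits_iff _).1 (hc i hi)
    have h2 : g i * (C.rd i s)⁻¹ * (algebraMap k (κ i) c)⁻¹ - 1 =
        (g i * (C.rd i s)⁻¹ - algebraMap k (κ i) c) * (algebraMap k (κ i) c)⁻¹ := by
      have := hc0 i hi
      field_simp
    rw [h2, map_mul, map_inv₀, hcv i hi, inv_one, mul_one]
    exact h1
  -- the elements `τ i`
  have hτ : ∀ i, ∃ τ : C.B, C.rdB i τ ≠ 0 ∧ ∀ i', i' ≠ i → C.rdB i' τ = 0 := by
    intro i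
    have h1 : ∀ i', ∃ t : C.B, C.rdB i t ≠ 0 ∧ (i' ≠ i → C.rdB i' t = 0) := by
      intro i'
      by_cases hi' : i' = i
      · exact ⟨1, by rw [map_one]; exact one_ne_zero, fun h => absurd hi' h⟩
      · obtain ⟨t, ht1, ht2⟩ := S.inc i i' (fun h => hi' h.symm)
        exact ⟨t, ht2, fun _ => ht1⟩
    choose t ht1 ht2 using h1
    refine ⟨∏ i', t i', ?_, fun i' hi' => ?_⟩
    · rw [map_prod]
      exact Finset.prod_ne_zero_iff.2 (fun i' _ => ht1 i')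
    · rw [map_prod]
      exact Finset.prod_eq_zero (Finset.mem_univ i') (ht2 i' hi')
  choose τ hτ1 hτ2 using hτ
  -- the bound
  have hN : ∀ i, ∃ N₀ : ℕ, ∀ hi : C.Icomp i ≤ 𝔪, ∀ a : ℕ, N₀ ≤ q ^ a → ∀ l : ℕ,
      Loc C 𝔪 (Pi.single i
        (((((g i * (C.rd i s)⁻¹ * (algebraMap k (κ i) c)⁻¹)) ^ q ^ a) ^ l)⁻¹ - 1)) := by
    intro i
    by_cases hi : C.Icomp i ≤ 𝔪
    · have := S.charq i
      obtain ⟨N₀, hN₀⟩ := (br i hi).loc_single q S.q_prime (τ i) (hτ1 i) (hτ2 i) _ (hγ'1 i hi)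
      exact ⟨N₀, fun _ => hN₀⟩
    · exact ⟨0, fun h => absurd h hi⟩
  choose N₀ hN₀ using hN
  set a : ℕ := Finset.univ.sup N₀ + 1 with ha
  have haN : ∀ i, N₀ i ≤ q ^ a := by
    intro i
    have h1 : N₀ i ≤ Finset.univ.sup N₀ := Finset.le_sup (Finset.mem_univ i)
    have h2 : a < q ^ a := Nat.lt_pow_self hq1
    omega
  have hN1 : 1 < q ^ a := by
    have h2 : a < q ^ a := Nat.lt_pow_self hq1
    omega
  obtain ⟨m, -, hm⟩ := Nat.exists_mul_mod_eq_one_of_coprime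
    (Nat.Coprime.pow_right a S.coprime) hN1
  set l : ℕ := n * m / q ^ a with hl
  have hnm : n * m = q ^ a * l + 1 := by
    have := Nat.div_add_mod (n * m) (q ^ a)
    rw [hm] at this
    exact this.symm
  -- the three factors
  have hL1 : Loc C 𝔪 (fun i => (C.rdB i (u ^ m))⁻¹) :=
    Loc.inv _ (fun hmem => hu (h𝔪.mem_of_pow_mem m hmem))
  have hL2 : Loc C 𝔪 (fun i => algebraMap k (κ i) ((c⁻¹) ^ (q ^ a * l))) :=
    Loc.const h𝔪.ne_top _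
  have hL3 : Loc C 𝔪 (fun i => 1 + ∑ i' : ι, (Pi.single i'
      (((((g i' * (C.rd i' s)⁻¹ * (algebraMap k (κ i') c)⁻¹)) ^ q ^ a) ^ l)⁻¹ - 1) :
        ∀ i, κ i) i) := by
    refine Loc.add (Loc.one h𝔪.ne_top) (Loc.sum _ _ (fun i' _ => ?_))
    by_cases hi' : C.Icomp i' ≤ 𝔪
    · exact hN₀ i' hi' a (haN i') l
    · refine ⟨0, 1, (Ideal.ne_top_iff_one 𝔪).1 h𝔪.ne_top, fun i hi => ?_⟩
      by_cases hii : i = i'
      · subst hii
        exact absurd hi hi'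
      · rw [Pi.single_eq_of_ne hii, map_zero, zero_mul]
  refine (Loc.mul (Loc.mul hL1 hL2) hL3).congr (fun i hi => ?_)
  have hsum : ∑ i' : ι, (Pi.single i'
      (((((g i' * (C.rd i' s)⁻¹ * (algebraMap k (κ i') c)⁻¹)) ^ q ^ a) ^ l)⁻¹ - 1) :
        ∀ i, κ i) i =
      ((((g i * (C.rd i s)⁻¹ * (algebraMap k (κ i) c)⁻¹)) ^ q ^ a) ^ l)⁻¹ - 1 := by
    rw [Finset.sum_eq_single i]
    · rw [Pi.single_eq_same]
    · intro i' _ hne
      rw [Pi.single_eq_of_ne (fun h => hne h.symm)]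
    · intro hni
      exact absurd (Finset.mem_univ i) hni
  simp only [hsum]
  have hG := hγ0 i hi
  have hcc := hc0 i hi
  have hU : (C.rdB i (u ^ m))⁻¹ = (g i * (C.rd i s)⁻¹) ^ (n * m) := by
    rw [map_pow, pow_mul, ← inv_pow]
    congr 1
    exact (eq_inv_of_mul_eq_one_left (hγn i hi)).symm
  rw [hU, hnm, map_pow, map_inv₀]
  exact power_aux _ _ _ _ hG hcc

/-- **(LL)** the local lemma. -/
theorem ll [Fintype ι] (C : Chart R F k ι κ) (q n : ℕ) (h : F) (g : ∀ i, κ i)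
    (S : Setup C q n h g) (𝔪 : Ideal C.B) (hmax : 𝔪.IsMaximal)
    (br : ∀ i, C.Icomp i ≤ 𝔪 → Branch C 𝔪 i)
    (s : F) (hs : h * s ^ n ∈ C.B) (hu : (⟨h * s ^ n, hs⟩ : C.B) ∉ 𝔪)
    (c : k) (hc : ∀ (i : ι) (hi : C.Icomp i ≤ 𝔪),
      g i * (C.rd i s)⁻¹ - algebraMap k (κ i) c ∈ (br i hi).O.nonunits) :
    ∃ β : C.B, β ∉ 𝔪 ∧ C.Good h n g β := by
  classical
  have h𝔪 : 𝔪.IsPrime := hmax.isPrime
  obtain ⟨E, D, hD, hED⟩ := loc_gamma C q n h g S 𝔪 hmax br s hs hu c hc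
  -- `β₀` vanishing on the components not through `𝔪`
  have hω : ∀ i, ∃ ω : C.B, ω ∉ 𝔪 ∧ (¬ C.Icomp i ≤ 𝔪 → C.rdB i ω = 0) := by
    intro i
    by_cases hi : C.Icomp i ≤ 𝔪
    · exact ⟨1, (Ideal.ne_top_iff_one 𝔪).1 h𝔪.ne_top, fun h => absurd hi h⟩
    · obtain ⟨ω, h1, h2⟩ := Set.not_subset.1 hi
      exact ⟨ω, h2, fun _ => (C.mem_Icomp i ω).1 h1⟩
  choose ω hω1 hω2 using hω
  set β₀ : C.B := ∏ i, ω i with hβ₀
  have hβ₀1 : β₀ ∉ 𝔪 := by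
    intro hmem
    obtain ⟨i, -, hi⟩ := (Ideal.IsPrime.prod_mem_iff (hp := h𝔪)).1 hmem
    exact hω1 i hi
  have hβ₀2 : ∀ i, ¬ C.Icomp i ≤ 𝔪 → C.rdB i β₀ = 0 := by
    intro i hi
    rw [hβ₀, map_prod]
    exact Finset.prod_eq_zero (Finset.mem_univ i) (hω2 i hi)
  have hu0 : ∀ i, C.Icomp i ≤ 𝔪 → C.rd i s ≠ 0 := by
    intro i hi h0
    apply hu
    apply hi
    rw [C.mem_Icomp, ← C.rd_coe]
    show C.rd i (h * s ^ n) = 0
    rw [C.rd_mul i (S.h_mem i) (pow_mem (S.mem_V i hs) n), C.rd_pow i (S.mem_V i hs), h0,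
      zero_pow S.n_pos.ne', mul_zero]
  refine ⟨β₀ * D, ?_, ((β₀ * E : C.B) : F) * s, ?_, fun i => ?_⟩
  · intro hmem
    rcases h𝔪.mem_or_mem hmem with h1 | h1
    · exact hβ₀1 h1
    · exact hD h1
  · exact mul_mem_rootMod C.B h n S.n_pos S.root (β₀ * E).2 hs
  · rw [C.rd_mul i (C.B_le i _ (β₀ * E).2) (S.mem_V i hs), C.rd_coe, map_mul, map_mul]
    by_cases hi : C.Icomp i ≤ 𝔪
    · rw [hED i hi]
      have := hu0 i hi
      field_simp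
    · rw [hβ₀2 i hi, zero_mul, zero_mul, zero_mul, zero_mul]

theorem stmt_LL : Stmt_LL := by
  intro R F k ι κ _ _ _ _ _ _ _ C q n h g S 𝔪 hmax br s hs hu c hc
  exact ll C q n h g S 𝔪 hmax br s hs hu c hc

/-- **(LL) at a point with a single branch**: EQV is automatic. -/
theorem ll_single [Fintype ι] (C : Chart R F k ι κ) (q n : ℕ) (h : F) (g : ∀ i, κ i)
    (S : Setup C q n h g) (𝔪 : Ideal C.B) (hmax : 𝔪.IsMaximal)
    (i₀ : ι) (b : Branch C 𝔪 i₀) (honly : ∀ i, C.Icomp i ≤ 𝔪 → i = i₀)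
    (s : F) (hs : h * s ^ n ∈ C.B) (hu : (⟨h * s ^ n, hs⟩ : C.B) ∉ 𝔪) :
    ∃ β : C.B, β ∉ 𝔪 ∧ C.Good h n g β := by
  classical
  have h𝔪 : 𝔪.IsPrime := hmax.isPrime
  -- `γ` is regular at the point
  have hrdu : C.rdB i₀ ⟨h * s ^ n, hs⟩ = C.rd i₀ h * C.rd i₀ s ^ n := by
    rw [← C.rd_coe]
    show C.rd i₀ (h * s ^ n) = _
    rw [C.rd_mul i₀ (S.h_mem i₀) (pow_mem (S.mem_V i₀ hs) n), C.rd_pow i₀ (S.mem_V i₀ hs)]
  have hs0 : C.rd i₀ s ≠ 0 := by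
    intro h0
    apply hu
    apply b.Icomp_le
    rw [C.mem_Icomp, hrdu, h0, zero_pow S.n_pos.ne', mul_zero]
  have hγn : (g i₀ * (C.rd i₀ s)⁻¹) ^ n * C.rdB i₀ ⟨h * s ^ n, hs⟩ = 1 := by
    rw [hrdu, mul_pow, inv_pow]
    have h1 := S.root_g i₀
    have h2 : C.rd i₀ s ^ n ≠ 0 := pow_ne_zero _ hs0
    field_simp
    linear_combination h1
  have hγv : b.O.valuation (g i₀ * (C.rd i₀ s)⁻¹) = 1 := by
    have h1 := congrArg b.O.valuation hγn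
    rw [map_mul, map_pow, b.val_rdB_eq_one hu, mul_one, map_one] at h1
    exact (pow_eq_one_iff_of_nonneg zero_le S.n_pos.ne').1 h1
  obtain ⟨c, hc⟩ := b.value _ (b.mem_of_val_eq_one hγv)
  set br : ∀ i, C.Icomp i ≤ 𝔪 → Branch C 𝔪 i := fun i hi => (honly i hi) ▸ b with hbr
  refine ll C q n h g S 𝔪 hmax br s hs hu c (fun i hi => ?_)
  obtain rfl := honly i hi
  exact hc

/-- **(CHART)**: (LL) at all closed points of the special fibre + (PATCH). -/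
theorem chart [Fintype ι] (C : Chart R F k ι κ) (q n : ℕ) (h : F) (g : ∀ i, κ i)
    (S : Setup C q n h g)
    (hpt : ∀ 𝔪 : Ideal C.B, 𝔪.IsMaximal → (∃ i, C.Icomp i ≤ 𝔪) →
      ∃ (_ : ∀ i, C.Icomp i ≤ 𝔪 → Branch C 𝔪 i) (s : F) (hs : h * s ^ n ∈ C.B),
        (⟨h * s ^ n, hs⟩ : C.B) ∉ 𝔪 ∧
        ∀ br : (∀ i, C.Icomp i ≤ 𝔪 → Branch C 𝔪 i), ∃ c : k, ∀ (i : ι) (hi : C.Icomp i ≤ 𝔪),
          g i * (C.rd i s)⁻¹ - algebraMap k (κ i) c ∈ (br i hi).O.nonunits) :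
    ∃ a : F, h * a ^ n ∈ C.B ∧ ∀ i, C.rd i a = g i := by
  refine patch C q n h g S (fun 𝔪 hmax hex => ?_)
  obtain ⟨br, s, hs, hu, heq⟩ := hpt 𝔪 hmax hex
  obtain ⟨c, hc⟩ := heq br
  exact ll C q n h g S 𝔪 hmax br s hs hu c hc

end Fermat.Agent.S36.NU.H16
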