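import Fermat.Agent.S36.NU.H16_Reg

/-!
# S36 / NU-B, local side of TI3 (helper16): local equation data at the points with one branch

`LocEq.single` : at a closed point `𝔪` on the component `i`, a local equation datum from
* a uniformizer `x ∈ B` of `V i` (`hunif`), of multiplicity `e` (`q W₂ = x ^ e W'`),
* `W₂, W' ∈ B ∖ 𝔪`, `W' ∈ q V i'` for the other components `i'` (a witness that the other
  components do not pass through `𝔪`).
Moreover `i` is the only branch through `𝔪`.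

Modular use (level `q² M'`): `x = q`, `e = 1`, `W₂ = W'` on `C₂₀`, `C₀₂`
(`W'` a modular unit `Δ(qτ) / Δ(q²τ)`, ... times a power of `j`); `x = u'' - u`, `e = q - 1` on `C₁₁`.
-/

set_option autoImplicit false

noncomputable section

namespace Fermat.Agent.S36.NU.H16

variable {R F k ι : Type*} {κ : ι → Type*} [CommRing R] [Field F] [Algebra R F]
  [Field k] [∀ i, Field (κ i)] [∀ i, Algebra k (κ i)]

/-- The witness `W'` shows that `i` is the only branch through `𝔪`. -/
theorem only_branch (C : Chart R F k ι κ) (q : R)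
    (hqV : ∀ i, algebraMap R F q ∈ (C.V i).nonunits)
    (𝔪 : Ideal C.B) (i : ι) (W' : C.B) (hW' : W' ∉ 𝔪)
    (hW'v : ∀ i', i' ≠ i → ∃ f' ∈ C.V i', (W' : F) = algebraMap R F q * f') :
    ∀ i', C.Icomp i' ≤ 𝔪 → i' = i := by
  intro i' hi'
  by_contra hne
  obtain ⟨f', hf', hWf⟩ := hW'v i' hne
  apply hW'
  apply hi'
  rw [C.mem_Icomp, ← C.rd_coe, C.rd_eq_zero_iff i' (C.B_le i' _ W'.2), hWf,
    ValuationSubring.mem_nonunits_iff, map_mul]
  have h1 := (ValuationSubring.mem_nonunits_iff _).1 (hqV i')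
  have h2 : (C.V i').valuation f' ≤ 1 := ((C.V i').valuation_le_one_iff _).2 hf'
  calc (C.V i').valuation (algebraMap R F q) * (C.V i').valuation f'
      ≤ (C.V i').valuation (algebraMap R F q) * 1 := by gcongr
    _ < 1 := by rwa [mul_one]

/-- **Local equation datum at a point with one branch.** -/
theorem LocEq.single [Fintype ι] [DecidableEq ι] (C : Chart R F k ι κ) (q : R)
    (hq0 : algebraMap R F q ≠ 0)
    (hqV : ∀ i, algebraMap R F q ∈ (C.V i).nonunits)
    (hVALQ : ∀ β : C.B, (∀ i, ∃ f' ∈ C.V i, (β : F) = algebraMap R F q * f') →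
      ∃ β' : C.B, β = algebraMap R C.B q * β')
    (𝔪 : Ideal C.B) [h𝔪 : 𝔪.IsPrime] (i : ι) (hi : C.Icomp i ≤ 𝔪)
    (x : C.B) (e : ℕ) (he : 0 < e) (W₂ W' : C.B) (hW₂ : W₂ ∉ 𝔪) (hW' : W' ∉ 𝔪)
    (hx : x ∈ C.Icomp i)
    (hunif : ∀ f ∈ C.Icomp i, ∃ f' ∈ C.V i, (f : F) = (x : F) * f')
    (heq : algebraMap R C.B q * W₂ = x ^ e * W')
    (hW'v : ∀ i', i' ≠ i → ∃ f' ∈ C.V i', (W' : F) = algebraMap R F q * f') :
    Nonempty (LocEq C q 𝔪) ∧ ∀ i', C.Icomp i' ≤ 𝔪 → i' = i := by
  have honly := only_branch C q hqV 𝔪 i W' hW' hW'v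
  refine ⟨?_, honly⟩
  have hW'0 : W' ≠ 0 := fun h0 => hW' (h0 ▸ 𝔪.zero_mem)
  have hW₂0 : W₂ ≠ 0 := fun h0 => hW₂ (h0 ▸ 𝔪.zero_mem)
  have hq0' : algebraMap R C.B q ≠ 0 := by
    intro h0
    apply hq0
    have : ((algebraMap R C.B q : C.B) : F) = 0 := by rw [h0]; rfl
    exact this
  have hx0 : x ≠ 0 := by
    rintro rfl
    rw [zero_pow he.ne', zero_mul] at heq
    rcases mul_eq_zero.1 heq with h1 | h1
    · exact hq0' h1
    · exact hW₂0 h1
  set X : ι → C.B := fun i' => if i' = i then x else W' with hX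
  set E : ι → ℕ := fun i' => if i' = i then e else 1 with hE
  have hXi : X i = x := by simp [hX]
  have hEi : E i = e := by simp [hE]
  have hXne : ∀ i', i' ≠ i → X i' = W' := fun i' h => by simp [hX, h]
  have hEne : ∀ i', i' ≠ i → E i' = 1 := fun i' h => by simp [hE, h]
  have hprod : ∏ i', X i' ^ E i' = x ^ e * W' ^ (Fintype.card ι - 1) := by
    rw [← Finset.mul_prod_erase Finset.univ _ (Finset.mem_univ i), hXi, hEi]
    congr 1
    rw [Finset.prod_congr rfl (fun i' hi' => by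
      rw [hXne i' (Finset.ne_of_mem_erase hi'), hEne i' (Finset.ne_of_mem_erase hi'), pow_one]),
      Finset.prod_const, Finset.card_erase_of_mem (Finset.mem_univ i), Finset.card_univ]
  refine ⟨LocEq.ofVal C q hq0 hVALQ 𝔪 X E (W₂ * W' ^ (Fintype.card ι - 1)) W' ?_ hW' ?_ ?_ ?_ ?_
    ?_ ?_ ?_⟩
  · intro hmem
    rcases h𝔪.mem_or_mem hmem with h1 | h1
    · exact hW₂ h1
    · exact hW' (h𝔪.mem_of_pow_mem _ h1)
  · intro i'
    by_cases hi' : i' = i
    · rw [hi', hXi]
      exact hx0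
    · rw [hXne i' hi']
      exact hW'0
  · intro i' hi'
    rw [honly i' hi', hXi]
    exact hx
  · intro i' hi'
    have hne : i' ≠ i := fun h => hi' (h ▸ hi)
    rw [hXne i' hne]
    exact hW'
  · rw [hprod, ← mul_assoc, heq]
    ring
  · intro i'
    by_cases hi' : i' = i
    · subst hi'
      rw [hXi, hEi]
      have hrd : C.rd i' (W' : F) ≠ 0 := by
        rw [C.rd_coe]
        exact fun h0 => hW' (hi ((C.mem_Icomp i' W').2 h0))
      refine ⟨(W₂ : F) * (W' : F)⁻¹, mul_mem (C.B_le i' _ W₂.2) (C.inv_mem_of_rd_ne_zero i' hrd), ?_⟩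
      have h1 : ((algebraMap R C.B q * W₂ : C.B) : F) = ((x ^ e * W' : C.B) : F) := by rw [heq]
      push_cast at h1
      have hW'F : (W' : F) ≠ 0 := fun h0 => hW'0 (Subtype.ext h0)
      rw [← mul_assoc, h1, mul_assoc, mul_inv_cancel₀ hW'F, mul_one]
    · rw [hXne i' hi', hEne i' hi', pow_one]
      exact hW'v i' hi'
  · intro i' hi'
    rw [honly i' hi', hEi]
    exact he
  · intro i' hi' f hf
    have h1 := honly i' hi'
    subst h1
    rw [hXi]
    exact hunif f hf

end Fermat.Agent.S36.NU.H16
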