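import Fermat.Agent.S36.NU.H16_Reg
import Fermat.Agent.S36.NU.H99_LocEqAbs
import Fermat.Agent.S36.NU.H10_Eis

/-!
# S36 / NU-B, leaf LOCEQ-SS, abstract part (helper16): the local equation at a triple point

`C : Chart R F k ι κ`.  The chart criterion `crit` (helper17 `mem_B_of_forall_mem`): `B` is cut
out of a ring `H ∋ q⁻¹` (the integral closure of `K[j]`) by the valuations `V i`.

* `valq_of_crit` : `(VALQ)`  `B ∩ ⋂ q V i = q B`;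
* `exists_W_of_crit` : if `t i ^ e i ∈ q V i` for all `i` then `∏ t i ^ e i = q W` with `W ∈ B`;
* `pow_mem_of_val`, `unif_of_val` : `hpow`, `hunif` of `LocEq.ofVal` from the valuations of the
  `t i` (`v_i (q) = v_i (t i) ^ e i`, `v_i (t i) < 1` generates the value group of `V i`);
* `LocEq.nonempty_of_unif` : **the local equation datum** `q W = ∏ t i ^ e i` at a closed point
  `𝔪` with `W ∉ 𝔪` (at a supersingular point: `t = (t₂₀, t₁₁, t₀₂)`, `e = (1, q - 1, 1)`;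
  the Kronecker polynomial is not needed: `W := t₂₀ t₁₁ ^ (q - 1) t₀₂ / q`);
* `locEq_ss_coord` : **LOCEQ-SS from a coordinate** (N5): `u`, `u''` in `B`,
  `t₂₀ = u ^ q² - u'' = q d₂` in `V₂₀`, `t₁₁ = u'' - u`, `t₀₂ = u'' ^ q² - u`,
  `rd₂₀ u - c` a local coordinate at the place `z` of the component `C₂₀`, `c ∈ 𝔽_{q²}`,
  `ord_z (rd₂₀ d₂) = - q` (POLE)  ⟹  all components pass through the point `𝔪_z` of the chart
  and there is a local equation datum at `𝔪_z` (via helper99 `locEq_ss`, helper10 `eis_ord`).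
-/

set_option autoImplicit false

noncomputable section

namespace Fermat.Agent.S36.NU.H16

variable {R F k ι : Type*} {κ : ι → Type*} [CommRing R] [Field F] [Algebra R F]
  [Field k] [∀ i, Field (κ i)] [∀ i, Algebra k (κ i)]

/-- `(VALQ)` from the chart criterion. -/
theorem valq_of_crit (C : Chart R F k ι κ) (q : R) (hq0 : algebraMap R F q ≠ 0)
    (H : Subring F) (hBH : ∀ x ∈ C.B, x ∈ H) (hqH : (algebraMap R F q)⁻¹ ∈ H)
    (crit : ∀ f ∈ H, (∀ i, f ∈ C.V i) → f ∈ C.B) :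
    ∀ β : C.B, (∀ i, ∃ f' ∈ C.V i, (β : F) = algebraMap R F q * f') →
      ∃ β' : C.B, β = algebraMap R C.B q * β' := by
  intro β hβ
  have hf : (β : F) * (algebraMap R F q)⁻¹ ∈ C.B := by
    refine crit _ (mul_mem (hBH _ β.2) hqH) fun i => ?_
    obtain ⟨f', hf', e⟩ := hβ i
    have : (β : F) * (algebraMap R F q)⁻¹ = f' := by
      rw [e, mul_comm (algebraMap R F q) f', mul_assoc, mul_inv_cancel₀ hq0, mul_one]
    rw [this]
    exact hf'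
  refine ⟨⟨_, hf⟩, Subtype.ext ?_⟩
  change (β : F) = algebraMap R F q * ((β : F) * (algebraMap R F q)⁻¹)
  rw [mul_comm (β : F), ← mul_assoc, mul_inv_cancel₀ hq0, one_mul]

/-- The unit `W` of the local equation: `∏ t i ^ e i = q W`. -/
theorem exists_W_of_crit [Fintype ι] [DecidableEq ι] (C : Chart R F k ι κ) (q : R)
    (hq0 : algebraMap R F q ≠ 0)
    (H : Subring F) (hBH : ∀ x ∈ C.B, x ∈ H) (hqH : (algebraMap R F q)⁻¹ ∈ H)
    (crit : ∀ f ∈ H, (∀ i, f ∈ C.V i) → f ∈ C.B) (t : ι → C.B) (e : ι → ℕ)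
    (hpow : ∀ i, ∃ f' ∈ C.V i, ((t i : F)) ^ e i = algebraMap R F q * f') :
    ∃ W : C.B, algebraMap R C.B q * W = ∏ i, t i ^ e i := by
  refine valq_of_crit C q hq0 H hBH hqH crit (∏ i, t i ^ e i) (fun i => ?_) |>.imp
    fun W hW => hW.symm
  obtain ⟨f', hf', e'⟩ := hpow i
  refine ⟨f' * ((∏ i' ∈ Finset.univ.erase i, t i' ^ e i' : C.B) : F),
    mul_mem hf' (C.B_le i _ (Subtype.mem _)), ?_⟩
  rw [← Finset.mul_prod_erase Finset.univ _ (Finset.mem_univ i)]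
  change ((t i : F)) ^ e i * ((∏ i' ∈ Finset.univ.erase i, t i' ^ e i' : C.B) : F) = _
  rw [e', mul_assoc]

/-- `hpow` of `LocEq.ofVal` from the valuations. -/
theorem pow_mem_of_val (V : ValuationSubring F) {qF t : F} (hq0 : qF ≠ 0) {e : ℕ}
    (hq : V.valuation qF = V.valuation t ^ e) :
    ∃ f' ∈ V, t ^ e = qF * f' := by
  refine ⟨t ^ e * qF⁻¹, ?_, ?_⟩
  · rw [← ValuationSubring.valuation_le_one_iff, map_mul, map_pow, map_inv₀, ← hq,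
      mul_inv_cancel₀ ((Valuation.ne_zero_iff _).2 hq0)]
  · rw [mul_comm (t ^ e), ← mul_assoc, mul_inv_cancel₀ hq0, one_mul]

/-- `hunif` of `LocEq.ofVal` from the valuations: a uniformizer divides every non-unit. -/
theorem unif_of_val (V : ValuationSubring F) {t : F} (ht0 : t ≠ 0) (ht : V.valuation t < 1)
    (hD : ∀ x : F, x ≠ 0 → ∃ m : ℤ, V.valuation x = V.valuation t ^ m) {f : F}
    (hf : V.valuation f < 1) : ∃ f' ∈ V, f = t * f' := by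
  by_cases hf0 : f = 0
  · exact ⟨0, zero_mem _, by rw [hf0, mul_zero]⟩
  obtain ⟨m, hm⟩ := hD f hf0
  have hv0 : V.valuation t ≠ 0 := (Valuation.ne_zero_iff _).2 ht0
  have hm1 : 1 ≤ m := by
    by_contra hlt
    have hm0 : m ≤ 0 := by omega
    have h1 : (1 : V.ValueGroup) ≤ V.valuation t ^ m := by
      obtain ⟨n, rfl⟩ : ∃ n : ℕ, m = -(n : ℤ) := ⟨(-m).toNat, by omega⟩
      rw [zpow_neg, zpow_natCast]
      exact (one_le_inv₀ (zero_lt_iff.2 (pow_ne_zero _ hv0))).2 (pow_le_one₀ zero_le ht.le)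
    rw [← hm] at h1
    exact absurd hf (not_lt.2 h1)
  refine ⟨f * t⁻¹, ?_, ?_⟩
  · rw [← ValuationSubring.valuation_le_one_iff, map_mul, map_inv₀, hm]
    obtain ⟨n, rfl⟩ : ∃ n : ℕ, m = (n : ℤ) + 1 := ⟨(m - 1).toNat, by omega⟩
    rw [zpow_add₀ hv0, zpow_one, mul_assoc, mul_inv_cancel₀ hv0, mul_one, zpow_natCast]
    exact pow_le_one₀ zero_le ht.le
  · rw [mul_comm f, ← mul_assoc, mul_inv_cancel₀ ht0, one_mul]

/-- **The local equation datum at a closed point** from uniformizers `t i` of the components: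
`q W = ∏ t i ^ e i` with `W ∉ 𝔪`. -/
theorem LocEq.nonempty_of_unif [Fintype ι] [DecidableEq ι] (C : Chart R F k ι κ) (q : R)
    (hq0 : algebraMap R F q ≠ 0)
    (H : Subring F) (hBH : ∀ x ∈ C.B, x ∈ H) (hqH : (algebraMap R F q)⁻¹ ∈ H)
    (crit : ∀ f ∈ H, (∀ i, f ∈ C.V i) → f ∈ C.B)
    (𝔪 : Ideal C.B) (h𝔪 : 𝔪 ≠ ⊤) (t : ι → C.B) (e : ι → ℕ) (he : ∀ i, 0 < e i)
    (hq : ∀ i, (C.V i).valuation (algebraMap R F q) = (C.V i).valuation (t i : F) ^ e i)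
    (ht : ∀ i, (C.V i).valuation (t i : F) < 1)
    (hD : ∀ i, C.Icomp i ≤ 𝔪 → ∀ x : F, x ≠ 0 →
      ∃ m : ℤ, (C.V i).valuation x = (C.V i).valuation (t i : F) ^ m)
    (hxn : ∀ i, ¬ C.Icomp i ≤ 𝔪 → t i ∉ 𝔪)
    (hW : ∀ W : C.B, algebraMap R C.B q * W = ∏ i, t i ^ e i → W ∉ 𝔪) :
    Nonempty (LocEq C q 𝔪) := by
  have ht0 : ∀ i, (t i : F) ≠ 0 := by
    intro i h0
    have := hq i
    rw [h0, map_zero, zero_pow (he i).ne'] at this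
    exact (Valuation.ne_zero_iff _).2 hq0 this
  have hpow : ∀ i, ∃ f' ∈ C.V i, ((t i : F)) ^ e i = algebraMap R F q * f' :=
    fun i => pow_mem_of_val (C.V i) hq0 (hq i)
  obtain ⟨W, hWeq⟩ := exists_W_of_crit C q hq0 H hBH hqH crit t e hpow
  have hmemI : ∀ i (f : C.B), f ∈ C.Icomp i ↔ (C.V i).valuation (f : F) < 1 := by
    intro i f
    rw [C.mem_Icomp, ← C.rd_coe, C.rd_eq_zero_iff i (C.B_le i _ f.2),
      ValuationSubring.mem_nonunits_iff]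
  refine ⟨LocEq.ofVal C q hq0 (valq_of_crit C q hq0 H hBH hqH crit) 𝔪 t e W 1 (hW W hWeq)
    (fun h1 => h𝔪 ((Ideal.eq_top_iff_one 𝔪).2 h1)) (fun i h0 => ht0 i (by rw [h0]; rfl))
    (fun i _ => (hmemI i _).2 (ht i)) hxn (by rw [hWeq, mul_one]) hpow (fun i _ => he i)
    (fun i hi f hf => unif_of_val (C.V i) (ht0 i) (ht i) (hD i hi) ((hmemI i f).1 hf))⟩

/-! ## The triple points from a coordinate -/

section Three

variable {M : Type*} [CommMonoid M] [Fintype ι] [DecidableEq ι]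

theorem univ_eq_of_cases (i₂₀ i₁₁ i₀₂ : ι) (hcases : ∀ i, i = i₂₀ ∨ i = i₁₁ ∨ i = i₀₂) :
    (Finset.univ : Finset ι) = {i₂₀, i₁₁, i₀₂} := by
  ext i
  simp only [Finset.mem_univ, Finset.mem_insert, Finset.mem_singleton, true_iff]
  exact hcases i

theorem prod_of_cases (i₂₀ i₁₁ i₀₂ : ι) (hcases : ∀ i, i = i₂₀ ∨ i = i₁₁ ∨ i = i₀₂)
    (ne₁ : i₂₀ ≠ i₁₁) (ne₂ : i₂₀ ≠ i₀₂) (ne₃ : i₁₁ ≠ i₀₂) (f : ι → M) :
    ∏ i, f i = f i₂₀ * f i₁₁ * f i₀₂ := by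
  rw [univ_eq_of_cases i₂₀ i₁₁ i₀₂ hcases, Finset.prod_insert, Finset.prod_insert,
    Finset.prod_singleton, mul_assoc]
  · simpa using ne₃
  · simp only [Finset.mem_insert, Finset.mem_singleton, not_or]
    exact ⟨ne₁, ne₂⟩

end Three

open AlgebraicCurve Fermat.Agent.RED.H17 in
/-- **LOCEQ-SS from a coordinate** (N5). -/
theorem locEq_ss_coord [Fintype ι] [DecidableEq ι] (C : Chart R F k ι κ) (qR : R) (q : ℕ)
    [hqp : Fact q.Prime] (hq0 : algebraMap R F qR ≠ 0)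
    (hqV : ∀ i, algebraMap R F qR ∈ (C.V i).nonunits)
    (H : Subring F) (hBH : ∀ x ∈ C.B, x ∈ H) (hqH : (algebraMap R F qR)⁻¹ ∈ H)
    (crit : ∀ f ∈ H, (∀ i, f ∈ C.V i) → f ∈ C.B)
    (e : ι → ℕ) (hE : H99.ValE C qR e)
    (i₂₀ i₁₁ i₀₂ : ι) (hcases : ∀ i, i = i₂₀ ∨ i = i₁₁ ∨ i = i₀₂)
    (ne₁ : i₂₀ ≠ i₁₁) (ne₂ : i₂₀ ≠ i₀₂) (ne₃ : i₁₁ ≠ i₀₂)
    (he₂₀ : e i₂₀ = 1) (he₁₁ : e i₁₁ = q - 1) (he₀₂ : e i₀₂ = 1) (hq2 : 2 ≤ q)
    [CharP (κ i₂₀) q] (u u'' : C.B)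
    (d₂ : F) (hd₂V : d₂ ∈ C.V i₂₀)
    (hd₂ : (u : F) ^ q ^ 2 - (u'' : F) = algebraMap R F qR * d₂)
    (h₁₁ : ∃ f' ∈ C.V i₁₁, ((u'' : F) - (u : F)) ^ (q - 1) = algebraMap R F qR * f')
    (h₀₂ : ∃ f' ∈ C.V i₀₂, (u'' : F) ^ q ^ 2 - (u : F) = algebraMap R F qR * f')
    (z : Place k (κ i₂₀)) (c : k)
    (hu : z.ord (C.rdB i₂₀ u - algebraMap k (κ i₂₀) c) = 1) (hc : c ^ q ^ 2 = c)
    (hd : z.ord (C.rd i₂₀ d₂) = -(q : ℤ))
    (𝔪 : Ideal C.B) [h𝔪p : 𝔪.IsPrime] (h𝔪 : ∀ β : C.B, β ∈ 𝔪 ↔ VanAt z (C.rdB i₂₀ β)) :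
    (∀ i, C.Icomp i ≤ 𝔪) ∧ Nonempty (LocEq C qR 𝔪) := by
  classical
  set ū : κ i₂₀ := C.rdB i₂₀ u with hū
  -- the three local equations
  set T₂₀ : C.B := u ^ q ^ 2 - u'' with hT₂₀
  set T₁₁ : C.B := u'' - u with hT₁₁
  set T₀₂ : C.B := u'' ^ q ^ 2 - u with hT₀₂
  set t : ι → C.B := fun i => if i = i₂₀ then T₂₀ else if i = i₁₁ then T₁₁ else T₀₂ with ht
  have ht₂₀ : t i₂₀ = T₂₀ := by rw [ht]; exact if_pos rfl
  have ht₁₁ : t i₁₁ = T₁₁ := by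
    rw [ht]
    change (if i₁₁ = i₂₀ then T₂₀ else if i₁₁ = i₁₁ then T₁₁ else T₀₂) = T₁₁
    rw [if_neg ne₁.symm, if_pos rfl]
  have ht₀₂ : t i₀₂ = T₀₂ := by
    rw [ht]
    change (if i₀₂ = i₂₀ then T₂₀ else if i₀₂ = i₁₁ then T₁₁ else T₀₂) = T₀₂
    rw [if_neg ne₂.symm, if_neg ne₃.symm]
  have he : ∀ i, 0 < e i := by
    intro i
    rcases hcases i with rfl | rfl | rfl
    · rw [he₂₀]; exact Nat.one_pos
    · rw [he₁₁]; omega
    · rw [he₀₂]; exact Nat.one_pos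
  have hpow : ∀ i, ∃ f' ∈ C.V i, ((t i : F)) ^ e i = algebraMap R F qR * f' := by
    intro i
    rcases hcases i with rfl | rfl | rfl
    · refine ⟨d₂, hd₂V, ?_⟩
      rw [ht₂₀, he₂₀, pow_one, ← hd₂]
      rfl
    · obtain ⟨f', hf', hff'⟩ := h₁₁
      refine ⟨f', hf', ?_⟩
      rw [ht₁₁, he₁₁, ← hff']
      rfl
    · obtain ⟨f', hf', hff'⟩ := h₀₂
      refine ⟨f', hf', ?_⟩
      rw [ht₀₂, he₀₂, pow_one, ← hff']
      rfl
  obtain ⟨W, hWeq⟩ := exists_W_of_crit C qR hq0 H hBH hqH crit t e hpow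
  -- the residues on the component `C₂₀`
  have hrdT₂₀ : C.rdB i₂₀ T₂₀ = 0 := by
    rw [← C.mem_Icomp, H99.mem_Icomp_iff_nonunits]
    have : ((T₂₀ : C.B) : F) = algebraMap R F qR * d₂ := by rw [← hd₂]; rfl
    rw [this]
    exact H99.mem_nonunits_of_mul (C.V i₂₀) (hqV i₂₀) hd₂V
  have hu'' : C.rdB i₂₀ u'' = ū ^ q ^ 2 := by
    have := hrdT₂₀
    rw [hT₂₀, map_sub, map_pow, sub_eq_zero] at this
    exact this.symm
  have hrdT₁₁ : C.rdB i₂₀ T₁₁ = ū ^ q ^ 2 - ū := by rw [hT₁₁, map_sub, hu'']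
  have hrdT₀₂ : C.rdB i₂₀ T₀₂ = ū ^ q ^ 4 - ū := by
    rw [hT₀₂, map_sub, map_pow, hu'', ← pow_mul, ← pow_add]
  have hc4 : c ^ q ^ 4 = c := by
    have : q ^ 4 = q ^ 2 * q ^ 2 := by ring
    rw [this, pow_mul, hc, hc]
  have ho₁₁ : z.ord (ū ^ q ^ 2 - ū) = 1 :=
    H10.ord_frob_sub q z ū c hu (by norm_num) hc
  have ho₀₂ : z.ord (ū ^ q ^ 4 - ū) = 1 :=
    H10.ord_frob_sub q z ū c hu (by norm_num) hc4
  -- the `t i` vanish at the point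
  have htm : ∀ i, t i ∈ 𝔪 := by
    intro i
    rw [h𝔪]
    rcases hcases i with rfl | rfl | rfl
    · rw [ht₂₀, hrdT₂₀]; exact vanAt_zero z
    · rw [ht₁₁, hrdT₁₁]; exact vanAt_of_ord_pos (by rw [ho₁₁]; exact one_pos)
    · rw [ht₀₂, hrdT₀₂]; exact vanAt_of_ord_pos (by rw [ho₀₂]; exact one_pos)
  -- `W` is a unit at the point
  have hWF : (W : F) = d₂ * (T₁₁ : F) ^ (q - 1) * (T₀₂ : F) := by
    apply mul_left_cancel₀ hq0
    have h1 : ((algebraMap R C.B qR * W : C.B) : F) = ((∏ i, t i ^ e i : C.B) : F) := by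
      rw [hWeq]
    rw [prod_of_cases i₂₀ i₁₁ i₀₂ hcases ne₁ ne₂ ne₃, ht₂₀, ht₁₁, ht₀₂, he₂₀, he₁₁, he₀₂,
      pow_one, pow_one] at h1
    have h2 : ((algebraMap R C.B qR * W : C.B) : F) = algebraMap R F qR * (W : F) := rfl
    have h3 : ((T₂₀ * T₁₁ ^ (q - 1) * T₀₂ : C.B) : F)
        = (T₂₀ : F) * (T₁₁ : F) ^ (q - 1) * (T₀₂ : F) := rfl
    have h4 : (T₂₀ : F) = algebraMap R F qR * d₂ := by rw [← hd₂]; rfl
    rw [← h2, h1, h3, h4]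
    ring
  have hrdW : C.rdB i₂₀ W = C.rd i₂₀ d₂ * (ū ^ q ^ 2 - ū) ^ (q - 1) * (ū ^ q ^ 4 - ū) := by
    rw [← C.rd_coe, hWF, C.rd_mul i₂₀ (mul_mem hd₂V (pow_mem (C.B_le _ _ T₁₁.2) _))
      (C.B_le _ _ T₀₂.2), C.rd_mul i₂₀ hd₂V (pow_mem (C.B_le _ _ T₁₁.2) _),
      C.rd_pow i₂₀ (C.B_le _ _ T₁₁.2), C.rd_coe, C.rd_coe, hrdT₁₁, hrdT₀₂]
  have hWm : W ∉ 𝔪 := by
    rw [h𝔪, hrdW, vanAt_iff_ord]
    have h0 := H10.eis_ord q z ū (C.rd i₂₀ d₂) c hu hc hd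
    have hd0 : C.rd i₂₀ d₂ ≠ 0 := by
      intro h
      rw [h, Place.ord_zero] at hd
      have : (0 : ℤ) < q := by exact_mod_cast hqp.out.pos
      omega
    have h20 : ū ^ q ^ 2 - ū ≠ 0 := by
      intro h
      rw [h, Place.ord_zero] at ho₁₁
      exact absurd ho₁₁ (by norm_num)
    have h40 : ū ^ q ^ 4 - ū ≠ 0 := by
      intro h
      rw [h, Place.ord_zero] at ho₀₂
      exact absurd ho₀₂ (by norm_num)
    rintro (h | h)
    · exact mul_ne_zero (mul_ne_zero hd0 (pow_ne_zero _ h20)) h40 h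
    · rw [h0] at h
      exact lt_irrefl _ h
  exact H99.locEq_ss C qR e hE hq0 hqV (valq_of_crit C qR hq0 H hBH hqH crit) 𝔪 he t W hWm htm
    hWeq hpow

end Fermat.Agent.S36.NU.H16
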