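import Fermat.Agent.S36.NU.H16_LocEqSS
import Fermat.Agent.S36.NU.H16_Unif3

/-!
# S36 / NU-B, leaf LOCEQ-SS, modular valuations (helper16)

`C` a chart over `F = L0 A (M q²)` whose three valuation rings are `V20o`, `V11o`, `V02o`
(helper23), `f ∈ F_M` a coordinate with integral expansion `u₀`, `u = incAA f`, `u'' = incBB f`
in `B`.  Then the hypotheses `hd₂`, `h₁₁`, `h₀₂` of `locEq_ss_coord` hold (UNIF3-MOD), and

* `locEq_ss_modV` : at a place `z` of the component `C₂₀` at which `rd u - c` is a local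
  coordinate, `c ∈ 𝔽_{q²}` and `rd (t₂₀ / q)` has a pole of order `q` (POLE: helper73, helper44),
  all components pass through the point `𝔪_z` and there is a local equation datum at `𝔪_z`.
-/

set_option autoImplicit false
set_option synthInstance.maxHeartbeats 400000
set_option maxHeartbeats 1000000
set_option linter.unusedSectionVars false
set_option linter.style.haveILetI false

noncomputable section

namespace Fermat.Agent.S36.NU.H16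

open Fermat.Agent.S24 Fermat.Agent.BAD.H88 ModularCurve AlgebraicCurve
open Fermat.Agent.S28 Fermat.Agent.S28.H73 Fermat.Agent.RED.H73 Fermat.Agent.RED.H17
open Fermat.Agent.S36.NU.H88 Fermat.Agent.S36.NU.H23

section SSMod

variable (A : ValuationSubring Kbar)
variable (q M : ℕ) (B k : ℤ) (hB : B * M + k * q = 1) (hq : q.Prime) [NeZero M] [NeZero q]
  [NeZero (M * q * q)]

variable {R k' ι : Type*} {κ : ι → Type*} [CommRing R] [Algebra R ↥(L0 A (M * q * q))]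
  [Field k'] [∀ i, Field (κ i)] [∀ i, Algebra k' (κ i)]

/-- `u = incAA f` as an inertia-fixed function. -/
def uo (f : FN M) (u₀ : LaurentSeries ℤ)
    (hf : (f : LaurentSeries Kbar) = H65.intSer Kbar u₀) : ↥(L0 A (M * q * q)) :=
  ⟨incAA q M f, incAA_mem_L0_of_int A q M f u₀ hf⟩

/-- `u'' = incBB f` as an inertia-fixed function. -/
def u2o (f : FN M) (u₀ : LaurentSeries ℤ)
    (hf : (f : LaurentSeries Kbar) = H65.intSer Kbar u₀) : ↥(L0 A (M * q * q)) :=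
  ⟨incBB q M f, incBB_mem_L0_of_int A q M f u₀ hf⟩

theorem t20o_eq_sub (f : FN M) (u₀ : LaurentSeries ℤ)
    (hf : (f : LaurentSeries Kbar) = H65.intSer Kbar u₀) :
    t20o A q M f u₀ hf = u2o A q M f u₀ hf - uo A q M f u₀ hf ^ q ^ 2 := rfl

theorem t11o_eq_sub (f : FN M) (u₀ : LaurentSeries ℤ)
    (hf : (f : LaurentSeries Kbar) = H65.intSer Kbar u₀) :
    t11o A q M f u₀ hf = u2o A q M f u₀ hf - uo A q M f u₀ hf := rfl

theorem t02o_eq_sub (f : FN M) (u₀ : LaurentSeries ℤ)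
    (hf : (f : LaurentSeries Kbar) = H65.intSer Kbar u₀) :
    t02o A q M f u₀ hf = uo A q M f u₀ hf - u2o A q M f u₀ hf ^ q ^ 2 := rfl

include hB hq in
/-- `t₀₂ ∈ q V₀₂` (transport of `t₂₀ = q d₂₀` by `W_{q²}`). -/
theorem t02o_div_mem (f : FN M) (u₀ : LaurentSeries ℤ)
    (hf : (f : LaurentSeries Kbar) = H65.intSer Kbar u₀) :
    ∃ f' ∈ V02o A q M B k hB,
      t02o A q M f u₀ hf = ((q : ℕ) : ↥(L0 A (M * q * q))) * f' := by
  have hq0 : ((q : ℕ) : ↥(L0 A (M * q * q))) ≠ 0 := by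
    intro h0
    have := congrArg (fun x : ↥(L0 A (M * q * q)) => (x : FN (M * q * q))) h0
    simp only [coe_natCast_L0] at this
    exact natCast_ne_zero_FN q M hq this
  refine ⟨((q : ℕ) : ↥(L0 A (M * q * q)))⁻¹ * t02o A q M f u₀ hf, ?_, ?_⟩
  · rw [mem_V02o_iff]
    have e : wS q M B k hB ((((q : ℕ) : ↥(L0 A (M * q * q)))⁻¹ * t02o A q M f u₀ hf :
        ↥(L0 A (M * q * q))) : FN (M * q * q)) = d20 q M f := by
      have h1 : (((((q : ℕ) : ↥(L0 A (M * q * q)))⁻¹ * t02o A q M f u₀ hf :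
          ↥(L0 A (M * q * q))) : FN (M * q * q)))
          = (algebraMap Kbar (FN (M * q * q)) (q : Kbar))⁻¹ * t02 q M f := by
        rw [← coe_natCast_L0 A q M]
        rfl
      rw [h1, map_mul, map_inv₀, AlgEquiv.commutes, wS_t02 q M B k hB hq, d20]
    rw [e]
    exact d20_mem_V20 A q M hq f u₀ hf
  · rw [← mul_assoc, mul_inv_cancel₀ hq0, one_mul]

include hB hq in
/-- **LOCEQ-SS on the modular valuations.** -/
theorem locEq_ss_modV [Fintype ι] [DecidableEq ι]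
    (C : Chart R ↥(L0 A (M * q * q)) k' ι κ) (qR : R)
    (hqR : algebraMap R ↥(L0 A (M * q * q)) qR = ((q : ℕ) : ↥(L0 A (M * q * q))))
    (hA : (q : Kbar) ∈ A.nonunits)
    (hqV : ∀ i, algebraMap R ↥(L0 A (M * q * q)) qR ∈ (C.V i).nonunits)
    (H : Subring ↥(L0 A (M * q * q))) (hBH : ∀ x ∈ C.B, x ∈ H)
    (hqH : (algebraMap R ↥(L0 A (M * q * q)) qR)⁻¹ ∈ H)
    (crit : ∀ f ∈ H, (∀ i, f ∈ C.V i) → f ∈ C.B)
    (e : ι → ℕ) (hE : H99.ValE C qR e)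
    (i₂₀ i₁₁ i₀₂ : ι) (hcases : ∀ i, i = i₂₀ ∨ i = i₁₁ ∨ i = i₀₂)
    (ne₁ : i₂₀ ≠ i₁₁) (ne₂ : i₂₀ ≠ i₀₂) (ne₃ : i₁₁ ≠ i₀₂)
    (he₂₀ : e i₂₀ = 1) (he₁₁ : e i₁₁ = q - 1) (he₀₂ : e i₀₂ = 1)
    (hV20 : C.V i₂₀ = V20o A q M) (hV11 : C.V i₁₁ = V11o A q M B k hB hq)
    (hV02 : C.V i₀₂ = V02o A q M B k hB)
    [CharP (κ i₂₀) q]
    (f : FN M) (u₀ : LaurentSeries ℤ) (hf : (f : LaurentSeries Kbar) = H65.intSer Kbar u₀)
    (hθ : H65.ThetaNZ q (coeffMap (Int.castRingHom (kV A)) u₀))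
    (huB : uo A q M f u₀ hf ∈ C.B) (hu2B : u2o A q M f u₀ hf ∈ C.B)
    (z : Place k' (κ i₂₀)) (c : k')
    (hu : z.ord (C.rd i₂₀ (uo A q M f u₀ hf) - algebraMap k' (κ i₂₀) c) = 1)
    (hc : c ^ q ^ 2 = c)
    (hd : z.ord (C.rd i₂₀ (d20o A q M f u₀ hf)) = -(q : ℤ))
    (𝔪 : Ideal C.B) [𝔪.IsPrime] (h𝔪 : ∀ β : C.B, β ∈ 𝔪 ↔ VanAt z (C.rdB i₂₀ β)) :
    (∀ i, C.Icomp i ≤ 𝔪) ∧ Nonempty (LocEq C qR 𝔪) := by
  haveI : Fact q.Prime := ⟨hq⟩
  have hqL0 : ((q : ℕ) : ↥(L0 A (M * q * q))) ≠ 0 := by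
    intro h0
    have := congrArg (fun x : ↥(L0 A (M * q * q)) => (x : FN (M * q * q))) h0
    simp only [coe_natCast_L0] at this
    exact natCast_ne_zero_FN q M hq this
  have hq0 : algebraMap R ↥(L0 A (M * q * q)) qR ≠ 0 := by rw [hqR]; exact hqL0
  have hdV : d20o A q M f u₀ hf ∈ C.V i₂₀ := by
    rw [hV20]; exact d20o_mem A q M hq f u₀ hf
  refine locEq_ss_coord C qR q hq0 hqV H hBH hqH crit e hE i₂₀ i₁₁ i₀₂ hcases ne₁ ne₂ ne₃
    he₂₀ he₁₁ he₀₂ hq.two_le ⟨uo A q M f u₀ hf, huB⟩ ⟨u2o A q M f u₀ hf, hu2B⟩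
    (-d20o A q M f u₀ hf) (neg_mem hdV) ?_ ?_ ?_ z c ?_ hc ?_ 𝔪 h𝔪
  · -- `u ^ q² - u'' = q (- d₂₀)`
    change uo A q M f u₀ hf ^ q ^ 2 - u2o A q M f u₀ hf = _
    rw [hqR, mul_neg, ← t20o_eq A q M hq f u₀ hf, t20o_eq_sub, neg_sub]
  · -- `(u'' - u) ^ (q - 1) ∈ q V₁₁`
    change ∃ f' ∈ C.V i₁₁, (u2o A q M f u₀ hf - uo A q M f u₀ hf) ^ (q - 1) = _
    rw [← t11o_eq_sub]
    refine pow_mem_of_val (C.V i₁₁) hq0 ?_
    rw [hV11, hqR]
    exact (val_t11o A q M B k hB hq hA f u₀ hf hθ).2.1.symm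
  · -- `u'' ^ q² - u ∈ q V₀₂`
    change ∃ f' ∈ C.V i₀₂, u2o A q M f u₀ hf ^ q ^ 2 - uo A q M f u₀ hf = _
    obtain ⟨f', hf', hff'⟩ := t02o_div_mem A q M B k hB hq f u₀ hf
    refine ⟨-f', ?_, ?_⟩
    · rw [hV02]; exact neg_mem hf'
    · rw [hqR, mul_neg, ← hff', t02o_eq_sub, neg_sub]
  · rw [← C.rd_coe]
    exact hu
  · rw [C.rd_neg i₂₀ hdV, Fermat.Agent.RED.H51.ord_neg]
    exact hd

end SSMod

end Fermat.Agent.S36.NU.H16
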