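import Fermat.Agent.S36.NU.H65_TIAlg

/-!
# S36 / NU-B, local side of TI3 (helper16): definitions

Ring language for ONE chart of the arithmetic surface (used twice: `j` and `j⁻¹`).

* `Chart R F k ι κ` : the coordinate ring `B` (a subalgebra of the function field `F`), the
  valuation rings `V i` of the components of the special fibre (`B ⊆ V i`), their residue maps
  `red i : V i → κ i` and the residue map `res : R → k` on constants.
* `Chart.rd i : F → κ i` : the total residue map (`0` outside `V i`).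
* `Chart.rdB i : B →+* κ i`, `Chart.Icomp i = ker (rdB i)` : the prime ideal of the component `i`.
* `Branch C 𝔪 i` : the branch of the component `i` through the closed point `𝔪` of the chart:
  a valuation ring `O` of `κ i` (the place of the point on the component) with
  `reg`, `van` (`β ∈ 𝔪 ↔ rd β` vanishes at the place), `normal` (the component is normal at the
  point: `(B / I_i)_𝔪 = O`), `arch` (rank one) and `value` (residue field `k`).
* `Chart.Good h n g β` : `β ∈ J`, i.e. there is `s` with `h sⁿ ∈ B` and `rd i s = rd i β * g i`.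
-/

set_option autoImplicit false

noncomputable section

namespace Fermat.Agent.S36.NU.H16

/-- **A chart** of the arithmetic surface with the components of its special fibre. -/
structure Chart (R F k ι : Type*) (κ : ι → Type*) [CommRing R] [Field F] [Algebra R F]
    [Field k] [∀ i, Field (κ i)] [∀ i, Algebra k (κ i)] where
  /-- the coordinate ring of the chart -/
  B : Subalgebra R F
  /-- the valuation rings of the components of the special fibre -/
  V : ι → ValuationSubring F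
  B_le : ∀ (i : ι) (x : F), x ∈ B → x ∈ V i
  /-- the residue maps -/
  red : ∀ i, V i →+* κ i
  red_eq_zero_iff : ∀ (i : ι) (u : V i), red i u = 0 ↔ u ∈ IsLocalRing.maximalIdeal (V i)
  /-- the residue map on constants -/
  res : R →+* k
  res_surj : Function.Surjective res
  red_const : ∀ (i : ι) (r : R) (hr : algebraMap R F r ∈ V i),
    red i ⟨algebraMap R F r, hr⟩ = algebraMap k (κ i) (res r)

namespace Chart

variable {R F k ι : Type*} {κ : ι → Type*} [CommRing R] [Field F] [Algebra R F]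
  [Field k] [∀ i, Field (κ i)] [∀ i, Algebra k (κ i)] (C : Chart R F k ι κ)

open Classical in
/-- The total residue map: `red i` on `V i`, zero elsewhere. -/
def rd (i : ι) (x : F) : κ i := if hx : x ∈ C.V i then C.red i ⟨x, hx⟩ else 0

theorem rd_of_mem (i : ι) {x : F} (hx : x ∈ C.V i) : C.rd i x = C.red i ⟨x, hx⟩ := by
  simp [rd, hx]

theorem rd_of_not_mem (i : ι) {x : F} (hx : x ∉ C.V i) : C.rd i x = 0 := by
  simp [rd, hx]

@[simp] theorem rd_zero (i : ι) : C.rd i 0 = 0 := by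
  rw [C.rd_of_mem i (zero_mem _)]
  exact map_zero (C.red i)

@[simp] theorem rd_one (i : ι) : C.rd i 1 = 1 := by
  rw [C.rd_of_mem i (one_mem _)]
  exact map_one (C.red i)

theorem rd_add (i : ι) {x y : F} (hx : x ∈ C.V i) (hy : y ∈ C.V i) :
    C.rd i (x + y) = C.rd i x + C.rd i y := by
  rw [C.rd_of_mem i hx, C.rd_of_mem i hy, C.rd_of_mem i (add_mem hx hy),
    ← map_add]
  rfl

theorem rd_mul (i : ι) {x y : F} (hx : x ∈ C.V i) (hy : y ∈ C.V i) :
    C.rd i (x * y) = C.rd i x * C.rd i y := by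
  rw [C.rd_of_mem i hx, C.rd_of_mem i hy, C.rd_of_mem i (mul_mem hx hy),
    ← map_mul]
  rfl

theorem rd_neg (i : ι) {x : F} (hx : x ∈ C.V i) : C.rd i (-x) = -C.rd i x := by
  rw [C.rd_of_mem i hx, C.rd_of_mem i (neg_mem hx), ← map_neg]
  rfl

theorem rd_sub (i : ι) {x y : F} (hx : x ∈ C.V i) (hy : y ∈ C.V i) :
    C.rd i (x - y) = C.rd i x - C.rd i y := by
  rw [sub_eq_add_neg, C.rd_add i hx (neg_mem hy), C.rd_neg i hy, sub_eq_add_neg]

theorem rd_pow (i : ι) {x : F} (hx : x ∈ C.V i) (n : ℕ) : C.rd i (x ^ n) = C.rd i x ^ n := by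
  rw [C.rd_of_mem i hx, C.rd_of_mem i (pow_mem hx n), ← map_pow]
  rfl

theorem rd_eq_zero_iff (i : ι) {x : F} (hx : x ∈ C.V i) :
    C.rd i x = 0 ↔ x ∈ (C.V i).nonunits := by
  rw [C.rd_of_mem i hx, C.red_eq_zero_iff, ValuationSubring.mem_nonunits_iff_exists_mem_maximalIdeal]
  constructor
  · intro h
    exact ⟨hx, h⟩
  · rintro ⟨_, h⟩
    exact h

theorem mem_of_rd_ne_zero (i : ι) {x : F} (hx : C.rd i x ≠ 0) : x ∈ C.V i := by
  by_contra h
  exact hx (C.rd_of_not_mem i h)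

/-- If `x ∈ V i` has nonzero residue then `x⁻¹ ∈ V i`. -/
theorem inv_mem_of_rd_ne_zero (i : ι) {x : F} (hx : C.rd i x ≠ 0) : x⁻¹ ∈ C.V i := by
  have hxV := C.mem_of_rd_ne_zero i hx
  by_contra h
  apply hx
  rw [C.rd_eq_zero_iff i hxV, ValuationSubring.mem_nonunits_iff, ← not_le]
  intro h1
  have hx0 : x ≠ 0 := by
    rintro rfl
    exact hx (C.rd_zero i)
  have h2 : (C.V i).valuation x = 1 :=
    le_antisymm ((C.V i).valuation_le_one_iff x |>.2 hxV) h1
  apply h
  rw [← ValuationSubring.valuation_le_one_iff, map_inv₀, h2, inv_one]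

theorem rd_inv (i : ι) {x : F} (hx : C.rd i x ≠ 0) : C.rd i x⁻¹ = (C.rd i x)⁻¹ := by
  have hxV := C.mem_of_rd_ne_zero i hx
  have hiV := C.inv_mem_of_rd_ne_zero i hx
  have hx0 : x ≠ 0 := by
    rintro rfl
    exact hx (C.rd_zero i)
  have h1 : C.rd i x * C.rd i x⁻¹ = 1 := by
    rw [← C.rd_mul i hxV hiV, mul_inv_cancel₀ hx0, C.rd_one]
  exact eq_inv_of_mul_eq_one_right h1

theorem rd_algebraMap (i : ι) (r : R) : C.rd i (algebraMap R F r) = algebraMap k (κ i) (C.res r) := by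
  have h : algebraMap R F r ∈ C.V i := C.B_le i _ (C.B.algebraMap_mem r)
  rw [C.rd_of_mem i h, C.red_const]

/-- `n`-th roots: if `xⁿ ∈ V i` then `x ∈ V i`. -/
theorem mem_of_pow_mem (i : ι) {x : F} {n : ℕ} (hn : 0 < n) (hx : x ^ n ∈ C.V i) : x ∈ C.V i := by
  rw [← ValuationSubring.valuation_le_one_iff] at hx ⊢
  rw [map_pow] at hx
  exact (pow_le_one_iff_of_nonneg zero_le hn.ne').1 hx

/-- The residue map of the component `i` on the coordinate ring. -/
def rdB (i : ι) : C.B →+* κ i where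
  toFun β := C.red i ⟨β.1, C.B_le i _ β.2⟩
  map_one' := map_one (C.red i)
  map_mul' x y := by
    rw [← map_mul]
    rfl
  map_zero' := map_zero (C.red i)
  map_add' x y := by
    rw [← map_add]
    rfl

theorem rd_coe (i : ι) (β : C.B) : C.rd i (β : F) = C.rdB i β :=
  C.rd_of_mem i (C.B_le i _ β.2)

/-- The prime ideal of the component `i`. -/
def Icomp (i : ι) : Ideal C.B := RingHom.ker (C.rdB i)

theorem mem_Icomp (i : ι) (β : C.B) : β ∈ C.Icomp i ↔ C.rdB i β = 0 := RingHom.mem_ker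

instance Icomp_isPrime (i : ι) : (C.Icomp i).IsPrime := RingHom.ker_isPrime _

/-- `β ∈ J`: there is a section `s` (`h sⁿ ∈ B`) whose residues are `rd β * g`. -/
def Good (h : F) (n : ℕ) (g : ∀ i, κ i) (β : C.B) : Prop :=
  ∃ s : F, h * s ^ n ∈ C.B ∧ ∀ i, C.rd i s = C.rdB i β * g i

end Chart

variable {R F k ι : Type*} {κ : ι → Type*} [CommRing R] [Field F] [Algebra R F]
  [Field k] [∀ i, Field (κ i)] [∀ i, Algebra k (κ i)]

/-- **The branch of the component `i` through the closed point `𝔪`.** -/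
structure Branch (C : Chart R F k ι κ) (𝔪 : Ideal C.B) (i : ι) where
  /-- the valuation ring of the point on the component -/
  O : ValuationSubring (κ i)
  reg : ∀ β : C.B, C.rdB i β ∈ O
  van : ∀ β : C.B, β ∈ 𝔪 ↔ C.rdB i β ∈ O.nonunits
  /-- the component is normal at the point -/
  normal : ∀ y ∈ O, ∃ b β : C.B, β ∉ 𝔪 ∧ C.rdB i b = y * C.rdB i β
  /-- rank one -/
  arch : ∀ x ∈ O.nonunits, ∀ y : κ i, y ≠ 0 → ∃ N : ℕ, ∀ M : ℕ, N ≤ M → x ^ M * y⁻¹ ∈ O
  /-- the residue field of the point is `k` -/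
  value : ∀ y ∈ O, ∃ c : k, y - algebraMap k (κ i) c ∈ O.nonunits

/-- Hypotheses on the chart and on `h`, `n`, `g` shared by all statements. -/
structure Setup (C : Chart R F k ι κ) (q n : ℕ) (h : F) (g : ∀ i, κ i) : Prop where
  q_prime : q.Prime
  charq : ∀ i, CharP (κ i) q
  n_pos : 0 < n
  coprime : Nat.Coprime n q
  /-- `B` is closed under `n`-th roots -/
  root : ∀ x : F, x ^ n ∈ C.B → x ∈ C.B
  /-- the components are pairwise distinct -/
  inc : ∀ i i' : ι, i ≠ i' → ∃ τ : C.B, C.rdB i' τ = 0 ∧ C.rdB i τ ≠ 0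
  /-- `h` is a unit at the components and `g` is an `n`-th root of `1 / red h` -/
  root_g : ∀ i, g i ^ n * C.rd i h = 1

/-- **(LL)** the local lemma at a closed point `𝔪` of the chart.
`REG`: `s` is a local generator at `𝔪` (`h sⁿ ∈ B ∖ 𝔪`);
`EQV`: the values of `g i / rd i s` at the point agree on all branches through `𝔪`
(automatic if there is one branch only). -/
def Stmt_LL : Prop :=
  ∀ {R F k ι : Type} {κ : ι → Type} [CommRing R] [Field F] [Algebra R F]
    [Field k] [∀ i, Field (κ i)] [∀ i, Algebra k (κ i)] [Fintype ι]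
    (C : Chart R F k ι κ) (q n : ℕ) (h : F) (g : ∀ i, κ i) (_ : Setup C q n h g)
    (𝔪 : Ideal C.B) (_ : 𝔪.IsMaximal) (br : ∀ i, C.Icomp i ≤ 𝔪 → Branch C 𝔪 i)
    (s : F) (hs : h * s ^ n ∈ C.B) (_ : (⟨h * s ^ n, hs⟩ : C.B) ∉ 𝔪)
    (c : k) (_ : ∀ (i : ι) (hi : C.Icomp i ≤ 𝔪),
      g i * (C.rd i s)⁻¹ - algebraMap k (κ i) c ∈ (br i hi).O.nonunits),
    ∃ β : C.B, β ∉ 𝔪 ∧ C.Good h n g β

/-- **(PATCH)** local sections with the prescribed residues patch to a global one. -/
def Stmt_Patch : Prop :=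
  ∀ {R F k ι : Type} {κ : ι → Type} [CommRing R] [Field F] [Algebra R F]
    [Field k] [∀ i, Field (κ i)] [∀ i, Algebra k (κ i)] [Fintype ι]
    (C : Chart R F k ι κ) (q n : ℕ) (h : F) (g : ∀ i, κ i) (_ : Setup C q n h g)
    (_ : ∀ 𝔪 : Ideal C.B, 𝔪.IsMaximal → (∃ i, C.Icomp i ≤ 𝔪) → ∃ β : C.B, β ∉ 𝔪 ∧ C.Good h n g β),
    ∃ a : F, h * a ^ n ∈ C.B ∧ ∀ i, C.rd i a = g i

/-- **(SEMI)** finitely many closed points have a common local generator
(used to put `h` in good position at the triple points: replace `h` by `h wⁿ`). -/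
def Stmt_Semi : Prop :=
  ∀ {R F : Type} [CommRing R] [Field F] [Algebra R F] (B : Subalgebra R F) (n : ℕ) (_ : 0 < n)
    (_ : ∀ x : F, x ^ n ∈ B → x ∈ B) (h : F) (T : Finset (Ideal B)) (_ : ∀ 𝔪 ∈ T, 𝔪.IsMaximal)
    (_ : ∀ 𝔪 ∈ T, ∃ (s : F) (hs : h * s ^ n ∈ B), (⟨h * s ^ n, hs⟩ : B) ∉ 𝔪),
    ∃ (w : F) (hw : h * w ^ n ∈ B), ∀ 𝔪 ∈ T, (⟨h * w ^ n, hw⟩ : B) ∉ 𝔪

end Fermat.Agent.S36.NU.H16
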