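import Fermat.Agent.S36.NU.H16_LocEq1

/-!
# S36 / NU-B, local side of TI3 (helper16): the main theorem for one chart

`chart_main` : for one chart `C` (coordinate ring `B`, components `V i`), `h` a unit at the
components, `g i` an `n`-th root of `1 / rd i h`, assume

* `(HOR)` : `h` is an `n`-th power times a unit at every valuation ring `≠ F` of `F` containing
  `B` and `1 / q` (the horizontal places);
* at every closed point `𝔪` of the special fibre: the branches (`Branch`), a local equation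
  datum (`LocEq`), and, if there are several branches, `(EQV)` for every local generator.

Then there is `a` with `h aⁿ ∈ B` and `rd i a = g i` for all `i`.
(Proof: `reg_abs` (CA1) gives local generators, `ll` / `ll_single` the local lemma, `patch`.)
-/

set_option autoImplicit false

noncomputable section

namespace Fermat.Agent.S36.NU.H16

variable {R F k ι : Type*} {κ : ι → Type*} [CommRing R] [Field F] [Algebra R F]
  [Field k] [∀ i, Field (κ i)] [∀ i, Algebra k (κ i)]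

/-- **The main local theorem for one chart.** -/
theorem chart_main [Fintype ι] (C : Chart R F k ι κ) [IsNoetherianRing C.B]
    [IsFractionRing C.B F] (qn : ℕ) (q : R) (n : ℕ) (h : F) (g : ∀ i, κ i)
    (S : Setup C qn n h g) (h0 : h ≠ 0)
    (hHOR : ∀ W : ValuationSubring F, (∀ β : C.B, (β : F) ∈ W) → (algebraMap R F q)⁻¹ ∈ W →
      W ≠ ⊤ → ∃ s : F, s ≠ 0 ∧ h * s ^ n ∈ W ∧ (h * s ^ n)⁻¹ ∈ W)
    (hpt : ∀ 𝔪 : Ideal C.B, 𝔪.IsMaximal → (∃ i, C.Icomp i ≤ 𝔪) →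
      (∀ i, C.Icomp i ≤ 𝔪 → Nonempty (Branch C 𝔪 i)) ∧ Nonempty (LocEq C q 𝔪) ∧
      ((∃ i₀, ∀ i, C.Icomp i ≤ 𝔪 → i = i₀) ∨
        ∀ (s : F) (hs : h * s ^ n ∈ C.B), (⟨h * s ^ n, hs⟩ : C.B) ∉ 𝔪 →
          ∀ br : (∀ i, C.Icomp i ≤ 𝔪 → Branch C 𝔪 i), ∃ c : k,
            ∀ (i : ι) (hi : C.Icomp i ≤ 𝔪),
              g i * (C.rd i s)⁻¹ - algebraMap k (κ i) c ∈ (br i hi).O.nonunits)) :
    ∃ a : F, h * a ^ n ∈ C.B ∧ ∀ i, C.rd i a = g i := by
  refine patch C qn n h g S (fun 𝔪 hmax hex => ?_)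
  obtain ⟨hbr, ⟨L⟩, hcase⟩ := hpt 𝔪 hmax hex
  obtain ⟨i₁, hi₁⟩ := hex
  obtain ⟨b₁⟩ := hbr i₁ hi₁
  have hh : ∀ i, h ∈ C.V i ∧ h⁻¹ ∈ C.V i := fun i => ⟨S.h_mem i, S.h_inv_mem i⟩
  obtain ⟨s, hs, hu⟩ := reg_abs C q n S.n_pos h hh h0 𝔪 hmax i₁ b₁ L hHOR
  rcases hcase with ⟨i₀, honly⟩ | heqv
  · have h1 : i₁ = i₀ := honly i₁ hi₁
    subst h1
    exact ll_single C qn n h g S 𝔪 hmax i₁ b₁ honly s hs hu
  · set br : ∀ i, C.Icomp i ≤ 𝔪 → Branch C 𝔪 i := fun i hi => (hbr i hi).some with hbrdef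
    obtain ⟨c, hc⟩ := heqv s hs hu br
    exact ll C qn n h g S 𝔪 hmax br s hs hu c hc

end Fermat.Agent.S36.NU.H16
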