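import Fermat.Agent.S36.NU.H16_LocalDefs

/-!
# S36 / NU-B, local side of TI3 (helper16): PATCH and SEMI

* `Setup.mem_V` : sections (`h sⁿ ∈ B`) are integral at all components.
* `goodIdeal` : `J = {β : Good β}` is an ideal of `B`.
* `stmt_Patch : Stmt_Patch` : if `J` is not contained in any closed point of the special fibre
  then `1 ∈ J`.
* `stmt_Semi : Stmt_Semi` : common local generator at finitely many closed points.
-/

set_option autoImplicit false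

noncomputable section

namespace Fermat.Agent.S36.NU.H16

open Fermat.Agent.S36.NU.H65

variable {R F k ι : Type*} {κ : ι → Type*} [CommRing R] [Field F] [Algebra R F]
  [Field k] [∀ i, Field (κ i)] [∀ i, Algebra k (κ i)]

namespace Setup

variable {C : Chart R F k ι κ} {q n : ℕ} {h : F} {g : ∀ i, κ i}

theorem rd_h_ne_zero (S : Setup C q n h g) (i : ι) : C.rd i h ≠ 0 := by
  intro h0
  have := S.root_g i
  rw [h0, mul_zero] at this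
  exact zero_ne_one this

theorem g_ne_zero (S : Setup C q n h g) (i : ι) : g i ≠ 0 := by
  intro h0
  have := S.root_g i
  rw [h0, zero_pow S.n_pos.ne', zero_mul] at this
  exact zero_ne_one this

theorem h_mem (S : Setup C q n h g) (i : ι) : h ∈ C.V i := C.mem_of_rd_ne_zero i (S.rd_h_ne_zero i)

theorem h_inv_mem (S : Setup C q n h g) (i : ι) : h⁻¹ ∈ C.V i :=
  C.inv_mem_of_rd_ne_zero i (S.rd_h_ne_zero i)

theorem h_ne_zero [Nonempty ι] (S : Setup C q n h g) : h ≠ 0 := by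
  rintro rfl
  exact S.rd_h_ne_zero (Classical.arbitrary ι) (C.rd_zero _)

/-- Sections are integral at all components. -/
theorem mem_V (S : Setup C q n h g) (i : ι) {s : F} (hs : h * s ^ n ∈ C.B) : s ∈ C.V i := by
  apply C.mem_of_pow_mem i S.n_pos
  have h1 : h * s ^ n ∈ C.V i := C.B_le i _ hs
  have h2 : h ≠ 0 := by
    rintro rfl
    exact S.rd_h_ne_zero i (C.rd_zero _)
  have h3 : s ^ n = h⁻¹ * (h * s ^ n) := by
    rw [← mul_assoc, inv_mul_cancel₀ h2, one_mul]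
  rw [h3]
  exact mul_mem (S.h_inv_mem i) h1

end Setup

/-- The ideal `J` of the good elements. -/
def goodIdeal (C : Chart R F k ι κ) (q n : ℕ) (h : F) (g : ∀ i, κ i) (S : Setup C q n h g) :
    Ideal C.B where
  carrier := {β | C.Good h n g β}
  zero_mem' := by
    refine ⟨0, ?_, fun i => ?_⟩
    · rw [zero_pow S.n_pos.ne', mul_zero]
      exact C.B.zero_mem
    · rw [C.rd_zero, map_zero, zero_mul]
  add_mem' := by
    rintro β₁ β₂ ⟨s₁, hs₁, h₁⟩ ⟨s₂, hs₂, h₂⟩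
    refine ⟨s₁ + s₂, ?_, fun i => ?_⟩
    · exact (rootMod C.B h n S.n_pos S.root).add_mem hs₁ hs₂
    · rw [C.rd_add i (S.mem_V i hs₁) (S.mem_V i hs₂), h₁, h₂, map_add, add_mul]
  smul_mem' := by
    rintro b β ⟨s, hs, h₁⟩
    refine ⟨(b : F) * s, ?_, fun i => ?_⟩
    · exact mul_mem_rootMod C.B h n S.n_pos S.root b.2 hs
    · rw [C.rd_mul i (C.B_le i _ b.2) (S.mem_V i hs), h₁, C.rd_coe, smul_eq_mul, map_mul,
        mul_assoc]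

theorem mem_goodIdeal (C : Chart R F k ι κ) (q n : ℕ) (h : F) (g : ∀ i, κ i)
    (S : Setup C q n h g) (β : C.B) : β ∈ goodIdeal C q n h g S ↔ C.Good h n g β := Iff.rfl

/-- **(PATCH)**. -/
theorem patch [Fintype ι] (C : Chart R F k ι κ) (q n : ℕ) (h : F) (g : ∀ i, κ i)
    (S : Setup C q n h g)
    (hloc : ∀ 𝔪 : Ideal C.B, 𝔪.IsMaximal → (∃ i, C.Icomp i ≤ 𝔪) →
      ∃ β : C.B, β ∉ 𝔪 ∧ C.Good h n g β) :
    ∃ a : F, h * a ^ n ∈ C.B ∧ ∀ i, C.rd i a = g i := by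
  classical
  have htop : goodIdeal C q n h g S = ⊤ := by
    by_contra hne
    obtain ⟨𝔪, hmax, hle⟩ := Ideal.exists_le_maximal _ hne
    by_cases hex : ∃ i, C.Icomp i ≤ 𝔪
    · obtain ⟨β, hβ, hgood⟩ := hloc 𝔪 hmax hex
      exact hβ (hle hgood)
    · push Not at hex
      have hch : ∀ i, ∃ β : C.B, β ∈ C.Icomp i ∧ β ∉ 𝔪 := fun i =>
        Set.not_subset.1 (hex i)
      choose τ hτ1 hτ2 using hch
      have hprod : ∏ i, τ i ∉ 𝔪 := by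
        intro hmem
        obtain ⟨i, -, hi⟩ := (Ideal.IsPrime.prod_mem_iff (hp := hmax.isPrime)).1 hmem
        exact hτ2 i hi
      apply hprod
      apply hle
      refine ⟨0, ?_, fun i => ?_⟩
      · rw [zero_pow S.n_pos.ne', mul_zero]
        exact C.B.zero_mem
      · have h0 : C.rdB i (∏ i, τ i) = 0 := by
          rw [map_prod]
          exact Finset.prod_eq_zero (Finset.mem_univ i) ((C.mem_Icomp i _).1 (hτ1 i))
        rw [C.rd_zero, h0, zero_mul]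
  have h1 : (1 : C.B) ∈ goodIdeal C q n h g S := by
    rw [htop]
    exact Submodule.mem_top
  obtain ⟨a, ha, hra⟩ := h1
  refine ⟨a, ha, fun i => ?_⟩
  rw [hra, map_one, one_mul]

theorem stmt_Patch : Stmt_Patch := by
  intro R F k ι κ _ _ _ _ _ _ _ C q n h g S hloc
  exact patch C q n h g S hloc

/-- Two sections: `u s' / s ∈ B` where `u = h sⁿ`. -/
theorem ratio_mem (B : Subalgebra R F) (n : ℕ) (hn : 0 < n)
    (hroot : ∀ x : F, x ^ n ∈ B → x ∈ B) (h : F) {s s' : F} (hs : h * s ^ n ∈ B)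
    (hs' : h * s' ^ n ∈ B) : h * s ^ (n - 1) * s' ∈ B := by
  have := mixed_mem B h n hroot hs hs' (n - 1) 1 (by omega)
  rwa [pow_one] at this

/-- **(SEMI)**: a common local generator at finitely many closed points. -/
theorem semi (B : Subalgebra R F) (n : ℕ) (hn : 0 < n)
    (hroot : ∀ x : F, x ^ n ∈ B → x ∈ B) (h : F) (T : Finset (Ideal B))
    (hT : ∀ 𝔪 ∈ T, 𝔪.IsMaximal)
    (hloc : ∀ 𝔪 ∈ T, ∃ (s : F) (hs : h * s ^ n ∈ B), (⟨h * s ^ n, hs⟩ : B) ∉ 𝔪) :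
    ∃ (w : F) (hw : h * w ^ n ∈ B), ∀ 𝔪 ∈ T, (⟨h * w ^ n, hw⟩ : B) ∉ 𝔪 := by
  classical
  -- local generators
  have hloc' : ∀ 𝔪 : Ideal B, ∃ s : F, h * s ^ n ∈ B ∧
      (𝔪 ∈ T → ∀ hs : h * s ^ n ∈ B, (⟨h * s ^ n, hs⟩ : B) ∉ 𝔪) := by
    intro 𝔪
    by_cases hm : 𝔪 ∈ T
    · obtain ⟨s, hs, h1⟩ := hloc 𝔪 hm
      exact ⟨s, hs, fun _ _ => h1⟩
    · refine ⟨0, ?_, fun h1 => absurd h1 hm⟩
      rw [zero_pow hn.ne', mul_zero]
      exact B.zero_mem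
  choose s hs hsu using hloc'
  -- separating elements
  have hsep : ∀ 𝔪 ∈ T, ∃ e : B, e ∉ 𝔪 ∧ ∀ 𝔪' ∈ T, 𝔪' ≠ 𝔪 → e ∈ 𝔪' := by
    intro 𝔪 hm
    have hmax := hT 𝔪 hm
    have h1 : ∀ 𝔪' ∈ T.erase 𝔪, ∃ x : B, x ∈ 𝔪' ∧ x ∉ 𝔪 := by
      intro 𝔪' hm'
      have hne : 𝔪' ≠ 𝔪 := Finset.ne_of_mem_erase hm'
      have hm'T : 𝔪' ∈ T := Finset.mem_of_mem_erase hm'
      have : ¬ 𝔪' ≤ 𝔪 := fun hle => hne ((hT 𝔪' hm'T).eq_of_le hmax.ne_top hle)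
      exact Set.not_subset.1 this
    choose! x hx1 hx2 using h1
    refine ⟨∏ 𝔪' ∈ T.erase 𝔪, x 𝔪', ?_, ?_⟩
    · intro hmem
      obtain ⟨𝔪', hm', hi⟩ := (Ideal.IsPrime.prod_mem_iff (hp := hmax.isPrime)).1 hmem
      exact hx2 𝔪' hm' hi
    · intro 𝔪' hm' hne
      have hmem : 𝔪' ∈ T.erase 𝔪 := Finset.mem_erase.2 ⟨hne, hm'⟩
      exact Ideal.prod_mem 𝔪' hmem (hx1 𝔪' hmem)
  have hsep' : ∀ 𝔪 : Ideal B, ∃ e : B, 𝔪 ∈ T → (e ∉ 𝔪 ∧ ∀ 𝔪' ∈ T, 𝔪' ≠ 𝔪 → e ∈ 𝔪') := by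
    intro 𝔪
    by_cases hm : 𝔪 ∈ T
    · obtain ⟨e, he⟩ := hsep 𝔪 hm
      exact ⟨e, fun _ => he⟩
    · exact ⟨0, fun h1 => absurd h1 hm⟩
  choose e he using hsep'
  set w : F := ∑ 𝔪 ∈ T, (e 𝔪 : F) * s 𝔪 with hw
  have hwM : w ∈ rootMod B h n hn hroot := by
    rw [hw]
    refine Submodule.sum_mem _ (fun 𝔪 _ => ?_)
    exact mul_mem_rootMod B h n hn hroot (e 𝔪).2 (hs 𝔪)
  have hwB : h * w ^ n ∈ B := hwM
  refine ⟨w, hwB, fun 𝔪 hm habs => ?_⟩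
  have hmax := hT 𝔪 hm
  have hprime := hmax.isPrime
  -- `σ 𝔪' = h s₀ⁿ⁻¹ s 𝔪' ∈ B`
  have hσ : ∀ 𝔪', h * s 𝔪 ^ (n - 1) * s 𝔪' ∈ B := fun 𝔪' =>
    ratio_mem B n hn hroot h (hs 𝔪) (hs 𝔪')
  set ρ : B := ∑ 𝔪' ∈ T, e 𝔪' * ⟨_, hσ 𝔪'⟩ with hρ
  have hρF : (ρ : F) = h * s 𝔪 ^ (n - 1) * w := by
    rw [hρ, hw, Finset.mul_sum]
    push_cast
    refine Finset.sum_congr rfl (fun 𝔪' _ => ?_)
    ring
  -- `ρ ∉ 𝔪`
  have hρ1 : ρ ∉ 𝔪 := by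
    intro hmem
    have hsplit : ρ = e 𝔪 * ⟨_, hσ 𝔪⟩ + ∑ 𝔪' ∈ T.erase 𝔪, e 𝔪' * ⟨_, hσ 𝔪'⟩ := by
      rw [hρ, ← Finset.add_sum_erase T _ hm]
    have hrest : ∑ 𝔪' ∈ T.erase 𝔪, e 𝔪' * (⟨_, hσ 𝔪'⟩ : B) ∈ 𝔪 := by
      refine Ideal.sum_mem _ (fun 𝔪' hm' => ?_)
      have hne : 𝔪 ≠ 𝔪' := (Finset.ne_of_mem_erase hm').symm
      have hm'T : 𝔪' ∈ T := Finset.mem_of_mem_erase hm'
      exact Ideal.mul_mem_right _ _ ((he 𝔪' hm'T).2 𝔪 hm hne)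
    have h1 : e 𝔪 * (⟨_, hσ 𝔪⟩ : B) ∈ 𝔪 := by
      have := Ideal.sub_mem _ hmem hrest
      rwa [hsplit, add_sub_cancel_right] at this
    rcases hprime.mem_or_mem h1 with h2 | h2
    · exact (he 𝔪 hm).1 h2
    · apply hsu 𝔪 hm (hs 𝔪)
      have h3 : (⟨h * s 𝔪 ^ n, hs 𝔪⟩ : B) = ⟨_, hσ 𝔪⟩ := by
        apply Subtype.ext
        show h * s 𝔪 ^ n = h * s 𝔪 ^ (n - 1) * s 𝔪
        obtain ⟨m, rfl⟩ : ∃ m, n = m + 1 := ⟨n - 1, by omega⟩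
        simp only [Nat.add_sub_cancel]
        ring
      rw [h3]
      exact h2
  -- `ρⁿ = uⁿ⁻¹ (h wⁿ)`
  have hpow : ρ ^ n = (⟨h * s 𝔪 ^ n, hs 𝔪⟩ : B) ^ (n - 1) * ⟨h * w ^ n, hwB⟩ := by
    apply Subtype.ext
    push_cast
    rw [hρF]
    obtain ⟨m, rfl⟩ : ∃ m, n = m + 1 := ⟨n - 1, by omega⟩
    simp only [Nat.add_sub_cancel]
    ring
  have h4 : ρ ^ n ∈ 𝔪 := by
    rw [hpow]
    exact Ideal.mul_mem_left _ _ habs
  exact hρ1 (hprime.mem_of_pow_mem n h4)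

theorem stmt_Semi : Stmt_Semi := by
  intro R F _ _ _ B n hn hroot h T hT hloc
  exact semi B n hn hroot h T hT hloc

end Fermat.Agent.S36.NU.H16
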