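import Fermat.Agent.S36.NU.H10_CA1

/-!
# S36 / NU-B, local side of TI3 (helper16): prime elements of a UFD and local `n`-th powers

* `primeVal π hπ : ValuationSubring F` : the valuation ring of the prime element `π` of the UFD
  `B'` in its fraction field `F` (`f = a / b` with `π ∤ b`).
* `ufd_unit_mul_pow` : if for every prime element `π` some `h sⁿ` is a `π`-unit
  (`h sⁿ b = a`, `π ∤ a`, `π ∤ b`) then `h = u sⁿ` with `u` a unit of `B'`.
* `ufd_unit_mul_pow_of_val` : the same with `h sⁿ` a unit of `primeVal π`.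
-/

set_option autoImplicit false

noncomputable section

namespace Fermat.Agent.S36.NU.H16

variable {B' F : Type*} [CommRing B'] [IsDomain B'] [Field F] [Algebra B' F] [IsFractionRing B' F]

/-- The valuation ring of a prime element of a UFD. -/
def primeVal [UniqueFactorizationMonoid B'] (π : B') (hπ : Prime π) : ValuationSubring F where
  carrier := {f | ∃ a b : B', ¬ π ∣ b ∧ f * algebraMap B' F b = algebraMap B' F a}
  mul_mem' := by
    rintro f g ⟨a, b, hb, hf⟩ ⟨a', b', hb', hg⟩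
    refine ⟨a * a', b * b', fun h => ?_, ?_⟩
    · rcases hπ.dvd_or_dvd h with h1 | h1
      · exact hb h1
      · exact hb' h1
    · rw [map_mul, map_mul, ← hf, ← hg]
      ring
  one_mem' := ⟨1, 1, hπ.not_dvd_one, by rw [one_mul]⟩
  add_mem' := by
    rintro f g ⟨a, b, hb, hf⟩ ⟨a', b', hb', hg⟩
    refine ⟨a * b' + a' * b, b * b', fun h => ?_, ?_⟩
    · rcases hπ.dvd_or_dvd h with h1 | h1
      · exact hb h1
      · exact hb' h1
    · rw [map_add, map_mul, map_mul, map_mul, ← hf, ← hg]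
      ring
  zero_mem' := ⟨0, 1, hπ.not_dvd_one, by rw [zero_mul, map_zero]⟩
  neg_mem' := by
    rintro f ⟨a, b, hb, hf⟩
    exact ⟨-a, b, hb, by rw [map_neg, ← hf]; ring⟩
  mem_or_inv_mem' := by
    intro x
    have hinj : Function.Injective (algebraMap B' F) := IsFractionRing.injective B' F
    rcases eq_or_ne x 0 with rfl | hx
    · exact Or.inl ⟨0, 1, hπ.not_dvd_one, by rw [zero_mul, map_zero]⟩
    obtain ⟨a, ⟨b, hb⟩, hab, hmk⟩ := IsFractionRing.exists_reduced_fraction B' x
    have hb0 : b ≠ 0 := nonZeroDivisors.ne_zero hb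
    have hbF : algebraMap B' F b ≠ 0 := (map_ne_zero_iff _ hinj).2 hb0
    have heq : x * algebraMap B' F b = algebraMap B' F a := by
      rw [← hmk]
      exact IsLocalization.mk'_spec F a ⟨b, hb⟩
    by_cases hd : π ∣ b
    · right
      have hda : ¬ π ∣ a := fun h => hπ.not_isUnit (hab h hd)
      refine ⟨b, a, hda, ?_⟩
      rw [← heq]
      field_simp
    · exact Or.inl ⟨a, b, hd, heq⟩

theorem mem_primeVal [UniqueFactorizationMonoid B'] (π : B') (hπ : Prime π) (f : F) :
    f ∈ primeVal (F := F) π hπ ↔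
      ∃ a b : B', ¬ π ∣ b ∧ f * algebraMap B' F b = algebraMap B' F a := Iff.rfl

theorem algebraMap_mem_primeVal [UniqueFactorizationMonoid B'] (π : B') (hπ : Prime π) (a : B') :
    algebraMap B' F a ∈ primeVal (F := F) π hπ :=
  ⟨a, 1, hπ.not_dvd_one, by rw [map_one, mul_one]⟩

theorem inv_mem_primeVal [UniqueFactorizationMonoid B'] (π : B') (hπ : Prime π) {a : B'}
    (ha : ¬ π ∣ a) : (algebraMap B' F a)⁻¹ ∈ primeVal (F := F) π hπ := by
  have hinj : Function.Injective (algebraMap B' F) := IsFractionRing.injective B' F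
  have ha0 : a ≠ 0 := by
    rintro rfl
    exact ha (dvd_zero π)
  have haF : algebraMap B' F a ≠ 0 := (map_ne_zero_iff _ hinj).2 ha0
  exact ⟨1, a, ha, by rw [inv_mul_cancel₀ haF, map_one]⟩

theorem primeVal_ne_top [UniqueFactorizationMonoid B'] (π : B') (hπ : Prime π) :
    primeVal (F := F) π hπ ≠ ⊤ := by
  have hinj : Function.Injective (algebraMap B' F) := IsFractionRing.injective B' F
  intro htop
  have h1 : (algebraMap B' F π)⁻¹ ∈ primeVal (F := F) π hπ := by
    rw [htop]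
    exact ValuationSubring.mem_top _
  obtain ⟨a, b, hb, hf⟩ := h1
  apply hb
  have hπF : algebraMap B' F π ≠ 0 := (map_ne_zero_iff _ hinj).2 hπ.ne_zero
  have h2 : algebraMap B' F b = algebraMap B' F (π * a) := by
    rw [map_mul, ← hf]
    field_simp
  exact ⟨a, hinj h2⟩

/-- A unit of `primeVal π` is a quotient of two elements prime to `π`. -/
theorem exists_of_unit_primeVal [UniqueFactorizationMonoid B'] (π : B') (hπ : Prime π) {f : F}
    (hf : f ∈ primeVal (F := F) π hπ) (hf' : f⁻¹ ∈ primeVal (F := F) π hπ) (hf0 : f ≠ 0) :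
    ∃ a b : B', ¬ π ∣ a ∧ ¬ π ∣ b ∧ f * algebraMap B' F b = algebraMap B' F a := by
  have hinj : Function.Injective (algebraMap B' F) := IsFractionRing.injective B' F
  obtain ⟨a, b, hb, h1⟩ := hf
  obtain ⟨a', b', hb', h2⟩ := hf'
  refine ⟨a, b, fun hda => ?_, hb, h1⟩
  have h3 : algebraMap B' F (a * a') = algebraMap B' F (b * b') := by
    rw [map_mul, map_mul, ← h1, ← h2]
    field_simp
  have h4 : a * a' = b * b' := hinj h3
  have h5 : π ∣ b * b' := h4 ▸ Dvd.dvd.mul_right hda a'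
  rcases hπ.dvd_or_dvd h5 with h6 | h6
  · exact hb h6
  · exact hb' h6

/-- **Local `n`-th powers in a UFD.**  If for every prime element `π` there is `s` such that
`h sⁿ` is a `π`-unit, then `h` is a unit of `B'` times an `n`-th power. -/
theorem ufd_unit_mul_pow [UniqueFactorizationMonoid B'] (n : ℕ) (h : F) (h0 : h ≠ 0)
    (H : ∀ π : B', Prime π → ∃ s : F, s ≠ 0 ∧ ∃ a b : B', ¬ π ∣ a ∧ ¬ π ∣ b ∧
      h * s ^ n * algebraMap B' F b = algebraMap B' F a) :
    ∃ (u : B') (s : F), IsUnit u ∧ h = algebraMap B' F u * s ^ n := by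
  have hinj : Function.Injective (algebraMap B' F) := IsFractionRing.injective B' F
  obtain ⟨a₀, ⟨b₀, hb₀⟩, hab, hmk⟩ := IsFractionRing.exists_reduced_fraction B' h
  have hb0 : b₀ ≠ 0 := nonZeroDivisors.ne_zero hb₀
  have hbF : algebraMap B' F b₀ ≠ 0 := (map_ne_zero_iff _ hinj).2 hb0
  have heq : h * algebraMap B' F b₀ = algebraMap B' F a₀ := by
    rw [← hmk]
    exact IsLocalization.mk'_spec F a₀ ⟨b₀, hb₀⟩
  have ha0 : a₀ ≠ 0 := by
    rintro rfl
    rw [map_zero] at heq
    exact (mul_ne_zero h0 hbF) heq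
  have key : ∀ π : B', Prime π → n ∣ multiplicity π a₀ ∧ n ∣ multiplicity π b₀ := by
    intro π hπ
    obtain ⟨s, hs0, a, b, hda, hdb, hs⟩ := H π hπ
    obtain ⟨c, d, hd, hcd⟩ := IsFractionRing.div_surjective (A := B') s
    have hd0 : d ≠ 0 := nonZeroDivisors.ne_zero hd
    have hdF : algebraMap B' F d ≠ 0 := (map_ne_zero_iff _ hinj).2 hd0
    have hc0 : c ≠ 0 := by
      rintro rfl
      rw [map_zero, zero_div] at hcd
      exact hs0 hcd.symm
    have ha0' : a ≠ 0 := by
      rintro rfl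
      exact hda (dvd_zero π)
    have hb0' : b ≠ 0 := by
      rintro rfl
      exact hdb (dvd_zero π)
    -- `a₀ cⁿ b = a b₀ dⁿ`
    have e1 : a₀ * c ^ n * b = a * b₀ * d ^ n := by
      apply hinj
      rw [map_mul, map_mul, map_pow, map_mul, map_mul, map_pow, ← heq, ← hs, ← hcd, div_pow]
      field_simp
    have hfin : ∀ z : B', z ≠ 0 → FiniteMultiplicity π z := fun z hz =>
      FiniteMultiplicity.of_prime_left hπ hz
    have m1 : multiplicity π (a₀ * c ^ n * b) =
        multiplicity π a₀ + n * multiplicity π c := by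
      rw [multiplicity_mul hπ (hfin _ (mul_ne_zero (mul_ne_zero ha0 (pow_ne_zero _ hc0)) hb0')),
        multiplicity_mul hπ (hfin _ (mul_ne_zero ha0 (pow_ne_zero _ hc0))),
        (hfin c hc0).multiplicity_pow hπ, multiplicity_eq_zero.2 hdb, add_zero]
    have m2 : multiplicity π (a * b₀ * d ^ n) =
        multiplicity π b₀ + n * multiplicity π d := by
      rw [multiplicity_mul hπ (hfin _ (mul_ne_zero (mul_ne_zero ha0' hb0) (pow_ne_zero _ hd0))),
        multiplicity_mul hπ (hfin _ (mul_ne_zero ha0' hb0)),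
        (hfin d hd0).multiplicity_pow hπ, multiplicity_eq_zero.2 hda, zero_add]
    have m3 : multiplicity π a₀ + n * multiplicity π c =
        multiplicity π b₀ + n * multiplicity π d := by
      rw [← m1, ← m2, e1]
    have hnd : ¬ (π ∣ a₀ ∧ π ∣ b₀) := fun hh => hπ.not_isUnit (hab hh.1 hh.2)
    by_cases hda₀ : π ∣ a₀
    · have hb' : multiplicity π b₀ = 0 := multiplicity_eq_zero.2 fun hdb₀ => hnd ⟨hda₀, hdb₀⟩
      rw [hb', zero_add] at m3
      refine ⟨?_, by rw [hb']; exact dvd_zero n⟩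
      have h1 : n ∣ multiplicity π a₀ + n * multiplicity π c := m3 ▸ dvd_mul_right n _
      exact (Nat.dvd_add_left (dvd_mul_right n _)).1 h1
    · have ha' : multiplicity π a₀ = 0 := multiplicity_eq_zero.2 hda₀
      rw [ha', zero_add] at m3
      refine ⟨by rw [ha']; exact dvd_zero n, ?_⟩
      have h1 : n ∣ multiplicity π b₀ + n * multiplicity π d := m3 ▸ dvd_mul_right n _
      exact (Nat.dvd_add_left (dvd_mul_right n _)).1 h1
  obtain ⟨u₁, s₁, hu₁, e₁⟩ :=
    H10.exists_unit_mul_pow_of_multiplicity n a₀ ha0 fun π hπ => (key π hπ).1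
  obtain ⟨u₂, s₂, hu₂, e₂⟩ :=
    H10.exists_unit_mul_pow_of_multiplicity n b₀ hb0 fun π hπ => (key π hπ).2
  obtain ⟨v₂, hv₂⟩ := hu₂.exists_right_inv
  have hu₂F : algebraMap B' F u₂ * algebraMap B' F v₂ = 1 := by
    rw [← map_mul, hv₂, map_one]
  have hu₂0 : algebraMap B' F u₂ ≠ 0 := left_ne_zero_of_mul_eq_one hu₂F
  have hbeq : algebraMap B' F b₀ = algebraMap B' F u₂ * algebraMap B' F s₂ ^ n := by
    rw [e₂, map_mul, map_pow]
  have haeq : algebraMap B' F a₀ = algebraMap B' F u₁ * algebraMap B' F s₁ ^ n := by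
    rw [e₁, map_mul, map_pow]
  have hh : h = algebraMap B' F a₀ / algebraMap B' F b₀ := by
    rw [eq_div_iff hbF]
    exact heq
  have hpow : algebraMap B' F s₂ ^ n ≠ 0 := by
    intro h1
    rw [h1, mul_zero] at hbeq
    exact hbF hbeq
  refine ⟨u₁ * v₂, algebraMap B' F s₁ / algebraMap B' F s₂, hu₁.mul ?_, ?_⟩
  · exact IsUnit.of_mul_eq_one u₂ (by rw [mul_comm]; exact hv₂)
  · rw [hh, haeq, hbeq, map_mul, div_pow, div_eq_iff (mul_ne_zero hu₂0 hpow)]
    field_simp
    linear_combination (-(algebraMap B' F u₁ * algebraMap B' F s₁ ^ n)) * hu₂F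

/-- The same with units of the valuation rings `primeVal π`. -/
theorem ufd_unit_mul_pow_of_val [UniqueFactorizationMonoid B'] (n : ℕ) (h : F) (h0 : h ≠ 0)
    (H : ∀ (π : B') (hπ : Prime π), ∃ s : F, s ≠ 0 ∧ h * s ^ n ∈ primeVal (F := F) π hπ ∧
      (h * s ^ n)⁻¹ ∈ primeVal (F := F) π hπ) :
    ∃ (u : B') (s : F), IsUnit u ∧ h = algebraMap B' F u * s ^ n := by
  refine ufd_unit_mul_pow n h h0 (fun π hπ => ?_)
  obtain ⟨s, hs0, h1, h2⟩ := H π hπ
  exact ⟨s, hs0, exists_of_unit_primeVal π hπ h1 h2 (mul_ne_zero h0 (pow_ne_zero _ hs0))⟩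

end Fermat.Agent.S36.NU.H16
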