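import Fermat.Agent.S36.NU.H16_LL
import Fermat.Agent.S36.NU.H16_Ufd

/-!
# S36 / NU-B, local side of TI3 (helper16): REG (local generators) from CA1

Abstract part (`A` a noetherian domain, `𝔪` a prime, `S = A_𝔪 ⊂ F = Frac A`):

* `loc_ufd` : if `ψ : A → O` maps `A_𝔪` ONTO a Bezout domain `O` with kernel generated
  by one element `x` (`(K)`: `ψ f = 0 ⟹ W' f = x β`, `W' ∉ 𝔪`), then `A_𝔪` is a UFD (helper10's CA1).
* `loc_unit_mul_pow` : if moreover `h` is an `n`-th power times a unit at every prime element of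
  `A_𝔪`, then `h sⁿ ∈ A ∖ 𝔪` for some `s`.

Chart part:

* `LocEq C q 𝔪` : a LOCAL EQUATION DATUM at the closed point `𝔪`:
  `q W = (∏ i, x i ^ e i) y`, `W, y ∉ 𝔪`, `x i ∈ I_i` for the branches through `𝔪`, `x i ∉ 𝔪` for
  the other components, and `(K)`: `I_i B_𝔪 = x i B_𝔪` for every branch.
* `LocEq.K_of_val` : `(K)` from valuations and `(VALQ)` (`B ∩ ⋂ q V i = q B`).
* `reg_abs` : **REG**: `LocEq` + one `Branch` + `(HOR)` (`h` is an `n`-th power times a unit at
  every valuation ring of `F` containing `B` and `1 / q`) ⟹ `∃ s, h sⁿ ∈ B ∖ 𝔪`.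
-/

set_option autoImplicit false

noncomputable section

namespace Fermat.Agent.S36.NU.H16

section Abstract

variable {A S F O : Type*} [CommRing A] [IsDomain A] [CommRing S] [Algebra A S]
  [Field F] [Algebra A F] [Algebra S F] [IsScalarTower A S F]
  [CommRing O] [IsDomain O]

/-- **CA1 at a closed point**: the local ring `S = A_𝔪` is a UFD. -/
theorem loc_ufd [IsNoetherianRing A] [IsDomain S] (𝔪 : Ideal A) [h𝔪 : 𝔪.IsPrime]
    [IsLocalization.AtPrime S 𝔪] [IsBezout O]
    (ψ : A →+* O) (hunit : ∀ a : A, a ∉ 𝔪 → IsUnit (ψ a))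
    (hsurj : ∀ y : O, ∃ a b : A, b ∉ 𝔪 ∧ ψ a = y * ψ b)
    (x : A) (hx0 : x ≠ 0) (hxm : x ∈ 𝔪) (hψx : ψ x = 0)
    (hK : ∀ f : A, ψ f = 0 → ∃ W' : A, W' ∉ 𝔪 ∧ ∃ β : A, W' * f = x * β) :
    UniqueFactorizationMonoid S := by
  have hloc : IsLocalRing S := IsLocalization.AtPrime.isLocalRing S 𝔪
  have hnoe : IsNoetherianRing S := IsLocalization.isNoetherianRing 𝔪.primeCompl S inferInstance
  have hinjS : Function.Injective (algebraMap A S) :=
    IsLocalization.injective S 𝔪.primeCompl_le_nonZeroDivisors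
  have hg : ∀ y : 𝔪.primeCompl, IsUnit (ψ y) := fun y => hunit y y.2
  set φ : S →+* O := IsLocalization.lift hg with hφ
  have hφA : ∀ a : A, φ (algebraMap A S a) = ψ a := fun a => IsLocalization.lift_eq hg a
  have hφsurj : Function.Surjective φ := by
    intro y
    obtain ⟨a, b, hb, hab⟩ := hsurj y
    refine ⟨IsLocalization.mk' S a (⟨b, hb⟩ : 𝔪.primeCompl), ?_⟩
    have h1 : IsLocalization.mk' S a (⟨b, hb⟩ : 𝔪.primeCompl) * algebraMap A S b =
        algebraMap A S a := IsLocalization.mk'_spec S a ⟨b, hb⟩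
    have h2 := congrArg φ h1
    rw [map_mul, hφA, hφA, hab] at h2
    exact mul_right_cancel₀ (hunit b hb).ne_zero h2
  have hker : RingHom.ker φ = Ideal.span {algebraMap A S x} := by
    apply le_antisymm
    · intro z hz
      rw [RingHom.mem_ker] at hz
      obtain ⟨⟨a, t⟩, rfl⟩ := IsLocalization.mk'_surjective 𝔪.primeCompl z
      have h1 : IsLocalization.mk' S a t * algebraMap A S t = algebraMap A S a :=
        IsLocalization.mk'_spec S a t
      have h2 := congrArg φ h1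
      rw [map_mul, hφA, hφA] at h2
      simp only at hz
      rw [hz, zero_mul] at h2
      obtain ⟨W', hW', β, hβ⟩ := hK a h2.symm
      rw [Ideal.mem_span_singleton]
      have hWt : W' * t ∈ 𝔪.primeCompl := by
        intro hmem
        rcases h𝔪.mem_or_mem hmem with h3 | h3
        · exact hW' h3
        · exact t.2 h3
      refine ⟨IsLocalization.mk' S β (⟨W' * t, hWt⟩ : 𝔪.primeCompl), ?_⟩
      show IsLocalization.mk' S a t = _
      rw [IsLocalization.mul_mk'_eq_mk'_of_mul, IsLocalization.mk'_eq_iff_eq]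
      congr 1
      show (W' * ↑t) * a = ↑t * (x * β)
      rw [← hβ]
      ring
    · rw [Ideal.span_le]
      intro z hz
      rw [Set.mem_singleton_iff] at hz
      rw [hz]
      show algebraMap A S x ∈ RingHom.ker φ
      rw [RingHom.mem_ker, hφA, hψx]
  have hx0' : algebraMap A S x ≠ 0 := (map_ne_zero_iff _ hinjS).2 hx0
  have hnoeO : IsNoetherianRing O := isNoetherianRing_of_surjective S O φ hφsurj
  have hpid : IsPrincipalIdealRing O := IsPrincipalIdealRing.of_isNoetherianRing_of_isBezout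
  have hxm' : algebraMap A S x ∈ IsLocalRing.maximalIdeal S :=
    (IsLocalization.AtPrime.to_map_mem_maximal_iff S 𝔪 x).2 hxm
  exact H10.ca1_ufm_of_surjective φ hφsurj (algebraMap A S x) hx0' hxm' hker

omit [IsDomain A] in
/-- **Local generator at a closed point** (abstract form). -/
theorem loc_unit_mul_pow [IsDomain S] [IsFractionRing S F] (𝔪 : Ideal A) [h𝔪 : 𝔪.IsPrime]
    [IsLocalization.AtPrime S 𝔪] [UniqueFactorizationMonoid S]
    (n : ℕ) (hn : 0 < n) (h : F) (h0 : h ≠ 0)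
    (H : ∀ (π : S) (hπ : Prime π), ∃ s : F, s ≠ 0 ∧ h * s ^ n ∈ primeVal (F := F) π hπ ∧
      (h * s ^ n)⁻¹ ∈ primeVal (F := F) π hπ) :
    ∃ (s : F) (a : A), a ∉ 𝔪 ∧ h * s ^ n = algebraMap A F a := by
  obtain ⟨u, s₁, hu, hus⟩ := ufd_unit_mul_pow_of_val n h h0 H
  obtain ⟨⟨a, t⟩, rfl⟩ := IsLocalization.mk'_surjective 𝔪.primeCompl u
  have h1 : IsLocalization.mk' S a t * algebraMap A S t = algebraMap A S a :=
    IsLocalization.mk'_spec S a t
  have ht : IsUnit (algebraMap A S (t : A)) :=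
    (IsLocalization.AtPrime.isUnit_to_map_iff S 𝔪 (t : A)).2 t.2
  have ha : a ∉ 𝔪 := by
    have h2 : IsUnit (algebraMap A S a) := by
      rw [← h1]
      exact hu.mul ht
    exact (IsLocalization.AtPrime.isUnit_to_map_iff S 𝔪 a).1 h2
  have hs₁ : s₁ ≠ 0 := by
    rintro rfl
    rw [zero_pow hn.ne', mul_zero] at hus
    exact h0 hus
  have h1F : algebraMap S F (IsLocalization.mk' S a t) * algebraMap A F (t : A) =
      algebraMap A F a := by
    rw [IsScalarTower.algebraMap_apply A S F, IsScalarTower.algebraMap_apply A S F, ← map_mul, h1]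
  obtain ⟨m, rfl⟩ : ∃ m, n = m + 1 := ⟨n - 1, by omega⟩
  refine ⟨algebraMap A F (t : A) * s₁⁻¹, a * (t : A) ^ m, ?_, ?_⟩
  · intro hmem
    rcases h𝔪.mem_or_mem hmem with h3 | h3
    · exact ha h3
    · exact t.2 (h𝔪.mem_of_pow_mem m h3)
  · rw [hus, map_mul, map_pow, ← h1F, mul_pow]
    have : s₁ ^ (m + 1) ≠ 0 := pow_ne_zero _ hs₁
    rw [inv_pow]
    field_simp
    ring

end Abstract

variable {R F k ι : Type*} {κ : ι → Type*} [CommRing R] [Field F] [Algebra R F]
  [Field k] [∀ i, Field (κ i)] [∀ i, Algebra k (κ i)]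

/-- **A local equation datum** at the closed point `𝔪` of the chart. -/
structure LocEq [Fintype ι] (C : Chart R F k ι κ) (q : R) (𝔪 : Ideal C.B) where
  /-- the local equations of the components -/
  x : ι → C.B
  /-- the multiplicities of the components -/
  e : ι → ℕ
  /-- a unit at the point -/
  W : C.B
  /-- a unit at the point -/
  y : C.B
  W_not_mem : W ∉ 𝔪
  y_not_mem : y ∉ 𝔪
  x_ne_zero : ∀ i, x i ≠ 0
  x_mem : ∀ i, C.Icomp i ≤ 𝔪 → x i ∈ C.Icomp i
  x_not_mem : ∀ i, ¬ C.Icomp i ≤ 𝔪 → x i ∉ 𝔪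
  eq : algebraMap R C.B q * W = (∏ i, x i ^ e i) * y
  /-- `(K)`: `I_i B_𝔪 = x i B_𝔪` -/
  K : ∀ i, C.Icomp i ≤ 𝔪 → ∀ f ∈ C.Icomp i, ∃ W' : C.B, W' ∉ 𝔪 ∧ ∃ β : C.B, W' * f = x i * β

/-- `(K)` from valuations: `x i` generates the maximal ideal of `V i`, `x i' ^ e i' ∈ q V i'` for
the other components, `q W = (∏ x i ^ e i) y`, and `(VALQ)`: `B ∩ ⋂ q V i = q B`. -/
theorem K_of_val [Fintype ι] [DecidableEq ι] (C : Chart R F k ι κ) (q : R)
    (hq0 : algebraMap R F q ≠ 0)
    (hVALQ : ∀ β : C.B, (∀ i, ∃ f' ∈ C.V i, (β : F) = algebraMap R F q * f') →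
      ∃ β' : C.B, β = algebraMap R C.B q * β')
    (x : ι → C.B) (e : ι → ℕ) (W y : C.B)
    (heq : algebraMap R C.B q * W = (∏ i, x i ^ e i) * y)
    (hpow : ∀ i, ∃ f' ∈ C.V i, ((x i : F)) ^ e i = algebraMap R F q * f')
    (i : ι) (hei : 0 < e i)
    (hunif : ∀ f ∈ C.Icomp i, ∃ f' ∈ C.V i, (f : F) = (x i : F) * f') :
    ∀ f ∈ C.Icomp i, ∃ β : C.B, W * f = x i * β := by
  intro f hf
  -- `Y` with `x i * Y = q W`
  set Y : C.B := x i ^ (e i - 1) * (∏ i' ∈ Finset.univ.erase i, x i' ^ e i') * y with hY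
  have hxY : x i * Y = algebraMap R C.B q * W := by
    rw [heq, hY, ← Finset.mul_prod_erase Finset.univ _ (Finset.mem_univ i)]
    obtain ⟨m, hm⟩ : ∃ m, e i = m + 1 := ⟨e i - 1, by omega⟩
    rw [hm, Nat.add_sub_cancel, pow_succ]
    ring
  have hfY : ∀ i', ∃ f' ∈ C.V i', ((f * Y : C.B) : F) = algebraMap R F q * f' := by
    intro i'
    by_cases hi' : i' = i
    · subst hi'
      obtain ⟨f', hf', hff'⟩ := hunif f hf
      refine ⟨f' * (W : F), mul_mem hf' (C.B_le _ _ W.2), ?_⟩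
      have h1 : ((x i' * Y : C.B) : F) = algebraMap R F q * (W : F) := by
        rw [hxY]
        rfl
      push_cast at h1 ⊢
      rw [hff']
      linear_combination f' * h1
    · obtain ⟨f', hf', hff'⟩ := hpow i'
      have hmem : i' ∈ Finset.univ.erase i := Finset.mem_erase.2 ⟨hi', Finset.mem_univ i'⟩
      set Z : C.B := f * x i ^ (e i - 1) * (∏ i'' ∈ (Finset.univ.erase i).erase i', x i'' ^ e i'')
        * y with hZ
      have h1 : f * Y = Z * x i' ^ e i' := by
        rw [hY, hZ, ← Finset.mul_prod_erase (Finset.univ.erase i) _ hmem]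
        ring
      refine ⟨(Z : F) * f', mul_mem (C.B_le _ _ Z.2) hf', ?_⟩
      rw [h1]
      push_cast
      rw [hff']
      ring
  obtain ⟨β, hβ⟩ := hVALQ (f * Y) hfY
  refine ⟨β, ?_⟩
  have hq0' : algebraMap R C.B q ≠ 0 := by
    intro h0
    apply hq0
    have : ((algebraMap R C.B q : C.B) : F) = 0 := by rw [h0]; rfl
    exact this
  apply mul_left_cancel₀ hq0'
  calc algebraMap R C.B q * (W * f) = f * (algebraMap R C.B q * W) := by ring
    _ = f * (x i * Y) := by rw [hxY]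
    _ = x i * (f * Y) := by ring
    _ = x i * (algebraMap R C.B q * β) := by rw [hβ]
    _ = algebraMap R C.B q * (x i * β) := by ring

section Reg

variable [Fintype ι] (C : Chart R F k ι κ)

/-- **REG** for a model `S` of the local ring `B_𝔪`. -/
theorem reg_aux [IsNoetherianRing C.B] {S : Type*} [CommRing S] [IsDomain S] [Algebra C.B S]
    [Algebra S F] [IsScalarTower C.B S F] [IsFractionRing S F]
    (q : R) (n : ℕ) (hn : 0 < n) (h : F) (hh : ∀ i, h ∈ C.V i ∧ h⁻¹ ∈ C.V i) (h0 : h ≠ 0)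
    (𝔪 : Ideal C.B) [h𝔪 : 𝔪.IsPrime] [IsLocalization.AtPrime S 𝔪]
    (i₀ : ι) (b : Branch C 𝔪 i₀) (L : LocEq C q 𝔪)
    (hHOR : ∀ W : ValuationSubring F, (∀ β : C.B, (β : F) ∈ W) → (algebraMap R F q)⁻¹ ∈ W →
      W ≠ ⊤ → ∃ s : F, s ≠ 0 ∧ h * s ^ n ∈ W ∧ (h * s ^ n)⁻¹ ∈ W) :
    ∃ (s : F) (hs : h * s ^ n ∈ C.B), (⟨h * s ^ n, hs⟩ : C.B) ∉ 𝔪 := by
  classical
  have hinjSF : Function.Injective (algebraMap S F) := IsFractionRing.injective S F
  have hinjS : Function.Injective (algebraMap C.B S) :=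
    IsLocalization.injective S 𝔪.primeCompl_le_nonZeroDivisors
  have hAF : ∀ β : C.B, algebraMap S F (algebraMap C.B S β) = (β : F) := fun β =>
    (IsScalarTower.algebraMap_apply C.B S F β).symm
  have hunitS : ∀ t : C.B, t ∉ 𝔪 → IsUnit (algebraMap C.B S t) := fun t ht =>
    (IsLocalization.AtPrime.isUnit_to_map_iff S 𝔪 t).2 ht
  -- the residue map of the branch
  set ψ : C.B →+* b.O := (C.rdB i₀).codRestrict b.O b.reg with hψ
  have hψv : ∀ β : C.B, ((ψ β : b.O) : κ i₀) = C.rdB i₀ β := fun β => rfl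
  have hufd : UniqueFactorizationMonoid S := by
    refine loc_ufd (S := S) 𝔪 ψ ?_ ?_ (L.x i₀) (L.x_ne_zero i₀) (b.Icomp_le (L.x_mem i₀ b.Icomp_le)) ?_ ?_
    · intro a ha
      exact (ValuationSubring.valuation_eq_one_iff b.O (ψ a)).2 (b.val_rdB_eq_one ha)
    · intro y
      obtain ⟨b', β, hβ, hb'⟩ := b.normal y y.2
      exact ⟨b', β, hβ, Subtype.ext hb'⟩
    · exact Subtype.ext ((C.mem_Icomp i₀ _).1 (L.x_mem i₀ b.Icomp_le))
    · intro f hf
      have h1 : C.rdB i₀ f = 0 := by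
        have := congrArg Subtype.val hf
        exact this
      exact L.K i₀ b.Icomp_le f ((C.mem_Icomp i₀ f).2 h1)
  -- elements of `S` as fractions
  have hfrac : ∀ z : S, ∃ a t : C.B, t ∉ 𝔪 ∧ algebraMap S F z * (t : F) = (a : F) := by
    intro z
    obtain ⟨⟨a, t⟩, hat⟩ := IsLocalization.surj 𝔪.primeCompl z
    refine ⟨a, t, t.2, ?_⟩
    have := congrArg (algebraMap S F) hat
    rw [map_mul, hAF, hAF] at this
    exact this
  have hne : ∀ (i : ι), C.Icomp i ≤ 𝔪 → ∀ t : C.B, t ∉ 𝔪 → C.rd i (t : F) ≠ 0 := by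
    intro i hi t ht h1
    rw [C.rd_coe] at h1
    exact ht (hi ((C.mem_Icomp i t).2 h1))
  -- (F1)
  have hF1 : ∀ (i : ι), C.Icomp i ≤ 𝔪 → ∀ z : S, algebraMap S F z ∈ C.V i := by
    intro i hi z
    obtain ⟨a, t, ht, hat⟩ := hfrac z
    have ht0 : (t : F) ≠ 0 := by
      intro h1
      apply hne i hi t ht
      rw [h1, C.rd_zero]
    have h1 : algebraMap S F z = (a : F) * (t : F)⁻¹ := by
      rw [← hat]
      field_simp
    rw [h1]
    exact mul_mem (C.B_le i _ a.2) (C.inv_mem_of_rd_ne_zero i (hne i hi t ht))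
  -- (F2)
  have hF2 : ∀ (i : ι), C.Icomp i ≤ 𝔪 → ∀ z : S, algebraMap S F z ∈ (C.V i).nonunits →
      algebraMap C.B S (L.x i) ∣ z := by
    intro i hi z hz
    obtain ⟨a, t, ht, hat⟩ := hfrac z
    have ha : (a : F) ∈ (C.V i).nonunits := by
      rw [ValuationSubring.mem_nonunits_iff] at hz ⊢
      rw [← hat, map_mul]
      have h1 : (C.V i).valuation (t : F) ≤ 1 :=
        ((C.V i).valuation_le_one_iff _).2 (C.B_le i _ t.2)
      calc (C.V i).valuation (algebraMap S F z) * (C.V i).valuation (t : F)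
          ≤ (C.V i).valuation (algebraMap S F z) * 1 := by gcongr
        _ < 1 := by rwa [mul_one]
    have ha' : a ∈ C.Icomp i := by
      rw [C.mem_Icomp, ← C.rd_coe, C.rd_eq_zero_iff i (C.B_le i _ a.2)]
      exact ha
    obtain ⟨W', hW', β, hβ⟩ := L.K i hi a ha'
    obtain ⟨u, hu⟩ := (hunitS (t * W') (fun hmem => by
      rcases h𝔪.mem_or_mem hmem with h3 | h3
      · exact ht h3
      · exact hW' h3)).exists_right_inv
    refine ⟨algebraMap C.B S β * u, ?_⟩
    have h2 : z * algebraMap C.B S (t * W') = algebraMap C.B S (L.x i) * algebraMap C.B S β := by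
      rw [← map_mul (algebraMap C.B S)]
      apply hinjSF
      rw [map_mul (algebraMap S F), hAF, hAF, ← hβ]
      push_cast
      rw [← hat]
      ring
    calc z = z * (algebraMap C.B S (t * W') * u) := by rw [hu, mul_one]
      _ = (z * algebraMap C.B S (t * W')) * u := by ring
      _ = algebraMap C.B S (L.x i) * (algebraMap C.B S β * u) := by rw [h2]; ring
  -- the main step
  have H : ∀ (π : S) (hπ : Prime π), ∃ s : F, s ≠ 0 ∧ h * s ^ n ∈ primeVal (F := F) π hπ ∧
      (h * s ^ n)⁻¹ ∈ primeVal (F := F) π hπ := by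
    intro π hπ
    by_cases hπq : π ∣ algebraMap C.B S (algebraMap R C.B q)
    · -- vertical prime
      have h1 : π ∣ algebraMap C.B S ((∏ i, L.x i ^ L.e i) * L.y) := by
        rw [← L.eq, map_mul]
        exact Dvd.dvd.mul_right hπq _
      rw [map_mul] at h1
      have h2 : π ∣ algebraMap C.B S (∏ i, L.x i ^ L.e i) := by
        rcases hπ.dvd_or_dvd h1 with h3 | h3
        · exact h3
        · exact absurd (isUnit_of_dvd_unit h3 (hunitS _ L.y_not_mem)) hπ.not_isUnit
      rw [map_prod] at h2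
      obtain ⟨i, -, hi⟩ := (Prime.dvd_finsetProd_iff hπ _).1 h2
      rw [map_pow] at hi
      have hπx : π ∣ algebraMap C.B S (L.x i) := hπ.dvd_of_dvd_pow hi
      have hbr : C.Icomp i ≤ 𝔪 := by
        by_contra hnb
        exact hπ.not_isUnit (isUnit_of_dvd_unit hπx (hunitS _ (L.x_not_mem i hnb)))
      set v := (C.V i).valuation with hv
      have hle : ∀ z : S, v (algebraMap S F z) ≤ 1 := fun z =>
        ((C.V i).valuation_le_one_iff _).2 (hF1 i hbr z)
      -- `π` is not a unit of `V i`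
      have hπv : v (algebraMap S F π) < 1 := by
        by_contra hcon
        have hπ1 : v (algebraMap S F π) = 1 := le_antisymm (hle π) (not_lt.1 hcon)
        obtain ⟨c, hc⟩ := hπx
        have hxv : v (algebraMap S F (algebraMap C.B S (L.x i))) < 1 := by
          rw [hAF, ← ValuationSubring.mem_nonunits_iff,
            ← C.rd_eq_zero_iff i (C.B_le i _ (L.x i).2), C.rd_coe]
          exact (C.mem_Icomp i _).1 (L.x_mem i hbr)
        have hcv : v (algebraMap S F c) < 1 := by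
          rw [hc, map_mul, map_mul, hπ1, one_mul] at hxv
          exact hxv
        obtain ⟨d, hd⟩ := hF2 i hbr c ((ValuationSubring.mem_nonunits_iff _).2 hcv)
        have hx0' : algebraMap C.B S (L.x i) ≠ 0 :=
          (map_ne_zero_iff _ hinjS).2 (L.x_ne_zero i)
        rw [hd] at hc
        have h3 : algebraMap C.B S (L.x i) * 1 = algebraMap C.B S (L.x i) * (π * d) := by
          rw [mul_one]
          conv_lhs => rw [hc]
          ring
        have h4 : π * d = 1 := (mul_left_cancel₀ hx0' h3).symm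
        exact hπ.not_isUnit (IsUnit.of_mul_eq_one d h4)
      -- elements prime to `π` are units of `V i`
      have hbv : ∀ z : S, ¬ π ∣ z → v (algebraMap S F z) = 1 := by
        intro z hz
        by_contra hcon
        have hlt : v (algebraMap S F z) < 1 := lt_of_le_of_ne (hle z) hcon
        exact hz (hπx.trans (hF2 i hbr z ((ValuationSubring.mem_nonunits_iff _).2 hlt)))
      have key : ∀ f : F, v f = 1 → f ∈ primeVal (F := F) π hπ →
          f⁻¹ ∈ primeVal (F := F) π hπ := by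
        rintro f hf ⟨a, b', hb', hfab⟩
        have hf0 : f ≠ 0 := by
          rintro rfl
          rw [map_zero] at hf
          exact zero_ne_one hf
        have ha : ¬ π ∣ a := by
          rintro ⟨a', rfl⟩
          have h3 := congrArg v hfab
          rw [map_mul, hf, one_mul, hbv b' hb', map_mul, map_mul] at h3
          have h4 : v (algebraMap S F π) * v (algebraMap S F a') < 1 := by
            calc v (algebraMap S F π) * v (algebraMap S F a')
                ≤ v (algebraMap S F π) * 1 := by gcongr; exact hle a'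
              _ < 1 := by rwa [mul_one]
          rw [← h3] at h4
          exact lt_irrefl _ h4
        refine ⟨b', a, ha, ?_⟩
        rw [← hfab]
        field_simp
      have hhv : v h = 1 := by
        have h3 : v h ≤ 1 := ((C.V i).valuation_le_one_iff _).2 (hh i).1
        have h4 : v h⁻¹ ≤ 1 := ((C.V i).valuation_le_one_iff _).2 (hh i).2
        rw [map_inv₀] at h4
        have h5 : v h ≠ 0 := (Valuation.ne_zero_iff _).2 h0
        have h6 : 1 ≤ v h := by
          rwa [inv_le_one₀ (zero_lt_iff.2 h5)] at h4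
        exact le_antisymm h3 h6
      have hhv' : v h⁻¹ = 1 := by rw [map_inv₀, hhv, inv_one]
      refine ⟨1, one_ne_zero, ?_⟩
      rw [one_pow, mul_one]
      rcases (primeVal (F := F) π hπ).mem_or_inv_mem h with h3 | h3
      · exact ⟨h3, key h hhv h3⟩
      · have := key h⁻¹ hhv' h3
        rw [inv_inv] at this
        exact ⟨this, h3⟩
    · -- horizontal prime
      refine hHOR (primeVal (F := F) π hπ) (fun β => ?_) ?_ (primeVal_ne_top π hπ)
      · rw [← hAF]
        exact algebraMap_mem_primeVal π hπ _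
      · have h1 := inv_mem_primeVal (F := F) π hπ hπq
        rw [hAF] at h1
        exact h1
  obtain ⟨s, a, ha, hs⟩ := loc_unit_mul_pow (S := S) 𝔪 n hn h h0 H
  have hs' : h * s ^ n = (a : F) := hs
  refine ⟨s, hs' ▸ a.2, ?_⟩
  have : (⟨h * s ^ n, hs' ▸ a.2⟩ : C.B) = a := Subtype.ext hs'
  rw [this]
  exact ha

/-- **REG** (local generator at the closed point `𝔪`), from CA1:
a local equation datum at `𝔪`, one branch through `𝔪`, and `(HOR)`: `h` is an `n`-th power times a
unit at every valuation ring of `F` (`≠ F`) containing `B` and `1 / q`. -/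
theorem reg_abs [IsNoetherianRing C.B] [IsFractionRing C.B F]
    (q : R) (n : ℕ) (hn : 0 < n) (h : F) (hh : ∀ i, h ∈ C.V i ∧ h⁻¹ ∈ C.V i) (h0 : h ≠ 0)
    (𝔪 : Ideal C.B) (hmax : 𝔪.IsMaximal)
    (i₀ : ι) (b : Branch C 𝔪 i₀) (L : LocEq C q 𝔪)
    (hHOR : ∀ W : ValuationSubring F, (∀ β : C.B, (β : F) ∈ W) → (algebraMap R F q)⁻¹ ∈ W →
      W ≠ ⊤ → ∃ s : F, s ≠ 0 ∧ h * s ^ n ∈ W ∧ (h * s ^ n)⁻¹ ∈ W) :
    ∃ (s : F) (hs : h * s ^ n ∈ C.B), (⟨h * s ^ n, hs⟩ : C.B) ∉ 𝔪 := by
  have h𝔪 : 𝔪.IsPrime := hmax.isPrime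
  have hfr : IsFractionRing
      (Localization.subalgebra.ofField F 𝔪.primeCompl 𝔪.primeCompl_le_nonZeroDivisors) F :=
    Localization.subalgebra.isFractionRing_ofField F 𝔪.primeCompl _
  exact reg_aux C
    (S := Localization.subalgebra.ofField F 𝔪.primeCompl 𝔪.primeCompl_le_nonZeroDivisors)
    q n hn h hh h0 𝔪 i₀ b L hHOR

/-- A local equation datum from valuations and `(VALQ)`. -/
def LocEq.ofVal [DecidableEq ι] (q : R) (hq0 : algebraMap R F q ≠ 0)
    (hVALQ : ∀ β : C.B, (∀ i, ∃ f' ∈ C.V i, (β : F) = algebraMap R F q * f') →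
      ∃ β' : C.B, β = algebraMap R C.B q * β')
    (𝔪 : Ideal C.B) (x : ι → C.B) (e : ι → ℕ) (W y : C.B) (hW : W ∉ 𝔪) (hy : y ∉ 𝔪)
    (hx0 : ∀ i, x i ≠ 0)
    (hxm : ∀ i, C.Icomp i ≤ 𝔪 → x i ∈ C.Icomp i) (hxn : ∀ i, ¬ C.Icomp i ≤ 𝔪 → x i ∉ 𝔪)
    (heq : algebraMap R C.B q * W = (∏ i, x i ^ e i) * y)
    (hpow : ∀ i, ∃ f' ∈ C.V i, ((x i : F)) ^ e i = algebraMap R F q * f')
    (he : ∀ i, C.Icomp i ≤ 𝔪 → 0 < e i)
    (hunif : ∀ i, C.Icomp i ≤ 𝔪 → ∀ f ∈ C.Icomp i, ∃ f' ∈ C.V i, (f : F) = (x i : F) * f') :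
    LocEq C q 𝔪 where
  x := x
  e := e
  W := W
  y := y
  W_not_mem := hW
  y_not_mem := hy
  x_ne_zero := hx0
  x_mem := hxm
  x_not_mem := hxn
  eq := heq
  K := fun i hi f hf => by
    obtain ⟨β, hβ⟩ := K_of_val C q hq0 hVALQ x e W y heq hpow i (he i hi) (hunif i hi) f hf
    exact ⟨W, hW, β, hβ⟩

end Reg

end Fermat.Agent.S36.NU.H16
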