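import Mathlib

/-!
# S36 / NU-B, leaf VALVEC-ABS (helper16): normalisation of the valuation vector

Level `q² M'`: three discrete valuations `V₂₀`, `V₁₁`, `V₀₂` of `L₀` with uniformizers
`π₂₀`, `π₁₁`, `π₀₂`; the constant `q₀` has valuation vector `(1, q - 1, 1)`, and `t₁₁`, `t₀₂` have
valuation vectors `(0, 1, 0)`, `(0, 0, 1)`.  Level `q M'`: two discrete valuations `V'₁`, `V'₂` of
`L'` with uniformizers `ϖ₁`, `ϖ₂`.  The norms `Nα`, `Nβ : L₀ → L'` along the two degeneracy maps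
satisfy (NORM-VAL, with `ν = (k₁, k₂, k₃)` the valuation vector of `x ≠ 0`)

  `v'₁ (Nα x) = k₁ + k₂`, `v'₂ (Nα x) = q k₃`, `v'₁ (Nβ x) = q k₁`, `v'₂ (Nβ x) = k₂ + k₃`.

* `valvec_arith` : the linear algebra modulo `n`;
* `valvec_explicit`, `valvec` : if `Nα f = cα gα ^ n`, `Nβ f = cβ gβ ^ n` with constants
  `cα`, `cβ` (same valuation for `V'₁` and `V'₂`), then `(q + 1) ν(f) ≡ b (1, q - 1, 1) mod n`,
  and `h = f ^ (q + 1) * q₀ ^ (-b) * w ^ n` is a unit for the three valuations, for a suitable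
  integer `b` and `w = t₁₁ ^ (-c₂) * t₀₂ ^ (-c₃)`;
* `valvec_norm` : the norm of `h` is again a constant times an `n`-th power;
* `uniformizer_val_unique` : two uniformizers have the same valuation (to compare the
  uniformizers of different norm data);
* `mem_and_inv_mem_of_val_eq_one` : a function of valuation `1` is a unit of the valuation ring.
-/

set_option autoImplicit false

namespace Fermat.Agent.S36.NU.H16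

/-- A multiplicative map between fields commutes with inverses. -/
theorem monoidHom_inv {L₀ L' : Type*} [Field L₀] [Field L'] (N : L₀ →* L') (x : L₀)
    (hx : x ≠ 0) : N x⁻¹ = (N x)⁻¹ := by
  have h1 : N x * N x⁻¹ = 1 := by rw [← map_mul, mul_inv_cancel₀ hx, map_one]
  exact eq_inv_of_mul_eq_one_right h1

/-- A multiplicative map between fields commutes with integral powers. -/
theorem monoidHom_zpow {L₀ L' : Type*} [Field L₀] [Field L'] (N : L₀ →* L') (x : L₀)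
    (hx : x ≠ 0) (m : ℤ) : N (x ^ m) = (N x) ^ m := by
  cases m with
  | ofNat k => simp [map_pow]
  | negSucc k =>
    rw [zpow_negSucc, zpow_negSucc, monoidHom_inv N _ (pow_ne_zero _ hx), map_pow]

/-- Arithmetic of VALVEC. -/
theorem valvec_arith (q n x y z mα mβ a₁ a₂ b₁ b₂ : ℤ)
    (h1 : x + y = mα + n * a₁) (h2 : q * z = mα + n * a₂)
    (h3 : q * x = mβ + n * b₁) (h4 : y + z = mβ + n * b₂) :
    ∃ c₂ c₃ : ℤ, (q + 1) * y = (q - 1) * ((q + 1) * x) + n * c₂ ∧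
      (q + 1) * z = (q + 1) * x + n * c₃ := by
  refine ⟨(q + 1) * (b₂ - b₁) + (a₁ - a₂ - b₂ + b₁), -(a₁ - a₂ - b₂ + b₁), ?_, ?_⟩
  · linear_combination q * (h4 - h3) + (h1 - h2)
  · linear_combination h4 - h3 - h1 + h2

/-- A function of valuation `1` is a unit of the valuation ring. -/
theorem mem_and_inv_mem_of_val_eq_one {F : Type*} [Field F] (V : ValuationSubring F) {h : F}
    (hh : V.valuation h = 1) : h ∈ V ∧ h⁻¹ ∈ V := by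
  refine ⟨(V.valuation_le_one_iff h).1 hh.le, (V.valuation_le_one_iff h⁻¹).1 ?_⟩
  rw [map_inv₀, hh, inv_one]

/-- A non-zero unit of the valuation ring has valuation `1`. -/
theorem valuation_eq_one_of_mem_inv_mem {F : Type*} [Field F] (V : ValuationSubring F) {h : F}
    (h0 : h ≠ 0) (h1 : h ∈ V) (h2 : h⁻¹ ∈ V) : V.valuation h = 1 := by
  have e1 : V.valuation h ≤ 1 := (V.valuation_le_one_iff h).2 h1
  have e2 : V.valuation h⁻¹ ≤ 1 := (V.valuation_le_one_iff h⁻¹).2 h2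
  have hv0 : V.valuation h ≠ 0 := (Valuation.ne_zero_iff _).2 h0
  rw [map_inv₀] at e2
  have e3 : 1 ≤ V.valuation h := (inv_le_one₀ (zero_lt_iff.2 hv0)).1 e2
  exact le_antisymm e1 e3

/-- Two uniformizers have the same valuation. -/
theorem uniformizer_val_unique {F : Type*} [Field F] (V : ValuationSubring F) {π π' : F}
    (hπ : V.valuation π < 1) (hπ' : V.valuation π' < 1) (hπ0 : π ≠ 0) (hπ'0 : π' ≠ 0)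
    (hD : ∀ x : F, x ≠ 0 → ∃ m : ℤ, V.valuation x = V.valuation π ^ m)
    (hD' : ∀ x : F, x ≠ 0 → ∃ m : ℤ, V.valuation x = V.valuation π' ^ m) :
    V.valuation π = V.valuation π' := by
  have ha0 : V.valuation π ≠ 0 := (Valuation.ne_zero_iff _).2 hπ0
  obtain ⟨m, hm⟩ := hD π' hπ'0
  obtain ⟨m', hm'⟩ := hD' π hπ0
  have hinj : Function.Injective fun m : ℤ => V.valuation π ^ m :=
    zpow_right_injective₀ (zero_lt_iff.2 ha0) hπ.ne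
  have e : V.valuation π ^ (m * m') = V.valuation π ^ (1 : ℤ) := by
    rw [zpow_mul, ← hm, ← hm', zpow_one]
  have e1 : m * m' = 1 := hinj e
  rcases Int.eq_one_or_neg_one_of_mul_eq_one e1 with h1 | h1
  · rw [hm, h1, zpow_one]
  · exfalso
    rw [h1, zpow_neg, zpow_one] at hm
    have : (1 : V.ValueGroup) < V.valuation π' := by
      rw [hm]
      exact (one_lt_inv₀ (zero_lt_iff.2 ha0)).2 hπ
    exact absurd hπ' (not_lt.2 this.le)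

section ValVec

variable {L₀ L' : Type*} [Field L₀] [Field L']

/-- **VALVEC**, explicit form. -/
theorem valvec_explicit (V₂₀ V₁₁ V₀₂ : ValuationSubring L₀) (V'₁ V'₂ : ValuationSubring L')
    (π₂₀ π₁₁ π₀₂ q₀ t₁₁ t₀₂ : L₀) (ϖ₁ ϖ₂ : L') (q n : ℕ) (hq : 1 ≤ q) (hn : n ≠ 0)
    (hπ₂₀0 : π₂₀ ≠ 0) (hπ₁₁0 : π₁₁ ≠ 0) (hπ₀₂0 : π₀₂ ≠ 0)
    (hD₂₀ : ∀ x : L₀, x ≠ 0 → ∃ m : ℤ, V₂₀.valuation x = V₂₀.valuation π₂₀ ^ m)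
    (hD₁₁ : ∀ x : L₀, x ≠ 0 → ∃ m : ℤ, V₁₁.valuation x = V₁₁.valuation π₁₁ ^ m)
    (hD₀₂ : ∀ x : L₀, x ≠ 0 → ∃ m : ℤ, V₀₂.valuation x = V₀₂.valuation π₀₂ ^ m)
    (hq₂₀ : V₂₀.valuation q₀ = V₂₀.valuation π₂₀)
    (hq₁₁ : V₁₁.valuation q₀ = V₁₁.valuation π₁₁ ^ (q - 1))
    (hq₀₂ : V₀₂.valuation q₀ = V₀₂.valuation π₀₂)
    (ht₁₁ : V₂₀.valuation t₁₁ = 1 ∧ V₁₁.valuation t₁₁ = V₁₁.valuation π₁₁ ∧
      V₀₂.valuation t₁₁ = 1)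
    (ht₀₂ : V₂₀.valuation t₀₂ = 1 ∧ V₁₁.valuation t₀₂ = 1 ∧
      V₀₂.valuation t₀₂ = V₀₂.valuation π₀₂)
    (hϖ₁ : V'₁.valuation ϖ₁ < 1) (hϖ₂ : V'₂.valuation ϖ₂ < 1) (hϖ₁0 : ϖ₁ ≠ 0) (hϖ₂0 : ϖ₂ ≠ 0)
    (hD'₁ : ∀ y : L', y ≠ 0 → ∃ m : ℤ, V'₁.valuation y = V'₁.valuation ϖ₁ ^ m)
    (hD'₂ : ∀ y : L', y ≠ 0 → ∃ m : ℤ, V'₂.valuation y = V'₂.valuation ϖ₂ ^ m)
    (Nα Nβ : L₀ → L')
    (hNα₁ : ∀ x : L₀, x ≠ 0 → ∀ k₁ k₂ : ℤ, V₂₀.valuation x = V₂₀.valuation π₂₀ ^ k₁ →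
      V₁₁.valuation x = V₁₁.valuation π₁₁ ^ k₂ →
      V'₁.valuation (Nα x) = V'₁.valuation ϖ₁ ^ (k₁ + k₂))
    (hNα₂ : ∀ x : L₀, x ≠ 0 → ∀ k₃ : ℤ, V₀₂.valuation x = V₀₂.valuation π₀₂ ^ k₃ →
      V'₂.valuation (Nα x) = V'₂.valuation ϖ₂ ^ ((q : ℤ) * k₃))
    (hNβ₁ : ∀ x : L₀, x ≠ 0 → ∀ k₁ : ℤ, V₂₀.valuation x = V₂₀.valuation π₂₀ ^ k₁ →
      V'₁.valuation (Nβ x) = V'₁.valuation ϖ₁ ^ ((q : ℤ) * k₁))
    (hNβ₂ : ∀ x : L₀, x ≠ 0 → ∀ k₂ k₃ : ℤ, V₁₁.valuation x = V₁₁.valuation π₁₁ ^ k₂ →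
      V₀₂.valuation x = V₀₂.valuation π₀₂ ^ k₃ →
      V'₂.valuation (Nβ x) = V'₂.valuation ϖ₂ ^ (k₂ + k₃))
    (f : L₀) (hf : f ≠ 0) (cα gα cβ gβ : L') (hα : Nα f = cα * gα ^ n)
    (hβ : Nβ f = cβ * gβ ^ n)
    (hcα : ∃ m : ℤ, V'₁.valuation cα = V'₁.valuation ϖ₁ ^ m ∧
      V'₂.valuation cα = V'₂.valuation ϖ₂ ^ m)
    (hcβ : ∃ m : ℤ, V'₁.valuation cβ = V'₁.valuation ϖ₁ ^ m ∧
      V'₂.valuation cβ = V'₂.valuation ϖ₂ ^ m) :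
    ∃ b c₂ c₃ : ℤ,
      V₂₀.valuation (f ^ (q + 1) * q₀ ^ (-b) * (t₁₁ ^ (-c₂) * t₀₂ ^ (-c₃)) ^ n) = 1 ∧
      V₁₁.valuation (f ^ (q + 1) * q₀ ^ (-b) * (t₁₁ ^ (-c₂) * t₀₂ ^ (-c₃)) ^ n) = 1 ∧
      V₀₂.valuation (f ^ (q + 1) * q₀ ^ (-b) * (t₁₁ ^ (-c₂) * t₀₂ ^ (-c₃)) ^ n) = 1 := by
  -- notation
  set a₂₀ := V₂₀.valuation π₂₀ with ha₂₀
  set a₁₁ := V₁₁.valuation π₁₁ with ha₁₁
  set a₀₂ := V₀₂.valuation π₀₂ with ha₀₂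
  set p₁ := V'₁.valuation ϖ₁ with hp₁
  set p₂ := V'₂.valuation ϖ₂ with hp₂
  have ha₂₀0 : a₂₀ ≠ 0 := (Valuation.ne_zero_iff _).2 hπ₂₀0
  have ha₁₁0 : a₁₁ ≠ 0 := (Valuation.ne_zero_iff _).2 hπ₁₁0
  have ha₀₂0 : a₀₂ ≠ 0 := (Valuation.ne_zero_iff _).2 hπ₀₂0
  have hp₁0 : p₁ ≠ 0 := (Valuation.ne_zero_iff _).2 hϖ₁0
  have hp₂0 : p₂ ≠ 0 := (Valuation.ne_zero_iff _).2 hϖ₂0
  have hinj₁ : Function.Injective fun m : ℤ => p₁ ^ m :=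
    zpow_right_injective₀ (zero_lt_iff.2 hp₁0) hϖ₁.ne
  have hinj₂ : Function.Injective fun m : ℤ => p₂ ^ m :=
    zpow_right_injective₀ (zero_lt_iff.2 hp₂0) hϖ₂.ne
  -- the valuation vector of `f`
  obtain ⟨x, hx⟩ := hD₂₀ f hf
  obtain ⟨y, hy⟩ := hD₁₁ f hf
  obtain ⟨z, hz⟩ := hD₀₂ f hf
  -- the norms of `f`
  have hNα1 : V'₁.valuation (Nα f) = p₁ ^ (x + y) := hNα₁ f hf x y hx hy
  have hNα2 : V'₂.valuation (Nα f) = p₂ ^ ((q : ℤ) * z) := hNα₂ f hf z hz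
  have hNβ1 : V'₁.valuation (Nβ f) = p₁ ^ ((q : ℤ) * x) := hNβ₁ f hf x hx
  have hNβ2 : V'₂.valuation (Nβ f) = p₂ ^ (y + z) := hNβ₂ f hf y z hy hz
  -- `gα`, `gβ` are nonzero
  have hgα0 : gα ≠ 0 := by
    rintro rfl
    rw [hα, zero_pow hn, mul_zero, map_zero] at hNα1
    exact zpow_ne_zero _ hp₁0 hNα1.symm
  have hgβ0 : gβ ≠ 0 := by
    rintro rfl
    rw [hβ, zero_pow hn, mul_zero, map_zero] at hNβ1
    exact zpow_ne_zero _ hp₁0 hNβ1.symm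
  obtain ⟨a₁, ha₁⟩ := hD'₁ gα hgα0
  obtain ⟨a₂, ha₂⟩ := hD'₂ gα hgα0
  obtain ⟨b₁, hb₁⟩ := hD'₁ gβ hgβ0
  obtain ⟨b₂, hb₂⟩ := hD'₂ gβ hgβ0
  obtain ⟨mα, hmα₁, hmα₂⟩ := hcα
  obtain ⟨mβ, hmβ₁, hmβ₂⟩ := hcβ
  -- the four equations
  have h1 : x + y = mα + (n : ℤ) * a₁ := by
    apply hinj₁
    change p₁ ^ (x + y) = p₁ ^ (mα + (n : ℤ) * a₁)
    rw [← hNα1, hα, map_mul, map_pow, hmα₁, ha₁, ← zpow_natCast, ← zpow_mul, ← zpow_add₀ hp₁0,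
      mul_comm a₁]
  have h2 : (q : ℤ) * z = mα + (n : ℤ) * a₂ := by
    apply hinj₂
    change p₂ ^ ((q : ℤ) * z) = p₂ ^ (mα + (n : ℤ) * a₂)
    rw [← hNα2, hα, map_mul, map_pow, hmα₂, ha₂, ← zpow_natCast, ← zpow_mul, ← zpow_add₀ hp₂0,
      mul_comm a₂]
  have h3 : (q : ℤ) * x = mβ + (n : ℤ) * b₁ := by
    apply hinj₁
    change p₁ ^ ((q : ℤ) * x) = p₁ ^ (mβ + (n : ℤ) * b₁)
    rw [← hNβ1, hβ, map_mul, map_pow, hmβ₁, hb₁, ← zpow_natCast, ← zpow_mul, ← zpow_add₀ hp₁0,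
      mul_comm b₁]
  have h4 : y + z = mβ + (n : ℤ) * b₂ := by
    apply hinj₂
    change p₂ ^ (y + z) = p₂ ^ (mβ + (n : ℤ) * b₂)
    rw [← hNβ2, hβ, map_mul, map_pow, hmβ₂, hb₂, ← zpow_natCast, ← zpow_mul, ← zpow_add₀ hp₂0,
      mul_comm b₂]
  obtain ⟨c₂, c₃, hc₂, hc₃⟩ := valvec_arith q n x y z mα mβ a₁ a₂ b₁ b₂ h1 h2 h3 h4
  have hq1 : ((q - 1 : ℕ) : ℤ) = (q : ℤ) - 1 := by
    rw [Nat.cast_sub hq, Nat.cast_one]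
  refine ⟨((q : ℤ) + 1) * x, c₂, c₃, ?_, ?_, ?_⟩
  · rw [map_mul, map_mul, map_pow, map_pow, map_mul, map_zpow₀, map_zpow₀, map_zpow₀, hx, hq₂₀,
      ht₁₁.1, ht₀₂.1, one_zpow, one_zpow, mul_one, one_pow, mul_one, ← zpow_natCast,
      ← zpow_mul, ← zpow_add₀ ha₂₀0]
    have e : x * ((q + 1 : ℕ) : ℤ) + -(((q : ℤ) + 1) * x) = 0 := by push_cast; ring
    rw [e, zpow_zero]
  · rw [map_mul, map_mul, map_pow, map_pow, map_mul, map_zpow₀, map_zpow₀, map_zpow₀, hy, hq₁₁,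
      ht₁₁.2.1, ht₀₂.2.1, one_zpow, mul_one, ← zpow_natCast, ← zpow_natCast, ← zpow_natCast,
      ← zpow_mul, ← zpow_mul, ← zpow_mul, ← zpow_add₀ ha₁₁0, ← zpow_add₀ ha₁₁0]
    have e : y * ((q + 1 : ℕ) : ℤ) + ((q - 1 : ℕ) : ℤ) * -(((q : ℤ) + 1) * x) + -c₂ * (n : ℤ)
        = 0 := by
      rw [hq1]; push_cast; linear_combination hc₂
    rw [e, zpow_zero]
  · rw [map_mul, map_mul, map_pow, map_pow, map_mul, map_zpow₀, map_zpow₀, map_zpow₀, hz, hq₀₂,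
      ht₁₁.2.2, ht₀₂.2.2, one_zpow, one_mul, ← zpow_natCast, ← zpow_natCast,
      ← zpow_mul, ← zpow_mul, ← zpow_add₀ ha₀₂0, ← zpow_add₀ ha₀₂0]
    have e : z * ((q + 1 : ℕ) : ℤ) + -(((q : ℤ) + 1) * x) + -c₃ * (n : ℤ) = 0 := by
      push_cast; linear_combination hc₃
    rw [e, zpow_zero]

/-- **VALVEC**: `h = f ^ (q + 1) * q₀ ^ (-b) * w ^ n` is a unit for the three valuations. -/
theorem valvec (V₂₀ V₁₁ V₀₂ : ValuationSubring L₀) (V'₁ V'₂ : ValuationSubring L')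
    (π₂₀ π₁₁ π₀₂ q₀ t₁₁ t₀₂ : L₀) (ϖ₁ ϖ₂ : L') (q n : ℕ) (hq : 1 ≤ q) (hn : n ≠ 0)
    (hπ₂₀0 : π₂₀ ≠ 0) (hπ₁₁0 : π₁₁ ≠ 0) (hπ₀₂0 : π₀₂ ≠ 0)
    (hD₂₀ : ∀ x : L₀, x ≠ 0 → ∃ m : ℤ, V₂₀.valuation x = V₂₀.valuation π₂₀ ^ m)
    (hD₁₁ : ∀ x : L₀, x ≠ 0 → ∃ m : ℤ, V₁₁.valuation x = V₁₁.valuation π₁₁ ^ m)
    (hD₀₂ : ∀ x : L₀, x ≠ 0 → ∃ m : ℤ, V₀₂.valuation x = V₀₂.valuation π₀₂ ^ m)
    (hq₂₀ : V₂₀.valuation q₀ = V₂₀.valuation π₂₀)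
    (hq₁₁ : V₁₁.valuation q₀ = V₁₁.valuation π₁₁ ^ (q - 1))
    (hq₀₂ : V₀₂.valuation q₀ = V₀₂.valuation π₀₂)
    (ht₁₁ : V₂₀.valuation t₁₁ = 1 ∧ V₁₁.valuation t₁₁ = V₁₁.valuation π₁₁ ∧
      V₀₂.valuation t₁₁ = 1)
    (ht₀₂ : V₂₀.valuation t₀₂ = 1 ∧ V₁₁.valuation t₀₂ = 1 ∧
      V₀₂.valuation t₀₂ = V₀₂.valuation π₀₂)
    (hϖ₁ : V'₁.valuation ϖ₁ < 1) (hϖ₂ : V'₂.valuation ϖ₂ < 1) (hϖ₁0 : ϖ₁ ≠ 0) (hϖ₂0 : ϖ₂ ≠ 0)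
    (hD'₁ : ∀ y : L', y ≠ 0 → ∃ m : ℤ, V'₁.valuation y = V'₁.valuation ϖ₁ ^ m)
    (hD'₂ : ∀ y : L', y ≠ 0 → ∃ m : ℤ, V'₂.valuation y = V'₂.valuation ϖ₂ ^ m)
    (Nα Nβ : L₀ → L')
    (hNα₁ : ∀ x : L₀, x ≠ 0 → ∀ k₁ k₂ : ℤ, V₂₀.valuation x = V₂₀.valuation π₂₀ ^ k₁ →
      V₁₁.valuation x = V₁₁.valuation π₁₁ ^ k₂ →
      V'₁.valuation (Nα x) = V'₁.valuation ϖ₁ ^ (k₁ + k₂))
    (hNα₂ : ∀ x : L₀, x ≠ 0 → ∀ k₃ : ℤ, V₀₂.valuation x = V₀₂.valuation π₀₂ ^ k₃ →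
      V'₂.valuation (Nα x) = V'₂.valuation ϖ₂ ^ ((q : ℤ) * k₃))
    (hNβ₁ : ∀ x : L₀, x ≠ 0 → ∀ k₁ : ℤ, V₂₀.valuation x = V₂₀.valuation π₂₀ ^ k₁ →
      V'₁.valuation (Nβ x) = V'₁.valuation ϖ₁ ^ ((q : ℤ) * k₁))
    (hNβ₂ : ∀ x : L₀, x ≠ 0 → ∀ k₂ k₃ : ℤ, V₁₁.valuation x = V₁₁.valuation π₁₁ ^ k₂ →
      V₀₂.valuation x = V₀₂.valuation π₀₂ ^ k₃ →
      V'₂.valuation (Nβ x) = V'₂.valuation ϖ₂ ^ (k₂ + k₃))
    (f : L₀) (hf : f ≠ 0) (cα gα cβ gβ : L') (hα : Nα f = cα * gα ^ n)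
    (hβ : Nβ f = cβ * gβ ^ n)
    (hcα : ∃ m : ℤ, V'₁.valuation cα = V'₁.valuation ϖ₁ ^ m ∧
      V'₂.valuation cα = V'₂.valuation ϖ₂ ^ m)
    (hcβ : ∃ m : ℤ, V'₁.valuation cβ = V'₁.valuation ϖ₁ ^ m ∧
      V'₂.valuation cβ = V'₂.valuation ϖ₂ ^ m) :
    ∃ (b : ℤ) (w : L₀), w ≠ 0 ∧
      (f ^ (q + 1) * q₀ ^ (-b) * w ^ n ∈ V₂₀ ∧ (f ^ (q + 1) * q₀ ^ (-b) * w ^ n)⁻¹ ∈ V₂₀) ∧
      (f ^ (q + 1) * q₀ ^ (-b) * w ^ n ∈ V₁₁ ∧ (f ^ (q + 1) * q₀ ^ (-b) * w ^ n)⁻¹ ∈ V₁₁) ∧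
      (f ^ (q + 1) * q₀ ^ (-b) * w ^ n ∈ V₀₂ ∧ (f ^ (q + 1) * q₀ ^ (-b) * w ^ n)⁻¹ ∈ V₀₂) := by
  obtain ⟨b, c₂, c₃, h1, h2, h3⟩ := valvec_explicit V₂₀ V₁₁ V₀₂ V'₁ V'₂ π₂₀ π₁₁ π₀₂ q₀ t₁₁ t₀₂
    ϖ₁ ϖ₂ q n hq hn hπ₂₀0 hπ₁₁0 hπ₀₂0 hD₂₀ hD₁₁ hD₀₂ hq₂₀ hq₁₁ hq₀₂ ht₁₁ ht₀₂ hϖ₁ hϖ₂ hϖ₁0 hϖ₂0
    hD'₁ hD'₂ Nα Nβ hNα₁ hNα₂ hNβ₁ hNβ₂ f hf cα gα cβ gβ hα hβ hcα hcβ
  have ht₁₁0 : t₁₁ ≠ 0 := by
    rintro rfl
    have := ht₁₁.1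
    rw [map_zero] at this
    exact zero_ne_one this
  have ht₀₂0 : t₀₂ ≠ 0 := by
    rintro rfl
    have := ht₀₂.1
    rw [map_zero] at this
    exact zero_ne_one this
  exact ⟨b, t₁₁ ^ (-c₂) * t₀₂ ^ (-c₃),
    mul_ne_zero (zpow_ne_zero _ ht₁₁0) (zpow_ne_zero _ ht₀₂0),
    mem_and_inv_mem_of_val_eq_one _ h1, mem_and_inv_mem_of_val_eq_one _ h2,
    mem_and_inv_mem_of_val_eq_one _ h3⟩

/-- The norm of `h = f ^ (q + 1) * q₀ ^ (-b) * w ^ n` is again a constant times an `n`-th power. -/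
theorem valvec_norm {K' : Type*} [Field K'] [Algebra K' L'] (N : L₀ →* L') (n : ℕ) (E : ℕ)
    (f q₀ w : L₀) (hq₀ : q₀ ≠ 0) (b : ℤ) (c d : K') (g : L')
    (hN : N f = algebraMap K' L' c * g ^ n) (hNq : N q₀ = algebraMap K' L' d) :
    N (f ^ E * q₀ ^ (-b) * w ^ n)
      = algebraMap K' L' (c ^ E * d ^ (-b)) * (g ^ E * N w) ^ n := by
  rw [map_mul, map_mul, map_pow, map_pow, monoidHom_zpow N _ hq₀, hN, hNq, map_mul, map_pow,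
    map_zpow₀, mul_pow, mul_pow, ← pow_mul, ← pow_mul, mul_comm n E]
  ring

/-- **Valuations of constants**: if every non-zero constant is a unit times a power of `q`, then
the valuation of a non-zero constant is the same power of the valuation of `q` for all
valuation rings containing the integral constants. -/
theorem const_val {R Kf : Type*} [CommRing R] [Field Kf] [Algebra R Kf] [Algebra Kf L']
    [Algebra R L'] [IsScalarTower R Kf L'] (q : R)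
    (hdvr : ∀ c : Kf, c ≠ 0 → ∃ (u : Rˣ) (m : ℤ),
      c = algebraMap R Kf (u : R) * algebraMap R Kf q ^ m)
    (V'₁ V'₂ : ValuationSubring L') (h₁ : ∀ r : R, algebraMap R L' r ∈ V'₁)
    (h₂ : ∀ r : R, algebraMap R L' r ∈ V'₂) (c : Kf) (hc : c ≠ 0) :
    ∃ m : ℤ, V'₁.valuation (algebraMap Kf L' c) = V'₁.valuation (algebraMap R L' q) ^ m ∧
      V'₂.valuation (algebraMap Kf L' c) = V'₂.valuation (algebraMap R L' q) ^ m := by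
  obtain ⟨u, m, rfl⟩ := hdvr c hc
  have key : ∀ V' : ValuationSubring L', (∀ r : R, algebraMap R L' r ∈ V') →
      V'.valuation (algebraMap Kf L' (algebraMap R Kf (u : R) * algebraMap R Kf q ^ m))
        = V'.valuation (algebraMap R L' q) ^ m := by
    intro V' hV'
    have hu0 : algebraMap R L' (u : R) ≠ 0 := by
      intro h0
      have h1 : algebraMap R L' (u : R) * algebraMap R L' ((u⁻¹ : Rˣ) : R) = 1 := by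
        rw [← map_mul, Units.mul_inv, map_one]
      rw [h0, zero_mul] at h1
      exact zero_ne_one h1
    have hinv : (algebraMap R L' (u : R))⁻¹ = algebraMap R L' ((u⁻¹ : Rˣ) : R) := by
      rw [inv_eq_iff_eq_inv]
      refine eq_inv_of_mul_eq_one_left ?_
      rw [← map_mul, Units.mul_inv, map_one]
    have hu1 : V'.valuation (algebraMap R L' (u : R)) = 1 :=
      valuation_eq_one_of_mem_inv_mem V' hu0 (hV' _) (by rw [hinv]; exact hV' _)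
    rw [map_mul, map_zpow₀, ← IsScalarTower.algebraMap_apply, ← IsScalarTower.algebraMap_apply,
      map_mul, map_zpow₀, hu1, one_mul]
  exact ⟨m, key V'₁ h₁, key V'₂ h₂⟩

end ValVec

end Fermat.Agent.S36.NU.H16
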