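import Fermat.Agent.S36.NU.H17_BranchMod
import Fermat.Agent.S36.NU.H82_Val0

/-!
# S36 / NU-B, (L2-iv) modular wiring (helper17): the branches of the chart of `1 / j`

Level `N = M q²`, `q ∤ M` tame; `chartInf` = the chart of `u = 1 / j` (helper88).

* components `20`, `11` : global, by `H24.branch_of_normal` (lift `incl f`, `f` from
  `H17.normalImg_good_inv`);
* component `02` : at the closed points with `u ∈ 𝔪` (the cusps), by
  `H17.branch_of_normal_local`: the lift of `y` is `G(u)^m · f(q²τ)`, where `G ∈ R[X]`,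
  `G(0) = 1` comes from the integrality of `j` over `R[j'']` (`j0_isIntegral_jdd`, from
  `crit0` for `j''` and the Atkin–Lehner involution `W_{q²}`);
* `branch_chartInf` : **the hypothesis `hbr` of `H88.pointDataAt_chartInf`**.
-/

set_option autoImplicit false
set_option synthInstance.maxHeartbeats 400000
set_option maxHeartbeats 1000000
set_option linter.style.haveILetI false
set_option linter.unusedSectionVars false

noncomputable section

open ModularCurve AlgebraicCurve Polynomial IntermediateField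
open Fermat.Agent.S24 Fermat.Agent.BAD.H88 Fermat.Agent.S28 Fermat.Agent.S28.H73
open Fermat.Agent.RED.H73 Fermat.Agent.RED.H17 Fermat.Agent.S36.NU.H88
open Fermat.Agent.S36.NU.H23 Fermat.Agent.S36.NU.H41
open Fermat.Agent.S36.NU.H16 Fermat.Agent.S36.NU.H65 Fermat.Agent.BAD

namespace Fermat.Agent.S36.NU.H17

section Ubar

variable (A : ValuationSubring Kbar) (M : ℕ) [NeZero M]

theorem jFM_ne_zero : Fermat.Agent.RED.H73.jF (L := Kbar) M ≠ 0 := by
  rw [← Fermat.Agent.RED.H76.jF_eq]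
  intro h
  exact Fermat.Agent.S24.jF_transcendental M (h ▸ isAlgebraic_zero)

/-- The reduction of `1 / j` at the level `M`. -/
def ubar : FM A M :=
  redM A M ⟨(Fermat.Agent.RED.H73.jF (L := Kbar) M)⁻¹, Fermat.Agent.RED.H73.jF_inv_mem A M⟩

theorem ubar_eq : ubar A M = (jbar A M)⁻¹ :=
  H28.red_inv_eq (VM A M) (redM A M) (jF_mem A M) (Fermat.Agent.RED.H73.jF_inv_mem A M)
    (jFM_ne_zero M)

variable {q : ℕ} (hq : q.Prime) (hqM : ¬ q ∣ M) (hA : A.LiesOverPrime q)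

include hq hqM hA in
theorem finiteDimensional_ubar : FiniteDimensional ↥(kV A)⟮ubar A M⟯ (FM A M) := by
  haveI := finiteDimensional_jbar A M hq hqM hA
  rw [ubar_eq]
  exact H88.finiteDimensional_adjoin_inv (kV A) (jbar A M)

include hq hqM hA in
theorem isSeparable_ubar : Algebra.IsSeparable ↥(kV A)⟮ubar A M⟯ (FM A M) := by
  haveI := isSeparable_jbar A M hq hqM hA
  rw [ubar_eq]
  exact H88.isSeparable_adjoin_inv (kV A) (jbar A M)

end Ubar

section Transfer

variable (A : ValuationSubring Kbar) (q M : ℕ) (B k : ℤ) (hB : B * M + k * q = 1) (hq : q.Prime)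
  [NeZero M] [NeZero q] [NeZero (M * q * q)] (hqM : ¬ q ∣ M) (hA : A.LiesOverPrime q)
  (ht : H91.TameAt M q)

attribute [local instance] algkM

theorem coe_inv_L0 (x : ↥(L0 A (M * q * q))) :
    ((x⁻¹ : ↥(L0 A (M * q * q))) : FN (M * q * q)) = (x : FN (M * q * q))⁻¹ := rfl

/-- `incl f` is integral over `K^ur[1/j]`. -/
theorem isIntegral_incl_inv (f : FN M) (hf : f ∈ L0 A M)
    (hint : ((aeval (Fermat.Agent.RED.H73.jF (L := Kbar) M)⁻¹ :
        Kbar[X] →ₐ[Kbar] FN M).toRingHom.comp (mapRingHom (iotaUr A))).IsIntegralElem f) :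
    IsIntegral ↥(Algebra.adjoin ↥(Kur A) {(j0 A (M * q * q))⁻¹})
      (inclL0 A (hleMN q M) ⟨f, hf⟩) := by
  refine isIntegral_adjoin_of_isIntegralElem A (M * q * q) (j0 A (M * q * q))⁻¹
    (inclL0 A (hleMN q M) ⟨f, hf⟩) ?_
  have h := H22.isIntegralElem_map_algHom A M (incAA q M) _ f hint
  have hj : incAA q M (Fermat.Agent.RED.H73.jF (L := Kbar) M)⁻¹
      = (((j0 A (M * q * q))⁻¹ : ↥(L0 A (M * q * q))) : FN (M * q * q)) := by
    rw [map_inv₀, ← Fermat.Agent.RED.H76.jF_eq, ← jdF_one_eq_jF M, incAA_jdF_one, coe_inv_L0,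
      coe_j0']
  rw [hj] at h
  rw [coe_inclL0_eq_incAA]
  exact h

/-- `f(q²τ)` is integral over `K^ur[1/j'']`. -/
theorem isIntegral_incBB_inv (f : FN M) (hf : f ∈ L0 A M)
    (hint : ((aeval (Fermat.Agent.RED.H73.jF (L := Kbar) M)⁻¹ :
        Kbar[X] →ₐ[Kbar] FN M).toRingHom.comp (mapRingHom (iotaUr A))).IsIntegralElem f) :
    IsIntegral ↥(Algebra.adjoin ↥(Kur A) {(jdd A q M)⁻¹})
      (⟨incBB q M f, incBB_mem_L0 A q M f hf⟩ : ↥(L0 A (M * q * q))) := by
  refine isIntegral_adjoin_of_isIntegralElem A (M * q * q) (jdd A q M)⁻¹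
    ⟨incBB q M f, incBB_mem_L0 A q M f hf⟩ ?_
  have h := H22.isIntegralElem_map_algHom A M (incBB q M) _ f hint
  haveI : NeZero (q * q) := ⟨mul_ne_zero (NeZero.ne q) (NeZero.ne q)⟩
  have hj : incBB q M (Fermat.Agent.RED.H73.jF (L := Kbar) M)⁻¹
      = (((jdd A q M)⁻¹ : ↥(L0 A (M * q * q))) : FN (M * q * q)) := by
    rw [map_inv₀, ← Fermat.Agent.RED.H76.jF_eq, ← jdF_one_eq_jF M,
      incBB_jdF_one q M (sq_dvd_lvl q M), coe_inv_L0, coe_jdd]
  rw [hj] at h
  exact h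

/-! ### The Atkin–Lehner involution and the integrality of `j` over `R[j'']` -/

/-- `W_{q²}` on the inertia-fixed functions. -/
def wS0 : ↥(L0 A (M * q * q)) →+* ↥(L0 A (M * q * q)) :=
  (((wS q M B k hB : FN (M * q * q) ≃ₐ[Kbar] FN (M * q * q)) :
      FN (M * q * q) →+* FN (M * q * q)).comp (L0 A (M * q * q)).subtype).codRestrict
    (L0 A (M * q * q))
    (fun x => Fermat.Agent.S36.NU.H82.wSq_mem_L0 A (M * q * q) q M B k (lvl q M) hB
      (x : FN (M * q * q)) x.2)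

theorem coe_wS0 (x : ↥(L0 A (M * q * q))) :
    ((wS0 A q M B k hB x : ↥(L0 A (M * q * q))) : FN (M * q * q))
      = wS q M B k hB (x : FN (M * q * q)) := rfl

include hq in
theorem wS0_j0 : wS0 A q M B k hB (j0 A (M * q * q)) = jdd A q M := by
  apply Subtype.ext
  apply Subtype.ext
  rw [coe_wS0, wS_j0 A q M B k hB hq, coe_jdd_series]

include hq in
theorem wS0_jdd : wS0 A q M B k hB (jdd A q M) = j0 A (M * q * q) := by
  apply Subtype.ext
  apply Subtype.ext
  rw [coe_wS0, wS_jdd A q M B k hB hq, coe_j0_series]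

theorem wS0_const (r : ↥(Rur A)) :
    wS0 A q M B k hB (algebraMap ↥(Rur A) ↥(L0 A (M * q * q)) r)
      = algebraMap ↥(Rur A) ↥(L0 A (M * q * q)) r := by
  apply Subtype.ext
  rw [coe_wS0, coe_algebraMap_Rur]
  exact (wS q M B k hB).commutes _

include hB hq in
theorem jdd_ne_zero : jdd A q M ≠ 0 := by
  rw [← wS0_j0 A q M B k hB hq]
  exact (map_ne_zero (wS0 A q M B k hB)).2 (j0_ne_zero A (M * q * q))

include hB hq hqM hA ht in
/-- **`j` is integral over `R^ur[j'']`.** -/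
theorem j0_isIntegral_jdd :
    IsIntegral ↥(Algebra.adjoin ↥(Rur A) {jdd A q M}) (j0 A (M * q * q)) := by
  have hjdd : IsIntegral ↥(Algebra.adjoin ↥(Rur A) {j0 A (M * q * q)}) (jdd A q M) :=
    H28.crit0 A q M B k hB hq hqM hA ht (isIntegral_jdd A q M)
      (jdd_mem_totM A q M B k hB hq hqM hA ht)
  have hmap : ∀ x ∈ Algebra.adjoin ↥(Rur A) {j0 A (M * q * q)},
      wS0 A q M B k hB x ∈ Algebra.adjoin ↥(Rur A) {jdd A q M} := by
    intro x hx
    induction hx using Algebra.adjoin_induction with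
    | mem y hy =>
      rw [Set.mem_singleton_iff] at hy
      subst hy
      rw [wS0_j0 A q M B k hB hq]
      exact Algebra.subset_adjoin rfl
    | algebraMap r =>
      rw [wS0_const]
      exact Subalgebra.algebraMap_mem _ r
    | add _ _ _ _ h1 h2 =>
      rw [map_add]
      exact add_mem h1 h2
    | mul _ _ _ _ h1 h2 =>
      rw [map_mul]
      exact mul_mem h1 h2
  let φ : ↥(Algebra.adjoin ↥(Rur A) {j0 A (M * q * q)})
      →+* ↥(Algebra.adjoin ↥(Rur A) {jdd A q M}) :=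
    ((wS0 A q M B k hB).comp
      (Algebra.adjoin ↥(Rur A) {j0 A (M * q * q)}).val.toRingHom).codRestrict
      (Algebra.adjoin ↥(Rur A) {jdd A q M}).toSubring (fun x => hmap x.1 x.2)
  have h1 : IsIntegral ↥(Algebra.adjoin ↥(Rur A) {jdd A q M})
      (wS0 A q M B k hB (jdd A q M)) :=
    IsIntegral.map_of_comp_eq φ (wS0 A q M B k hB) (by ext x; rfl) hjdd
  rwa [wS0_jdd A q M B k hB hq] at h1

end Transfer

section BranchInf

variable (A : ValuationSubring Kbar) (q M : ℕ) (B k : ℤ) (hB : B * M + k * q = 1) (hq : q.Prime)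
  [NeZero M] [NeZero q] [NeZero (M * q * q)] (hqM : ¬ q ∣ M) (hA : A.LiesOverPrime q)
  (ht : H91.TameAt M q)

attribute [local instance] algkM

theorem u0_mem_chartInf : (j0 A (M * q * q))⁻¹ ∈ (chartInf A q M B k hB hq hqM hA ht).B :=
  self_mem_intSub _ _

/-- The lift `incl f` of a function of the good level lies in `B∞`. -/
theorem incl_mem_chartInf (f : FN M) (hf : f ∈ L0 A M) (hV : f ∈ VM A M)
    (hint : ((aeval (Fermat.Agent.RED.H73.jF (L := Kbar) M)⁻¹ :
        Kbar[X] →ₐ[Kbar] FN M).toRingHom.comp (mapRingHom (iotaUr A))).IsIntegralElem f) :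
    inclL0 A (hleMN q M) ⟨f, hf⟩ ∈ (chartInf A q M B k hB hq hqM hA ht).B := by
  refine H28.critInf A q M B k hB hq hqM hA ht (isIntegral_incl_inv A q M f hf hint) ?_
  intro i
  fin_cases i
  · exact hVE20 A q M ⟨f, hf⟩ hV
  · exact hVE11 A q M B k hB hq ⟨f, hf⟩ hV
  · exact hVE02 A q M B k hB hq ⟨f, hf⟩ hV

/-- The reduction of `1 / j` on the components `20`, `11`, `02`. -/
theorem r20_u0_eq (h : (j0 A (M * q * q))⁻¹ ∈ V20o A q M) :
    r20 A q M hq hqM hA ⟨_, h⟩ = ubar A M := by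
  rw [H28.red_inv_eq (V20o A q M) (r20 A q M hq hqM hA) (j0_mem20 A q M) h
    (j0_ne_zero A (M * q * q)), r20_j0_eq, ubar_eq]

theorem r11_u0_eq (h : (j0 A (M * q * q))⁻¹ ∈ V11o A q M B k hB hq) :
    r11 A q M B k hB hq hqM hA ⟨_, h⟩ = ubar A M := by
  rw [H28.red_inv_eq (V11o A q M B k hB hq) (r11 A q M B k hB hq hqM hA)
    (j0_mem11 A q M B k hB hq) h (j0_ne_zero A (M * q * q)), r11_j0_eq, ubar_eq]

theorem r02_u0_eq (h : (j0 A (M * q * q))⁻¹ ∈ V02o A q M B k hB) :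
    r02 A q M B k hB hq hqM hA ⟨_, h⟩ = ubar A M ^ q ^ 2 := by
  rw [H28.red_inv_eq (V02o A q M B k hB) (r02 A q M B k hB hq hqM hA)
    (j0_mem02 A q M B k hB hq) h (j0_ne_zero A (M * q * q)), r02_j0_eq, ubar_eq, inv_pow]

/-- **Branches of the chart of `1 / j` on the component `20`.** -/
theorem branch_chartInf_zero (𝔪 : Ideal (chartInf A q M B k hB hq hqM hA ht).B)
    (hmax : 𝔪.IsMaximal) (h𝔪 : (chartInf A q M B k hB hq hqM hA ht).Icomp 0 ≤ 𝔪) :
    Nonempty (Branch (chartInf A q M B k hB hq hqM hA ht) 𝔪 0) := by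
  haveI : IsAlgClosed (kV A) := isAlgClosed_kV A
  refine @H24.branch_of_normal _ _ _ _ _ _ _ _ _ _ _ _ (chartInf A q M B k hB hq hqM hA ht) 0
    (j0 A (M * q * q))⁻¹ (u0_mem_chartInf A q M B k hB hq hqM hA ht) (fun β => β.2) (ubar A M)
    (finiteDimensional_ubar A M hq hqM hA) (isSeparable_ubar A M hq hqM hA) ?_ ?_ 𝔪 hmax h𝔪
  · have e : (chartInf A q M B k hB hq hqM hA ht).rdB 0
        ⟨(j0 A (M * q * q))⁻¹, u0_mem_chartInf A q M B k hB hq hqM hA ht⟩ = ubar A M :=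
      r20_u0_eq A q M hq hqM hA _
    rw [e]
    exact isIntegral_self_adjoin _
  · intro y hy
    obtain ⟨f, hf, -, hint, -, hV, hred⟩ :=
      normalImg_good_inv A M hq hA hqM _ rfl (Fermat.Agent.RED.H73.jF_inv_mem A M) y hy
    refine ⟨⟨_, incl_mem_chartInf A q M B k hB hq hqM hA ht f hf hV hint⟩, ?_⟩
    have e : (chartInf A q M B k hB hq hqM hA ht).rdB 0
        ⟨_, incl_mem_chartInf A q M B k hB hq hqM hA ht f hf hV hint⟩ = redM A M ⟨f, hV⟩ :=
      r20_incl A q M hq hqM hA ⟨⟨f, hf⟩, hV⟩ _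
    rw [e, hred]

/-- **Branches of the chart of `1 / j` on the component `11`.** -/
theorem branch_chartInf_one (𝔪 : Ideal (chartInf A q M B k hB hq hqM hA ht).B)
    (hmax : 𝔪.IsMaximal) (h𝔪 : (chartInf A q M B k hB hq hqM hA ht).Icomp 1 ≤ 𝔪) :
    Nonempty (Branch (chartInf A q M B k hB hq hqM hA ht) 𝔪 1) := by
  haveI : IsAlgClosed (kV A) := isAlgClosed_kV A
  refine @H24.branch_of_normal _ _ _ _ _ _ _ _ _ _ _ _ (chartInf A q M B k hB hq hqM hA ht) 1
    (j0 A (M * q * q))⁻¹ (u0_mem_chartInf A q M B k hB hq hqM hA ht) (fun β => β.2) (ubar A M)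
    (finiteDimensional_ubar A M hq hqM hA) (isSeparable_ubar A M hq hqM hA) ?_ ?_ 𝔪 hmax h𝔪
  · have e : (chartInf A q M B k hB hq hqM hA ht).rdB 1
        ⟨(j0 A (M * q * q))⁻¹, u0_mem_chartInf A q M B k hB hq hqM hA ht⟩ = ubar A M :=
      r11_u0_eq A q M B k hB hq hqM hA _
    rw [e]
    exact isIntegral_self_adjoin _
  · intro y hy
    obtain ⟨f, hf, -, hint, -, hV, hred⟩ :=
      normalImg_good_inv A M hq hA hqM _ rfl (Fermat.Agent.RED.H73.jF_inv_mem A M) y hy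
    refine ⟨⟨_, incl_mem_chartInf A q M B k hB hq hqM hA ht f hf hV hint⟩, ?_⟩
    have e : (chartInf A q M B k hB hq hqM hA ht).rdB 1
        ⟨_, incl_mem_chartInf A q M B k hB hq hqM hA ht f hf hV hint⟩ = redM A M ⟨f, hV⟩ :=
      r11_incl A q M B k hB hq hqM hA ⟨⟨f, hf⟩, hV⟩ _
    rw [e, hred]

/-- **The local lifts on the component `02` at a cusp.** -/
theorem exists_lift_two (𝔪 : Ideal (chartInf A q M B k hB hq hqM hA ht).B)
    (hmax : 𝔪.IsMaximal)
    (hu : ∀ β : (chartInf A q M B k hB hq hqM hA ht).B,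
      (β : ↥(L0 A (M * q * q))) = (j0 A (M * q * q))⁻¹ → β ∈ 𝔪)
    (y : kap3 (FM A M) (FM A M) 2)
    (hy : IsIntegral ↥(Algebra.adjoin (kV A)
      ({(ubar A M : kap3 (FM A M) (FM A M) 2)} : Set (kap3 (FM A M) (FM A M) 2))) y) :
    ∃ g b : (chartInf A q M B k hB hq hqM hA ht).B, g ∉ 𝔪 ∧
      (chartInf A q M B k hB hq hqM hA ht).rdB 2 b
        = (chartInf A q M B k hB hq hqM hA ht).rdB 2 g * y := by
  obtain ⟨f, hf, -, hint, -, hV, hred⟩ :=
    normalImg_good_inv A M hq hA hqM _ rfl (Fermat.Agent.RED.H73.jF_inv_mem A M) y hy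
  set F' : ↥(L0 A (M * q * q)) := ⟨incBB q M f, incBB_mem_L0 A q M f hf⟩ with hF'
  have hF'int : IsIntegral ↥(Algebra.adjoin ↥(Kur A) {(jdd A q M)⁻¹}) F' :=
    isIntegral_incBB_inv A q M f hf hint
  have hF'V : ∀ i, F' ∈ (totM A q M B k hB hq hqM hA ht).V i := by
    intro i
    fin_cases i
    · exact (incBB_mem_V20_iff A q M f).mpr hV
    · exact (incBB_mem_V11_iff A q M B k hB hq f).mpr hV
    · exact (incBB_mem_V02_iff A q M B k hB hq f).mpr hV
  obtain ⟨G, hG0, -, hG⟩ := exists_unit_pow_mul_isIntegral (R := ↥(Rur A)) (K := ↥(Kur A))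
    (j0_ne_zero A (M * q * q)) (jdd_ne_zero A q M B k hB hq)
    (j0_isIntegral_jdd A q M B k hB hq hqM hA ht)
  obtain ⟨m, hm⟩ := hG F' hF'int
  -- the unit `g = G(u)^m`
  set u : (chartInf A q M B k hB hq hqM hA ht).B :=
    ⟨(j0 A (M * q * q))⁻¹, u0_mem_chartInf A q M B k hB hq hqM hA ht⟩ with hu'
  set g : (chartInf A q M B k hB hq hqM hA ht).B := aeval u G ^ m with hg
  have hgc : ((g : (chartInf A q M B k hB hq hqM hA ht).B) : ↥(L0 A (M * q * q)))
      = aeval (j0 A (M * q * q))⁻¹ G ^ m := by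
    rw [hg, SubmonoidClass.coe_pow, aeval_subalgebra_coe]
  have hgV : ∀ i, ((g : (chartInf A q M B k hB hq hqM hA ht).B) : ↥(L0 A (M * q * q)))
      ∈ (totM A q M B k hB hq hqM hA ht).V i := fun i =>
    (chartInf A q M B k hB hq hqM hA ht).B_le i _ g.2
  have hb : ((g : (chartInf A q M B k hB hq hqM hA ht).B) : ↥(L0 A (M * q * q))) * F'
      ∈ (chartInf A q M B k hB hq hqM hA ht).B := by
    refine H28.critInf A q M B k hB hq hqM hA ht ?_ (fun i => mul_mem (hgV i) (hF'V i))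
    rw [hgc]
    exact hm m le_rfl
  refine ⟨g, ⟨_, hb⟩, ?_, ?_⟩
  · intro h
    have h1 : aeval u G ∈ 𝔪 := hmax.isPrime.mem_of_pow_mem m h
    exact aeval_not_mem_of_coeff_zero 𝔪 hmax.ne_top (hu u rfl) G hG0 h1
  · have e1 : (chartInf A q M B k hB hq hqM hA ht).rdB 2 ⟨_, hb⟩
        = r02 A q M B k hB hq hqM hA (⟨_, hgV 2⟩ * ⟨F', hF'V 2⟩) := rfl
    have e2 : (chartInf A q M B k hB hq hqM hA ht).rdB 2 g
        = r02 A q M B k hB hq hqM hA ⟨_, hgV 2⟩ := rfl
    have e3 : r02 A q M B k hB hq hqM hA ⟨F', hF'V 2⟩ = redM A M ⟨f, hV⟩ :=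
      r02_incBB A q M B k hB hq hqM hA ⟨⟨f, hf⟩, hV⟩
    rw [e1, e2, map_mul, e3, hred]
    rfl

/-- **Branches of the chart of `1 / j` on the component `02`, at the cusps.** -/
theorem branch_chartInf_two (𝔪 : Ideal (chartInf A q M B k hB hq hqM hA ht).B)
    (hmax : 𝔪.IsMaximal)
    (hu : ∀ β : (chartInf A q M B k hB hq hqM hA ht).B,
      (β : ↥(L0 A (M * q * q))) = (j0 A (M * q * q))⁻¹ → β ∈ 𝔪)
    (h𝔪 : (chartInf A q M B k hB hq hqM hA ht).Icomp 2 ≤ 𝔪) :
    Nonempty (Branch (chartInf A q M B k hB hq hqM hA ht) 𝔪 2) := by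
  haveI : IsAlgClosed (kV A) := isAlgClosed_kV A
  refine @branch_of_normal_local _ _ _ _ _ _ _ _ _ _ _ _ (chartInf A q M B k hB hq hqM hA ht) 2
    (j0 A (M * q * q))⁻¹ (u0_mem_chartInf A q M B k hB hq hqM hA ht) (fun β => β.2) (ubar A M)
    (finiteDimensional_ubar A M hq hqM hA) (isSeparable_ubar A M hq hqM hA) ?_ 𝔪 hmax h𝔪
    (exists_lift_two A q M B k hB hq hqM hA ht 𝔪 hmax hu)
  have e : (chartInf A q M B k hB hq hqM hA ht).rdB 2
      ⟨(j0 A (M * q * q))⁻¹, u0_mem_chartInf A q M B k hB hq hqM hA ht⟩ = ubar A M ^ q ^ 2 :=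
    r02_u0_eq A q M B k hB hq hqM hA _
  rw [e]
  exact (isIntegral_self_adjoin _).pow _

/-- **(L2-iv) `hbr` for the chart of `1 / j`** (the hypothesis `hbr` of
`H88.pointDataAt_chartInf`): every closed point of the special fibre where `1 / j` vanishes has a
branch on every component through it. -/
theorem branch_chartInf :
    ∀ 𝔪 : Ideal (chartInf A q M B k hB hq hqM hA ht).B, 𝔪.IsMaximal →
      (∀ β : (chartInf A q M B k hB hq hqM hA ht).B,
        (β : ↥(L0 A (M * q * q))) = (j0 A (M * q * q))⁻¹ → β ∈ 𝔪) →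
      ∀ i, (chartInf A q M B k hB hq hqM hA ht).Icomp i ≤ 𝔪 →
        Nonempty (Branch (chartInf A q M B k hB hq hqM hA ht) 𝔪 i) := by
  intro 𝔪 hmax hu i hi
  fin_cases i
  · exact branch_chartInf_zero A q M B k hB hq hqM hA ht 𝔪 hmax hi
  · exact branch_chartInf_one A q M B k hB hq hqM hA ht 𝔪 hmax hi
  · exact branch_chartInf_two A q M B k hB hq hqM hA ht 𝔪 hmax hu hi

end BranchInf

end Fermat.Agent.S36.NU.H17
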