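import Mathlib

/-!
# S36 / NU-B, leaf (L2-i) NORMAL-IMG, part 1 (helper17): Galois descent of decompositions

`G` a group acting on a field `C`, `K = C^G` the fixed field.

* `eq_zero_of_forall_sum_smul_eq_zero` (Artin): if `c₁, …, cₙ ∈ C` are linearly independent over
  `K`, no nonzero `l ∈ Cⁿ` satisfies `∑ lᵢ σ(cᵢ) = 0` for all `σ ∈ G`;
* `span_conj_eq_top` : the conjugate vectors `(σ c₁, …, σ cₙ)` span `Cⁿ`;
* `exists_indep_decomp` : an element of the `C`-span of a `K`-subspace `S` is `∑ cᵢ gᵢ` with
  `gᵢ ∈ S` and `cᵢ` linearly independent over `K`;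
* `mem_of_conj_mem` : if `f = ∑ cᵢ uᵢ` with `cᵢ` linearly independent over `K`, and `U` is a
  `C`-subspace containing all `∑ σ(cᵢ) uᵢ`, then `uᵢ ∈ U`.
-/

set_option autoImplicit false
set_option linter.unusedSectionVars false
set_option linter.style.haveILetI false
set_option linter.unusedSimpArgs false

namespace Fermat.Agent.S36.NU.H17

section Artin

variable (G : Type*) [Group G] (C : Type*) [Field C] [MulSemiringAction G C]

/-- **Artin**: if the `cᵢ` are linearly independent over the fixed field, no nonzero `l`
kills all the conjugate vectors. -/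
theorem eq_zero_of_forall_sum_smul_eq_zero {n : ℕ} (c : Fin n → C)
    (hc : LinearIndependent (FixedPoints.subfield G C) c) (l : Fin n → C)
    (h : ∀ σ : G, ∑ i, l i * σ • c i = 0) : l = 0 := by
  classical
  have hinj : Function.Injective c := hc.injective
  have h1 : LinearIndepOn (FixedPoints.subfield G C) id
      ((Finset.univ.image c : Finset C) : Set C) := by
    have := hc.linearIndepOn_id
    rwa [Finset.coe_image, Finset.coe_univ, Set.image_univ]
  have h2 := FixedPoints.linearIndependent_smul_of_linearIndependent G C h1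
  have h3 : LinearIndependent C (fun i : Fin n => MulAction.toFun G C (c i)) := by
    have h2' : LinearIndependent C
        (fun x : ((Finset.univ.image c : Finset C) : Set C) => MulAction.toFun G C (x : C)) := h2
    let e : Fin n → ((Finset.univ.image c : Finset C) : Set C) :=
      fun i => ⟨c i, by simp⟩
    have he : Function.Injective e := fun i j hij => hinj (congrArg Subtype.val hij)
    exact h2'.comp e he
  refine Fintype.linearIndependent_iff.1 h3 l ?_ |> funext
  funext σ
  rw [Finset.sum_apply]
  simpa [MulAction.toFun_apply] using h σ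

/-- The conjugate vectors `(σ c₁, …, σ cₙ)`, `σ ∈ G`, span `Cⁿ`. -/
theorem span_conj_eq_top {n : ℕ} (c : Fin n → C)
    (hc : LinearIndependent (FixedPoints.subfield G C) c) :
    Submodule.span C (Set.range fun σ : G => (fun i => σ • c i : Fin n → C)) = ⊤ := by
  classical
  by_contra hne
  obtain ⟨φ, hφ0, hφ⟩ := Submodule.exists_le_ker_of_lt_top _ (lt_top_iff_ne_top.2 hne)
  have hφv : ∀ v : Fin n → C, φ v = ∑ i, φ (Pi.single i 1) * v i := by
    intro v
    have := LinearMap.pi_apply_eq_sum_univ φ v
    rw [this]
    refine Finset.sum_congr rfl fun i _ => ?_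
    rw [smul_eq_mul, mul_comm]
    congr 2
    funext j
    by_cases hij : j = i
    · subst hij; simp
    · simp [hij, Ne.symm hij]
  have hl : (fun i => φ (Pi.single i 1)) = 0 := by
    refine eq_zero_of_forall_sum_smul_eq_zero G C c hc _ fun σ => ?_
    have : (fun i => σ • c i : Fin n → C) ∈ LinearMap.ker φ :=
      hφ (Submodule.subset_span ⟨σ, rfl⟩)
    rw [LinearMap.mem_ker, hφv] at this
    exact this
  apply hφ0
  refine LinearMap.ext fun v => ?_
  rw [hφv]
  simp only [LinearMap.zero_apply]
  refine Finset.sum_eq_zero fun i _ => ?_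
  have := congrFun hl i
  simp only [Pi.zero_apply] at this
  rw [this, zero_mul]

end Artin

section Decomp

variable {K C M : Type*} [Field K] [Field C] [Algebra K C] [AddCommGroup M]
  [Module C M] [Module K M] [IsScalarTower K C M]

/-- One step of the reduction: a decomposition with `k + 1` terms whose coefficients are
linearly dependent over `K` can be shortened. -/
theorem shorten_decomp (S : Submodule K M) {f : M} {k : ℕ} (c : Fin (k + 1) → C)
    (g : Fin (k + 1) → M) (hg : ∀ i, g i ∈ S) (hf : f = ∑ i, c i • g i)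
    (hdep : ¬ LinearIndependent K c) :
    ∃ (c' : Fin k → C) (g' : Fin k → M), (∀ i, g' i ∈ S) ∧ f = ∑ i, c' i • g' i := by
  obtain ⟨a, ha, i0, hi0⟩ := Fintype.not_linearIndependent_iff.1 hdep
  refine ⟨fun i => c (i0.succAbove i),
    fun i => g (i0.succAbove i) - (a (i0.succAbove i) / a i0) • g i0, fun i => ?_, ?_⟩
  · exact S.sub_mem (hg _) (S.smul_mem _ (hg _))
  · -- `c i0 = - ∑ (a_i / a_i0) c_i`
    have h1 : a i0 • c i0 + ∑ i, a (i0.succAbove i) • c (i0.succAbove i) = 0 := by
      rw [← Fin.sum_univ_succAbove (fun i => a i • c i) i0]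
      exact ha
    have h2 : c i0 = - ∑ i, (a (i0.succAbove i) / a i0) • c (i0.succAbove i) := by
      have h3 : (a i0)⁻¹ • (a i0 • c i0 + ∑ i, a (i0.succAbove i) • c (i0.succAbove i)) = 0 := by
        rw [h1, smul_zero]
      rw [smul_add, smul_smul, inv_mul_cancel₀ hi0, one_smul, Finset.smul_sum] at h3
      rw [eq_neg_iff_add_eq_zero, ← h3]
      congr 1
      refine Finset.sum_congr rfl fun i _ => ?_
      rw [smul_smul, div_eq_inv_mul]
    rw [hf, Fin.sum_univ_succAbove (fun i => c i • g i) i0]
    simp only [smul_sub, Finset.sum_sub_distrib]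
    have h4 : ∑ i, c (i0.succAbove i) • (a (i0.succAbove i) / a i0) • g i0
        = (∑ i, (a (i0.succAbove i) / a i0) • c (i0.succAbove i)) • g i0 := by
      rw [Finset.sum_smul]
      refine Finset.sum_congr rfl fun i _ => ?_
      rw [smul_comm, smul_assoc]
    rw [h4, h2, neg_smul]
    abel

/-- **Decomposition with independent coefficients**: an element of the `C`-span of a
`K`-subspace `S` is `∑ cᵢ gᵢ` with `gᵢ ∈ S` and the `cᵢ` linearly independent over `K`. -/
theorem exists_indep_decomp (S : Submodule K M) {f : M}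
    (hf : f ∈ Submodule.span C (S : Set M)) :
    ∃ (n : ℕ) (c : Fin n → C) (g : Fin n → M), (∀ i, g i ∈ S) ∧ f = ∑ i, c i • g i ∧
      LinearIndependent K c := by
  obtain ⟨n, c, g, hfg⟩ := Submodule.mem_span_set'.1 hf
  have key : ∀ (n : ℕ) (c : Fin n → C) (g : Fin n → M), (∀ i, g i ∈ S) → f = ∑ i, c i • g i →
      ∃ (m : ℕ) (c' : Fin m → C) (g' : Fin m → M), (∀ i, g' i ∈ S) ∧ f = ∑ i, c' i • g' i ∧
        LinearIndependent K c' := by
    intro n
    induction n with
    | zero =>
      intro c g hg hf
      exact ⟨0, c, g, hg, hf, linearIndependent_empty_type⟩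
    | succ k ih =>
      intro c g hg hf
      by_cases hli : LinearIndependent K c
      · exact ⟨k + 1, c, g, hg, hf, hli⟩
      · obtain ⟨c', g', hg', hf'⟩ := shorten_decomp S c g hg hf hli
        exact ih c' g' hg' hf'
  exact key n c (fun i => (g i : M)) (fun i => (g i).2) hfg.symm

end Decomp

section Conj

variable (G : Type*) [Group G] {C M : Type*} [Field C] [MulSemiringAction G C]
  [AddCommGroup M] [Module C M]

/-- If `f = ∑ cᵢ uᵢ` with the `cᵢ` linearly independent over the fixed field, and `U` is a
`C`-subspace containing all the conjugates `∑ σ(cᵢ) uᵢ`, then every `uᵢ` lies in `U`. -/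
theorem mem_of_conj_mem {n : ℕ} (c : Fin n → C)
    (hc : LinearIndependent (FixedPoints.subfield G C) c) (u : Fin n → M) (U : Submodule C M)
    (hU : ∀ σ : G, ∑ i, (σ • c i) • u i ∈ U) (i : Fin n) : u i ∈ U := by
  classical
  let Φ : (Fin n → C) →ₗ[C] M :=
    { toFun := fun w => ∑ i, w i • u i
      map_add' := fun w w' => by
        simp only [Pi.add_apply, add_smul, Finset.sum_add_distrib]
      map_smul' := fun a w => by
        simp only [Pi.smul_apply, smul_eq_mul, mul_smul, RingHom.id_apply, Finset.smul_sum] }
  have hle : Submodule.span C (Set.range fun σ : G => (fun i => σ • c i : Fin n → C))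
      ≤ U.comap Φ := by
    rw [Submodule.span_le]
    rintro _ ⟨σ, rfl⟩
    exact hU σ
  rw [span_conj_eq_top G C c hc] at hle
  have h1 : (Pi.single i 1 : Fin n → C) ∈ U.comap Φ := hle Submodule.mem_top
  have h2 : Φ (Pi.single i 1) = u i := by
    show ∑ j, (Pi.single i 1 : Fin n → C) j • u j = u i
    rw [Finset.sum_eq_single i]
    · simp
    · intro j _ hji
      simp [Pi.single_apply, hji]
    · intro h
      exact absurd (Finset.mem_univ i) h
  rw [← h2]
  exact h1

end Conj

section Elementary

variable {K C M : Type*} [Field K] [Field C] [AddCommGroup M] [Module C M]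

/-- Instance-free form of `exists_indep_decomp`: `K → C` a ring homomorphism, `S` an additive
subgroup of the `C`-module `M` stable under the scalars from `K`. -/
theorem exists_indep_decomp_of_ringHom (ι : K →+* C) (S : AddSubgroup M)
    (hS : ∀ (k : K) (x : M), x ∈ S → ι k • x ∈ S) {f : M}
    (hf : f ∈ Submodule.span C (S : Set M)) :
    ∃ (n : ℕ) (c : Fin n → C) (g : Fin n → M), (∀ i, g i ∈ S) ∧ f = ∑ i, c i • g i ∧
      ∀ a : Fin n → K, ∑ i, ι (a i) * c i = 0 → ∀ i, a i = 0 := by
  letI : Algebra K C := ι.toAlgebra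
  letI : Module K M := Module.compHom M ι
  haveI : IsScalarTower K C M := ⟨fun k c x => by
    show (ι k * c) • x = ι k • (c • x)
    rw [mul_smul]⟩
  let S' : Submodule K M :=
    { carrier := S
      add_mem' := S.add_mem
      zero_mem' := S.zero_mem
      smul_mem' := fun k x hx => hS k x hx }
  obtain ⟨n, c, g, hg, hfg, hli⟩ := exists_indep_decomp (K := K) (C := C) S' hf
  refine ⟨n, c, g, hg, hfg, fun a ha => ?_⟩
  exact Fintype.linearIndependent_iff.1 hli a ha

/-- Linear independence over `K` (through `ι`) gives linear independence over the fixed field,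
if the fixed field is contained in the image of `ι`. -/
theorem linearIndependent_fixedPoints_of_ringHom (G : Type*) [Group G] [MulSemiringAction G C]
    (ι : K →+* C) (hfix : ∀ c : C, (∀ σ : G, σ • c = c) → c ∈ ι.range) {n : ℕ}
    (c : Fin n → C) (hc : ∀ a : Fin n → K, ∑ i, ι (a i) * c i = 0 → ∀ i, a i = 0) :
    LinearIndependent (FixedPoints.subfield G C) c := by
  rw [Fintype.linearIndependent_iff]
  intro a ha i
  have h1 : ∀ i, ∃ k : K, ι k = (a i : C) := fun i => hfix (a i) (fun σ => (a i).2 σ)
  choose k hk using h1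
  have h0 := hc k (by
    simp_rw [hk]
    exact ha) i
  apply Subtype.ext
  rw [← hk i, h0, map_zero]
  rfl

end Elementary

end Fermat.Agent.S36.NU.H17
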