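import Fermat.Agent.RED.H42_Lat3
import Fermat.Agent.S36.NU.H17_Descent

/-!
# S36 / NU-B, leaf (L2-i) NORMAL-IMG, part 2 (helper17): rational lifts of reductions

`ι : K → C` fields, `O` a valuation ring of `C`, `O_K = O ∩ K`, `ψ = coeffMap ι : K((t)) → C((t))`.

* `coeffMap_mem_gaussRingV` : `ψ` maps the Gauss ring of `O_K` into the Gauss ring of `O`;
* `gaussRedV_coeffMap_ne_zero` : and units to units;
* `linearIndependent_coeffMap` : orthonormal families stay orthonormal (if every residue of `O`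
  comes from `K`);
* `coeff_mem_of_sum_mem` : orthonormality for elements of the Gauss ring;
* `exists_rational_lift` : **descent of lifts**: if `K = C^G`, every residue of `O` comes from
  `K`, and `f ∈ C((t))` is a `C`-combination of elements of `ψ(F')`, lies in the Gauss ring and in
  a `C`-subspace `U` stable under `G`, then there is `f' ∈ F'` with `ψ f'` in the Gauss ring and
  in `U`, with the same reduction as `f`.
-/

set_option autoImplicit false
set_option linter.style.haveILetI false
set_option linter.unusedSectionVars false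
set_option linter.unusedSimpArgs false

noncomputable section

open ModularCurve Fermat.Agent.S28 Fermat.Agent.S28.H73 Fermat.Agent.RED.H73
  Fermat.Agent.RED.H42

namespace Fermat.Agent.S36.NU.H17

section Transport

variable {C K : Type} [Field C] [Field K] (ι : K →+* C) (O : ValuationSubring C)

/-- The inclusion `O_K → O`. -/
def inclO : ↥(O.comap ι) →+* ↥O :=
  (ι.comp (O.comap ι).subtype).codRestrict O.toSubring (fun a => a.2)

@[simp] theorem coe_inclO (a : ↥(O.comap ι)) : ((inclO ι O a : ↥O) : C) = ι (a : K) := rfl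

theorem iotaV_coeffMap_inclO (g : LaurentSeries ↥(O.comap ι)) :
    iotaV O (coeffMap (inclO ι O) g) = coeffMap ι (iotaV (O.comap ι) g) := by
  ext p
  rfl

/-- A unit of `O_K` maps to a unit of `O`. -/
theorem isUnit_inclO {a : ↥(O.comap ι)} (ha : IsUnit a) : IsUnit (inclO ι O a) :=
  ha.map (inclO ι O)

theorem redV_coeffMap_inclO_ne_zero {g : LaurentSeries ↥(O.comap ι)}
    (hg : redV (O.comap ι) g ≠ 0) : redV O (coeffMap (inclO ι O) g) ≠ 0 := by
  obtain ⟨p, hp⟩ : ∃ p, (redV (O.comap ι) g).coeff p ≠ 0 := by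
    by_contra hcon
    push Not at hcon
    exact hg (HahnSeries.ext (funext hcon))
  rw [redV_coeff] at hp
  have hu : IsUnit (g.coeff p) := (IsLocalRing.residue_ne_zero_iff_isUnit _).1 hp
  intro h0
  have h1 := congrArg (fun y : LaurentSeries (kV O) => y.coeff p) h0
  simp only [redV_coeff, coeffMap_coeff, HahnSeries.coeff_zero] at h1
  exact (IsLocalRing.residue_ne_zero_iff_isUnit _).2 (isUnit_inclO ι O hu) h1

/-- `ψ` maps the Gauss ring of `O_K` into the Gauss ring of `O`. -/
theorem coeffMap_mem_gaussRingV {x : LaurentSeries K} (hx : x ∈ gaussRingV (O.comap ι)) :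
    coeffMap ι x ∈ gaussRingV O := by
  obtain ⟨g, h, hg, hgx⟩ := hx
  refine ⟨coeffMap (inclO ι O) g, coeffMap (inclO ι O) h,
    redV_coeffMap_inclO_ne_zero ι O hg, ?_⟩
  rw [iotaV_coeffMap_inclO, iotaV_coeffMap_inclO, ← map_mul, hgx]

/-- `ψ` maps units of the Gauss ring to units. -/
theorem gaussRedV_coeffMap_ne_zero {x : LaurentSeries K} (hx : x ∈ gaussRingV (O.comap ι))
    (h : gaussRedV (O.comap ι) ⟨x, hx⟩ ≠ 0) :
    gaussRedV O ⟨coeffMap ι x, coeffMap_mem_gaussRingV ι O hx⟩ ≠ 0 := by
  have hinv : x⁻¹ ∈ gaussRingV (O.comap ι) := inv_mem_gaussRingV (O.comap ι) hx h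
  have hx0 : x ≠ 0 := by
    rintro rfl
    apply h
    have : (⟨0, hx⟩ : gaussRingV (O.comap ι)) = 0 := rfl
    rw [this, map_zero]
  have h1 : (⟨coeffMap ι x, coeffMap_mem_gaussRingV ι O hx⟩ : gaussRingV O)
      * ⟨coeffMap ι x⁻¹, coeffMap_mem_gaussRingV ι O hinv⟩ = 1 := by
    apply Subtype.ext
    show coeffMap ι x * coeffMap ι x⁻¹ = 1
    rw [← map_mul, mul_inv_cancel₀ hx0, map_one]
  have h2 := congrArg (gaussRedV O) h1
  rw [map_mul, map_one] at h2
  exact left_ne_zero_of_mul_eq_one h2

theorem coeffMap_smul (k : K) (x : LaurentSeries K) :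
    coeffMap ι (k • x) = ι k • coeffMap ι x := by
  ext p
  simp

theorem coeffMap_sum_smul {m : ℕ} (r : Fin m → K) (e : Fin m → LaurentSeries K) :
    coeffMap ι (∑ i, r i • e i) = ∑ i, ι (r i) • coeffMap ι (e i) := by
  rw [map_sum]
  exact Finset.sum_congr rfl fun i _ => coeffMap_smul ι _ _

theorem sum_smul_mem_gaussRingV {m : ℕ} (E : Fin m → gaussRingV O) (d : Fin m → ↥O) :
    ∑ i, ((d i : ↥O) : C) • ((E i : gaussRingV O) : LaurentSeries C) ∈ gaussRingV O := by
  refine Subalgebra.sum_mem _ fun i _ => ?_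
  rw [← HahnSeries.C_mul_eq_smul]
  exact C_mul_mem_gaussRingV O (d i) (E i).2

/-- A non-unit of `O_K` maps to a non-unit of `O`. -/
theorem not_isUnit_inclO {a : ↥(O.comap ι)} (ha : ¬ IsUnit a) : ¬ IsUnit (inclO ι O a) := by
  intro hu
  apply ha
  rw [isUnit_iff_inv_mem] at hu ⊢
  obtain ⟨h0, hinv⟩ := hu
  have h0' : (a : K) ≠ 0 := by
    intro h
    apply h0
    rw [coe_inclO, h, map_zero]
  refine ⟨h0', ?_⟩
  show ι ((a : K))⁻¹ ∈ O
  rw [map_inv₀]
  exact hinv

/-- **Orthonormality** for elements of the Gauss ring: if the reductions of the `E i` are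
linearly independent and `∑ a_i E_i` lies in the Gauss ring, then all `a_i ∈ O`. -/
theorem coeff_mem_of_sum_mem {m : ℕ} (E : Fin m → gaussRingV O)
    (hE : LinearIndependent (kV O) fun i => gaussRedV O (E i)) (a : Fin m → C)
    (hx : ∑ i, a i • ((E i : gaussRingV O) : LaurentSeries C) ∈ gaussRingV O) :
    ∀ i, a i ∈ O := by
  by_contra hcon
  push Not at hcon
  obtain ⟨j, hj⟩ := hcon
  have ha0 : a ≠ 0 := by
    intro h
    apply hj
    rw [h]
    exact O.zero_mem
  obtain ⟨m0, ham, hmax⟩ := exists_max_coeff O a ha0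
  have hamO : a m0 ∉ O := by
    intro hmem
    apply hj
    have := O.mul_mem _ _ (hmax j) hmem
    rwa [mul_assoc, inv_mul_cancel₀ ham, mul_one] at this
  have hinv : (a m0)⁻¹ ∈ O := (O.mem_or_inv_mem (a m0)).resolve_left hamO
  have hnu : ¬ IsUnit (⟨(a m0)⁻¹, hinv⟩ : ↥O) := by
    intro hu
    rw [isUnit_iff_inv_mem] at hu
    apply hamO
    have := hu.2
    simpa using this
  let d : Fin m → ↥O := fun i => ⟨a i * (a m0)⁻¹, hmax i⟩
  have e1 : ∑ i, ((d i : ↥O) : C) • ((E i : gaussRingV O) : LaurentSeries C)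
      = HahnSeries.C (a m0)⁻¹ * ∑ i, a i • ((E i : gaussRingV O) : LaurentSeries C) := by
    rw [HahnSeries.C_mul_eq_smul, Finset.smul_sum]
    refine Finset.sum_congr rfl fun i _ => ?_
    rw [smul_smul, mul_comm]
  have hmem : HahnSeries.C (a m0)⁻¹ * ∑ i, a i • ((E i : gaussRingV O) : LaurentSeries C)
      ∈ gaussRingV O := C_mul_mem_gaussRingV O ⟨_, hinv⟩ hx
  have h2 := gaussRedV_C_mul_eq_zero O hinv hnu hx hmem
  have hmem' := sum_smul_mem_gaussRingV O E d
  have h3 := gaussRedV_sum' O E d hmem'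
  have h4 : gaussRedV O ⟨_, hmem'⟩ = 0 := by
    have : (⟨_, hmem'⟩ : gaussRingV O) = ⟨_, hmem⟩ := Subtype.ext e1
    rw [this]
    exact h2
  rw [h3] at h4
  have h5 := Fintype.linearIndependent_iff.1 hE _ h4 m0
  have hd1 : d m0 = 1 := Subtype.ext (mul_inv_cancel₀ ham)
  rw [hd1, map_one] at h5
  exact one_ne_zero h5

/-- Orthonormal families stay orthonormal under `ψ`, if every residue of `O` comes from `K`. -/
theorem linearIndependent_coeffMap {m : ℕ} (e : Fin m → gaussRingV (O.comap ι))
    (he : LinearIndependent (kV (O.comap ι)) fun i => gaussRedV (O.comap ι) (e i))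
    (hres : ∀ a : ↥O, ∃ r : ↥(O.comap ι), resV O (inclO ι O r) = resV O a) :
    LinearIndependent (kV O) fun i =>
      gaussRedV O ⟨coeffMap ι (e i), coeffMap_mem_gaussRingV ι O (e i).2⟩ := by
  rw [Fintype.linearIndependent_iff]
  intro l hl i0
  choose a ha using fun i => IsLocalRing.residue_surjective (l i)
  choose r hr using fun i => hres (a i)
  set E : Fin m → gaussRingV O :=
    fun i => ⟨coeffMap ι (e i), coeffMap_mem_gaussRingV ι O (e i).2⟩ with hEdef
  have hy' := sum_smul_mem_gaussRingV (O.comap ι) e r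
  have h1 := gaussRedV_sum' (O.comap ι) e r hy'
  have hψ := sum_smul_mem_gaussRingV O E (fun i => inclO ι O (r i))
  have h2 := gaussRedV_sum' O E (fun i => inclO ι O (r i)) hψ
  have e2 : coeffMap ι (∑ i, ((r i : ↥(O.comap ι)) : K) • ((e i : gaussRingV (O.comap ι)) :
      LaurentSeries K))
      = ∑ i, ((inclO ι O (r i) : ↥O) : C) • ((E i : gaussRingV O) : LaurentSeries C) :=
    coeffMap_sum_smul ι _ _
  have h3 : gaussRedV O ⟨_, hψ⟩ = 0 := by
    rw [h2, ← hl]
    refine Finset.sum_congr rfl fun i _ => ?_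
    rw [hr i]
    have : resV O (a i) = l i := ha i
    rw [this]
  have h4 : gaussRedV (O.comap ι) ⟨_, hy'⟩ = 0 := by
    by_contra hne
    apply gaussRedV_coeffMap_ne_zero ι O hy' hne
    have : (⟨_, coeffMap_mem_gaussRingV ι O hy'⟩ : gaussRingV O) = ⟨_, hψ⟩ := Subtype.ext e2
    rw [this]
    exact h3
  rw [h1] at h4
  have h5 := Fintype.linearIndependent_iff.1 he _ h4 i0
  have h6 : ¬ IsUnit (r i0) := fun hu => (IsLocalRing.residue_ne_zero_iff_isUnit _).2 hu h5
  have h7 : resV O (inclO ι O (r i0)) = 0 := by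
    by_contra hne
    exact not_isUnit_inclO ι O h6 ((IsLocalRing.residue_ne_zero_iff_isUnit _).1 hne)
  have h8 : resV O (a i0) = l i0 := ha i0
  rw [← h8, ← hr i0, h7]

end Transport

section Main

variable {C K : Type} [Field C] [Field K] (ι : K →+* C) (O : ValuationSubring C)

/-- Elements of the Gauss ring with linearly independent reductions are linearly independent. -/
theorem linearIndependent_of_gaussRedV {m : ℕ} (E : Fin m → gaussRingV O)
    (hE : LinearIndependent (kV O) fun i => gaussRedV O (E i)) :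
    LinearIndependent C fun i => ((E i : gaussRingV O) : LaurentSeries C) := by
  rw [Fintype.linearIndependent_iff]
  intro a ha
  by_contra hcon
  push Not at hcon
  obtain ⟨j, hj⟩ := hcon
  have ha0 : a ≠ 0 := fun h => hj (by rw [h]; rfl)
  obtain ⟨m0, ham, hmax⟩ := exists_max_coeff O a ha0
  let d : Fin m → ↥O := fun i => ⟨a i * (a m0)⁻¹, hmax i⟩
  have e1 : ∑ i, ((d i : ↥O) : C) • ((E i : gaussRingV O) : LaurentSeries C) = 0 := by
    have e2 : ∑ i, ((d i : ↥O) : C) • ((E i : gaussRingV O) : LaurentSeries C)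
        = (a m0)⁻¹ • ∑ i, a i • ((E i : gaussRingV O) : LaurentSeries C) := by
      rw [Finset.smul_sum]
      refine Finset.sum_congr rfl fun i _ => ?_
      rw [smul_smul, mul_comm]
    rw [e2, ha, smul_zero]
  have hmem' := sum_smul_mem_gaussRingV O E d
  have h3 := gaussRedV_sum' O E d hmem'
  have h4 : gaussRedV O ⟨_, hmem'⟩ = 0 := by
    have : (⟨_, hmem'⟩ : gaussRingV O) = 0 := Subtype.ext e1
    rw [this, map_zero]
  rw [h3] at h4
  have h5 := Fintype.linearIndependent_iff.1 hE _ h4 m0
  have hd1 : d m0 = 1 := Subtype.ext (mul_inv_cancel₀ ham)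
  rw [hd1, map_one] at h5
  exact one_ne_zero h5

/-- An orthonormal basis of `W` with `dim W` elements spans `W`. -/
theorem IsOrthonormal.span_eq {W : Submodule C (LaurentSeries C)} [FiniteDimensional C W]
    {e : Fin (Module.finrank C W) → gaussRingV O} (he : IsOrthonormal O W e) :
    Submodule.span C (Set.range fun i => ((e i : gaussRingV O) : LaurentSeries C)) = W := by
  apply Submodule.eq_of_le_of_finrank_eq
  · rw [Submodule.span_le]
    rintro _ ⟨i, rfl⟩
    exact he.mem i
  · rw [finrank_span_eq_card (linearIndependent_of_gaussRedV O e he.indep), Fintype.card_fin]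

theorem smul_mem_intermediateField (F' : IntermediateField K (LaurentSeries K)) (k : K)
    {x : LaurentSeries K} (hx : x ∈ F') : k • x ∈ F' := by
  rw [← HahnSeries.C_mul_eq_smul, C_eq_algebraMap]
  exact F'.mul_mem (F'.algebraMap_mem k) hx

theorem span_le_intermediateField (F' : IntermediateField K (LaurentSeries K))
    {s : Set (LaurentSeries K)} (hs : s ⊆ (F' : Set (LaurentSeries K)))
    {x : LaurentSeries K} (hx : x ∈ Submodule.span K s) : x ∈ F' := by
  induction hx using Submodule.span_induction with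
  | mem x hx => exact hs hx
  | zero => exact F'.zero_mem
  | add x y _ _ hx hy => exact F'.add_mem hx hy
  | smul a x _ hx => exact smul_mem_intermediateField F' a hx

/-- **Descent of lifts.**  `K = C^G` (through `ι`), every residue of `O` comes from `K`,
`F'` a field of fractions of a scalable algebra over `K`.  If `f ∈ C((t))` is a `C`-combination
of elements of `ψ(F')`, lies in the Gauss ring of `O` and in a `C`-subspace `U` stable under
`G`, then there is `f' ∈ F'` in the Gauss ring of `O_K` with `ψ f' ∈ U` and with the same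
reduction as `f`. -/
theorem exists_rational_lift (G : Type*) [Group G] [MulSemiringAction G C]
    (hfix : ∀ c : C, (∀ σ : G, σ • c = c) → c ∈ ι.range)
    (hι : ∀ (σ : G) (k : K), σ • ι k = ι k)
    (hres : ∀ a : ↥O, ∃ r : ↥(O.comap ι), resV O (inclO ι O r) = resV O a)
    (F' : IntermediateField K (LaurentSeries K)) (hF' : FracScalable (O.comap ι) F')
    (U : Submodule C (LaurentSeries C))
    (hU : ∀ (σ : G) (x : LaurentSeries C), x ∈ U →
      coeffMap (MulSemiringAction.toRingHom G C σ) x ∈ U)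
    (f : LaurentSeries C) (hfU : f ∈ U) (hfO : f ∈ gaussRingV O)
    (hfspan : f ∈ Submodule.span C (⇑(coeffMap ι) '' (F' : Set (LaurentSeries K)))) :
    ∃ f' : LaurentSeries K, f' ∈ F' ∧ f' ∈ gaussRingV (O.comap ι) ∧ coeffMap ι f' ∈ U ∧
      ∃ h' : coeffMap ι f' ∈ gaussRingV O, gaussRedV O ⟨_, h'⟩ = gaussRedV O ⟨f, hfO⟩ := by
  classical
  -- Step 1: a decomposition with independent coefficients
  let S : AddSubgroup (LaurentSeries C) :=
    { carrier := ⇑(coeffMap ι) '' (F' : Set (LaurentSeries K))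
      add_mem' := by
        rintro _ _ ⟨x, hx, rfl⟩ ⟨y, hy, rfl⟩
        exact ⟨x + y, F'.add_mem hx hy, map_add _ _ _⟩
      zero_mem' := ⟨0, F'.zero_mem, map_zero _⟩
      neg_mem' := by
        rintro _ ⟨x, hx, rfl⟩
        exact ⟨-x, F'.neg_mem hx, map_neg _ _⟩ }
  have hS : ∀ (k : K) (x : LaurentSeries C), x ∈ S → ι k • x ∈ S := by
    rintro k _ ⟨x, hx, rfl⟩
    exact ⟨k • x, smul_mem_intermediateField F' k hx, coeffMap_smul ι k x⟩
  obtain ⟨n, c, u, hu, hfu, hli⟩ := exists_indep_decomp_of_ringHom ι S hS hfspan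
  choose g' hg'F hg' using hu
  have hc := linearIndependent_fixedPoints_of_ringHom G ι hfix c hli
  -- Step 2: the `u i` lie in `U`
  have hσι : ∀ σ : G, (MulSemiringAction.toRingHom G C σ).comp ι = ι := fun σ =>
    RingHom.ext fun k => hι σ k
  have huU : ∀ i, u i ∈ U := by
    refine mem_of_conj_mem G c hc u U fun σ => ?_
    have h1 := hU σ f hfU
    rw [hfu, map_sum] at h1
    have h2 : ∑ i, coeffMap (MulSemiringAction.toRingHom G C σ) (c i • u i)
        = ∑ i, (σ • c i) • u i := by
      refine Finset.sum_congr rfl fun i _ => ?_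
      rw [coeffMap_smul, ← hg' i, coeffMap_coeffMap, hσι σ]
      rfl
    rwa [h2] at h1
  -- Step 3: an orthonormal basis of the span of the `g' i`
  let W : Submodule K (LaurentSeries K) := Submodule.span K (Set.range g')
  haveI : FiniteDimensional K W := FiniteDimensional.span_of_finite K (Set.finite_range g')
  have hWF : ∀ x ∈ W, x ∈ F' := fun x hx =>
    span_le_intermediateField F' (by rintro _ ⟨i, rfl⟩; exact hg'F i) hx
  obtain ⟨R, hR, hF⟩ := hF'
  obtain ⟨e, he⟩ := exists_isOrthonormal_of_fractions (O.comap ι) hR W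
    (fun x hx => hF x (hWF x hx))
  have hspan := IsOrthonormal.span_eq (O.comap ι) he
  have hWU : ∀ x ∈ W, coeffMap ι x ∈ U := by
    intro x hx
    induction hx using Submodule.span_induction with
    | mem x hx =>
      obtain ⟨i, rfl⟩ := hx
      rw [hg' i]
      exact huU i
    | zero => rw [map_zero]; exact U.zero_mem
    | add x y _ _ hx hy => rw [map_add]; exact U.add_mem hx hy
    | smul a x _ hx => rw [coeffMap_smul]; exact U.smul_mem _ hx
  -- Step 4: coordinates of `f` in the basis `ψ(e j)`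
  have hgW : ∀ i, g' i ∈ Submodule.span K
      (Set.range fun j => ((e j : gaussRingV (O.comap ι)) : LaurentSeries K)) := fun i => by
    rw [hspan]
    exact Submodule.subset_span ⟨i, rfl⟩
  choose b hb using fun i => (Submodule.mem_span_range_iff_exists_fun K).1 (hgW i)
  set E : Fin (Module.finrank K W) → gaussRingV O :=
    fun j => ⟨coeffMap ι (e j), coeffMap_mem_gaussRingV ι O (e j).2⟩ with hEdef
  let a : Fin (Module.finrank K W) → C := fun j => ∑ i, c i * ι (b i j)
  have hfa : f = ∑ j, a j • ((E j : gaussRingV O) : LaurentSeries C) := by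
    rw [hfu]
    have h1 : ∀ i, u i = ∑ j, ι (b i j) • ((E j : gaussRingV O) : LaurentSeries C) := fun i => by
      rw [← hg' i, ← hb i]
      exact coeffMap_sum_smul ι _ _
    simp_rw [h1, Finset.smul_sum, smul_smul]
    rw [Finset.sum_comm]
    refine Finset.sum_congr rfl fun j _ => ?_
    rw [← Finset.sum_smul]
  have hEli := linearIndependent_coeffMap ι O e he.indep hres
  have haO : ∀ j, a j ∈ O := coeff_mem_of_sum_mem O E hEli a (by rw [← hfa]; exact hfO)
  choose ρ hρ using fun j => hres ⟨a j, haO j⟩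
  -- the lift
  have hf'O := sum_smul_mem_gaussRingV (O.comap ι) e ρ
  have hf'W : ∑ j, ((ρ j : ↥(O.comap ι)) : K) • ((e j : gaussRingV (O.comap ι)) :
      LaurentSeries K) ∈ W :=
    Submodule.sum_mem _ fun j _ => Submodule.smul_mem _ _ (he.mem j)
  refine ⟨_, hWF _ hf'W, hf'O, hWU _ hf'W, coeffMap_mem_gaussRingV ι O hf'O, ?_⟩
  have hψ := sum_smul_mem_gaussRingV O E (fun j => inclO ι O (ρ j))
  have e2 : coeffMap ι (∑ j, ((ρ j : ↥(O.comap ι)) : K) • ((e j : gaussRingV (O.comap ι)) :
      LaurentSeries K))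
      = ∑ j, ((inclO ι O (ρ j) : ↥O) : C) • ((E j : gaussRingV O) : LaurentSeries C) :=
    coeffMap_sum_smul ι _ _
  have e3 : (⟨_, coeffMap_mem_gaussRingV ι O hf'O⟩ : gaussRingV O) = ⟨_, hψ⟩ := Subtype.ext e2
  have hfa' := sum_smul_mem_gaussRingV O E (fun j => (⟨a j, haO j⟩ : ↥O))
  have e4 : (⟨f, hfO⟩ : gaussRingV O) = ⟨_, hfa'⟩ := Subtype.ext hfa
  rw [e3, e4, gaussRedV_sum' O E _ hψ, gaussRedV_sum' O E _ hfa']
  exact Finset.sum_congr rfl fun j _ => by rw [hρ j]

end Main

end Fermat.Agent.S36.NU.H17
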