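import Fermat.Agent.S36.NU.H17_NormalMod
import Fermat.Agent.S36.NU.H17_NormalQ23Abs
import Fermat.Agent.RED.H76_DR2

/-!
# S36 / NU-B, leaf (L2-i) for `q = 2, 3` (helper17): the chart `j` via the Hauptmodul chart

For `q = 3`, `2 ∣ M` (resp. `q = 2`, `3 ∣ M`) the chart `j` of `X₀(M)` is not good (the branch
values `0`, `1728` collide mod `q`), but the chart `h = h₂` (resp. `h₃`) is, and
`j h^p = P(h)`.  Chart-normality for `j` follows by localisation:
`B'(j) = B'(h)[1/h]`.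

* `goodChart_haupt_int` : the good chart `h` with the identity `P(h) = j h^p` (extracted from
  helper76's `hasDR_of_haupt_int`);
* `normalImg_haupt` : generic form;
* `normalImg_three`, `normalImg_two` : the cases `q = 3, 2 ∣ M` and `q = 2, 3 ∣ M`;
* `normalImg_tame` : chart `j`, all primes `q ∤ M` with `5 ≤ q ∨ (q = 3 ∧ 2 ∣ M) ∨
  (q = 2 ∧ 3 ∣ M)`.
-/

set_option autoImplicit false
set_option linter.style.haveILetI false
set_option linter.unusedSectionVars false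
set_option synthInstance.maxHeartbeats 400000
set_option maxHeartbeats 1000000

noncomputable section

open ModularCurve AlgebraicCurve IntermediateField Polynomial Fermat.Agent.S24 Fermat.Agent.S28
  Fermat.Agent.S28.H73 Fermat.Agent.RED.H73 Fermat.Agent.RED.H42 Fermat.Agent.BAD.H88
  Fermat.Agent.RED.H79 Fermat.Agent.RED.H34 Fermat.Agent.RED.H76

namespace Fermat.Agent.S36.NU.H17

section Generic

/-- The good Hauptmodul chart with its identity (extracted from `RED.H76.hasDR_of_haupt_int`). -/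
theorem goodChart_haupt_int {p ℓ : ℕ} [NeZero p] (hp : p.Prime) {M : ℕ} [NeZero M] (hpM : p ∣ M)
    (hℓ : ℓ.Prime) (hℓM : ¬ ℓ ∣ M)
    (A : ValuationSubring Kbar) (hA : A.LiesOverPrime ℓ)
    (hZ : LaurentSeries ℤ) (hord : hZ.order < 0) (hlead : hZ.leadingCoeff = 1)
    (P Q P' Q' : ℤ[X]) (hP : P.Monic) (hPd : P.natDegree = p + 1)
    (hQ : Q.Monic) (hQd : Q.natDegree < p + 1) (hQ' : Q'.Monic)
    (hPQ : aeval hZ P = jqModC ℤ * aeval hZ Q)
    (hPQ' : aeval hZ P' = qExpand ℤ p (jqModC ℤ) * aeval hZ Q')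
    (c : Kbar) (hc : c ≠ 0) (hcinvA : c⁻¹ ∈ A)
    (hQroot : ∀ ρ : Kbar, (Q.map (Int.castRingHom Kbar)).eval ρ = 0 → ρ = 0)
    (hbr : ∀ ρ : Kbar, ρ ≠ 0 →
      (((P.map (Int.castRingHom Kbar)).eval ρ = 0 ∧
          ¬ (X - C ρ) ^ 2 ∣ P.map (Int.castRingHom Kbar)) ∨
        ((P.map (Int.castRingHom Kbar)).eval ρ = 1728 * (Q.map (Int.castRingHom Kbar)).eval ρ ∧
          ¬ (X - C ρ) ^ 2 ∣
            P.map (Int.castRingHom Kbar) - C 1728 * Q.map (Int.castRingHom Kbar))) →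
      ρ = c) :
    ∃ (x : FN M) (hx : x ∈ VM A M) (_ : x⁻¹ ∈ VM A M),
      (x : LaurentSeries Kbar) = coeffMap (Int.castRingHom Kbar) hZ ∧
      ((redM A M ⟨x, hx⟩ : FM A M) : LaurentSeries (kV A))
        = coeffMap (Int.castRingHom (kV A)) hZ ∧
      aeval x (P.map (Int.castRingHom Kbar))
        = Fermat.Agent.RED.H73.jF (L := Kbar) M * aeval x (Q.map (Int.castRingHom Kbar)) ∧
      GoodChart (redSetting A (hScM A M)) x hx := by
  haveI : IsAlgClosed (kV A) := isAlgClosed_kV A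
  have hM : ((M : Kbar))⁻¹ ∈ A := inv_natCast_mem_of_liesOver A M hℓ hℓM hA
  obtain ⟨x, hx, hx', hxcoe, hredcoe, G, -⟩ :=
    chartPre_haupt_int hp hpM A hM hZ hord hlead P Q P' Q' hP hPd hQ hQd hQ' hPQ hPQ'
  obtain ⟨i1, -⟩ := haupt_identities_map (p := p) Kbar hZ P Q P' Q' hPQ hPQ'
  have hid : aeval x (P.map (Int.castRingHom Kbar))
      = Fermat.Agent.RED.H73.jF (L := Kbar) M * aeval x (Q.map (Int.castRingHom Kbar)) := by
    apply Subtype.ext
    have e : ∀ q : Kbar[X], ((aeval x q : ↥(laurentBaseChange Kbar (modularFunctionFieldFull M)))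
        : LaurentSeries Kbar) = aeval (x : LaurentSeries Kbar) q := fun q =>
      (Polynomial.aeval_algHom_apply
        (laurentBaseChange Kbar (modularFunctionFieldFull M)).val x q).symm
    rw [MulMemClass.coe_mul, e, e, hxcoe]
    exact i1
  have hxt : Transcendental Kbar x :=
    Fermat.Agent.RED.H34.RedSetting.transcendental_x hx G.transc
  haveI := G.fin
  have hne : ∀ a : Kbar, P.map (Int.castRingHom Kbar) - C a * Q.map (Int.castRingHom Kbar)
      ≠ 0 := by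
    intro a
    have hPm : (P.map (Int.castRingHom Kbar)).Monic := hP.map _
    have hdeg : (C a * Q.map (Int.castRingHom Kbar)).degree
        < (P.map (Int.castRingHom Kbar)).degree := by
      refine degree_lt_degree (lt_of_le_of_lt (natDegree_C_mul_le a _) ?_)
      rw [hQ.natDegree_map, hP.natDegree_map, hPd]
      exact hQd
    exact (hPm.sub_of_left hdeg).ne_zero
  have hbrx : ∀ ρ : Kbar, IsBranchValue x ρ → ρ = 0 ∨ ρ = c := by
    intro ρ hρ
    by_cases h0 : ρ = 0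
    · exact Or.inl h0
    · right
      have hQρ : (Q.map (Int.castRingHom Kbar)).eval ρ ≠ 0 := fun h => h0 (hQroot ρ h)
      exact hbr ρ h0 (branch_haupt M x hxt _ _ hid hne hQρ hρ)
  have GC : GoodChart (redSetting A (hasScale_laurentBaseChange A M)) x hx :=
    goodChart_of _ hx G.transc G.fin G.sep G.deg G.sept (fun ρ ρ' hρ hρ' hres =>
      eq_of_resO_eq_of_mem_pair A _ c hc hcinvA ρ ρ' (hbrx _ hρ) (hbrx _ hρ') hres)
  exact ⟨x, hx, hx', hxcoe, hredcoe, hid, GC⟩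

/-- The image of an integral series is inertia-fixed. -/
theorem mem_L0_of_coe_eq_coeffMap_int (A : ValuationSubring Kbar) (M : ℕ) (x : FN M)
    (hZ : LaurentSeries ℤ)
    (hxcoe : (x : LaurentSeries Kbar) = coeffMap (Int.castRingHom Kbar) hZ) :
    x ∈ H23.L0 A M := by
  rw [H23.mem_L0_iff_coeffMap]
  intro σ _
  rw [hxcoe, ModularCurve.coeffMap_coeffMap]
  exact coeffMap_congr (RingHom.ext_int _ _) hZ

/-- **(L2-i) for the chart `j` from a Hauptmodul chart `x`** with `j x^p = P(x)`. -/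
theorem normalImg_haupt (A : ValuationSubring Kbar) {q : ℕ} (hq : q.Prime)
    (hA : A.LiesOverPrime q) (M : ℕ) [NeZero M]
    (hZ : LaurentSeries ℤ) (P : ℤ[X]) (p : ℕ) (hp : 0 < p) (hP : P.Monic)
    (hPd : P.natDegree = p + 1) (hP0 : P.coeff 0 ≠ 0)
    (hPQ : aeval hZ P = jqModC ℤ * hZ ^ p)
    (x : FN M) (hx : x ∈ VM A M) (hx' : x⁻¹ ∈ VM A M)
    (hxcoe : (x : LaurentSeries Kbar) = coeffMap (Int.castRingHom Kbar) hZ)
    (hredcoe : ((redM A M ⟨x, hx⟩ : FM A M) : LaurentSeries (kV A))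
      = coeffMap (Int.castRingHom (kV A)) hZ)
    (hN : ChartNormal (redSetting A (hScM A M)) x hx)
    (j : FN M) (hj : j = Fermat.Agent.RED.H73.jF (L := Kbar) M) (hjV : j ∈ VM A M)
    (y : FM A M) (hy : IsIntegral ↥(Algebra.adjoin (kV A) {redM A M ⟨j, hjV⟩}) y) :
    ∃ f : FN M, f ∈ H23.L0 A M ∧ IsIntegral ↥(Algebra.adjoin Kbar {j}) f ∧
      ((aeval j : Kbar[X] →ₐ[Kbar] FN M).toRingHom.comp
        (mapRingHom (iotaUr A))).IsIntegralElem f ∧
      ∃ h : f ∈ VM A M, redM A M ⟨f, h⟩ = y := by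
  subst hj
  -- the identities over `ℚ̄` and over `k`
  have idK : ∀ (K : Type) [Field K], aeval (coeffMap (Int.castRingHom K) hZ)
      (P.map (Int.castRingHom K)) = jqModC K * (coeffMap (Int.castRingHom K) hZ) ^ p := by
    intro K _
    rw [← coeffMap_aeval, hPQ, map_mul, map_pow, coeffMap_jqModC']
  have I1 : Fermat.Agent.RED.H73.jF (L := Kbar) M * x ^ p
      = aeval x (P.map (Int.castRingHom Kbar)) := by
    apply Subtype.ext
    have e : ((aeval x (P.map (Int.castRingHom Kbar)) : FN M) : LaurentSeries Kbar)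
        = aeval (x : LaurentSeries Kbar) (P.map (Int.castRingHom Kbar)) :=
      (Polynomial.aeval_algHom_apply (modularFunctionFieldBar M).val x _).symm
    rw [e, hxcoe, idK Kbar]
    show jqModC Kbar * (x : LaurentSeries Kbar) ^ p = _
    rw [hxcoe]
  have I2 : redM A M ⟨Fermat.Agent.RED.H73.jF (L := Kbar) M, hjV⟩ * redM A M ⟨x, hx⟩ ^ p
      = aeval (redM A M ⟨x, hx⟩) (P.map (Int.castRingHom (kV A))) := by
    apply Subtype.ext
    have e : ((aeval (redM A M ⟨x, hx⟩) (P.map (Int.castRingHom (kV A))) : FM A M) :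
        LaurentSeries (kV A))
        = aeval ((redM A M ⟨x, hx⟩ : FM A M) : LaurentSeries (kV A))
          (P.map (Int.castRingHom (kV A))) :=
      (Polynomial.aeval_algHom_apply
        (redField A (modularFunctionFieldBar M) (hScM A M)).val _ _).symm
    rw [e, hredcoe, idK (kV A)]
    show ((redM A M ⟨Fermat.Agent.RED.H73.jF (L := Kbar) M, hjV⟩ : FM A M) :
        LaurentSeries (kV A)) * ((redM A M ⟨x, hx⟩ : FM A M) : LaurentSeries (kV A)) ^ p = _
    rw [hredcoe]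
    congr 1
    exact red_jF A M
  have hP0' : (P.map (Int.castRingHom Kbar)).coeff 0 ≠ 0 := by
    rw [coeff_map]
    exact Int.cast_ne_zero.2 hP0
  have hPd' : p < (P.map (Int.castRingHom Kbar)).natDegree := by
    rw [hP.natDegree_map, hPd]
    exact Nat.lt_succ_self p
  have hx0 : x ≠ 0 := by
    rintro rfl
    rw [zero_pow hp.ne', mul_zero] at I1
    have e1 : aeval (0 : FN M) (P.map (Int.castRingHom Kbar))
        = algebraMap Kbar (FN M) ((P.map (Int.castRingHom Kbar)).coeff 0) := by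
      rw [← Polynomial.coeff_zero_eq_aeval_zero']
    rw [e1] at I1
    exact hP0' ((map_eq_zero _).1 I1.symm)
  -- step 1: scale `y` into the integral closure of `k[x~]`
  have hrel : redM A M ⟨Fermat.Agent.RED.H73.jF (L := Kbar) M, hjV⟩ * redM A M ⟨x, hx⟩ ^ p
      ∈ Algebra.adjoin (kV A) {redM A M ⟨x, hx⟩} := by
    rw [I2, Algebra.adjoin_singleton_eq_range_aeval]
    exact ⟨_, rfl⟩
  obtain ⟨e, he⟩ := exists_pow_mul_isIntegral _ _ p hrel hy
  -- step 2: lift through the good chart `x`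
  have hxL : x ∈ H23.L0 A M := mem_L0_of_coe_eq_coeffMap_int A M x hZ hxcoe
  obtain ⟨fz, hfzL, hfzint, -, -, hfzV, hfzred⟩ :=
    normalImg_of_chartNormal A M hq hA x hx hxL hN _ he
  -- step 3: divide by `x ^ e`
  have hfV : fz * x⁻¹ ^ e ∈ VM A M := mul_mem hfzV (pow_mem hx' e)
  have hint : IsIntegral ↥(Algebra.adjoin Kbar {Fermat.Agent.RED.H73.jF (L := Kbar) M})
      (fz * x⁻¹ ^ e) :=
    isIntegral_div_pow x _ (P.map (Int.castRingHom Kbar)) p (hP.map _) hPd' hp hP0' I1 hfzint e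
  haveI : Algebra.IsIntegral ↥(H41.Kur A) Kbar := isIntegral_Kur_Kbar A
  refine ⟨fz * x⁻¹ ^ e, mul_mem hfzL (pow_mem ((H23.L0 A M).inv_mem hxL) e), hint,
    isIntegralElem_of_isIntegral_adjoin (K := ↥(H41.Kur A)) _ _ hint, hfV, ?_⟩
  have e1 : (⟨fz * x⁻¹ ^ e, hfV⟩ : ↥(VM A M)) = ⟨fz, hfzV⟩ * ⟨x⁻¹, hx'⟩ ^ e := rfl
  have e2 : redM A M ⟨x, hx⟩ * redM A M ⟨x⁻¹, hx'⟩ = 1 := by
    rw [← map_mul]
    have : (⟨x, hx⟩ * ⟨x⁻¹, hx'⟩ : ↥(VM A M)) = 1 := Subtype.ext (mul_inv_cancel₀ hx0)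
    rw [this, map_one]
  rw [e1, map_mul, map_pow, hfzred]
  calc redM A M ⟨x, hx⟩ ^ e * y * redM A M ⟨x⁻¹, hx'⟩ ^ e
      = (redM A M ⟨x, hx⟩ * redM A M ⟨x⁻¹, hx'⟩) ^ e * y := by ring
    _ = y := by rw [e2, one_pow, one_mul]

end Generic

section Cases

variable (A : ValuationSubring Kbar) (M : ℕ) [NeZero M]

/-- **(L2-i) for the chart `j`, `q = 3`, `2 ∣ M`.** -/
theorem normalImg_three (hA : A.LiesOverPrime 3) (h2M : 2 ∣ M) (h3M : ¬ 3 ∣ M)
    (j : FN M) (hj : j = Fermat.Agent.RED.H73.jF (L := Kbar) M) (hjV : j ∈ VM A M)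
    (y : FM A M) (hy : IsIntegral ↥(Algebra.adjoin (kV A) {redM A M ⟨j, hjV⟩}) y) :
    ∃ f : FN M, f ∈ H23.L0 A M ∧ IsIntegral ↥(Algebra.adjoin Kbar {j}) f ∧
      ((aeval j : Kbar[X] →ₐ[Kbar] FN M).toRingHom.comp
        (mapRingHom (iotaUr A))).IsIntegralElem f ∧
      ∃ h : f ∈ VM A M, redM A M ⟨f, h⟩ = y := by
  have hPmap : ((X + C 256) ^ 3 : ℤ[X]).map (Int.castRingHom Kbar) = (X + C 256) ^ 3 := by
    simp only [Polynomial.map_pow, Polynomial.map_add, Polynomial.map_X, Polynomial.map_C]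
    simp only [eq_intCast, Int.cast_ofNat]
  have hQmap : ((X ^ 2 : ℤ[X])).map (Int.castRingHom Kbar) = X ^ 2 := by
    simp [Polynomial.map_pow]
  have hPQ : aeval Fermat.Agent.RED.H70.hZ2 ((X + C 256) ^ 3 : ℤ[X])
      = jqModC ℤ * aeval Fermat.Agent.RED.H70.hZ2 (X ^ 2 : ℤ[X]) := by
    simp only [map_pow, map_add, aeval_X, aeval_C]
    simp only [eq_intCast, Int.cast_ofNat]
    exact Fermat.Agent.RED.H70.hZ2_ident
  have hPQ' : aeval Fermat.Agent.RED.H70.hZ2 ((X + C 16) ^ 3 : ℤ[X])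
      = qExpand ℤ 2 (jqModC ℤ) * aeval Fermat.Agent.RED.H70.hZ2 (X : ℤ[X]) := by
    simp only [map_pow, map_add, aeval_X, aeval_C]
    simp only [eq_intCast, Int.cast_ofNat]
    exact Fermat.Agent.RED.H70.hZ2_ident'
  have hPd : ((X + C 256) ^ 3 : ℤ[X]).natDegree = 2 + 1 := by
    rw [(monic_X_add_C (256 : ℤ)).natDegree_pow, natDegree_X_add_C]
  obtain ⟨x, hx, hx', hxcoe, hredcoe, -, GC⟩ := goodChart_haupt_int (p := 2) Nat.prime_two h2M
    Nat.prime_three h3M A hA Fermat.Agent.RED.H70.hZ2 Fermat.Agent.RED.H70.hZ2_order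
    Fermat.Agent.RED.H70.hZ2_leadingCoeff ((X + C 256) ^ 3) (X ^ 2) ((X + C 16) ^ 3) X
    ((monic_X_add_C 256).pow 3) hPd (monic_X_pow 2) (by rw [natDegree_X_pow]; norm_num) monic_X
    hPQ hPQ' (-64) (by norm_num)
    (by
      have := neg_natCast_inv_mem Nat.prime_three A hA 64 (by decide)
      exact_mod_cast this)
    (by
      intro ρ hρ
      rw [hQmap] at hρ
      simpa using hρ)
    (by
      intro ρ _ h
      rw [hPmap, hQmap] at h
      simp only [eval_pow, eval_add, eval_X, eval_C] at h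
      rcases h with ⟨h0, hd⟩ | ⟨h1, hd⟩
      · exact (haupt2_case0 ρ h0 hd).elim
      · exact haupt2_case1728 ρ h1 hd)
  refine normalImg_haupt A Nat.prime_three hA M Fermat.Agent.RED.H70.hZ2 ((X + C 256) ^ 3) 2
    (by norm_num) ((monic_X_add_C 256).pow 3) hPd ?_ ?_ x hx hx' hxcoe hredcoe GC.normal
    j hj hjV y hy
  · rw [coeff_zero_eq_eval_zero]
    simp
  · rw [hPQ]
    simp only [map_pow, aeval_X]

/-- **(L2-i) for the chart `j`, `q = 2`, `3 ∣ M`.** -/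
theorem normalImg_two (hA : A.LiesOverPrime 2) (h3M : 3 ∣ M) (h2M : ¬ 2 ∣ M)
    (j : FN M) (hj : j = Fermat.Agent.RED.H73.jF (L := Kbar) M) (hjV : j ∈ VM A M)
    (y : FM A M) (hy : IsIntegral ↥(Algebra.adjoin (kV A) {redM A M ⟨j, hjV⟩}) y) :
    ∃ f : FN M, f ∈ H23.L0 A M ∧ IsIntegral ↥(Algebra.adjoin Kbar {j}) f ∧
      ((aeval j : Kbar[X] →ₐ[Kbar] FN M).toRingHom.comp
        (mapRingHom (iotaUr A))).IsIntegralElem f ∧
      ∃ h : f ∈ VM A M, redM A M ⟨f, h⟩ = y := by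
  have hPmap : ((X + C 27) * (X + C 243) ^ 3 : ℤ[X]).map (Int.castRingHom Kbar)
      = (X + C 27) * (X + C 243) ^ 3 := by
    simp only [Polynomial.map_pow, Polynomial.map_add, Polynomial.map_mul, Polynomial.map_X,
      Polynomial.map_C]
    simp only [eq_intCast, Int.cast_ofNat]
  have hQmap : ((X ^ 3 : ℤ[X])).map (Int.castRingHom Kbar) = X ^ 3 := by
    simp [Polynomial.map_pow]
  have hPQ : aeval Fermat.Agent.RED.H29.hZ3 ((X + C 27) * (X + C 243) ^ 3 : ℤ[X])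
      = jqModC ℤ * aeval Fermat.Agent.RED.H29.hZ3 (X ^ 3 : ℤ[X]) := by
    simp only [map_pow, map_add, map_mul, aeval_X, aeval_C]
    simp only [eq_intCast, Int.cast_ofNat]
    exact Fermat.Agent.RED.H29.hZ3_one
  have hPQ' : aeval Fermat.Agent.RED.H29.hZ3 ((X + C 27) * (X + C 3) ^ 3 : ℤ[X])
      = qExpand ℤ 3 (jqModC ℤ) * aeval Fermat.Agent.RED.H29.hZ3 (X : ℤ[X]) := by
    simp only [map_pow, map_add, map_mul, aeval_X, aeval_C]
    simp only [eq_intCast, Int.cast_ofNat]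
    exact Fermat.Agent.RED.H29.hZ3_two
  have hPm : ((X + C 27) * (X + C 243) ^ 3 : ℤ[X]).Monic :=
    (monic_X_add_C 27).mul ((monic_X_add_C 243).pow 3)
  have hPd : ((X + C 27) * (X + C 243) ^ 3 : ℤ[X]).natDegree = 3 + 1 := by
    rw [(monic_X_add_C (27 : ℤ)).natDegree_mul ((monic_X_add_C (243 : ℤ)).pow 3),
      (monic_X_add_C (243 : ℤ)).natDegree_pow, natDegree_X_add_C, natDegree_X_add_C]
  obtain ⟨x, hx, hx', hxcoe, hredcoe, -, GC⟩ := goodChart_haupt_int (p := 3) Nat.prime_three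
    h3M Nat.prime_two h2M A hA Fermat.Agent.RED.H29.hZ3 Fermat.Agent.RED.H29.hZ3_order_neg
    Fermat.Agent.RED.H29.hZ3_leadingCoeff ((X + C 27) * (X + C 243) ^ 3) (X ^ 3)
    ((X + C 27) * (X + C 3) ^ 3) X hPm hPd (monic_X_pow 3)
    (by rw [natDegree_X_pow]; norm_num) monic_X hPQ hPQ' (-27) (by norm_num)
    (by
      have := neg_natCast_inv_mem Nat.prime_two A hA 27 (by decide)
      exact_mod_cast this)
    (by
      intro ρ hρ
      rw [hQmap] at hρ
      simpa using hρ)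
    (by
      intro ρ _ h
      rw [hPmap, hQmap] at h
      simp only [eval_pow, eval_add, eval_mul, eval_X, eval_C] at h
      rcases h with ⟨h0, hd⟩ | ⟨h1, hd⟩
      · exact haupt3_case0 ρ h0 hd
      · exact (haupt3_case1728 ρ h1 hd).elim)
  refine normalImg_haupt A Nat.prime_two hA M Fermat.Agent.RED.H29.hZ3
    ((X + C 27) * (X + C 243) ^ 3) 3 (by norm_num) hPm hPd ?_ ?_ x hx hx' hxcoe hredcoe
    GC.normal j hj hjV y hy
  · rw [coeff_zero_eq_eval_zero]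
    simp
  · rw [hPQ]
    simp only [map_pow, aeval_X]

/-- **(L2-i) NORMAL-IMG for the chart `j`, all tame cases**: `q ∤ M` and
`5 ≤ q ∨ (q = 3 ∧ 2 ∣ M) ∨ (q = 2 ∧ 3 ∣ M)`. -/
theorem normalImg_tame {q : ℕ} (hq : q.Prime) (hA : A.LiesOverPrime q) (hqM : ¬ q ∣ M)
    (hcase : 5 ≤ q ∨ (q = 3 ∧ 2 ∣ M) ∨ (q = 2 ∧ 3 ∣ M))
    (j : FN M) (hj : j = Fermat.Agent.RED.H73.jF (L := Kbar) M) (hjV : j ∈ VM A M)
    (y : FM A M) (hy : IsIntegral ↥(Algebra.adjoin (kV A) {redM A M ⟨j, hjV⟩}) y) :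
    ∃ f : FN M, f ∈ H23.L0 A M ∧ IsIntegral ↥(Algebra.adjoin Kbar {j}) f ∧
      ((aeval j : Kbar[X] →ₐ[Kbar] FN M).toRingHom.comp
        (mapRingHom (iotaUr A))).IsIntegralElem f ∧
      ∃ h : f ∈ VM A M, redM A M ⟨f, h⟩ = y := by
  rcases hcase with h5 | ⟨rfl, h2M⟩ | ⟨rfl, h3M⟩
  · obtain ⟨f, h1, h2, h3, -, h4⟩ := normalImg_good A M hq h5 hA hqM j hj hjV y hy
    exact ⟨f, h1, h2, h3, h4⟩
  · exact normalImg_three A M hA h2M hqM j hj hjV y hy
  · exact normalImg_two A M hA h3M hqM j hj hjV y hy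

end Cases

end Fermat.Agent.S36.NU.H17
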