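import Fermat.Agent.S36.NU.H16_LocalDefs
import Fermat.Agent.S36.NU.H17_TIVal

/-!
# S36 / NU-B, leaf TI3-VAL, glue (helper17): (RADQ) and the chart criterion

`C : Chart R F k ι κ` (helper16), `B = C.B` the coordinate ring, `V i` the vertical valuations.

* `isRadQ_of_rd_eq_zero` : **(RADQ)** if `B` is cut out of a ring `H` (the integral closure of
  `K[j]`, the "horizontal" conditions) by the valuations `V i`, the `V i` are of rank one and
  `q⁻¹ ∈ H`, then every `β ∈ B` with `rd i β = 0` for all `i` is nilpotent modulo `q B`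
  (`IsRadQ B q β` of helper65);
* `mem_B_of_forall_mem` : the chart criterion `crit` from TI3-VAL
  (`isIntegral_adjoin_of_forall_mem`) when `B` is the integral closure of `R[j]`;
* `isRadQ_of_rd_eq_zero_adjoin` : (RADQ) for `B` = the integral closure of `R[j]`.
-/

set_option autoImplicit false
set_option linter.style.haveILetI false
set_option linter.unusedSectionVars false

noncomputable section

open Polynomial IntermediateField

namespace Fermat.Agent.S36.NU.H17

open Fermat.Agent.S36.NU.H16 Fermat.Agent.S36.NU.H65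

section RadQ

variable {R F k ι : Type*} {κ : ι → Type*} [CommRing R] [Field F] [Algebra R F]
  [Field k] [∀ i, Field (κ i)] [∀ i, Algebra k (κ i)] (C : Chart R F k ι κ)

/-- Rank one, uniformly for finitely many valuation rings: a common exponent. -/
theorem exists_pow_mul_inv_mem [Finite ι] (V : ι → ValuationSubring F)
    (harch : ∀ i, ∀ x y : F, (V i).valuation x < 1 → y ≠ 0 →
      ∃ n : ℕ, (V i).valuation (x ^ n) < (V i).valuation y)
    {β y : F} (hy : y ≠ 0) (hβ : ∀ i, (V i).valuation β < 1) :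
    ∃ e : ℕ, ∀ i, β ^ e * y⁻¹ ∈ V i := by
  classical
  haveI := Fintype.ofFinite ι
  choose n hn using fun i => harch i β y (hβ i) hy
  refine ⟨Finset.univ.sup n, fun i => ?_⟩
  have hle : n i ≤ Finset.univ.sup n := Finset.le_sup (Finset.mem_univ i)
  obtain ⟨d, hd⟩ := Nat.exists_eq_add_of_le hle
  have e1 : β ^ Finset.univ.sup n * y⁻¹ = β ^ n i * y⁻¹ * β ^ d := by
    rw [hd, pow_add]; ring
  rw [← ValuationSubring.valuation_le_one_iff, e1, map_mul]
  have h1 : (V i).valuation (β ^ d) ≤ 1 := by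
    rw [map_pow]
    exact pow_le_one₀ zero_le (hβ i).le
  have hy0 : (V i).valuation y ≠ 0 := (Valuation.ne_zero_iff _).2 hy
  have h2 : (V i).valuation (β ^ n i * y⁻¹) ≤ 1 := by
    rw [map_mul, map_inv₀]
    have := (hn i).le
    calc (V i).valuation (β ^ n i) * ((V i).valuation y)⁻¹
        ≤ (V i).valuation y * ((V i).valuation y)⁻¹ := by gcongr
      _ = 1 := mul_inv_cancel₀ hy0
  calc (V i).valuation (β ^ n i * y⁻¹) * (V i).valuation (β ^ d) ≤ 1 * 1 := by gcongr
    _ = 1 := mul_one 1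

/-- **(RADQ)**: `B = H ∩ ⋂ V i`, the `V i` of rank one, `q⁻¹ ∈ H`: every `β ∈ B` with zero
residues is nilpotent modulo `q B`. -/
theorem isRadQ_of_rd_eq_zero [Finite ι] (q : R) (hq : algebraMap R F q ≠ 0)
    (H : Subring F) (hBH : ∀ x ∈ C.B, x ∈ H) (hqH : (algebraMap R F q)⁻¹ ∈ H)
    (crit : ∀ f ∈ H, (∀ i, f ∈ C.V i) → f ∈ C.B)
    (harch : ∀ i, ∀ x y : F, (C.V i).valuation x < 1 → y ≠ 0 →
      ∃ n : ℕ, (C.V i).valuation (x ^ n) < (C.V i).valuation y)
    {β : F} (hβ : β ∈ C.B) (hrd : ∀ i, C.rd i β = 0) : IsRadQ C.B q β := by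
  have hv : ∀ i, (C.V i).valuation β < 1 := by
    intro i
    have := (C.rd_eq_zero_iff i (C.B_le i β hβ)).1 (hrd i)
    rwa [ValuationSubring.mem_nonunits_iff] at this
  obtain ⟨e, he⟩ := exists_pow_mul_inv_mem C.V harch hq hv
  refine ⟨e, β ^ e * (algebraMap R F q)⁻¹, ?_, ?_⟩
  · exact crit _ (mul_mem (pow_mem (hBH β hβ) e) hqH) he
  · rw [Algebra.smul_def, mul_comm (β ^ e), ← mul_assoc, mul_inv_cancel₀ hq, one_mul]

end RadQ

section Adjoin

variable (R K : Type*) {F k ι : Type*} {κ : ι → Type*} [CommRing R] [Field K] [Field F]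
  [Algebra R K] [Algebra K F] [Algebra R F] [IsScalarTower R K F]
  [Field k] [∀ i, Field (κ i)] [∀ i, Algebra k (κ i)] (C : Chart R F k ι κ) (j : F)

/-- The chart criterion: if `B` is the integral closure of `R[j]`, then
`f` integral over `K[j]` and `f ∈ V i` for all `i` imply `f ∈ B`
(under the hypotheses `hG`, `hthree` of `isIntegral_adjoin_of_forall_mem`). -/
theorem mem_B_of_forall_mem (hj : Transcendental K j)
    (hB : ∀ x : F, IsIntegral ↥(Algebra.adjoin R {j}) x → x ∈ C.B) (i₀ : ι)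
    (hG : ∀ p : K[X], aeval j p ∈ C.V i₀ → ∀ i, p.coeff i ∈ (algebraMap R K).range)
    (hthree : ∀ f : F, (∀ i, f ∈ C.V i) →
      ∃ P : F[X], P.Monic ∧ (∀ m, P.coeff m ∈ C.V i₀ ∧ P.coeff m ∈ K⟮j⟯) ∧ P.eval f = 0)
    {f : F} (hf₁ : IsIntegral ↥(Algebra.adjoin K {j}) f) (hf₂ : ∀ i, f ∈ C.V i) : f ∈ C.B :=
  hB f (isIntegral_adjoin_of_forall_mem R K j hj C.V i₀ hG hthree hf₁ hf₂)

/-- **(RADQ)** for the integral closure of `R[j]`. -/
theorem isRadQ_of_rd_eq_zero_adjoin [Finite ι] (hj : Transcendental K j)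
    (hB : ∀ x : F, x ∈ C.B ↔ IsIntegral ↥(Algebra.adjoin R {j}) x) (i₀ : ι)
    (hG : ∀ p : K[X], aeval j p ∈ C.V i₀ → ∀ i, p.coeff i ∈ (algebraMap R K).range)
    (hthree : ∀ f : F, (∀ i, f ∈ C.V i) →
      ∃ P : F[X], P.Monic ∧ (∀ m, P.coeff m ∈ C.V i₀ ∧ P.coeff m ∈ K⟮j⟯) ∧ P.eval f = 0)
    (harch : ∀ i, ∀ x y : F, (C.V i).valuation x < 1 → y ≠ 0 →
      ∃ n : ℕ, (C.V i).valuation (x ^ n) < (C.V i).valuation y)
    (q : R) (hq : algebraMap R F q ≠ 0)
    {β : F} (hβ : β ∈ C.B) (hrd : ∀ i, C.rd i β = 0) : IsRadQ C.B q β := by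
  refine isRadQ_of_rd_eq_zero C q hq
    (integralClosure ↥(Algebra.adjoin K {j}) F).toSubring ?_ ?_ ?_ harch hβ hrd
  · intro x hx
    exact isIntegral_adjoin_field R K j ((hB x).1 hx)
  · have e : (algebraMap R F q)⁻¹ = algebraMap ↥(Algebra.adjoin K {j}) F
        ⟨algebraMap K F (algebraMap R K q)⁻¹, Subalgebra.algebraMap_mem _ _⟩ := by
      rw [IsScalarTower.algebraMap_apply R K F, ← map_inv₀]
      rfl
    rw [e]
    exact isIntegral_algebraMap
  · intro f hf hfV
    exact mem_B_of_forall_mem R K C j hj (fun x hx => (hB x).2 hx) i₀ hG hthree hf hfV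

end Adjoin

end Fermat.Agent.S36.NU.H17
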