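import Fermat.Agent.S36.NU.H17_TIVal

/-!
# S36 / NU-B, leaf TI3-VAL (helper17): the criterion over an arbitrary base field `E`

Same as `isIntegral_adjoin_of_gauss`, with `K(j)` replaced by any subfield `E` of `F` containing
`K` and `j` in which `K[j]` is integrally closed (for instance the inertia-fixed functions of
level one: no descent `E = K(j)` is needed).

* `isIntegral_adjoin_of_gauss_sub` : `f` integral over `K[j]`, root of a monic polynomial with
  coefficients in `V ∩ E` ⟹ `f` integral over `R[j]`;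
* `isIntegral_adjoin_of_forall_mem_sub` : the version for a family of valuation rings.
-/

set_option autoImplicit false
set_option linter.style.haveILetI false
set_option linter.unusedSectionVars false

noncomputable section

open Polynomial

namespace Fermat.Agent.S36.NU.H17

section GaussE

variable (R K : Type*) {F : Type*} [CommRing R] [Field K] [Field F] [Algebra R K]
  [Algebra K F] [Algebra R F] [IsScalarTower R K F] (j : F)

/-- **TI3-VAL**, base field `E`. -/
theorem isIntegral_adjoin_of_gauss_sub (E : Subfield F)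
    (hKE : ∀ c : K, algebraMap K F c ∈ E) (hjE : j ∈ E)
    (hIC : ∀ x ∈ E, IsIntegral ↥(Algebra.adjoin K {j}) x → x ∈ Algebra.adjoin K {j})
    (V : Subring F) (hV : ∀ x : F, IsIntegral V x → x ∈ V)
    (hG : ∀ p : K[X], aeval j p ∈ V → ∀ i, p.coeff i ∈ (algebraMap R K).range)
    {f : F} (hf₁ : IsIntegral ↥(Algebra.adjoin K {j}) f)
    (hf₂ : ∃ P : F[X], P.Monic ∧ (∀ i, P.coeff i ∈ V ∧ P.coeff i ∈ E) ∧ P.eval f = 0) :
    IsIntegral ↥(Algebra.adjoin R {j}) f := by
  -- `K[j] ⊆ E`
  have hle : ∀ x ∈ Algebra.adjoin K {j}, x ∈ E := by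
    intro x hx
    induction hx using Algebra.adjoin_induction with
    | mem y hy =>
      rw [Set.mem_singleton_iff] at hy
      subst hy
      exact hjE
    | algebraMap r => exact hKE r
    | add _ _ _ _ h1 h2 => exact add_mem h1 h2
    | mul _ _ _ _ h1 h2 => exact mul_mem h1 h2
  let φ : ↥(Algebra.adjoin K {j}) →+* ↥E :=
    (algebraMap ↥(Algebra.adjoin K {j}) F).codRestrict E.toSubring (fun x => hle x x.2)
  letI : Algebra ↥(Algebra.adjoin K {j}) ↥E := φ.toAlgebra
  haveI : IsScalarTower ↥(Algebra.adjoin K {j}) ↥E F :=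
    IsScalarTower.of_algebraMap_eq fun _ => rfl
  set S : Subring ↥E := V.comap (algebraMap ↥E F) with hS
  haveI : IsScalarTower ↥S ↥E F := IsScalarTower.of_algebraMap_eq fun _ => rfl
  obtain ⟨P, hP, hPc, hPf⟩ := hf₂
  have hfS : IsIntegral ↥S f := by
    have hl : P ∈ Polynomial.lifts (algebraMap ↥S F) := by
      rw [lifts_iff_coeff_lifts]
      intro i
      exact ⟨⟨⟨P.coeff i, (hPc i).2⟩, (hPc i).1⟩, rfl⟩
    obtain ⟨Q, hQ, -, hQm⟩ := Polynomial.lifts_and_degree_eq_and_monic hl hP
    refine ⟨Q, hQm, ?_⟩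
    rw [← Polynomial.eval_map, hQ, hPf]
  have hfE : IsIntegral ↥E f := hf₁.tower_top
  have hc1 : ∀ i, ((minpoly ↥E f).coeff i : F) ∈ Algebra.adjoin K {j} := by
    intro i
    have h1 : IsIntegral ↥(Algebra.adjoin K {j}) ((minpoly ↥E f).coeff i) :=
      isIntegral_coeff_minpoly hf₁ i
    have h2 : IsIntegral ↥(Algebra.adjoin K {j}) (((minpoly ↥E f).coeff i : ↥E) : F) :=
      h1.algebraMap (B := F)
    exact hIC _ ((minpoly ↥E f).coeff i).2 h2
  have hc2 : ∀ i, ((minpoly ↥E f).coeff i : F) ∈ V := by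
    intro i
    have h1 : IsIntegral ↥S ((minpoly ↥E f).coeff i) := isIntegral_coeff_minpoly hfS i
    obtain ⟨Q, hQ, hQx⟩ := h1
    apply hV
    let ψ : ↥S →+* ↥V := ((algebraMap ↥E F).comp S.subtype).codRestrict V (fun x => x.2)
    refine ⟨Q.map ψ, hQ.map ψ, ?_⟩
    rw [eval₂_map]
    have e : (algebraMap ↥V F).comp ψ = (algebraMap ↥E F).comp (algebraMap ↥S ↥E) := rfl
    have h3 := Polynomial.hom_eval₂ Q (algebraMap ↥S ↥E) (algebraMap ↥E F)
      ((minpoly ↥E f).coeff i)
    rw [e]
    rw [hQx, map_zero] at h3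
    exact h3.symm
  have hc : ∀ i, ((minpoly ↥E f).map (algebraMap ↥E F)).coeff i ∈ Algebra.adjoin R {j} := by
    intro i
    rw [Polynomial.coeff_map]
    exact mem_adjoin_of_gauss R K j V hG (hc1 i) (hc2 i)
  refine isIntegral_of_monic_coeff_mem (Algebra.adjoin R {j}) f _
    ((minpoly.monic hfE).map _) hc ?_
  rw [Polynomial.eval_map, ← aeval_def, minpoly.aeval]

/-- **TI3-VAL**, base field `E`, for a family of valuation rings. -/
theorem isIntegral_adjoin_of_forall_mem_sub (E : Subfield F)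
    (hKE : ∀ c : K, algebraMap K F c ∈ E) (hjE : j ∈ E)
    (hIC : ∀ x ∈ E, IsIntegral ↥(Algebra.adjoin K {j}) x → x ∈ Algebra.adjoin K {j})
    {ι : Type*} (V : ι → ValuationSubring F) (i₀ : ι)
    (hG : ∀ p : K[X], aeval j p ∈ V i₀ → ∀ i, p.coeff i ∈ (algebraMap R K).range)
    (hthree : ∀ f : F, (∀ i, f ∈ V i) →
      ∃ P : F[X], P.Monic ∧ (∀ k, P.coeff k ∈ V i₀ ∧ P.coeff k ∈ E) ∧ P.eval f = 0)
    {f : F} (hf₁ : IsIntegral ↥(Algebra.adjoin K {j}) f) (hf₂ : ∀ i, f ∈ V i) :
    IsIntegral ↥(Algebra.adjoin R {j}) f := by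
  refine isIntegral_adjoin_of_gauss_sub R K j E hKE hjE hIC (V i₀).toSubring ?_ hG hf₁
    (hthree f hf₂)
  intro x hx
  have h1 : IsIntegral ↥(V i₀) x := hx
  exact mem_valuationSubring_of_isIntegral (V i₀) h1

end GaussE

section Fixed

open IntermediateField

variable {C F : Type*} [Field C] [Field F] [Algebra C F]

/-- **(IC_E)** for inertia-fixed functions of level one: an element of `C(j)` which is integral
over `C[j]` and fixed by a family of semilinear automorphisms fixing `j` is a polynomial in `j`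
with coefficients in the fixed field `K`. -/
theorem mem_adjoin_fixed_of_isIntegral (K : Subfield C) (j : F) (hj : Transcendental C j)
    {ι : Type*} (s : ι → F →+* F) (t : ι → C →+* C)
    (hs : ∀ i c, s i (algebraMap C F c) = algebraMap C F (t i c)) (hsj : ∀ i, s i j = j)
    (hK : ∀ c : C, (∀ i, t i c = c) → c ∈ K)
    {x : F} (hx : x ∈ C⟮j⟯) (hfix : ∀ i, s i x = x)
    (hint : IsIntegral ↥(Algebra.adjoin C {j}) x) : x ∈ Algebra.adjoin ↥K {j} := by
  have h1 := mem_adjoin_of_isIntegral C j hj hx hint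
  rw [Algebra.adjoin_singleton_eq_range_aeval] at h1
  obtain ⟨p, hp⟩ := h1
  have hp' : aeval j p = x := hp
  have hsp : ∀ i, aeval j (p.map (t i)) = aeval j p := by
    intro i
    have e1 : s i (aeval j p) = aeval j (p.map (t i)) := by
      rw [aeval_def, aeval_def, Polynomial.hom_eval₂, eval₂_map, hsj]
      congr 1
      ext c
      exact hs i c
    rw [← e1, hp', hfix i]
  have hcoef : ∀ i n, t i (p.coeff n) = p.coeff n := by
    intro i n
    have := (transcendental_iff_injective.1 hj) (hsp i)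
    have h2 := congrArg (fun q : C[X] => q.coeff n) this
    simpa using h2
  have hl : p ∈ Polynomial.lifts (algebraMap ↥K C) := by
    rw [lifts_iff_coeff_lifts]
    intro n
    exact ⟨⟨p.coeff n, hK _ fun i => hcoef i n⟩, rfl⟩
  obtain ⟨p', rfl⟩ := (Polynomial.mem_lifts p).1 hl
  rw [← hp', Polynomial.aeval_map_algebraMap, Algebra.adjoin_singleton_eq_range_aeval]
  exact ⟨p', rfl⟩

end Fixed

end Fermat.Agent.S36.NU.H17
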