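import Mathlib

/-!
# S36 / NU-B, leaf TOT3-MOD, step 2a (helper23): descent to fixed fields (abstract)

`E ⊆ L` a finite extension of fields, a family of pairs of ring homomorphisms
`(sE g, sL g)` (modular: the action of the inertia group on the coefficients of
`q`-expansions), `E₀ ⊆ E`, `L₀ ⊆ L` the fixed fields.

* `linearIndependent_of_fixed` (Artin): a family of `L₀` which is linearly independent over `E₀`
  is linearly independent over `E`;
* `finite_of_fixed` : `L₀ / E₀` is finite;
* if `L` is generated over `E` by `L₀`: `finrank_of_fixed : [L₀ : E₀] = [L : E]` and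
  `norm_of_fixed : N_{L/E} g = N_{L₀/E₀} g` for `g ∈ L₀`.
-/

set_option autoImplicit false
set_option linter.style.haveILetI false

noncomputable section

namespace Fermat.Agent.S36.NU.H23

open Module

section Descent

variable {E L E₀ L₀ : Type*} [Field E] [Field L] [Field E₀] [Field L₀]
  [Algebra E L] [Algebra E₀ L₀] [Algebra E₀ E] [Algebra L₀ L] [Algebra E₀ L]
  [IsScalarTower E₀ L₀ L] [IsScalarTower E₀ E L]
  {G : Type*} (sE : G → E →+* E) (sL : G → L →+* L)
  (hs : ∀ g x, sL g (algebraMap E L x) = algebraMap E L (sE g x))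
  (hL₀ : ∀ g (x : L₀), sL g (algebraMap L₀ L x) = algebraMap L₀ L x)
  (hE₀ : ∀ x : E, (∀ g, sE g x = x) → ∃ y : E₀, algebraMap E₀ E y = x)

include hs hL₀ hE₀ in
/-- **Artin's lemma**: a family of fixed elements which is linearly independent over the fixed
field of `E` is linearly independent over `E`. -/
theorem linearIndependent_of_fixed {ι : Type*} (b : ι → L₀) (hb : LinearIndependent E₀ b) :
    LinearIndependent E (fun i => algebraMap L₀ L (b i)) := by
  classical
  rw [linearIndependent_iff']
  intro s
  induction s using Finset.induction_on with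
  | empty => intro c _ i hi; simp at hi
  | insert a s ha ih =>
    intro c hc
    by_cases hca : c a = 0
    · have h1 : ∑ i ∈ s, c i • algebraMap L₀ L (b i) = 0 := by
        rw [Finset.sum_insert ha, hca, zero_smul, zero_add] at hc
        exact hc
      intro i hi
      rcases Finset.mem_insert.mp hi with rfl | hi'
      · exact hca
      · exact ih c h1 i hi'
    · exfalso
      -- normalise
      set d : ι → E := fun i => c i / c a with hd
      have hda : d a = 1 := div_self hca
      have hrel : ∑ i ∈ insert a s, d i • algebraMap L₀ L (b i) = 0 := by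
        have : ∑ i ∈ insert a s, d i • algebraMap L₀ L (b i)
            = (c a)⁻¹ • ∑ i ∈ insert a s, c i • algebraMap L₀ L (b i) := by
          rw [Finset.smul_sum]
          refine Finset.sum_congr rfl fun i _ => ?_
          rw [smul_smul]
          congr 1
          show c i / c a = _
          rw [div_eq_mul_inv, mul_comm]
        rw [this, hc, smul_zero]
      -- the coefficients are fixed
      have hfix : ∀ g, ∀ i ∈ s, sE g (d i) - d i = 0 := by
        intro g
        apply ih
        have h1 : ∑ i ∈ insert a s, sE g (d i) • algebraMap L₀ L (b i) = 0 := by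
          have := congrArg (sL g) hrel
          rw [map_sum, map_zero] at this
          rw [← this]
          refine Finset.sum_congr rfl fun i _ => ?_
          rw [Algebra.smul_def, Algebra.smul_def, map_mul, hs, hL₀]
        have h2 : ∑ i ∈ insert a s, (sE g (d i) - d i) • algebraMap L₀ L (b i) = 0 := by
          simp only [sub_smul, Finset.sum_sub_distrib]
          rw [h1, hrel, sub_zero]
        rw [Finset.sum_insert ha, hda, map_one, sub_self, zero_smul, zero_add] at h2
        exact h2
      have hfix' : ∀ i ∈ insert a s, ∃ y : E₀, algebraMap E₀ E y = d i := by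
        intro i hi
        apply hE₀
        intro g
        rcases Finset.mem_insert.mp hi with rfl | hi'
        · rw [hda, map_one]
        · exact sub_eq_zero.mp (hfix g i hi')
      choose! y hy using hfix'
      have hrel₀ : ∑ i ∈ insert a s, y i • b i = 0 := by
        apply (algebraMap L₀ L).injective
        rw [map_sum, map_zero, ← hrel]
        refine Finset.sum_congr rfl fun i hi => ?_
        rw [Algebra.smul_def, map_mul, ← IsScalarTower.algebraMap_apply E₀ L₀ L,
          IsScalarTower.algebraMap_apply E₀ E L, hy i hi, Algebra.smul_def]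
      have h0 := linearIndependent_iff'.mp hb (insert a s) y hrel₀ a (Finset.mem_insert_self a s)
      have h1 := hy a (Finset.mem_insert_self a s)
      rw [h0, map_zero, hda] at h1
      exact zero_ne_one h1

include hs hL₀ hE₀ in
/-- The fixed field of `L` is finite over the fixed field of `E`. -/
theorem finite_of_fixed [Module.Finite E L] : Module.Finite E₀ L₀ := by
  classical
  let b := Basis.ofVectorSpace E₀ L₀
  have hli := linearIndependent_of_fixed sE sL hs hL₀ hE₀ b b.linearIndependent
  haveI : Finite (Basis.ofVectorSpaceIndex E₀ L₀) := hli.finite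
  exact Module.Finite.of_basis b

variable (hgen : ∀ S : Subalgebra E L, IsField S → (∀ x : L₀, algebraMap L₀ L x ∈ S) → S = ⊤)

include hgen in
/-- If `L` is generated over `E` by the fixed elements, they span `L` over `E`. -/
theorem span_range_of_fixed [Module.Finite E L] :
    Submodule.span E (Set.range (algebraMap L₀ L)) = ⊤ := by
  have hfield : IsField (Algebra.adjoin E (Set.range (algebraMap L₀ L))) :=
    Subalgebra.isField_of_algebraic _
  have htop := hgen _ hfield (fun x => Algebra.subset_adjoin ⟨x, rfl⟩)
  have h1 : Submonoid.closure (Set.range (algebraMap L₀ L))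
      = (algebraMap L₀ L).range.toSubmonoid := by
    apply le_antisymm
    · rw [Submonoid.closure_le]
      rintro _ ⟨x, rfl⟩
      exact ⟨x, rfl⟩
    · rintro _ ⟨x, rfl⟩
      exact Submonoid.subset_closure ⟨x, rfl⟩
  have h2 := Algebra.adjoin_eq_span E (Set.range (algebraMap L₀ L))
  rw [htop, h1] at h2
  rw [show (Set.range (algebraMap L₀ L)) = ((algebraMap L₀ L).range.toSubmonoid : Set L) from rfl,
    ← h2]
  rfl

include hgen in
/-- A basis of `L₀ / E₀` is a basis of `L / E`. -/
theorem span_basis_of_fixed [Module.Finite E L] {ι : Type*} (b : Basis ι E₀ L₀) :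
    Submodule.span E (Set.range fun i => algebraMap L₀ L (b i)) = ⊤ := by
  rw [eq_top_iff, ← span_range_of_fixed hgen, Submodule.span_le]
  rintro _ ⟨x, rfl⟩
  have hx : x ∈ Submodule.span E₀ (Set.range b) := by rw [b.span_eq]; trivial
  induction hx using Submodule.span_induction with
  | mem y hy =>
    obtain ⟨i, rfl⟩ := hy
    exact Submodule.subset_span ⟨i, rfl⟩
  | zero => rw [map_zero]; exact Submodule.zero_mem _
  | add y z _ _ hy hz => rw [map_add]; exact Submodule.add_mem _ hy hz
  | smul c y _ hy =>
    rw [Algebra.smul_def, map_mul, ← IsScalarTower.algebraMap_apply E₀ L₀ L,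
      IsScalarTower.algebraMap_apply E₀ E L, ← Algebra.smul_def]
    exact Submodule.smul_mem _ _ hy

/-- The basis of `L / E` given by a basis of `L₀ / E₀`. -/
def basisOfFixed [Module.Finite E L] {ι : Type*} (b : Basis ι E₀ L₀)
    (hs : ∀ g x, sL g (algebraMap E L x) = algebraMap E L (sE g x))
    (hL₀ : ∀ g (x : L₀), sL g (algebraMap L₀ L x) = algebraMap L₀ L x)
    (hE₀ : ∀ x : E, (∀ g, sE g x = x) → ∃ y : E₀, algebraMap E₀ E y = x)
    (hgen : ∀ S : Subalgebra E L, IsField S → (∀ x : L₀, algebraMap L₀ L x ∈ S) → S = ⊤) :
    Basis ι E L :=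
  Basis.mk (linearIndependent_of_fixed sE sL hs hL₀ hE₀ b b.linearIndependent)
    (span_basis_of_fixed hgen b).ge

theorem basisOfFixed_apply [Module.Finite E L] {ι : Type*} (b : Basis ι E₀ L₀) (i : ι) :
    basisOfFixed sE sL b hs hL₀ hE₀ hgen i = algebraMap L₀ L (b i) := by
  unfold basisOfFixed
  rw [Basis.mk_apply]

include hs hL₀ hE₀ hgen in
/-- `[L₀ : E₀] = [L : E]`. -/
theorem finrank_of_fixed [Module.Finite E L] : finrank E₀ L₀ = finrank E L := by
  haveI := finite_of_fixed sE sL hs hL₀ hE₀
  let b := Module.finBasis E₀ L₀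
  rw [finrank_eq_card_basis b, finrank_eq_card_basis (basisOfFixed sE sL b hs hL₀ hE₀ hgen)]

include hs hL₀ hE₀ hgen in
/-- The norm of `L / E` of a fixed element is its norm for `L₀ / E₀`. -/
theorem norm_of_fixed [Module.Finite E L] (g : L₀) :
    Algebra.norm E (algebraMap L₀ L g) = algebraMap E₀ E (Algebra.norm E₀ g) := by
  classical
  haveI := finite_of_fixed sE sL hs hL₀ hE₀
  let b := Module.finBasis E₀ L₀
  let bE := basisOfFixed sE sL b hs hL₀ hE₀ hgen
  rw [Algebra.norm_eq_matrix_det bE, Algebra.norm_eq_matrix_det b, RingHom.map_det]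
  congr 1
  ext i j
  rw [RingHom.mapMatrix_apply, Matrix.map_apply, Algebra.leftMulMatrix_eq_repr_mul,
    Algebra.leftMulMatrix_eq_repr_mul]
  -- coordinates
  have h1 : algebraMap L₀ L g * bE j = ∑ l, algebraMap E₀ E (b.repr (g * b j) l) • bE l := by
    have h2 : g * b j = ∑ l, b.repr (g * b j) l • b l := (b.sum_repr (g * b j)).symm
    have h3 : bE j = algebraMap L₀ L (b j) := basisOfFixed_apply sE sL hs hL₀ hE₀ hgen b j
    rw [h3, ← map_mul, h2, map_sum]
    refine Finset.sum_congr rfl fun l _ => ?_
    rw [Algebra.smul_def, map_mul, ← IsScalarTower.algebraMap_apply E₀ L₀ L,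
      IsScalarTower.algebraMap_apply E₀ E L, ← Algebra.smul_def,
      basisOfFixed_apply sE sL hs hL₀ hE₀ hgen b l, ← h2]
  rw [h1, bE.repr_sum_self]

end Descent

end Fermat.Agent.S36.NU.H23
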