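import Fermat.Agent.S36.NU.H88_WQ
import Fermat.Agent.S36.NU.H82_Deg2
import Fermat.Agent.BAD.H73_D

/-!
# S36, NU-B (helper82): the residue field of the Gauss valuation of `F_{M qⁿ} · Q̄` at `q ∤ M`

`N = M qⁿ`, `q ∤ M` prime, `A` a valuation ring of `Q̄` over `q`, `k` its residue field.

* `redField_eq_of_invol` (abstract): `F ⊆ F'` fields of Laurent series with the scaling property,
  `w` an involution of `F'` which is the substitution `t ↦ t ^ Q` on `F`; if the residue field of
  `F` is stable under `t ↦ t ^ Q` and contains a series with a simple pole, and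
  `[F' : F] < 2 Q`, then `F'` and `F` have the same residue field.
* `relfinrank_level_pow` : `[F_{M qⁿ} · Q̄ : F_M · Q̄] = qⁿ + qⁿ⁻¹` (`n ≥ 1`).
* `wQ_eq_Fr` : `W_Q` is the substitution `t ↦ t ^ Q` on `F_M`.
* `redField_level_pow` : the residue field of the Gauss valuation of `F_{M qⁿ} · Q̄` is
  `k(j~(t^d) : d ∣ M)`, the function field of `X₀(M)` in characteristic `q`.
-/

set_option autoImplicit false
set_option synthInstance.maxHeartbeats 400000
set_option maxHeartbeats 1000000

noncomputable section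

open ModularCurve Fermat.Agent.S24 Fermat.Agent.S28 Fermat.Agent.S28.H73 Fermat.Agent.RED.H73
open Fermat.Agent.BAD.H88 Fermat.Agent.BAD.H82 Fermat.Agent.S36.NU.H88

namespace Fermat.Agent.S36.NU.H82

/-! ## Series: independence of `J ^ i θ ^ ε` -/

section Series

variable {k : Type} [Field k] (Q : ℕ) [NeZero Q]

/-- If `κ ⊆ E ∩ k((t ^ Q))`, `J ∈ E` has a simple pole and `θ ∉ E`, then the `2 Q` elements
`J ^ i θ ^ ε` (`i < Q`, `ε < 2`) are linearly independent over `κ`. -/
theorem linearIndependent_pow_mul_gen (κ E : Subfield (LaurentSeries k)) (hκE : κ ≤ E)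
    (hκF : κ ≤ FrRange k Q) (J : LaurentSeries k) (hJo : J.order = -1) (hj : J ∈ E)
    {θ : LaurentSeries k} (hθ : θ ∉ E) :
    LinearIndependent κ (fun p : Fin Q × Fin 2 => J ^ (p.1 : ℕ) * θ ^ (p.2 : ℕ)) := by
  rw [Fintype.linearIndependent_iff]
  intro g hg
  set S : Fin 2 → LaurentSeries k := fun ε => ∑ i : Fin Q, (g (i, ε) : LaurentSeries k)
    * J ^ (i : ℕ) with hS
  have hSE : ∀ ε, S ε ∈ E := fun ε =>
    E.sum_mem fun i _ => E.mul_mem (hκE (g (i, ε)).2) (E.pow_mem hj _)
  have hrel : S 0 + S 1 * θ = 0 := by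
    have h1 : ∑ p : Fin Q × Fin 2, g p • (J ^ (p.1 : ℕ) * θ ^ (p.2 : ℕ))
        = ∑ i : Fin Q, ∑ ε : Fin 2,
          (g (i, ε) : LaurentSeries k) * (J ^ (i : ℕ) * θ ^ (ε : ℕ)) := by
      rw [Fintype.sum_prod_type]
      rfl
    rw [h1] at hg
    rw [← hg, hS]
    simp only [Fin.sum_univ_two, Fin.val_zero, Fin.val_one, pow_zero, pow_one, mul_one]
    rw [Finset.sum_add_distrib, Finset.sum_mul]
    congr 1
    refine Finset.sum_congr rfl fun i _ => ?_
    ring
  have hS1 : S 1 = 0 := by
    by_contra h1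
    apply hθ
    have h2 : θ = -(S 0) / S 1 := by
      rw [eq_div_iff h1]
      linear_combination hrel
    rw [h2]
    exact E.div_mem (E.neg_mem (hSE 0)) (hSE 1)
  have hS0 : S 0 = 0 := by
    rw [hS1, zero_mul, add_zero] at hrel
    exact hrel
  have key : ∀ ε, S ε = 0 → ∀ i, g (i, ε) = 0 := by
    intro ε h0 i
    have hc : ∀ i : Fin Q, ∃ c : LaurentSeries k, qExpand k Q c = (g (i, ε) : LaurentSeries k) :=
      fun i => (mem_FrRange_iff k Q _).1 (hκF (g (i, ε)).2)
    choose c hc using hc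
    have hsum : ∑ i, qExpand k Q (c i) * J ^ (i : ℕ) = 0 := by
      rw [← h0, hS]
      exact Finset.sum_congr rfl fun i _ => by rw [hc i]
    have h1 := Fermat.Agent.BAD.H73.pow_indep_qExpand Q J hJo c hsum i
    apply Subtype.ext
    rw [← hc i, h1, map_zero]
    rfl
  rintro ⟨i, ε⟩
  fin_cases ε
  · exact key 0 hS0 i
  · exact key 1 hS1 i

end Series

/-! ## The abstract statement -/

section AbstractD2

variable {C : Type} [Field C] (O : ValuationSubring C)
variable (F F' : IntermediateField C (LaurentSeries C)) (hle : F ≤ F')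
variable (h : HasScale O F) (h' : HasScale O F')
variable (Q : ℕ) [NeZero Q]
variable (w : ↥F' ≃ₐ[C] ↥F')

include hle in
/-- **(D), abstract form with an involution.** -/
theorem redField_eq_of_invol
    (hww : ∀ x, w (w x) = x)
    (hwF : ∀ x : ↥F', (x : LaurentSeries C) ∈ F →
      ((w x : ↥F') : LaurentSeries C) = qExpand C Q (x : LaurentSeries C))
    (hdeg0 : F.relfinrank F' ≠ 0) (hdeg : F.relfinrank F' < 2 * Q)
    (hFr : ∀ x ∈ redField O F h, qExpand (kV O) Q x ∈ redField O F h)
    (J : LaurentSeries (kV O)) (hJ : J ∈ redField O F h) (hJo : J.order = -1) :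
    redField O F' h' = redField O F h := by
  have hle₁ : redField O F h ≤ redField O F' h' := Fermat.Agent.BAD.H73.redField_mono O hle h h'
  refine le_antisymm ?_ hle₁
  intro θ hθ
  by_contra hθE
  obtain ⟨bV, hb⟩ := hθ
  obtain ⟨jx, hjx⟩ := hJ
  -- `J` lifted to the Gauss ring of `F'`
  set jV : ↥(gaussValSub O F' h') :=
    ⟨⟨((jx : ↥F) : LaurentSeries C), hle (jx : ↥F).2⟩, jx.2⟩ with hjV
  have hjres : gaussResF O h' jV = J := by
    rw [← hjx]
    rfl
  -- the second valuation ring and its reduction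
  set V₂ : ValuationSubring ↥F' := comapV (gaussValSub O F' h') w with hV₂
  set red₂ : ↥V₂ →+* LaurentSeries (kV O) :=
    (gaussResF O h').comp (comapRestrict (gaussValSub O F' h') w) with hred₂
  set kapE : Subfield (LaurentSeries (kV O)) :=
    (redField O F h).toSubfield.map (qExpand (kV O) Q) with hkapE
  set subF : Subfield ↥F' :=
    F.toSubfield.comap ((F'.val : ↥F' →ₐ[C] LaurentSeries C) : ↥F' →+* LaurentSeries C) with hsubF
  -- reductions of elements of `F` at `V₂`
  have hE : ∀ (α : ↥F') (_ : α ∈ subF) (hV : α ∈ V₂), red₂ ⟨α, hV⟩ ∈ kapE := by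
    intro α hα hV
    have hαF : (α : LaurentSeries C) ∈ F := hα
    by_cases hα0 : α = 0
    · have e : (⟨α, hV⟩ : ↥V₂) = 0 := Subtype.ext hα0
      rw [e, map_zero]
      exact kapE.zero_mem
    have hα0' : (α : LaurentSeries C) ≠ 0 := fun h0 => hα0 (Subtype.ext h0)
    have hwα := hwF α hαF
    have hV' : ((w α : ↥F') : LaurentSeries C) ∈ gaussRingV O := hV
    have hFrm : qExpand C Q (α : LaurentSeries C) ∈ gaussRingV O := hwα ▸ hV'
    have hsc := h (α : LaurentSeries C) hαF hα0'
    have hxG : (α : LaurentSeries C) ∈ gaussRingV O := mem_gaussRingV_of_Fr_mem O Q hsc hFrm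
    have e1 : red₂ ⟨α, hV⟩
        = qExpand (kV O) Q (gaussRedV O ⟨(α : LaurentSeries C), hxG⟩) := by
      have e0 : red₂ ⟨α, hV⟩ = gaussRedV O ⟨((w α : ↥F') : LaurentSeries C), hV'⟩ := rfl
      have e : (⟨((w α : ↥F') : LaurentSeries C), hV'⟩ : gaussRingV O)
          = ⟨qExpand C Q (α : LaurentSeries C), hFrm⟩ := Subtype.ext hwα
      rw [e0, e, gaussRedV_Fr O Q hxG hFrm]
    rw [e1]
    refine ⟨gaussRedV O ⟨(α : LaurentSeries C), hxG⟩, ?_, rfl⟩
    exact ⟨⟨⟨(α : LaurentSeries C), hαF⟩, hxG⟩, rfl⟩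
  -- the family
  set y : Fin Q × Fin 2 → ↥(gaussValSub O F' h') :=
    fun p => jV ^ (p.1 : ℕ) * bV ^ (p.2 : ℕ) with hy
  have hyres : ∀ p, gaussResF O h' (y p) = J ^ (p.1 : ℕ) * θ ^ (p.2 : ℕ) := by
    intro p
    rw [hy]
    simp only [map_mul, map_pow, hjres, hb]
  have hum : ∀ p, w ((y p : ↥(gaussValSub O F' h')) : ↥F') ∈ V₂ := by
    intro p
    show w (w ((y p : ↥(gaussValSub O F' h')) : ↥F')) ∈ gaussValSub O F' h'
    rw [hww]
    exact (y p).2
  set u : Fin Q × Fin 2 → ↥V₂ := fun p => ⟨_, hum p⟩ with hu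
  have hures : ∀ p, red₂ (u p) = J ^ (p.1 : ℕ) * θ ^ (p.2 : ℕ) := by
    intro p
    rw [← hyres p]
    show gaussResF O h' (comapRestrict (gaussValSub O F' h') w (u p)) = _
    congr 1
    apply Subtype.ext
    exact hww _
  -- linear independence of the reductions
  have hκE : kapE ≤ (redField O F h).toSubfield := by
    rintro _ ⟨x, hx, rfl⟩
    exact hFr x hx
  have hκF : kapE ≤ FrRange (kV O) Q := by
    rintro _ ⟨x, -, rfl⟩
    exact (mem_FrRange_iff (kV O) Q _).2 ⟨x, rfl⟩
  have hJE : J ∈ (redField O F h).toSubfield := ⟨jx, hjx⟩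
  have hli0 := linearIndependent_pow_mul_gen Q kapE (redField O F h).toSubfield hκE hκF J hJo hJE
    (θ := θ) hθE
  have hli1 : LinearIndependent kapE (fun p => red₂ (u p)) := by
    have e : (fun p => red₂ (u p))
        = fun p : Fin Q × Fin 2 => J ^ (p.1 : ℕ) * θ ^ (p.2 : ℕ) := funext hures
    rw [e]
    exact hli0
  have hli2 := linearIndependent_of_red subF V₂ red₂ kapE hE u hli1
  rw [Fintype.linearIndependent_iff] at hli2
  -- counting
  have hcard := card_le_relfinrank F F' hle hdeg0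
    (fun p => (((u p : ↥V₂) : ↥F') : LaurentSeries C))
    (fun p => ((u p : ↥V₂) : ↥F').2)
    (by
      intro g hg hsum p
      have h1 := hli2 (fun p => (⟨⟨g p, hle (hg p)⟩, hg p⟩ : ↥subF))
        (Subtype.ext (by
          have h2 : ((∑ p, (⟨⟨g p, hle (hg p)⟩, hg p⟩ : ↥subF)
              • ((u p : ↥V₂) : ↥F') : ↥F') : LaurentSeries C)
              = ∑ p, g p * (((u p : ↥V₂) : ↥F') : LaurentSeries C) := by
            rw [← IntermediateField.coe_val, map_sum]
            exact Finset.sum_congr rfl (fun p _ => rfl)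
          rw [h2, hsum]
          rfl)) p
      exact congrArg (fun z : ↥subF => ((z : ↥F') : LaurentSeries C)) h1)
  rw [Fintype.card_prod, Fintype.card_fin, Fintype.card_fin] at hcard
  omega

end AbstractD2

/-! ## The tower `F_M ⊆ F_N`, `M ∣ N` -/

section Tower

variable (N M : ℕ) [NeZero N] (hMN : M ∣ N)

include hMN in
theorem neZero_of_dvd_level : NeZero M :=
  ⟨fun h => NeZero.ne N (by rw [h] at hMN; exact Nat.eq_zero_of_zero_dvd hMN)⟩

include hMN in
/-- `F_M · Q̄ ⊆ F_N · Q̄` for `M ∣ N`. -/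
theorem FM_le_of_dvd : modularFunctionFieldBar M ≤ modularFunctionFieldBar N := by
  have : NeZero M := neZero_of_dvd_level N M hMN
  show laurentBaseChange Kbar (modularFunctionFieldFull M)
    ≤ laurentBaseChange Kbar (modularFunctionFieldFull N)
  rw [laurentBaseChange_full_eq, laurentBaseChange_full_eq]
  exact full_degeneracyC_le Kbar hMN

/-- The inclusion `F_M → F_N`. -/
def inclMN : FN M →ₐ[Kbar] FN N := IntermediateField.inclusion (FM_le_of_dvd N M hMN)

theorem coe_inclMN (x : FN M) : ((inclMN N M hMN x : FN N) : LaurentSeries Kbar) = x :=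
  IntermediateField.coe_inclusion (FM_le_of_dvd N M hMN) x

theorem inclMN_jdF [NeZero M] (d : ℕ) [NeZero d] (hd : d ∣ M) :
    inclMN N M hMN (jdF M d hd) = jdF N d (hd.trans hMN) := by
  apply Subtype.ext
  rw [coe_inclMN, coe_jdF, coe_jdF]

end Tower

/-! ## `W_Q` on `F_M` -/

section WQ

variable (N Q M : ℕ) (a b : ℤ) (hN : N = M * Q) (hab : a * Q + b * M = 1) [NeZero N]

/-- **`W_Q` is the substitution `t ↦ t ^ Q` on `F_M`.** -/
theorem wQ_eq_Fr [NeZero M] [NeZero Q] (x : FN M) :
    ((wQ N Q M a b hN hab (inclMN N M (Dvd.intro Q hN.symm) x) : FN N) : LaurentSeries Kbar)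
      = qExpand Kbar Q (x : LaurentSeries Kbar) := by
  have hMN : M ∣ N := Dvd.intro Q hN.symm
  let f₁ : FN M →+* LaurentSeries Kbar :=
    ((modularFunctionFieldBar N).val : FN N →+* LaurentSeries Kbar).comp
      (((wQ N Q M a b hN hab : FN N ≃ₐ[Kbar] FN N) : FN N →+* FN N).comp
        ((inclMN N M hMN : FN M →ₐ[Kbar] FN N) : FN M →+* FN N))
  let f₂ : FN M →+* LaurentSeries Kbar :=
    (qExpand Kbar Q).comp ((modularFunctionFieldBar M).val : FN M →+* LaurentSeries Kbar)
  have key : f₁ = f₂ := by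
    apply ringHom_ext_jdF M
    · intro c
      show ((wQ N Q M a b hN hab (inclMN N M hMN (algebraMap Kbar (FN M) c)) : FN N) :
        LaurentSeries Kbar) = qExpand Kbar Q ((algebraMap Kbar (FN M) c : FN M) : LaurentSeries Kbar)
      rw [(inclMN N M hMN).commutes c, AlgEquiv.commutes]
      show algebraMap Kbar (LaurentSeries Kbar) c
        = qExpandAlgHomC Kbar Q (algebraMap Kbar (LaurentSeries Kbar) c)
      rw [AlgHom.commutes]
    · intro d hd0 hd
      have : NeZero (d * Q) := ⟨Nat.mul_ne_zero (NeZero.ne d) (NeZero.ne Q)⟩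
      have h2 : d * Q ∣ N := by
        rw [hN]
        exact Nat.mul_dvd_mul_right hd Q
      show ((wQ N Q M a b hN hab (inclMN N M hMN (jdF M d hd)) : FN N) : LaurentSeries Kbar)
        = qExpand Kbar Q ((jdF M d hd : FN M) : LaurentSeries Kbar)
      rw [inclMN_jdF, wQ_jdF' N Q M a b hN hab d (d * Q) d (M / d) 1 Q (mul_one d).symm rfl
        (Nat.mul_div_cancel' hd).symm (one_mul Q).symm (hd.trans hMN) h2, coe_jdF, coe_jdF,
        qExpand_qExpand]
      exact ModularCurve.qExpand_congr (mul_comm d Q) _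
  exact congrArg (fun f : FN M →+* LaurentSeries Kbar => f x) key

end WQ

/-! ## The degree -/

/-- `[F_{M qⁿ} · Q̄ : F_M · Q̄] = qⁿ + qⁿ⁻¹` for a prime `q ∤ M`, `n ≥ 1`. -/
theorem relfinrank_level_pow (q n M N : ℕ) [NeZero N] (hq : q.Prime) (hqM : ¬ q ∣ M)
    (hn : 0 < n) (hN : N = M * q ^ n) :
    (modularFunctionFieldBar M).relfinrank (modularFunctionFieldBar N)
      = q ^ n + q ^ (n - 1) := by
  have hMN : M ∣ N := Dvd.intro _ hN.symm
  have : NeZero M := neZero_of_dvd_level N M hMN
  have h1 := relfinrank_bar M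
  have h2 := relfinrank_bar N
  have hcop : Nat.Coprime M (q ^ n) :=
    (Nat.Coprime.pow_left n ((Nat.Prime.coprime_iff_not_dvd hq).mpr hqM)).symm
  have e : dedekindPsi N = dedekindPsi M * (q ^ n + q ^ (n - 1)) := by
    rw [hN, Fermat.Agent.S20.H19.dedekindPsi_mul hcop,
      Fermat.Agent.S20.H19.dedekindPsi_prime_pow hq hn]
  rw [e] at h2
  have h3 := IntermediateField.relfinrank_mul_relfinrank (adjoin_j_le M) (FM_le_of_dvd N M hMN)
  rw [h1, h2] at h3
  exact Nat.eq_of_mul_eq_mul_left (Nat.pos_of_ne_zero (dedekindPsi_ne_zero' M)) h3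

/-! ## Stability of `k(j~(t^d) : d ∣ M)` under `t ↦ t ^ (qⁿ)` -/

theorem Fr_pow_mem_fullC (k : Type*) [Field k] (q M : ℕ) [NeZero M] [Fact q.Prime] [CharP k q] :
    ∀ (n : ℕ) (_ : NeZero (q ^ n)) {x : LaurentSeries k},
      x ∈ modularFunctionFieldFullC k M → qExpand k (q ^ n) x ∈ modularFunctionFieldFullC k M := by
  have hq : q.Prime := Fact.out
  have : NeZero q := ⟨hq.ne_zero⟩
  intro n
  induction n with
  | zero =>
    intro _ x hx
    have e : qExpand k (q ^ 0) x = x := by
      rw [ModularCurve.qExpand_congr (pow_zero q) x, qExpand_one_apply]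
    rw [e]
    exact hx
  | succ n ih =>
    intro _ x hx
    have : NeZero (q ^ n) := ⟨pow_ne_zero n hq.ne_zero⟩
    have : NeZero (q * q ^ n) := ⟨Nat.mul_ne_zero hq.ne_zero (pow_ne_zero n hq.ne_zero)⟩
    have e : qExpand k (q ^ (n + 1)) x = qExpand k q (qExpand k (q ^ n) x) := by
      rw [qExpand_qExpand]
      exact ModularCurve.qExpand_congr (pow_succ' q n) x
    rw [e]
    exact Fr_mem_fullC k q M (ih inferInstance hx)

/-! ## The residue field at level `M qⁿ` -/

/-- **(D) at level `M qⁿ`**: for a prime `q ∤ M` and a valuation ring `A` of `Q̄` over `q`, the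
residue field of the Gauss valuation (`q`-expansion at `∞`) of `F_{M qⁿ} · Q̄` is
`k(j~(t^d) : d ∣ M)`, the function field of `X₀(M)` in characteristic `q`. -/
theorem redField_level_pow (q n M N : ℕ) [NeZero N] (hq : q.Prime) (hqM : ¬ q ∣ M)
    (hN : N = M * q ^ n) (A : ValuationSubring Kbar) (hA : A.LiesOverPrime q) :
    redField A (modularFunctionFieldBar N) (hasScale_laurentBaseChange A N)
      = modularFunctionFieldFullC (kV A) M := by
  have hMN : M ∣ N := Dvd.intro _ hN.symm
  have hM0 : NeZero M := neZero_of_dvd_level N M hMN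
  have hGA : redField A (modularFunctionFieldBar M) (hasScale_laurentBaseChange A M)
      = modularFunctionFieldFullC (kV A) M := stmt_GA M q hq hqM A hA
  rcases Nat.eq_zero_or_pos n with hn | hn
  · have hNM : N = M := by rw [hN, hn, pow_zero, mul_one]
    subst hNM
    exact hGA
  · have hcop : IsCoprime ((q ^ n : ℕ) : ℤ) (M : ℤ) :=
      Nat.isCoprime_iff_coprime.mpr
        (Nat.Coprime.pow_left n ((Nat.Prime.coprime_iff_not_dvd hq).mpr hqM))
    obtain ⟨a, b, hab⟩ := hcop
    have hQ0 : NeZero (q ^ n) := ⟨pow_ne_zero n hq.ne_zero⟩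
    have hFact : Fact q.Prime := ⟨hq⟩
    have hchar : CharP (kV A) q := charP_kV A hq hA
    have hdeg := relfinrank_level_pow q n M N hq hqM hn hN
    have hlt : q ^ (n - 1) < q ^ n := Nat.pow_lt_pow_right hq.one_lt (by omega)
    have hwF : ∀ x : FN N, (x : LaurentSeries Kbar) ∈ modularFunctionFieldBar M →
        ((wQ N (q ^ n) M a b hN hab x : FN N) : LaurentSeries Kbar)
          = qExpand Kbar (q ^ n) (x : LaurentSeries Kbar) := by
      intro x hx
      have hx' : inclMN N M hMN ⟨(x : LaurentSeries Kbar), hx⟩ = x :=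
        Subtype.ext ((coe_inclMN N M hMN _).trans (Subtype.coe_mk _ _))
      obtain ⟨x', rfl⟩ : ∃ x' : FN M, inclMN N M hMN x' = x := ⟨_, hx'⟩
      rw [wQ_eq_Fr N (q ^ n) M a b hN hab x', coe_inclMN]
    have hJo : (jqModC (kV A)).order = -1 := by
      have h := JL_order (kV A) 1
      have e : JL (kV A) 1 = jqModC (kV A) := qExpand_one_apply _
      rw [e] at h
      rw [h]
      norm_num
    have key := redField_eq_of_invol A (modularFunctionFieldBar M) (modularFunctionFieldBar N)
      (FM_le_of_dvd N M hMN) (hasScale_laurentBaseChange A M) (hasScale_laurentBaseChange A N)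
      (q ^ n) (wQ N (q ^ n) M a b hN hab) (wQ_wQ N (q ^ n) M a b hN hab) hwF
      (by rw [hdeg]; exact (Nat.add_pos_left (pow_pos hq.pos n) _).ne')
      (by rw [hdeg]; omega)
      (by
        intro x hx
        rw [hGA] at hx ⊢
        exact Fr_pow_mem_fullC (kV A) q M n inferInstance hx)
      (jqModC (kV A))
      (by rw [hGA]; exact jqModC_mem_full (kV A) M)
      hJo
    rw [key]
    exact hGA

/-- **(D) in the shape of `Stmt_TorsNU`** (level `M q` with `M = M' q`, `q ∤ M'`): the residue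
field of the Gauss valuation of `F_{M' q q} · Q̄` is the function field of `X₀(M')` in
characteristic `q`. -/
theorem redField_NU (q M' : ℕ) [NeZero (M' * q * q)] (hq : q.Prime) (hqM : ¬ q ∣ M')
    (A : ValuationSubring Kbar) (hA : A.LiesOverPrime q) :
    redField A (modularFunctionFieldBar (M' * q * q)) (hasScale_laurentBaseChange A (M' * q * q))
      = modularFunctionFieldFullC (kV A) M' :=
  redField_level_pow q 2 M' (M' * q * q) hq hqM (by ring) A hA

/-- The residue fields of the Gauss valuations of levels `M' q q`, `M' q` and `M'` coincide. -/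
theorem redField_NU_eq (q M' : ℕ) [NeZero (M' * q * q)] (hq : q.Prime) (hqM : ¬ q ∣ M')
    (A : ValuationSubring Kbar) (hA : A.LiesOverPrime q) :
    redField A (modularFunctionFieldBar (M' * q * q)) (hasScale_laurentBaseChange A (M' * q * q))
      = redField A (modularFunctionFieldBar (M' * q)) (hasScale_laurentBaseChange A (M' * q)) := by
  have h0 : NeZero (M' * q) := neZero_of_mul_left q (M' * q)
  rw [redField_NU q M' hq hqM A hA]
  exact (redField_level_pow q 1 M' (M' * q) hq hqM (by ring) A hA).symm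

/-- `[F_{M' q q} · Q̄ : F_{M'} · Q̄] = q² + q`. -/
theorem relfinrank_NU (q M' : ℕ) [NeZero (M' * q * q)] (hq : q.Prime) (hqM : ¬ q ∣ M') :
    (modularFunctionFieldBar M').relfinrank (modularFunctionFieldBar (M' * q * q))
      = q ^ 2 + q := by
  have h := relfinrank_level_pow q 2 M' (M' * q * q) hq hqM (by omega) (by ring)
  simpa using h

/-- `[F_{M' q q} · Q̄ : F_{M' q} · Q̄] = q`: the degree of the degeneracy maps at `q ∥ M`. -/
theorem relfinrank_NU_top (q M' : ℕ) [NeZero (M' * q * q)] (hq : q.Prime) :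
    (modularFunctionFieldBar (M' * q)).relfinrank (modularFunctionFieldBar (M' * q * q)) = q :=
  relfinrank_FM_FN_of_dvd q (M' * q) hq (Dvd.intro_left M' rfl)

end Fermat.Agent.S36.NU.H82
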