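import Fermat.Agent.BAD.H73_Beta

/-!
# The operator `θ = t d/dt` on Laurent series and the `θ`-identity (S36 / NU-B / THETA; helper73)

* `thetaL : Derivation R (LaurentSeries R) (LaurentSeries R)`, `(θ f)_n = n f_n`.
* `thetaL_qExpand : θ (f(t^N)) = N • (θ f)(t^N)`, `thetaL_coeffMap`, `thetaL_pow`,
  `thetaL_pow_char : θ (f ^ q) = 0` in characteristic `q`.
* `deltaZ q u = (u ^ q - u(t^q)) / q` for `u ∈ ℤ((t))` and
  `thetaL_deltaZ : θ δ = u^{q-1} θ u - (θ u)(t^q)`.
* `thetaL_dbar : θ δ̄ = ū^{q-1} θ ū - (θ ū)^q` in `k((t))`, `char k = q`.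
-/

set_option autoImplicit false

noncomputable section

open ModularCurve

namespace Fermat.Agent.S36.NU.H73

open Fermat.Agent.BAD.H73

section Theta

variable {R : Type*} [CommRing R]

/-- The series `θ f = ∑ n f_n t^n`. -/
def thetaFun (f : LaurentSeries R) : LaurentSeries R :=
  ⟨fun n => (n : R) * f.coeff n, f.isPWO_support.mono (fun n hn => by
      simp only [Function.mem_support, ne_eq] at hn
      rw [HahnSeries.mem_support]
      intro h
      exact hn (by rw [h, mul_zero]))⟩

@[simp]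
theorem thetaFun_coeff (f : LaurentSeries R) (n : ℤ) :
    (thetaFun f).coeff n = (n : R) * f.coeff n := rfl

theorem thetaFun_support (f : LaurentSeries R) : (thetaFun f).support ⊆ f.support := by
  intro n hn
  rw [HahnSeries.mem_support] at hn ⊢
  intro h
  exact hn (by rw [thetaFun_coeff, h, mul_zero])

theorem thetaFun_mul (f g : LaurentSeries R) :
    thetaFun (f * g) = f * thetaFun g + g * thetaFun f := by
  ext n
  rw [HahnSeries.coeff_add, thetaFun_coeff, HahnSeries.coeff_mul,
    HahnSeries.coeff_mul_right' g.isPWO_support (thetaFun_support g),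
    mul_comm g (thetaFun f),
    HahnSeries.coeff_mul_left' f.isPWO_support (thetaFun_support f),
    Finset.mul_sum, ← Finset.sum_add_distrib]
  refine Finset.sum_congr rfl fun ij hij => ?_
  rw [Finset.mem_antidiagonal] at hij
  rw [thetaFun_coeff, thetaFun_coeff, ← hij.2.2]
  push_cast
  ring

theorem algebraMap_eq_C (r : R) : algebraMap R (LaurentSeries R) r = HahnSeries.C r := by
  have h1 : algebraMap R (PowerSeries R) r = PowerSeries.C r := by simp
  rw [HahnSeries.algebraMap_apply', h1, HahnSeries.ofPowerSeries_C]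

theorem coeff_algebra_smul (r : R) (f : LaurentSeries R) (n : ℤ) :
    ((algebraMap R (LaurentSeries R) r) * f).coeff n = r * f.coeff n := by
  rw [algebraMap_eq_C, HahnSeries.C_mul_eq_smul, HahnSeries.coeff_smul, smul_eq_mul]

/-- **The derivation `θ = t d/dt`** of `R((t))`. -/
def thetaL : Derivation R (LaurentSeries R) (LaurentSeries R) where
  toFun := thetaFun
  map_add' f g := by
    ext n
    simp only [thetaFun_coeff, HahnSeries.coeff_add]
    ring
  map_smul' r f := by
    ext n
    rw [RingHom.id_apply, HahnSeries.coeff_smul, thetaFun_coeff, thetaFun_coeff,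
      Algebra.smul_def, coeff_algebra_smul, smul_eq_mul]
    ring
  map_one_eq_zero' := by
    ext n
    show (thetaFun (1 : LaurentSeries R)).coeff n = 0
    rw [thetaFun_coeff, HahnSeries.coeff_one]
    split_ifs with h
    · rw [h]; simp
    · simp
  leibniz' f g := by
    show thetaFun (f * g) = f • thetaFun g + g • thetaFun f
    rw [smul_eq_mul, smul_eq_mul, thetaFun_mul]

@[simp]
theorem thetaL_coeff (f : LaurentSeries R) (n : ℤ) :
    (thetaL f).coeff n = (n : R) * f.coeff n := rfl

theorem thetaL_mul (f g : LaurentSeries R) :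
    thetaL (f * g) = f * thetaL g + g * thetaL f := thetaFun_mul f g

theorem thetaL_pow (f : LaurentSeries R) (n : ℕ) :
    thetaL (f ^ n) = (n : LaurentSeries R) * f ^ (n - 1) * thetaL f := by
  rw [Derivation.leibniz_pow, nsmul_eq_mul, smul_eq_mul, mul_assoc]

theorem thetaL_qExpand (N : ℕ) [NeZero N] (f : LaurentSeries R) :
    thetaL (qExpand R N f) = (N : LaurentSeries R) * qExpand R N (thetaL f) := by
  have hN : (N : LaurentSeries R) = HahnSeries.C (N : R) := by
    rw [map_natCast]
  ext n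
  rw [thetaL_coeff, hN, HahnSeries.C_mul_eq_smul, HahnSeries.coeff_smul, smul_eq_mul]
  by_cases h : (N : ℤ) ∣ n
  · obtain ⟨m, rfl⟩ := h
    rw [qExpand_coeff_mul, qExpand_coeff_mul, thetaL_coeff]
    push_cast
    ring
  · rw [qExpand_coeff_of_not_dvd N _ h, qExpand_coeff_of_not_dvd N _ h, mul_zero, mul_zero]

theorem thetaL_coeffMap {S : Type*} [CommRing S] (φ : R →+* S) (f : LaurentSeries R) :
    thetaL (coeffMap φ f) = coeffMap φ (thetaL f) := by
  ext n
  rw [thetaL_coeff, coeffMap_coeff, coeffMap_coeff, thetaL_coeff, map_mul, map_intCast]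

theorem thetaL_single (n : ℤ) (r : R) :
    thetaL (HahnSeries.single n r) = HahnSeries.single n ((n : R) * r) := by
  ext m
  rw [thetaL_coeff, HahnSeries.coeff_single, HahnSeries.coeff_single]
  split_ifs with h
  · rw [h]
  · rw [mul_zero]

theorem thetaL_C (r : R) : thetaL (HahnSeries.C r) = 0 := by
  rw [HahnSeries.C_apply, thetaL_single]
  simp

theorem thetaL_ofPowerSeries (P : PowerSeries R) :
    thetaL (HahnSeries.ofPowerSeries ℤ R P) =
      HahnSeries.ofPowerSeries ℤ R (PowerSeries.X * PowerSeries.derivative R P) := by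
  ext n
  rw [thetaL_coeff]
  rcases le_or_gt 0 n with hn | hn
  · lift n to ℕ using hn
    rw [HahnSeries.ofPowerSeries_apply_coeff, HahnSeries.ofPowerSeries_apply_coeff]
    rcases n with _ | n
    · simp
    · rw [mul_comm PowerSeries.X, PowerSeries.coeff_succ_mul_X, PowerSeries.coeff_derivative]
      push_cast
      ring
  · rw [ofPowerSeries_coeff_of_neg _ hn, ofPowerSeries_coeff_of_neg _ hn, mul_zero]

/-- `θ f = 0` iff `f` is a series in `t ^ q`-free coefficients: coefficientwise criterion. -/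
theorem thetaL_eq_zero_iff (f : LaurentSeries R) :
    thetaL f = 0 ↔ ∀ n : ℤ, (n : R) * f.coeff n = 0 := by
  constructor
  · intro h n
    rw [← thetaL_coeff, h, HahnSeries.coeff_zero]
  · intro h
    ext n
    rw [thetaL_coeff, h, HahnSeries.coeff_zero]

end Theta

section Delta

variable (q : ℕ) [Fact q.Prime]

/-- **Frobenius congruence** for integral Laurent series: `u ^ q ≡ u(t^q) mod q`. -/
theorem frob_congr (u : LaurentSeries ℤ) (n : ℤ) :
    (q : ℤ) ∣ (u ^ q - qExpand ℤ q u).coeff n := by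
  have h : coeffMap (Int.castRingHom (ZMod q)) (u ^ q - qExpand ℤ q u) = 0 := by
    rw [map_sub, map_pow, coeffMap_qExpand, Fermat.Agent.RED.H10.pow_char_eq q,
      ZMod.frobenius_zmod, coeffMap_id, sub_self]
  have h2 := congrArg (fun x => x.coeff n) h
  simp only [coeffMap_coeff, HahnSeries.coeff_zero, eq_intCast] at h2
  exact (ZMod.intCast_zmod_eq_zero_iff_dvd _ q).mp h2

/-- `δ = (u ^ q - u(t^q)) / q ∈ ℤ((t))`. -/
def deltaZ (u : LaurentSeries ℤ) : LaurentSeries ℤ :=
  ⟨fun n => (u ^ q - qExpand ℤ q u).coeff n / (q : ℤ),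
    (u ^ q - qExpand ℤ q u).isPWO_support.mono (fun n hn => by
      simp only [Function.mem_support, ne_eq] at hn
      rw [HahnSeries.mem_support]
      intro h
      exact hn (by rw [h, Int.zero_ediv]))⟩

theorem deltaZ_coeff (u : LaurentSeries ℤ) (n : ℤ) :
    (deltaZ q u).coeff n = (u ^ q - qExpand ℤ q u).coeff n / (q : ℤ) := rfl

theorem natCast_mul_coeff {R : Type*} [CommRing R] (N : ℕ) (f : LaurentSeries R) (n : ℤ) :
    ((N : LaurentSeries R) * f).coeff n = (N : R) * f.coeff n := by
  have hN : (N : LaurentSeries R) = HahnSeries.C (N : R) := by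
    rw [map_natCast]
  rw [hN, HahnSeries.C_mul_eq_smul, HahnSeries.coeff_smul, smul_eq_mul]

/-- `q δ = u ^ q - u(t^q)`. -/
theorem deltaZ_spec (u : LaurentSeries ℤ) :
    (q : LaurentSeries ℤ) * deltaZ q u = u ^ q - qExpand ℤ q u := by
  ext n
  rw [natCast_mul_coeff, deltaZ_coeff]
  exact Int.mul_ediv_cancel' (frob_congr q u n)

theorem qExpand_eq_sub (u : LaurentSeries ℤ) :
    qExpand ℤ q u = u ^ q - (q : LaurentSeries ℤ) * deltaZ q u := by
  rw [deltaZ_spec]; ring

/-- **The `θ`-identity**, general coefficients: if `q δ = u ^ q - u(t^q)` in `R((t))`, `R` without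
`q`-torsion, then `θ δ = u^{q-1} θ u - (θ u)(t^q)`. -/
theorem thetaL_of_spec {R : Type*} [CommRing R] (hq : ∀ x : R, (q : R) * x = 0 → x = 0)
    (u δ : LaurentSeries R) (h : (q : LaurentSeries R) * δ = u ^ q - qExpand R q u) :
    thetaL δ = u ^ (q - 1) * thetaL u - qExpand R q (thetaL u) := by
  have h := congrArg thetaL h
  rw [thetaL_mul, Derivation.map_natCast, mul_zero, add_zero, map_sub, thetaL_pow,
    thetaL_qExpand, mul_assoc, ← mul_sub] at h
  ext n
  have hn := congrArg (fun x => x.coeff n) h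
  simp only [natCast_mul_coeff] at hn
  rw [← sub_eq_zero, ← mul_sub] at hn
  exact sub_eq_zero.mp (hq _ hn)

/-- **The `θ`-identity over `ℤ`**: `θ δ = u^{q-1} θ u - (θ u)(t^q)`. -/
theorem thetaL_deltaZ (u : LaurentSeries ℤ) :
    thetaL (deltaZ q u) = u ^ (q - 1) * thetaL u - qExpand ℤ q (thetaL u) := by
  refine thetaL_of_spec q (fun x hx => ?_) u _ (deltaZ_spec q u)
  have hq0 : ((q : ℕ) : ℤ) ≠ 0 := by
    exact_mod_cast (Fact.out : q.Prime).ne_zero
  exact (mul_eq_zero.mp hx).resolve_left hq0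

variable {k : Type*} [CommRing k] [CharP k q]

omit [Fact q.Prime] in
/-- In characteristic `q`, `θ` kills `q`-th powers. -/
theorem thetaL_pow_char (f : LaurentSeries k) : thetaL (f ^ q) = 0 := by
  rw [thetaL_pow]
  have : ((q : ℕ) : LaurentSeries k) = 0 := by
    rw [← map_natCast (HahnSeries.C (Γ := ℤ) (R := k)), CharP.cast_eq_zero k q, map_zero]
  rw [this, zero_mul, zero_mul]

/-- In characteristic `q`, `θ` kills series in `t ^ q`. -/
theorem thetaL_qExpand_char (f : LaurentSeries k) : thetaL (qExpand k q f) = 0 := by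
  rw [thetaL_qExpand]
  have : ((q : ℕ) : LaurentSeries k) = 0 := by
    rw [← map_natCast (HahnSeries.C (Γ := ℤ) (R := k)), CharP.cast_eq_zero k q, map_zero]
  rw [this, zero_mul]

/-- For a series with coefficients in the prime field, `x ^ q = x(t^q)`. -/
theorem pow_eq_qExpand_of_int (x : LaurentSeries ℤ) :
    (coeffMap (Int.castRingHom k) x) ^ q = qExpand k q (coeffMap (Int.castRingHom k) x) := by
  rw [Fermat.Agent.RED.H10.pow_char_eq q, coeffMap_coeffMap]
  congr 1
  exact coeffMap_congr (RingHom.ext_int _ _) x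

omit [CharP k q] in
/-- **The `θ`-identity mod `q`** (general coefficients): for `φ : R →+* k`, `char k = q`,
`R` without `q`-torsion and `q δ = u ^ q - u(t^q)`:
`θ δ̄ = ū^{q-1} θ ū - (θ ū)(t^q)`. -/
theorem thetaL_dbar_of_spec {R : Type*} [CommRing R] (hq : ∀ x : R, (q : R) * x = 0 → x = 0)
    (φ : R →+* k) (u δ : LaurentSeries R)
    (h : (q : LaurentSeries R) * δ = u ^ q - qExpand R q u) :
    thetaL (coeffMap φ δ) =
      (coeffMap φ u) ^ (q - 1) * thetaL (coeffMap φ u) - qExpand k q (thetaL (coeffMap φ u)) := by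
  rw [thetaL_coeffMap, thetaL_of_spec q hq u δ h, map_sub, map_mul, map_pow, coeffMap_qExpand,
    ← thetaL_coeffMap]

/-- **THETA**: for `u ∈ ℤ((t))`, `δ = (u ^ q - u(t^q)) / q` and `ū, δ̄` their reductions in
`k((t))`, `char k = q`:  `θ δ̄ = ū^{q-1} θ ū - (θ ū)^q`. -/
theorem thetaL_dbar (u : LaurentSeries ℤ) :
    thetaL (coeffMap (Int.castRingHom k) (deltaZ q u)) =
      (coeffMap (Int.castRingHom k) u) ^ (q - 1) * thetaL (coeffMap (Int.castRingHom k) u)
        - (thetaL (coeffMap (Int.castRingHom k) u)) ^ q := by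
  rw [thetaL_coeffMap, thetaL_deltaZ, map_sub, map_mul, map_pow, coeffMap_qExpand,
    ← thetaL_coeffMap, thetaL_coeffMap (Int.castRingHom k) u,
    pow_eq_qExpand_of_int q (thetaL u)]

end Delta

end Fermat.Agent.S36.NU.H73
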