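import Fermat.Agent.S36.NU.H88_Restrict3
import Fermat.Agent.S36.NU.H65_Series
import Fermat.Agent.S36.NU.H73_Theta

/-!
# S36, NU-B1 (helper88): functions of level `M` at the three valuations, and RAM11

`u ∈ F_M`, `q ∤ M`.  Inside `F_{M q²}`: `u = αα u`, `u' = αβ u = βα u`, `u'' = ββ u` with
expansions at `∞`: `u(t)`, `u(t^q)`, `u(t^{q²})`, at the middle cusp: `u(t)`, `u(t^q)`, `u(z t)`
(`z = ζ_q^B`), and `W_{q²}` exchanges `u` and `u''` and fixes `u'`.

**RAM11**: for `u` with integral expansion `u₀ ∈ ℤ((t))`, `t₁₁ = u'' - u` is `(z - 1)` times an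
element of `V₁₁` with reduction `θ ū₀` (`θ = t d/dt`); if `θ ū₀ ≠ 0` (e.g. `u = j`) then
`v₁₁(t₁₁)^(q-1) = v₁₁(q)`.
-/

set_option autoImplicit false
set_option synthInstance.maxHeartbeats 400000
set_option maxHeartbeats 1000000
set_option linter.unusedSectionVars false
set_option linter.style.haveILetI false

noncomputable section

namespace Fermat.Agent.S36.NU.H88

open Fermat.Agent.S24 Fermat.Agent.BAD.H88 ModularCurve
open Fermat.Agent.S28 Fermat.Agent.S28.H73 Fermat.Agent.RED.H73 Fermat.Agent.RED.H17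
open Fermat.Agent.RED.H95 Fermat.Agent.RED.H10

section Inc

variable (q M : ℕ) [NeZero M] [NeZero q]

/-- `u ↦ u` : `F_M → F_{M q²}`. -/
def incAA : FN M →ₐ[Kbar] FN (M * q * q) :=
  (heckeAlphaBar Kbar (M * q) q).comp (heckeAlphaBar Kbar M q)

/-- `u ↦ u' = u(t^q)` : `F_M → F_{M q²}`. -/
def incAB : FN M →ₐ[Kbar] FN (M * q * q) :=
  (heckeAlphaBar Kbar (M * q) q).comp (heckeBetaBar Kbar M q)

/-- `u ↦ u'' = u(t^{q²})` : `F_M → F_{M q²}`. -/
def incBB : FN M →ₐ[Kbar] FN (M * q * q) :=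
  (heckeBetaBar Kbar (M * q) q).comp (heckeBetaBar Kbar M q)

theorem incAA_apply (f : FN M) :
    incAA q M f = heckeAlphaBar Kbar (M * q) q (heckeAlphaBar Kbar M q f) := rfl

theorem incAB_apply (f : FN M) :
    incAB q M f = heckeAlphaBar Kbar (M * q) q (heckeBetaBar Kbar M q f) := rfl

theorem incBB_apply (f : FN M) :
    incBB q M f = heckeBetaBar Kbar (M * q) q (heckeBetaBar Kbar M q f) := rfl

theorem coe_incAA (f : FN M) :
    ((incAA q M f : FN (M * q * q)) : LaurentSeries Kbar) = (f : LaurentSeries Kbar) := by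
  rw [incAA_apply, coe_heckeAlphaBar, coe_heckeAlphaBar]

theorem coe_incAB (f : FN M) :
    ((incAB q M f : FN (M * q * q)) : LaurentSeries Kbar)
      = qExpand Kbar q (f : LaurentSeries Kbar) := by
  rw [incAB_apply, coe_heckeAlphaBar, coe_heckeBetaBar]

theorem coe_incBB (f : FN M) :
    ((incBB q M f : FN (M * q * q)) : LaurentSeries Kbar)
      = qExpand Kbar q (qExpand Kbar q (f : LaurentSeries Kbar)) := by
  rw [incBB_apply, coe_heckeBetaBar, coe_heckeBetaBar]

/-- `β ∘ α = α ∘ β`. -/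
theorem incBA_eq (f : FN M) :
    heckeBetaBar Kbar (M * q) q (heckeAlphaBar Kbar M q f) = incAB q M f := by
  apply Subtype.ext
  rw [coe_heckeBetaBar, coe_heckeAlphaBar, coe_incAB]

variable (B k : ℤ) (hB : B * M + k * q = 1) (hq : q.Prime)

include hB hq

theorem wL_alpha (f : FN M) :
    wL q M B k hB hq (heckeAlphaBar Kbar M q f) = heckeBetaBar Kbar M q f :=
  wq_alpha q M k B (hab_of_hB q M B k hB) hq f

theorem wL_beta (f : FN M) :
    wL q M B k hB hq (heckeBetaBar Kbar M q f) = heckeAlphaBar Kbar M q f :=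
  wq_beta q M k B (hab_of_hB q M B k hB) hq f

/-! ### Expansions at the middle cusp -/

theorem cM_incAA (f : FN M) :
    cM q M B k hB hq (incAA q M f) = (f : LaurentSeries Kbar) := by
  rw [incAA_apply, cM_alpha, coe_heckeAlphaBar]

theorem cM_incAB (f : FN M) :
    cM q M B k hB hq (incAB q M f) = qExpand Kbar q (f : LaurentSeries Kbar) := by
  rw [incAB_apply, cM_alpha, coe_heckeBetaBar]

theorem cM_incBB (f : FN M) :
    cM q M B k hB hq (incBB q M f) = twist (zetaK q ^ B) (f : LaurentSeries Kbar) := by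
  rw [incBB_apply, cM_beta, wL_beta, coe_heckeAlphaBar]

/-! ### `W_{q²}` -/

theorem wS_incAA (f : FN M) : wS q M B k hB (incAA q M f) = incBB q M f := by
  rw [incAA_apply, wS_alpha q M B k hB hq, wL_alpha, incBB_apply]

theorem wS_incBB (f : FN M) : wS q M B k hB (incBB q M f) = incAA q M f := by
  rw [incBB_apply, wS_beta q M B k hB hq, wL_beta, incAA_apply]

theorem wS_incAB (f : FN M) : wS q M B k hB (incAB q M f) = incAB q M f := by
  rw [incAB_apply, wS_alpha q M B k hB hq, wL_beta, incBA_eq, incAB_apply]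

end Inc

/-! ### Membership: all three valuations restrict to the Gauss valuation of `F_M` -/

section Mem

variable (A : ValuationSubring Kbar)
variable (q M : ℕ) (B k : ℤ) (hB : B * M + k * q = 1) (hq : q.Prime) [NeZero M] [NeZero q]

theorem incAA_mem_V20_iff (f : FN M) : incAA q M f ∈ V20 A (M * q * q) ↔ f ∈ VM A M := by
  rw [incAA_apply, alpha_mem_V20_iff]
  exact alpha_mem_V1_iff A q M f

theorem incAB_mem_V20_iff (f : FN M) : incAB q M f ∈ V20 A (M * q * q) ↔ f ∈ VM A M := by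
  rw [incAB_apply, alpha_mem_V20_iff]
  exact beta_mem_V1_iff A q M f

theorem incBB_mem_V20_iff (f : FN M) : incBB q M f ∈ V20 A (M * q * q) ↔ f ∈ VM A M := by
  rw [incBB_apply, beta_mem_V20_iff]
  exact beta_mem_V1_iff A q M f

include hB hq

theorem incAA_mem_V11_iff (f : FN M) :
    incAA q M f ∈ V11 A (M * q * q) q M B k (lvl q M) hB hq ↔ f ∈ VM A M := by
  rw [incAA_apply, alpha_mem_V11_iff]
  exact alpha_mem_V1_iff A q M f

theorem incAB_mem_V11_iff (f : FN M) :
    incAB q M f ∈ V11 A (M * q * q) q M B k (lvl q M) hB hq ↔ f ∈ VM A M := by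
  rw [incAB_apply, alpha_mem_V11_iff]
  exact beta_mem_V1_iff A q M f

theorem incBB_mem_V11_iff (f : FN M) :
    incBB q M f ∈ V11 A (M * q * q) q M B k (lvl q M) hB hq ↔ f ∈ VM A M := by
  rw [incBB_apply, beta_mem_V11_iff, wL_beta]
  exact alpha_mem_V1_iff A q M f

theorem incAA_mem_V02_iff (f : FN M) :
    incAA q M f ∈ V02 A (M * q * q) q M B k (lvl q M) hB ↔ f ∈ VM A M := by
  rw [incAA_apply, alpha_mem_V02_iff A q M B k hB hq, wL_alpha]
  exact beta_mem_V1_iff A q M f

theorem incAB_mem_V02_iff (f : FN M) :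
    incAB q M f ∈ V02 A (M * q * q) q M B k (lvl q M) hB ↔ f ∈ VM A M := by
  rw [incAB_apply, alpha_mem_V02_iff A q M B k hB hq, wL_beta]
  exact alpha_mem_V1_iff A q M f

theorem incBB_mem_V02_iff (f : FN M) :
    incBB q M f ∈ V02 A (M * q * q) q M B k (lvl q M) hB ↔ f ∈ VM A M := by
  rw [incBB_apply, beta_mem_V02_iff A q M B k hB hq, wL_beta]
  exact alpha_mem_V1_iff A q M f

end Mem

/-! ### The valuation of `ζ - 1` -/

section ValZeta

variable {C : Type} [Field C] (O : ValuationSubring C)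

theorem val_root_one {w : C} {n : ℕ} (hn : n ≠ 0) (hw : w ^ n = 1) : O.valuation w = 1 := by
  have h : O.valuation w ^ n = 1 := by rw [← map_pow, hw, map_one]
  rcases lt_trichotomy (O.valuation w) 1 with h1 | h1 | h1
  · exact absurd h (pow_lt_one₀ zero_le h1 hn).ne
  · exact h1
  · exact absurd h (one_lt_pow₀ h1 hn).ne'

theorem val_one_sub_pow_le' {w : C} (hw : O.valuation w ≤ 1) (k : ℕ) :
    O.valuation (1 - w ^ k) ≤ O.valuation (1 - w) := by
  rw [← mul_neg_geom_sum w k, map_mul]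
  have h1 : O.valuation (∑ i ∈ Finset.range k, w ^ i) ≤ 1 := by
    apply Valuation.map_sum_le
    intro i _
    rw [map_pow]
    exact pow_le_one₀ zero_le hw
  calc O.valuation (1 - w) * O.valuation (∑ i ∈ Finset.range k, w ^ i)
      ≤ O.valuation (1 - w) * 1 := mul_le_mul_right h1 _
    _ = O.valuation (1 - w) := mul_one _

/-- `|ζ - 1|^(r-1) = |r|` for a primitive `r`-th root of unity, `r` prime. -/
theorem val_sub_one_pow {r : ℕ} (hr : r.Prime) {ζ : C} (hζ : IsPrimitiveRoot ζ r) :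
    O.valuation (ζ - 1) ^ (r - 1) = O.valuation (r : C) := by
  rw [Valuation.map_sub_swap]
  obtain ⟨n, rfl⟩ : ∃ n, r = n + 1 := ⟨r - 1, (Nat.succ_pred_eq_of_pos hr.pos).symm⟩
  have hprod := hζ.prod_one_sub_pow_eq_order
  have hζ1 : O.valuation ζ = 1 := val_root_one O hr.ne_zero hζ.pow_eq_one
  have hfac : ∀ k ∈ Finset.range n, O.valuation (1 - ζ ^ (k + 1)) = O.valuation (1 - ζ) := by
    intro k hk
    rw [Finset.mem_range] at hk
    apply le_antisymm (val_one_sub_pow_le' O hζ1.le (k + 1))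
    have hcop : (k + 1).Coprime (n + 1) := by
      rw [Nat.coprime_comm]
      exact (Nat.Prime.coprime_iff_not_dvd hr).mpr
        (fun h => absurd (Nat.le_of_dvd (Nat.succ_pos k) h) (by omega))
    obtain ⟨m, -, hm⟩ := Nat.exists_mul_mod_eq_one_of_coprime hcop hr.one_lt
    have hpow : (ζ ^ (k + 1)) ^ m = ζ := by
      rw [← pow_mul, ← Nat.mod_add_div ((k + 1) * m) (n + 1), hm, pow_add, pow_one, pow_mul,
        hζ.pow_eq_one, one_pow, mul_one]
    have h1 : O.valuation (ζ ^ (k + 1)) ≤ 1 := by rw [map_pow, hζ1, one_pow]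
    have h2 := val_one_sub_pow_le' O h1 m
    rwa [hpow] at h2
  have h3 : O.valuation (∏ k ∈ Finset.range n, (1 - ζ ^ (k + 1))) = O.valuation (1 - ζ) ^ n := by
    rw [map_prod, Finset.prod_congr rfl hfac, Finset.prod_const, Finset.card_range]
  rw [Nat.add_sub_cancel, ← h3, hprod]
  push_cast
  rfl

/-- Constants of the same absolute value have the same value at any valuation ring of a
`C`-algebra which induces `O` on the constants. -/
theorem val_algebraMap_congr {F : Type*} [Field F] [Algebra C F] (V : ValuationSubring F)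
    (hV : ∀ c : C, algebraMap C F c ∈ V ↔ c ∈ O) {a b : C}
    (hab : O.valuation a = O.valuation b) :
    V.valuation (algebraMap C F a) = V.valuation (algebraMap C F b) := by
  by_cases hb : b = 0
  · have ha : a = 0 := by
      rw [hb, map_zero] at hab
      exact (Valuation.zero_iff _).mp hab
    rw [ha, hb]
  have ha : a ≠ 0 := by
    intro h
    rw [h, map_zero] at hab
    exact hb ((Valuation.zero_iff _).mp hab.symm)
  have h1 : O.valuation (a / b) = 1 := by
    rw [map_div₀, hab, div_self ((Valuation.ne_zero_iff _).mpr hb)]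
  have h2 : O.valuation (b / a) = 1 := by
    rw [map_div₀, hab, div_self ((Valuation.ne_zero_iff _).mpr hb)]
  have m1 : algebraMap C F (a / b) ∈ V :=
    (hV _).mpr ((ValuationSubring.valuation_le_one_iff O _).mp h1.le)
  have m2 : algebraMap C F (b / a) ∈ V :=
    (hV _).mpr ((ValuationSubring.valuation_le_one_iff O _).mp h2.le)
  have l1 : V.valuation (algebraMap C F a) ≤ V.valuation (algebraMap C F b) := by
    have := (ValuationSubring.valuation_le_one_iff V _).mpr m1
    rw [map_div₀, map_div₀] at this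
    have hb' : V.valuation (algebraMap C F b) ≠ 0 :=
      (Valuation.ne_zero_iff _).mpr (by rw [Ne, map_eq_zero]; exact hb)
    exact (div_le_one₀ (zero_lt_iff.mpr hb')).mp this
  have l2 : V.valuation (algebraMap C F b) ≤ V.valuation (algebraMap C F a) := by
    have := (ValuationSubring.valuation_le_one_iff V _).mpr m2
    rw [map_div₀, map_div₀] at this
    have ha' : V.valuation (algebraMap C F a) ≠ 0 :=
      (Valuation.ne_zero_iff _).mpr (by rw [Ne, map_eq_zero]; exact ha)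
    exact (div_le_one₀ (zero_lt_iff.mpr ha')).mp this
  exact le_antisymm l1 l2

end ValZeta

/-! ### RAM11 -/

section Ram11

variable (A : ValuationSubring Kbar)
variable (q M : ℕ) (B k : ℤ) (hB : B * M + k * q = 1) (hq : q.Prime) [NeZero M] [NeZero q]

/-- `t₁₁ = u'' - u`. -/
def t11 (f : FN M) : FN (M * q * q) := incBB q M f - incAA q M f

/-- `θ₁₁ = t₁₁ / (z - 1)`, `z = ζ_q^B`. -/
def th11 (f : FN M) : FN (M * q * q) :=
  algebraMap Kbar (FN (M * q * q)) (zetaK q ^ B - 1)⁻¹ * t11 q M f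

include hB hq

theorem cM_t11 (f : FN M) :
    cM q M B k hB hq (t11 q M f)
      = twist (zetaK q ^ B) (f : LaurentSeries Kbar) - (f : LaurentSeries Kbar) := by
  rw [t11, map_sub, cM_incBB, cM_incAA]

omit [NeZero M] in
theorem zMid_ne_one : zetaK q ^ B ≠ 1 := by
  intro h
  have h1 : (q : ℤ) ∣ B := ((isPrimitiveRoot_zetaK q).zpow_eq_one_iff_dvd B).mp h
  have h2 : (q : ℤ) ∣ 1 := by
    rw [← hB]
    exact dvd_add (Dvd.dvd.mul_right h1 _) (dvd_mul_left _ _)
  have h3 := Int.le_of_dvd one_pos h2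
  have h4 := hq.two_le
  omega

omit [NeZero M] in
theorem zMid_sub_ne_zero : zetaK q ^ B - 1 ≠ 0 := sub_ne_zero.mpr (zMid_ne_one q M B k hB hq)

omit [NeZero M] in
theorem isPrimitiveRoot_zMid : IsPrimitiveRoot (zetaK q ^ B) q := by
  apply (isPrimitiveRoot_zetaK q).zpow_of_gcd_eq_one
  rw [← Int.isCoprime_iff_gcd_eq_one]
  exact ⟨M, k, by rw [mul_comm (M : ℤ) B]; exact hB⟩

omit [NeZero M] in
/-- `|z - 1|^(q-1) = |q|`. -/
theorem val_zMid_sub_one :
    A.valuation (zetaK q ^ B - 1) ^ (q - 1) = A.valuation (q : Kbar) :=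
  val_sub_one_pow A hq (isPrimitiveRoot_zMid q M B k hB hq)

theorem t11_eq (f : FN M) :
    t11 q M f = algebraMap Kbar (FN (M * q * q)) (zetaK q ^ B - 1) * th11 q M B f := by
  rw [th11, ← mul_assoc, ← map_mul, mul_inv_cancel₀ (zMid_sub_ne_zero q M B k hB hq), map_one,
    one_mul]

/-- The expansion of `θ₁₁` at the middle cusp, for `u` with integral expansion. -/
theorem cM_th11 (f : FN M) (u₀ : LaurentSeries ℤ)
    (hf : (f : LaurentSeries Kbar) = H65.intSer Kbar u₀) :
    cM q M B k hB hq (th11 q M B f)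
      = iotaV A (H65.rotQuot (zUnit A q B hq) (coeffMap (Int.castRingHom ↥A) u₀)) := by
  have h1 : twist (zetaK q ^ B) (f : LaurentSeries Kbar) - (f : LaurentSeries Kbar)
      = algebraMap Kbar (LaurentSeries Kbar) (zetaK q ^ B - 1)
        * iotaV A (H65.rotQuot (zUnit A q B hq) (coeffMap (Int.castRingHom ↥A) u₀)) := by
    have h2 : twist (zetaK q ^ B) (iotaV A (coeffMap (Int.castRingHom ↥A) u₀))
        = iotaV A (rot (zUnit A q B hq) (coeffMap (Int.castRingHom ↥A) u₀)) :=
      (iotaV_rot A (zUnit A q B hq) _).symm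
    have h3 : iotaV A (HahnSeries.C (((zUnit A q B hq : (↥A)ˣ) : ↥A) - 1))
        = algebraMap Kbar (LaurentSeries Kbar) (zetaK q ^ B - 1) := by
      rw [algebraMap_laurentSeries_eq_single]
      exact coeffMap_single A.subtype 0 _
    rw [hf, H65.intSer_eq_iotaV A, h2, ← map_sub, H65.rot_sub_self, map_mul, h3]
  rw [th11, map_mul, AlgHom.commutes, cM_t11, h1, ← mul_assoc, ← map_mul,
    inv_mul_cancel₀ (zMid_sub_ne_zero q M B k hB hq), map_one, one_mul]

theorem th11_mem_V11 (f : FN M) (u₀ : LaurentSeries ℤ)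
    (hf : (f : LaurentSeries Kbar) = H65.intSer Kbar u₀) :
    th11 q M B f ∈ V11 A (M * q * q) q M B k (lvl q M) hB hq := by
  rw [mem_V11_iff]
  have e : cMid (M * q * q) q M B k (lvl q M) hB hq (th11 q M B f)
      = iotaV A (H65.rotQuot (zUnit A q B hq) (coeffMap (Int.castRingHom ↥A) u₀)) :=
    cM_th11 A q M B k hB hq f u₀ hf
  rw [e]
  exact iotaV_mem_gaussRingV A _

/-- **The reduction of `t₁₁ / (z - 1)` at `V₁₁` is `θ ū`.** -/
theorem red11_th11 (hA : (q : Kbar) ∈ A.nonunits) (f : FN M) (u₀ : LaurentSeries ℤ)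
    (hf : (f : LaurentSeries Kbar) = H65.intSer Kbar u₀)
    (h : th11 q M B f ∈ V11 A (M * q * q) q M B k (lvl q M) hB hq) :
    ((red11 A (M * q * q) q M B k (lvl q M) hB hq ⟨_, h⟩ :
        F11 A (M * q * q) q M B k (lvl q M) hB hq) : LaurentSeries (kV A))
      = H73.thetaL (coeffMap (Int.castRingHom (kV A)) u₀) := by
  rw [coe_red11]
  have e : (⟨cMid (M * q * q) q M B k (lvl q M) hB hq (th11 q M B f), h⟩ : gaussRingV A)
      = ⟨iotaV A (H65.rotQuot (zUnit A q B hq) (coeffMap (Int.castRingHom ↥A) u₀)),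
          iotaV_mem_gaussRingV A _⟩ :=
    Subtype.ext (cM_th11 A q M B k hB hq f u₀ hf)
  rw [e, gaussRedV_iotaV]
  ext n
  rw [redV, H65.coeffMap_rotQuot (resV A) (zUnit A q B hq) (resV_zUnit A q B hq hA),
    H73.thetaL_coeff, coeffMap_coeff, coeffMap_coeff, coeffMap_coeff]
  congr 1

/-- If `θ ū ≠ 0` then `t₁₁ / (z - 1)` is a unit at `V₁₁`. -/
theorem red11_th11_ne_zero (hA : (q : Kbar) ∈ A.nonunits) (f : FN M) (u₀ : LaurentSeries ℤ)
    (hf : (f : LaurentSeries Kbar) = H65.intSer Kbar u₀)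
    (hθ : H65.ThetaNZ q (coeffMap (Int.castRingHom (kV A)) u₀))
    (h : th11 q M B f ∈ V11 A (M * q * q) q M B k (lvl q M) hB hq) :
    red11 A (M * q * q) q M B k (lvl q M) hB hq ⟨_, h⟩ ≠ 0 := by
  intro h0
  have h1 : ((red11 A (M * q * q) q M B k (lvl q M) hB hq ⟨_, h⟩ :
        F11 A (M * q * q) q M B k (lvl q M) hB hq) : LaurentSeries (kV A)) = 0 := by
    rw [h0]; rfl
  rw [red11_th11 A q M B k hB hq hA f u₀ hf h] at h1
  obtain ⟨n, hn, hc⟩ := hθ
  haveI : CharP (kV A) q := Fermat.Agent.BAD.H82.charP_kV A hq hA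
  haveI : Fact q.Prime := ⟨hq⟩
  have h2 := congrArg (fun s : LaurentSeries (kV A) => s.coeff n) h1
  simp only [H73.thetaL_coeff, HahnSeries.coeff_zero] at h2
  rcases mul_eq_zero.mp h2 with h3 | h3
  · exact hn ((CharP.intCast_eq_zero_iff (kV A) q n).mp h3)
  · exact hc h3

/-- `v₁₁(t₁₁ / (z - 1)) = 1`. -/
theorem val_th11 (hA : (q : Kbar) ∈ A.nonunits) (f : FN M) (u₀ : LaurentSeries ℤ)
    (hf : (f : LaurentSeries Kbar) = H65.intSer Kbar u₀)
    (hθ : H65.ThetaNZ q (coeffMap (Int.castRingHom (kV A)) u₀)) :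
    (V11 A (M * q * q) q M B k (lvl q M) hB hq).valuation (th11 q M B f) = 1 := by
  have h := th11_mem_V11 A q M B k hB hq f u₀ hf
  have hne := red11_th11_ne_zero A q M B k hB hq hA f u₀ hf hθ h
  have hu : IsUnit (⟨th11 q M B f, h⟩ : ↥(V11 A (M * q * q) q M B k (lvl q M) hB hq)) := by
    by_contra hnu
    apply hne
    rw [red11_eq_zero_iff]
    exact (IsLocalRing.mem_maximalIdeal _).mpr hnu
  exact (ValuationSubring.valuation_eq_one_iff _ _).mp hu

/-- **RAM11**: `v₁₁(t₁₁)^(q-1) = v₁₁(q)`: the valuation `V₁₁` is ramified of index `q - 1`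
over `q` on the field generated by `u` and `u''`. -/
theorem ram11 (hA : (q : Kbar) ∈ A.nonunits) (f : FN M) (u₀ : LaurentSeries ℤ)
    (hf : (f : LaurentSeries Kbar) = H65.intSer Kbar u₀)
    (hθ : H65.ThetaNZ q (coeffMap (Int.castRingHom (kV A)) u₀)) :
    (V11 A (M * q * q) q M B k (lvl q M) hB hq).valuation (t11 q M f) ^ (q - 1)
      = (V11 A (M * q * q) q M B k (lvl q M) hB hq).valuation
          (algebraMap Kbar (FN (M * q * q)) (q : Kbar)) := by
  rw [t11_eq q M B k hB hq f, map_mul, val_th11 A q M B k hB hq hA f u₀ hf hθ, mul_one,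
    ← map_pow, ← map_pow]
  apply val_algebraMap_congr A _ (const_mem11 A (M * q * q) q M B k (lvl q M) hB hq)
  rw [map_pow]
  exact val_zMid_sub_one A q M B k hB hq

end Ram11

/-! ### The case `u = j` -/

section Ram11J

variable (A : ValuationSubring Kbar)
variable (q M : ℕ) (B k : ℤ) (hB : B * M + k * q = 1) (hq : q.Prime) [NeZero M] [NeZero q]

/-- The integral expansion of `j`. -/
def jInt : LaurentSeries ℤ := qExpand ℤ 1 (jqModC ℤ)

theorem coe_jdF_one :
    ((jdF M 1 (one_dvd M) : FN M) : LaurentSeries Kbar) = H65.intSer Kbar jInt := by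
  rw [coe_jdF, qExpand_jBar, coeffEmb_qExpand_jq, H65.intSer, jInt, coeffMap_qExpand,
    coeffMap_jqModC]

theorem jInt_coeff_neg_one : jInt.coeff (-1 : ℤ) = 1 := by
  have h1 : (H65.intSer Kbar jInt).coeff (-1 : ℤ) = 1 := by
    rw [← coe_jdF_one 1, coe_jdF]
    have h2 : (qExpand Kbar 1 jBar).coeff (((1 : ℕ) : ℤ) * (-1)) = jBar.coeff (-1) :=
      qExpand_coeff_mul 1 jBar (-1)
    rw [Nat.cast_one, one_mul] at h2
    rw [h2, jBar, coeffEmb_coeff, coeff_jq_neg_one, map_one]
  rw [H65.intSer, coeffMap_coeff] at h1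
  have h3 : ((jInt.coeff (-1 : ℤ) : ℤ) : Kbar) = ((1 : ℤ) : Kbar) := by
    rw [Int.cast_one]; exact h1
  exact Int.cast_injective h3

theorem thetaNZ_jInt (R : Type*) [CommRing R] [Nontrivial R] (hq : q.Prime) :
    H65.ThetaNZ q (coeffMap (Int.castRingHom R) jInt) := by
  refine ⟨-1, ?_, ?_⟩
  · intro h
    have h1 : (q : ℤ) ∣ 1 := (Int.dvd_neg).mp h
    have h2 := Int.le_of_dvd one_pos h1
    have h3 := hq.two_le
    omega
  · rw [coeffMap_coeff, jInt_coeff_neg_one, map_one]
    exact one_ne_zero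

theorem incAA_jdF_one :
    incAA q M (jdF M 1 (one_dvd M)) = jdF (M * q * q) 1 (one_dvd _) := by
  apply Subtype.ext
  rw [coe_incAA, coe_jdF, coe_jdF]

theorem incBB_jdF_one (h : q * q ∣ M * q * q) [NeZero (q * q)] :
    incBB q M (jdF M 1 (one_dvd M)) = jdF (M * q * q) (q * q) h := by
  apply Subtype.ext
  rw [coe_incBB, coe_jdF, coe_jdF, qExpand_qExpand, qExpand_qExpand]
  exact qExpand_congr (by ring) _

include hB hq

/-- **RAM11 for `j`**: `v₁₁(j(q²τ) - j(τ))^(q-1) = v₁₁(q)`. -/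
theorem ram11_j (hA : (q : Kbar) ∈ A.nonunits) (h : q * q ∣ M * q * q) [NeZero (q * q)] :
    (V11 A (M * q * q) q M B k (lvl q M) hB hq).valuation
        (jdF (M * q * q) (q * q) h - jdF (M * q * q) 1 (one_dvd _)) ^ (q - 1)
      = (V11 A (M * q * q) q M B k (lvl q M) hB hq).valuation ((q : ℕ) : FN (M * q * q)) := by
  have h1 := ram11 A q M B k hB hq hA (jdF M 1 (one_dvd M)) jInt (coe_jdF_one M)
    (thetaNZ_jInt q (kV A) hq)
  rw [t11, incAA_jdF_one, incBB_jdF_one q M h, map_natCast] at h1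
  exact h1

/-- `θ₁₁(j) = (j(q²τ) - j(τ)) / (z - 1)` is a unit of `V₁₁` with reduction `θ j̄`. -/
theorem red11_th11_j (hA : (q : Kbar) ∈ A.nonunits)
    (h : th11 q M B (jdF M 1 (one_dvd M)) ∈ V11 A (M * q * q) q M B k (lvl q M) hB hq) :
    ((red11 A (M * q * q) q M B k (lvl q M) hB hq ⟨_, h⟩ :
        F11 A (M * q * q) q M B k (lvl q M) hB hq) : LaurentSeries (kV A))
      = H73.thetaL (coeffMap (Int.castRingHom (kV A)) jInt) :=
  red11_th11 A q M B k hB hq hA _ jInt (coe_jdF_one M) h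

end Ram11J

end Fermat.Agent.S36.NU.H88
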