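import Fermat.Agent.S36.NU.H23_L0
import Fermat.Agent.S36.NU.H23_Res
import Fermat.Agent.S36.NU.H88_Ram11
import Fermat.Agent.S36.NU.H82_D2

/-!
# S36 / NU-B, leaf TOT3-MOD (helper23): the three valuations on the inertia-fixed functions

Level `N = M q²`, `q ∤ M`.  `E₀ = L0 A M ⊂ L₀ = L0 A (M q²)`.
* `VE0`, `V20o`, `V11o`, `V02o` : the restrictions of `VM`, `V₂₀`, `V₁₁`, `V₀₂`;
* `sE`, `s20`, `s11`, `s02` : their residue maps with values in `k((t))`;
* `sE_mem`, `s20_mem`, `s02_mem` : values in `fullC k M`;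
* kernels, the maps `E₀ → L₀` (`hVE`), compatibilities.
-/

set_option autoImplicit false
set_option synthInstance.maxHeartbeats 400000
set_option maxHeartbeats 1000000
set_option linter.style.haveILetI false
set_option linter.unusedSectionVars false

noncomputable section

open ModularCurve AlgebraicCurve
open Fermat.Agent.S24 Fermat.Agent.BAD.H88 Fermat.Agent.S28 Fermat.Agent.S28.H73
open Fermat.Agent.RED.H73 Fermat.Agent.RED.H17 Fermat.Agent.S36.NU.H88

namespace Fermat.Agent.S36.NU.H23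

section Mod

variable (A : ValuationSubring Kbar) (q M : ℕ) (B k : ℤ) (hB : B * M + k * q = 1) (hq : q.Prime)
  [NeZero M] [NeZero q] [NeZero (M * q * q)]

/-- `F_M ⊆ F_{M q²}`. -/
theorem hleMN : modularFunctionFieldBar M ≤ modularFunctionFieldBar (M * q * q) :=
  Fermat.Agent.S36.NU.H82.FM_le_of_dvd (M * q * q) M ⟨q * q, mul_assoc M q q⟩

theorem inclusion_eq_incAA (x : FN M) :
    IntermediateField.inclusion (hleMN q M) x = incAA q M x := by
  apply Subtype.ext
  rw [IntermediateField.coe_inclusion, coe_incAA]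

/-! ### The restricted valuation rings -/

/-- The Gauss valuation ring of `L0 A M`. -/
def VE0 : ValuationSubring ↥(L0 A M) := resV0 (L0 A M) (VM A M)

/-- `V₂₀` on `L0 A (M q²)`. -/
def V20o : ValuationSubring ↥(L0 A (M * q * q)) := resV0 (L0 A (M * q * q)) (V20 A (M * q * q))

/-- `V₁₁` on `L0 A (M q²)`. -/
def V11o : ValuationSubring ↥(L0 A (M * q * q)) :=
  resV0 (L0 A (M * q * q)) (V11 A (M * q * q) q M B k (lvl q M) hB hq)

/-- `V₀₂` on `L0 A (M q²)`. -/
def V02o : ValuationSubring ↥(L0 A (M * q * q)) :=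
  resV0 (L0 A (M * q * q)) (V02 A (M * q * q) q M B k (lvl q M) hB)

theorem mem_VE0_iff (x : ↥(L0 A M)) :
    x ∈ VE0 A M ↔ ((x : FN M) : LaurentSeries Kbar) ∈ gaussRingV A := Iff.rfl

theorem mem_V20o_iff (x : ↥(L0 A (M * q * q))) :
    x ∈ V20o A q M ↔ ((x : FN (M * q * q)) : LaurentSeries Kbar) ∈ gaussRingV A := Iff.rfl

theorem mem_V11o_iff (x : ↥(L0 A (M * q * q))) :
    x ∈ V11o A q M B k hB hq ↔ cM q M B k hB hq (x : FN (M * q * q)) ∈ gaussRingV A := Iff.rfl

theorem mem_V02o_iff (x : ↥(L0 A (M * q * q))) :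
    x ∈ V02o A q M B k hB ↔ wS q M B k hB (x : FN (M * q * q)) ∈ V20 A (M * q * q) := Iff.rfl

/-! ### The residue maps, with values in `k((t))` -/

/-- The residue map of `VE0`. -/
def sE : ↥(VE0 A M) →+* LaurentSeries (kV A) :=
  (IntermediateField.val _).toRingHom.comp (resRed (L0 A M) (VM A M) (redM A M))

/-- The residue map of `V20o`. -/
def s20 : ↥(V20o A q M) →+* LaurentSeries (kV A) :=
  (IntermediateField.val _).toRingHom.comp
    (resRed (L0 A (M * q * q)) (V20 A (M * q * q)) (red20 A (M * q * q)))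

/-- The residue map of `V11o`. -/
def s11 : ↥(V11o A q M B k hB hq) →+* LaurentSeries (kV A) :=
  (IntermediateField.val _).toRingHom.comp
    (resRed (L0 A (M * q * q)) (V11 A (M * q * q) q M B k (lvl q M) hB hq)
      (red11 A (M * q * q) q M B k (lvl q M) hB hq))

/-- The residue map of `V02o`. -/
def s02 : ↥(V02o A q M B k hB) →+* LaurentSeries (kV A) :=
  (IntermediateField.val _).toRingHom.comp
    (resRed (L0 A (M * q * q)) (V02 A (M * q * q) q M B k (lvl q M) hB)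
      (red02 A (M * q * q) q M B k (lvl q M) hB))

theorem sE_mk (x : ↥(L0 A M)) (h : x ∈ VE0 A M) :
    sE A M ⟨x, h⟩ = gaussRedV A ⟨((x : FN M) : LaurentSeries Kbar), h⟩ := rfl

theorem s20_mk (x : ↥(L0 A (M * q * q))) (h : x ∈ V20o A q M) :
    s20 A q M ⟨x, h⟩ = gaussRedV A ⟨((x : FN (M * q * q)) : LaurentSeries Kbar), h⟩ := rfl

theorem s11_mk (x : ↥(L0 A (M * q * q))) (h : x ∈ V11o A q M B k hB hq) :
    s11 A q M B k hB hq ⟨x, h⟩ = gaussRedV A ⟨cM q M B k hB hq (x : FN (M * q * q)), h⟩ := rfl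

theorem s02_mk (x : ↥(L0 A (M * q * q))) (h : x ∈ V02o A q M B k hB) :
    s02 A q M B k hB ⟨x, h⟩
      = gaussRedV A ⟨((wS q M B k hB (x : FN (M * q * q)) : FN (M * q * q)) :
          LaurentSeries Kbar), h⟩ := rfl

/-! ### Kernels -/

theorem sE_eq_zero_of_not_isUnit (x : ↥(VE0 A M)) (hx : ¬ IsUnit x) : sE A M x = 0 := by
  have h := resRed_eq_zero_of_not_isUnit (L0 A M) (VM A M) (redM A M)
    (gaussResF'_eq_zero_iff A (hScM A M)) x hx
  show ((resRed (L0 A M) (VM A M) (redM A M) x : FM A M) : LaurentSeries (kV A)) = 0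
  rw [h]; rfl

theorem s20_eq_zero_of_not_isUnit (x : ↥(V20o A q M)) (hx : ¬ IsUnit x) : s20 A q M x = 0 := by
  have h := resRed_eq_zero_of_not_isUnit (L0 A (M * q * q)) (V20 A (M * q * q))
    (red20 A (M * q * q)) (red20_eq_zero_iff A (M * q * q)) x hx
  show ((resRed (L0 A (M * q * q)) (V20 A (M * q * q)) (red20 A (M * q * q)) x :
    F20 A (M * q * q)) : LaurentSeries (kV A)) = 0
  rw [h]; rfl

theorem s11_eq_zero_of_not_isUnit (x : ↥(V11o A q M B k hB hq)) (hx : ¬ IsUnit x) :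
    s11 A q M B k hB hq x = 0 := by
  have h := resRed_eq_zero_of_not_isUnit (L0 A (M * q * q))
    (V11 A (M * q * q) q M B k (lvl q M) hB hq) (red11 A (M * q * q) q M B k (lvl q M) hB hq)
    (red11_eq_zero_iff A (M * q * q) q M B k (lvl q M) hB hq) x hx
  show ((resRed (L0 A (M * q * q)) (V11 A (M * q * q) q M B k (lvl q M) hB hq)
    (red11 A (M * q * q) q M B k (lvl q M) hB hq) x :
    F11 A (M * q * q) q M B k (lvl q M) hB hq) : LaurentSeries (kV A)) = 0
  rw [h]; rfl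

theorem s02_eq_zero_of_not_isUnit (x : ↥(V02o A q M B k hB)) (hx : ¬ IsUnit x) :
    s02 A q M B k hB x = 0 := by
  have h := resRed_eq_zero_of_not_isUnit (L0 A (M * q * q))
    (V02 A (M * q * q) q M B k (lvl q M) hB) (red02 A (M * q * q) q M B k (lvl q M) hB)
    (red02_eq_zero_iff A (M * q * q) q M B k (lvl q M) hB) x hx
  show ((resRed (L0 A (M * q * q)) (V02 A (M * q * q) q M B k (lvl q M) hB)
    (red02 A (M * q * q) q M B k (lvl q M) hB) x : F20 A (M * q * q)) :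
    LaurentSeries (kV A)) = 0
  rw [h]; rfl

/-! ### Values in `fullC k M` -/

include hq in
theorem sE_mem (hqM : ¬ q ∣ M) (hA : A.LiesOverPrime q) (x : ↥(VE0 A M)) :
    sE A M x ∈ modularFunctionFieldFullC (kV A) M := by
  rw [← stmt_GA M q hq hqM A hA]
  exact (resRed (L0 A M) (VM A M) (redM A M) x).2

include hq in
theorem s20_mem (hqM : ¬ q ∣ M) (hA : A.LiesOverPrime q) (x : ↥(V20o A q M)) :
    s20 A q M x ∈ modularFunctionFieldFullC (kV A) M := by
  rw [← Fermat.Agent.S36.NU.H82.redField_NU q M hq hqM A hA]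
  exact (resRed (L0 A (M * q * q)) (V20 A (M * q * q)) (red20 A (M * q * q)) x).2

include hq in
theorem s02_mem (hqM : ¬ q ∣ M) (hA : A.LiesOverPrime q) (x : ↥(V02o A q M B k hB)) :
    s02 A q M B k hB x ∈ modularFunctionFieldFullC (kV A) M := by
  rw [← Fermat.Agent.S36.NU.H82.redField_NU q M hq hqM A hA]
  exact (resRed (L0 A (M * q * q)) (V02 A (M * q * q) q M B k (lvl q M) hB)
    (red02 A (M * q * q) q M B k (lvl q M) hB) x).2

/-! ### The maps `E₀ → L₀` -/

theorem coe_inclL0_series (a : ↥(L0 A M)) :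
    (((inclL0 A (hleMN q M) a : ↥(L0 A (M * q * q))) : FN (M * q * q)) : LaurentSeries Kbar)
      = ((a : FN M) : LaurentSeries Kbar) := by
  rw [coe_inclL0, IntermediateField.coe_inclusion]

theorem coe_inclL0_eq_incAA (a : ↥(L0 A M)) :
    ((inclL0 A (hleMN q M) a : ↥(L0 A (M * q * q))) : FN (M * q * q)) = incAA q M (a : FN M) := by
  rw [coe_inclL0, inclusion_eq_incAA]

theorem hVE20 (a : ↥(L0 A M)) (ha : a ∈ VE0 A M) : inclL0 A (hleMN q M) a ∈ V20o A q M := by
  rw [mem_V20o_iff, coe_inclL0_series]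
  exact ha

include hB hq in
theorem hVE11 (a : ↥(L0 A M)) (ha : a ∈ VE0 A M) :
    inclL0 A (hleMN q M) a ∈ V11o A q M B k hB hq := by
  rw [mem_V11o_iff, coe_inclL0_eq_incAA, cM_incAA]
  exact ha

include hq in
theorem hVE02 (a : ↥(L0 A M)) (ha : a ∈ VE0 A M) :
    inclL0 A (hleMN q M) a ∈ V02o A q M B k hB := by
  show ((inclL0 A (hleMN q M) a : ↥(L0 A (M * q * q))) : FN (M * q * q))
    ∈ V02 A (M * q * q) q M B k (lvl q M) hB
  rw [coe_inclL0_eq_incAA]
  exact (incAA_mem_V02_iff A q M B k hB hq (a : FN M)).mpr ha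

/-! ### Compatibilities -/

theorem s20_incl (a : ↥(VE0 A M)) (h : inclL0 A (hleMN q M) (a : ↥(L0 A M)) ∈ V20o A q M) :
    s20 A q M ⟨_, h⟩ = sE A M a := by
  rw [s20_mk]
  show _ = gaussRedV A ⟨(((a : ↥(L0 A M)) : FN M) : LaurentSeries Kbar), a.2⟩
  congr 1

include hB hq in
theorem s11_incl (a : ↥(VE0 A M))
    (h : inclL0 A (hleMN q M) (a : ↥(L0 A M)) ∈ V11o A q M B k hB hq) :
    s11 A q M B k hB hq ⟨_, h⟩ = sE A M a := by
  rw [s11_mk]
  show _ = gaussRedV A ⟨(((a : ↥(L0 A M)) : FN M) : LaurentSeries Kbar), a.2⟩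
  congr 1
  apply Subtype.ext
  show cM q M B k hB hq ((inclL0 A (hleMN q M) (a : ↥(L0 A M)) : ↥(L0 A (M * q * q))) :
    FN (M * q * q)) = _
  rw [coe_inclL0_eq_incAA, cM_incAA]

include hq in
theorem s02_incl (a : ↥(VE0 A M))
    (h : inclL0 A (hleMN q M) (a : ↥(L0 A M)) ∈ V02o A q M B k hB) :
    s02 A q M B k hB ⟨_, h⟩ = qExpand (kV A) q (qExpand (kV A) q (sE A M a)) := by
  rw [s02_mk]
  have e : ((wS q M B k hB ((inclL0 A (hleMN q M) (a : ↥(L0 A M)) : ↥(L0 A (M * q * q))) :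
      FN (M * q * q)) : FN (M * q * q)) : LaurentSeries Kbar)
      = qExpand Kbar q (qExpand Kbar q (((a : ↥(L0 A M)) : FN M) : LaurentSeries Kbar)) := by
    rw [coe_inclL0_eq_incAA, wS_incAA q M B k hB hq, coe_incBB]
  have ha : (((a : ↥(L0 A M)) : FN M) : LaurentSeries Kbar) ∈ gaussRingV A := a.2
  have h1 : qExpand Kbar q (((a : ↥(L0 A M)) : FN M) : LaurentSeries Kbar) ∈ gaussRingV A :=
    qExpand_mem_gaussRingV A q ha
  have h2 : qExpand Kbar q (qExpand Kbar q (((a : ↥(L0 A M)) : FN M) : LaurentSeries Kbar))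
      ∈ gaussRingV A := qExpand_mem_gaussRingV A q h1
  have e2 : (⟨((wS q M B k hB ((inclL0 A (hleMN q M) (a : ↥(L0 A M)) : ↥(L0 A (M * q * q))) :
      FN (M * q * q)) : FN (M * q * q)) : LaurentSeries Kbar), h⟩ : gaussRingV A)
      = ⟨qExpand Kbar q (qExpand Kbar q (((a : ↥(L0 A M)) : FN M) : LaurentSeries Kbar)), h2⟩ :=
    Subtype.ext e
  rw [e2, Fermat.Agent.BAD.H73.gaussRedV_qExpand A q h1 h2,
    Fermat.Agent.BAD.H73.gaussRedV_qExpand A q ha h1]
  rfl

end Mod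

end Fermat.Agent.S36.NU.H23
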