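import Fermat.Agent.S36.NU.H23_Mod2

/-!
# S36 / NU-B, leaf TOT3-MOD (helper23): RES11 and the modular `NRData`

Level `N = M q²`, `q ∤ M`, `C = FM A M`.

* `nrPre` : the `NRData` of the three valuations with the ABSTRACT residue field of `V11o`;
* **RES11** `s11_memM` : the residue field of `V₁₁ ∩ L₀` is `C` (from the fundamental
  inequality `1 + (q - 1) f₁₁ + q² ≤ q² + q`);
* `r11 : V11o → C`;
* **`nrM`** : the modular `NRData` with `κ = (C, C, C)`, `e = (1, q - 1, 1)`,
  structure maps `(id, id, Fr²)`, and `nrM_hdeg`.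
-/

set_option autoImplicit false
set_option synthInstance.maxHeartbeats 400000
set_option maxHeartbeats 1000000
set_option linter.style.haveILetI false
set_option linter.unusedSectionVars false

noncomputable section

open ModularCurve AlgebraicCurve
open Fermat.Agent.S24 Fermat.Agent.BAD.H88 Fermat.Agent.S28 Fermat.Agent.S28.H73
open Fermat.Agent.RED.H73 Fermat.Agent.RED.H17 Fermat.Agent.S36.NU.H88

namespace Fermat.Agent.S36.NU.H23

open Fermat.Agent.BAD

section Mod3

variable (A : ValuationSubring Kbar) (q M : ℕ) (B k : ℤ) (hB : B * M + k * q = 1) (hq : q.Prime)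
  [NeZero M] [NeZero q] [NeZero (M * q * q)] (hqM : ¬ q ∣ M) (hA : A.LiesOverPrime q)

/-! ### The abstract residue field of `V11o` -/

/-- The residue field of `V11o`. -/
abbrev K11 : Type := IsLocalRing.ResidueField ↥(V11o A q M B k hB hq)

/-- The canonical residue map of `V11o`. -/
def res11 : ↥(V11o A q M B k hB hq) →+* K11 A q M B k hB hq := IsLocalRing.residue _

theorem res11_eq_zero_of_not_isUnit (x : ↥(V11o A q M B k hB hq)) (hx : ¬ IsUnit x) :
    res11 A q M B k hB hq x = 0 :=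
  (IsLocalRing.residue_eq_zero_iff x).2 ((IsLocalRing.mem_maximalIdeal x).2 hx)

theorem res11_eq_zero_iff_s11 (x : ↥(V11o A q M B k hB hq)) :
    res11 A q M B k hB hq x = 0 ↔ s11 A q M B k hB hq x = 0 := by
  constructor
  · intro h
    have h1 : x ∈ IsLocalRing.maximalIdeal ↥(V11o A q M B k hB hq) :=
      (IsLocalRing.residue_eq_zero_iff x).1 h
    exact s11_eq_zero_of_not_isUnit A q M B k hB hq x ((IsLocalRing.mem_maximalIdeal x).1 h1)
  · intro h
    apply res11_eq_zero_of_not_isUnit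
    intro hu
    exact (hu.map (s11 A q M B k hB hq)).ne_zero h

theorem s11_inc11 (a : ↥(VE0 A M)) :
    s11 A q M B k hB hq (inc11 A q M B k hB hq a) = sE A M a :=
  s11_incl A q M B k hB hq a (hVE11 A q M B k hB hq a a.2)

theorem rE_ker_le :
    RingHom.ker (rE A M)
      ≤ RingHom.ker ((res11 A q M B k hB hq).comp (inc11 A q M B k hB hq)) := by
  intro a ha
  rw [RingHom.mem_ker] at ha ⊢
  rw [RingHom.comp_apply, res11_eq_zero_iff_s11, s11_inc11, ← coe_rE, ha]
  rfl

/-- The structure map of the residue field of `V11o` over the residue field of level `M`. -/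
def a11 : FM A M →+* K11 A q M B k hB hq :=
  (rE A M).liftOfRightInverse (Function.surjInv (rE_surjective A q M hq hqM hA))
    (Function.rightInverse_surjInv (rE_surjective A q M hq hqM hA))
    ⟨(res11 A q M B k hB hq).comp (inc11 A q M B k hB hq), rE_ker_le A q M B k hB hq⟩

theorem a11_rE (a : ↥(VE0 A M)) :
    a11 A q M B k hB hq hqM hA (rE A M a)
      = res11 A q M B k hB hq (inc11 A q M B k hB hq a) :=
  RingHom.liftOfRightInverse_comp_apply _ _ _ _ a

/-- The preliminary `NRData`, with the abstract residue field of `V11o`. -/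
def nrPre : @H42.NRData ↥(L0 A M) ↥(L0 A (M * q * q)) (FM A M) _ _ _ (algL0 A (hleMN q M))
    (Fin 3) (kap3 (FM A M) (K11 A q M B k hB hq)) _
    (kap3Alg (FM A M) (K11 A q M B k hB hq) (a11 A q M B k hB hq hqM hA).toAlgebra
      (alg2M A q M hq hqM hA)) :=
  @nr3 ↥(L0 A M) ↥(L0 A (M * q * q)) (FM A M) (K11 A q M B k hB hq) _ _ _ _
    (algL0 A (hleMN q M)) (a11 A q M B k hB hq hqM hA).toAlgebra (alg2M A q M hq hqM hA)
    (VE0 A M) (rE A M) (V20o A q M) (V11o A q M B k hB hq) (V02o A q M B k hB)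
    (r20 A q M hq hqM hA) (res11 A q M B k hB hq) (r02 A q M B k hB hq hqM hA)
    (piE A q M) (pi11 A q M) (q - 1)
    (piE_ne_zero A q M hq) (piE_mem A q M hA) (rE_piE A q M hA) (hE_mod A q M hq hA)
    (hVE20 A q M) (hVE11 A q M B k hB hq) (hVE02 A q M B k hB hq)
    (rE_eq_zero_of_not_isUnit A M)
    (r20_surjective A q M hq hqM hA) IsLocalRing.residue_surjective
    (r02_surjective A q M B k hB hq hqM hA)
    (r20_eq_zero_of_not_isUnit A q M hq hqM hA) (res11_eq_zero_of_not_isUnit A q M B k hB hq)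
    (r02_eq_zero_of_not_isUnit A q M B k hB hq hqM hA)
    (fun a ha => r20_incl A q M hq hqM hA a ha)
    (fun a _ => (a11_rE A q M B k hB hq hqM hA a).symm)
    (fun a ha => r02_incl A q M B k hB hq hqM hA a ha)
    (Fermat.Agent.S36.NU.H82.not_le_20_11 A q M B k hB hq hA)
    (Fermat.Agent.S36.NU.H82.not_le_20_02 A q M B k hB hq hA)
    (Fermat.Agent.S36.NU.H82.not_le_11_20 A q M B k hB hq hA)
    (Fermat.Agent.S36.NU.H82.not_le_11_02 A q M B k hB hq hA)
    (Fermat.Agent.S36.NU.H82.not_le_02_20 A q M B k hB hq hA)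
    (Fermat.Agent.S36.NU.H82.not_le_02_11 A q M B k hB hq hA)
    (isArch_resV0 _ _ (Fermat.Agent.S36.NU.H82.isArch_V20 A hq hA (M * q * q)))
    (isArch_resV0 _ _
      (Fermat.Agent.S36.NU.H82.isArch_V11 A hq hA (M * q * q) M B k (lvl q M) hB))
    (isArch_resV0 _ _
      (Fermat.Agent.S36.NU.H82.isArch_V02 A hq hA (M * q * q) M B k (lvl q M) hB))
    (val_pi11_lt_one A q M B k hB hq hA) (Nat.sub_pos_of_lt hq.one_lt)
    (hram11 A q M B k hB hq hA)

include hq in
theorem sum_deg : 1 + (q - 1) + q ^ 2 = q ^ 2 + q := by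
  have h1 : 1 ≤ q := hq.pos
  generalize q ^ 2 = t
  omega

/-- **RES11 (abstract form)**: the residue field of `V11o` is the image of the residue field of
level `M`. -/
theorem surjective_a11 : Function.Surjective (a11 A q M B k hB hq hqM hA) :=
  @surjective_K1 ↥(L0 A M) ↥(L0 A (M * q * q)) (FM A M) (K11 A q M B k hB hq) _ _ _ _
    (algL0 A (hleMN q M)) (finite_L0_NU A q M) (a11 A q M B k hB hq hqM hA).toAlgebra
    (alg2M A q M hq hqM hA) (nrPre A q M B k hB hq hqM hA) (q ^ 2 + q) (q ^ 2) (q - 1)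
    (finrank_L0_NU A q M hq hqM) ⟨rfl, rfl, rfl⟩ (Nat.sub_pos_of_lt hq.one_lt)
    (finrank_alg2M A q M hq hqM hA) (sum_deg q hq)

include hq hqM hA in
/-- **RES11**: the reductions at `V₁₁` of the inertia-fixed functions lie in the residue field
of level `M`. -/
theorem s11_memM (x : ↥(V11o A q M B k hB hq)) :
    s11 A q M B k hB hq x ∈ redField A (modularFunctionFieldBar M) (hScM A M) := by
  obtain ⟨c, hc⟩ := surjective_a11 A q M B k hB hq hqM hA (res11 A q M B k hB hq x)
  obtain ⟨a, rfl⟩ := rE_surjective A q M hq hqM hA c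
  rw [a11_rE] at hc
  have h1 : res11 A q M B k hB hq (x - inc11 A q M B k hB hq a) = 0 := by
    rw [map_sub, hc, sub_self]
  have h3 : s11 A q M B k hB hq (x - inc11 A q M B k hB hq a) = 0 :=
    (res11_eq_zero_iff_s11 A q M B k hB hq _).1 h1
  have h4 : s11 A q M B k hB hq x = sE A M a := by
    rw [map_sub, sub_eq_zero, s11_inc11] at h3
    exact h3
  rw [h4]
  exact (rE A M a).2

include hq hqM hA in
theorem s11_mem_fullC (x : ↥(V11o A q M B k hB hq)) :
    s11 A q M B k hB hq x ∈ modularFunctionFieldFullC (kV A) M := by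
  rw [← FM_eq A q M hq hqM hA]
  exact s11_memM A q M B k hB hq hqM hA x

/-! ### The residue map of `V11o` -/

/-- The residue map of `V11o`, into the residue field of level `M`. -/
def r11 : ↥(V11o A q M B k hB hq) →+* FM A M where
  toFun x := ⟨s11 A q M B k hB hq x, s11_memM A q M B k hB hq hqM hA x⟩
  map_one' := Subtype.ext (map_one (s11 A q M B k hB hq))
  map_mul' x y := Subtype.ext (map_mul (s11 A q M B k hB hq) x y)
  map_zero' := Subtype.ext (map_zero (s11 A q M B k hB hq))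
  map_add' x y := Subtype.ext (map_add (s11 A q M B k hB hq) x y)

theorem coe_r11 (x : ↥(V11o A q M B k hB hq)) :
    ((r11 A q M B k hB hq hqM hA x : FM A M) : LaurentSeries (kV A))
      = s11 A q M B k hB hq x := rfl

theorem r11_eq_zero_of_not_isUnit (x : ↥(V11o A q M B k hB hq)) (hx : ¬ IsUnit x) :
    r11 A q M B k hB hq hqM hA x = 0 := by
  apply Subtype.ext
  rw [coe_r11, s11_eq_zero_of_not_isUnit A q M B k hB hq x hx]
  rfl

theorem r11_incl (a : ↥(VE0 A M))
    (h : inclL0 A (hleMN q M) (a : ↥(L0 A M)) ∈ V11o A q M B k hB hq) :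
    r11 A q M B k hB hq hqM hA ⟨_, h⟩ = rE A M a := by
  apply Subtype.ext
  rw [coe_r11, coe_rE]
  exact s11_incl A q M B k hB hq a h

include hq hqM hA in
theorem r11_surjective : Function.Surjective (r11 A q M B k hB hq hqM hA) := by
  intro y
  obtain ⟨a, rfl⟩ := rE_surjective A q M hq hqM hA y
  exact ⟨⟨_, hVE11 A q M B k hB hq a a.2⟩, r11_incl A q M B k hB hq hqM hA a _⟩

/-! ### The modular `NRData` -/

/-- The three structure maps `(id, id, Fr²)`. -/
@[reducible] def algM : ∀ i, Algebra (FM A M) (kap3 (FM A M) (FM A M) i) :=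
  kap3Alg (FM A M) (FM A M) (Algebra.id (FM A M)) (alg2M A q M hq hqM hA)

/-- **The modular `NRData`** of the three valuations `V₂₀`, `V₁₁`, `V₀₂` of the inertia-fixed
functions of level `M q²` over the Gauss valuation of level `M`. -/
def nrM : @H42.NRData ↥(L0 A M) ↥(L0 A (M * q * q)) (FM A M) _ _ _ (algL0 A (hleMN q M))
    (Fin 3) (kap3 (FM A M) (FM A M)) _ (algM A q M hq hqM hA) :=
  @nr3 ↥(L0 A M) ↥(L0 A (M * q * q)) (FM A M) (FM A M) _ _ _ _
    (algL0 A (hleMN q M)) (Algebra.id (FM A M)) (alg2M A q M hq hqM hA)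
    (VE0 A M) (rE A M) (V20o A q M) (V11o A q M B k hB hq) (V02o A q M B k hB)
    (r20 A q M hq hqM hA) (r11 A q M B k hB hq hqM hA) (r02 A q M B k hB hq hqM hA)
    (piE A q M) (pi11 A q M) (q - 1)
    (piE_ne_zero A q M hq) (piE_mem A q M hA) (rE_piE A q M hA) (hE_mod A q M hq hA)
    (hVE20 A q M) (hVE11 A q M B k hB hq) (hVE02 A q M B k hB hq)
    (rE_eq_zero_of_not_isUnit A M)
    (r20_surjective A q M hq hqM hA) (r11_surjective A q M B k hB hq hqM hA)
    (r02_surjective A q M B k hB hq hqM hA)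
    (r20_eq_zero_of_not_isUnit A q M hq hqM hA)
    (r11_eq_zero_of_not_isUnit A q M B k hB hq hqM hA)
    (r02_eq_zero_of_not_isUnit A q M B k hB hq hqM hA)
    (fun a ha => r20_incl A q M hq hqM hA a ha)
    (fun a ha => r11_incl A q M B k hB hq hqM hA a ha)
    (fun a ha => r02_incl A q M B k hB hq hqM hA a ha)
    (Fermat.Agent.S36.NU.H82.not_le_20_11 A q M B k hB hq hA)
    (Fermat.Agent.S36.NU.H82.not_le_20_02 A q M B k hB hq hA)
    (Fermat.Agent.S36.NU.H82.not_le_11_20 A q M B k hB hq hA)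
    (Fermat.Agent.S36.NU.H82.not_le_11_02 A q M B k hB hq hA)
    (Fermat.Agent.S36.NU.H82.not_le_02_20 A q M B k hB hq hA)
    (Fermat.Agent.S36.NU.H82.not_le_02_11 A q M B k hB hq hA)
    (isArch_resV0 _ _ (Fermat.Agent.S36.NU.H82.isArch_V20 A hq hA (M * q * q)))
    (isArch_resV0 _ _
      (Fermat.Agent.S36.NU.H82.isArch_V11 A hq hA (M * q * q) M B k (lvl q M) hB))
    (isArch_resV0 _ _
      (Fermat.Agent.S36.NU.H82.isArch_V02 A hq hA (M * q * q) M B k (lvl q M) hB))
    (val_pi11_lt_one A q M B k hB hq hA) (Nat.sub_pos_of_lt hq.one_lt)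
    (hram11 A q M B k hB hq hA)

theorem nrM_VE :
    @H42.NRData.VE ↥(L0 A M) ↥(L0 A (M * q * q)) (FM A M) _ _ _ (algL0 A (hleMN q M))
      (Fin 3) (kap3 (FM A M) (FM A M)) _ (algM A q M hq hqM hA)
      (nrM A q M B k hB hq hqM hA) = VE0 A M := rfl

theorem nrM_V0 :
    @H42.NRData.V ↥(L0 A M) ↥(L0 A (M * q * q)) (FM A M) _ _ _ (algL0 A (hleMN q M))
      (Fin 3) (kap3 (FM A M) (FM A M)) _ (algM A q M hq hqM hA)
      (nrM A q M B k hB hq hqM hA) 0 = V20o A q M := rfl

theorem nrM_V1 :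
    @H42.NRData.V ↥(L0 A M) ↥(L0 A (M * q * q)) (FM A M) _ _ _ (algL0 A (hleMN q M))
      (Fin 3) (kap3 (FM A M) (FM A M)) _ (algM A q M hq hqM hA)
      (nrM A q M B k hB hq hqM hA) 1 = V11o A q M B k hB hq := rfl

theorem nrM_V2 :
    @H42.NRData.V ↥(L0 A M) ↥(L0 A (M * q * q)) (FM A M) _ _ _ (algL0 A (hleMN q M))
      (Fin 3) (kap3 (FM A M) (FM A M)) _ (algM A q M hq hqM hA)
      (nrM A q M B k hB hq hqM hA) 2 = V02o A q M B k hB := rfl

theorem nrM_e0 :
    @H42.NRData.e ↥(L0 A M) ↥(L0 A (M * q * q)) (FM A M) _ _ _ (algL0 A (hleMN q M))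
      (Fin 3) (kap3 (FM A M) (FM A M)) _ (algM A q M hq hqM hA)
      (nrM A q M B k hB hq hqM hA) 0 = 1 := rfl

theorem nrM_e1 :
    @H42.NRData.e ↥(L0 A M) ↥(L0 A (M * q * q)) (FM A M) _ _ _ (algL0 A (hleMN q M))
      (Fin 3) (kap3 (FM A M) (FM A M)) _ (algM A q M hq hqM hA)
      (nrM A q M B k hB hq hqM hA) 1 = q - 1 := rfl

theorem nrM_e2 :
    @H42.NRData.e ↥(L0 A M) ↥(L0 A (M * q * q)) (FM A M) _ _ _ (algL0 A (hleMN q M))
      (Fin 3) (kap3 (FM A M) (FM A M)) _ (algM A q M hq hqM hA)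
      (nrM A q M B k hB hq hqM hA) 2 = 1 := rfl

/-- The degrees add up: `1 · 1 + (q - 1) · 1 + 1 · q² = q² + q = [L0 N : L0 M]`. -/
theorem nrM_hdeg :
    ∑ i, @H42.NRData.e ↥(L0 A M) ↥(L0 A (M * q * q)) (FM A M) _ _ _ (algL0 A (hleMN q M))
          (Fin 3) (kap3 (FM A M) (FM A M)) _ (algM A q M hq hqM hA)
          (nrM A q M B k hB hq hqM hA) i
        * @Module.finrank (FM A M) (kap3 (FM A M) (FM A M) i) _ _
            (algM A q M hq hqM hA i).toModule
      = @Module.finrank ↥(L0 A M) ↥(L0 A (M * q * q)) _ _ (algL0 A (hleMN q M)).toModule := by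
  rw [Fin.sum_univ_three, finrank_L0_NU A q M hq hqM]
  have h0 : @Module.finrank (FM A M) (kap3 (FM A M) (FM A M) 0) _ _
      (algM A q M hq hqM hA 0).toModule = 1 := Module.finrank_self (FM A M)
  have h1 : @Module.finrank (FM A M) (kap3 (FM A M) (FM A M) 1) _ _
      (algM A q M hq hqM hA 1).toModule = 1 := Module.finrank_self (FM A M)
  have h2 : @Module.finrank (FM A M) (kap3 (FM A M) (FM A M) 2) _ _
      (algM A q M hq hqM hA 2).toModule = q ^ 2 := finrank_alg2M A q M hq hqM hA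
  rw [h0, h1, h2, nrM_e0, nrM_e1, nrM_e2, mul_one, mul_one, one_mul]
  exact sum_deg q hq

end Mod3

end Fermat.Agent.S36.NU.H23
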