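import Fermat.Agent.S36.NU.H74_FinHyps
import Fermat.Agent.S35.H89_FrobDefs
import Fermat.Agent.S35.H52_FrobRho
import Fermat.Agent.S35.H30_SigmaFix
import Fermat.Agent.BAD.H91_Nodes
import Fermat.Agent.Lib.FrobExists

/-!
# S36 / NU-B, leaf NM-P, part 1 (helper23): the places of the modular `NUData`

Setting of `totM` (level `M q²`, `q ∤ M` tame, `A` over `q`, residue field `FM A M` of level `M`)
and of the lower datum `modTM = S35.H89.modTot` (level `M q`, residue field `F1 A q M`).

* `zA z = κ⁻¹ z`, `zB z = κ⁻¹ (β⁻¹ z)` : the points of the curve of level `M q` below the point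
  `z` of the curve of level `M q²`, along `α` and `β`;
* `nodeA`, `nodeB` : they are nodes for the supersingular points `z ∈ H74.ssM`;
* `betaM_betaM` : the supersingular points are fixed by `β²`;
* `ptA_id`, `ptA_Fr`, `ptB_Fr`, `ptB_id`, `ptB_id2` : the six fields `ptA₂₀ … ptB₀₂`, for maps
  `j : F1 A q M → FM A M` given in series form (`j y = y` resp. `j y = Fr y` as series);
* `deg_ptM` : the field `deg_one`.
-/

set_option autoImplicit false
set_option synthInstance.maxHeartbeats 400000
set_option maxHeartbeats 1000000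
set_option linter.style.haveILetI false
set_option linter.unusedSectionVars false

noncomputable section

open ModularCurve AlgebraicCurve
open Fermat.Agent.S24 Fermat.Agent.BAD.H88 Fermat.Agent.S28 Fermat.Agent.S28.H73
open Fermat.Agent.RED.H73 Fermat.Agent.RED.H17

namespace Fermat.Agent.S36.NU.H23

open Fermat.Agent.BAD Fermat.Agent.RED Fermat.Agent.S36.NU.H79

/-! ## Abstract transport lemmas -/

section NmPAbs

variable {k : Type*} [Field k]

/-- Values are transported by `placeCongr`. -/
theorem hasValue_placeCongr_symm {X : Type*} [Field X] [Algebra k X]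
    {E₁ E₂ : IntermediateField k X} (h : E₁ = E₂) (z : Place k ↥E₂) (y₁ : ↥E₁) (y₂ : ↥E₂)
    (hy : (y₁ : X) = (y₂ : X)) (a : k) :
    HasValue ((Fermat.Agent.BAD.H91.placeCongr h).symm z) y₁ a ↔ HasValue z y₂ a := by
  subst h
  have e : y₁ = y₂ := Subtype.ext hy
  rw [e]
  rfl

variable (q : ℕ) [Fact q.Prime] [CharP k q] [PerfectRing k q]

/-- `Fr y` takes the value `a` at `β z` iff `y` takes the value `a` at `z`. -/
theorem hasValue_beta_FrE {E : IntermediateField k (LaurentSeries k)}
    (h : Fermat.Agent.BAD.H73.FrobStable q E) (z : Place k ↥E) (y : ↥E) (a : k) :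
    HasValue (Fermat.Agent.BAD.H73.beta h z) (Fermat.Agent.BAD.H73.FrE h y) a ↔ HasValue z y a := by
  unfold HasValue
  have e : Fermat.Agent.BAD.H73.FrE h y - algebraMap k ↥E a
      = Fermat.Agent.BAD.H73.FrE h (y - algebraMap k ↥E a) := by
    rw [map_sub, AlgHom.commutes]
  rw [e, vanAt_iff_ord, vanAt_iff_ord, Fermat.Agent.BAD.H73.beta_ord_Fr]
  have hinj : Function.Injective (Fermat.Agent.BAD.H73.FrE h) :=
    (Fermat.Agent.BAD.H73.FrE h).toRingHom.injective
  have hq : (0 : ℤ) < (q : ℤ) := by exact_mod_cast (Fact.out : q.Prime).pos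
  constructor
  · rintro (h0 | h1)
    · left
      exact hinj (by rw [h0, map_zero])
    · right
      exact (mul_pos_iff_of_pos_left hq).1 h1
  · rintro (h0 | h1)
    · left
      rw [h0, map_zero]
    · right
      exact mul_pos hq h1

/-- `β` commutes with `placeCongr`. -/
theorem placeCongr_beta {E₁ E₂ : IntermediateField k (LaurentSeries k)} (h : E₁ = E₂)
    (h₁ : Fermat.Agent.BAD.H73.FrobStable q E₁) (h₂ : Fermat.Agent.BAD.H73.FrobStable q E₂)
    (w : Place k ↥E₁) :
    Fermat.Agent.BAD.H91.placeCongr h (Fermat.Agent.BAD.H73.beta h₁ w)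
      = Fermat.Agent.BAD.H73.beta h₂ (Fermat.Agent.BAD.H91.placeCongr h w) := by
  subst h
  rfl

/-- Elements fixed by `φ` have the same order at `z` and `β⁻¹ z`. -/
theorem beta_symm_ord_of_fixed {E : IntermediateField k (LaurentSeries k)}
    (h : Fermat.Agent.BAD.H73.FrobStable q E) (z : Place k ↥E) (y : ↥E)
    (hy : Fermat.Agent.BAD.H73.frobL k q (y : LaurentSeries k) = (y : LaurentSeries k)) :
    ((Fermat.Agent.BAD.H73.beta h).symm z).ord y = z.ord y := by
  rw [Fermat.Agent.BAD.H73.beta_symm_ord]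
  have e : (Fermat.Agent.BAD.H73.frobE h).symm y = y := by
    rw [RingEquiv.symm_apply_eq]
    exact Subtype.ext hy.symm
  rw [e]

end NmPAbs

/-! ## The modular objects -/

section NmP

variable (A : ValuationSubring Kbar) (q M : ℕ) (B k : ℤ) (hB : B * M + k * q = 1) (hq : q.Prime)
  [NeZero M] [NeZero q] [NeZero (M * q)] [NeZero (M * q * q)] (hqM : ¬ q ∣ M)
  (hA : A.LiesOverPrime q) (ht : H91.TameAt M q)

omit [NeZero M] [NeZero q] [NeZero (M * q)] [NeZero (M * q * q)] in
/-- The Bézout relation in the order of the lower level. -/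
theorem hab_kB (hB : B * M + k * q = 1) : k * q + B * M = 1 := by
  rw [add_comm]; exact hB

/-- **The conservation datum of the lower level** `M q`. -/
abbrev modTM : Fermat.Agent.BAD.H79.TotData Kbar (FN (M * q)) (kV A) (F1 A q M) (F1 A q M) :=
  Fermat.Agent.S35.H89.modTot A q M k B (hab_kB q M B k hB) hq hA hqM ht

/-- `κ` : the places of `F₁` are the places of the residue field of level `M`. -/
abbrev kapM : Place (kV A) (F1 A q M) ≃ Place (kV A) (FM A M) :=
  Fermat.Agent.BAD.H91.kappa A q M k B (hab_kB q M B k hB) hq hA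

/-- `β` on the places of `F₁`. -/
abbrev betaL : Place (kV A) (F1 A q M) ≃ Place (kV A) (F1 A q M) :=
  Fermat.Agent.S35.H89.betaMod A q M k B (hab_kB q M B k hB) hq hA

/-- **The point of the curve of level `M q` below `z`, along `α`.** -/
def zA (z : Place (kV A) (FM A M)) : Place (kV A) (F1 A q M) :=
  (kapM A q M B k hB hq hA).symm z

/-- **The point of the curve of level `M q` below `z`, along `β`.** -/
def zB (z : Place (kV A) (FM A M)) : Place (kV A) (F1 A q M) :=
  (kapM A q M B k hB hq hA).symm ((betaM A q M hq hqM hA).symm z)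

theorem zA_def (z : Place (kV A) (FM A M)) :
    zA A q M B k hB hq hA z = (kapM A q M B k hB hq hA).symm z := rfl

theorem zB_def (z : Place (kV A) (FM A M)) :
    zB A q M B k hB hq hqM hA z
      = (kapM A q M B k hB hq hA).symm ((betaM A q M hq hqM hA).symm z) := rfl

theorem modTM_beta (w : Place (kV A) (F1 A q M)) :
    (modTM A q M B k hB hq hqM hA ht).β w = betaL A q M B k hB hq hA w := rfl

theorem modTM_rho (P : Place Kbar (FN (M * q))) :
    (modTM A q M B k hB hq hqM hA ht).ρ P
      = Fermat.Agent.BAD.H91.rhoF1 k B (hab_kB q M B k hB) hq hA hqM ht P := rfl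

/-! ### Transport of values -/

/-- (S1) values at `κ⁻¹ z` and at `z`. -/
theorem hasValue_kapM_symm (z : Place (kV A) (FM A M)) (y₁ : F1 A q M) (y : FM A M)
    (hy : (y₁ : LaurentSeries (kV A)) = (y : LaurentSeries (kV A))) (a : kV A) :
    HasValue ((kapM A q M B k hB hq hA).symm z) y₁ a ↔ HasValue z y a :=
  hasValue_placeCongr_symm _ z y₁ y hy a

/-- (S2) values of `Fr y` at `β z` and of `y` at `z`. -/
theorem hasValue_betaM_FrM (z : Place (kV A) (FM A M)) (y : FM A M) (a : kV A) :
    HasValue (betaM A q M hq hqM hA z) (FrM A q M hq hqM hA y) a ↔ HasValue z y a :=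
  @hasValue_beta_FrE (kV A) _ q ⟨hq⟩ (Fermat.Agent.BAD.H82.charP_kV A hq hA)
    (@Fermat.Agent.BAD.H73.perfectRing_kV _ _ _ A q ⟨hq⟩
      (Fermat.Agent.BAD.H82.charP_kV A hq hA)) _ (frobStable_FM A q M hq hqM hA) z y a

/-- (S3) `κ ∘ β = β ∘ κ`. -/
theorem kapM_betaL (w : Place (kV A) (F1 A q M)) :
    kapM A q M B k hB hq hA (betaL A q M B k hB hq hA w)
      = betaM A q M hq hqM hA (kapM A q M B k hB hq hA w) :=
  @placeCongr_beta (kV A) _ q ⟨hq⟩ (Fermat.Agent.BAD.H82.charP_kV A hq hA)
    (@Fermat.Agent.BAD.H73.perfectRing_kV _ _ _ A q ⟨hq⟩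
      (Fermat.Agent.BAD.H82.charP_kV A hq hA)) _ _
    (Fermat.Agent.BAD.H82.redField_eq_redField q M k B (hab_kB q M B k hB) hq A hA)
    (Fermat.Agent.BAD.H73.frobStable_F1 A q M hq hA M
      (Fermat.Agent.BAD.H82.redField_eq_fullC q M k B (hab_kB q M B k hB) hq A hA))
    (frobStable_FM A q M hq hqM hA) w

theorem kapM_symm_betaM (z : Place (kV A) (FM A M)) :
    (kapM A q M B k hB hq hA).symm (betaM A q M hq hqM hA z)
      = betaL A q M B k hB hq hA ((kapM A q M B k hB hq hA).symm z) := by
  rw [Equiv.symm_apply_eq, kapM_betaL A q M B k hB hq hqM hA, Equiv.apply_symm_apply]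

/-- `β (zB z) = zA z`. -/
theorem betaL_zB (z : Place (kV A) (FM A M)) :
    betaL A q M B k hB hq hA (zB A q M B k hB hq hqM hA z) = zA A q M B k hB hq hA z := by
  rw [zB_def, zA_def, ← kapM_symm_betaM A q M B k hB hq hqM hA, Equiv.apply_symm_apply]

/-- `β (zA z) = κ⁻¹ (β z)`. -/
theorem betaL_zA (z : Place (kV A) (FM A M)) :
    betaL A q M B k hB hq hA (zA A q M B k hB hq hA z)
      = (kapM A q M B k hB hq hA).symm (betaM A q M hq hqM hA z) := by
  rw [zA_def, kapM_symm_betaM A q M B k hB hq hqM hA]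

/-! ### The supersingular points -/

/-- The supersingular points are stable under `β⁻¹`. -/
theorem betaM_symm_mem_ssM (z : Place (kV A) (FM A M))
    (hz : z ∈ Fermat.Agent.S36.NU.H74.ssM A q M) :
    (betaM A q M hq hqM hA).symm z ∈ Fermat.Agent.S36.NU.H74.ssM A q M := by
  haveI : Fact q.Prime := ⟨hq⟩
  haveI : CharP (kV A) q := Fermat.Agent.BAD.H82.charP_kV A hq hA
  haveI : PerfectRing (kV A) q := Fermat.Agent.BAD.H73.perfectRing_kV A q
  have hΔ : Fermat.Agent.BAD.H73.frobL (kV A) q (Fermat.Agent.BAD.H30.deltaR (kV A))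
      = Fermat.Agent.BAD.H30.deltaR (kV A) := by
    rw [← Fermat.Agent.BAD.H30.coeffMap_deltaR (R := ℤ) (Int.castRingHom (kV A)),
      Fermat.Agent.BAD.H73.frobL_coeffMap_intCast]
  refine ⟨?_, fun y hy => ?_⟩
  · have e : ((betaM A q M hq hqM hA).symm z).ord (Fermat.Agent.BAD.H91.jRed A M)
        = z.ord (Fermat.Agent.BAD.H91.jRed A M) := by
      refine beta_symm_ord_of_fixed q (frobStable_FM A q M hq hqM hA) z _ ?_
      have h1 : ((Fermat.Agent.BAD.H91.jRed A M : ↥(Fermat.Agent.BAD.H91.redM A M)) :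
          LaurentSeries (kV A)) = jqModC (kV A) := Fermat.Agent.RED.H73.red_jF A M
      rw [h1, ← coeffMap_jqModC (Int.castRingHom (kV A)),
        Fermat.Agent.BAD.H73.frobL_coeffMap_intCast]
    rw [e]
    exact hz.1
  · have e : ((betaM A q M hq hqM hA).symm z).ord y = z.ord y := by
      refine beta_symm_ord_of_fixed q (frobStable_FM A q M hq hqM hA) z y ?_
      have h1 : ((y : ↥(Fermat.Agent.BAD.H91.redM A M)) : LaurentSeries (kV A))
          = Fermat.Agent.BAD.H30.deltaR (kV A)
            * (qExpand (kV A) q (Fermat.Agent.BAD.H30.deltaR (kV A)))⁻¹ := by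
        rw [hy]
        exact Fermat.Agent.BAD.H30.gaussRes_unitF A (M * q) q (Dvd.intro_left M rfl)
      rw [h1, map_mul, map_inv₀, Fermat.Agent.BAD.H73.frobL_qExpand, hΔ]
    rw [e]
    exact hz.2 y hy

/-- **`nodeα`**: the point below a supersingular point along `α` is a node. -/
theorem nodeA (z : Place (kV A) (FM A M)) (hz : z ∈ Fermat.Agent.S36.NU.H74.ssM A q M) :
    (modTM A q M B k hB hq hqM hA ht).IsNode (zA A q M B k hB hq hA z) :=
  Fermat.Agent.BAD.H91.isNode_modT k B (hab_kB q M B k hB) hq hA hqM ht _ _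
    (Dvd.intro_left M rfl) z hz.1 hz.2

/-- **`nodeβ`**: the point below a supersingular point along `β` is a node. -/
theorem nodeB (z : Place (kV A) (FM A M)) (hz : z ∈ Fermat.Agent.S36.NU.H74.ssM A q M) :
    (modTM A q M B k hB hq hqM hA ht).IsNode (zB A q M B k hB hq hqM hA z) :=
  nodeA A q M B k hB hq hqM hA ht _ (betaM_symm_mem_ssM A q M hq hqM hA z hz)

include hB ht in
/-- **The supersingular points are fixed by `β²`.** -/
theorem betaM_betaM (z : Place (kV A) (FM A M)) (hz : z ∈ Fermat.Agent.S36.NU.H74.ssM A q M) :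
    betaM A q M hq hqM hA (betaM A q M hq hqM hA z) = z := by
  obtain ⟨σ, hσ⟩ := Fermat.Agent.Lib.FrobExists.exists_isFrobeniusAt q hq A hA
  have h := Fermat.Agent.S35.H30.sigmaFix_of Fermat.Agent.S35.H52.stmt_FrobRho A q M k B
    (hab_kB q M B k hB) hq hA hqM ht σ hσ (zA A q M B k hB hq hA z)
    (nodeA A q M B k hB hq hqM hA ht z hz)
  have h' : betaL A q M B k hB hq hA (betaL A q M B k hB hq hA (zA A q M B k hB hq hA z))
      = zA A q M B k hB hq hA z := h
  have h2 := congrArg (kapM A q M B k hB hq hA) h'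
  rw [kapM_betaL A q M B k hB hq hqM hA, kapM_betaL A q M B k hB hq hqM hA, zA_def,
    Equiv.apply_symm_apply] at h2
  exact h2

/-! ### The points of the components lie over the branches of the nodes -/

/-- The element of the residue field of level `M` with the same series as `y`. -/
def toFM (y : F1 A q M) : FM A M :=
  (Fermat.Agent.BAD.H23.eRed A q M k B (hab_kB q M B k hB) hq hA).symm y

theorem coe_toFM (y : F1 A q M) :
    ((toFM A q M B k hB hq hA y : FM A M) : LaurentSeries (kV A))
      = (y : LaurentSeries (kV A)) := by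
  have h := Fermat.Agent.BAD.H23.coe_eRed A q M k B (hab_kB q M B k hB) hq hA
    (toFM A q M B k hB hq hA y)
  rw [← h]
  unfold toFM
  rw [AlgEquiv.apply_symm_apply]

/-- **`ptA₂₀`, `ptA₁₁`**: for `j` the identity on series. -/
theorem ptA_id (j : F1 A q M → FM A M)
    (hj : ∀ y, ((j y : FM A M) : LaurentSeries (kV A)) = (y : LaurentSeries (kV A)))
    (z : Place (kV A) (FM A M)) (y : F1 A q M) (a : kV A)
    (h : HasValue z (j y) a) : HasValue (zA A q M B k hB hq hA z) y a :=
  (hasValue_kapM_symm A q M B k hB hq hA z y (j y) (hj y).symm a).mpr h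

/-- **`ptA₀₂`**: for `j = Fr` on series; the point of the third component is `β² z`. -/
theorem ptA_Fr (j : F1 A q M → FM A M)
    (hj : ∀ y, ((j y : FM A M) : LaurentSeries (kV A))
      = qExpand (kV A) q (y : LaurentSeries (kV A)))
    (z : Place (kV A) (FM A M)) (y : F1 A q M) (a : kV A)
    (h : HasValue (betaM A q M hq hqM hA (betaM A q M hq hqM hA z)) (j y) a) :
    HasValue ((modTM A q M B k hB hq hqM hA ht).β (zA A q M B k hB hq hA z)) y a := by
  have e : j y = FrM A q M hq hqM hA (toFM A q M B k hB hq hA y) := by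
    apply Subtype.ext
    rw [hj, coe_FrM, coe_toFM]
  rw [e, hasValue_betaM_FrM] at h
  rw [modTM_beta, betaL_zA A q M B k hB hq hqM hA]
  exact (hasValue_kapM_symm A q M B k hB hq hA _ y _
    (coe_toFM A q M B k hB hq hA y).symm a).mpr h

/-- **`ptB₂₀`**: for `j = Fr` on series. -/
theorem ptB_Fr (j : F1 A q M → FM A M)
    (hj : ∀ y, ((j y : FM A M) : LaurentSeries (kV A))
      = qExpand (kV A) q (y : LaurentSeries (kV A)))
    (z : Place (kV A) (FM A M)) (y : F1 A q M) (a : kV A)
    (h : HasValue z (j y) a) : HasValue (zB A q M B k hB hq hqM hA z) y a := by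
  have e : j y = FrM A q M hq hqM hA (toFM A q M B k hB hq hA y) := by
    apply Subtype.ext
    rw [hj, coe_FrM, coe_toFM]
  have hz : z = betaM A q M hq hqM hA ((betaM A q M hq hqM hA).symm z) :=
    (Equiv.apply_symm_apply _ _).symm
  rw [e, hz, hasValue_betaM_FrM] at h
  rw [zB_def]
  exact (hasValue_kapM_symm A q M B k hB hq hA _ y _
    (coe_toFM A q M B k hB hq hA y).symm a).mpr h

/-- **`ptB₁₁`**: for `j` the identity on series. -/
theorem ptB_id (j : F1 A q M → FM A M)
    (hj : ∀ y, ((j y : FM A M) : LaurentSeries (kV A)) = (y : LaurentSeries (kV A)))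
    (z : Place (kV A) (FM A M)) (y : F1 A q M) (a : kV A)
    (h : HasValue z (j y) a) :
    HasValue ((modTM A q M B k hB hq hqM hA ht).β (zB A q M B k hB hq hqM hA z)) y a := by
  rw [modTM_beta, betaL_zB A q M B k hB hq hqM hA]
  exact ptA_id A q M B k hB hq hA j hj z y a h

/-- **`ptB₀₂`**: for `j` the identity on series, at a supersingular point (fixed by `β²`). -/
theorem ptB_id2 (j : F1 A q M → FM A M)
    (hj : ∀ y, ((j y : FM A M) : LaurentSeries (kV A)) = (y : LaurentSeries (kV A)))
    (z : Place (kV A) (FM A M)) (hz : z ∈ Fermat.Agent.S36.NU.H74.ssM A q M)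
    (y : F1 A q M) (a : kV A)
    (h : HasValue (betaM A q M hq hqM hA (betaM A q M hq hqM hA z)) (j y) a) :
    HasValue ((modTM A q M B k hB hq hqM hA ht).β (zB A q M B k hB hq hqM hA z)) y a := by
  rw [betaM_betaM A q M B k hB hq hqM hA ht z hz] at h
  exact ptB_id A q M B k hB hq hqM hA ht j hj z y a h

/-! ### Degrees -/

include hq hqM hA ht in
/-- **`deg_one`**: the points of the components have degree one. -/
theorem deg_ptM (i : Fin 3) (z : Place (kV A) (FM A M)) :
    @Place.deg (kV A) (kap3 (FM A M) (FM A M) i) _ _ (algkM A M i)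
      (ptM A q M hq hqM hA i z) = 1 := by
  haveI : IsAlgClosed (kV A) := isAlgClosed_kV A
  have H := (Fermat.Agent.RED.H17.ffHyp_of_isFF _ _
    (Fermat.Agent.BAD.H91.isFF_redM hq hqM ht hA)).deg_one
  fin_cases i
  · exact H _
  · exact H _
  · exact H _

end NmP

end Fermat.Agent.S36.NU.H23
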