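import Fermat.Agent.S36.NU.H16_LL
import Fermat.Agent.S36.NU.H79_B3

/-!
# S36 / NU-B, (M5) BRIDGE, part A (helper24): branches of a chart and points of the components

Pure bridge between the ring language of helper16 (`H16.Chart`, `H16.Branch`) and the
language of places of helper79 (`AlgebraicCurve.Place`, `RegAt`, `VanAt`, `HasValue`).

* `vanAt_iff_mem_nonunits` : `VanAt v x ↔ x ∈ v.toValuationSubring.nonunits`.
* `branch_mem_O_iff`, `branch_O_eq` : the valuation ring of a branch is determined by `(𝔪, i)`.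
* `branch_O_eq_of_le` : rank one: a valuation ring `≠ ⊤` above `b.O` is `b.O`.
* `branch_O_eq_place` : if `rdB i` of every function of `B` is regular at the point `v` of the
  component `i` and `𝔪` contains the functions vanishing at `v`, then `b.O` is the valuation
  ring of `v`.
* `ptIdeal` : the closed point of the chart below the point `v` of the component `i`;
  `ptIdeal_isMaximal` (residue field `k`), `Icomp_le_ptIdeal`.
* `branch_nonunits_of_hasValue` : (EQV) in the language of values.
-/

set_option autoImplicit false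
set_option linter.style.haveILetI false

noncomputable section

open AlgebraicCurve

attribute [local instance] Classical.propDecidable

namespace Fermat.Agent.S36.NU.H24

open Fermat.Agent.RED.H17 Fermat.Agent.RED Fermat.Agent.S36.NU.H16 Fermat.Agent.S36.NU.H79

/-! ## Places and non-units -/

section PlaceLemmas

variable {k E : Type*} [Field k] [Field E] [Algebra k E]

theorem vanAt_iff_mem_nonunits (v : Place k E) (x : E) :
    VanAt v x ↔ x ∈ v.toValuationSubring.nonunits := by
  rw [ValuationSubring.mem_nonunits_iff_exists_mem_maximalIdeal]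
  constructor
  · intro h
    have hx : x ∈ v.toValuationSubring := (regAt_iff_mem v x).1 h.regAt
    refine ⟨hx, ?_⟩
    rw [IsLocalRing.mem_maximalIdeal, mem_nonunits_iff, ← v.adicValuation_coe_eq_one_iff]
    exact ne_of_lt h
  · rintro ⟨hx, h⟩
    rw [IsLocalRing.mem_maximalIdeal, mem_nonunits_iff, ← v.adicValuation_coe_eq_one_iff] at h
    exact lt_of_le_of_ne ((regAt_iff_mem v x).2 hx) h

theorem not_vanAt_one (v : Place k E) : ¬ VanAt v (1 : E) := by
  unfold VanAt
  rw [map_one]
  exact lt_irrefl _

/-- A function regular and not vanishing at `v` has its inverse regular at `v`. -/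
theorem inv_mem_of_regAt_not_vanAt (v : Place k E) {x : E} (hr : RegAt v x) (hv : ¬ VanAt v x) :
    x⁻¹ ∈ v.toValuationSubring := by
  have hx : x ∈ v.toValuationSubring := (regAt_iff_mem v x).1 hr
  have h1 : v.toValuationSubring.valuation x ≤ 1 :=
    (v.toValuationSubring.valuation_le_one_iff x).2 hx
  have h2 : ¬ v.toValuationSubring.valuation x < 1 := fun h =>
    hv ((vanAt_iff_mem_nonunits v x).2 ((ValuationSubring.mem_nonunits_iff _).2 h))
  have h3 : v.toValuationSubring.valuation x = 1 := le_antisymm h1 (not_lt.1 h2)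
  rw [← ValuationSubring.valuation_le_one_iff, map_inv₀, h3, inv_one]

end PlaceLemmas

/-! ## Branches -/

section BranchLemmas

variable {R F k ι : Type*} {κ : ι → Type*} [CommRing R] [Field F] [Algebra R F]
  [Field k] [∀ i, Field (κ i)] [∀ i, Algebra k (κ i)]
  {C : Chart R F k ι κ} {𝔪 : Ideal C.B} {i : ι}

theorem branch_mem_O_iff (b : Branch C 𝔪 i) (y : κ i) :
    y ∈ b.O ↔ ∃ b' β : C.B, β ∉ 𝔪 ∧ C.rdB i b' = y * C.rdB i β := by
  constructor
  · exact b.normal y
  · rintro ⟨b', β, hβ, h⟩
    have h1 := b.val_rdB_eq_one hβ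
    have h2 : b.O.valuation (C.rdB i b') ≤ 1 := (b.O.valuation_le_one_iff _).2 (b.reg b')
    rw [h, map_mul, h1, mul_one] at h2
    exact (b.O.valuation_le_one_iff _).1 h2

/-- The valuation ring of a branch is determined by the closed point and the component. -/
theorem branch_O_eq (b b' : Branch C 𝔪 i) : b.O = b'.O := by
  ext y
  rw [branch_mem_O_iff, branch_mem_O_iff]

/-- Rank one: the only valuation ring `≠ ⊤` above the valuation ring of a branch is itself. -/
theorem branch_O_eq_of_le (b : Branch C 𝔪 i) (O' : ValuationSubring (κ i)) (hO' : O' ≠ ⊤)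
    (hle : b.O ≤ O') : b.O = O' := by
  refine le_antisymm hle fun y hy => ?_
  by_contra hyO
  have hy0 : y ≠ 0 := by
    rintro rfl
    exact hyO (zero_mem _)
  have hnu : y⁻¹ ∈ b.O.nonunits := by
    rw [ValuationSubring.mem_nonunits_iff, map_inv₀]
    have h1 : ¬ b.O.valuation y ≤ 1 := fun h => hyO ((b.O.valuation_le_one_iff y).1 h)
    have h2 : 1 < b.O.valuation y := not_le.1 h1
    exact inv_lt_one_of_one_lt₀ h2
  obtain ⟨w, hw⟩ : ∃ w, w ∉ O' := by
    by_contra hcon
    push Not at hcon
    exact hO' (eq_top_iff.2 fun x _ => hcon x)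
  have hw0 : w ≠ 0 := by
    rintro rfl
    exact hw (zero_mem _)
  obtain ⟨N, hN⟩ := b.arch _ hnu w⁻¹ (inv_ne_zero hw0)
  have h1 : (y⁻¹) ^ N * (w⁻¹)⁻¹ ∈ O' := hle (hN N le_rfl)
  rw [inv_inv] at h1
  have h2 : y ^ N * ((y⁻¹) ^ N * w) ∈ O' := mul_mem (pow_mem hy N) h1
  have h3 : y ^ N * ((y⁻¹) ^ N * w) = w := by
    rw [← mul_assoc, ← mul_pow, mul_inv_cancel₀ hy0, one_pow, one_mul]
  rw [h3] at h2
  exact hw h2

/-- The valuation ring of the branch is the valuation ring of the point `v` of the component. -/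
theorem branch_O_eq_place (b : Branch C 𝔪 i) (v : Place k (κ i))
    (hreg : ∀ β : C.B, RegAt v (C.rdB i β))
    (hvan : ∀ β : C.B, VanAt v (C.rdB i β) → β ∈ 𝔪) : b.O = v.toValuationSubring := by
  refine branch_O_eq_of_le b _ v.ne_top' fun y hy => ?_
  obtain ⟨b', β, hβ, h⟩ := b.normal y hy
  have h2 : ¬ VanAt v (C.rdB i β) := fun hv => hβ (hvan β hv)
  have h3 := inv_mem_of_regAt_not_vanAt v (hreg β) h2
  have h0 : C.rdB i β ≠ 0 := by
    intro h0
    apply h2
    rw [h0]
    exact vanAt_zero v
  have h4 : y = C.rdB i b' * (C.rdB i β)⁻¹ := by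
    rw [h, mul_assoc, mul_inv_cancel₀ h0, mul_one]
  rw [h4]
  exact mul_mem ((regAt_iff_mem v _).1 (hreg b')) h3

/-- (EQV) in the language of values. -/
theorem branch_nonunits_of_hasValue (b : Branch C 𝔪 i) (v : Place k (κ i))
    (hO : b.O = v.toValuationSubring) {f : κ i} {c : k} (h : HasValue v f c) :
    f - algebraMap k (κ i) c ∈ b.O.nonunits := by
  rw [hO]
  exact (vanAt_iff_mem_nonunits v _).1 h

end BranchLemmas

/-! ## The closed point of the chart below a point of a component -/

section PtIdeal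

variable {R F k ι : Type*} {κ : ι → Type*} [CommRing R] [Field F] [Algebra R F]
  [Field k] [∀ i, Field (κ i)] [∀ i, Algebra k (κ i)]
  (C : Chart R F k ι κ) (i : ι) (v : Place k (κ i))

/-- The closed point of the chart below the point `v` of the component `i`
(the functions of `B` whose reduction vanishes at `v`). -/
def ptIdeal (hreg : ∀ β : C.B, RegAt v (C.rdB i β)) : Ideal C.B where
  carrier := {β | VanAt v (C.rdB i β)}
  add_mem' := by
    intro a b ha hb
    simp only [Set.mem_ofPred_eq, map_add] at *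
    exact ha.add hb
  zero_mem' := by
    simp only [Set.mem_ofPred_eq, map_zero]
    exact vanAt_zero v
  smul_mem' := by
    intro c x hx
    simp only [smul_eq_mul, map_mul, Set.mem_ofPred_eq] at *
    exact (hreg c).mul_vanAt hx

variable {C i v}

theorem mem_ptIdeal (hreg : ∀ β : C.B, RegAt v (C.rdB i β)) (β : C.B) :
    β ∈ ptIdeal C i v hreg ↔ VanAt v (C.rdB i β) := Iff.rfl

theorem Icomp_le_ptIdeal (hreg : ∀ β : C.B, RegAt v (C.rdB i β)) :
    C.Icomp i ≤ ptIdeal C i v hreg := by
  intro β hβ
  rw [mem_ptIdeal, (C.mem_Icomp i β).1 hβ]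
  exact vanAt_zero v

theorem rdB_algebraMap' (r : R) :
    C.rdB i (algebraMap R C.B r) = algebraMap k (κ i) (C.res r) := by
  rw [← C.rd_coe]
  exact C.rd_algebraMap i r

/-- The closed point below a point of degree one is a maximal ideal. -/
theorem ptIdeal_isMaximal (hreg : ∀ β : C.B, RegAt v (C.rdB i β)) (hdeg : v.deg = 1) :
    (ptIdeal C i v hreg).IsMaximal := by
  rw [Ideal.isMaximal_iff]
  refine ⟨?_, fun J x hIJ hx hxJ => ?_⟩
  · rw [mem_ptIdeal, map_one]
    exact not_vanAt_one v
  · obtain ⟨c, hc⟩ := exists_value v hdeg (hreg x)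
    have hc0 : c ≠ 0 := by
      rintro rfl
      apply hx
      rw [mem_ptIdeal]
      rwa [map_zero, sub_zero] at hc
    obtain ⟨r, hr⟩ := C.res_surj c
    obtain ⟨r', hr'⟩ := C.res_surj c⁻¹
    have h1 : x - algebraMap R C.B r ∈ ptIdeal C i v hreg := by
      rw [mem_ptIdeal, map_sub, rdB_algebraMap', hr]
      exact hc
    have h2 : algebraMap R C.B r ∈ J := by
      have : algebraMap R C.B r = x - (x - algebraMap R C.B r) := by ring
      rw [this]
      exact J.sub_mem hxJ (hIJ h1)
    have h3 : algebraMap R C.B r * algebraMap R C.B r' - 1 ∈ ptIdeal C i v hreg := by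
      rw [mem_ptIdeal, map_sub, map_mul, rdB_algebraMap', rdB_algebraMap', hr, hr', map_one,
        ← map_mul, mul_inv_cancel₀ hc0, map_one, sub_self]
      exact vanAt_zero v
    have h4 : (1 : C.B) = algebraMap R C.B r * algebraMap R C.B r'
        - (algebraMap R C.B r * algebraMap R C.B r' - 1) := by ring
    rw [h4]
    exact J.sub_mem (J.mul_mem_right _ h2) (hIJ h3)

end PtIdeal

end Fermat.Agent.S36.NU.H24
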