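import Fermat.Agent.S36.NU.H24_BridgeA

/-!
# S36 / NU-B, (M5) BRIDGE, part B (helper24): `H16.Chart` <-> `H79.TotN` / `H79.NUData`

`C : Chart R F k ι κ` (helper16) and `T : TotN K F L k ι Z κ` (helper79) on the SAME field `F`
(modular: the `I`-fixed functions), with the same valuation rings and reductions (`Compat`).

* `Compat`, `InChart C T z` (`z` is a point of the chart: no function of `B` has a pole on the
  fibre of `z`), `Glued T z` (GLUE3 at `z`, = `NUData.glue` at a triple point).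
* (i)  `ptMax` : the closed point `𝔪_z` of the chart, `ptMax_isMaximal`, `mem_ptMax_iff`
  (independent of the component), `Icomp_le_ptMax`, `branch_O_eq_pt`.
* (ii) `isGen_of_reg` : REG in the form of helper16 (`h sⁿ ∈ B ∖ 𝔪_z`) gives `NUData.IsGen`.
* (iii) `gOf`, `root_g_of_trivRed`, `eqv_of_trivRed` : from `NUData.TrivRed` to the residues
  `g i` of `Setup` and (EQV) at the triple points.
-/

set_option autoImplicit false
set_option linter.style.haveILetI false

noncomputable section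

open AlgebraicCurve

attribute [local instance] Classical.propDecidable

namespace Fermat.Agent.S36.NU.H24

open Fermat.Agent.RED.H17 Fermat.Agent.RED Fermat.Agent.S36.NU.H16 Fermat.Agent.S36.NU.H79

variable {R F k ι Z K L : Type*} {κ : ι → Type*} [CommRing R] [Field F] [Algebra R F]
  [Field k] [∀ i, Field (κ i)] [∀ i, Algebra k (κ i)] [Fintype ι]
  [Field K] [Field L] [Algebra K L] [Algebra F L]

/-- **Compatibility** of a chart with a conservation datum: the same valuation rings and the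
same reductions. -/
structure Compat (C : Chart R F k ι κ) (T : TotN K F L k ι Z κ) : Prop where
  hV : ∀ i, C.V i = T.V i
  hrd : ∀ (i : ι) (x : F), C.rd i x = T.rdN i x

/-- `z` is a point of the chart: no function of `B` has a pole on the fibre of `z`. -/
def InChart (C : Chart R F k ι κ) (T : TotN K F L k ι Z κ) (z : Z) : Prop :=
  ∀ β : C.B, ∀ P, T.ρ P = z → RegAt P (algebraMap F L (β : F))

/-- GLUE3 at `z`: the reductions of a function of `R_z` take the same value at `z`. -/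
def Glued (T : TotN K F L k ι Z κ) (z : Z) : Prop :=
  ∀ f : F, T.InR z f → ∀ (i j : ι) (c : k),
    HasValue (T.pt i z) (T.rdN i f) c ↔ HasValue (T.pt j z) (T.rdN j f) c

variable {C : Chart R F k ι κ} {T : TotN K F L k ι Z κ}

theorem Compat.mem_V (hc : Compat C T) (i : ι) (β : C.B) : (β : F) ∈ T.V i := by
  rw [← hc.hV]
  exact C.B_le i _ β.2

theorem Compat.rdB_eq (hc : Compat C T) (i : ι) (β : C.B) : C.rdB i β = T.rdN i (β : F) := by
  rw [← C.rd_coe, hc.hrd]

theorem Compat.inR (hc : Compat C T) {z : Z} (hz : InChart C T z) (β : C.B) :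
    T.InR z (β : F) := ⟨fun i => hc.mem_V i β, hz β⟩

theorem Compat.regAt_rdB [Infinite k] (hc : Compat C T) (hP : HasPrincipalDivisors K L) {z : Z}
    (hz : InChart C T z) (i : ι) (β : C.B) : RegAt (T.pt i z) (C.rdB i β) := by
  rw [hc.rdB_eq]
  exact (hc.inR hz β).regAt hP i

theorem hasValue_zero_iff {E : Type*} [Field E] [Algebra k E] (v : Place k E) (f : E) :
    HasValue v f 0 ↔ VanAt v f := by
  unfold HasValue
  rw [map_zero, sub_zero]

theorem Glued.vanAt_iff {z : Z} (hg : Glued T z) {f : F} (hf : T.InR z f) (i j : ι) :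
    VanAt (T.pt i z) (T.rdN i f) ↔ VanAt (T.pt j z) (T.rdN j f) := by
  rw [← hasValue_zero_iff, ← hasValue_zero_iff]
  exact hg f hf i j 0

/-! ## (i) the closed point `𝔪_z` -/

/-- The closed point `𝔪_z` of the chart (defined with the component `i`). -/
def ptMax [Infinite k] (hc : Compat C T) (hP : HasPrincipalDivisors K L) {z : Z}
    (hz : InChart C T z) (i : ι) : Ideal C.B :=
  ptIdeal C i (T.pt i z) (hc.regAt_rdB hP hz i)

theorem mem_ptMax [Infinite k] (hc : Compat C T) (hP : HasPrincipalDivisors K L) {z : Z}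
    (hz : InChart C T z) (i : ι) (β : C.B) :
    β ∈ ptMax hc hP hz i ↔ VanAt (T.pt i z) (C.rdB i β) := Iff.rfl

/-- `𝔪_z` does not depend on the component. -/
theorem mem_ptMax_iff [Infinite k] (hc : Compat C T) (hP : HasPrincipalDivisors K L) {z : Z}
    (hz : InChart C T z) (hg : Glued T z) (i j : ι) (β : C.B) :
    β ∈ ptMax hc hP hz i ↔ VanAt (T.pt j z) (C.rdB j β) := by
  rw [mem_ptMax, hc.rdB_eq, hc.rdB_eq]
  exact hg.vanAt_iff (hc.inR hz β) i j

theorem ptMax_eq [Infinite k] (hc : Compat C T) (hP : HasPrincipalDivisors K L) {z : Z}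
    (hz : InChart C T z) (hg : Glued T z) (i j : ι) : ptMax hc hP hz i = ptMax hc hP hz j := by
  ext β
  rw [mem_ptMax_iff hc hP hz hg i j, mem_ptMax]

theorem ptMax_isMaximal [Infinite k] (hc : Compat C T) (hP : HasPrincipalDivisors K L) {z : Z}
    (hz : InChart C T z) (i : ι) (hdeg : (T.pt i z).deg = 1) :
    (ptMax hc hP hz i).IsMaximal :=
  ptIdeal_isMaximal _ hdeg

/-- All components pass through `𝔪_z`. -/
theorem Icomp_le_ptMax [Infinite k] (hc : Compat C T) (hP : HasPrincipalDivisors K L) {z : Z}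
    (hz : InChart C T z) (hg : Glued T z) (i j : ι) : C.Icomp j ≤ ptMax hc hP hz i := by
  rw [ptMax_eq hc hP hz hg i j]
  exact Icomp_le_ptIdeal _

/-- A closed point `𝔪` of the chart whose functions are those vanishing at `z` (for one
component): the valuation ring of every branch is the valuation ring of the point `pt j z`. -/
theorem branch_O_eq_pt [Infinite k] (hc : Compat C T) (hP : HasPrincipalDivisors K L) {z : Z}
    (hz : InChart C T z) (hg : Glued T z) {𝔪 : Ideal C.B} (i : ι)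
    (h𝔪 : ∀ β : C.B, β ∈ 𝔪 ↔ VanAt (T.pt i z) (C.rdB i β)) (j : ι) (b : Branch C 𝔪 j) :
    b.O = (T.pt j z).toValuationSubring := by
  refine branch_O_eq_place b _ (hc.regAt_rdB hP hz j) fun β hβ => ?_
  rw [h𝔪, hc.rdB_eq]
  rw [hc.rdB_eq] at hβ
  exact (hg.vanAt_iff (hc.inR hz β) j i).1 hβ

/-! ## (ii) REG gives `IsGen` -/

/-- **(ii)** a local generator in the sense of helper16 (`h sⁿ ∈ B`, not vanishing at `z` on one
component) is a local generator in the sense of helper79. -/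
theorem isGen_of_reg [Infinite k] (hc : Compat C T) (hP : HasPrincipalDivisors K L) {z : Z}
    (hz : InChart C T z) (hg : Glued T z) {n : ℕ} (hn : 0 < n) {h s : F}
    (hu : ∀ i, T.rdN i h ≠ 0) (hs : h * s ^ n ∈ C.B) (i₀ : ι)
    (hnv : ¬ VanAt (T.pt i₀ z) (C.rdB i₀ ⟨h * s ^ n, hs⟩)) :
    (∀ i, T.rdN i s ≠ 0) ∧ ∀ P, T.ρ P = z → P.ord (algebraMap F L (h * s ^ n)) = 0 := by
  have hR : T.InR z (h * s ^ n) := hc.inR hz ⟨h * s ^ n, hs⟩
  have hnv' : ∀ i, ¬ VanAt (T.pt i z) (T.rdN i (h * s ^ n)) := by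
    intro i hv
    apply hnv
    rw [hc.rdB_eq]
    exact (hg.vanAt_iff hR i i₀).1 hv
  have hsV : ∀ i, s ∈ T.V i := by
    intro i
    have h1 : s ^ n ∈ T.V i := by
      have h2 : s ^ n = h⁻¹ * (h * s ^ n) := by
        rw [← mul_assoc, inv_mul_cancel₀ (fun h0 => hu i (by
          rw [h0, T.rdN_of_mem (T.V i).zero_mem]
          exact map_zero (T.red i))), one_mul]
      rw [h2]
      exact (T.V i).mul_mem _ _ (T.inv_mem_of_rdN_ne_zero (hu i)) (hR.1 i)
    rw [← ValuationSubring.valuation_le_one_iff] at h1 ⊢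
    rw [map_pow] at h1
    exact (pow_le_one_iff_of_nonneg zero_le hn.ne').1 h1
  refine ⟨fun i h0 => hnv' i ?_, fun P hPz => ?_⟩
  · rw [T.rdN_mul (T.mem_of_rdN_ne_zero (hu i)) ((T.V i).pow_mem (hsV i) n),
      T.rdN_pow (hsV i), h0, zero_pow hn.ne', mul_zero]
    exact vanAt_zero _
  · refine T.ord_eq_zero_of_not_vanAt hP hR.1 hR.2 (fun i hv => hnv' i ?_) hPz
    rw [T.rdN_of_mem (hR.1 i)]
    exact hv

/-! ## (iii) from `TrivRed` to the residues `g i` and (EQV) -/

section Triv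

variable {K' L' L₁ L₂ : Type*} [Field K'] [Field L'] [Algebra K' L'] [Field L₁] [Algebra k L₁]
  [Field L₂] [Algebra k L₂] (D : NUData K F L k ι Z κ K' L' L₁ L₂)

/-- The residues `g i = (γ G i)⁻¹`. -/
def gOf (γ : k) (G : ∀ i, κ i) : ∀ i, κ i := fun i => (algebraMap k (κ i) γ * G i)⁻¹

/-- `g i ^ n * rd i H = 1` when `rd i H = γⁿ G i ^ n ≠ 0`. -/
theorem root_g_of_red {n : ℕ} {H : F} {γ : k} {G : ∀ i, κ i} (i : ι)
    (hu : D.T.rdN i H ≠ 0)
    (hred : D.T.rdN i H = algebraMap k (κ i) (γ ^ n) * G i ^ n) :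
    gOf γ G i ^ n * D.T.rdN i H = 1 := by
  have h1 : algebraMap k (κ i) (γ ^ n) * G i ^ n = (algebraMap k (κ i) γ * G i) ^ n := by
    rw [map_pow, mul_pow]
  rw [h1] at hred
  have h2 : (algebraMap k (κ i) γ * G i) ^ n ≠ 0 := by
    rw [← hred]
    exact hu
  unfold gOf
  rw [hred, inv_pow, inv_mul_cancel₀ h2]

/-- (EQV) at a triple point, in the language of values. -/
theorem eqv_of_val {z : Z} (hdeg : ∀ i, (D.T.pt i z).deg = 1) {γ : k} (hγ : γ ≠ 0)
    {G : ∀ i, κ i} {s : F} {a : k} (ha : a ≠ 0)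
    (hval : ∀ i, HasValue (D.T.pt i z) (G i * D.T.rdN i s) a) (i : ι) :
    HasValue (D.T.pt i z) (gOf γ G i * (D.T.rdN i s)⁻¹) (γ * a)⁻¹ := by
  have h1 : HasValue (D.T.pt i z) (algebraMap k (κ i) γ * (G i * D.T.rdN i s)) (γ * a) :=
    (hval i).const_mul γ
  have h2 := h1.inv (hdeg i) (mul_ne_zero hγ ha)
  have h3 : gOf γ G i * (D.T.rdN i s)⁻¹ = (algebraMap k (κ i) γ * (G i * D.T.rdN i s))⁻¹ := by
    unfold gOf
    rw [← mul_inv, mul_assoc]
  rw [h3]
  exact h2

/-- **(iii)** from the trivial reduction data of `H` (helper79's `TrivRed`) to the residues `g`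
with `g i ^ n * rd i H = 1` and (EQV) at all triple points. -/
theorem exists_g_of_trivRed {n : ℕ} (hn : n ≠ 0) (hroot : ∀ c : k, ∃ γ : k, γ ^ n = c) {H : F}
    (hu : ∀ i, D.T.rdN i H ≠ 0) (ht : D.TrivRed n H) :
    ∃ g : ∀ i, κ i, (∀ i, g i ^ n * D.T.rdN i H = 1) ∧
      ∀ z ∈ D.SS, ∀ s : F, D.IsGen n z H s →
        ∃ c : k, ∀ i, HasValue (D.T.pt i z) (g i * (D.T.rdN i s)⁻¹) c := by
  obtain ⟨c, G, hc0, hred, hval⟩ := ht
  obtain ⟨γ, hγ⟩ := hroot c
  have hγ0 : γ ≠ 0 := by
    rintro rfl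
    rw [zero_pow hn] at hγ
    exact hc0 hγ.symm
  subst hγ
  refine ⟨gOf γ G, fun i => root_g_of_red D i (hu i) (hred i), fun z hz s hs => ?_⟩
  obtain ⟨a, ha, hv⟩ := hval z hz s hs
  exact ⟨(γ * a)⁻¹, fun i => eqv_of_val D (D.deg_one z hz) hγ0 ha hv i⟩

end Triv

end Fermat.Agent.S36.NU.H24
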