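import Fermat.Agent.S36.NU.H65_TIMain
import Fermat.Agent.S36.NU.H16_Patch

/-!
# S36 / NU-B, TI3: ASSEMBLE (helper65)

From the two charts of helper16's local side (`H16.Chart`, `H16.Setup`) to `ti3_main`.

* `rd_section_sub_one` : `rd (h aⁿ - 1) = 0` when `rd a = g`.
* `isRadQ_locSub` : RADQ for the overlap `B0[1/j]` follows from RADQ for `B0`.
* `ti3_of_charts` : charts `C0` (`B` = integral closure of `R[j]`), `Coo` (`R[1/j]`) with the same
  components, sections `a`, `b` with residues `g` (output of `H16.patch`), RADQ for both charts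
  ⟹  `s ≠ 0` with `h sⁿ` integral over `R[j]` and `R[1/j]`.
* `ti3_const` : ... hence `h sⁿ` is integral over `R` (a constant).
-/

set_option autoImplicit false

namespace Fermat.Agent.S36.NU.H65

open Fermat.Agent.S36.NU.H16 Fermat.Agent.S36.NU.H17

variable {R F k ι : Type*} {κ : ι → Type*} [CommRing R] [Field F] [Algebra R F]
  [Field k] [∀ i, Field (κ i)] [∀ i, Algebra k (κ i)]

/-- Residue of `h sⁿ - 1` when `rd s = g`. -/
theorem rd_section_sub_one {C : Chart R F k ι κ} {qn n : ℕ} {h : F} {g : ∀ i, κ i}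
    (S : Setup C qn n h g) {a : F} (ha : h * a ^ n ∈ C.B) (hra : ∀ i, C.rd i a = g i) (i : ι) :
    C.rd i (h * a ^ n - 1) = 0 := by
  have haV := S.mem_V i ha
  rw [C.rd_sub i (mul_mem (S.h_mem i) (pow_mem haV n)) (one_mem _),
    C.rd_mul i (S.h_mem i) (pow_mem haV n), C.rd_pow i haV, hra, C.rd_one, mul_comm, S.root_g,
    sub_self]

/-- **RADQ for the overlap** follows from RADQ for the chart. -/
theorem isRadQ_locSub (C : Chart R F k ι κ) (q : R) (j : F) (hjB : j ∈ C.B) (hj : j ≠ 0)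
    (hrad : ∀ β ∈ C.B, (∀ i, C.rd i β = 0) → IsRadQ C.B q β)
    {β : F} (hβ : β ∈ locSub C.B j hjB) (hβV : ∀ i, β ∈ C.V i) (hβ0 : ∀ i, C.rd i β = 0) :
    IsRadQ (locSub C.B j hjB) q β := by
  obtain ⟨K, hK⟩ := hβ
  have h0 : ∀ i, C.rd i (j ^ K * β) = 0 := by
    intro i
    rw [C.rd_mul i (pow_mem (C.B_le i _ hjB) K) (hβV i), hβ0, mul_zero]
  obtain ⟨e, z, hz, hez⟩ := hrad _ hK h0
  refine ⟨e, j⁻¹ ^ (K * e) * z, ⟨K * e, ?_⟩, ?_⟩
  · rw [← mul_assoc, ← mul_pow, mul_inv_cancel₀ hj, one_pow, one_mul]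
    exact hz
  · have h1 : β ^ e = j⁻¹ ^ (K * e) * (j ^ K * β) ^ e := by
      rw [mul_pow, ← pow_mul, ← mul_assoc, ← mul_pow, inv_mul_cancel₀ hj, one_pow, one_mul]
    rw [h1, hez, mul_smul_comm]

/-- **ASSEMBLE**: from the two charts (`B0` = integral closure of `R[j]`, `Boo` = integral closure of
`R[1/j]`, same components), sections `a`, `b` with residues `g` (the output of `H16.patch`), and RADQ
(elements of `B` vanishing on all components are nilpotent modulo `q`), to the conclusion of TI3. -/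
theorem ti3_of_charts [IsNoetherianRing R] (C0 Coo : Chart R F k ι κ) (qn n : ℕ) (h : F)
    (g : ∀ i, κ i) (S0 : Setup C0 qn n h g) (Soo : Setup Coo qn n h g)
    (j : F) (hj : j ≠ 0) (hB0 : C0.B = intSub R j) (hBoo : Coo.B = intSub R j⁻¹)
    (hV : ∀ i, C0.V i = Coo.V i) (hrd : ∀ i x, C0.rd i x = Coo.rd i x)
    (q : R) (hq : algebraMap R F q ≠ 0) (n' : R) (hnn : (n : R) * n' = 1)
    (hfg : (MInt R j⁻¹ h n S0.n_pos).FG)
    (hunit : ¬ ∃ z : F, IsIntegral ↥(Algebra.adjoin R {j}) z ∧ (1 : F) = q • z)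
    (hrad0 : ∀ β ∈ C0.B, (∀ i, C0.rd i β = 0) → IsRadQ C0.B q β)
    (hradoo : ∀ β ∈ Coo.B, (∀ i, Coo.rd i β = 0) → IsRadQ Coo.B q β)
    (a b : F) (ha : h * a ^ n ∈ C0.B) (hra : ∀ i, C0.rd i a = g i)
    (hb : h * b ^ n ∈ Coo.B) (hrb : ∀ i, Coo.rd i b = g i) :
    ∃ s : F, s ≠ 0 ∧ IsIntegral ↥(Algebra.adjoin R {j}) (h * s ^ n) ∧
      IsIntegral ↥(Algebra.adjoin R {j⁻¹}) (h * s ^ n) := by
  have hn := S0.n_pos
  have hjB0 : j ∈ C0.B := by rw [hB0]; exact self_mem_intSub R j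
  -- the three radical conditions
  have h1 : IsRadQ C0.B q (h * a ^ n - 1) :=
    hrad0 _ (C0.B.sub_mem ha C0.B.one_mem) (rd_section_sub_one S0 ha hra)
  have h2 : IsRadQ Coo.B q (h * b ^ n - 1) :=
    hradoo _ (Coo.B.sub_mem hb Coo.B.one_mem) (rd_section_sub_one Soo hb hrb)
  have haV : ∀ i, a ∈ C0.V i := fun i => S0.mem_V i ha
  have hbV : ∀ i, b ∈ C0.V i := fun i => by rw [hV]; exact Soo.mem_V i hb
  have hoole : Coo.B ≤ locSub C0.B j hjB0 := by
    intro x hx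
    rw [hBoo] at hx
    obtain ⟨e₀, he₀⟩ := exists_pow_inv_mul_isIntegral (R := R) (inv_ne_zero hj) hx
    have := he₀ e₀ le_rfl
    rw [inv_inv] at this
    refine ⟨e₀, ?_⟩
    rw [hB0]
    exact this
  have hroot : ∀ x : F, x ^ n ∈ locSub C0.B j hjB0 → x ∈ locSub C0.B j hjB0 :=
    root_mem_locSub _ _ _ hn S0.root
  have h1n : h * a * b ^ (n - 1) ∈ locSub C0.B j hjB0 := by
    have := mixed_mem (locSub C0.B j hjB0) h n hroot (le_locSub _ _ _ ha) (hoole hb) 1 (n - 1)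
      (by omega)
    simpa using this
  have hmemV : ∀ i, h * a * b ^ (n - 1) ∈ C0.V i := fun i =>
    mul_mem (mul_mem (S0.h_mem i) (haV i)) (pow_mem (hbV i) _)
  have h3 : IsRadQ (locSub C0.B j hjB0) q (h * a * b ^ (n - 1) - 1) := by
    refine isRadQ_locSub C0 q j hjB0 hj hrad0 ((locSub C0.B j hjB0).sub_mem h1n
      (locSub C0.B j hjB0).one_mem) (fun i => sub_mem (hmemV i) (one_mem _)) (fun i => ?_)
    rw [C0.rd_sub i (hmemV i) (one_mem _), C0.rd_mul i (mul_mem (S0.h_mem i) (haV i))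
      (pow_mem (hbV i) _), C0.rd_mul i (S0.h_mem i) (haV i), C0.rd_pow i (hbV i), hra, hrd i b,
      hrb, C0.rd_one]
    have : C0.rd i h * g i * g i ^ (n - 1) = g i ^ n * C0.rd i h := by
      obtain ⟨m, hm⟩ := Nat.exists_eq_add_of_le (Nat.succ_le_of_lt hn)
      have : n - 1 = m := by omega
      rw [this, hm, pow_add]
      simp only [Nat.succ_eq_add_one, zero_add, pow_one]
      ring
    rw [this, S0.root_g, sub_self]
  obtain ⟨e1, z1, hz1, he1⟩ := h1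
  obtain ⟨e2, z2, hz2, he2⟩ := h2
  obtain ⟨e3, z3, ⟨K, hK⟩, he3⟩ := h3
  rw [hB0] at hz1 hK ha
  rw [hBoo] at hz2 hb
  exact ti3_main q hq n hn n' hnn j hj h hfg hunit a b ha hb ⟨e1, z1, hz1, he1⟩
    ⟨e2, z2, hz2, he2⟩ ⟨e3, z3, ⟨K, hK⟩, he3⟩

/-- **TI3, final form**: under the hypotheses of `ti3_of_charts`, with `R` integrally closed and `j`
transcendental over `K = Frac R`, there is `s ≠ 0` with `h sⁿ` integral over `R`. -/
theorem ti3_const [IsNoetherianRing R] [IsDomain R] [IsIntegrallyClosed R] (K : Type*) [Field K]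
    [Algebra R K] [IsFractionRing R K] [Algebra K F] [IsScalarTower R K F]
    (C0 Coo : Chart R F k ι κ) (qn n : ℕ) (h : F)
    (g : ∀ i, κ i) (S0 : Setup C0 qn n h g) (Soo : Setup Coo qn n h g)
    (j : F) (hjt : Transcendental K j) (hB0 : C0.B = intSub R j) (hBoo : Coo.B = intSub R j⁻¹)
    (hV : ∀ i, C0.V i = Coo.V i) (hrd : ∀ i x, C0.rd i x = Coo.rd i x)
    (q : R) (hq0 : q ≠ 0) (hqu : ¬ IsUnit q) (n' : R) (hnn : (n : R) * n' = 1)
    (hfg : (MInt R j⁻¹ h n S0.n_pos).FG)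
    (hrad0 : ∀ β ∈ C0.B, (∀ i, C0.rd i β = 0) → IsRadQ C0.B q β)
    (hradoo : ∀ β ∈ Coo.B, (∀ i, Coo.rd i β = 0) → IsRadQ Coo.B q β)
    (a b : F) (ha : h * a ^ n ∈ C0.B) (hra : ∀ i, C0.rd i a = g i)
    (hb : h * b ^ n ∈ Coo.B) (hrb : ∀ i, Coo.rd i b = g i) :
    ∃ s : F, s ≠ 0 ∧ IsIntegral R (h * s ^ n) := by
  have hj : j ≠ 0 := by
    rintro rfl
    exact hjt isAlgebraic_zero
  have hjR : Transcendental R j :=
    Transcendental.restrictScalars (IsFractionRing.injective R K) hjt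
  have hq : algebraMap R F q ≠ 0 := by
    rw [IsScalarTower.algebraMap_apply R K F]
    exact (map_ne_zero _).2 ((map_ne_zero_iff _ (IsFractionRing.injective R K)).2 hq0)
  obtain ⟨s, hs, h1, h2⟩ := ti3_of_charts C0 Coo qn n h g S0 Soo j hj hB0 hBoo hV hrd q hq n' hnn
    hfg (not_unit_intSub q hqu j hjR) hrad0 hradoo a b ha hra hb hrb
  exact ⟨s, hs, isIntegral_of_isIntegral_both R K j hjt h1 h2⟩

end Fermat.Agent.S36.NU.H65
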