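import Fermat.Agent.S36.NU.H24_BridgeB
import Fermat.Agent.S36.NU.H16_Main
import Fermat.Agent.S36.NU.H65_Assemble

/-!
# S36 / NU-B, (M5) FIN-LOCAL skeleton (helper24)

The assembly of the local side of TI3 with helper79's B2 + B3:

  two charts `C0` (`B = intSub R j`), `Coo` (`B = intSub R j⁻¹`) compatible with the conservation
  datum of `D : NUData ..`  +  the local data at the closed points of the special fibres
  (`PointData`: branches (M2), local equation data (M4), and "every closed point with several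
  branches is a triple point" (DISJ))  +  (HOR) (M3)  +  (RADQ)  +  the norms of `h` along `α`, `β`
  are constants times `n`-th powers
  ⟹  `h ^ ((q + 1) (q - 1)) = (integral constant) · (n-th power)`.

* `ChartHyp` : the hypotheses of `H16.Setup` not involving `h`, `g`;
* `HOR`, `HOR.pow`;
* `PointData C D q` : the local data at all closed points of the special fibre;
* `eqv_of_bridge` : (EQV) at a triple point from `TrivRed`;
* `chart_of_bridge` : one chart: `∃ a, H aⁿ ∈ B ∧ rd i a = g i`;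
* `exists_isGen` : REG at the triple points in helper79's form (`hgen` of `NUData.trivRed`);
* `fin_local` : the final statement.
-/

set_option autoImplicit false
set_option linter.style.haveILetI false

noncomputable section

open AlgebraicCurve

attribute [local instance] Classical.propDecidable

namespace Fermat.Agent.S36.NU.H24

open Fermat.Agent.RED.H17 Fermat.Agent.RED Fermat.Agent.S36.NU.H16 Fermat.Agent.S36.NU.H79
  Fermat.Agent.S36.NU.H65 Fermat.Agent.S36.NU.H17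

variable {R F k ι Z K L : Type*} {κ : ι → Type*} [CommRing R] [Field F] [Algebra R F]
  [Field k] [∀ i, Field (κ i)] [∀ i, Algebra k (κ i)] [Fintype ι]
  [Field K] [Field L] [Algebra K L] [Algebra F L]
  {K' L' L₁ L₂ : Type*} [Field K'] [Field L'] [Algebra K' L'] [Field L₁] [Algebra k L₁]
  [Field L₂] [Algebra k L₂]

/-- The hypotheses of `H16.Setup` which do not involve `h`, `g`. -/
structure ChartHyp (C : Chart R F k ι κ) (q n : ℕ) : Prop where
  q_prime : q.Prime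
  charq : ∀ i, CharP (κ i) q
  n_pos : 0 < n
  coprime : Nat.Coprime n q
  /-- `B` is closed under `n`-th roots -/
  root : ∀ x : F, x ^ n ∈ C.B → x ∈ C.B
  /-- the components are pairwise distinct -/
  inc : ∀ i i' : ι, i ≠ i' → ∃ τ : C.B, C.rdB i' τ = 0 ∧ C.rdB i τ ≠ 0

omit [Fintype ι] in
theorem ChartHyp.setup {C : Chart R F k ι κ} {q n : ℕ} (hC : ChartHyp C q n) {h : F}
    {g : ∀ i, κ i} (hg : ∀ i, g i ^ n * C.rd i h = 1) : Setup C q n h g where
  q_prime := hC.q_prime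
  charq := hC.charq
  n_pos := hC.n_pos
  coprime := hC.coprime
  root := hC.root
  inc := hC.inc
  root_g := hg

/-- **(HOR)**: `h` is an `n`-th power times a unit at every valuation ring `≠ F` of `F`
containing `B` and `1 / q` (the horizontal places of the chart). -/
def HOR (C : Chart R F k ι κ) (q : R) (n : ℕ) (h : F) : Prop :=
  ∀ W : ValuationSubring F, (∀ β : C.B, (β : F) ∈ W) → (algebraMap R F q)⁻¹ ∈ W →
    W ≠ ⊤ → ∃ s : F, s ≠ 0 ∧ h * s ^ n ∈ W ∧ (h * s ^ n)⁻¹ ∈ W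

omit [Fintype ι] in
theorem HOR.pow {C : Chart R F k ι κ} {q : R} {n : ℕ} {h : F} (hh : HOR C q n h) (m : ℕ) :
    HOR C q n (h ^ m) := by
  intro W hB hq hW
  obtain ⟨s, hs0, hs1, hs2⟩ := hh W hB hq hW
  refine ⟨s ^ m, pow_ne_zero m hs0, ?_, ?_⟩
  · have : h ^ m * (s ^ m) ^ n = (h * s ^ n) ^ m := by
      rw [mul_pow, ← pow_mul, ← pow_mul, mul_comm m n]
    rw [this]
    exact pow_mem hs1 m
  · have : (h ^ m * (s ^ m) ^ n)⁻¹ = ((h * s ^ n)⁻¹) ^ m := by
      rw [inv_pow, mul_pow, ← pow_mul, ← pow_mul, mul_comm m n]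
    rw [this]
    exact pow_mem hs2 m

/-- **The local data at the closed points of the special fibre of the chart**: branches (M2),
a local equation datum (M4), and: a closed point with several branches is a triple point
`z ∈ SS` of the chart (DISJ). -/
def PointData (C : Chart R F k ι κ) (D : NUData K F L k ι Z κ K' L' L₁ L₂) (q : R) : Prop :=
  ∀ 𝔪 : Ideal C.B, 𝔪.IsMaximal → (∃ i, C.Icomp i ≤ 𝔪) →
    (∀ i, C.Icomp i ≤ 𝔪 → Nonempty (Branch C 𝔪 i)) ∧ Nonempty (LocEq C q 𝔪) ∧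
    ((∃ i₀, ∀ i, C.Icomp i ≤ 𝔪 → i = i₀) ∨
      ∃ z ∈ D.SS, InChart C D.T z ∧
        ∃ i₀, ∀ β : C.B, β ∈ 𝔪 ↔ VanAt (D.T.pt i₀ z) (C.rdB i₀ β))

variable {C : Chart R F k ι κ} (D : NUData K F L k ι Z κ K' L' L₁ L₂)

/-- **(EQV) at a triple point**, from the values of `g i / rd i s` (output of `TrivRed`). -/
theorem eqv_of_bridge [Infinite k] (hc : Compat C D.T) (hP : HasPrincipalDivisors K L) {z : Z}
    (hzSS : z ∈ D.SS) (hz : InChart C D.T z) {𝔪 : Ideal C.B} (i₀ : ι)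
    (h𝔪 : ∀ β : C.B, β ∈ 𝔪 ↔ VanAt (D.T.pt i₀ z) (C.rdB i₀ β)) {n : ℕ} (hn : 0 < n) {H : F}
    (hu : ∀ i, D.T.rdN i H ≠ 0) (g : ∀ i, κ i)
    (heqv : ∀ s : F, D.IsGen n z H s →
      ∃ c : k, ∀ i, HasValue (D.T.pt i z) (g i * (D.T.rdN i s)⁻¹) c)
    (s : F) (hs : H * s ^ n ∈ C.B) (hsm : (⟨H * s ^ n, hs⟩ : C.B) ∉ 𝔪)
    (br : ∀ i, C.Icomp i ≤ 𝔪 → Branch C 𝔪 i) :
    ∃ c : k, ∀ (i : ι) (hi : C.Icomp i ≤ 𝔪),
      g i * (C.rd i s)⁻¹ - algebraMap k (κ i) c ∈ (br i hi).O.nonunits := by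
  have hglue : Glued D.T z := D.glue z hzSS
  have hgen : D.IsGen n z H s :=
    isGen_of_reg hc hP hz hglue hn hu hs i₀ (fun hv => hsm ((h𝔪 _).2 hv))
  obtain ⟨c, hc'⟩ := heqv s hgen
  refine ⟨c, fun i hi => ?_⟩
  rw [hc.hrd]
  exact branch_nonunits_of_hasValue (br i hi) (D.T.pt i z)
    (branch_O_eq_pt hc hP hz hglue i₀ h𝔪 i (br i hi)) (hc' i)

/-- **One chart**: the section `a` with `H aⁿ ∈ B` and residues `g i`. -/
theorem chart_of_bridge [Infinite k] [IsNoetherianRing C.B] [IsFractionRing C.B F]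
    (hc : Compat C D.T) (hP : HasPrincipalDivisors K L) (qn : ℕ) (q : R) (n : ℕ) (H : F)
    (g : ∀ i, κ i) (S : Setup C qn n H g) (H0 : H ≠ 0) (hHOR : HOR C q n H)
    (hpt : PointData C D q) (hu : ∀ i, D.T.rdN i H ≠ 0)
    (heqv : ∀ z ∈ D.SS, ∀ s : F, D.IsGen n z H s →
      ∃ c : k, ∀ i, HasValue (D.T.pt i z) (g i * (D.T.rdN i s)⁻¹) c) :
    ∃ a : F, H * a ^ n ∈ C.B ∧ ∀ i, C.rd i a = g i := by
  refine chart_main C qn q n H g S H0 hHOR (fun 𝔪 hmax hex => ?_)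
  obtain ⟨hbr, hL, hcase⟩ := hpt 𝔪 hmax hex
  refine ⟨hbr, hL, ?_⟩
  rcases hcase with h1 | ⟨z, hzSS, hz, i₀, h𝔪⟩
  · exact Or.inl h1
  · exact Or.inr fun s hs hsm br =>
      eqv_of_bridge D hc hP hzSS hz i₀ h𝔪 S.n_pos hu g (heqv z hzSS) s hs hsm br

/-- **REG at the triple points** in helper79's form: local generators of `h` at every `z ∈ SS`
(the hypothesis `hgen` of `NUData.trivRed`), from CA1 (`reg_abs`) in the chart `C`. -/
theorem exists_isGen [Infinite k] [IsNoetherianRing C.B] [IsFractionRing C.B F]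
    (hc : Compat C D.T) (hP : HasPrincipalDivisors K L) (q : R) {n : ℕ} (hn : 0 < n) {h : F}
    (hHOR : HOR C q n h) (hpt : PointData C D q) (hu : ∀ i, D.T.rdN i h ≠ 0)
    {z : Z} (hzSS : z ∈ D.SS) (hz : InChart C D.T z) : ∃ s, D.IsGen n z h s := by
  have hglue : Glued D.T z := D.glue z hzSS
  have hmax := ptMax_isMaximal hc hP hz D.i₂₀ (D.deg_one z hzSS D.i₂₀)
  have hle : C.Icomp D.i₂₀ ≤ ptMax hc hP hz D.i₂₀ := Icomp_le_ptMax hc hP hz hglue _ _
  obtain ⟨hbr, ⟨Lq⟩, -⟩ := hpt _ hmax ⟨D.i₂₀, hle⟩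
  obtain ⟨b⟩ := hbr D.i₂₀ hle
  have hh : ∀ i, h ∈ C.V i ∧ h⁻¹ ∈ C.V i := fun i => by
    rw [hc.hV]
    exact ⟨D.T.mem_of_rdN_ne_zero (hu i), D.T.inv_mem_of_rdN_ne_zero (hu i)⟩
  have h0 : h ≠ 0 := by
    rintro rfl
    apply hu D.i₂₀
    rw [D.T.rdN_of_mem (D.T.V _).zero_mem]
    exact map_zero _
  obtain ⟨s, hs, hsm⟩ := reg_abs C q n hn h hh h0 _ hmax D.i₂₀ b Lq hHOR
  exact ⟨s, isGen_of_reg hc hP hz hglue hn hu hs D.i₂₀
    (fun hv => hsm ((mem_ptMax hc hP hz D.i₂₀ _).2 hv))⟩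

/-- **FIN-LOCAL**: the local side of TI3 assembled with B2 + B3.
If `h` is a unit for the three valuations, (HOR) holds in both charts, and the norms of `h`
along `α` and `β` are constants times `n`-th powers, then `h ^ ((q + 1) (q - 1))` is an integral
constant times an `n`-th power. -/
theorem fin_local [IsAlgClosed k] [IsNoetherianRing R] [IsDomain R] [IsIntegrallyClosed R]
    (Kf : Type*) [Field Kf] [Algebra R Kf] [IsFractionRing R Kf] [Algebra Kf F]
    [IsScalarTower R Kf F]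
    (C0 Coo : Chart R F k ι κ) [IsNoetherianRing C0.B] [IsFractionRing C0.B F]
    [IsNoetherianRing Coo.B] [IsFractionRing Coo.B F]
    (hc0 : Compat C0 D.T) (hcoo : Compat Coo D.T) (hP : HasPrincipalDivisors K L)
    (n : ℕ) (hC0 : ChartHyp C0 D.q n) (hCoo : ChartHyp Coo D.q n)
    (j : F) (hjt : Transcendental Kf j) (hB0 : C0.B = intSub R j) (hBoo : Coo.B = intSub R j⁻¹)
    (q : R) (hq0 : q ≠ 0) (hqu : ¬ IsUnit q) (n' : R) (hnn : (n : R) * n' = 1)
    (hpt0 : PointData C0 D q) (hptoo : PointData Coo D q)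
    (hSS0 : ∀ z ∈ D.SS, InChart C0 D.T z) (hSS : D.SS.Nonempty)
    (hk₁ : RootClosed k L₁ n) (hk₂ : RootClosed k L₂ n)
    (hrad0 : ∀ β ∈ C0.B, (∀ i, C0.rd i β = 0) → IsRadQ C0.B q β)
    (hradoo : ∀ β ∈ Coo.B, (∀ i, Coo.rd i β = 0) → IsRadQ Coo.B q β)
    (h : F) (hu : ∀ i, D.T.rdN i h ≠ 0) (hHOR0 : HOR C0 q n h) (hHORoo : HOR Coo q n h)
    (hfg : (MInt R j⁻¹ (h ^ ((D.q + 1) * (D.q - 1))) n hC0.n_pos).FG)
    {cα cβ : K'} {gα gβ : L'}
    (hα : D.Nα h = algebraMap K' L' cα * gα ^ n)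
    (hβ : D.Nβ h = algebraMap K' L' cβ * gβ ^ n) :
    ∃ s : F, s ≠ 0 ∧ IsIntegral R (h ^ ((D.q + 1) * (D.q - 1)) * s ^ n) := by
  have hn : 0 < n := hC0.n_pos
  haveI : Infinite k := IsAlgClosed.instInfinite
  set H : F := h ^ ((D.q + 1) * (D.q - 1)) with hH
  -- B2 + B3
  have hgen : ∀ z ∈ D.SS, ∃ s, D.IsGen n z h s := fun z hz =>
    exists_isGen D hc0 hP q hn hHOR0 hpt0 hu hz (hSS0 z hz)
  have htriv : D.TrivRed n H :=
    D.trivRed hP hn.ne' hC0.coprime.symm hC0.q_prime.one_le hk₁ hk₂ hSS hu hgen hα hβ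
  have hm : ∀ i, h ∈ D.T.V i := fun i => D.T.mem_of_rdN_ne_zero (hu i)
  have huH : ∀ i, D.T.rdN i H ≠ 0 := fun i => by
    rw [hH, D.T.rdN_pow (hm i)]
    exact pow_ne_zero _ (hu i)
  have H0 : H ≠ 0 := by
    intro h0
    apply huH D.i₂₀
    rw [h0, D.T.rdN_of_mem (D.T.V _).zero_mem]
    exact map_zero _
  -- the residues `g`
  obtain ⟨g, hg, heqv⟩ := exists_g_of_trivRed D hn.ne'
    (fun c => IsAlgClosed.exists_pow_nat_eq c hn) huH htriv
  have S0 : Setup C0 D.q n H g := hC0.setup (fun i => by rw [hc0.hrd]; exact hg i)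
  have Soo : Setup Coo D.q n H g := hCoo.setup (fun i => by rw [hcoo.hrd]; exact hg i)
  -- the two charts
  obtain ⟨a, ha, hra⟩ := chart_of_bridge D hc0 hP D.q q n H g S0 H0 (hHOR0.pow _) hpt0 huH heqv
  obtain ⟨b, hb, hrb⟩ := chart_of_bridge D hcoo hP D.q q n H g Soo H0 (hHORoo.pow _) hptoo huH
    heqv
  -- TI3
  exact ti3_const Kf C0 Coo D.q n H g S0 Soo j hjt hB0 hBoo
    (fun i => by rw [hc0.hV, hcoo.hV]) (fun i x => by rw [hc0.hrd, hcoo.hrd]) q hq0 hqu n' hnn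
    hfg hrad0 hradoo a b ha hra hb hrb

end Fermat.Agent.S36.NU.H24
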