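import Fermat.Agent.S36.NU.H61_BranchAlg
import Fermat.Agent.S36.NU.H17_TIFin

/-!
# S36 / NU-B, (M2) NORMAL-IMG, leaves (L2-iv) + (L2-v) (helper24)

Abstract form: `C` a chart with `B` integral over `R[j]`, `i` a component, `t ∈ κ i`
transcendental over `k` with `κ i / k(t)` finite separable.  `A = ` the integral closure of
`k[t]` in `κ i`.

* (L2-v) `isPrincipalIdealRing_adjoin`, `isDedekindDomain_intClosure`,
  `isFractionRing_intClosure`, `finiteType_intClosure` : `A` is a Dedekind domain with fraction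
  field `κ i`, finitely generated over `k`.
* (L2-iv) `rdB_mem_intClosure` : `rdB i (B) ⊆ A` if `rdB i j` is integral over `k[t]`;
  `branch_of_normal` : if moreover every element of `A` is the reduction of an element of `B`
  (the normal chart of the good level lifts to `B`: (L2-i) + (L2-ii) + (L2-iii)), then every
  closed point `𝔪 ⊇ Icomp i` has a `Branch`.
-/

set_option autoImplicit false
set_option linter.style.haveILetI false

noncomputable section

namespace Fermat.Agent.S36.NU.H24

open Fermat.Agent.S36.NU.H16 Fermat.Agent.S36.NU.H17 Fermat.Agent.S36.NU.H61 IntermediateField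
  Polynomial

section IntClosure

variable (k : Type*) {κ : Type*} [Field k] [Field κ] [Algebra k κ] (t : κ)

/-- `k[t]` is a principal ideal ring. -/
theorem isPrincipalIdealRing_adjoin : IsPrincipalIdealRing ↥(Algebra.adjoin k ({t} : Set κ)) := by
  let t' : ↥(Algebra.adjoin k ({t} : Set κ)) := ⟨t, Algebra.subset_adjoin rfl⟩
  refine IsPrincipalIdealRing.of_surjective (aeval t' : k[X] →ₐ[k] _).toRingHom ?_
  rintro ⟨y, hy⟩
  rw [Algebra.adjoin_singleton_eq_range_aeval] at hy
  obtain ⟨p, rfl⟩ := hy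
  refine ⟨p, Subtype.ext ?_⟩
  show ((aeval t' p : ↥(Algebra.adjoin k ({t} : Set κ))) : κ) = aeval t p
  rw [← Subalgebra.coe_val, ← Polynomial.aeval_algHom_apply]
  rfl

theorem isFractionRing_self : IsFractionRing k k :=
  IsLocalization.of_le_isUnit (fun _ hx => IsUnit.mk0 _ (nonZeroDivisors.ne_zero hx))

/-- **(L2-v)** the integral closure of `k[t]` in `κ` is a Dedekind domain. -/
theorem isDedekindDomain_intClosure [FiniteDimensional ↥k⟮t⟯ κ]
    [Algebra.IsSeparable ↥k⟮t⟯ κ] :
    IsDedekindDomain ↥(integralClosure ↥(Algebra.adjoin k ({t} : Set κ)) κ) := by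
  haveI := isPrincipalIdealRing_adjoin k t
  haveI := isFractionRing_self k
  letI : Algebra ↥(Algebra.adjoin k ({t} : Set κ)) ↥k⟮t⟯ := (toAdjoinField k k t).toAlgebra
  haveI := isFractionRing_adjoin k k t
  haveI : IsScalarTower ↥(Algebra.adjoin k ({t} : Set κ)) ↥k⟮t⟯ κ :=
    IsScalarTower.of_algebraMap_eq fun _ => rfl
  exact integralClosure.isDedekindDomain ↥(Algebra.adjoin k ({t} : Set κ)) ↥k⟮t⟯ κ

/-- **(L2-v)** the fraction field of the integral closure of `k[t]` in `κ` is `κ`. -/
theorem isFractionRing_intClosure [FiniteDimensional ↥k⟮t⟯ κ] :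
    IsFractionRing ↥(integralClosure ↥(Algebra.adjoin k ({t} : Set κ)) κ) κ := by
  haveI := isFractionRing_self k
  letI : Algebra ↥(Algebra.adjoin k ({t} : Set κ)) ↥k⟮t⟯ := (toAdjoinField k k t).toAlgebra
  haveI := isFractionRing_adjoin k k t
  haveI : IsScalarTower ↥(Algebra.adjoin k ({t} : Set κ)) ↥k⟮t⟯ κ :=
    IsScalarTower.of_algebraMap_eq fun _ => rfl
  exact IsIntegralClosure.isFractionRing_of_finite_extension
    ↥(Algebra.adjoin k ({t} : Set κ)) ↥k⟮t⟯ κ _

/-- **(L2-v)** the integral closure of `k[t]` in `κ` is finitely generated over `k`. -/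
theorem finiteType_intClosure [FiniteDimensional ↥k⟮t⟯ κ]
    [Algebra.IsSeparable ↥k⟮t⟯ κ] :
    Algebra.FiniteType k ↥(integralClosure ↥(Algebra.adjoin k ({t} : Set κ)) κ) := by
  haveI := isPrincipalIdealRing_adjoin k t
  haveI := isFractionRing_self k
  letI : Algebra ↥(Algebra.adjoin k ({t} : Set κ)) ↥k⟮t⟯ := (toAdjoinField k k t).toAlgebra
  haveI := isFractionRing_adjoin k k t
  haveI : IsScalarTower ↥(Algebra.adjoin k ({t} : Set κ)) ↥k⟮t⟯ κ :=
    IsScalarTower.of_algebraMap_eq fun _ => rfl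
  haveI : Module.Finite ↥(Algebra.adjoin k ({t} : Set κ))
      ↥(integralClosure ↥(Algebra.adjoin k ({t} : Set κ)) κ) :=
    IsIntegralClosure.finite ↥(Algebra.adjoin k ({t} : Set κ)) ↥k⟮t⟯ κ _
  have hfg : (Algebra.adjoin k ({t} : Set κ)).FG := by
    have := Subalgebra.fg_adjoin_finset (R := k) ({t} : Finset κ)
    rwa [Finset.coe_singleton] at this
  haveI : Algebra.FiniteType k ↥(Algebra.adjoin k ({t} : Set κ)) :=
    (Subalgebra.fg_iff_finiteType _).1 hfg
  exact Algebra.FiniteType.trans (R := k) (S := ↥(Algebra.adjoin k ({t} : Set κ)))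
    inferInstance inferInstance

end IntClosure

section Branch

variable {R F k ι : Type*} {κ : ι → Type*} [CommRing R] [Field F] [Algebra R F]
  [Field k] [∀ i, Field (κ i)] [∀ i, Algebra k (κ i)]

/-- **(L2-iv), "⊆"**: the reduction of a function integral over `R[j]` is integral over `k[t]`
if the reduction of `j` is. -/
theorem rdB_mem_intClosure (C : Chart R F k ι κ) (i : ι) (j : F) (hjB : j ∈ C.B)
    (hB : ∀ β : C.B, IsIntegral ↥(Algebra.adjoin R {j}) (β : F)) (t : κ i)
    (hj : IsIntegral ↥(Algebra.adjoin k ({t} : Set (κ i))) (C.rdB i ⟨j, hjB⟩)) (β : C.B) :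
    C.rdB i β ∈ integralClosure ↥(Algebra.adjoin k ({t} : Set (κ i))) (κ i) := by
  set A := integralClosure ↥(Algebra.adjoin k ({t} : Set (κ i))) (κ i) with hA
  -- `R[j] ⊆ B`
  have hle : Algebra.adjoin R {j} ≤ C.B := Algebra.adjoin_le (Set.singleton_subset_iff.2 hjB)
  -- the reduction of `R[j]` lies in `A`
  have hRj : ∀ x (hx : x ∈ Algebra.adjoin R {j}), C.rdB i ⟨x, hle hx⟩ ∈ A := by
    intro x hx
    induction hx using Algebra.adjoin_induction with
    | mem y hy =>
      rw [Set.mem_singleton_iff] at hy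
      subst hy
      exact hj
    | algebraMap r =>
      have : C.rdB i ⟨algebraMap R F r, hle (Subalgebra.algebraMap_mem _ r)⟩
          = algebraMap k (κ i) (C.res r) := by
        rw [← C.rd_coe]
        exact C.rd_algebraMap i r
      rw [this]
      exact Subalgebra.algebraMap_mem (A.restrictScalars k) (C.res r)
    | add x y hx hy h1 h2 =>
      have : (⟨x + y, hle (add_mem hx hy)⟩ : C.B) = ⟨x, hle hx⟩ + ⟨y, hle hy⟩ := rfl
      rw [this, map_add]
      exact add_mem h1 h2
    | mul x y hx hy h1 h2 =>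
      have : (⟨x * y, hle (mul_mem hx hy)⟩ : C.B) = ⟨x, hle hx⟩ * ⟨y, hle hy⟩ := rfl
      rw [this, map_mul]
      exact mul_mem h1 h2
  -- the two ring homomorphisms
  let φ : ↥(Algebra.adjoin R {j}) →+* ↥A :=
    ((C.rdB i).comp (Subalgebra.inclusion hle).toRingHom).codRestrict A.toSubring
      (fun x => hRj x.1 x.2)
  letI : Algebra ↥(Algebra.adjoin R {j}) ↥C.B := (Subalgebra.inclusion hle).toRingHom.toAlgebra
  haveI : IsScalarTower ↥(Algebra.adjoin R {j}) ↥C.B F :=
    IsScalarTower.of_algebraMap_eq fun _ => rfl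
  have hβ : IsIntegral ↥(Algebra.adjoin R {j}) β :=
    (isIntegral_algebraMap_iff (A := ↥C.B) (B := F) Subtype.val_injective).1 (hB β)
  have h1 : IsIntegral ↥A (C.rdB i β) :=
    IsIntegral.map_of_comp_eq φ (C.rdB i) (by ext x; rfl) hβ
  have h2 : IsIntegral ↥(Algebra.adjoin k ({t} : Set (κ i))) (C.rdB i β) :=
    isIntegral_trans (A := ↥A) _ h1
  exact h2

/-- **(L2-iv) + (L2-v) ⟹ branches**: if the reduction of `j` is integral over `k[t]`, every
element of `κ i` integral over `k[t]` is the reduction of an element of `B`, and `κ i / k(t)` is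
finite separable, then every closed point `𝔪 ⊇ Icomp i` has a `Branch`. -/
theorem branch_of_normal [IsAlgClosed k] (C : Chart R F k ι κ) (i : ι) (j : F) (hjB : j ∈ C.B)
    (hB : ∀ β : C.B, IsIntegral ↥(Algebra.adjoin R {j}) (β : F)) (t : κ i)
    [FiniteDimensional ↥k⟮t⟯ (κ i)] [Algebra.IsSeparable ↥k⟮t⟯ (κ i)]
    (hj : IsIntegral ↥(Algebra.adjoin k ({t} : Set (κ i))) (C.rdB i ⟨j, hjB⟩))
    (hlift : ∀ y : κ i, IsIntegral ↥(Algebra.adjoin k ({t} : Set (κ i))) y →
      ∃ β : C.B, C.rdB i β = y)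
    (𝔪 : Ideal C.B) (hmax : 𝔪.IsMaximal) (h𝔪 : C.Icomp i ≤ 𝔪) : Nonempty (Branch C 𝔪 i) := by
  haveI := isDedekindDomain_intClosure k t
  haveI := isFractionRing_intClosure k t
  haveI := finiteType_intClosure k t
  let φ : C.B →+* ↥(integralClosure ↥(Algebra.adjoin k ({t} : Set (κ i))) (κ i)) :=
    (C.rdB i).codRestrict
      (integralClosure ↥(Algebra.adjoin k ({t} : Set (κ i))) (κ i)).toSubring
      (fun β => rdB_mem_intClosure C i j hjB hB t hj β)
  refine branch_of_dedekind_finiteType C i φ ?_ (fun β => rfl) 𝔪 hmax h𝔪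
  rintro ⟨y, hy⟩
  obtain ⟨β, hβ⟩ := hlift y hy
  exact ⟨β, Subtype.ext hβ⟩

/-- **(L2-i) + (L2-ii) + (L2-iii) ⟹ the lifting hypothesis of `branch_of_normal`**:
`E'` the residue field of the lower (good) level, `ι' : E' → κ i` onto (residue degree one),
`S'` the chart of the lower level inside `B` with its reduction `red'`, compatible with `rdB i`;
if the chart of the lower level is normal (every element of `E'` integral over `k[t']` is a
reduction), then every element of `κ i` integral over `k[ι' t']` is the reduction of an element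
of `B`. -/
theorem lift_of_sub (C : Chart R F k ι κ) (i : ι) {E' : Type*} [Field E'] [Algebra k E']
    (ι' : E' →ₐ[k] κ i) (hsurj : Function.Surjective ι') (t' : E')
    (S' : Set F) (hS' : ∀ x ∈ S', x ∈ C.B) (red' : F → E')
    (hcompat : ∀ (x : F) (hx : x ∈ S'), C.rdB i ⟨x, hS' x hx⟩ = ι' (red' x))
    (hnormal : ∀ y' : E', IsIntegral ↥(Algebra.adjoin k ({t'} : Set E')) y' →
      ∃ x ∈ S', red' x = y')
    (y : κ i) (hy : IsIntegral ↥(Algebra.adjoin k ({ι' t'} : Set (κ i))) y) :
    ∃ β : C.B, C.rdB i β = y := by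
  obtain ⟨y', rfl⟩ := hsurj y
  have hinj : Function.Injective ι' := ι'.toRingHom.injective
  -- `y'` is integral over `k[t']`
  have hy' : IsIntegral ↥(Algebra.adjoin k ({t'} : Set E')) y' := by
    -- the inverse of `ι'`
    let e : E' ≃ₐ[k] κ i := AlgEquiv.ofBijective ι' ⟨hinj, hsurj⟩
    have hmem : ∀ z (hz : z ∈ Algebra.adjoin k ({ι' t'} : Set (κ i))),
        e.symm z ∈ Algebra.adjoin k ({t'} : Set E') := by
      intro z hz
      induction hz using Algebra.adjoin_induction with
      | mem w hw =>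
        rw [Set.mem_singleton_iff] at hw
        subst hw
        have : e.symm (ι' t') = t' := e.symm_apply_apply t'
        rw [this]
        exact Algebra.subset_adjoin rfl
      | algebraMap r =>
        rw [AlgEquiv.commutes]
        exact Subalgebra.algebraMap_mem _ r
      | add _ _ _ _ h1 h2 =>
        rw [map_add]
        exact add_mem h1 h2
      | mul _ _ _ _ h1 h2 =>
        rw [map_mul]
        exact mul_mem h1 h2
    let φ : ↥(Algebra.adjoin k ({ι' t'} : Set (κ i))) →+* ↥(Algebra.adjoin k ({t'} : Set E')) :=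
      (e.symm.toAlgHom.toRingHom.comp (Algebra.adjoin k ({ι' t'} : Set (κ i))).val.toRingHom).codRestrict
        (Algebra.adjoin k ({t'} : Set E')).toSubring (fun z => hmem z.1 z.2)
    have h1 : IsIntegral ↥(Algebra.adjoin k ({t'} : Set E')) (e.symm (ι' y')) :=
      IsIntegral.map_of_comp_eq φ e.symm.toAlgHom.toRingHom (by ext z; rfl) hy
    have h2 : e.symm (ι' y') = y' := e.symm_apply_apply y'
    rwa [h2] at h1
  obtain ⟨x, hx, hxy⟩ := hnormal y' hy'
  exact ⟨⟨x, hS' x hx⟩, by rw [hcompat x hx, hxy]⟩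

end Branch

end Fermat.Agent.S36.NU.H24
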