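import Fermat.Agent.S36.NU.H81_NUCore
import Fermat.Agent.S36.NU.H23_L0
import Fermat.Agent.S36.H44_PushComm
import Fermat.Agent.FL.H2_Level

/-!
# S36 / NU-B, leaf DIV→NORM (helper26), input of FIN-TOP

`f ≠ 0` of level `N`, `D = div f`, `φ : F_M → F_N` finite (for instance `α`, `β` at
`N = M q`), `φ_* D = n · div g`.  Then

* `norm_eq_const_mul_pow` : `N_φ f = c · g ^ n` with a constant `c ≠ 0`;
* `divNorm_alpha`, `divNorm_beta` : the same for the two degeneracy maps, with the hypotheses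
  of `H81.Stmt_NUCoreK`.
-/

set_option autoImplicit false
set_option linter.style.haveILetI false
set_option linter.unusedSectionVars false
set_option synthInstance.maxHeartbeats 400000
set_option maxHeartbeats 1000000

noncomputable section

namespace Fermat.Agent.S36.NU.H26

open AlgebraicCurve ModularCurve Fermat.Agent.S24 Fermat.Agent.Lib.HeckeComm
  Fermat.Agent.S36.H44 Fermat.Agent.BAD

local notation "Kb" => AlgebraicClosure ℚ

section Generic

variable {M N : ℕ} [NeZero M] [NeZero N]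

/-- **DIV→NORM.**  If the push-forward of `div f` along `φ` is `n · div g`, then the norm of
`f` along `φ` is a non-zero constant times `g ^ n`. -/
theorem norm_eq_const_mul_pow (φ : FN M →ₐ[Kb] FN N) (hφ : φ.toRingHom.IsIntegral)
    (hfin : FiniteAlong Kb φ) (hN : NormFormulaAlong Kb φ hfin) (n : ℕ)
    (f : FN N) (hf : f ≠ 0) (D : Divisor Kb (FN N)) (hD : ∀ P : Place Kb (FN N), D P = P.ord f)
    (g : FN M) (hg : g ≠ 0)
    (hpush : ∀ Q : Place Kb (FN M), Divisor.pushforwardAlong φ hφ D Q = n * Q.ord g) :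
    ∃ c : Kb, c ≠ 0 ∧ normAlongHom φ.toRingHom f = algebraMap Kb (FN M) c * g ^ n := by
  have hNf0 : normAlongHom φ.toRingHom f ≠ 0 := normAlongHom_ne_zero φ hfin hf
  have hgn0 : g ^ n ≠ 0 := pow_ne_zero n hg
  have hu : ∀ Q : Place Kb (FN M), Q.ord (normAlongHom φ.toRingHom f * (g ^ n)⁻¹) = 0 := by
    intro Q
    rw [Q.ord_mul hNf0 (inv_ne_zero hgn0), Q.ord_inv, Fermat.Agent.RED.H17.ord_pow,
      ← pushforwardAlong_ord φ hφ hfin hN hf D hD Q, hpush Q]
    ring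
  obtain ⟨c, hc⟩ := Fermat.Agent.FL.H2.exists_const_of_ord_eq_zero (isFF_FN M) hu
  refine ⟨c, ?_, ?_⟩
  · rintro rfl
    rw [map_zero] at hc
    exact mul_ne_zero hNf0 (inv_ne_zero hgn0) hc.symm
  · rw [hc, inv_mul_cancel_right₀ hgn0]

end Generic

/-! ## The two degeneracy maps -/

section Modular

variable (M q : ℕ) [NeZero M] [NeZero q]

/-- **DIV→NORM along `α`**, with the hypotheses of `H81.Stmt_NUCoreK`. -/
theorem divNorm_alpha (n : ℕ) (f : ↥(FNbar (M * q))) (hf : f ≠ 0)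
    (hα : HeckeAlphaBarIntegral Kb M q) (D : Divisor Kb ↥(FNbar (M * q)))
    (hD : ∀ P, D P = P.ord f)
    (h : ∃ g : ↥(FNbar M), g ≠ 0 ∧ ∀ Q : Place Kb ↥(FNbar M),
      Divisor.pushforwardAlong (heckeAlphaBar Kb M q) hα D Q = n * Q.ord g) :
    ∃ g : ↥(FNbar M), g ≠ 0 ∧ ∃ c : Kb, c ≠ 0 ∧
      normAlongHom (heckeAlphaBar Kb M q).toRingHom f = algebraMap Kb ↥(FNbar M) c * g ^ n := by
  obtain ⟨g, hg, hpush⟩ := h
  exact ⟨g, hg, norm_eq_const_mul_pow (heckeAlphaBar Kb M q) hα (alpha_finite M q)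
    (alpha_norm M q) n f hf D hD g hg hpush⟩

/-- **DIV→NORM along `β`**, with the hypotheses of `H81.Stmt_NUCoreK`. -/
theorem divNorm_beta (n : ℕ) (f : ↥(FNbar (M * q))) (hf : f ≠ 0)
    (hβ : HeckeBetaBarIntegral Kb M q) (D : Divisor Kb ↥(FNbar (M * q)))
    (hD : ∀ P, D P = P.ord f)
    (h : ∃ g : ↥(FNbar M), g ≠ 0 ∧ ∀ Q : Place Kb ↥(FNbar M),
      Divisor.pushforwardAlong (heckeBetaBar Kb M q) hβ D Q = n * Q.ord g) :
    ∃ g : ↥(FNbar M), g ≠ 0 ∧ ∃ c : Kb, c ≠ 0 ∧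
      normAlongHom (heckeBetaBar Kb M q).toRingHom f = algebraMap Kb ↥(FNbar M) c * g ^ n := by
  obtain ⟨g, hg, hpush⟩ := h
  exact ⟨g, hg, norm_eq_const_mul_pow (heckeBetaBar Kb M q) hβ (beta_finite M q)
    (beta_norm M q) n f hf D hD g hg hpush⟩

end Modular

end Fermat.Agent.S36.NU.H26
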