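import Fermat.Agent.S36.NU.H26_DivNorm
import Fermat.Agent.GTor.H2_GalHecke

/-!
# S36 / NU-B, leaf DIV→NORM, inertia-fixed part (helper26), input of FIN-TOP

`A` a valuation ring of `ℚ̄`, `L0 A N` the functions of level `N` fixed by the inertia group
(helper23).  For `φ : F_M → F_N` commuting with the arithmetic Galois action (for instance `α`,
`β`):

* `mapL0 : L0 A M →+* L0 A N`, `finite_L0_along`, `finrank_L0_along`,
  `norm_L0_along : N_φ g = N_{L0 N / L0 M} g` for `g ∈ L0 A N`, `norm_mem_L0`;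
* `divNorm_L0` : if `f ∈ L0 A N` and `φ_* (div f) = n · div g` (`n ≠ 0`), then
  `N_φ f = c · g₀ ^ n` with `c ≠ 0` fixed by inertia and `g₀ ∈ L0 A M` of leading coefficient `1`;
* `divNorm_L0_alpha`, `divNorm_L0_beta`.
-/

set_option autoImplicit false
set_option linter.style.haveILetI false
set_option linter.unusedSectionVars false
set_option synthInstance.maxHeartbeats 400000
set_option maxHeartbeats 1000000

noncomputable section

namespace Fermat.Agent.S36.NU.H26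

open AlgebraicCurve ModularCurve Fermat.Agent.S24 Fermat.Agent.Lib.HeckeComm
  Fermat.Agent.S36.H44 Fermat.Agent.BAD Fermat.Agent.S36.NU.H23 Fermat.Agent.BAD.H88

local notation "Kb" => AlgebraicClosure ℚ

/-- `φ` commutes with the arithmetic Galois action. -/
def ArithEquivariant {M N : ℕ} (φ : FN M →ₐ[Kb] FN N) : Prop :=
  ∀ (σ : Kb ≃ₐ[ℚ] Kb) (x : FN M),
    φ (arithmeticRingAut (modularFunctionFieldFull M) σ x)
      = arithmeticRingAut (modularFunctionFieldFull N) σ (φ x)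

theorem arithEquivariant_alpha (M q : ℕ) [NeZero M] [NeZero q] :
    ArithEquivariant (heckeAlphaBar Kb M q) := fun σ x =>
  (Fermat.Agent.GTor.H2.intertwines_heckeAlphaBar M q σ x).symm

theorem arithEquivariant_beta (M q : ℕ) [NeZero M] [NeZero q] :
    ArithEquivariant (heckeBetaBar Kb M q) := fun σ x =>
  (Fermat.Agent.GTor.H2.intertwines_heckeBetaBar M q σ x).symm

section Tower

variable (A : ValuationSubring Kb) {M N : ℕ} (φ : FN M →ₐ[Kb] FN N) (hint : ArithEquivariant φ)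

include hint in
theorem map_mem_L0 (x : FN M) (hx : x ∈ L0 A M) : φ x ∈ L0 A N := fun σ hσ => by
  rw [← hint σ x, hx σ hσ]

/-- The map `L0 M → L0 N` induced by `φ`. -/
def mapL0 : ↥(L0 A M) →+* ↥(L0 A N) :=
  (φ.toRingHom.comp (L0 A M).subtype).codRestrict (L0 A N)
    (fun x => map_mem_L0 A φ hint x.1 x.2)

theorem coe_mapL0 (x : ↥(L0 A M)) :
    ((mapL0 A φ hint x : ↥(L0 A N)) : FN N) = φ (x : FN M) := rfl

/-- `L0 N` as an algebra over `L0 M` along `φ`. -/
@[reducible] def algL0Along : Algebra ↥(L0 A M) ↥(L0 A N) := (mapL0 A φ hint).toAlgebra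

/-- `F_N` as an algebra over `L0 M` along `φ`. -/
@[reducible] def algL0FAlong : Algebra ↥(L0 A M) (FN N) :=
  (φ.toRingHom.comp (L0 A M).subtype).toAlgebra

theorem tower_L0_L0_F_along :
    @IsScalarTower ↥(L0 A M) ↥(L0 A N) (FN N) (algL0Along A φ hint).toSMul Algebra.toSMul
      (algL0FAlong A φ).toSMul := by
  letI := algL0Along A φ hint
  letI := algL0FAlong A φ
  exact IsScalarTower.of_algebraMap_eq fun x => rfl

theorem tower_L0_F_F_along :
    @IsScalarTower ↥(L0 A M) (FN M) (FN N) Algebra.toSMul (algebraAlong φ).toSMul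
      (algL0FAlong A φ).toSMul := by
  letI := algebraAlong φ
  letI := algL0FAlong A φ
  exact IsScalarTower.of_algebraMap_eq fun x => rfl

/-- A subalgebra of `F_N / φ(F_M)` which is a field and contains `L0 N` is everything. -/
theorem gen_L0_along [NeZero N] :
    letI := algebraAlong φ
    ∀ S : Subalgebra (FN M) (FN N), IsField S →
      (∀ x : ↥(L0 A N), algebraMap ↥(L0 A N) (FN N) x ∈ S) → S = ⊤ := by
  letI := algebraAlong φ
  haveI := isScalarTower_along φ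
  intro S hS hL
  have key : ∀ y : FN N, y ∈ IntermediateField.adjoin Kbar
      {x : FN N | ∃ (d : ℕ) (_ : NeZero d) (hd : d ∣ N), x = jdF N d hd} → y ∈ S := by
    intro y hy
    induction hy using IntermediateField.adjoin_induction with
    | mem z hz =>
      obtain ⟨d, hd0, hd, rfl⟩ := hz
      exact hL ⟨jdF N d hd, jdF_mem_L0 A N d hd⟩
    | algebraMap c =>
      rw [IsScalarTower.algebraMap_apply Kbar (FN M) (FN N)]
      exact S.algebraMap_mem _
    | add y z _ _ hy hz => exact S.add_mem hy hz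
    | inv y _ hy =>
      by_cases hy0 : y = 0
      · rw [hy0, inv_zero]; exact S.zero_mem
      · obtain ⟨z, hz⟩ := hS.mul_inv_cancel (a := ⟨y, hy⟩)
          (fun h => hy0 (congrArg Subtype.val h))
        have hz' : y * (z : FN N) = 1 := congrArg Subtype.val hz
        have : y⁻¹ = (z : FN N) := (eq_inv_of_mul_eq_one_right hz').symm
        rw [this]
        exact z.2
    | mul y z _ _ hy hz => exact S.mul_mem hy hz
  rw [eq_top_iff]
  intro y _
  exact key y (by rw [adjoin_jdF]; exact IntermediateField.mem_top)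

variable (hfin : FiniteAlong Kb φ)

include hfin in
/-- `L0 N / L0 M` is finite (along `φ`). -/
theorem finite_L0_along :
    letI := algL0Along A φ hint
    Module.Finite ↥(L0 A M) ↥(L0 A N) := by
  letI := algL0Along A φ hint
  letI := algebraAlong φ
  letI := algL0FAlong A φ
  haveI := tower_L0_L0_F_along A φ hint
  haveI := tower_L0_F_F_along A φ
  haveI : Module.Finite (FN M) (FN N) := hfin
  exact finite_of_fixed (E := FN M) (L := FN N) (E₀ := ↥(L0 A M)) (L₀ := ↥(L0 A N))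
    (G := ↥(A.inertiaSubgroupIn ℚ))
    (fun σ => (arithmeticRingAut (modularFunctionFieldFull M) (σ : Kbar ≃ₐ[ℚ] Kbar)).toRingHom)
    (fun σ => (arithmeticRingAut (modularFunctionFieldFull N) (σ : Kbar ≃ₐ[ℚ] Kbar)).toRingHom)
    (fun σ x => (hint σ x).symm)
    (fun σ x => x.2 σ σ.2)
    (fun x hx => ⟨⟨x, fun σ hσ => hx ⟨σ, hσ⟩⟩, rfl⟩)

include hfin in
/-- `[L0 N : L0 M] = [F_N : F_M]` (along `φ`). -/
theorem finrank_L0_along [NeZero N] :
    (letI := algL0Along A φ hint; Module.finrank ↥(L0 A M) ↥(L0 A N))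
      = (letI := algebraAlong φ; Module.finrank (FN M) (FN N)) := by
  letI := algL0Along A φ hint
  letI := algebraAlong φ
  letI := algL0FAlong A φ
  haveI := tower_L0_L0_F_along A φ hint
  haveI := tower_L0_F_F_along A φ
  haveI : Module.Finite (FN M) (FN N) := hfin
  exact finrank_of_fixed (E := FN M) (L := FN N) (E₀ := ↥(L0 A M)) (L₀ := ↥(L0 A N))
    (G := ↥(A.inertiaSubgroupIn ℚ))
    (fun σ => (arithmeticRingAut (modularFunctionFieldFull M) (σ : Kbar ≃ₐ[ℚ] Kbar)).toRingHom)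
    (fun σ => (arithmeticRingAut (modularFunctionFieldFull N) (σ : Kbar ≃ₐ[ℚ] Kbar)).toRingHom)
    (fun σ x => (hint σ x).symm)
    (fun σ x => x.2 σ σ.2)
    (fun x hx => ⟨⟨x, fun σ hσ => hx ⟨σ, hσ⟩⟩, rfl⟩)
    (gen_L0_along A φ)

include hfin in
/-- The norm along `φ` of an inertia-fixed function is its norm for `L0 N / L0 M`. -/
theorem norm_L0_along [NeZero N] (g : ↥(L0 A N)) :
    normAlongHom φ.toRingHom (g : FN N)
      = ((letI := algL0Along A φ hint; Algebra.norm ↥(L0 A M) g : ↥(L0 A M)) : FN M) := by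
  letI := algL0Along A φ hint
  letI := algebraAlong φ
  letI := algL0FAlong A φ
  haveI := tower_L0_L0_F_along A φ hint
  haveI := tower_L0_F_F_along A φ
  haveI : Module.Finite (FN M) (FN N) := hfin
  exact norm_of_fixed (E := FN M) (L := FN N) (E₀ := ↥(L0 A M)) (L₀ := ↥(L0 A N))
    (G := ↥(A.inertiaSubgroupIn ℚ))
    (fun σ => (arithmeticRingAut (modularFunctionFieldFull M) (σ : Kbar ≃ₐ[ℚ] Kbar)).toRingHom)
    (fun σ => (arithmeticRingAut (modularFunctionFieldFull N) (σ : Kbar ≃ₐ[ℚ] Kbar)).toRingHom)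
    (fun σ x => (hint σ x).symm)
    (fun σ x => x.2 σ σ.2)
    (fun x hx => ⟨⟨x, fun σ hσ => hx ⟨σ, hσ⟩⟩, rfl⟩)
    (gen_L0_along A φ) g

include hint hfin in
/-- The norm along `φ` of an inertia-fixed function is inertia-fixed. -/
theorem norm_mem_L0 [NeZero N] (f : FN N) (hf : f ∈ L0 A N) :
    normAlongHom φ.toRingHom f ∈ L0 A M := by
  have h := norm_L0_along A φ hint hfin ⟨f, hf⟩
  rw [show ((⟨f, hf⟩ : ↥(L0 A N)) : FN N) = f from rfl] at h
  rw [h]
  exact SetLike.coe_mem _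

end Tower

/-! ## Normalisation: the constant is inertia-fixed, the root lies in `L0` -/

section Normalise

variable (A : ValuationSubring Kb) {M N : ℕ} [NeZero M] [NeZero N]
  (φ : FN M →ₐ[Kb] FN N) (hint : ArithEquivariant φ)

/-- The leading coefficient of the `q`-expansion. -/
local notation "lc" => Fermat.Agent.S36.H61.lcQ

theorem lcQ_mul' (K : ℕ) (x y : FN K) : lc K (x * y) = lc K x * lc K y :=
  (Fermat.Agent.S36.H61.leadCoeffH K ⊤).lc_mul x y

theorem lcQ_algebraMap' (K : ℕ) (c : Kb) : lc K (algebraMap Kb (FN K) c) = c :=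
  (Fermat.Agent.S36.H61.leadCoeffH K ⊤).lc_algebraMap c

theorem lcQ_pow' (K : ℕ) (x : FN K) (n : ℕ) : lc K (x ^ n) = lc K x ^ n := by
  induction n with
  | zero =>
    rw [pow_zero, pow_zero]
    have := lcQ_algebraMap' K 1
    rwa [map_one] at this
  | succ n ih => rw [pow_succ, pow_succ, lcQ_mul', ih]

theorem lcQ_arith (K : ℕ) (σ : Kb ≃ₐ[ℚ] Kb) (x : FN K) :
    lc K (arithmeticRingAut (modularFunctionFieldFull K) σ x) = σ (lc K x) :=
  Fermat.Agent.S36.H61.lcQ_galois K σ x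

include hint in
/-- **DIV→NORM in `L0`.**  If `f` is fixed by inertia and the push-forward of `div f` along `φ`
is `n · div g`, `n ≠ 0`, then `N_φ f = c · g₀ ^ n` with `c ≠ 0` fixed by inertia and `g₀`
fixed by inertia, of leading coefficient `1`, with the divisor of `g`. -/
theorem divNorm_L0 (hφ : φ.toRingHom.IsIntegral) (hfin : FiniteAlong Kb φ)
    (hN : NormFormulaAlong Kb φ hfin) (n : ℕ) (hn : n ≠ 0)
    (f : FN N) (hf : f ≠ 0) (hfI : f ∈ L0 A N)
    (D : Divisor Kb (FN N)) (hD : ∀ P : Place Kb (FN N), D P = P.ord f)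
    (g : FN M) (hg : g ≠ 0)
    (hpush : ∀ Q : Place Kb (FN M), Divisor.pushforwardAlong φ hφ D Q = n * Q.ord g) :
    ∃ (c : Kb) (g₀ : FN M), c ≠ 0 ∧ (∀ σ ∈ A.inertiaSubgroupIn ℚ, σ c = c) ∧
      g₀ ≠ 0 ∧ g₀ ∈ L0 A M ∧ (g₀ : LaurentSeries Kb).leadingCoeff = 1 ∧
      (∀ Q : Place Kb (FN M), Q.ord g₀ = Q.ord g) ∧
      normAlongHom φ.toRingHom f = algebraMap Kb (FN M) c * g₀ ^ n := by
  obtain ⟨c₁, hc₁, hNf⟩ := norm_eq_const_mul_pow φ hφ hfin hN n f hf D hD g hg hpush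
  -- normalise `g`
  set a : Kb := lc M g with ha
  have ha0 : a ≠ 0 := (Fermat.Agent.S36.H61.leadCoeffH M ⊤).lc_ne_zero g hg
  set g₀ : FN M := algebraMap Kb (FN M) a⁻¹ * g with hg₀
  have hai0 : algebraMap Kb (FN M) a⁻¹ ≠ 0 :=
    (map_ne_zero_iff _ (algebraMap Kb (FN M)).injective).mpr (inv_ne_zero ha0)
  have hg₀0 : g₀ ≠ 0 := mul_ne_zero hai0 hg
  have hlc : lc M g₀ = 1 := by
    rw [hg₀, lcQ_mul', lcQ_algebraMap', ← ha, inv_mul_cancel₀ ha0]
  set c : Kb := c₁ * a ^ n with hc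
  have hc0 : c ≠ 0 := mul_ne_zero hc₁ (pow_ne_zero n ha0)
  have hNf' : normAlongHom φ.toRingHom f = algebraMap Kb (FN M) c * g₀ ^ n := by
    have h0 : algebraMap Kb (FN M) (a ^ n) * algebraMap Kb (FN M) (a⁻¹ ^ n) = 1 := by
      rw [← map_mul, inv_pow, mul_inv_cancel₀ (pow_ne_zero n ha0), map_one]
    rw [hNf, hc, hg₀, mul_pow, map_mul, ← map_pow (algebraMap Kb (FN M)) a⁻¹ n, mul_assoc,
      ← mul_assoc (algebraMap Kb (FN M) (a ^ n)), h0, one_mul]
  -- the norm is fixed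
  have hfix : normAlongHom φ.toRingHom f ∈ L0 A M := norm_mem_L0 A φ hint hfin f hfI
  have hlcN : lc M (normAlongHom φ.toRingHom f) = c := by
    rw [hNf', lcQ_mul', lcQ_algebraMap', lcQ_pow', hlc, one_pow, mul_one]
  have hcfix : ∀ σ ∈ A.inertiaSubgroupIn ℚ, σ c = c := by
    intro σ hσ
    rw [← hlcN, ← lcQ_arith, hfix σ hσ]
  have hg₀fix : g₀ ∈ L0 A M := by
    intro σ hσ
    set s := arithmeticRingAut (modularFunctionFieldFull M) σ with hs
    have h1 : s (normAlongHom φ.toRingHom f) = normAlongHom φ.toRingHom f := hfix σ hσ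
    rw [hNf', map_mul, map_pow, hs, arithmeticRingAut_algebraMap, hcfix σ hσ, ← hs] at h1
    have hc0' : algebraMap Kb (FN M) c ≠ 0 :=
      (map_ne_zero_iff _ (algebraMap Kb (FN M)).injective).mpr hc0
    have h2 : s g₀ ^ n = g₀ ^ n := mul_left_cancel₀ hc0' h1
    have hsg0 : s g₀ ≠ 0 := (map_ne_zero_iff _ s.injective).mpr hg₀0
    -- the quotient is a root of unity, hence constant
    have h3 : (s g₀ * g₀⁻¹) ^ n = 1 := by
      rw [mul_pow, h2, inv_pow, mul_inv_cancel₀ (pow_ne_zero n hg₀0)]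
    have hu : ∀ Q : Place Kb (FN M), Q.ord (s g₀ * g₀⁻¹) = 0 := by
      intro Q
      have h4 : (n : ℤ) * Q.ord (s g₀ * g₀⁻¹) = 0 := by
        rw [← Fermat.Agent.RED.H17.ord_pow, h3, Q.ord_one]
      rcases mul_eq_zero.mp h4 with h5 | h5
      · exact absurd (by exact_mod_cast h5) hn
      · exact h5
    obtain ⟨c', hc'⟩ := Fermat.Agent.FL.H2.exists_const_of_ord_eq_zero (isFF_FN M) hu
    have h6 : lc M (s g₀ * g₀⁻¹) * lc M g₀ = lc M (s g₀) := by
      rw [← lcQ_mul', inv_mul_cancel_right₀ hg₀0]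
    rw [← hc', lcQ_algebraMap', hs, lcQ_arith, hlc, map_one, mul_one] at h6
    rw [h6, map_one] at hc'
    have h7 : s g₀ = g₀ := by
      have := congrArg (· * g₀) hc'
      simp only [one_mul, inv_mul_cancel_right₀ hg₀0] at this
      exact this.symm
    exact h7
  refine ⟨c, g₀, hc0, hcfix, hg₀0, hg₀fix, hlc, fun Q => ?_, hNf'⟩
  rw [hg₀, Fermat.Agent.RED.H17.ord_algebraMap_mul Q (inv_ne_zero ha0)]

end Normalise

/-! ## The two degeneracy maps -/

section Modular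

variable (A : ValuationSubring Kb) (M q : ℕ) [NeZero M] [NeZero q]

/-- **DIV→NORM in `L0` along `α`**, with the hypotheses of `H81.Stmt_NUCoreK`. -/
theorem divNorm_L0_alpha (n : ℕ) (hn : n ≠ 0) (f : ↥(FNbar (M * q))) (hf : f ≠ 0)
    (hfI : ∀ σ ∈ A.inertiaSubgroupIn ℚ, galF (M * q) σ • f = f)
    (hα : HeckeAlphaBarIntegral Kb M q) (D : Divisor Kb ↥(FNbar (M * q)))
    (hD : ∀ P, D P = P.ord f)
    (h : ∃ g : ↥(FNbar M), g ≠ 0 ∧ ∀ Q : Place Kb ↥(FNbar M),
      Divisor.pushforwardAlong (heckeAlphaBar Kb M q) hα D Q = n * Q.ord g) :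
    ∃ (c : Kb) (g₀ : ↥(FNbar M)), c ≠ 0 ∧ (∀ σ ∈ A.inertiaSubgroupIn ℚ, σ c = c) ∧
      g₀ ≠ 0 ∧ g₀ ∈ L0 A M ∧ (g₀ : LaurentSeries Kb).leadingCoeff = 1 ∧
      normAlongHom (heckeAlphaBar Kb M q).toRingHom f = algebraMap Kb ↥(FNbar M) c * g₀ ^ n := by
  obtain ⟨g, hg, hpush⟩ := h
  obtain ⟨c, g₀, h1, h2, h3, h4, h5, -, h7⟩ :=
    divNorm_L0 A (heckeAlphaBar Kb M q) (arithEquivariant_alpha M q) hα (alpha_finite M q)
      (alpha_norm M q) n hn f hf hfI D hD g hg hpush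
  exact ⟨c, g₀, h1, h2, h3, h4, h5, h7⟩

/-- **DIV→NORM in `L0` along `β`**, with the hypotheses of `H81.Stmt_NUCoreK`. -/
theorem divNorm_L0_beta (n : ℕ) (hn : n ≠ 0) (f : ↥(FNbar (M * q))) (hf : f ≠ 0)
    (hfI : ∀ σ ∈ A.inertiaSubgroupIn ℚ, galF (M * q) σ • f = f)
    (hβ : HeckeBetaBarIntegral Kb M q) (D : Divisor Kb ↥(FNbar (M * q)))
    (hD : ∀ P, D P = P.ord f)
    (h : ∃ g : ↥(FNbar M), g ≠ 0 ∧ ∀ Q : Place Kb ↥(FNbar M),
      Divisor.pushforwardAlong (heckeBetaBar Kb M q) hβ D Q = n * Q.ord g) :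
    ∃ (c : Kb) (g₀ : ↥(FNbar M)), c ≠ 0 ∧ (∀ σ ∈ A.inertiaSubgroupIn ℚ, σ c = c) ∧
      g₀ ≠ 0 ∧ g₀ ∈ L0 A M ∧ (g₀ : LaurentSeries Kb).leadingCoeff = 1 ∧
      normAlongHom (heckeBetaBar Kb M q).toRingHom f = algebraMap Kb ↥(FNbar M) c * g₀ ^ n := by
  obtain ⟨g, hg, hpush⟩ := h
  obtain ⟨c, g₀, h1, h2, h3, h4, h5, -, h7⟩ :=
    divNorm_L0 A (heckeBetaBar Kb M q) (arithEquivariant_beta M q) hβ (beta_finite M q)
      (beta_norm M q) n hn f hf hfI D hD g hg hpush
  exact ⟨c, g₀, h1, h2, h3, h4, h5, h7⟩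

end Modular

end Fermat.Agent.S36.NU.H26
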