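import Fermat.Agent.S36.NU.H88_ChartInt
import Fermat.Agent.S36.NU.H17_TIGauss

/-!
# S36 / NU-B, leaf RADQ-MOD, part 1 (helper28): the Gauss property of `V₂₀` on `K^ur[j]`

Level `N = M q²`, `q ∤ M`, `F = L0 A N`, `K = Kur A`, `R = Rur A`, `j = j0 A N`.

* `transcendental_Jred` : the reduction `j~` of `j` is transcendental over `k`;
* `r20_const`, `const_of_mem_V20o` : constants and `V₂₀`;
* `transcendental_r20_j0`, `transcendental_r20_j0_inv`;
* `gauss_j0`, `gauss_j0_inv` : **(G)** `p ∈ K[X]`, `p(j) ∈ V₂₀` (resp. `p(1/j) ∈ V₂₀`) ⟹ `p ∈ R[X]`.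
-/

set_option autoImplicit false
set_option synthInstance.maxHeartbeats 400000
set_option maxHeartbeats 1000000
set_option linter.style.haveILetI false
set_option linter.unusedSectionVars false

noncomputable section

open ModularCurve AlgebraicCurve Polynomial
open Fermat.Agent.S24 Fermat.Agent.BAD.H88 Fermat.Agent.S28 Fermat.Agent.S28.H73
open Fermat.Agent.RED.H73 Fermat.Agent.RED.H17 Fermat.Agent.S36.NU.H88
open Fermat.Agent.S36.NU.H23 Fermat.Agent.S36.NU.H41 Fermat.Agent.S36.NU.H17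

namespace Fermat.Agent.S36.NU.H28

section Gauss

variable (A : ValuationSubring Kbar) (q M : ℕ) (B k : ℤ) (hB : B * M + k * q = 1) (hq : q.Prime)
  [NeZero M] [NeZero q] [NeZero (M * q * q)] (hqM : ¬ q ∣ M) (hA : A.LiesOverPrime q)

/-- The reduction of `j` is transcendental over `k`. -/
theorem transcendental_Jred : Transcendental (kV A) (Jred A) := by
  apply transcendental_of_order_neg
  have h1 : (Jred A).coeff (-1 : ℤ) ≠ 0 := by
    rw [show Jred A = coeffMap (Int.castRingHom (kV A)) jInt from rfl, coeffMap_coeff,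
      jInt_coeff_neg_one, map_one]
    exact one_ne_zero
  have h2 : (Jred A).order ≤ -1 := HahnSeries.order_le_of_coeff_ne_zero h1
  omega

theorem r20_const (r : ↥(Rur A))
    (h : algebraMap ↥(Rur A) ↥(L0 A (M * q * q)) r ∈ V20o A q M) :
    r20 A q M hq hqM hA ⟨_, h⟩ = algebraMap (kV A) (FM A M) (resRur A r) :=
  Subtype.ext (s20_const A q M r h)

theorem const_of_mem_V20o (c : ↥(Kur A))
    (h : algebraMap ↥(Kur A) ↥(L0 A (M * q * q)) c ∈ V20o A q M) :
    c ∈ (algebraMap ↥(Rur A) ↥(Kur A)).range := by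
  have h1 : algebraMap Kbar (FN (M * q * q)) (c : Kbar) ∈ V20 A (M * q * q) := h
  rw [const_mem20] at h1
  exact ⟨⟨c, h1⟩, rfl⟩

theorem transcendental_r20_j0 (h : j0 A (M * q * q) ∈ V20o A q M) :
    Transcendental (kV A) (r20 A q M hq hqM hA ⟨_, h⟩) := by
  apply transcendental_subtype
  rw [coe_r20, s20_j0]
  exact transcendental_Jred A

/-! ### Inverses in a valuation ring with a residue map -/

section Inv

variable {F κ : Type*} [Field F] [Field κ] (V : ValuationSubring F) (red : ↥V →+* κ)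
  (hker : ∀ u : ↥V, ¬ IsUnit u → red u = 0)

include hker in
theorem inv_mem_of_red_ne_zero {x : F} (hx : x ∈ V) (h : red ⟨x, hx⟩ ≠ 0) : x⁻¹ ∈ V := by
  have hu : IsUnit (⟨x, hx⟩ : ↥V) := by
    by_contra hnu
    exact h (hker _ hnu)
  obtain ⟨u, hu'⟩ := hu
  have h1 : x * (((u⁻¹ : (↥V)ˣ) : ↥V) : F) = 1 := by
    have h2 : (u : ↥V) * ((u⁻¹ : (↥V)ˣ) : ↥V) = 1 := u.mul_inv
    rw [hu'] at h2
    exact congrArg (fun z : ↥V => (z : F)) h2
  rw [← eq_inv_of_mul_eq_one_right h1]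
  exact ((u⁻¹ : (↥V)ˣ) : ↥V).2

theorem red_inv_eq {x : F} (hx : x ∈ V) (hxi : x⁻¹ ∈ V) (h0 : x ≠ 0) :
    red ⟨x⁻¹, hxi⟩ = (red ⟨x, hx⟩)⁻¹ := by
  have h1 : red ⟨x, hx⟩ * red ⟨x⁻¹, hxi⟩ = 1 := by
    rw [← map_mul]
    have : (⟨x, hx⟩ : ↥V) * ⟨x⁻¹, hxi⟩ = 1 := Subtype.ext (mul_inv_cancel₀ h0)
    rw [this, map_one]
  exact eq_inv_of_mul_eq_one_right h1

end Inv

include hq hqM hA in
theorem j0_inv_mem_V20o : (j0 A (M * q * q))⁻¹ ∈ V20o A q M :=
  inv_mem_of_red_ne_zero (V20o A q M) (r20 A q M hq hqM hA)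
    (r20_eq_zero_of_not_isUnit A q M hq hqM hA) (j0_mem20 A q M)
    (fun h0 => transcendental_r20_j0 A q M hq hqM hA (j0_mem20 A q M)
      (h0 ▸ isAlgebraic_zero))

theorem transcendental_r20_j0_inv (h : (j0 A (M * q * q))⁻¹ ∈ V20o A q M) :
    Transcendental (kV A) (r20 A q M hq hqM hA ⟨_, h⟩) := by
  rw [red_inv_eq (V20o A q M) (r20 A q M hq hqM hA) (j0_mem20 A q M) h
    (j0_ne_zero A (M * q * q))]
  intro halg
  apply transcendental_r20_j0 A q M hq hqM hA (j0_mem20 A q M)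
  have := halg.inv
  rwa [inv_inv] at this

/-! ### (G) -/

include hq hqM hA in
/-- **(G)** for `j`: a polynomial over `K^ur` whose value at `j` is integral for `V₂₀` has its
coefficients in `R^ur`. -/
theorem gauss_j0 (p : (↥(Kur A))[X]) (hp : aeval (j0 A (M * q * q)) p ∈ V20o A q M) (i : ℕ) :
    p.coeff i ∈ (algebraMap ↥(Rur A) ↥(Kur A)).range :=
  gauss_of_transcendental_red (V20o A q M) (r20 A q M hq hqM hA)
    (fun u hu => r20_eq_zero_of_not_isUnit A q M hq hqM hA u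
      ((IsLocalRing.mem_maximalIdeal u).1 hu))
    (resRur A) (const_mem_V20o A q M) (fun r => r20_const A q M hq hqM hA r _)
    (const_of_mem_V20o A q M) (j0 A (M * q * q)) (j0_mem20 A q M)
    (transcendental_r20_j0 A q M hq hqM hA _) p hp i

include hq hqM hA in
/-- **(G)** for `1 / j`. -/
theorem gauss_j0_inv (p : (↥(Kur A))[X]) (hp : aeval (j0 A (M * q * q))⁻¹ p ∈ V20o A q M)
    (i : ℕ) : p.coeff i ∈ (algebraMap ↥(Rur A) ↥(Kur A)).range :=
  gauss_of_transcendental_red (V20o A q M) (r20 A q M hq hqM hA)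
    (fun u hu => r20_eq_zero_of_not_isUnit A q M hq hqM hA u
      ((IsLocalRing.mem_maximalIdeal u).1 hu))
    (resRur A) (const_mem_V20o A q M) (fun r => r20_const A q M hq hqM hA r _)
    (const_of_mem_V20o A q M) (j0 A (M * q * q))⁻¹ (j0_inv_mem_V20o A q M hq hqM hA)
    (transcendental_r20_j0_inv A q M hq hqM hA _) p hp i

end Gauss

end Fermat.Agent.S36.NU.H28
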