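import Fermat.Agent.S36.NU.H10_Top
import Fermat.Agent.S36.NU.H28_RadQMod
import Fermat.Agent.S36.NU.H88_Gauss

/-!
# S36 / NU-B (helper28): `TopInputs` from the local data alone

`H10.TopInputs` has five fields; three of them are unconditional:
`hjdd` (helper88 `jdd_mem_intSub_mod`), `hrad0`, `hradoo` (`H28.hrad0`, `H28.hradoo`).

* `topInputs_of_pt` : `TopInputs` from `hpt0`, `hptoo` only.
-/

set_option autoImplicit false
set_option synthInstance.maxHeartbeats 400000
set_option maxHeartbeats 1000000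
set_option linter.style.haveILetI false
set_option linter.unusedSectionVars false

noncomputable section

open ModularCurve AlgebraicCurve IntermediateField

attribute [local instance] Classical.propDecidable

namespace Fermat.Agent.S36.NU.H28

open Fermat.Agent.S24 Fermat.Agent.BAD Fermat.Agent.BAD.H88 Fermat.Agent.S28 Fermat.Agent.S28.H73
  Fermat.Agent.S36.NU.H23
  Fermat.Agent.S36.NU.H41 Fermat.Agent.S36.NU.H88 Fermat.Agent.S36.NU.H16
  Fermat.Agent.S36.NU.H17 Fermat.Agent.S36.NU.H24 Fermat.Agent.S36.NU.H79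
  Fermat.Agent.S36.NU.H65 Fermat.Agent.S36.NU.H74 Fermat.Agent.S36.NU.H10

section Top

variable (A : ValuationSubring Kbar) (q M : ℕ) (B k : ℤ) (hB : B * M + k * q = 1) (hq : q.Prime)
  [NeZero M] [NeZero q] [NeZero (M * q)] [NeZero (M * q * q)]
  (hqM : ¬ q ∣ M) (hA : A.LiesOverPrime q) (ht : H91.TameAt M q)

attribute [local instance] algkM

/-- **`TopInputs` from the local data** `hpt0`, `hptoo` alone. -/
theorem topInputs_of_pt (D : NUDataM A q M)
    (hpt0 : PointData (chart0 A q M B k hB hq hqM hA ht) D ((q : ℕ) : ↥(Rur A)))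
    (hptoo : ∀ 𝔪 : Ideal (chartInf A q M B k hB hq hqM hA ht).B, 𝔪.IsMaximal →
      (∃ i, (chartInf A q M B k hB hq hqM hA ht).Icomp i ≤ 𝔪) →
      (∀ β : (chartInf A q M B k hB hq hqM hA ht).B,
        (β : ↥(L0 A (M * q * q))) = (j0 A (M * q * q))⁻¹ → β ∈ 𝔪) →
      PointDataAt (chartInf A q M B k hB hq hqM hA ht) D ((q : ℕ) : ↥(Rur A)) 𝔪) :
    TopInputs A q M B k hB hq hqM hA ht D where
  hjdd := H88.jdd_mem_intSub_mod A q M B k hB hq hqM hA ht
  hpt0 := hpt0
  hptoo := hptoo
  hrad0 := H28.hrad0 A q M B k hB hq hqM hA ht _ (by exact_mod_cast hq.ne_zero)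
  hradoo := H28.hradoo A q M B k hB hq hqM hA ht _ (by exact_mod_cast hq.ne_zero)

end Top

end Fermat.Agent.S36.NU.H28
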