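import Fermat.Agent.S36.NU.H30_Ram
import Fermat.Agent.BAD.H94_Arith23

/-!
# S36 / NU-B, leaf RAM (helper30): the packaged statement at auxiliary level

`q ≥ 5`, `q ∤ M`, `4 ∣ M` (so that `X₀(M)` has no elliptic points), `A` over `q`,
`κ = modularFunctionFieldFullC (kV A) M`, `j~ = ⟨jqModC, _⟩ ∈ κ`.

* `ram_nuTwo_eq_zero_of_four_dvd` : `4 ∣ M → ν₂(M) = 0`;
* `ram_exists` : at every place `z` of `κ` at which `j~` is regular there are `j0` and
  `e ∈ {1, 3, 2}` with `ord_z (j~ - j0) = e`, `e = 3` iff `j0 = 0`, `e = 2` iff `j0 = 1728`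
  (the hypotheses `hram`, `hcase` of helper73's `coord_u4_full`).
-/

set_option autoImplicit false
set_option linter.style.haveILetI false
set_option linter.unusedSectionVars false
set_option synthInstance.maxHeartbeats 400000
set_option maxHeartbeats 1000000

noncomputable section

open AlgebraicCurve IntermediateField ModularCurve

namespace Fermat.Agent.S36.NU.H30

open Fermat.Agent.S28.H73 Fermat.Agent.RED.H73 Fermat.Agent.RED Fermat.Agent.RED.H34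
  Fermat.Agent.BAD
open Fermat.Agent.S24 (Kbar FN)

/-- `ν₂(M) = 0` if `4 ∣ M`. -/
theorem ram_nuTwo_eq_zero_of_four_dvd {M : ℕ} (h : 4 ∣ M) : nuTwo M = 0 := by
  unfold nuTwo
  have : IsEmpty {x : ZMod M // x ^ 2 + 1 = 0} := by
    refine ⟨fun x => ?_⟩
    have h1 := congrArg (ZMod.castHom h (ZMod 4)) x.2
    rw [map_add, map_pow, map_one, map_zero] at h1
    revert h1
    generalize (ZMod.castHom h (ZMod 4)) x.1 = y
    revert y
    decide
  exact Nat.card_of_isEmpty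

section Main

variable {A : ValuationSubring Kbar} {M q : ℕ} [NeZero M]

/-- **RAM, packaged**, on the reduced field of level `M`. -/
theorem ram_exists_red (hq : q.Prime) (h5 : 5 ≤ q) (hqM : ¬ q ∣ M) (hA : A.LiesOverPrime q)
    (h2 : nuTwo M = 0) (h3 : nuThree M = 0) (z : Place (kV A) ↥(H91.redM A M))
    (hz : 0 ≤ z.ord (H91.jRed A M)) :
    ∃ (j0 : kV A) (e : ℕ),
      z.ord (H91.jRed A M - algebraMap (kV A) ↥(H91.redM A M) j0) = e ∧
      ((j0 ≠ 0 ∧ j0 ≠ 1728 ∧ e = 1) ∨ (j0 = 0 ∧ e = 3) ∨ (j0 = 1728 ∧ e = 2)) := by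
  haveI : IsAlgClosed (kV A) := isAlgClosed_kV A
  have hFF' : IsFF (kV A) ↥(H91.redM A M) := H91.isFF_redM hq hqM (Or.inl h5) hA
  have H' := RED.H17.ffHyp_of_isFF _ _ hFF'
  obtain ⟨htr, -⟩ := goodChart_pre M q hq hqM A hA
  have htr' : Transcendental (kV A) (H91.jRed A M) := htr
  obtain ⟨j0, hj0⟩ := Fermat.Agent.S24.H85.exists_ord_sub_pos z (H'.deg_one z) htr'
    (Fermat.Agent.S24.H85.mem_of_ord_nonneg z hz)
  by_cases h0 : j0 = 0
  · refine ⟨j0, 3, ?_, Or.inr (Or.inl ⟨h0, rfl⟩)⟩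
    subst h0
    rw [map_zero, sub_zero] at hj0 ⊢
    exact_mod_cast ram_zero_eq hq h5 hqM hA h3 z hj0
  by_cases h1 : j0 = 1728
  · refine ⟨j0, 2, ?_, Or.inr (Or.inr ⟨h1, rfl⟩)⟩
    subst h1
    exact_mod_cast ram_1728_eq hq h5 hqM hA h2 z hj0
  · refine ⟨j0, 1, ?_, Or.inl ⟨h0, h1, rfl⟩⟩
    exact_mod_cast ram_generic_eq hq h5 hqM hA j0 h0 h1 z hj0

/-- Transport of `ram_exists_red` to an equal intermediate field. -/
theorem ram_exists_of (hq : q.Prime) (h5 : 5 ≤ q) (hqM : ¬ q ∣ M) (hA : A.LiesOverPrime q)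
    (h2 : nuTwo M = 0) (h3 : nuThree M = 0)
    (E : IntermediateField (kV A) (LaurentSeries (kV A))) (hE : H91.redM A M = E) (jE : ↥E)
    (hj : (jE : LaurentSeries (kV A)) = jqModC (kV A)) (z : Place (kV A) ↥E)
    (hz : 0 ≤ z.ord jE) :
    ∃ (j0 : kV A) (e : ℕ),
      z.ord (jE - algebraMap (kV A) ↥E j0) = e ∧
      ((j0 ≠ 0 ∧ j0 ≠ 1728 ∧ e = 1) ∨ (j0 = 0 ∧ e = 3) ∨ (j0 = 1728 ∧ e = 2)) := by
  subst hE
  have e1 : jE = H91.jRed A M := Subtype.ext (hj.trans (red_jF (A := A) (N := M)).symm)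
  rw [e1] at hz ⊢
  exact ram_exists_red hq h5 hqM hA h2 h3 z hz

/-- **RAM, packaged** (`q ≥ 5`, `q ∤ M`, `4 ∣ M`): the hypotheses `hram`, `hcase` of helper73's
`coord_u4_full`, at every place of `κ` at which `j~` is regular. -/
theorem ram_exists (hq : q.Prime) (h5 : 5 ≤ q) (hqM : ¬ q ∣ M) (hA : A.LiesOverPrime q)
    (h4 : 4 ∣ M) (z : Place (kV A) ↥(modularFunctionFieldFullC (kV A) M))
    (hz : 0 ≤ z.ord (⟨jqModC (kV A), jqModC_mem_full (kV A) M⟩ :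
      ↥(modularFunctionFieldFullC (kV A) M))) :
    ∃ (j0 : kV A) (e : ℕ),
      z.ord ((⟨jqModC (kV A), jqModC_mem_full (kV A) M⟩ : ↥(modularFunctionFieldFullC (kV A) M))
        - algebraMap (kV A) ↥(modularFunctionFieldFullC (kV A) M) j0) = e ∧
      ((j0 ≠ 0 ∧ j0 ≠ 1728 ∧ e = 1) ∨ (j0 = 0 ∧ e = 3) ∨ (j0 = 1728 ∧ e = 2)) :=
  ram_exists_of hq h5 hqM hA (ram_nuTwo_eq_zero_of_four_dvd h4)
    (Fermat.Agent.BAD.H94.nuThree_eq_zero_of_two_dvd (Dvd.dvd.trans (by norm_num) h4))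
    (modularFunctionFieldFullC (kV A) M) (stmt_GA M q hq hqM A hA) _ rfl z hz

end Main

end Fermat.Agent.S36.NU.H30
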