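import Fermat.Agent.S36.NU.H73_CoordC
import Fermat.Agent.S36.NU.H30_RamFull

/-!
# S36 / NU-B, COORD for `q ≥ 5`, unconditional (helper30): helper73's COORD + RAM

`q ≥ 5`, `q ∤ M`, `4 ∣ M`, `A` over `q`, `κ = modularFunctionFieldFullC (kV A) M`.

* `coord_u4_final` : at every place `z` of `κ` at which `j~` is regular, `ū = Δ̄(t)/Δ̄(t⁴)` is a
  unit and `ū - c` is a local coordinate for some constant `c`.
* `coord_u4_ram` : the same together with the RAM data `(j0, e)`.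
-/

set_option autoImplicit false
set_option linter.style.haveILetI false
set_option linter.unusedSectionVars false
set_option synthInstance.maxHeartbeats 400000
set_option maxHeartbeats 1000000

noncomputable section

open AlgebraicCurve IntermediateField ModularCurve

namespace Fermat.Agent.S36.NU.H30

open Fermat.Agent.S28.H73 Fermat.Agent.RED.H73 Fermat.Agent.RED Fermat.Agent.BAD
open Fermat.Agent.S24 (Kbar FN)

variable (A : ValuationSubring Kbar) (q : ℕ) (hq : q.Prime) (hA : A.LiesOverPrime q)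
  (M : ℕ) [NeZero M]

/-- **COORD + RAM** (`q ≥ 5`, `4 ∣ M`): at every place of `κ` at which `j~` is regular. -/
theorem coord_u4_ram (hqM : ¬ q ∣ M) (h5 : 5 ≤ q) (h4 : 4 ∣ M)
    (z : Place (kV A) ↥(modularFunctionFieldFullC (kV A) M))
    (hz : 0 ≤ z.ord (⟨jqModC (kV A), jqModC_mem_full (kV A) M⟩ :
      ↥(modularFunctionFieldFullC (kV A) M))) :
    ∃ (j0 : kV A) (e : ℕ),
      z.ord ((⟨jqModC (kV A), jqModC_mem_full (kV A) M⟩ : ↥(modularFunctionFieldFullC (kV A) M))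
        - algebraMap (kV A) ↥(modularFunctionFieldFullC (kV A) M) j0) = e ∧
      ((j0 ≠ 0 ∧ j0 ≠ 1728 ∧ e = 1) ∨ (j0 = 0 ∧ e = 3) ∨ (j0 = 1728 ∧ e = 2)) ∧
      z.ord (⟨H73.ubar4 (kV A), H73.ubar4_mem A q hq hA M hqM h4⟩ :
        ↥(modularFunctionFieldFullC (kV A) M)) = 0 ∧
      ∃ c : kV A, z.ord ((⟨H73.ubar4 (kV A), H73.ubar4_mem A q hq hA M hqM h4⟩ :
          ↥(modularFunctionFieldFullC (kV A) M))
        - algebraMap (kV A) ↥(modularFunctionFieldFullC (kV A) M) c) = 1 := by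
  obtain ⟨j0, e, hram, hcase⟩ := ram_exists hq h5 hqM hA h4 z hz
  obtain ⟨h1, h2⟩ := H73.coord_u4_full A q hq hA M hqM h5 h4 z j0 e hram hcase
  exact ⟨j0, e, hram, hcase, h1, h2⟩

/-- **COORD** (`q ≥ 5`, `4 ∣ M`), unconditional: `ū = Δ̄(t)/Δ̄(t⁴)` is a unit and (up to a
constant) a local coordinate at every place of `κ` at which `j~` is regular. -/
theorem coord_u4_final (hqM : ¬ q ∣ M) (h5 : 5 ≤ q) (h4 : 4 ∣ M)
    (z : Place (kV A) ↥(modularFunctionFieldFullC (kV A) M))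
    (hz : 0 ≤ z.ord (⟨jqModC (kV A), jqModC_mem_full (kV A) M⟩ :
      ↥(modularFunctionFieldFullC (kV A) M))) :
    z.ord (⟨H73.ubar4 (kV A), H73.ubar4_mem A q hq hA M hqM h4⟩ :
        ↥(modularFunctionFieldFullC (kV A) M)) = 0 ∧
      ∃ c : kV A, z.ord ((⟨H73.ubar4 (kV A), H73.ubar4_mem A q hq hA M hqM h4⟩ :
          ↥(modularFunctionFieldFullC (kV A) M))
        - algebraMap (kV A) ↥(modularFunctionFieldFullC (kV A) M) c) = 1 := by
  obtain ⟨-, -, -, -, h1, h2⟩ := coord_u4_ram A q hq hA M hqM h5 h4 z hz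
  exact ⟨h1, h2⟩

end Fermat.Agent.S36.NU.H30
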