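import Fermat.Agent.RED.H17_Red
import Fermat.Agent.RED.H51_ZerosLe

/-!
# S36 / NU-B, leaf RAM (helper30): abstract part

* `ram_comb` : combinatorial core.  `r : α → β`, `d` a function on a finite set `s` all of whose
  positive values are equal to `e`, `Z₁` a finite set of points of `β` over which `d` has no
  negative value and at which the push-forward `∑_{r a = b} d a` is positive.  If
  `#{a ∈ s : d a > 0} ≤ #Z₁` then the push-forward is `e` at every point of `Z₁`.
* `ram_abs_ge` : for a reduction setup `S` (helper17's `RedSetup`, with the divisor identity), a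
  Gauss unit `f`: if the zeros of `f` all have order `e` and the poles of `f` do not reduce to
  zeros of `rd f`, then every zero of `rd f` has order `≥ e`.
* `ram_abs` : if moreover `rd f` has at least as many zeros as `f`, then every zero of `rd f`
  has order exactly `e`.
-/

set_option autoImplicit false
set_option linter.style.haveILetI false
set_option linter.unusedSectionVars false

noncomputable section

open AlgebraicCurve

namespace Fermat.Agent.S36.NU.H30

section Comb

variable {α β : Type*}

open Classical in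
/-- **Combinatorial core of RAM.** -/
theorem ram_comb (r : α → β) (s : Finset α) (d : α → ℤ) (e : ℤ) (Z₁ : Finset β)
    (hD : ∀ a ∈ s, 0 < d a → d a = e)
    (hnn : ∀ a ∈ s, r a ∈ Z₁ → 0 ≤ d a)
    (hpos : ∀ b ∈ Z₁, 0 < ∑ a ∈ s, if r a = b then d a else 0)
    (hcard : (s.filter (fun a => 0 < d a)).card ≤ Z₁.card) :
    ∀ b ∈ Z₁, (∑ a ∈ s, if r a = b then d a else 0) = e := by
  -- the value of the push-forward at a point of `Z₁`
  have hval : ∀ b ∈ Z₁, (∑ a ∈ s, if r a = b then d a else 0)
      = ((s.filter (fun a => r a = b ∧ 0 < d a)).card : ℤ) * e := by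
    intro b hb
    rw [← nsmul_eq_mul, ← Finset.sum_const, Finset.sum_filter]
    refine Finset.sum_congr rfl fun a ha => ?_
    by_cases h1 : r a = b
    · have h2 := hnn a ha (h1 ▸ hb)
      by_cases h3 : 0 < d a
      · rw [if_pos h1, if_pos ⟨h1, h3⟩, hD a ha h3]
      · rw [if_pos h1, if_neg (fun h => h3 h.2)]
        omega
    · rw [if_neg h1, if_neg (fun h => h1 h.1)]
  -- every fibre is nonempty
  have hn1 : ∀ b ∈ Z₁, 1 ≤ (s.filter (fun a => r a = b ∧ 0 < d a)).card := by
    intro b hb
    have h1 := hpos b hb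
    rw [hval b hb] at h1
    rcases Nat.eq_zero_or_pos (s.filter (fun a => r a = b ∧ 0 < d a)).card with h0 | h0
    · rw [h0] at h1
      simp at h1
    · exact h0
  -- the sum of the fibre cardinalities
  have hsum : ∑ b ∈ Z₁, (s.filter (fun a => r a = b ∧ 0 < d a)).card
      = (s.filter (fun a => r a ∈ Z₁ ∧ 0 < d a)).card := by
    rw [Finset.card_eq_sum_card_fiberwise (f := r) (t := Z₁)
      (s := s.filter (fun a => r a ∈ Z₁ ∧ 0 < d a))
      (fun a ha => (Finset.mem_filter.1 ha).2.1)]
    refine Finset.sum_congr rfl fun b hb => ?_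
    congr 1
    ext a
    simp only [Finset.mem_filter]
    constructor
    · rintro ⟨h1, h2, h3⟩
      exact ⟨⟨h1, h2 ▸ hb, h3⟩, h2⟩
    · rintro ⟨⟨h1, -, h3⟩, h2⟩
      exact ⟨h1, h2, h3⟩
  have hle : (s.filter (fun a => r a ∈ Z₁ ∧ 0 < d a)).card
      ≤ (s.filter (fun a => 0 < d a)).card := by
    apply Finset.card_le_card
    intro a ha
    rw [Finset.mem_filter] at ha ⊢
    exact ⟨ha.1, ha.2.2⟩
  have htot : ∑ b ∈ Z₁, (s.filter (fun a => r a = b ∧ 0 < d a)).card = ∑ _b ∈ Z₁, 1 := by
    apply le_antisymm
    · rw [hsum, Finset.sum_const, smul_eq_mul, mul_one]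
      exact le_trans hle hcard
    · exact Finset.sum_le_sum hn1
  have hall := (Finset.sum_eq_sum_iff_of_le hn1).1 htot.symm
  intro b hb
  rw [hval b hb, ← hall b hb, Nat.cast_one, one_mul]

end Comb

section Abs

variable {K F k F' : Type*} [Field K] [Field F] [Algebra K F] [Field k] [Field F'] [Algebra k F']

open Fermat.Agent.RED.H17

/-- **RAM, abstract, lower bound**: the zeros of the reduction of `f` have order `≥ e` if all
zeros of `f` have order `e` (and no pole of `f` reduces to a zero of `rd f`). -/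
theorem ram_abs_ge (S : RedSetup K F k F') (hP : HasPrincipalDivisors K F) {f : F}
    (hf : S.IsGU f) (e : ℤ)
    (he : ∀ P : Place K F, 0 < P.ord f → P.ord f = e)
    (hreg : ∀ P : Place K F, 0 < (S.r P).ord (S.rd f) → 0 ≤ P.ord f)
    (Q : Place k F') (hQ : 0 < Q.ord (S.rd f)) : e ≤ Q.ord (S.rd f) := by
  obtain ⟨P, hPQ, hpos⟩ := S.exists_zero_of_ord_rd_pos hP hf Q hQ
  have h1 := S.ord_le_ord_rd hP hf Q (fun P' hP' => hreg P' (by rw [hP']; exact hQ)) hPQ
  rw [he P hpos] at h1
  exact h1

open Classical in
/-- **RAM, abstract**: the zeros of the reduction of `f` have order exactly `e` if all zeros of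
`f` have order `e`, no pole of `f` reduces to a zero of `rd f`, and `rd f` has at least as many
zeros as `f`. -/
theorem ram_abs (S : RedSetup K F k F') (hP : HasPrincipalDivisors K F) {f : F}
    (hf : S.IsGU f) (e : ℤ)
    (he : ∀ P : Place K F, 0 < P.ord f → P.ord f = e)
    (hreg : ∀ P : Place K F, 0 < (S.r P).ord (S.rd f) → 0 ≤ P.ord f)
    (hfin : {Q : Place k F' | 0 < Q.ord (S.rd f)}.Finite)
    (hcard : Nat.card {P : Place K F // 0 < P.ord f}
      ≤ Nat.card {Q : Place k F' // 0 < Q.ord (S.rd f)})
    (Q : Place k F') (hQ : 0 < Q.ord (S.rd f)) : Q.ord (S.rd f) = e := by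
  have hsupp : ∀ P : Place K F, 0 < P.ord f ↔
      P ∈ (dv hP f).support.filter (fun P => 0 < P.ord f) := by
    intro P
    rw [Finset.mem_filter, Finsupp.mem_support_iff, dv_apply]
    constructor
    · intro h
      exact ⟨by omega, h⟩
    · intro h
      exact h.2
  have hc0 : Nat.card {P : Place K F // 0 < P.ord f}
      = ((dv hP f).support.filter (fun P => 0 < P.ord f)).card := by
    rw [← Nat.card_eq_finsetCard]
    exact Nat.card_congr (Equiv.subtypeEquivRight hsupp)
  have hc1 : Nat.card {Q : Place k F' // 0 < Q.ord (S.rd f)} = hfin.toFinset.card := by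
    rw [← Nat.card_eq_finsetCard]
    exact Nat.card_congr (Equiv.subtypeEquivRight fun Q => by
      rw [Set.Finite.mem_toFinset, Set.mem_ofPred_eq])
  have key := ram_comb S.r (dv hP f).support (fun P => P.ord f) e hfin.toFinset
    (fun P _ h => he P h)
    (fun P _ h => hreg P (by
      rw [Set.Finite.mem_toFinset, Set.mem_ofPred_eq] at h
      exact h))
    (fun Q' hQ' => by
      rw [Set.Finite.mem_toFinset, Set.mem_ofPred_eq] at hQ'
      rw [← S.ord_rd_eq_sum hP hf Q']
      exact hQ')
    (by rw [← hc0, ← hc1]; exact hcard)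
    Q (by rw [Set.Finite.mem_toFinset, Set.mem_ofPred_eq]; exact hQ)
  rw [S.ord_rd_eq_sum hP hf Q]
  exact key

end Abs

end Fermat.Agent.S36.NU.H30
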