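import Fermat.Agent.S36.NU.H41_PtHyps
import Fermat.Agent.S36.NU.H99_Pt0

/-!
# S36 / NU-B, leaf (M4) PT-HYPS (helper41): the three point hypotheses for `chart0`

The hypotheses `hnc`, `hsurj`, `hSSchar` of helper99's `H99.pointData_chart0_of`, in its exact
shape (chart `H88.chart0`, witnesses `H99.wit0`), and the resulting `PointData`.

* `hnc_chart0`, `hsurj_chart0`, `hSSchar_chart0`;
* `pointData_chart0` : `PointData chart0 D q` from the middle ordinary points, the local equations
  at the supersingular points and the branches.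
-/

set_option autoImplicit false
set_option synthInstance.maxHeartbeats 400000
set_option maxHeartbeats 1000000
set_option linter.style.haveILetI false
set_option linter.unusedSectionVars false

noncomputable section

open ModularCurve AlgebraicCurve

namespace Fermat.Agent.S36.NU.H41

open Fermat.Agent.S24 Fermat.Agent.BAD.H88 Fermat.Agent.S28 Fermat.Agent.S28.H73
  Fermat.Agent.RED.H73 Fermat.Agent.RED.H17 Fermat.Agent.S36.NU.H88 Fermat.Agent.S36.NU.H23
  Fermat.Agent.S36.NU.H16 Fermat.Agent.S36.NU.H79 Fermat.Agent.S36.NU.H99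
  Fermat.Agent.S36.NU.H74 Fermat.Agent.S36.NU.H24 Fermat.Agent.BAD Fermat.Agent.RED

section Chart0

variable (A : ValuationSubring Kbar) (q M : ℕ) (B k : ℤ) (hB : B * M + k * q = 1) (hq : q.Prime)
  [NeZero M] [NeZero q] [NeZero (M * q)] [NeZero (M * q * q)] (hqM : ¬ q ∣ M)
  (hA : A.LiesOverPrime q) (ht : H91.TameAt M q)

attribute [local instance] algkM

/-- **(hnc)** for the chart of `j`. -/
theorem hnc_chart0 :
    ∀ i : Fin 3, ∃ β : (chart0 A q M B k hB hq hqM hA ht).B,
      ∀ c : kV A, (chart0 A q M B k hB hq hqM hA ht).rdB i β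
        ≠ algebraMap (kV A) (kap3 (FM A M) (FM A M) i) c :=
  hnc_mod A q M B k hB hq hqM hA ht (resRur A) (chartInput0 A q M B k hB hq hqM hA ht)

/-- **(hsurj)** for the chart of `j`. -/
theorem hsurj_chart0 :
    ∀ (i : Fin 3) (v : Place (kV A) (kap3 (FM A M) (FM A M) i)),
      (∀ β : (chart0 A q M B k hB hq hqM hA ht).B,
        RegAt v ((chart0 A q M B k hB hq hqM hA ht).rdB i β)) →
      ∃ z, (totM A q M B k hB hq hqM hA ht).pt i z = v :=
  fun i v _ => hsurj_mod A q M B k hB hq hqM hA ht i v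

/-- **(hSSchar)** for the chart of `j` and the witnesses `wit0 = (E20, eps1, E02)`. -/
theorem hSSchar_chart0 :
    ∀ (i : Fin 3) (z : Place (kV A) (FM A M)),
      (∀ β : (chart0 A q M B k hB hq hqM hA ht).B,
        RegAt ((totM A q M B k hB hq hqM hA ht).pt i z)
          ((chart0 A q M B k hB hq hqM hA ht).rdB i β)) →
      VanAt ((totM A q M B k hB hq hqM hA ht).pt i z)
        ((chart0 A q M B k hB hq hqM hA ht).rdB i (wit0 A q M B k hB hq hqM hA ht i)) →
      z ∈ ssM A q M :=
  hSSchar_mod A q M B k hB hq hqM hA ht (resRur A) (chartInput0 A q M B k hB hq hqM hA ht)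
    (wit0 A q M B k hB hq hqM hA ht) rfl rfl rfl

/-- **The local data of the chart of `j`** (`hpt0`), from the middle ordinary points, the local
equations at the supersingular points and the branches. -/
theorem pointData_chart0 (D : NUDataM A q M) (hD : IsNuM A q M B k hB hq hqM hA ht D)
    (hmid : (chartL0_mod A q M B k hB hq hqM hA ht).Mid)
    (hss : ∀ z ∈ ssM A q M, ∀ 𝔪 : Ideal (chart0 A q M B k hB hq hqM hA ht).B, 𝔪.IsMaximal →
      (∀ β : (chart0 A q M B k hB hq hqM hA ht).B,
        β ∈ 𝔪 ↔ VanAt ((totM A q M B k hB hq hqM hA ht).pt 0 z)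
          ((chart0 A q M B k hB hq hqM hA ht).rdB 0 β)) →
      Nonempty (LocEq (chart0 A q M B k hB hq hqM hA ht) ((q : ℕ) : ↥(Rur A)) 𝔪))
    (hbr : ∀ 𝔪 : Ideal (chart0 A q M B k hB hq hqM hA ht).B, 𝔪.IsMaximal → ∀ i,
      (chart0 A q M B k hB hq hqM hA ht).Icomp i ≤ 𝔪 →
      Nonempty (Branch (chart0 A q M B k hB hq hqM hA ht) 𝔪 i)) :
    PointData (chart0 A q M B k hB hq hqM hA ht) D ((q : ℕ) : ↥(Rur A)) :=
  pointData_chart0_of A q M B k hB hq hqM hA ht D hD hmid
    (hnc_chart0 A q M B k hB hq hqM hA ht) (hsurj_chart0 A q M B k hB hq hqM hA ht)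
    (hSSchar_chart0 A q M B k hB hq hqM hA ht) hss hbr

end Chart0

end Fermat.Agent.S36.NU.H41
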