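import Mathlib
import Fermat.Prelude.Def_AlgebraicCurve_DivisorClassGroup

/-!
# S36 NU-B, leaf UNRAM-CONST, part R (helper41): restriction of a place to a subfield

`exists_place_restrict`: for a ring homomorphism `φ : F₁ → F₂` of fields and a place `w` of `F₂`
which is not trivial on `F₁`, the restriction of `w` to `F₁` is a place `v` of `F₁` with
`ord_w (φ g) = e * ord_v g` for a positive integer `e`.
(The argument is the one of `GTor.H56.dvd_ord_map` (helper56), isolated as a statement.)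
-/

set_option autoImplicit false
set_option linter.style.haveILetI false

noncomputable section

namespace Fermat.Agent.S36.NU.H41

open AlgebraicCurve

section General

variable {k K F₁ F₂ : Type*} [Field k] [Field K] [Field F₁] [Field F₂]
  [Algebra k F₁] [Algebra K F₂]

theorem mem_of_ord_nonneg (v : Place K F₂) {f : F₂} (h : 0 ≤ v.ord f) :
    f ∈ v.toValuationSubring := by
  rcases eq_or_ne f 0 with rfl | hf
  · exact v.toValuationSubring.zero_mem
  obtain ⟨π, hπ⟩ := IsDiscreteValuationRing.exists_irreducible v.toValuationSubring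
  obtain ⟨u, hu⟩ := v.exists_unit_mul_zpow hf hπ
  obtain ⟨n, hn⟩ := Int.eq_ofNat_of_zero_le h
  rw [hu, hn, zpow_natCast]
  exact v.toValuationSubring.mul_mem _ _ (Subtype.mem _)
    (v.toValuationSubring.pow_mem (Subtype.mem _) n)

theorem ord_nonneg_of_mem (v : Place K F₂) {f : F₂} (h : f ∈ v.toValuationSubring) :
    0 ≤ v.ord f := by
  rcases eq_or_ne f 0 with rfl | hf
  · simp
  have h1 : v.adicValuation f ≤ 1 := by
    have := v.adicValuation_coe ⟨f, h⟩
    rw [show ((⟨f, h⟩ : v.toValuationSubring) : F₂) = f from rfl] at this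
    rw [this]
    exact IsDedekindDomain.HeightOneSpectrum.intValuation_le_one _ _
  have h2 : WithZero.log (v.adicValuation f) ≤ 0 := by
    rw [← WithZero.log_one]
    exact (WithZero.log_le_log (v.adicValuation_ne_zero hf) one_ne_zero).mpr h1
  simp only [Place.ord]
  omega

theorem mem_iff_ord_nonneg (v : Place K F₂) {f : F₂} :
    f ∈ v.toValuationSubring ↔ 0 ≤ v.ord f :=
  ⟨ord_nonneg_of_mem v, mem_of_ord_nonneg v⟩

/-- an element of the valuation ring is a unit iff its order is `0` -/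
theorem isUnit_iff_ord_eq_zero (v : Place K F₂) (x : v.toValuationSubring)
    (hx : (x : F₂) ≠ 0) : IsUnit x ↔ v.ord (x : F₂) = 0 := by
  constructor
  · intro hu
    obtain ⟨u, rfl⟩ := hu
    exact v.ord_coe_unit u
  · intro h
    have hinv : (x : F₂)⁻¹ ∈ v.toValuationSubring := by
      rw [mem_iff_ord_nonneg, v.ord_inv, h, neg_zero]
    refine isUnit_iff_exists_inv.mpr ⟨⟨_, hinv⟩, Subtype.ext ?_⟩
    simp [mul_inv_cancel₀ hx]

/-- membership in the maximal ideal -/
theorem mem_maximalIdeal_iff_ord_pos (v : Place K F₂) (x : v.toValuationSubring)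
    (hx : (x : F₂) ≠ 0) :
    x ∈ IsLocalRing.maximalIdeal v.toValuationSubring ↔ 0 < v.ord (x : F₂) := by
  rw [IsLocalRing.mem_maximalIdeal, mem_nonunits_iff, isUnit_iff_ord_eq_zero v x hx]
  have h0 := ord_nonneg_of_mem v x.2
  omega

/-- **Restriction of places.** -/
theorem exists_place_restrict (φ : F₁ →+* F₂) (w : Place K F₂)
    (hk : ∀ c : k, φ (algebraMap k F₁ c) ∈ w.toValuationSubring)
    (hnt : ∃ g : F₁, g ≠ 0 ∧ w.ord (φ g) ≠ 0) :
    ∃ (v : Place k F₁) (e : ℕ), 0 < e ∧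
      v.toValuationSubring = w.toValuationSubring.comap φ ∧
      ∀ g : F₁, w.ord (φ g) = e * v.ord g := by
  classical
  set V : ValuationSubring F₁ := w.toValuationSubring.comap φ with hV
  set ν : F₁ → ℤ := fun g => w.ord (φ g) with hν
  have hne : ∀ {g : F₁}, g ≠ 0 → φ g ≠ 0 := fun hg => (map_ne_zero φ).mpr hg
  have hν_mul : ∀ {g h : F₁}, g ≠ 0 → h ≠ 0 → ν (g * h) = ν g + ν h := by
    intro g h hg hh
    simp only [hν, map_mul]
    exact w.ord_mul (hne hg) (hne hh)
  have hν_inv : ∀ g : F₁, ν g⁻¹ = - ν g := by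
    intro g
    simp only [hν, map_inv₀]
    exact w.ord_inv _
  have hν_zpow : ∀ (g : F₁) (z : ℤ), ν (g ^ z) = z * ν g := by
    intro g z
    simp only [hν, map_zpow₀]
    exact w.ord_zpow _ _
  have hV_iff : ∀ {g : F₁}, (g ∈ V ↔ 0 ≤ ν g) := by
    intro g
    rw [hV, ValuationSubring.mem_comap]
    exact mem_iff_ord_nonneg w
  have htop : V ≠ ⊤ := by
    intro htop
    obtain ⟨g, hg0, hg⟩ := hnt
    have h1 : 0 ≤ ν g := hV_iff.mp (htop ▸ ValuationSubring.mem_top g)
    have h2 : 0 ≤ ν g⁻¹ := hV_iff.mp (htop ▸ ValuationSubring.mem_top _)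
    rw [hν_inv] at h2
    have : ν g = 0 := by omega
    exact hg this
  -- a positive value exists
  have hex : ∃ m : ℕ, 0 < m ∧ ∃ g : F₁, g ≠ 0 ∧ ν g = (m : ℤ) := by
    obtain ⟨g, hg0, hg⟩ := hnt
    have hg' : ν g ≠ 0 := hg
    rcases lt_or_gt_of_ne hg' with h | h
    · refine ⟨(- ν g).toNat, by omega, g⁻¹, inv_ne_zero hg0, ?_⟩
      rw [hν_inv]
      omega
    · exact ⟨(ν g).toNat, by omega, g, hg0, by omega⟩
  obtain ⟨e, ⟨he0, π₀, hπ₀, hπν⟩, hmin⟩ : ∃ e : ℕ, (0 < e ∧ ∃ g : F₁, g ≠ 0 ∧ ν g = (e : ℤ)) ∧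
      ∀ m : ℕ, m < e → ¬ (0 < m ∧ ∃ g : F₁, g ≠ 0 ∧ ν g = (m : ℤ)) :=
    ⟨Nat.find hex, Nat.find_spec hex, fun m hm => Nat.find_min hex hm⟩
  -- Claim A
  have hA : ∀ {g : F₁}, g ≠ 0 → (e : ℤ) ∣ ν g := by
    intro g hg
    have hr0 : 0 ≤ ν g % (e : ℤ) := Int.emod_nonneg _ (by omega)
    have hr1 : ν g % (e : ℤ) < e := Int.emod_lt_of_pos _ (by omega)
    have hg' : g * π₀ ^ (- (ν g / (e : ℤ))) ≠ 0 := mul_ne_zero hg (zpow_ne_zero _ hπ₀)
    have hval : ν (g * π₀ ^ (- (ν g / (e : ℤ)))) = ν g % (e : ℤ) := by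
      rw [hν_mul hg (zpow_ne_zero _ hπ₀), hν_zpow, hπν, Int.emod_def]
      ring
    by_contra hnd
    have hrpos : 0 < ν g % (e : ℤ) := by
      rcases hr0.lt_or_eq with h | h
      · exact h
      · exact absurd (Int.dvd_of_emod_eq_zero h.symm) hnd
    refine hmin (ν g % (e : ℤ)).toNat (by omega) ⟨by omega, _, hg', ?_⟩
    rw [hval]
    omega
  have hπV : π₀ ∈ V := hV_iff.mpr (by rw [hπν]; omega)
  -- units of V
  have hunit : ∀ x : V, (x : F₁) ≠ 0 → ν (x : F₁) = 0 → IsUnit x := by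
    intro x hx0 hx
    have hxinv : (x : F₁)⁻¹ ∈ V := hV_iff.mpr (by rw [hν_inv, hx, neg_zero])
    refine isUnit_iff_exists_inv.mpr ⟨⟨_, hxinv⟩, Subtype.ext ?_⟩
    simp [mul_inv_cancel₀ hx0]
  have hunit' : ∀ x : V, IsUnit x → ν (x : F₁) = 0 := by
    intro x hx
    obtain ⟨y, hy⟩ := isUnit_iff_exists_inv.mp hx
    have hy' : (x : F₁) * (y : F₁) = 1 := by
      have := congrArg Subtype.val hy
      simpa using this
    have hx0 : (x : F₁) ≠ 0 := left_ne_zero_of_mul_eq_one hy'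
    have hy0 : (y : F₁) ≠ 0 := right_ne_zero_of_mul_eq_one hy'
    have h1 := hV_iff.mp x.2
    have h2 := hV_iff.mp y.2
    have h3 : ν ((x : F₁) * (y : F₁)) = 0 := by
      rw [hy']
      simp [hν]
    rw [hν_mul hx0 hy0] at h3
    omega
  set p : V := ⟨π₀, hπV⟩ with hp
  have hp0 : p ≠ 0 := fun h0 => hπ₀ (congrArg Subtype.val h0)
  have hpirr : Irreducible p := by
    refine ⟨fun hu => ?_, fun a b hab => ?_⟩
    · have := hunit' p hu
      rw [show ((p : V) : F₁) = π₀ from rfl, hπν] at this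
      omega
    · have hab' : π₀ = (a : F₁) * (b : F₁) := congrArg Subtype.val hab
      have ha0 : (a : F₁) ≠ 0 := fun h0 => hπ₀ (by rw [hab', h0, zero_mul])
      have hb0 : (b : F₁) ≠ 0 := fun h0 => hπ₀ (by rw [hab', h0, mul_zero])
      have hsum : ν (a : F₁) + ν (b : F₁) = e := by
        rw [← hν_mul ha0 hb0, ← hab', hπν]
      have ha1 := hV_iff.mp a.2
      have hb1 := hV_iff.mp b.2
      obtain ⟨qa, hqa⟩ := hA ha0
      obtain ⟨qb, hqb⟩ := hA hb0
      have he' : (0 : ℤ) < e := by omega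
      have hqa0 : 0 ≤ qa := by
        by_contra hcon
        have : (e : ℤ) * qa < 0 := mul_neg_of_pos_of_neg he' (not_le.mp hcon)
        omega
      have hqb0 : 0 ≤ qb := by
        by_contra hcon
        have : (e : ℤ) * qb < 0 := mul_neg_of_pos_of_neg he' (not_le.mp hcon)
        omega
      have hq : qa + qb = 1 := by
        have : (e : ℤ) * (qa + qb) = e * 1 := by rw [mul_add, ← hqa, ← hqb, hsum, mul_one]
        exact mul_left_cancel₀ (by omega) this
      have hcase : qa = 0 ∨ qb = 0 := by omega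
      rcases hcase with h0 | h0
      · left
        exact hunit a ha0 (by rw [hqa, h0, mul_zero])
      · right
        exact hunit b hb0 (by rw [hqb, h0, mul_zero])
  have hfact : IsDiscreteValuationRing.HasUnitMulPowIrreducibleFactorization V := by
    refine ⟨p, hpirr, fun {x} hx => ?_⟩
    have hx0 : (x : F₁) ≠ 0 := fun h0 => hx (Subtype.ext h0)
    obtain ⟨q, hq⟩ := hA hx0
    have hx1 := hV_iff.mp x.2
    have he' : (0 : ℤ) < e := by omega
    have hq0 : 0 ≤ q := by
      by_contra hcon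
      have : (e : ℤ) * q < 0 := mul_neg_of_pos_of_neg he' (not_le.mp hcon)
      omega
    obtain ⟨m, rfl⟩ := Int.eq_ofNat_of_zero_le hq0
    refine ⟨m, ?_⟩
    have hu0 : (x : F₁) * (π₀ ^ m)⁻¹ ≠ 0 := mul_ne_zero hx0 (inv_ne_zero (pow_ne_zero _ hπ₀))
    have huν : ν ((x : F₁) * (π₀ ^ m)⁻¹) = 0 := by
      rw [hν_mul hx0 (inv_ne_zero (pow_ne_zero _ hπ₀)), hν_inv, ← zpow_natCast, hν_zpow, hπν, hq]
      ring
    have huV : (x : F₁) * (π₀ ^ m)⁻¹ ∈ V := hV_iff.mpr (by rw [huν])
    have hU : IsUnit (⟨_, huV⟩ : V) := hunit ⟨_, huV⟩ hu0 huν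
    refine ⟨hU.unit, Subtype.ext ?_⟩
    simp only [IsUnit.unit_spec, MulMemClass.coe_mul, SubmonoidClass.coe_pow, hp]
    field_simp
  haveI hDVR : IsDiscreteValuationRing V :=
    IsDiscreteValuationRing.ofHasUnitMulPowIrreducibleFactorization hfact
  let v : Place k F₁ :=
    { toValuationSubring := V
      algebraMap_mem' := fun a => by
        rw [hV, ValuationSubring.mem_comap]
        exact hk a
      ne_top' := htop
      isPrincipalIdealRing' := inferInstance }
  have hp' : Irreducible (p : v.toValuationSubring) := hpirr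
  refine ⟨v, e, he0, rfl, ?_⟩
  intro f
  rcases eq_or_ne f 0 with rfl | hf
  · simp
  obtain ⟨u, hu⟩ := v.exists_unit_mul_zpow hf hp'
  have huν : ν ((u : v.toValuationSubring) : F₁) = 0 := hunit' _ u.isUnit
  have hu0 : ((u : v.toValuationSubring) : F₁) ≠ 0 := by
    intro h0
    rw [h0, zero_mul] at hu
    exact hf hu
  have key : ν f = v.ord f * e := by
    conv_lhs => rw [hu]
    rw [hν_mul hu0 (zpow_ne_zero _ hπ₀), huν, zero_add, hν_zpow, hπν]
  show ν f = e * v.ord f
  rw [key, mul_comm]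

end General

end Fermat.Agent.S36.NU.H41
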