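import Mathlib
import Fermat.Prelude.Def_AlgebraicCurve_DivisorClassGroup
import Fermat.Agent.S36.NU.H41_DvrUrB
import Fermat.Agent.S36.NU.H41_UnramR

/-!
# S36 NU-B, leaf UNRAM-CONST, part A (helper41): extensions generated by constants are unramified

`F₁ / F₀` a finite Galois extension of fields of characteristic `0`, `w` a place of `F₁`,
`C ⊆ F₁` a Galois-stable set of "constants" (integral over a field `K₀ ⊆ F₀` contained in the
valuation ring, pairwise differences units at `w`) generating `F₁` over `F₀`.  Then `F₀`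
contains a uniformiser of `w`: the inertia group of `w` is trivial.
-/

set_option autoImplicit false
set_option linter.style.haveILetI false

noncomputable section

namespace Fermat.Agent.S36.NU.H41

open AlgebraicCurve MulAction Pointwise Ideal IsDedekindDomain

section

variable {K₀ K F₀ F₁ : Type*} [Field K₀] [CharZero K₀] [Field K] [Field F₀] [Field F₁]
  [Algebra K F₁] [Algebra K₀ F₀] [Algebra F₀ F₁] [Algebra K₀ F₁] [IsScalarTower K₀ F₀ F₁]
  [FiniteDimensional F₀ F₁] [IsGalois F₀ F₁]

/-- Elements of `F₁` integral over a subring of the valuation ring lie in the valuation ring. -/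
theorem mem_of_isIntegral_of_le (V : ValuationSubring F₁) {R : Type*} [CommRing R]
    [Algebra R F₁] (hR : ∀ r : R, algebraMap R F₁ r ∈ V) (x : F₁) (hx : IsIntegral R x) :
    x ∈ V := by
  letI : Algebra R V := ((algebraMap R F₁).codRestrict V.toSubring hR).toAlgebra
  haveI : IsScalarTower R V F₁ := IsScalarTower.of_algebraMap_eq fun r => rfl
  have h1 : IsIntegral V x := hx.tower_top
  obtain ⟨y, hy⟩ := (IsIntegrallyClosed.isIntegral_iff (R := V) (K := F₁)).1 h1
  rw [← hy]
  exact y.2

/-- **UNRAM-CONST, abstract form.** -/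
theorem exists_ord_eq_one_of_galois (w : Place K F₁)
    (hK₀ : ∀ a : K₀, algebraMap K₀ F₁ a ∈ w.toValuationSubring)
    (C : Set F₁) (hCint : ∀ c ∈ C, IsIntegral K₀ c)
    (hCunit : ∀ c ∈ C, ∀ c' ∈ C, c ≠ c' → (c - c')⁻¹ ∈ w.toValuationSubring)
    (hstab : ∀ σ : F₁ ≃ₐ[F₀] F₁, ∀ c ∈ C, σ c ∈ C)
    (hgen : IntermediateField.adjoin F₀ C = ⊤) :
    ∃ t : F₀, w.ord (algebraMap F₀ F₁ t) = 1 := by
  classical
  -- a uniformiser of `w`
  obtain ⟨πw, hπw⟩ := IsDiscreteValuationRing.exists_irreducible w.toValuationSubring
  have hπw1 : w.ord (πw : F₁) = 1 := w.ord_coe_irreducible hπw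
  have hπw0 : (πw : F₁) ≠ 0 := by
    intro h
    rw [h, Place.ord_zero] at hπw1
    exact zero_ne_one hπw1
  -- `w` is not trivial on `F₀`
  have hnt : ∃ g : F₀, g ≠ 0 ∧ w.ord (algebraMap F₀ F₁ g) ≠ 0 := by
    by_contra hcon
    push Not at hcon
    have hF₀ : ∀ g : F₀, algebraMap F₀ F₁ g ∈ w.toValuationSubring := by
      intro g
      rcases eq_or_ne g 0 with rfl | hg
      · rw [map_zero]; exact w.toValuationSubring.zero_mem
      · rw [mem_iff_ord_nonneg, hcon g hg]
    have h1 : (πw : F₁)⁻¹ ∈ w.toValuationSubring :=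
      mem_of_isIntegral_of_le w.toValuationSubring hF₀ _ (Algebra.IsIntegral.isIntegral _)
    rw [mem_iff_ord_nonneg, w.ord_inv, hπw1] at h1
    omega
  have hk : ∀ c : K₀, algebraMap F₀ F₁ (algebraMap K₀ F₀ c) ∈ w.toValuationSubring := by
    intro c
    rw [← IsScalarTower.algebraMap_apply]
    exact hK₀ c
  obtain ⟨v, e, he, hvV, hord⟩ := exists_place_restrict (k := K₀) (algebraMap F₀ F₁) w hk hnt
  -- the rings
  have hAF : ∀ a : v.toValuationSubring,
      algebraMap v.toValuationSubring F₁ a = algebraMap F₀ F₁ (a : F₀) := fun a => rfl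
  have hA𝒪 : ∀ a : v.toValuationSubring,
      algebraMap v.toValuationSubring F₁ a ∈ w.toValuationSubring := by
    intro a
    rw [hAF, mem_iff_ord_nonneg, hord]
    have := ord_nonneg_of_mem v a.2
    positivity
  have hB𝒪 : ∀ b : integralClosure v.toValuationSubring F₁,
      (b : F₁) ∈ w.toValuationSubring := fun b =>
    mem_of_isIntegral_of_le w.toValuationSubring hA𝒪 _ b.2
  -- the prime of `B` cut out by `w`
  let ψ : integralClosure v.toValuationSubring F₁ →+* w.toValuationSubring :=
    (algebraMap (integralClosure v.toValuationSubring F₁) F₁).codRestrict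
      w.toValuationSubring.toSubring hB𝒪
  have hψ : ∀ b, ((ψ b : w.toValuationSubring) : F₁) = (b : F₁) := fun b => rfl
  set P₁ : Ideal (integralClosure v.toValuationSubring F₁) :=
    (IsLocalRing.maximalIdeal w.toValuationSubring).comap ψ with hP₁
  have hP₁prime : P₁.IsPrime := Ideal.comap_isPrime ψ _
  have hmemP₁ : ∀ b : integralClosure v.toValuationSubring F₁, (b : F₁) ≠ 0 →
      (b ∈ P₁ ↔ 0 < w.ord (b : F₁)) := by
    intro b hb
    rw [hP₁, Ideal.mem_comap, mem_maximalIdeal_iff_ord_pos w (ψ b) (by rw [hψ]; exact hb), hψ]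
  -- a uniformiser of `v`
  obtain ⟨πv, hπv⟩ := IsDiscreteValuationRing.exists_irreducible v.toValuationSubring
  have hπv1 : v.ord (πv : F₀) = 1 := v.ord_coe_irreducible hπv
  have hπv0 : (πv : F₀) ≠ 0 := by
    intro h
    rw [h, Place.ord_zero] at hπv1
    exact zero_ne_one hπv1
  have hπvw : w.ord (algebraMap F₀ F₁ (πv : F₀)) = e := by
    rw [hord, hπv1, mul_one]
  refine ⟨(πv : F₀), ?_⟩
  rw [hπvw]
  -- it suffices to show `e = 1`
  suffices hsuff : e = 1 by rw [hsuff]; rfl
  have hp0 : IsLocalRing.maximalIdeal v.toValuationSubring ≠ ⊥ :=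
    IsDiscreteValuationRing.not_a_field _
  -- `P₁` lies over the maximal ideal of `A`
  have hlies : P₁.LiesOver (IsLocalRing.maximalIdeal v.toValuationSubring) := by
    refine ⟨Ideal.ext fun a => ?_⟩
    rw [Ideal.under_def, Ideal.mem_comap]
    rcases eq_or_ne (a : F₀) 0 with h0 | h0
    · have ha : a = 0 := Subtype.ext h0
      rw [ha, map_zero]
      exact ⟨fun _ => P₁.zero_mem, fun _ => Ideal.zero_mem _⟩
    · have h1 : ((algebraMap v.toValuationSubring
          (integralClosure v.toValuationSubring F₁) a :
            integralClosure v.toValuationSubring F₁) : F₁) = algebraMap F₀ F₁ (a : F₀) := rfl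
      have h2 : ((algebraMap v.toValuationSubring
          (integralClosure v.toValuationSubring F₁) a :
            integralClosure v.toValuationSubring F₁) : F₁) ≠ 0 := by
        rw [h1]
        exact (map_ne_zero _).mpr h0
      rw [hmemP₁ _ h2, h1, hord, mem_maximalIdeal_iff_ord_pos v a h0]
      constructor
      · intro h
        positivity
      · intro h
        by_contra hcon
        have h3 : v.ord (a : F₀) ≤ 0 := not_lt.mp hcon
        have h4 : (e : ℤ) * v.ord (a : F₀) ≤ 0 :=
          mul_nonpos_of_nonneg_of_nonpos (by positivity) h3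
        omega
  haveI : IsFractionRing (integralClosure v.toValuationSubring F₁) F₁ :=
    integralClosure.isFractionRing_of_finite_extension F₀ F₁
  haveI : IsDedekindDomain (integralClosure v.toValuationSubring F₁) :=
    integralClosure.isDedekindDomain v.toValuationSubring F₀ F₁
  haveI : Module.Finite v.toValuationSubring (integralClosure v.toValuationSubring F₁) :=
    IsIntegralClosure.finite v.toValuationSubring F₀ F₁ _
  haveI : IsGaloisGroup Gal(F₁/F₀) v.toValuationSubring
      (integralClosure v.toValuationSubring F₁) := .of_isFractionRing _ _ _ F₀ F₁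
  haveI : FaithfulSMul v.toValuationSubring (integralClosure v.toValuationSubring F₁) := by
    rw [faithfulSMul_iff_algebraMap_injective]
    intro x y hxy
    have h1 := congrArg (fun b : integralClosure v.toValuationSubring F₁ => (b : F₁)) hxy
    have h2 : algebraMap F₀ F₁ (x : F₀) = algebraMap F₀ F₁ (y : F₀) := h1
    exact Subtype.ext ((algebraMap F₀ F₁).injective h2)
  haveI : Module.IsTorsionFree v.toValuationSubring
      (integralClosure v.toValuationSubring F₁) := by
    rw [Module.isTorsionFree_iff_faithfulSMul]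
    infer_instance
  have hP₁0 : P₁ ≠ ⊥ := Ideal.ne_bot_of_liesOver_of_ne_bot hp0 P₁
  haveI : P₁.IsMaximal := Ring.DimensionLEOne.maximalOfPrime hP₁0 hP₁prime
  -- the residue field of `A` has characteristic zero
  haveI : CharZero (IsLocalRing.maximalIdeal v.toValuationSubring).ResidueField :=
    charZero_of_injective_ringHom
      (((algebraMap v.toValuationSubring
        (IsLocalRing.maximalIdeal v.toValuationSubring).ResidueField).comp
          (algebraMap K₀ v.toValuationSubring)).injective)
  -- the inertia group is trivial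
  have hinert : P₁.inertia Gal(F₁/F₀) = ⊥ := by
    rw [eq_bot_iff]
    intro σ hσ
    rw [Subgroup.mem_bot]
    have hfixC : ∀ c ∈ C, σ c = c := by
      intro c hc
      have hcint : IsIntegral v.toValuationSubring c := by
        have h1 : IsIntegral K₀ c := hCint c hc
        letI : Algebra K₀ (integralClosure v.toValuationSubring F₁) :=
          ((algebraMap v.toValuationSubring (integralClosure v.toValuationSubring F₁)).comp
            (algebraMap K₀ v.toValuationSubring)).toAlgebra
        haveI : IsScalarTower K₀ v.toValuationSubring F₁ :=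
          IsScalarTower.of_algebraMap_eq fun r => by
            rw [IsScalarTower.algebraMap_apply K₀ F₀ F₁]
            rfl
        exact h1.tower_top
      by_contra hne
      have h1 : σ • (⟨c, hcint⟩ : integralClosure v.toValuationSubring F₁) - ⟨c, hcint⟩ ∈ P₁ :=
        hσ ⟨c, hcint⟩
      have h2 : ((σ • (⟨c, hcint⟩ : integralClosure v.toValuationSubring F₁) - ⟨c, hcint⟩ :
          integralClosure v.toValuationSubring F₁) : F₁) = σ c - c := rfl
      have h3 : σ c - c ≠ 0 := sub_ne_zero.mpr hne
      rw [hmemP₁ _ (by rw [h2]; exact h3), h2] at h1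
      have h4 := hCunit (σ c) (hstab σ c hc) c hc hne
      rw [mem_iff_ord_nonneg, w.ord_inv] at h4
      omega
    -- `σ` fixes `adjoin F₀ C = ⊤`
    have hle : IntermediateField.adjoin F₀ C ≤ IntermediateField.fixedField (Subgroup.zpowers σ) := by
      rw [IntermediateField.adjoin_le_iff]
      intro c hc
      rw [SetLike.mem_coe, IntermediateField.mem_fixedField_iff]
      rintro τ ⟨n, rfl⟩
      have h1 : σ c = c := hfixC c hc
      have h2 : ∀ m : ℕ, (σ ^ m) c = c := by
        intro m
        induction m with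
        | zero => rfl
        | succ m ih => rw [pow_succ, AlgEquiv.mul_apply, h1, ih]
      have h3 : σ⁻¹ c = c := by
        show σ.symm c = c
        rw [AlgEquiv.symm_apply_eq]
        exact h1.symm
      have h4 : ∀ m : ℕ, (σ⁻¹ ^ m) c = c := by
        intro m
        induction m with
        | zero => rfl
        | succ m ih => rw [pow_succ, AlgEquiv.mul_apply, h3, ih]
      rcases Int.eq_nat_or_neg n with ⟨m, rfl | rfl⟩
      · show (σ ^ (m : ℤ)) c = c
        rw [zpow_natCast]; exact h2 m
      · show (σ ^ (-(m : ℤ))) c = c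
        rw [zpow_neg, zpow_natCast, ← inv_pow]; exact h4 m
    ext x
    have hx : x ∈ IntermediateField.fixedField (Subgroup.zpowers σ) := hle (hgen ▸ IntermediateField.mem_top)
    rw [IntermediateField.mem_fixedField_iff] at hx
    exact hx σ (Subgroup.mem_zpowers σ)
  have hcard : Nat.card (P₁.inertia Gal(F₁/F₀))
      = (IsLocalRing.maximalIdeal v.toValuationSubring).ramificationIdxIn
          (integralClosure v.toValuationSubring F₁) :=
    card_inertia_eq_ramificationIdxIn (IsLocalRing.maximalIdeal v.toValuationSubring) P₁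
  rw [hinert, Subgroup.card_bot,
    ramificationIdxIn_eq_ramificationIdx (IsLocalRing.maximalIdeal v.toValuationSubring) P₁
      Gal(F₁/F₀)] at hcard
  have he1 : P₁.ramificationIdx v.toValuationSubring = 1 := hcard.symm
  -- the uniformiser of `A` is not in `P₁ ^ 2`
  have hπB0 : ((algebraMap v.toValuationSubring (integralClosure v.toValuationSubring F₁) πv :
      integralClosure v.toValuationSubring F₁) : F₁) = algebraMap F₀ F₁ (πv : F₀) := rfl
  have hπwne : algebraMap F₀ F₁ (πv : F₀) ≠ 0 := (map_ne_zero _).mpr hπv0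
  have hπB : algebraMap v.toValuationSubring (integralClosure v.toValuationSubring F₁) πv
      ∈ P₁ := by
    rw [hmemP₁ _ (by rw [hπB0]; exact hπwne), hπB0, hπvw]
    exact_mod_cast he
  have hnot : algebraMap v.toValuationSubring (integralClosure v.toValuationSubring F₁) πv
      ∉ P₁ ^ 2 := by
    intro h2
    have he' : (IsLocalRing.maximalIdeal v.toValuationSubring).ramificationIdx' P₁ = 1 := by
      rw [Ideal.ramificationIdx'_eq_ramificationIdx _ _ hp0, he1]
    have hle : (IsLocalRing.maximalIdeal v.toValuationSubring).map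
        (algebraMap v.toValuationSubring (integralClosure v.toValuationSubring F₁)) ≤ P₁ := by
      rw [Ideal.map_le_iff_le_comap]
      exact (Ideal.over_def P₁ (IsLocalRing.maximalIdeal v.toValuationSubring)).le
    have := (Ideal.ramificationIdx'_ne_one_iff hle).mpr (by
      rw [hπv.maximalIdeal_eq, Ideal.map_span, Ideal.span_le]
      rintro _ ⟨_, rfl, rfl⟩
      exact h2)
    exact this he'
  -- the height one prime
  set v₁ : HeightOneSpectrum (integralClosure v.toValuationSubring F₁) :=
    ⟨P₁, hP₁prime, hP₁0⟩ with hv₁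
  have hv₁π : v₁.valuation F₁ (algebraMap F₀ F₁ (πv : F₀)) = WithZero.exp (-1 : ℤ) := by
    have hB0 : algebraMap v.toValuationSubring (integralClosure v.toValuationSubring F₁) πv
        ≠ 0 := by
      intro h
      apply hπwne
      rw [← hπB0, h]
      rfl
    have h0 : v₁.intValuation
        (algebraMap v.toValuationSubring (integralClosure v.toValuationSubring F₁) πv) ≠ 0 :=
      HeightOneSpectrum.intValuation_ne_zero _ _ hB0
    have h1 : v₁.intValuation
        (algebraMap v.toValuationSubring (integralClosure v.toValuationSubring F₁) πv)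
          ≤ WithZero.exp (-((1 : ℕ) : ℤ)) := by
      rw [HeightOneSpectrum.intValuation_le_pow_iff_mem, pow_one]
      exact hπB
    have h2 : ¬ v₁.intValuation
        (algebraMap v.toValuationSubring (integralClosure v.toValuationSubring F₁) πv)
          ≤ WithZero.exp (-((2 : ℕ) : ℤ)) := by
      rw [HeightOneSpectrum.intValuation_le_pow_iff_mem]
      exact hnot
    have hcast : algebraMap F₀ F₁ (πv : F₀)
        = algebraMap (integralClosure v.toValuationSubring F₁) F₁
          (algebraMap v.toValuationSubring (integralClosure v.toValuationSubring F₁) πv) := rfl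
    rw [hcast, HeightOneSpectrum.valuation_of_algebraMap]
    rw [← WithZero.exp_log h0] at h1 h2 ⊢
    rw [WithZero.exp_le_exp] at h1 h2
    congr 1
    push_cast at h1 h2
    omega
  have hunits : ∀ b : integralClosure v.toValuationSubring F₁, b ∉ v₁.asIdeal →
      w.toValuationSubring.valuation
        ((RingHom.id F₁) (algebraMap (integralClosure v.toValuationSubring F₁) F₁ b)) = 1 := by
    intro b hb
    have hb' : ψ b ∉ IsLocalRing.maximalIdeal w.toValuationSubring := hb
    have hu : IsUnit (ψ b) := by
      rw [IsLocalRing.mem_maximalIdeal, mem_nonunits_iff, not_not] at hb'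
      exact hb'
    have := (w.toValuationSubring.valuation_eq_one_iff (ψ b)).mp hu
    exact this
  obtain ⟨k, hk⟩ := val_eq_zpow_of_adic (RingHom.id F₁) w.toValuationSubring v₁ hunits
    (algebraMap F₀ F₁ (πv : F₀)) hv₁π (πw : F₁) hπw0
  rw [RingHom.id_apply, RingHom.id_apply] at hk
  -- `πw / πv ^ k` is a unit of the valuation ring of `w`
  have hval1 : w.toValuationSubring.valuation
      ((πw : F₁) * ((algebraMap F₀ F₁ (πv : F₀)) ^ k)⁻¹) = 1 := by
    rw [map_mul, map_inv₀, map_zpow₀, hk]
    exact mul_inv_cancel₀ (zpow_ne_zero _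
      ((Valuation.ne_zero_iff _).mpr hπwne))
  have hmem1 : (πw : F₁) * ((algebraMap F₀ F₁ (πv : F₀)) ^ k)⁻¹ ∈ w.toValuationSubring := by
    rw [← ValuationSubring.valuation_le_one_iff, hval1]
  have hmem2 : ((πw : F₁) * ((algebraMap F₀ F₁ (πv : F₀)) ^ k)⁻¹)⁻¹ ∈ w.toValuationSubring := by
    rw [← ValuationSubring.valuation_le_one_iff, map_inv₀, hval1, inv_one]
  have hne1 : (πw : F₁) * ((algebraMap F₀ F₁ (πv : F₀)) ^ k)⁻¹ ≠ 0 :=
    mul_ne_zero hπw0 (inv_ne_zero (zpow_ne_zero _ hπwne))
  have ho1 := ord_nonneg_of_mem w hmem1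
  have ho2 := ord_nonneg_of_mem w hmem2
  rw [w.ord_inv] at ho2
  have ho : w.ord ((πw : F₁) * ((algebraMap F₀ F₁ (πv : F₀)) ^ k)⁻¹) = 0 := by omega
  rw [w.ord_mul hπw0 (inv_ne_zero (zpow_ne_zero _ hπwne)), w.ord_inv, w.ord_zpow, hπw1,
    hπvw] at ho
  -- `1 = k * e`
  have hke : k * (e : ℤ) = 1 := by omega
  have he2 : (e : ℤ) ∣ 1 := Dvd.intro_left k hke
  have he3 : (e : ℤ) = 1 := by
    have h1 : (e : ℤ) ≤ 1 := Int.le_of_dvd one_pos he2
    omega
  exact_mod_cast he3

end

end Fermat.Agent.S36.NU.H41
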