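import Mathlib
import Fermat.Prelude.Def_AlgebraicCurve_DivisorClassGroup
import Fermat.Agent.S36.NU.H41_UnramA

/-!
# S36 NU-B, leaf UNRAM-CONST, part B (helper41): constant field extensions are unramified

`k ⊆ K` fields of characteristic `0`, `K` algebraically closed and algebraic over `k`;
`F₀ / k` a field, `F / K` a field containing `F₀` and generated over `F₀` by `K`.
Then for every place `P` of `F / K` the field `F₀` contains a uniformiser of `P`.
-/

set_option autoImplicit false
set_option linter.style.haveILetI false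

noncomputable section

namespace Fermat.Agent.S36.NU.H41

open AlgebraicCurve Polynomial

section

/-- **UNRAM-CONST, abstract form.** -/
theorem exists_ord_eq_one_of_adjoin_constants (k : Type*) {K F₀ F : Type*} [Field k]
    [CharZero k] [Field K] [Field F₀] [Field F]
    [Algebra k K] [Algebra K F] [Algebra k F₀] [Algebra F₀ F] [Algebra k F]
    [IsScalarTower k K F] [IsScalarTower k F₀ F] [Algebra.IsAlgebraic k K] [IsAlgClosed K]
    (P : Place K F)
    (hgen : IntermediateField.adjoin F₀ (Set.range (algebraMap K F)) = ⊤) :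
    ∃ t : F₀, P.ord (algebraMap F₀ F t) = 1 := by
  classical
  haveI : CharZero F₀ := charZero_of_injective_algebraMap (algebraMap k F₀).injective
  -- a uniformiser
  obtain ⟨π, hπ⟩ := IsDiscreteValuationRing.exists_irreducible P.toValuationSubring
  have hπ1 : P.ord (π : F) = 1 := P.ord_coe_irreducible hπ
  have hπ0 : (π : F) ≠ 0 := by
    intro h
    rw [h, Place.ord_zero] at hπ1
    exact zero_ne_one hπ1
  -- finitely many constants
  obtain ⟨T, hTsub, hπT⟩ := IntermediateField.exists_finset_of_mem_adjoin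
    (show (π : F) ∈ IntermediateField.adjoin F₀ (Set.range (algebraMap K F)) by
      rw [hgen]; exact IntermediateField.mem_top)
  choose! r hr using fun c (hc : c ∈ (T : Set F)) => hTsub hc
  -- the polynomial
  set g : k[X] := ∏ c ∈ T, minpoly k (r c) with hg
  have hgne : g ≠ 0 := by
    rw [hg, Finset.prod_ne_zero_iff]
    intro c _
    exact minpoly.ne_zero (Algebra.IsIntegral.isIntegral _)
  set g₀ : F₀[X] := g.map (algebraMap k F₀) with hg₀
  have hg₀ne : g₀ ≠ 0 := (Polynomial.map_ne_zero_iff (algebraMap k F₀).injective).mpr hgne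
  have hsplitK : (g.map (algebraMap k K)).Splits := IsAlgClosed.splits _
  have hsplitF : (g₀.map (algebraMap F₀ F)).Splits := by
    rw [hg₀, Polynomial.map_map, ← IsScalarTower.algebraMap_eq,
      IsScalarTower.algebraMap_eq k K F, ← Polynomial.map_map]
    exact hsplitK.map _
  -- roots of `g₀` in `F` are constants
  have hroots : ∀ x : F, aeval x g₀ = 0 → x ∈ Set.range (algebraMap K F) := by
    intro x hx
    have h1 : x ∈ g.rootSet F := by
      rw [Polynomial.mem_rootSet]
      refine ⟨hgne, ?_⟩
      rw [hg₀, Polynomial.aeval_map_algebraMap] at hx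
      exact hx
    rw [← hsplitK.image_rootSet_algebraMap (B := F)] at h1
    obtain ⟨y, -, rfl⟩ := h1
    exact ⟨y, rfl⟩
  -- the splitting field
  set F₁ : IntermediateField F₀ F := IntermediateField.adjoin F₀ (g₀.rootSet F) with hF₁
  haveI hsf : IsSplittingField F₀ F₁ g₀ :=
    IntermediateField.adjoin_rootSet_isSplittingField hsplitF
  haveI : FiniteDimensional F₀ F₁ := Polynomial.IsSplittingField.finiteDimensional F₁ g₀
  haveI : Normal F₀ F₁ := Normal.of_isSplittingField g₀
  haveI : IsGalois F₀ F₁ := ⟨⟩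
  -- `T ⊆ rootSet`, hence `π ∈ F₁`
  have hTroot : (T : Set F) ⊆ g₀.rootSet F := by
    intro c hc
    rw [Polynomial.mem_rootSet]
    refine ⟨hg₀ne, ?_⟩
    rw [hg₀, Polynomial.aeval_map_algebraMap, hg, map_prod]
    refine Finset.prod_eq_zero (Finset.mem_coe.1 hc) ?_
    have h1 : c = algebraMap K F (r c) := (hr c hc).symm
    calc aeval c (minpoly k (r c))
        = aeval (algebraMap K F (r c)) (minpoly k (r c)) :=
          congrArg (fun x => aeval x (minpoly k (r c))) h1
      _ = algebraMap K F (aeval (r c) (minpoly k (r c))) :=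
          Polynomial.aeval_algebraMap_apply F (r c) (minpoly k (r c))
      _ = 0 := by rw [minpoly.aeval, map_zero]
  have hπF₁ : (π : F) ∈ F₁ := IntermediateField.adjoin.mono F₀ _ _ hTroot hπT
  -- the restriction of `P` to `F₁`
  letI : Algebra k F₁ := ((algebraMap F₀ F₁).comp (algebraMap k F₀)).toAlgebra
  haveI : IsScalarTower k F₀ F₁ := IsScalarTower.of_algebraMap_eq fun _ => rfl
  have hkF : ∀ c : k, ((algebraMap k F₁ c : F₁) : F) = algebraMap K F (algebraMap k K c) := by
    intro c
    rw [← IsScalarTower.algebraMap_apply k K F, IsScalarTower.algebraMap_apply k F₀ F]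
    rfl
  have hk : ∀ c : k, (algebraMap F₁ F) (algebraMap k F₁ c) ∈ P.toValuationSubring := by
    intro c
    have h1 : (algebraMap F₁ F) (algebraMap k F₁ c) = ((algebraMap k F₁ c : F₁) : F) := rfl
    rw [h1, hkF]
    exact P.algebraMap_mem' _
  have hnt : ∃ g₁ : F₁, g₁ ≠ 0 ∧ P.ord ((algebraMap F₁ F) g₁) ≠ 0 := by
    refine ⟨⟨π, hπF₁⟩, fun h => hπ0 (congrArg Subtype.val h), ?_⟩
    show P.ord (π : F) ≠ 0
    rw [hπ1]
    exact one_ne_zero
  obtain ⟨w, e, he, hwV, hord⟩ := exists_place_restrict (k := k) (algebraMap F₁ F) P hk hnt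
  have he1 : e = 1 := by
    have h1 := hord ⟨π, hπF₁⟩
    have h2 : P.ord ((algebraMap F₁ F) ⟨π, hπF₁⟩) = 1 := hπ1
    rw [h2] at h1
    have h3 : (e : ℤ) ∣ 1 := Dvd.intro _ h1.symm
    have h4 : (e : ℤ) ≤ 1 := Int.le_of_dvd one_pos h3
    omega
  have hordw : ∀ g₁ : F₁, P.ord ((g₁ : F)) = w.ord g₁ := by
    intro g₁
    have := hord g₁
    rw [he1, Nat.cast_one, one_mul] at this
    exact this
  have hmemw : ∀ g₁ : F₁, g₁ ∈ w.toValuationSubring ↔ (g₁ : F) ∈ P.toValuationSubring := by
    intro g₁
    rw [hwV, ValuationSubring.mem_comap]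
    rfl
  -- apply the Galois form
  have hmain := exists_ord_eq_one_of_galois (K₀ := k) (K := k) (F₀ := F₀) (F₁ := F₁) w
    (fun a => w.algebraMap_mem' a) (g₀.rootSet F₁)
    (by
      intro c hc
      rw [Polynomial.mem_rootSet] at hc
      have h1 : aeval c g = 0 := by
        have := hc.2
        rw [hg₀, Polynomial.aeval_map_algebraMap] at this
        exact this
      exact (isAlgebraic_iff_isIntegral).1 ⟨g, hgne, h1⟩)
    (by
      intro c hc c' hc' hne
      rw [Polynomial.mem_rootSet] at hc hc'
      have h1 : aeval (c : F) g₀ = 0 := by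
        have h := Polynomial.aeval_algebraMap_apply (A := F₁) F c g₀
        rw [hc.2, map_zero] at h
        exact h
      have h1' : aeval (c' : F) g₀ = 0 := by
        have h := Polynomial.aeval_algebraMap_apply (A := F₁) F c' g₀
        rw [hc'.2, map_zero] at h
        exact h
      obtain ⟨y, hy⟩ := hroots _ h1
      obtain ⟨y', hy'⟩ := hroots _ h1'
      have hyy : y ≠ y' := by
        intro h
        apply hne
        apply Subtype.ext
        rw [← hy, ← hy', h]
      rw [hmemw]
      have h2 : (((c - c')⁻¹ : F₁) : F) = algebraMap K F ((y - y')⁻¹) := by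
        rw [map_inv₀, map_sub, hy, hy']
        rfl
      rw [h2]
      exact P.algebraMap_mem' _)
    (by
      intro σ c hc
      rw [Polynomial.mem_rootSet] at hc ⊢
      refine ⟨hc.1, ?_⟩
      rw [Polynomial.aeval_algEquiv, AlgHom.coe_comp, Function.comp_apply, hc.2]
      exact map_zero _)
    (by
      rw [eq_top_iff]
      have h1 := Polynomial.IsSplittingField.adjoin_rootSet (F₁ : Type _) g₀
      intro x _
      have h2 : x ∈ Algebra.adjoin F₀ (g₀.rootSet F₁) := by rw [h1]; exact Algebra.mem_top
      exact IntermediateField.algebra_adjoin_le_adjoin F₀ _ h2)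
  obtain ⟨t, ht⟩ := hmain
  refine ⟨t, ?_⟩
  have h1 : algebraMap F₀ F t = ((algebraMap F₀ F₁ t : F₁) : F) := rfl
  rw [h1, hordw, ht]

end

end Fermat.Agent.S36.NU.H41
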