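import Mathlib
import Fermat.Prelude.Def_AlgebraicCurve_DivisorClassGroup
import Fermat.Prelude.Def_ModularCurve_LaurentCoeff
import Fermat.Agent.S36.NU.H41_UnramB

/-!
# S36 NU-B, leaf UNRAM-CONST (helper41): the constant field extension `F₀ ⊗ L / F₀` is unramified

For a field `F₀ ⊆ ℚ((q))` and an algebraically closed field `L` algebraic over `ℚ`
(e.g. `L = ℚ̄`), every place `P` of `laurentBaseChange L F₀` over `L` has a uniformiser of the
form `coeffEmb L t` with `t ∈ F₀` (rational coefficients).  In particular every intermediate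
field of `laurentBaseChange L F₀ / coeffEmb F₀` contains a uniformiser of `P`.

* `constIncl L F₀ : F₀ →+* laurentBaseChange L F₀`;
* `adjoin_constants_eq_top`;
* `stmt_UnramConst`.
-/

set_option autoImplicit false
set_option linter.style.haveILetI false

noncomputable section

namespace Fermat.Agent.S36.NU.H41

open AlgebraicCurve ModularCurve

section

variable (L : Type*) [Field L] [Algebra ℚ L] (F₀ : IntermediateField ℚ (LaurentSeries ℚ))

/-- The inclusion of the rational function field into its base change. -/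
def constIncl : F₀ →+* laurentBaseChange L F₀ :=
  RingHom.codRestrict ((coeffEmb L).comp (algebraMap F₀ (LaurentSeries ℚ)))
    (laurentBaseChange L F₀) (fun x => coeffEmb_mem_laurentBaseChange L x.2)

theorem coe_constIncl (x : F₀) :
    ((constIncl L F₀ x : laurentBaseChange L F₀) : LaurentSeries L)
      = coeffEmb L (x : LaurentSeries ℚ) := rfl

theorem constIncl_mk (t : LaurentSeries ℚ) (ht : t ∈ F₀) :
    constIncl L F₀ ⟨t, ht⟩ = ⟨coeffEmb L t, coeffEmb_mem_laurentBaseChange L ht⟩ := rfl

/-- `laurentBaseChange L F₀` is generated over `F₀` by the constants `L`. -/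
theorem adjoin_constants_eq_top :
    letI : Algebra F₀ (laurentBaseChange L F₀) := (constIncl L F₀).toAlgebra
    IntermediateField.adjoin F₀
      (Set.range (algebraMap L (laurentBaseChange L F₀))) = ⊤ := by
  letI : Algebra F₀ (laurentBaseChange L F₀) := (constIncl L F₀).toAlgebra
  rw [eq_top_iff]
  intro x _
  set E : IntermediateField F₀ (laurentBaseChange L F₀) := IntermediateField.adjoin F₀
      (Set.range (algebraMap L (laurentBaseChange L F₀))) with hE
  set S : Subfield (LaurentSeries L) :=
    E.toSubfield.map ((laurentBaseChange L F₀).val : laurentBaseChange L F₀ →+* LaurentSeries L)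
    with hS
  have hle : Subfield.closure
        (Set.range (algebraMap L (LaurentSeries L)) ∪
          (⇑(coeffEmb L) '' (F₀ : Set (LaurentSeries ℚ)))) ≤ S := by
    rw [Subfield.closure_le]
    rintro y (⟨a, rfl⟩ | ⟨z, hz, rfl⟩)
    · refine ⟨algebraMap L (laurentBaseChange L F₀) a, ?_, rfl⟩
      exact IntermediateField.subset_adjoin F₀ _ ⟨a, rfl⟩
    · refine ⟨algebraMap F₀ (laurentBaseChange L F₀) ⟨z, hz⟩, ?_, rfl⟩
      exact E.algebraMap_mem _
  have hx : (x : LaurentSeries L) ∈ S := hle (mem_laurentBaseChange_iff.1 x.2)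
  obtain ⟨y, hy, hyx⟩ := hx
  have hyx' : y = x := Subtype.ext hyx
  rw [← hyx']
  exact hy

variable [IsAlgClosed L] [Algebra.IsAlgebraic ℚ L]

/-- **UNRAM-CONST.**  Every place of `laurentBaseChange L F₀ / L` has a uniformiser with
rational coefficients lying in `F₀`. -/
theorem stmt_UnramConst (P : Place L (laurentBaseChange L F₀)) :
    ∃ t : LaurentSeries ℚ, ∃ ht : t ∈ F₀,
      P.ord ⟨coeffEmb L t, coeffEmb_mem_laurentBaseChange L ht⟩ = 1 := by
  letI : Algebra F₀ (laurentBaseChange L F₀) := (constIncl L F₀).toAlgebra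
  letI algQ : Algebra ℚ (laurentBaseChange L F₀) :=
    ((algebraMap L (laurentBaseChange L F₀)).comp (algebraMap ℚ L)).toAlgebra
  haveI h1 : @IsScalarTower ℚ L (laurentBaseChange L F₀)
      Algebra.toSMul Algebra.toSMul Algebra.toSMul :=
    IsScalarTower.of_algebraMap_eq' rfl
  haveI h2 : @IsScalarTower ℚ F₀ (laurentBaseChange L F₀)
      Algebra.toSMul Algebra.toSMul Algebra.toSMul :=
    IsScalarTower.of_algebraMap_eq' (Subsingleton.elim _ _)
  obtain ⟨t, ht⟩ := exists_ord_eq_one_of_adjoin_constants ℚ (K := L) (F₀ := F₀)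
    (F := laurentBaseChange L F₀) P (adjoin_constants_eq_top L F₀)
  exact ⟨t.1, t.2, ht⟩

end

end Fermat.Agent.S36.NU.H41
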