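import Fermat.Agent.S36.NU.H41_UnramConst
import Fermat.Agent.S36.NU.H23_L0

/-!
# S36 NU-B, leaf UNRAM-CONST, modular instance (helper41)

Every place `P` of `F_N / ℚ̄` has a uniformiser `t` with rational `q`-expansion coefficients;
such a `t` is fixed by the whole arithmetic Galois action, in particular it lies in the
inertia-fixed field `L0 A N` of helper23: `e(P | P ∩ L0 A N) = 1`.
-/

set_option autoImplicit false
set_option synthInstance.maxHeartbeats 400000
set_option maxHeartbeats 1000000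
set_option linter.style.haveILetI false

noncomputable section

open ModularCurve AlgebraicCurve Fermat.Agent.S24 Fermat.Agent.S36.NU.H23

namespace Fermat.Agent.S36.NU.H41

/-- A function with rational coefficients is fixed by the arithmetic Galois action. -/
theorem arithmeticRingAut_coeffEmb (F₀ : IntermediateField ℚ (LaurentSeries ℚ))
    (σ : Kbar ≃ₐ[ℚ] Kbar) (t : LaurentSeries ℚ) (ht : t ∈ F₀) :
    arithmeticRingAut F₀ σ ⟨coeffEmb Kbar t, coeffEmb_mem_laurentBaseChange Kbar ht⟩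
      = ⟨coeffEmb Kbar t, coeffEmb_mem_laurentBaseChange Kbar ht⟩ := by
  apply Subtype.ext
  rw [coe_arithmeticRingAut_apply]
  exact coeffMap_coeffEmb σ t

/-- **UNRAM-CONST for `F_N`**: a uniformiser with rational coefficients, fixed by all of
`Gal(ℚ̄/ℚ)`. -/
theorem exists_uniformizer_fixed (N : ℕ) (P : Place Kbar (FN N)) :
    ∃ t : FN N, P.ord t = 1 ∧
      ∀ σ : Kbar ≃ₐ[ℚ] Kbar, arithmeticRingAut (modularFunctionFieldFull N) σ t = t := by
  haveI : Algebra.IsAlgebraic ℚ Kbar := AlgebraicClosure.isAlgebraic ℚ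
  obtain ⟨t, ht, h⟩ := stmt_UnramConst Kbar (modularFunctionFieldFull N) P
  exact ⟨_, h, fun σ => arithmeticRingAut_coeffEmb _ σ t ht⟩

/-- **UNRAM-CONST for `L0 A N`**: `e(P | P ∩ L0 A N) = 1`. -/
theorem exists_uniformizer_mem_L0 (A : ValuationSubring Kbar) (N : ℕ)
    (P : Place Kbar (FN N)) : ∃ t : ↥(L0 A N), P.ord (t : FN N) = 1 := by
  obtain ⟨t, h, hfix⟩ := exists_uniformizer_fixed N P
  exact ⟨⟨t, fun σ _ => hfix σ⟩, h⟩

/-- For every `g ≠ 0` in `F_N` there is `s ∈ L0 A N` with `ord_P (g s) = 0`. -/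
theorem exists_L0_mul_ord_eq_zero (A : ValuationSubring Kbar) (N : ℕ)
    (P : Place Kbar (FN N)) (g : FN N) (hg : g ≠ 0) :
    ∃ s : ↥(L0 A N), s ≠ 0 ∧ P.ord (g * (s : FN N)) = 0 := by
  obtain ⟨t, ht⟩ := exists_uniformizer_mem_L0 A N P
  have ht0 : (t : FN N) ≠ 0 := by
    intro h
    rw [h, Place.ord_zero] at ht
    exact zero_ne_one ht
  have ht0' : t ≠ 0 := fun h => ht0 (by rw [h]; rfl)
  refine ⟨t ^ (-(P.ord g)), zpow_ne_zero _ ht0', ?_⟩
  have h1 : ((t ^ (-(P.ord g)) : ↥(L0 A N)) : FN N) = (t : FN N) ^ (-(P.ord g)) :=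
    map_zpow₀ (L0 A N).subtype t _
  rw [h1, P.ord_mul hg (zpow_ne_zero _ ht0), Place.ord_zpow, ht]
  ring

end Fermat.Agent.S36.NU.H41
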