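import Fermat.Agent.S36.NU.H79_Glue3
import Fermat.Prelude.Def_AlgebraicCurve_DivisorPushPull

/-!
# S36 / NU-B, leaf (i) of GLUE3 (helper42): the norm of a function regular on a fibre

* `regAt_norm` : if `f` is regular at all places of `F'` over the place `v` of `F`, then
  `N_{F'/F} f` is regular at `v` (from the norm formula for divisors);
* `vanAt_norm` : if moreover `f` vanishes at one place over `v`, then `N f` vanishes at `v`;
* `inR_norm` : the hypothesis `hmem` of `H79.TotN.normVal_of_norm`: `Nm h ∈ R_{z'}` for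
  `h ∈ R_z`, from the integrality of the norm (NORM-RED-r) and the compatibility of the two
  reduction maps.

This file has no open goals.
-/

set_option autoImplicit false

noncomputable section

open AlgebraicCurve

namespace Fermat.Agent.S36.NU.H42

open Fermat.Agent.RED.H17 Fermat.Agent.RED Fermat.Agent.BAD.H79 Fermat.Agent.S36.NU.H79

section Norm

variable {K F F' : Type*} [Field K] [Field F] [Field F'] [Algebra K F'] [Algebra F F']
  [Algebra.IsIntegral F F'] [Algebra K F] [IsScalarTower K F F'] [Module.Finite F F']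

/-- The order of the norm at `v` is the sum of the orders at the places over `v`, weighted by
the inertia degrees. -/
theorem ord_norm_eq_sum [HasPrincipalDivisors K F']
    (hnorm : Divisor.PushforwardNormFormula K F F') (v : Place K F) (f : F') (hf : f ≠ 0) :
    ∃ s : Finset (Place K F'), (∀ w ∈ s, w.restrict F = v) ∧
      v.ord (Algebra.norm F f) = ∑ w ∈ s, w.ord f * (w.inertiaDeg F : ℤ) := by
  classical
  obtain ⟨D, hD, -⟩ := HasPrincipalDivisors.exists_divisor (K := K) f hf
  have h1 := hnorm f hf D hD v
  rw [Divisor.pushforward_apply] at h1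
  refine ⟨D.support.filter fun w => w.restrict F = v, fun w hw => (Finset.mem_filter.1 hw).2, ?_⟩
  rw [← h1, Finset.sum_filter]
  refine Finset.sum_congr rfl fun w _ => ?_
  rw [hD w]

/-- **The norm of a function regular at all places over `v` is regular at `v`.** -/
theorem regAt_norm [HasPrincipalDivisors K F']
    (hnorm : Divisor.PushforwardNormFormula K F F') (v : Place K F) (f : F')
    (hf : ∀ w : Place K F', w.restrict F = v → RegAt w f) : RegAt v (Algebra.norm F f) := by
  rcases eq_or_ne f 0 with rfl | hf0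
  · rw [Algebra.norm_zero]; exact regAt_zero v
  obtain ⟨s, hs, hord⟩ := ord_norm_eq_sum hnorm v f hf0
  refine regAt_of_ord_nonneg ?_
  rw [hord]
  exact Finset.sum_nonneg fun w hw =>
    mul_nonneg (hf w (hs w hw)).ord_nonneg (Int.natCast_nonneg _)

/-- If moreover `f` vanishes at one place over `v`, the norm vanishes at `v`. -/
theorem vanAt_norm [HasPrincipalDivisors K F']
    (hnorm : Divisor.PushforwardNormFormula K F F') (v : Place K F) (f : F')
    (hf : ∀ w : Place K F', w.restrict F = v → RegAt w f)
    (w₀ : Place K F') (hw₀ : w₀.restrict F = v) (hv : VanAt w₀ f)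
    (hin : 0 < w₀.inertiaDeg F) : VanAt v (Algebra.norm F f) := by
  classical
  rcases eq_or_ne f 0 with rfl | hf0
  · rw [Algebra.norm_zero]; exact vanAt_zero v
  obtain ⟨D, hD, -⟩ := HasPrincipalDivisors.exists_divisor (K := K) f hf0
  have h1 := hnorm f hf0 D hD v
  rw [Divisor.pushforward_apply] at h1
  refine vanAt_of_ord_pos ?_
  rw [← h1]
  have hpos : 0 < w₀.ord f := hv.ord_pos hf0
  have hmem : w₀ ∈ D.support := by
    rw [Finsupp.mem_support_iff, hD]
    exact hpos.ne'
  refine Finset.sum_pos' (fun w _ => ?_) ⟨w₀, hmem, ?_⟩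
  · split_ifs with hw
    · rw [hD]
      exact mul_nonneg (hf w hw).ord_nonneg (Int.natCast_nonneg _)
    · exact le_rfl
  · rw [if_pos hw₀, hD]
    exact mul_pos hpos (by exact_mod_cast hin)

end Norm

section InR

variable {K L₀ L k ι Z : Type*} {E : ι → Type*} [Field K] [Field L₀] [Field L]
  [Algebra K L] [Algebra L₀ L] [Field k] [Fintype ι] [∀ i, Field (E i)]
  [∀ i, Algebra k (E i)] (T : TotN K L₀ L k ι Z E)
  {L' L₁ L₂ : Type*} [Field L'] [Algebra K L'] [Field L₁] [Algebra k L₁] [Field L₂]
  [Algebra k L₂] (T' : TotData K L' k L₁ L₂)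
  [Algebra L' L] [Algebra.IsIntegral L' L] [IsScalarTower K L' L] [Module.Finite L' L]

/-- **Leaf (i) of GLUE3**: the norm of `h ∈ R_z` is in `R_{z'}`, if it is integral for the two
valuations of the lower level (NORM-RED-r) and the reduction maps are compatible
(`ρ' (P | L') = z' → ρ P = z`). -/
theorem inR_norm [HasPrincipalDivisors K L] (hnorm : Divisor.PushforwardNormFormula K L' L)
    (z : Z) (z' : Place k L₁)
    (hρ : ∀ P : Place K L, T'.ρ (P.restrict L') = z' → T.ρ P = z)
    (h : L₀) (hR : T.InR z h)
    (h₁ : Algebra.norm L' (algebraMap L₀ L h) ∈ T'.b₁.V)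
    (h₂ : Algebra.norm L' (algebraMap L₀ L h) ∈ T'.b₂.V) :
    T'.InR z' (Algebra.norm L' (algebraMap L₀ L h)) := by
  refine ⟨h₁, h₂, fun P' hP' => ?_⟩
  refine regAt_norm hnorm P' _ fun w hw => ?_
  exact hR.2 w (hρ w (by rw [hw]; exact hP'))

end InR

end Fermat.Agent.S36.NU.H42
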