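import Fermat.Agent.S36.NU.H23_Mod3
import Fermat.Agent.S36.NU.H42_Surj
import Fermat.Agent.BAD.H42_IntTower
import Fermat.Agent.NEB.H84_ResVal
import Fermat.Agent.RED.H51_NDFinal

/-!
# S36 / NU-B, TI3-VAL, leaf (INT)-ONE, modular instance (helper42)

`A` a valuation ring of `ℚ̄` over `q`, `q ∤ M`.  `E₀ = L0 A 1 = K^ur(j)`, `E = L0 A M`,
`V₀ = VE0 A 1`, `V = VE0 A M` (helper23's restricted Gauss valuation rings), residue fields
`fullC k 1 = k(j~)` and `fullC k M`.

* `kapAlg`, `rE` : the residue maps with values in `fullC k M`;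
* `finrank_kap` : `[fullC k M : fullC k 1] = ψ(M)`, `finrank_L0_one : [L0 A M : L0 A 1] = ψ(M)`;
* `oneData` : the `NRData` of the single valuation `VE0 A M` over `VE0 A 1` (needs (VAL0) at
  level `1`: the value group of `VE0 A 1` is generated by `|q|`);
* `one_mod` : every element of `VE0 A M` is integral over `VE0 A 1`;
* `int_mod` : (INT) for any `NRData` over `VE0 A M` with the degree equality.
-/

set_option autoImplicit false
set_option synthInstance.maxHeartbeats 400000
set_option maxHeartbeats 1000000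
set_option linter.unusedSectionVars false
set_option linter.unusedVariables false
set_option linter.style.haveILetI false

noncomputable section

open ModularCurve AlgebraicCurve Fermat.Agent.S24 Fermat.Agent.S28 Fermat.Agent.S28.H73
  Fermat.Agent.RED.H73 Fermat.Agent.BAD.H88 Fermat.Agent.BAD

namespace Fermat.Agent.S36.NU.H42

variable (A : ValuationSubring Kbar)

/-! ## Level one -/

/-- `k(j~(t^d) : d ∣ 1) = k(j~)`. -/
theorem fullC_one_eq (K : Type) [Field K] :
    modularFunctionFieldFullC K 1 = IntermediateField.adjoin K ({jqModC K} : Set (LaurentSeries K)) := by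
  rw [modularFunctionFieldFullC]
  congr 1
  ext x
  constructor
  · rintro ⟨d, hd0, hd, rfl⟩
    have hd1 : d = 1 := Nat.dvd_one.mp hd
    subst hd1
    rw [Set.mem_singleton_iff, qExpand_one_apply]
  · intro hx
    rw [Set.mem_singleton_iff] at hx
    subst hx
    exact ⟨1, inferInstance, dvd_rfl, (qExpand_one_apply _).symm⟩

/-- `F_1 · ℚ̄ = ℚ̄(j)`. -/
theorem bar_one_eq :
    modularFunctionFieldBar 1
      = IntermediateField.adjoin Kbar ({jqModC Kbar} : Set (LaurentSeries Kbar)) := by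
  show laurentBaseChange Kbar (modularFunctionFieldFull 1) = _
  rw [laurentBaseChange_full_eq, fullC_one_eq]

variable (M : ℕ) [NeZero M]

/-- `F_1 ⊆ F_M`. -/
theorem hle1 : modularFunctionFieldBar 1 ≤ modularFunctionFieldBar M :=
  Fermat.Agent.S36.NU.H82.FM_le_of_dvd M 1 (one_dvd M)

/-- `[F_M · ℚ̄ : F_1 · ℚ̄] = ψ(M)`. -/
theorem relfinrank_bar_one :
    (modularFunctionFieldBar 1).relfinrank (modularFunctionFieldBar M) = dedekindPsi M := by
  rw [bar_one_eq]
  exact Fermat.Agent.BAD.H82.relfinrank_bar M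

theorem finrank_FN_one :
    (letI := H23.algF (hle1 M); Module.finrank (FN 1) (FN M)) = dedekindPsi M := by
  rw [← relfinrank_bar_one M]
  exact Fermat.Agent.RED.H51.finrank_along_inclusion (hle1 M)

theorem finite_FN_one : letI := H23.algF (hle1 M); Module.Finite (FN 1) (FN M) := by
  letI := H23.algF (hle1 M)
  apply Module.finite_of_finrank_pos
  rw [finrank_FN_one M]
  exact Nat.pos_of_ne_zero (Fermat.Agent.BAD.H82.dedekindPsi_ne_zero' M)

/-- `[L0 A M : L0 A 1] = ψ(M)`. -/
theorem finrank_L0_one :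
    (letI := H23.algL0 A (hle1 M); Module.finrank ↥(H23.L0 A 1) ↥(H23.L0 A M))
      = dedekindPsi M := by
  rw [← finrank_FN_one M]
  exact H23.finrank_L0 A (hle1 M) (finite_FN_one M)

theorem finite_L0_one :
    letI := H23.algL0 A (hle1 M); Module.Finite ↥(H23.L0 A 1) ↥(H23.L0 A M) :=
  H23.finite_L0 A (hle1 M) (finite_FN_one M)

/-! ## The residue fields -/

/-- The residue field at level `M`: `k(j~(t^d) : d ∣ M)`. -/
abbrev kap (M : ℕ) [NeZero M] : Type := ↥(modularFunctionFieldFullC (kV A) M)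

/-- `fullC k 1 ⊆ fullC k M`. -/
theorem hleK : modularFunctionFieldFullC (kV A) 1 ≤ modularFunctionFieldFullC (kV A) M :=
  full_degeneracyC_le (kV A) (one_dvd M)

/-- `fullC k M` as an algebra over `fullC k 1 = k(j~)`. -/
@[reducible] def kapAlg : Algebra (kap A 1) (kap A M) :=
  algebraAlong (IntermediateField.inclusion (hleK A M))

theorem coe_algebraMap_kap (y : kap A 1) :
    ((@algebraMap (kap A 1) (kap A M) _ _ (kapAlg A M) y : kap A M) : LaurentSeries (kV A))
      = (y : LaurentSeries (kV A)) := by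
  letI := kapAlg A M
  have h : algebraMap (kap A 1) (kap A M) y = IntermediateField.inclusion (hleK A M) y :=
    rfl
  rw [h]
  exact IntermediateField.coe_inclusion _ _

variable (q : ℕ) (hq : q.Prime) (hqM : ¬ q ∣ M) (hA : A.LiesOverPrime q)

include hq hqM hA in
/-- `[fullC k M : k(j~)] = ψ(M)`, relative form. -/
theorem relfinrank_kap :
    (modularFunctionFieldFullC (kV A) 1).relfinrank (modularFunctionFieldFullC (kV A) M)
      = dedekindPsi M := by
  have h2 := (Fermat.Agent.RED.H73.stmt_GA_deg M q hq hqM A hA).1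
  rw [Fermat.Agent.RED.H73.relfinrank_fullC_bar M] at h2
  rw [fullC_one_eq]
  exact h2

include hq hqM hA in
/-- `[fullC k M : fullC k 1] = ψ(M)`. -/
theorem finrank_kap :
    (letI := kapAlg A M; Module.finrank (kap A 1) (kap A M)) = dedekindPsi M :=
  (Fermat.Agent.RED.H51.finrank_along_inclusion (hleK A M)).trans
    (relfinrank_kap A M q hq hqM hA)


/-! ## The residue fields `FM A 1 ⊆ FM A M` -/

/-- The residue field of level `1` is contained in the residue field of level `M`. -/
theorem hleFM :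
    redField A (modularFunctionFieldBar 1) (hScM A 1)
      ≤ redField A (modularFunctionFieldBar M) (hScM A M) :=
  Fermat.Agent.RED.H51.redField_mono A (hle1 M) (hScM A 1) (hScM A M)

/-- `FM A M` as an algebra over `FM A 1 = k(j~)`. -/
@[reducible] def fmAlg : Algebra (FM A 1) (FM A M) :=
  algebraAlong (IntermediateField.inclusion (hleFM A M))

theorem coe_algebraMap_fm (y : FM A 1) :
    ((@algebraMap (FM A 1) (FM A M) _ _ (fmAlg A M) y : FM A M) : LaurentSeries (kV A))
      = (y : LaurentSeries (kV A)) := by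
  letI := fmAlg A M
  have h : algebraMap (FM A 1) (FM A M) y = IntermediateField.inclusion (hleFM A M) y := rfl
  rw [h]
  exact IntermediateField.coe_inclusion _ _

include hq hqM hA in
/-- `[FM A M : FM A 1] = ψ(M)`. -/
theorem finrank_FM :
    (letI := fmAlg A M; Module.finrank (FM A 1) (FM A M)) = dedekindPsi M := by
  refine (Fermat.Agent.RED.H51.finrank_along_inclusion (hleFM A M)).trans ?_
  have h1 : redField A (modularFunctionFieldBar 1) (hScM A 1)
      = modularFunctionFieldFullC (kV A) 1 :=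
    Fermat.Agent.RED.H73.stmt_GA 1 q hq (fun h => hq.one_lt.ne' (Nat.dvd_one.mp h)) A hA
  have h2 : redField A (modularFunctionFieldBar M) (hScM A M)
      = modularFunctionFieldFullC (kV A) M :=
    Fermat.Agent.RED.H73.stmt_GA M q hq hqM A hA
  rw [h1, h2]
  exact relfinrank_kap A M q hq hqM hA

/-! ## The `NRData` of `VE0 A M` over `VE0 A 1` -/

theorem coe_inclL0_one (a : ↥(H23.L0 A 1)) :
    (((H23.inclL0 A (hle1 M) a : ↥(H23.L0 A M)) : FN M) : LaurentSeries Kbar)
      = ((a : FN 1) : LaurentSeries Kbar) := by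
  rw [H23.coe_inclL0, IntermediateField.coe_inclusion]

/-- `VE0 A 1 ⊆ VE0 A M`. -/
theorem hV_one (a : ↥(H23.L0 A 1)) (ha : a ∈ H23.VE0 A 1) :
    H23.inclL0 A (hle1 M) a ∈ H23.VE0 A M := by
  rw [H23.mem_VE0_iff, coe_inclL0_one]
  exact ha

/-- The residue maps are compatible. -/
theorem rE_incl_one (a : ↥(H23.VE0 A 1))
    (h : H23.inclL0 A (hle1 M) (a : ↥(H23.L0 A 1)) ∈ H23.VE0 A M) :
    H23.rE A M ⟨_, h⟩ = @algebraMap (FM A 1) (FM A M) _ _ (fmAlg A M) (H23.rE A 1 a) := by
  apply Subtype.ext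
  rw [coe_algebraMap_fm, H23.coe_rE, H23.coe_rE, H23.sE_mk]
  show _ = gaussRedV A ⟨(((a : ↥(H23.L0 A 1)) : FN 1) : LaurentSeries Kbar), a.2⟩
  congr 1

/-- **The `NRData` of the Gauss valuation of level `M` over the Gauss valuation of level `1`**
(inertia-fixed functions, `q ∤ M`). -/
def oneData : @H42.NRData ↥(H23.L0 A 1) ↥(H23.L0 A M) (FM A 1) _ _ _ (H23.algL0 A (hle1 M))
    Unit (fun _ => FM A M) _ (fun _ => fmAlg A M) :=
  haveI : NeZero q := ⟨hq.ne_zero⟩
  @H42.nr1 ↥(H23.L0 A 1) ↥(H23.L0 A M) (FM A 1) (FM A M) _ _ _ _ (H23.algL0 A (hle1 M))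
    (fmAlg A M) (H23.VE0 A 1) (H23.rE A 1) (H23.VE0 A M) (H23.rE A M) (H23.piE A q 1)
    (H23.piE_ne_zero A q 1 hq) (H23.piE_mem A q 1 hA) (H23.rE_piE A q 1 hA)
    (H23.hE_mod A q 1 hq hA) (hV_one A M) (H23.rE_eq_zero_of_not_isUnit A 1)
    (H23.rE_surjective A q M hq hqM hA) (H23.rE_eq_zero_of_not_isUnit A M)
    (fun a ha => rE_incl_one A M a ha)
    (H23.isArch_resV0 _ _ (Fermat.Agent.S36.NU.H82.isArch_V20 A hq hA M))

/-- The degree equality of `oneData`: `1 · [FM A M : FM A 1] = [L0 A M : L0 A 1]`. -/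
theorem oneData_hdeg :
    ∑ i, @H42.NRData.e ↥(H23.L0 A 1) ↥(H23.L0 A M) (FM A 1) _ _ _ (H23.algL0 A (hle1 M))
          Unit (fun _ => FM A M) _ (fun _ => fmAlg A M) (oneData A M q hq hqM hA) i
        * @Module.finrank (FM A 1) (FM A M) _ _ (fmAlg A M).toModule
      = @Module.finrank ↥(H23.L0 A 1) ↥(H23.L0 A M) _ _ (H23.algL0 A (hle1 M)).toModule := by
  rw [Fintype.sum_unique, finrank_FM A M q hq hqM hA, finrank_L0_one A M]
  exact one_mul _

theorem oneData_VE :
    @H42.NRData.VE ↥(H23.L0 A 1) ↥(H23.L0 A M) (FM A 1) _ _ _ (H23.algL0 A (hle1 M))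
      Unit (fun _ => FM A M) _ (fun _ => fmAlg A M) (oneData A M q hq hqM hA)
      = H23.VE0 A 1 := rfl

theorem oneData_V (i : Unit) :
    @H42.NRData.V ↥(H23.L0 A 1) ↥(H23.L0 A M) (FM A 1) _ _ _ (H23.algL0 A (hle1 M))
      Unit (fun _ => FM A M) _ (fun _ => fmAlg A M) (oneData A M q hq hqM hA) i
      = H23.VE0 A M := rfl

include hq hqM hA in
/-- The residue field extension is finite. -/
theorem finite_FM : @Module.Finite (FM A 1) (FM A M) _ _ (fmAlg A M).toModule := by
  letI := fmAlg A M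
  apply Module.finite_of_finrank_pos
  rw [finrank_FM A M q hq hqM hA]
  exact Nat.pos_of_ne_zero (Fermat.Agent.BAD.H82.dedekindPsi_ne_zero' M)

include hq hqM hA in
/-- **ONE (modular)**: every inertia-fixed Gauss-integral function of level `M` (`q ∤ M`) is
integral over the ring `VE0 A 1` of inertia-fixed Gauss-integral functions of level `1`:
it is a root of a monic polynomial with coefficients in `VE0 A 1`. -/
theorem one_mod (x : ↥(H23.L0 A M)) (hx : x ∈ H23.VE0 A M) :
    ∃ P : Polynomial ↥(H23.VE0 A 1), P.Monic ∧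
      Polynomial.eval₂ ((H23.inclL0 A (hle1 M)).comp (H23.VE0 A 1).subtype) x P = 0 := by
  exact @H42.NRData.exists_monic_root ↥(H23.L0 A 1) ↥(H23.L0 A M) (FM A 1) _ _ _
    (H23.algL0 A (hle1 M)) Unit (fun _ => FM A M) _ (fun _ => fmAlg A M)
    (fun _ => finite_FM A M q hq hqM hA) (oneData A M q hq hqM hA) _ _ (finite_L0_one A M)
    (oneData_hdeg A M q hq hqM hA) x (fun _ => hx)

end Fermat.Agent.S36.NU.H42
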