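import Fermat.Agent.S24.Closure.Final
import Fermat.Agent.Lib.HeckeComm.H2_Deg

/-!
# S36, NU-B, leaf NORM-BC-NU (helper44), part 1: `j (q ^ d) ∉ F_X` unless `d ∣ X`

In the Galois closure `LN N / Q̄(j)` of `F_N` (S24), for `d ∣ N`:

* `smul_jdA_of_mem_Gamma0_d` : `Γ₀(d)` fixes `j (d τ)`;
* `mem_Gamma0_of_smul_jdA_d` : if `γ` fixes `j (d τ)` then `γ ∈ Γ₀(d)`;
* `piN_phi_incl_of_mem_Gamma0` : `Γ₀(X)` fixes the image of `F_X`, `X ∣ N`;
* `jdF_not_mem_range_incl` : for `X, d ∣ N` with `d ∤ X`, `j (q ^ d) ∉ F_X` (inside `F_N`).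
-/

set_option autoImplicit false
set_option linter.style.haveILetI false
set_option linter.unusedSectionVars false

noncomputable section

namespace Fermat.Agent.S36.NU.H44

open ModularCurve UpperHalfPlane Fermat.Agent.S24 Fermat.Agent.Lib.HeckeComm
open scoped MatrixGroups

local notation "Kb" => AlgebraicClosure ℚ

/-- `Γ₀(d) ≤ Γ₀(d')` for `d' ∣ d`. -/
theorem mem_Gamma0_of_dvd {d d' : ℕ} (h : d' ∣ d) {γ : SL(2, ℤ)}
    (hγ : γ ∈ CongruenceSubgroup.Gamma0 d) : γ ∈ CongruenceSubgroup.Gamma0 d' := by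
  rw [CongruenceSubgroup.Gamma0_mem] at hγ ⊢
  rw [ZMod.intCast_zmod_eq_zero_iff_dvd] at hγ ⊢
  exact dvd_trans (Int.natCast_dvd_natCast.mpr h) hγ

/-- `Γ₀(d)` fixes `j (d τ)`, `d ∣ N`. -/
theorem smul_jdA_of_mem_Gamma0_d (N d : ℕ) (hd : 0 < d) (hdN : d ∣ N) (γ : SL(2, ℤ))
    (hγ : γ ∈ CongruenceSubgroup.Gamma0 d) : γ • jdA N d = jdA N d := by
  apply Subtype.ext
  rw [coe_smul_Atil, jdA_coe N d hd hdN]
  have hdet : 0 < (!![(d : ℤ), 0; 0, 1] : Matrix (Fin 2) (Fin 2) ℤ).det := by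
    simpa [Matrix.det_fin_two] using hd
  have hγ' : γ⁻¹ ∈ CongruenceSubgroup.Gamma0 d := inv_mem hγ
  rw [CongruenceSubgroup.Gamma0_mem] at hγ'
  obtain ⟨c, hc⟩ : (d : ℤ) ∣ (γ⁻¹ : SL(2, ℤ)).1 1 0 :=
    (ZMod.intCast_zmod_eq_zero_iff_dvd _ d).mp hγ'
  obtain ⟨γ', hγ'⟩ := exists_diag_mul_eq (d : ℤ) γ⁻¹ c hc
  exact smul_JA_eq_of_mul_eq γ γ' _ hdet hγ'

/-- If `γ` fixes `j (d τ)`, `d ∣ N`, then `γ ∈ Γ₀(d)` (pole orders at `∞`). -/
theorem mem_Gamma0_of_smul_jdA_d (N d : ℕ) [NeZero N] (hdpos : 0 < d) (hdN : d ∣ N)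
    (γ : SL(2, ℤ)) (h : γ • jdA N d = jdA N d) : γ ∈ CongruenceSubgroup.Gamma0 d := by
  have hNpos : 0 < N := NeZero.pos N
  set D : Matrix (Fin 2) (Fin 2) ℤ := !![(d : ℤ), 0; 0, 1] with hD
  have hDdet : D.det = d := by simp [hD, Matrix.det_fin_two]
  have hDpos : 0 < D.det := by rw [hDdet]; exact_mod_cast hdpos
  have hDN : D.det ∣ (N : ℤ) := by rw [hDdet]; exact Int.natCast_dvd_natCast.mpr hdN
  have h1 : γ • JA D = JA D := by
    have := congrArg (fun f : Atil N => (f : Hol)) h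
    simpa only [coe_smul_Atil, jdA_coe N d hdpos hdN] using this
  set A : Matrix (Fin 2) (Fin 2) ℤ := D * (γ⁻¹ : SL(2, ℤ)).1 with hA
  have hAdet : A.det = d := by rw [hA, Matrix.det_mul, (γ⁻¹ : SL(2, ℤ)).2, mul_one, hDdet]
  have hApos : 0 < A.det := by rw [hAdet]; exact_mod_cast hdpos
  have hAN : A.det ∣ (N : ℤ) := by rw [hAdet]; exact Int.natCast_dvd_natCast.mpr hdN
  have h2 : JA A = JA D := by rw [← h1, smul_JA γ D hDpos]
  obtain ⟨δ, a, e, b, ha, he, hae, hAδ⟩ := hermite_general A hApos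
  have ho1 := uExp_JA_order N A hApos hAN δ a e b ha he hAδ
  have hD1 : D = (1 : SL(2, ℤ)).1 * !![((d : ℕ) : ℤ), (0 : ℤ); 0, ((1 : ℕ) : ℤ)] := by
    rw [Matrix.SpecialLinearGroup.coe_one, one_mul, hD, Nat.cast_one]
  have ho2 := uExp_JA_order N D hDpos hDN 1 d 1 0 hdpos one_pos hD1
  have heq : (⟨JA A, JA_mem_Atil N A hApos hAN⟩ : Atil N) = ⟨JA D, JA_mem_Atil N D hDpos hDN⟩ :=
    Subtype.ext h2
  rw [heq, ho2] at ho1
  have h3 : N / 1 * d = N / e * a := by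
    have := neg_injective ho1
    exact_mod_cast this
  rw [Nat.div_one] at h3
  have hae' : a * e = d := by
    have : ((a * e : ℕ) : ℤ) = (d : ℤ) := by rw [← hAdet, ← hae]; push_cast; ring
    exact_mod_cast this
  have heN : e ∣ N := (Dvd.intro_left a hae').trans hdN
  obtain ⟨n, hn⟩ := heN
  have hn0 : 0 < n := by
    rcases Nat.eq_zero_or_pos n with h0 | h0
    · rw [h0, mul_zero] at hn; omega
    · exact h0
  have hdiv : N / e = n := by rw [hn]; exact Nat.mul_div_cancel_left n he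
  rw [hdiv, hn, ← hae'] at h3
  -- `e * n * (a * e) = n * a`, so `e * e = 1`
  have h4 : (n * a) * (e * e) = (n * a) * 1 := by
    have e1 : (n * a) * (e * e) = e * n * (a * e) := by ring
    rw [e1, h3, mul_one]
  have h5 : e * e = 1 := Nat.eq_of_mul_eq_mul_left (Nat.mul_pos hn0 ha) h4
  have he1 : e = 1 := by
    rcases Nat.lt_or_ge e 2 with hlt | hge
    · omega
    · exfalso
      have : 2 * 2 ≤ e * e := Nat.mul_le_mul hge hge
      omega
  have haD : a = d := by rw [← hae', he1, mul_one]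
  -- read off the lower left entry
  have h10 : A 1 0 = (γ⁻¹ : SL(2, ℤ)).1 1 0 := by
    rw [hA, hD]
    simp [Matrix.mul_apply, Fin.sum_univ_two]
  have h10' : A 1 0 = δ.1 1 0 * d := by
    rw [hAδ, haD]
    simp [Matrix.mul_apply, Fin.sum_univ_two]
  have hmem : γ⁻¹ ∈ CongruenceSubgroup.Gamma0 d := by
    rw [CongruenceSubgroup.Gamma0_mem]
    rw [(ZMod.intCast_zmod_eq_zero_iff_dvd _ d)]
    rw [← h10, h10']
    exact Dvd.intro_left _ rfl
  have := inv_mem hmem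
  rwa [inv_inv] at this

/-- `Γ₀(X)` fixes the image of `F_X` in the Galois closure of `F_N`, `X ∣ N`. -/
theorem piN_phi_incl_of_mem_Gamma0 (N X : ℕ) [NeZero N] [NeZero X] (hXN : X ∣ N)
    (γ : SL(2, ℤ)) (hγ : γ ∈ CongruenceSubgroup.Gamma0 X) (y : FN X) :
    piN N γ (phi N (inclFN X N hXN y)) = phi N (inclFN X N hXN y) := by
  have hy : y ∈ IntermediateField.adjoin Kb
      {x : FN X | ∃ (d : ℕ) (_ : NeZero d) (hd : d ∣ X), x = jdF X d hd} := by
    rw [adjoin_jdF]; exact IntermediateField.mem_top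
  induction hy using IntermediateField.adjoin_induction with
  | mem z hz =>
    obtain ⟨d, hd0, hd, rfl⟩ := hz
    rw [inclFN_jdF, piN_phi_jdF,
      smul_jdA_of_mem_Gamma0_d N d (Nat.pos_of_ne_zero (NeZero.ne d)) (hd.trans hXN) γ
        (mem_Gamma0_of_dvd hd hγ), phi_jdF]
  | algebraMap c =>
    rw [AlgHom.commutes, AlgHom.commutes, IsScalarTower.algebraMap_apply Kb EN (LN N)]
    exact (piN N γ).commutes _
  | add y z _ _ hy hz =>
    have e1 : inclFN X N hXN (y + z) = inclFN X N hXN y + inclFN X N hXN z :=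
      (inclFN X N hXN).toRingHom.map_add y z
    have e2 : ∀ u v : FN N, phi N (u + v) = phi N u + phi N v :=
      fun u v => (phi N).toRingHom.map_add u v
    rw [e1, e2, map_add, hy, hz]
  | inv y _ hy => rw [map_inv₀, map_inv₀, map_inv₀, hy]
  | mul y z _ _ hy hz => rw [map_mul, map_mul, map_mul, hy, hz]

/-- The matrix `[1, 0; X, 1] ∈ Γ₀(X)`. -/
def lowerX (X : ℕ) : SL(2, ℤ) :=
  ⟨!![1, 0; (X : ℤ), 1], by simp [Matrix.det_fin_two]⟩

theorem lowerX_mem (X : ℕ) : lowerX X ∈ CongruenceSubgroup.Gamma0 X := by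
  rw [CongruenceSubgroup.Gamma0_mem]
  simp [lowerX]

theorem lowerX_mem_iff (X d : ℕ) : lowerX X ∈ CongruenceSubgroup.Gamma0 d ↔ d ∣ X := by
  rw [CongruenceSubgroup.Gamma0_mem, ZMod.intCast_zmod_eq_zero_iff_dvd]
  simp [lowerX, Int.natCast_dvd_natCast]

/-- **`j (q ^ d) ∉ F_X`** inside `F_N`, for `X, d ∣ N`, `d ∤ X`. -/
theorem jdF_not_mem_range_incl (N X d : ℕ) [NeZero N] [NeZero X] [NeZero d] (hXN : X ∣ N)
    (hdN : d ∣ N) (hdX : ¬ d ∣ X) (y : FN X) : inclFN X N hXN y ≠ jdF N d hdN := by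
  intro hy
  have h1 := piN_phi_incl_of_mem_Gamma0 N X hXN (lowerX X) (lowerX_mem X) y
  rw [hy, piN_phi_jdF, phi_jdF] at h1
  have h2 := IsFractionRing.injective (AT N) (LN N) h1
  have h3 : lowerX X • jdA N d = jdA N d := (toAT N).injective h2
  exact hdX ((lowerX_mem_iff X d).mp
    (mem_Gamma0_of_smul_jdA_d N d (Nat.pos_of_ne_zero (NeZero.ne d)) hdN _ h3))

end Fermat.Agent.S36.NU.H44
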