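import Fermat.Agent.S36.NU.H44_HorAbs
import Fermat.Agent.S36.NU.H23_L0
import Fermat.Agent.RED.H95_IsFF
import Fermat.Agent.RED.H51_Basic
import Fermat.Agent.RED.H17_Place

/-!
# S36, NU-B, TI3 leaf (M3) HOR (helper44; target of helper16)

An `I`-fixed function `h` of level `N` whose divisor over `ℚ̄` is divisible by `n` is, up to the
fixed exponent `E₀ = [F_N : ℚ̄(j)]!`, an `n`-th power times a unit at every valuation ring
`W ≠ ⊤` of `L₀ = F_N^I` which contains the constants.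

Proof: `W = W' ∩ L₀` for a valuation ring `W'` of `F_N` (Chevalley), `W'` contains `ℚ̄`, so it is a
place `P` of `F_N / ℚ̄`.  If `j` has a pole at `P` put `t = 1 / j`; otherwise `j (P) = c ∈ ℚ̄` and
`t = ∏ (j - c')` over the (finite) `I`-orbit of `c`.  Then `t ∈ L₀`, `0 < ord_P t ≤ [F_N : ℚ̄(j)]`,
and `s = t ^ (- ord_P(h) E₀ / (n ord_P t))` does it.
-/

set_option autoImplicit false
set_option synthInstance.maxHeartbeats 400000
set_option maxHeartbeats 1000000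
set_option linter.style.haveILetI false
set_option linter.unusedSectionVars false

noncomputable section

open ModularCurve AlgebraicCurve IntermediateField Fermat.Agent.S24 Fermat.Agent.S36.NU.H23
  Fermat.Agent.BAD.H88

namespace Fermat.Agent.S36.NU.H44

/-- **(M3) HOR**: an `I`-fixed function whose divisor over `ℚ̄` is divisible by `n` is, up to the
fixed exponent `E₀`, an `n`-th power times a unit at every valuation ring `W ≠ ⊤` of `L0 A N`
which contains the constants. -/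
def Stmt_HOR (N : ℕ) [NeZero N] : Prop :=
  ∃ E₀ : ℕ, E₀ ≠ 0 ∧ ∀ (A : ValuationSubring Kbar) (n : ℕ) (h : ↥(L0 A N)), h ≠ 0 →
    (∀ P : Place Kbar (FN N), (n : ℤ) ∣ P.ord (h : FN N)) →
    ∀ W : ValuationSubring ↥(L0 A N),
      (∀ c : ↥(L0 A N), (∃ c' : Kbar, (c : FN N) = algebraMap Kbar (FN N) c') → c ∈ W) → W ≠ ⊤ →
      ∃ s : ↥(L0 A N), s ≠ 0 ∧ h ^ E₀ * s ^ n ∈ W ∧ (h ^ E₀ * s ^ n)⁻¹ ∈ W

section Orbit

variable (A : ValuationSubring Kbar)

open Classical in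
/-- The orbit of `c ∈ ℚ̄` under the inertia group of `A`. -/
def orbitI (c : Kbar) : Finset Kbar :=
  ((minpoly ℚ c).aroots Kbar).toFinset.filter
    (fun c' => ∃ σ ∈ A.inertiaSubgroupIn ℚ, σ c = c')

theorem mem_orbitI {c c' : Kbar} :
    c' ∈ orbitI A c ↔ ∃ σ ∈ A.inertiaSubgroupIn ℚ, σ c = c' := by
  classical
  rw [orbitI, Finset.mem_filter, Multiset.mem_toFinset]
  refine ⟨fun h => h.2, fun h => ⟨?_, h⟩⟩
  obtain ⟨σ, -, rfl⟩ := h
  haveI : Algebra.IsAlgebraic ℚ Kbar := AlgebraicClosure.isAlgebraic ℚ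
  have hint : IsIntegral ℚ c := Algebra.IsIntegral.isIntegral c
  rw [Polynomial.mem_aroots]
  refine ⟨minpoly.ne_zero hint, ?_⟩
  have h := Polynomial.aeval_algHom_apply (σ : Kbar →ₐ[ℚ] Kbar) c (minpoly ℚ c)
  rw [minpoly.aeval, map_zero] at h
  exact h

theorem self_mem_orbitI (c : Kbar) : c ∈ orbitI A c :=
  (mem_orbitI A).mpr ⟨1, one_mem _, rfl⟩

theorem image_orbitI (c : Kbar) {σ : Kbar ≃ₐ[ℚ] Kbar} (hσ : σ ∈ A.inertiaSubgroupIn ℚ) :
    (orbitI A c).image (fun x => σ x) = orbitI A c := by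
  classical
  apply Finset.eq_of_subset_of_card_le
  · intro y hy
    rw [Finset.mem_image] at hy
    obtain ⟨x, hx, rfl⟩ := hy
    obtain ⟨τ, hτ, rfl⟩ := (mem_orbitI A).mp hx
    exact (mem_orbitI A).mpr ⟨σ * τ, mul_mem hσ hτ, rfl⟩
  · rw [Finset.card_image_of_injective _ σ.injective]

variable (N : ℕ) [NeZero N]

/-- The product of `j - c'` over the inertia orbit of `c`. -/
def tOrb (c : Kbar) : FN N := ∏ c' ∈ orbitI A c, (jF N - algebraMap Kbar (FN N) c')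

theorem jF_sub_ne_zero (c : Kbar) : jF N - algebraMap Kbar (FN N) c ≠ 0 := by
  intro h
  have h1 : jF N = algebraMap Kbar (FN N) c := sub_eq_zero.mp h
  exact (jF_transcendental N) (h1 ▸ isAlgebraic_algebraMap c)

theorem tOrb_ne_zero (c : Kbar) : tOrb A N c ≠ 0 :=
  Finset.prod_ne_zero_iff.mpr fun c' _ => jF_sub_ne_zero N c'

theorem jF_mem_L0 : jF N ∈ L0 A N := by
  rw [jF_eq_jdF]
  exact jdF_mem_L0 A N 1 (one_dvd N)

theorem arith_jF (σ : Kbar ≃ₐ[ℚ] Kbar) :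
    arithmeticRingAut (modularFunctionFieldFull N) σ (jF N) = jF N := by
  rw [jF_eq_jdF]
  exact arith_jdF N 1 (one_dvd N) σ

theorem tOrb_mem_L0 (c : Kbar) : tOrb A N c ∈ L0 A N := by
  classical
  intro σ hσ
  rw [tOrb, map_prod]
  have e : ∀ c' : Kbar, arithmeticRingAut (modularFunctionFieldFull N) σ
      (jF N - algebraMap Kbar (FN N) c') = jF N - algebraMap Kbar (FN N) (σ c') := by
    intro c'
    rw [map_sub, arith_jF, arithmeticRingAut_algebraMap]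
  simp only [e]
  have h2 := Finset.prod_image (s := orbitI A c) (g := fun x => σ x)
    (f := fun y => jF N - algebraMap Kbar (FN N) y) (fun x _ y _ hxy => σ.injective hxy)
  rw [image_orbitI A c hσ] at h2
  exact h2.symm

theorem ord_tOrb (P : Place Kbar (FN N)) (c : Kbar)
    (hP : 0 < P.ord (jF N - algebraMap Kbar (FN N) c)) :
    P.ord (tOrb A N c) = P.ord (jF N - algebraMap Kbar (FN N) c) := by
  classical
  rw [tOrb, Fermat.Agent.RED.H51.ord_prod P _ _ (fun c' _ => jF_sub_ne_zero N c'),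
    Finset.sum_eq_single c]
  · intro c' _ hc'
    exact ord_sub_const_of_ne P (jF N) hc' hP
  · intro h
    exact absurd (self_mem_orbitI A c) h

end Orbit

/-- **(M3) HOR**. -/
theorem stmt_HOR (N : ℕ) [NeZero N] : Stmt_HOR N := by
  haveI hfd : FiniteDimensional Kbar⟮jF N⟯ (FN N) := asm_finiteDimensional (modClosure N)
  refine ⟨(Module.finrank Kbar⟮jF N⟯ (FN N)).factorial, Nat.factorial_ne_zero _, ?_⟩
  intro A n h hh0 hdiv W hWc hWtop
  obtain ⟨W', hW'⟩ := exists_valuationSubring_extension (L0 A N) W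
  -- `W'` contains the constants
  have hQ : ∀ r : ℚ, algebraMap Kbar (FN N) (r : Kbar) ∈ W' := by
    intro r
    have hmem : algebraMap Kbar (FN N) (r : Kbar) ∈ L0 A N :=
      (const_mem_L0_iff A _).mpr (fun σ _ => map_ratCast σ r)
    exact (hW' ⟨_, hmem⟩).mpr (hWc ⟨_, hmem⟩ ⟨(r : Kbar), rfl⟩)
  haveI : Algebra.IsAlgebraic ℚ Kbar := AlgebraicClosure.isAlgebraic ℚ
  have hK : ∀ c : Kbar, algebraMap Kbar (FN N) c ∈ W' := algebraMap_mem_of_rat_mem W' hQ
  have hne : W' ≠ ⊤ := by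
    intro htop
    apply hWtop
    rw [eq_top_iff]
    intro x _
    exact (hW' x).mp (htop ▸ ValuationSubring.mem_top _)
  obtain ⟨P, hP⟩ := Fermat.Agent.RED.H42.exists_place_eq (Fermat.Agent.RED.H95.isFF_FN N) W' hK hne
  have hdeg : P.deg = 1 :=
    Fermat.Agent.RED.H51.stmt_FFB_deg Kbar (FN N) (Fermat.Agent.RED.H95.isFF_FN N) P
  -- the function `t`
  obtain ⟨t, htL, ht0, htpos, htle⟩ : ∃ t : FN N, t ∈ L0 A N ∧ t ≠ 0 ∧ 0 < P.ord t ∧
      P.ord t ≤ (Module.finrank Kbar⟮jF N⟯ (FN N) : ℤ) := by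
    by_cases hj : jF N ∈ P.toValuationSubring
    · obtain ⟨c, hc⟩ := Fermat.Agent.RED.H51.exists_value P hdeg
        ((Fermat.Agent.RED.H51.ordGe_zero_iff_mem P (jF N)).mpr hj)
      have hpos : 0 < P.ord (jF N - algebraMap Kbar (FN N) c) := by
        rcases hc with h0 | h1
        · exact absurd h0 (jF_sub_ne_zero N c)
        · omega
      refine ⟨tOrb A N c, tOrb_mem_L0 A N c, tOrb_ne_zero A N c, ?_, ?_⟩
      · rw [ord_tOrb A N P c hpos]; exact hpos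
      · rw [ord_tOrb A N P c hpos]
        exact ord_le_finrank_of_adjoin_eq (jF N) _ (adjoin_sub_const (jF N) c) P hpos
    · have hneg : P.ord (jF N) < 0 := Fermat.Agent.RED.H51.not_mem_iff_ord_neg P |>.mp hj
      have hpos : 0 < P.ord (jF N)⁻¹ := by rw [P.ord_inv]; omega
      have hj0 : jF N ≠ 0 := fun h0 => hj (h0 ▸ zero_mem _)
      exact ⟨(jF N)⁻¹, (L0 A N).inv_mem (jF_mem_L0 A N), inv_ne_zero hj0, hpos,
        ord_le_finrank_of_adjoin_eq (jF N) _ (adjoin_inv_eq (jF N)) P hpos⟩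
  obtain ⟨m, hm⟩ := hdiv P
  obtain ⟨e, he⟩ : ∃ e : ℕ, (e : ℤ) = P.ord t := ⟨(P.ord t).toNat, Int.toNat_of_nonneg htpos.le⟩
  have hepos : 0 < e := by omega
  have hele : e ≤ Module.finrank Kbar⟮jF N⟯ (FN N) := by omega
  obtain ⟨k, hk⟩ : e ∣ (Module.finrank Kbar⟮jF N⟯ (FN N)).factorial :=
    Nat.dvd_factorial hepos hele
  -- the function `s`
  have hsL : t ^ (-(m * (k : ℤ))) ∈ L0 A N := zpow_mem htL _
  have hs0 : t ^ (-(m * (k : ℤ))) ≠ 0 := zpow_ne_zero _ ht0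
  have hh0' : (h : FN N) ≠ 0 := fun h0 => hh0 (Subtype.ext h0)
  refine ⟨⟨t ^ (-(m * (k : ℤ))), hsL⟩, fun h0 => hs0 (congrArg Subtype.val h0), ?_⟩
  set E₀ := (Module.finrank Kbar⟮jF N⟯ (FN N)).factorial with hE₀
  set u : FN N := (h : FN N) ^ E₀ * (t ^ (-(m * (k : ℤ)))) ^ n with hu
  have hu0 : u ≠ 0 := mul_ne_zero (pow_ne_zero _ hh0') (pow_ne_zero _ hs0)
  have hord : P.ord u = 0 := by
    rw [hu, P.ord_mul (pow_ne_zero _ hh0') (pow_ne_zero _ hs0), Fermat.Agent.RED.H17.ord_pow,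
      Fermat.Agent.RED.H17.ord_pow, P.ord_zpow, hm, ← he, hk]
    push_cast
    ring
  have hcoe : ((h ^ E₀ * (⟨t ^ (-(m * (k : ℤ))), hsL⟩ : ↥(L0 A N)) ^ n : ↥(L0 A N)) : FN N) = u :=
    rfl
  have hmemu : u ∈ W' := by
    rw [← hP, Fermat.Agent.RED.H51.mem_iff_ord_nonneg P hu0, hord]
  have hmemui : u⁻¹ ∈ W' := by
    rw [← hP, Fermat.Agent.RED.H51.mem_iff_ord_nonneg P (inv_ne_zero hu0), P.ord_inv, hord]
    simp
  constructor
  · exact (hW' _).mp (hcoe ▸ hmemu)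
  · refine (hW' _).mp ?_
    show ((h ^ E₀ * (⟨t ^ (-(m * (k : ℤ))), hsL⟩ : ↥(L0 A N)) ^ n : ↥(L0 A N)) : FN N)⁻¹ ∈ W'
    rw [hcoe]
    exact hmemui

end Fermat.Agent.S36.NU.H44
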