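import Mathlib
import Fermat.Agent.RED.H51_ZerosLe
import Fermat.Agent.RED.H51_Det
import Fermat.Agent.RED.H42_Gen8

/-!
# S36, NU-B, TI3 leaf (M3) HOR (helper44), abstract part

* `exists_valuationSubring_extension` : a valuation ring `W` of a subfield `F₀ ⊂ L` is the trace
  `W' ∩ F₀` of a valuation ring `W'` of `L` (Chevalley + maximality of valuation rings for
  domination);
* `algebraMap_mem_of_rat_mem` : a valuation ring containing the rational constants contains all
  the constants algebraic over `ℚ`;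
* `ord_le_finrank_of_adjoin_eq` : `ord_v x ≤ [F : K(j)]` at a zero `v` of `x`, if `K(x) = K(j)`;
* `ord_sub_const_of_ne` : `ord_v (j - c') = 0` if `ord_v (j - c) > 0`, `c' ≠ c`.
-/

set_option autoImplicit false
set_option linter.style.haveILetI false
set_option linter.unusedSectionVars false

noncomputable section

open AlgebraicCurve IntermediateField Polynomial

namespace Fermat.Agent.S36.NU.H44

section Ext

variable {L : Type*} [Field L]

/-- A valuation ring of a subfield is the trace of a valuation ring of the field. -/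
theorem exists_valuationSubring_extension (F₀ : Subfield L) (W : ValuationSubring ↥F₀) :
    ∃ W' : ValuationSubring L, ∀ x : ↥F₀, (x : L) ∈ W' ↔ x ∈ W := by
  obtain ⟨B, hle, hloc⟩ := LocalSubring.exists_le_valuationSubring
    (LocalSubring.map F₀.subtype W.toLocalSubring)
  have hmem : ∀ x : ↥F₀, x ∈ W →
      (x : L) ∈ (LocalSubring.map F₀.subtype W.toLocalSubring).toSubring :=
    fun x hx => ⟨x, hx, rfl⟩
  refine ⟨B, fun x => ⟨fun hx => ?_, fun hx => hle (hmem x hx)⟩⟩
  by_contra hxW
  have hx0 : x ≠ 0 := fun h => hxW (h ▸ W.zero_mem)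
  have hxL0 : (x : L) ≠ 0 := fun h => hx0 (Subtype.ext h)
  have hxi : x⁻¹ ∈ W := (W.mem_or_inv_mem x).resolve_left hxW
  have hy := hmem x⁻¹ hxi
  have hunit : IsUnit (Subring.inclusion hle ⟨((x⁻¹ : ↥F₀) : L), hy⟩) := by
    rw [isUnit_iff_exists_inv]
    refine ⟨⟨(x : L), hx⟩, Subtype.ext ?_⟩
    show ((x⁻¹ : ↥F₀) : L) * (x : L) = 1
    rw [Subfield.coe_inv, inv_mul_cancel₀ hxL0]
  have hunit' : IsUnit (⟨((x⁻¹ : ↥F₀) : L), hy⟩ :
      ↥(LocalSubring.map F₀.subtype W.toLocalSubring).toSubring) :=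
    hloc.map_nonunit _ hunit
  obtain ⟨⟨z, hz⟩, hzz⟩ := isUnit_iff_exists_inv.mp hunit'
  obtain ⟨w, hw, rfl⟩ := hz
  have h1 : ((x⁻¹ : ↥F₀) : L) * (F₀.subtype w) = 1 := congrArg Subtype.val hzz
  have h2 : (x : L) = F₀.subtype w := by
    rw [Subfield.coe_inv] at h1
    have := eq_inv_of_mul_eq_one_right h1
    rw [inv_inv] at this
    exact this.symm
  have h3 : x = w := Subtype.ext h2
  exact hxW (h3 ▸ hw)

end Ext

section Const

variable {K F : Type*} [Field K] [Field F] [Algebra K F] [CharZero K]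

/-- A valuation ring containing the rational constants contains all the constants, if the
constant field is algebraic over `ℚ`. -/
theorem algebraMap_mem_of_rat_mem [Algebra.IsAlgebraic ℚ K] (W' : ValuationSubring F)
    (hQ : ∀ r : ℚ, algebraMap K F (r : K) ∈ W') (c : K) : algebraMap K F c ∈ W' := by
  haveI : CharZero F := charZero_of_injective_algebraMap (algebraMap K F).injective
  have hQ' : ∀ r : ℚ, algebraMap ℚ F r ∈ W' := by
    intro r
    have e : algebraMap ℚ F r = algebraMap K F (r : K) := by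
      rw [eq_ratCast, map_ratCast]
    rw [e]
    exact hQ r
  obtain ⟨p, hpm, hp⟩ := (Algebra.IsIntegral.isIntegral (R := ℚ) c : IsIntegral ℚ c)
  let φ : ℚ →+* ↥W' := (algebraMap ℚ F).codRestrict W' hQ'
  have hint : IsIntegral ↥W' (algebraMap K F c) := by
    refine ⟨p.map φ, hpm.map φ, ?_⟩
    rw [eval₂_map]
    have e1 : (algebraMap ↥W' F).comp φ = (algebraMap K F).comp (algebraMap ℚ K) :=
      RingHom.ext fun r => by
        show algebraMap ℚ F r = algebraMap K F (algebraMap ℚ K r)
        rw [eq_ratCast, eq_ratCast, map_ratCast]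
    rw [e1, ← hom_eval₂, hp, map_zero]
  obtain ⟨y, hy⟩ := IsIntegrallyClosed.algebraMap_eq_of_integral hint
  rw [← hy]
  exact y.2

end Const

section Ord

variable {K F : Type*} [Field K] [Field F] [Algebra K F]

/-- `ord_v x ≤ [F : K(j)]` at a zero `v` of `x`, if `K(x) = K(j)`. -/
theorem ord_le_finrank_of_adjoin_eq (j x : F) [FiniteDimensional K⟮j⟯ F] (hx : K⟮x⟯ = K⟮j⟯)
    (v : Place K F) (hv : 0 < v.ord x) : v.ord x ≤ (Module.finrank K⟮j⟯ F : ℤ) := by
  have key : ∀ (E : IntermediateField K F), E = K⟮x⟯ → FiniteDimensional E F →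
      v.ord x ≤ (Module.finrank E F : ℤ) := by
    intro E hE hfin
    subst hE
    have h := Fermat.Agent.RED.H51.sum_ord_le_finrank x {v} (fun w hw => by
      rw [Finset.mem_singleton] at hw
      rw [hw]
      exact hv)
    rwa [Finset.sum_singleton] at h
  exact key K⟮j⟯ hx.symm inferInstance

theorem adjoin_sub_const (j : F) (c : K) : K⟮j - algebraMap K F c⟯ = K⟮j⟯ := by
  apply le_antisymm
  · rw [adjoin_simple_le_iff]
    exact sub_mem (mem_adjoin_simple_self K j) (IntermediateField.algebraMap_mem _ c)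
  · rw [adjoin_simple_le_iff]
    have h2 : (j - algebraMap K F c) + algebraMap K F c ∈ K⟮j - algebraMap K F c⟯ :=
      add_mem (mem_adjoin_simple_self K _) (IntermediateField.algebraMap_mem _ c)
    rwa [sub_add_cancel] at h2

theorem adjoin_inv_eq (j : F) : K⟮j⁻¹⟯ = K⟮j⟯ := by
  apply le_antisymm
  · rw [adjoin_simple_le_iff]
    exact inv_mem (mem_adjoin_simple_self K j)
  · rw [adjoin_simple_le_iff]
    have h2 : (j⁻¹)⁻¹ ∈ K⟮j⁻¹⟯ := inv_mem (mem_adjoin_simple_self K j⁻¹)
    rwa [inv_inv] at h2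

/-- `ord_v (j - c') = 0` if `ord_v (j - c) > 0` and `c' ≠ c`. -/
theorem ord_sub_const_of_ne (v : Place K F) (j : F) {c c' : K} (hcc : c' ≠ c)
    (hv : 0 < v.ord (j - algebraMap K F c)) : v.ord (j - algebraMap K F c') = 0 := by
  have hc0 : algebraMap K F (c - c') ≠ 0 :=
    (map_ne_zero (algebraMap K F)).mpr (sub_ne_zero.mpr (Ne.symm hcc))
  have h := Fermat.Agent.RED.H51.ord_add_eq v hc0 (g := j - algebraMap K F c) (by
    rw [Fermat.Agent.RED.H51.ord_algebraMap]
    exact Or.inr (by omega))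
  have e : algebraMap K F (c - c') + (j - algebraMap K F c) = j - algebraMap K F c' := by
    rw [map_sub]; ring
  rw [e] at h
  rw [h.2, Fermat.Agent.RED.H51.ord_algebraMap]

end Ord

end Fermat.Agent.S36.NU.H44
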