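import Fermat.Agent.S36.NU.H44_GalFix
import Fermat.Agent.S35.H44_DescSt
import Fermat.Agent.S36.NU.H82_Deg2

/-!
# S36, NU-B, leaf NORM-BC-NU (helper44), part 2: base change of the norms along `α`, `β`
from level `M` to level `r M`, for a prime `q ∣ M`, `q ∤ r`

The squares `F_M → F_{Mq}` (`α` or `β`), `F_{rM} → F_{rMq}`:

* `finrank_alpha_dvd` : `[F_{Mq} : α F_M] = q` for `q ∣ M`;
* `adjoin_alpha_up_dvd` : `F_{rMq} = F_{rM} (j (q ^ (M q)))` (prime degree and
  `jdF_not_mem_range_incl`);
* `norm_alpha_up_dvd`, `norm_beta_up_dvd` : the base change of the norms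
  (same shape as `S35.H44.norm_alpha_up`, `norm_beta_up`, which need `q ∤ M`);
* `norm_alpha_up_all`, `norm_beta_up_all` : the same for every `M` (`q` prime, `q ∤ r`).
-/

set_option autoImplicit false
set_option linter.style.haveILetI false
set_option linter.unusedSectionVars false

noncomputable section

namespace Fermat.Agent.S36.NU.H44

open AlgebraicCurve ModularCurve Fermat.Agent.S24 Fermat.Agent.Lib.HeckeComm
  Fermat.Agent.S36.H44 Fermat.Agent.S35.H44

local notation "Kb" => AlgebraicClosure ℚ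

section Square

variable (M q r : ℕ) [NeZero M] [NeZero q] [NeZero r]

/-- `[F_{Mq} : F_M] = q` for a prime `q ∣ M`. -/
theorem finrank_alpha_dvd (hq : q.Prime) (hqM : q ∣ M) :
    finrankHom (heckeAlphaBar Kb M q).toRingHom = q := by
  have h := stmt_Deg M (M * q) (dvd_mul_right M q)
  unfold Stmt_Deg at h
  rw [Fermat.Agent.S36.NU.H82.dedekindPsi_mul_of_dvd hq (NeZero.ne M) hqM] at h
  exact Nat.eq_of_mul_eq_mul_right (dedekindPsi_pos_h2 M) h

/-- The degree of `F_{rM} / F_M` is the degree of `F_{rMq} / F_{Mq}` for a prime `q ∣ M`. -/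
theorem finrank_inclUp_dvd (hq : q.Prime) (hqM : q ∣ M) :
    finrankHom (inclUp M q r).toRingHom = finrankHom (inclLo M r).toRingHom := by
  have h1 := stmt_Deg M (r * M) (dvd_lo M r)
  have h2 := stmt_Deg (M * q) (r * M * q) (dvd_up M q r)
  unfold Stmt_Deg at h1 h2
  rw [Fermat.Agent.S36.NU.H82.dedekindPsi_mul_of_dvd hq (NeZero.ne M) hqM,
    Fermat.Agent.S36.NU.H82.dedekindPsi_mul_of_dvd hq (NeZero.ne (r * M))
      (dvd_mul_of_dvd_right hqM r), ← h1] at h2
  have hq0 : 0 < q * dedekindPsi M := Nat.mul_pos hq.pos (dedekindPsi_pos_h2 M)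
  have h3 : finrankHom (inclUp M q r).toRingHom * (q * dedekindPsi M)
      = finrankHom (inclLo M r).toRingHom * (q * dedekindPsi M) := by
    rw [show finrankHom (inclLo M r).toRingHom * (q * dedekindPsi M)
      = q * (finrankHom (inclLo M r).toRingHom * dedekindPsi M) by ring]
    exact h2
  exact Nat.eq_of_mul_eq_mul_right hq0 h3

theorem finrank_inclLo_ne_zero : finrankHom (inclLo M r).toRingHom ≠ 0 :=
  (finrank_FN_pos M (r * M) (dvd_lo M r)).ne'

/-- `F_{rMq}` is generated over `F_{rM}` by `j (q ^ (M q))`, for a prime `q ∣ M`, `q ∤ r`. -/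
theorem adjoin_alpha_up_dvd (hq : q.Prime) (hqM : q ∣ M) (hqr : ¬ q ∣ r) :
    letI := (heckeAlphaBar Kb (r * M) q).toRingHom.toAlgebra
    IntermediateField.adjoin (FN (r * M)) {jdF (r * M * q) (M * q) (dvd_up M q r)} = ⊤ := by
  letI := (heckeAlphaBar Kb (r * M) q).toRingHom.toAlgebra
  have hdeg : Module.finrank (FN (r * M)) (FN (r * M * q)) = q :=
    finrank_alpha_dvd (r * M) q hq (dvd_mul_of_dvd_right hqM r)
  haveI : IsSimpleOrder (IntermediateField (FN (r * M)) (FN (r * M * q))) :=
    IntermediateField.isSimpleOrder_of_finrank_prime _ _ (by rw [hdeg]; exact hq)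
  rcases eq_bot_or_eq_top (IntermediateField.adjoin (FN (r * M))
    {jdF (r * M * q) (M * q) (dvd_up M q r)}) with h | h
  · exfalso
    have hmem : jdF (r * M * q) (M * q) (dvd_up M q r)
        ∈ (⊥ : IntermediateField (FN (r * M)) (FN (r * M * q))) :=
      h ▸ IntermediateField.mem_adjoin_simple_self _ _
    rw [IntermediateField.mem_bot] at hmem
    obtain ⟨y, hy⟩ := hmem
    refine jdF_not_mem_range_incl (r * M * q) (r * M) (M * q) (dvd_mul_right (r * M) q)
      (dvd_up M q r) ?_ y hy
    intro hd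
    apply hqr
    have hd' : M * q ∣ M * r := by rwa [mul_comm M r]
    exact Nat.dvd_of_mul_dvd_mul_left (Nat.pos_of_ne_zero (NeZero.ne M)) hd'
  · exact h

/-- Base change of the norm along `α` from level `M` to level `r M`, `q ∣ M`. -/
theorem norm_alpha_up_dvd (hq : q.Prime) (hqM : q ∣ M) (hqr : ¬ q ∣ r) (x : FN (M * q)) :
    inclLo M r (normAlongHom (heckeAlphaBar Kb M q).toRingHom x)
      = normAlongHom (heckeAlphaBar Kb (r * M) q).toRingHom (inclUp M q r x) := by
  refine normAlongHom_baseChange (heckeAlphaBar Kb M q).toRingHom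
    (heckeAlphaBar Kb (r * M) q).toRingHom (inclLo M r).toRingHom (inclUp M q r).toRingHom
    ?_ (alpha_finite M q) (alpha_finite (r * M) q) (jdF (M * q) (M * q) dvd_rfl)
    (stmt_GenJ M (M * q) (dvd_mul_right M q)) ?_ ?_ x
  · intro a
    apply Subtype.ext
    simp only [AlgHom.toRingHom_eq_coe, RingHom.coe_coe, coe_heckeAlphaBar, coe_inclUp,
      coe_inclLo]
  · have e : (inclUp M q r).toRingHom (jdF (M * q) (M * q) dvd_rfl)
        = jdF (r * M * q) (M * q) (dvd_up M q r) :=
      inclFN_jdF _ _ _ _ _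
    rw [e]
    exact adjoin_alpha_up_dvd M q r hq hqM hqr
  · exact (finrank_alpha_dvd M q hq hqM).trans
      (finrank_alpha_dvd (r * M) q hq (dvd_mul_of_dvd_right hqM r)).symm

theorem beta_up_square :
    (inclUp M q r).toRingHom.comp (heckeBetaBar Kb M q).toRingHom
      = (heckeBetaBar Kb (r * M) q).toRingHom.comp (inclLo M r).toRingHom := by
  ext a
  simp only [RingHom.comp_apply, AlgHom.toRingHom_eq_coe, RingHom.coe_coe, coe_heckeBetaBar,
    coe_inclUp, coe_inclLo]

/-- Base change of the norm along `β` from level `M` to level `r M`, `q ∣ M`. -/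
theorem norm_beta_up_dvd (hq : q.Prime) (hqM : q ∣ M) (_hqr : ¬ q ∣ r) (x : FN (M * q)) :
    inclLo M r (normAlongHom (heckeBetaBar Kb M q).toRingHom x)
      = normAlongHom (heckeBetaBar Kb (r * M) q).toRingHom (inclUp M q r x) := by
  refine normAlongHom_baseChange (heckeBetaBar Kb M q).toRingHom
    (heckeBetaBar Kb (r * M) q).toRingHom (inclLo M r).toRingHom (inclUp M q r).toRingHom
    ?_ (beta_finite M q) (beta_finite (r * M) q) (jF (M * q))
    (adjoin_beta_jF M q) ?_ ?_ x
  · intro a
    apply Subtype.ext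
    simp only [AlgHom.toRingHom_eq_coe, RingHom.coe_coe, coe_heckeBetaBar, coe_inclUp,
      coe_inclLo]
  · have e : (inclUp M q r).toRingHom (jF (M * q)) = jF (r * M * q) :=
      inclFN_jF _ _ _
    rw [e]
    exact adjoin_beta_jF (r * M) q
  · exact finrank_eq_of_square (heckeBetaBar Kb M q).toRingHom (inclLo M r).toRingHom
      (inclUp M q r).toRingHom (heckeBetaBar Kb (r * M) q).toRingHom (beta_up_square M q r)
      (finrankHom (inclLo M r).toRingHom) (finrank_inclLo_ne_zero M r) rfl
      (finrank_inclUp_dvd M q r hq hqM)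

/-- Base change of the norm along `α` from level `M` to level `r M`: every `M`. -/
theorem norm_alpha_up_all (hq : q.Prime) (hqr : ¬ q ∣ r) (x : FN (M * q)) :
    inclLo M r (normAlongHom (heckeAlphaBar Kb M q).toRingHom x)
      = normAlongHom (heckeAlphaBar Kb (r * M) q).toRingHom (inclUp M q r x) := by
  by_cases hqM : q ∣ M
  · exact norm_alpha_up_dvd M q r hq hqM hqr x
  · exact norm_alpha_up M q r hq hqM hqr x

/-- Base change of the norm along `β` from level `M` to level `r M`: every `M`. -/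
theorem norm_beta_up_all (hq : q.Prime) (hqr : ¬ q ∣ r) (x : FN (M * q)) :
    inclLo M r (normAlongHom (heckeBetaBar Kb M q).toRingHom x)
      = normAlongHom (heckeBetaBar Kb (r * M) q).toRingHom (inclUp M q r x) := by
  by_cases hqM : q ∣ M
  · exact norm_beta_up_dvd M q r hq hqM hqr x
  · exact norm_beta_up M q r hq hqM hqr x

end Square

end Fermat.Agent.S36.NU.H44
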