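import Fermat.Agent.S36.NU.H61_BranchAlg
import Mathlib.RingTheory.DedekindDomain.IntegralClosure
import Mathlib.RingTheory.DedekindDomain.PID
import Mathlib.FieldTheory.IntermediateField.Adjoin.Algebra
import Mathlib.RingTheory.Algebraic.Basic
import Mathlib.RingTheory.FiniteType

/-!
# S36 / NU-B, local side of TI3, leaf (M2) NORMAL-IMG, parts (L2-v) and (L2-iv) (helper44)

Abstract form.  `k` a field, `κ` a field over `k`, `t ∈ κ` transcendental over `k` with `κ` finite
separable over `k(t)`.  `A = ` the integral closure of `k[t]` in `κ`.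

* (L2-v) `isDedekindDomain_clo`, `isFractionRing_clo`, `finite_clo`, `finiteType_clo` :
  `A` is a Dedekind domain with fraction field `κ`, finite over `k[t]`, of finite type over `k`.
* (L2-iv) `branch_of_normalImg` : for a chart `C` and a component `i`, if the residues of the
  elements of `B` are integral over `k[t]` and every element of `κ i` integral over `k[t]` is a
  residue of an element of `B`, then the component `i` has a `Branch` through every closed point
  `𝔪 ⊇ Icomp i`.
* `imgAlg_eq_clo`, `isDedekindDomain_imgAlg`, `isFractionRing_imgAlg`, `fg_imgAlg` : the same for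
  helper61's `imgAlg C i`.
-/

set_option autoImplicit false

noncomputable section

namespace Fermat.Agent.S36.NU.H44

open IntermediateField IntermediateField.algebraAdjoinAdjoin Fermat.Agent.S36.NU.H16
  Fermat.Agent.S36.NU.H61

section Abs

variable {k κ : Type*} [Field k] [Field κ] [Algebra k κ] (t : κ)

/-- `k[t]` is a principal ideal ring for transcendental `t`. -/
theorem isPrincipalIdealRing_adjoin_of_transcendental (ht : Transcendental k t) :
    IsPrincipalIdealRing ↥(Algebra.adjoin k {t}) :=
  IsPrincipalIdealRing.of_surjective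
    (Polynomial.algEquivOfTranscendental k t ht).toRingEquiv.toRingHom
    (Polynomial.algEquivOfTranscendental k t ht).surjective

/-- `k[t]` is of finite type over `k`. -/
theorem finiteType_adjoin_singleton : Algebra.FiniteType k ↥(Algebra.adjoin k {t}) := by
  rw [← Subalgebra.fg_iff_finiteType]
  exact ⟨{t}, by rw [Finset.coe_singleton]⟩

variable [FiniteDimensional k⟮t⟯ κ] [Algebra.IsSeparable k⟮t⟯ κ]

/-- **(L2-v)** the integral closure of `k[t]` in `κ` is a Dedekind domain. -/
theorem isDedekindDomain_clo (ht : Transcendental k t) :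
    IsDedekindDomain ↥(integralClosure ↥(Algebra.adjoin k {t}) κ) := by
  haveI := isPrincipalIdealRing_adjoin_of_transcendental t ht
  exact integralClosure.isDedekindDomain ↥(Algebra.adjoin k {t}) ↥k⟮t⟯ κ

/-- **(L2-v)** the integral closure of `k[t]` in `κ` has fraction field `κ`. -/
theorem isFractionRing_clo :
    IsFractionRing ↥(integralClosure ↥(Algebra.adjoin k {t}) κ) κ :=
  integralClosure.isFractionRing_of_finite_extension ↥k⟮t⟯ κ

/-- **(L2-v)** the integral closure of `k[t]` in `κ` is finite over `k[t]`. -/
theorem finite_clo (ht : Transcendental k t) :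
    Module.Finite ↥(Algebra.adjoin k {t}) ↥(integralClosure ↥(Algebra.adjoin k {t}) κ) := by
  haveI := isPrincipalIdealRing_adjoin_of_transcendental t ht
  exact IsIntegralClosure.finite ↥(Algebra.adjoin k {t}) ↥k⟮t⟯ κ _

/-- **(L2-v)** the integral closure of `k[t]` in `κ` is of finite type over `k`. -/
theorem finiteType_clo (ht : Transcendental k t) :
    Algebra.FiniteType k ↥(integralClosure ↥(Algebra.adjoin k {t}) κ) := by
  haveI := finite_clo t ht
  haveI := finiteType_adjoin_singleton (k := k) t
  exact Algebra.FiniteType.trans (R := k) (S := ↥(Algebra.adjoin k {t}))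
    (A := ↥(integralClosure ↥(Algebra.adjoin k {t}) κ)) inferInstance inferInstance

end Abs

section ChartPart

variable {R F k ι : Type*} {κ : ι → Type*} [CommRing R] [Field F] [Algebra R F]
  [Field k] [∀ i, Field (κ i)] [∀ i, Algebra k (κ i)]

/-- the map `B → A = ` integral closure of `k[t]` in `κ i`, when the residues are integral. -/
def toClo (C : Chart R F k ι κ) (i : ι) (t : κ i)
    (hint : ∀ β : C.B, IsIntegral ↥(Algebra.adjoin k {t}) (C.rdB i β)) :
    C.B →+* ↥(integralClosure ↥(Algebra.adjoin k {t}) (κ i)) :=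
  (C.rdB i).codRestrict (integralClosure ↥(Algebra.adjoin k {t}) (κ i)).toSubring hint

theorem coe_toClo (C : Chart R F k ι κ) (i : ι) (t : κ i)
    (hint : ∀ β : C.B, IsIntegral ↥(Algebra.adjoin k {t}) (C.rdB i β)) (β : C.B) :
    ((toClo C i t hint β : ↥(integralClosure ↥(Algebra.adjoin k {t}) (κ i))) : κ i) =
      C.rdB i β := rfl

theorem toClo_surjective (C : Chart R F k ι κ) (i : ι) (t : κ i)
    (hint : ∀ β : C.B, IsIntegral ↥(Algebra.adjoin k {t}) (C.rdB i β))
    (hsurj : ∀ y : κ i, IsIntegral ↥(Algebra.adjoin k {t}) y → ∃ β : C.B, C.rdB i β = y) :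
    Function.Surjective (toClo C i t hint) := by
  rintro ⟨y, hy⟩
  obtain ⟨β, hβ⟩ := hsurj y hy
  exact ⟨β, Subtype.ext hβ⟩

/-- **(L2-iv) + (L2-v), abstract form of (M2) NORMAL-IMG**: `t ∈ κ i` transcendental over `k`,
`κ i` finite separable over `k(t)`; the residues of the elements of `B` are integral over `k[t]`
and every element of `κ i` integral over `k[t]` is the residue of an element of `B`.  Then the
component `i` has a branch through every closed point `𝔪 ⊇ Icomp i`. -/
theorem branch_of_normalImg [IsAlgClosed k] (C : Chart R F k ι κ) (i : ι) (t : κ i)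
    (ht : Transcendental k t) [FiniteDimensional k⟮t⟯ (κ i)] [Algebra.IsSeparable k⟮t⟯ (κ i)]
    (hint : ∀ β : C.B, IsIntegral ↥(Algebra.adjoin k {t}) (C.rdB i β))
    (hsurj : ∀ y : κ i, IsIntegral ↥(Algebra.adjoin k {t}) y → ∃ β : C.B, C.rdB i β = y)
    (𝔪 : Ideal C.B) (hmax : 𝔪.IsMaximal) (h𝔪 : C.Icomp i ≤ 𝔪) :
    Nonempty (Branch C 𝔪 i) := by
  haveI := isDedekindDomain_clo t ht
  haveI := isFractionRing_clo (k := k) t
  haveI := finiteType_clo t ht
  exact branch_of_dedekind_finiteType C i (toClo C i t hint) (toClo_surjective C i t hint hsurj)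
    (fun β => rfl) 𝔪 hmax h𝔪

end ChartPart

end Fermat.Agent.S36.NU.H44
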