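import Fermat.Agent.S36.NU.H73_Pole
import Fermat.Agent.S36.NU.H30_CoordFinal
import Fermat.Agent.S36.NU.H65_Series
import Fermat.Agent.BAD.H21_SSBridge

/-!
# S36 / NU-B, leaf POLE-INST (helper44): COORD + POLE at the supersingular places, `q ≥ 5`

`q ≥ 5`, `q ∤ M`, `4 ∣ M`, `A` over `q`, `k = kV A`, `κ = modularFunctionFieldFullC k M`
(`= FM A M` by (GA)).  `ū = ubar4 = Δ̄(t)/Δ̄(t⁴)` (the reduction of `u = unitF M 4`),
`δ̄` = the reduction of `δ = (u^q - u(t^q))/q` (`= coeffMap (kdel q uZ4)`).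

A place `z` of `κ` is SUPERSINGULAR if `j̄` is regular at `z` and `Δ̄^{1-q}` (the reduction of the
modular unit `Δ(t)/Δ(t^q)`, `= H(j̄)`) vanishes at `z`.

* `exists_hasse_mult` : the supersingular polynomial `H` with `H(j̄) = Δ̄^{1-q}`, `X⁴ ∣ H` if
  `H(0) = 0`, `(X - 1728)⁶ ∣ H` if `H(1728) = 0`;
* `isRoot_of_ord_aeval_pos` : `H(x)` vanishes at `z` ⟹ `x(z)` is a root of `H`;
* `pole_core` : at a supersingular place `z` (with `δ̄ (ū^{q²} - ū)` regular at `z`):
  `ord_z (ū - c) = 1`, `c^{q²} = c`, `ord_z δ̄ = -1`  — the hypotheses `hu`, `hc`, `hd` of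
  helper16's `locEq_ss_coord`;
* `pole_inst` : the same for any subfield `E = κ` of `k((t))` (e.g. `FM A M`);
* `pole_inst_d2` : `ord_z y = -q` for `y = - δ̄^q` (the reduction of `t₂₀ / q`).
-/

set_option autoImplicit false
set_option linter.style.haveILetI false
set_option linter.unusedSectionVars false
set_option synthInstance.maxHeartbeats 400000
set_option maxHeartbeats 1000000

noncomputable section

open Polynomial AlgebraicCurve IntermediateField ModularCurve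

namespace Fermat.Agent.S36.NU.H44

open Fermat.Agent.RED.H51 Fermat.Agent.BAD.H21 Fermat.Agent.S36.NU.H73 Fermat.Agent.S36.NU.H65
open Fermat.Agent.S28.H73 Fermat.Agent.RED.H73 Fermat.Agent.RED Fermat.Agent.BAD
open Fermat.Agent.S24 (Kbar FN)

section Hasse

variable {F : Type*} [Field F] {ℓ : ℕ} [hℓ : Fact ℓ.Prime] [CharP F ℓ]

/-- **The supersingular polynomial with its multiplicities at `0` and `1728`.** -/
theorem exists_hasse_mult [IsAlgClosed F] (h5 : 5 ≤ ℓ) :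
    ∃ H : F[X], aeval (jqModC F) H = (H21_DL F ^ (ℓ - 1))⁻¹ ∧ (1728 : F) ≠ 0 ∧
      (H.IsRoot 0 → (X : F[X]) ^ 4 ∣ H) ∧ (H.IsRoot 1728 → (X - C (1728 : F)) ^ 6 ∣ H) := by
  obtain ⟨d⟩ := H21_exists_ssData (F := F) (ℓ := ℓ) h5
  have hw := H21_ss_weight hℓ.out h5
  refine ⟨d.H, ?_, d.h1728, ?_, ?_⟩
  · exact H21_aeval_jqModC (by rw [hw]; exact d.natDegree_H_le) (by rw [hw]; exact d.hev_H_series)
  · intro h0
    have ha : H21_ssA ℓ ≠ 0 := by
      rcases (d.isRoot_H_iff 0).1 h0 with h | h | h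
      · exact h.1
      · exact absurd h.2.symm d.h1728
      · exact absurd h d.not_isRoot_zero
    have h4 : (X : F[X]) ^ 4 ∣ X ^ (4 * H21_ssA ℓ) := pow_dvd_pow _ (by omega)
    rw [H21_SSData.H]
    exact Dvd.dvd.mul_right (Dvd.dvd.mul_right h4 _) _
  · intro h0
    have hb : H21_ssB ℓ ≠ 0 := by
      rcases (d.isRoot_H_iff 1728).1 h0 with h | h | h
      · exact absurd h.2 d.h1728
      · exact h.1
      · exact absurd h d.not_isRoot_1728
    have h6 : (X - C (1728 : F)) ^ 6 ∣ (X - C (1728 : F)) ^ (6 * H21_ssB ℓ) :=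
      pow_dvd_pow _ (by omega)
    rw [H21_SSData.H]
    exact Dvd.dvd.mul_right (Dvd.dvd.mul_left h6 _) _

end Hasse

section Abs

variable {k : Type*} [Field k] {E : IntermediateField k (LaurentSeries k)}

/-- If `H(x)` vanishes at `z` and `x ≡ a` at `z` then `a` is a root of `H`. -/
theorem isRoot_of_ord_aeval_pos (z : Place k ↥E) {x : ↥E} {a : k}
    (hx : OrdGe z 1 (x - algebraMap k ↥E a)) {H : k[X]} (hpos : 0 < z.ord (aeval x H)) :
    H.IsRoot a := by
  by_contra hne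
  obtain ⟨Q, hQ⟩ : (X - C a) ∣ H - C (H.eval a) := Polynomial.X_sub_C_dvd_sub_C_eval
  have e : aeval x H = algebraMap k ↥E (H.eval a) + (x - algebraMap k ↥E a) * aeval x Q := by
    have h1 := congrArg (aeval x) hQ
    simp only [map_sub, map_mul, aeval_X, aeval_C] at h1
    linear_combination h1
  have hc : algebraMap k ↥E (H.eval a) ≠ 0 := by
    rw [Ne, map_eq_zero]
    exact hne
  have h0 : z.ord (algebraMap k ↥E (H.eval a)) = 0 := ord_algebraMap z _
  have hg : OrdGe z (z.ord (algebraMap k ↥E (H.eval a)) + 1)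
      ((x - algebraMap k ↥E a) * aeval x Q) := by
    rw [h0, zero_add]
    have h1 : OrdGe z 0 (aeval x Q) :=
      (ordGe_zero_iff_mem z _).mpr (aeval_mem z (mem_of_ordGe_sub z hx) Q)
    have := hx.mul h1
    rwa [add_zero] at this
  have h1 := ord_add_eq z hc hg
  rw [← e, h0] at h1
  omega

end Abs

section Core

variable (A : ValuationSubring Kbar) (q : ℕ) [hqF : Fact q.Prime] [NeZero q]
  (hA : A.LiesOverPrime q) (M : ℕ) [NeZero M]

include hA in
/-- **POLE-INST**, core form on `κ = modularFunctionFieldFullC (kV A) M`. -/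
theorem pole_core (hqM : ¬ q ∣ M) (h5 : 5 ≤ q) (h4 : 4 ∣ M)
    (z : Place (kV A) ↥(modularFunctionFieldFullC (kV A) M))
    (jE u y d : ↥(modularFunctionFieldFullC (kV A) M))
    (hj : (jE : LaurentSeries (kV A)) = jqModC (kV A))
    (hu : (u : LaurentSeries (kV A)) = H73.ubar4 (kV A))
    (hy : (y : LaurentSeries (kV A)) = (H21_DL (kV A) ^ (q - 1))⁻¹)
    (hd : (d : LaurentSeries (kV A)) = coeffMap (Int.castRingHom (kV A)) (kdel q uZ4))
    (hz : 0 ≤ z.ord jE) (hss : 0 < z.ord y)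
    (hP : d * (u ^ q ^ 2 - u) ∈ z.toValuationSubring) :
    ∃ c : kV A, z.ord (u - algebraMap (kV A) ↥(modularFunctionFieldFullC (kV A) M) c) = 1 ∧
      c ^ q ^ 2 = c ∧ z.ord d = -1 := by
  have hq : q.Prime := hqF.out
  haveI : CharP (kV A) q := BAD.H82.charP_kV A hq hA
  haveI : IsAlgClosed (kV A) := isAlgClosed_kV A
  have hjE : jE = ⟨jqModC (kV A), jqModC_mem_full (kV A) M⟩ := Subtype.ext hj
  have huE : u = ⟨H73.ubar4 (kV A), H73.ubar4_mem A q hq hA M hqM h4⟩ := Subtype.ext hu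
  rw [hjE] at hz
  obtain ⟨j0, e, hram, hcase, -, c, hc⟩ := H30.coord_u4_ram A q hq hA M hqM h5 h4 z hz
  rw [← hjE] at hram
  rw [← huE] at hc
  obtain ⟨H, hH, h1728, hμ0, hμ1728⟩ := exists_hasse_mult (F := kV A) (ℓ := q) h5
  have hPB := H73.hasPBasis_fullC A q hq hA M hqM
  have hθ : thetaL (d : LaurentSeries (kV A)) =
      (u : LaurentSeries (kV A)) ^ (q - 1) * thetaL (u : LaurentSeries (kV A)) -
        thetaL (u : LaurentSeries (kV A)) ^ q := by
    rw [hd, hu, ← coeffMap_uZ4]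
    exact thetaL_dbar_of_int uZ4 (kdel q uZ4) (kdel_spec q uZ4)
  have hyE : aeval jE H = y := by
    apply Subtype.ext
    rw [← IntermediateField.aeval_coe, hj, hH, hy]
  have he1 : 1 ≤ e := by
    rcases hcase with h | h | h
    · omega
    · omega
    · omega
  have hord : OrdGe z 1 (jE - algebraMap (kV A) ↥(modularFunctionFieldFullC (kV A) M) j0) :=
    Or.inr (by rw [hram]; exact_mod_cast he1)
  have hroot : H.IsRoot j0 := isRoot_of_ord_aeval_pos z hord (by rw [hyE]; exact hss)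
  rcases hcase with ⟨h0, h17, -⟩ | ⟨h0, he⟩ | ⟨h17, he⟩
  · obtain ⟨hc2, hd1⟩ := H73.ord_dbar hPB z c hc hθ hj hH hord hroot h0 h17 rfl hP
    exact ⟨c, hc, hc2, hd1⟩
  · subst h0
    have he3 : 3 ≤ z.ord jE := by
      rw [map_zero, sub_zero] at hram
      rw [hram, he]
      norm_num
    obtain ⟨hc2, hd1⟩ := H73.ord_dbar_zero hPB z c hc hθ hj hH h1728 (hμ0 hroot) he3 rfl hP
    exact ⟨c, hc, hc2, hd1⟩
  · subst h17
    have he2 : 2 ≤ z.ord (jE - algebraMap (kV A) ↥(modularFunctionFieldFullC (kV A) M) 1728) := by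
      rw [hram, he]
      norm_num
    obtain ⟨hc2, hd1⟩ := H73.ord_dbar_1728 hPB z c hc hθ hj hH h1728 (hμ1728 hroot) he2 rfl hP
    exact ⟨c, hc, hc2, hd1⟩

end Core

section Generic

variable (A : ValuationSubring Kbar) (q : ℕ) [hqF : Fact q.Prime] [NeZero q]
  (hA : A.LiesOverPrime q) (M : ℕ) [NeZero M]

include hA in
/-- **POLE-INST** for a subfield `E = κ` of `k((t))` (e.g. `E = FM A M`, by (GA)). -/
theorem pole_inst (hqM : ¬ q ∣ M) (h5 : 5 ≤ q) (h4 : 4 ∣ M)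
    (E : IntermediateField (kV A) (LaurentSeries (kV A)))
    (hE : E = modularFunctionFieldFullC (kV A) M)
    (z : Place (kV A) ↥E) (jE u y d : ↥E)
    (hj : (jE : LaurentSeries (kV A)) = jqModC (kV A))
    (hu : (u : LaurentSeries (kV A)) = H73.ubar4 (kV A))
    (hy : (y : LaurentSeries (kV A)) = (H21_DL (kV A) ^ (q - 1))⁻¹)
    (hd : (d : LaurentSeries (kV A)) = coeffMap (Int.castRingHom (kV A)) (kdel q uZ4))
    (hz : 0 ≤ z.ord jE) (hss : 0 < z.ord y)
    (hP : d * (u ^ q ^ 2 - u) ∈ z.toValuationSubring) :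
    ∃ c : kV A, z.ord (u - algebraMap (kV A) ↥E c) = 1 ∧ c ^ q ^ 2 = c ∧ z.ord d = -1 := by
  subst hE
  exact pole_core A q hA M hqM h5 h4 z jE u y d hj hu hy hd hz hss hP

include hA in
/-- **POLE-INST**, with the reduction `y₂ = - δ̄^q` of `t₂₀ / q`
(helper65's `gaussRedV_T20_div`): `ord_z y₂ = -q`. -/
theorem pole_inst_d2 (hqM : ¬ q ∣ M) (h5 : 5 ≤ q) (h4 : 4 ∣ M)
    (E : IntermediateField (kV A) (LaurentSeries (kV A)))
    (hE : E = modularFunctionFieldFullC (kV A) M)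
    (z : Place (kV A) ↥E) (jE u y d y₂ : ↥E)
    (hj : (jE : LaurentSeries (kV A)) = jqModC (kV A))
    (hu : (u : LaurentSeries (kV A)) = H73.ubar4 (kV A))
    (hy : (y : LaurentSeries (kV A)) = (H21_DL (kV A) ^ (q - 1))⁻¹)
    (hd : (d : LaurentSeries (kV A)) = coeffMap (Int.castRingHom (kV A)) (kdel q uZ4))
    (hy₂ : (y₂ : LaurentSeries (kV A))
      = - coeffMap (Int.castRingHom (kV A)) (kdel q uZ4) ^ q)
    (hz : 0 ≤ z.ord jE) (hss : 0 < z.ord y)
    (hP : d * (u ^ q ^ 2 - u) ∈ z.toValuationSubring) :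
    ∃ c : kV A, z.ord (u - algebraMap (kV A) ↥E c) = 1 ∧ c ^ q ^ 2 = c ∧
      z.ord y₂ = -(q : ℤ) := by
  obtain ⟨c, h1, h2, h3⟩ := pole_inst A q hA M hqM h5 h4 E hE z jE u y d hj hu hy hd hz hss hP
  refine ⟨c, h1, h2, ?_⟩
  have e : y₂ = - d ^ q := by
    apply Subtype.ext
    rw [hy₂]
    show _ = -((d : LaurentSeries (kV A)) ^ q)
    rw [hd]
  rw [e, ord_neg, ord_pow, h3]
  ring

end Generic

end Fermat.Agent.S36.NU.H44
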