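import Fermat.Agent.S36.NU.H44_PoleInst
import Fermat.Agent.S35.H89_FrobDefs

/-!
# S36 / NU-B, leaf POLE-INST, part 2 (helper44): the hypothesis `hP`, unconditionally

`q ∤ M` tame, `4 ∣ M`, `A` over `q`.  Inside `F_{M q}`: `u = α (unitF M 4)`, `u' = β (unitF M 4)`
with expansions `u₀ = uZ4`, `u₀(t^q)`, `δ = (u^q - u') / q` with expansion `kdel q uZ4`, and
`W₁ = δ (u'^q - u) = (u^q - u')(u'^q - u) / q`.

* `W₁` is integral for both Gauss valuations (`w_q W₁ = W₁`) and regular at the places where `j`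
  is regular, so `W₁ ∈ R_z` for every non-cuspidal place `z` of the residue field, and by
  helper79's `InR.regAt₁` (total conservation) its reduction `δ̄ (ū^{q²} - ū)` is regular at `z`:
  `regAt_P_F1`.
* `dbar_mem` : `δ̄ ∈ modularFunctionFieldFullC (kV A) M`.
* `hP_inst` : the hypothesis `hP` of `pole_inst`, for any `E = modularFunctionFieldFullC (kV A) M`.
* `pole_full`, `pole_full_d2` : **POLE-INST** without `hP`.
-/

set_option autoImplicit false
set_option linter.style.haveILetI false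
set_option linter.unusedSectionVars false
set_option synthInstance.maxHeartbeats 400000
set_option maxHeartbeats 1000000

noncomputable section

open Polynomial AlgebraicCurve IntermediateField ModularCurve HahnSeries

namespace Fermat.Agent.S36.NU.H44

open Fermat.Agent.RED.H51 Fermat.Agent.BAD.H21 Fermat.Agent.S36.NU.H73 Fermat.Agent.S36.NU.H65
open Fermat.Agent.S28.H73 Fermat.Agent.RED.H73 Fermat.Agent.RED Fermat.Agent.BAD
open Fermat.Agent.BAD.H88 Fermat.Agent.BAD.H30 Fermat.Agent.RED.H17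
open Fermat.Agent.S24 (Kbar FN)

section Level

variable (q M : ℕ) [NeZero M] [NeZero (M * q)] [NeZero q] [hqF : Fact q.Prime] (h4 : 4 ∣ M)

/-- `u = α (unitF M 4)`. -/
def uA : FN (M * q) := heckeAlphaBar Kbar M q (unitF M 4 h4)

/-- `u' = β (unitF M 4)`. -/
def uB : FN (M * q) := heckeBetaBar Kbar M q (unitF M 4 h4)

/-- `δ = (u^q - u') / q`. -/
def delF : FN (M * q) :=
  algebraMap Kbar (FN (M * q)) ((q : Kbar)⁻¹) * (uA q M h4 ^ q - uB q M h4)

/-- `W₁ = δ (u'^q - u)`. -/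
def W1F : FN (M * q) := delF q M h4 * (uB q M h4 ^ q - uA q M h4)

theorem coe_uA : ((uA q M h4 : FN (M * q)) : LaurentSeries Kbar) = intSer Kbar uZ4 := by
  rw [uA, coe_heckeAlphaBar, H73.coeffMap_uZ4_Kbar M h4]
  rfl

theorem coe_uB :
    ((uB q M h4 : FN (M * q)) : LaurentSeries Kbar) = intSer Kbar (qExpand ℤ q uZ4) := by
  rw [uB, coe_heckeBetaBar, H73.coeffMap_uZ4_Kbar M h4, intSer_qExpand]
  rfl

theorem natCast_ne_zero_Kbar : ((q : ℕ) : Kbar) ≠ 0 := Nat.cast_ne_zero.mpr (NeZero.ne q)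

theorem coe_delF :
    ((delF q M h4 : FN (M * q)) : LaurentSeries Kbar) = intSer Kbar (kdel q uZ4) := by
  have h := congrArg (intSer Kbar) (kdel_spec q uZ4)
  simp only [intSer, map_mul, map_sub, map_pow, map_natCast] at h
  have e : ((delF q M h4 : FN (M * q)) : LaurentSeries Kbar)
      = algebraMap Kbar (LaurentSeries Kbar) ((q : Kbar)⁻¹)
        * (((uA q M h4 : FN (M * q)) : LaurentSeries Kbar) ^ q
          - ((uB q M h4 : FN (M * q)) : LaurentSeries Kbar)) := rfl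
  rw [e, coe_uA, coe_uB]
  simp only [intSer]
  rw [← h, ← mul_assoc]
  have h1 : algebraMap Kbar (LaurentSeries Kbar) ((q : Kbar)⁻¹) * ((q : ℕ) : LaurentSeries Kbar)
      = 1 := by
    rw [← map_natCast (algebraMap Kbar (LaurentSeries Kbar)) q, ← map_mul,
      inv_mul_cancel₀ (natCast_ne_zero_Kbar q), map_one]
  rw [h1, one_mul]

/-- The integer series of `W₁`. -/
def W1Z : LaurentSeries ℤ := kdel q uZ4 * (qExpand ℤ q uZ4 ^ q - uZ4)

theorem coe_W1F : ((W1F q M h4 : FN (M * q)) : LaurentSeries Kbar) = intSer Kbar (W1Z q) := by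
  have e : ((W1F q M h4 : FN (M * q)) : LaurentSeries Kbar)
      = ((delF q M h4 : FN (M * q)) : LaurentSeries Kbar)
        * (((uB q M h4 : FN (M * q)) : LaurentSeries Kbar) ^ q
          - ((uA q M h4 : FN (M * q)) : LaurentSeries Kbar)) := rfl
  rw [e, coe_delF, coe_uA, coe_uB, W1Z]
  simp only [intSer, map_mul, map_sub, map_pow]

variable (A : ValuationSubring Kbar)

theorem delF_mem_V1 : delF q M h4 ∈ V1 A q M := by
  show ((delF q M h4 : FN (M * q)) : LaurentSeries Kbar) ∈ gaussRingV A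
  rw [coe_delF]
  exact intSer_mem A _

theorem W1F_mem_V1 : W1F q M h4 ∈ V1 A q M := by
  show ((W1F q M h4 : FN (M * q)) : LaurentSeries Kbar) ∈ gaussRingV A
  rw [coe_W1F]
  exact intSer_mem A _

theorem coe_red1_delF :
    ((red1 A q M ⟨delF q M h4, delF_mem_V1 q M h4 A⟩ : F1 A q M) : LaurentSeries (kV A))
      = coeffMap (Int.castRingHom (kV A)) (kdel q uZ4) := by
  rw [coe_gaussResF'_eq]
  have e : (⟨((delF q M h4 : FN (M * q)) : LaurentSeries Kbar), delF_mem_V1 q M h4 A⟩ :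
      gaussRingV A) = ⟨intSer Kbar (kdel q uZ4), intSer_mem A _⟩ := Subtype.ext (coe_delF q M h4)
  exact (congrArg (gaussRedV A) e).trans (gaussRedV_intSer A _ _)

theorem coe_red1_W1F (hA : A.LiesOverPrime q) :
    ((red1 A q M ⟨W1F q M h4, W1F_mem_V1 q M h4 A⟩ : F1 A q M) : LaurentSeries (kV A))
      = coeffMap (Int.castRingHom (kV A)) (kdel q uZ4)
        * (H73.ubar4 (kV A) ^ q ^ 2 - H73.ubar4 (kV A)) := by
  haveI : CharP (kV A) q := BAD.H82.charP_kV A hqF.out hA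
  rw [coe_gaussResF'_eq]
  have e : (⟨((W1F q M h4 : FN (M * q)) : LaurentSeries Kbar), W1F_mem_V1 q M h4 A⟩ :
      gaussRingV A) = ⟨intSer Kbar (W1Z q), intSer_mem A _⟩ := Subtype.ext (coe_W1F q M h4)
  rw [(congrArg (gaussRedV A) e).trans (gaussRedV_intSer A _ _), W1Z]
  simp only [map_mul, map_sub, map_pow]
  rw [coeffMap_qExpand, ← intRed_pow q uZ4, ← pow_mul, ← pow_two, coeffMap_uZ4]

end Level

/-! ### `w_q W₁ = W₁` -/

section WQ

variable (q M : ℕ) (a b : ℤ) (hab : a * q + b * M = 1) (hq : q.Prime)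
  [NeZero M] [NeZero (M * q)] [NeZero q] [hqF : Fact q.Prime] (h4 : 4 ∣ M)

theorem wq_uA : wq q M a b hab hq (uA q M h4) = uB q M h4 := wq_alpha q M a b hab hq _

theorem wq_uB : wq q M a b hab hq (uB q M h4) = uA q M h4 := wq_beta q M a b hab hq _

theorem wq_W1F : wq q M a b hab hq (W1F q M h4) = W1F q M h4 := by
  rw [W1F, delF, map_mul, map_mul, map_sub, map_sub, map_pow, map_pow, AlgEquiv.commutes,
    wq_uA, wq_uB]
  ring

variable (A : ValuationSubring Kbar)

theorem W1F_mem_V2 : W1F q M h4 ∈ V2 A q M a b hab hq := by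
  rw [mem_V2_iff, wq_W1F]
  exact W1F_mem_V1 q M h4 A

end WQ

/-! ### `W₁` is regular where `j` is regular -/

section Reg

variable (q M : ℕ) [NeZero M] [NeZero (M * q)] [NeZero q] [hqF : Fact q.Prime] (h4 : 4 ∣ M)

omit [NeZero M] [NeZero (M * q)] [NeZero q] hqF in
theorem four_dvd_lvl (h4 : 4 ∣ M) : 4 ∣ M * q := Dvd.dvd.mul_right h4 q

omit [NeZero M] [NeZero (M * q)] [NeZero q] hqF in
theorem q_dvd_lvl : q ∣ M * q := Dvd.intro_left M rfl

omit [NeZero M] [NeZero (M * q)] [NeZero q] hqF in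
theorem qExpand_eq_of_eq {R : Type*} [CommRing R] {m n : ℕ} [NeZero m] [NeZero n] (h : m = n)
    (x : LaurentSeries R) : qExpand R m x = qExpand R n x := by
  subst h
  rfl

omit [NeZero M] [NeZero (M * q)] [NeZero q] hqF in
theorem fourq_dvd_lvl (h4 : 4 ∣ M) : 4 * q ∣ M * q := Nat.mul_dvd_mul_right h4 q

theorem uA_eq_unitF : uA q M h4 = unitF (M * q) 4 (four_dvd_lvl q M h4) := by
  apply Subtype.ext
  rw [uA, coe_heckeAlphaBar, unitF_coe, unitF_coe]

theorem uB_mul_unitF :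
    haveI : NeZero (4 * q) := ⟨Nat.mul_ne_zero (by norm_num) (NeZero.ne q)⟩
    uB q M h4 * unitF (M * q) q (q_dvd_lvl q M) = unitF (M * q) (4 * q) (fourq_dvd_lvl q M h4) := by
  haveI : NeZero (4 * q) := ⟨Nat.mul_ne_zero (by norm_num) (NeZero.ne q)⟩
  apply Subtype.ext
  show ((uB q M h4 : FN (M * q)) : LaurentSeries Kbar)
      * ((unitF (M * q) q (q_dvd_lvl q M) : FN (M * q)) : LaurentSeries Kbar)
    = ((unitF (M * q) (4 * q) (fourq_dvd_lvl q M h4) : FN (M * q)) : LaurentSeries Kbar)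
  rw [uB, coe_heckeBetaBar, unitF_coe, unitF_coe, unitF_coe, coeffEmb_modularUnitSeries,
    coeffEmb_modularUnitSeries, coeffEmb_modularUnitSeries, map_mul, map_inv₀,
    qExpand_qExpand, qExpand_eq_of_eq (mul_comm q 4)]
  have h1 : qExpand Kbar q (deltaR Kbar) ≠ 0 := qExpand_deltaR_ne_zero (R := Kbar) q
  have h2 : qExpand Kbar (4 * q) (deltaR Kbar) ≠ 0 :=
    qExpand_deltaR_ne_zero (R := Kbar) (4 * q)
  field_simp

theorem ord_uA (P : Place Kbar (FN (M * q))) (hP : 0 ≤ P.ord (Fermat.Agent.S24.jF (M * q))) :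
    P.ord (uA q M h4) = 0 := by
  rw [uA_eq_unitF]
  exact ord_unitF (M * q) 4 _ P hP

theorem ord_uB (P : Place Kbar (FN (M * q))) (hP : 0 ≤ P.ord (Fermat.Agent.S24.jF (M * q))) :
    P.ord (uB q M h4) = 0 := by
  haveI : NeZero (4 * q) := ⟨Nat.mul_ne_zero (by norm_num) (NeZero.ne q)⟩
  have h1 := ord_unitF (M * q) q (q_dvd_lvl q M) P hP
  have h2 := ord_unitF (M * q) (4 * q) (fourq_dvd_lvl q M h4) P hP
  have h0 : unitF (M * q) q (q_dvd_lvl q M) ≠ 0 := unitF_ne_zero (M * q) q _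
  have hB0 : uB q M h4 ≠ 0 := by
    intro h
    have e := uB_mul_unitF q M h4
    rw [h, zero_mul] at e
    exact unitF_ne_zero (M * q) (4 * q) _ e.symm
  have e := congrArg P.ord (uB_mul_unitF q M h4)
  rw [P.ord_mul hB0 h0, h1, h2, add_zero] at e
  exact e

theorem regAt_W1F (P : Place Kbar (FN (M * q))) (hP : 0 ≤ P.ord (Fermat.Agent.S24.jF (M * q))) :
    RegAt P (W1F q M h4) := by
  have hA : RegAt P (uA q M h4) := regAt_of_ord_nonneg (by rw [ord_uA q M h4 P hP])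
  have hB : RegAt P (uB q M h4) := regAt_of_ord_nonneg (by rw [ord_uB q M h4 P hP])
  rw [W1F, delF]
  exact ((regAt_algebraMap P _).mul ((hA.pow q).sub hB)).mul ((hB.pow q).sub hA)

end Reg

/-! ### Total conservation: the reduction of `W₁` is regular at the non-cuspidal places -/

section Final

variable (A : ValuationSubring Kbar) (q M : ℕ) (a b : ℤ) (hab : a * q + b * M = 1)
  (hq : q.Prime) [NeZero M] [NeZero (M * q)] [NeZero q] [hqF : Fact q.Prime]
  (hA : A.LiesOverPrime q) (hqM : ¬ q ∣ M) (ht : H91.TameAt M q) (h4 : 4 ∣ M)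

/-- If `j~` is regular at `z = ρ P`, then `j` is regular at `P`. -/
theorem ord_jF_nonneg_of_rhoF1 (z : Place (kV A) (F1 A q M)) (jE : F1 A q M)
    (hj : (jE : LaurentSeries (kV A)) = jqModC (kV A)) (hz : 0 ≤ z.ord jE)
    (P : Place Kbar (FN (M * q))) (hP : H91.rhoF1 a b hab hq hA hqM ht P = z) :
    0 ≤ P.ord (Fermat.Agent.S24.jF (M * q)) := by
  have e : H91.rhoM hq hqM ht hA P = H91.kappa A q M a b hab hq hA z := by
    rw [← hP, H91.kappa_rhoF1]
  have h0 : 0 ≤ (H91.rhoM hq hqM ht hA P).ord (H91.jRed A M) := by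
    rw [e, H91.kappa_ord A q M a b hab hq hA z jE (H91.jRed A M)
      (hj.trans (red_jF A M).symm)]
    exact hz
  have h1 := H91.ord_jF_nonneg_of_rM hq hqM ht hA _ h0
  have h2 : 0 ≤ P.ord (H91.incl M q (RED.H73.jF (L := Kbar) M)) := by
    rw [Place.ord_restrictAlong (H91.incl M q) (H91.incl_isIntegral M q) P]
    exact mul_nonneg (Int.natCast_nonneg _) h1
  rw [H91.incl_jF] at h2
  exact h2

/-- `W₁ ∈ R_z` at the non-cuspidal places. -/
theorem W1F_inR (z : Place (kV A) (F1 A q M)) (jE : F1 A q M)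
    (hj : (jE : LaurentSeries (kV A)) = jqModC (kV A)) (hz : 0 ≤ z.ord jE) :
    (Fermat.Agent.S35.H89.modTot A q M a b hab hq hA hqM ht).InR z (W1F q M h4) :=
  ⟨W1F_mem_V1 q M h4 A, W1F_mem_V2 q M a b hab hq h4 A, fun P hP =>
    regAt_W1F q M h4 P (ord_jF_nonneg_of_rhoF1 A q M a b hab hq hA hqM ht z jE hj hz P hP)⟩

include hab hq hA hqM ht in
/-- The reduction of `W₁` is regular at the non-cuspidal places. -/
theorem regAt_red1_W1F (z : Place (kV A) (F1 A q M)) (jE : F1 A q M)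
    (hj : (jE : LaurentSeries (kV A)) = jqModC (kV A)) (hz : 0 ≤ z.ord jE) :
    RegAt z (red1 A q M ⟨W1F q M h4, W1F_mem_V1 q M h4 A⟩) := by
  haveI : IsAlgClosed (kV A) := isAlgClosed_kV A
  haveI : Infinite (kV A) := IsAlgClosed.instInfinite
  have H := RED.H17.ffHyp_of_isFF _ _ (Fermat.Agent.RED.H95.stmt_HKA_isFF (M * q))
  have h := (W1F_inR A q M a b hab hq hA hqM ht h4 z jE hj hz).regAt₁ H.principal
  rwa [(Fermat.Agent.S35.H89.modTot A q M a b hab hq hA hqM ht).p₁.rd_of_mem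
    (W1F_mem_V1 q M h4 A)] at h

include hab hq hA hqM ht h4 in
/-- **`hP` on `F₁`**: `δ̄ (ū^{q²} - ū)` is regular at the non-cuspidal places. -/
theorem regAt_P_F1 (z : Place (kV A) (F1 A q M)) (jE u d : F1 A q M)
    (hj : (jE : LaurentSeries (kV A)) = jqModC (kV A))
    (hu : (u : LaurentSeries (kV A)) = H73.ubar4 (kV A))
    (hd : (d : LaurentSeries (kV A)) = coeffMap (Int.castRingHom (kV A)) (kdel q uZ4))
    (hz : 0 ≤ z.ord jE) : d * (u ^ q ^ 2 - u) ∈ z.toValuationSubring := by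
  have h := regAt_red1_W1F A q M a b hab hq hA hqM ht h4 z jE hj hz
  have e : d * (u ^ q ^ 2 - u) = red1 A q M ⟨W1F q M h4, W1F_mem_V1 q M h4 A⟩ := by
    apply Subtype.ext
    rw [coe_red1_W1F q M h4 A hA]
    show (d : LaurentSeries (kV A)) * ((u : LaurentSeries (kV A)) ^ q ^ 2
      - (u : LaurentSeries (kV A))) = _
    rw [hd, hu]
  rw [e]
  exact (regAt_iff_mem z _).1 h

omit [NeZero M] [NeZero (M * q)] [NeZero q] in
include hqM in
/-- Bézout for `q ∤ M`. -/
theorem exists_bezout : ∃ a b : ℤ, a * q + b * M = 1 := by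
  have h : Nat.Coprime q M := (Nat.Prime.coprime_iff_not_dvd hqF.out).2 hqM
  exact Nat.isCoprime_iff_coprime.2 h

include hA hqM ht h4 in
/-- **`hP`, unconditionally**, on any `E = k(j~(t^d) : d ∣ M)`. -/
theorem hP_inst (E : IntermediateField (kV A) (LaurentSeries (kV A)))
    (hE : E = modularFunctionFieldFullC (kV A) M)
    (z : Place (kV A) ↥E) (jE u d : ↥E)
    (hj : (jE : LaurentSeries (kV A)) = jqModC (kV A))
    (hu : (u : LaurentSeries (kV A)) = H73.ubar4 (kV A))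
    (hd : (d : LaurentSeries (kV A)) = coeffMap (Int.castRingHom (kV A)) (kdel q uZ4))
    (hz : 0 ≤ z.ord jE) : d * (u ^ q ^ 2 - u) ∈ z.toValuationSubring := by
  obtain ⟨a, b, hab⟩ := exists_bezout q M hqM
  have hE' : E = redField A (modularFunctionFieldBar (M * q)) (hSc A q M) :=
    hE.trans (H82.redField_eq_fullC q M a b hab hqF.out A hA).symm
  subst hE'
  exact regAt_P_F1 A q M a b hab hqF.out hA hqM ht h4 z jE u d hj hu hd hz

include hA hqM h4 in
/-- `δ̄ ∈ k(j~(t^d) : d ∣ M)`. -/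
theorem dbar_mem :
    coeffMap (Int.castRingHom (kV A)) (kdel q uZ4) ∈ modularFunctionFieldFullC (kV A) M := by
  obtain ⟨a, b, hab⟩ := exists_bezout q M hqM
  rw [← H82.redField_eq_fullC q M a b hab hqF.out A hA, ← coe_red1_delF q M h4 A]
  exact SetLike.coe_mem _

include hA hqM h4 in
/-- **POLE-INST, unconditional**: at a supersingular place `z` of `E = k(j~(t^d) : d ∣ M)`
(`q ≥ 5`, `q ∤ M`, `4 ∣ M`): `ū - c` is a uniformizer for some `c ∈ 𝔽_{q²}` and `δ̄` has a simple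
pole. -/
theorem pole_full (h5 : 5 ≤ q)
    (E : IntermediateField (kV A) (LaurentSeries (kV A)))
    (hE : E = modularFunctionFieldFullC (kV A) M)
    (z : Place (kV A) ↥E) (jE u y d : ↥E)
    (hj : (jE : LaurentSeries (kV A)) = jqModC (kV A))
    (hu : (u : LaurentSeries (kV A)) = H73.ubar4 (kV A))
    (hy : (y : LaurentSeries (kV A)) = (H21_DL (kV A) ^ (q - 1))⁻¹)
    (hd : (d : LaurentSeries (kV A)) = coeffMap (Int.castRingHom (kV A)) (kdel q uZ4))
    (hz : 0 ≤ z.ord jE) (hss : 0 < z.ord y) :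
    ∃ c : kV A, z.ord (u - algebraMap (kV A) ↥E c) = 1 ∧ c ^ q ^ 2 = c ∧ z.ord d = -1 :=
  pole_inst A q hA M hqM h5 h4 E hE z jE u y d hj hu hy hd hz hss
    (hP_inst A q M hA hqM (Or.inl h5) h4 E hE z jE u d hj hu hd hz)

include hA hqM h4 in
/-- **POLE-INST, unconditional**, with `y₂ = - δ̄^q` (the reduction of `t₂₀ / q`, helper16's
`s20_d20o`): `ord_z y₂ = -q`. -/
theorem pole_full_d2 (h5 : 5 ≤ q)
    (E : IntermediateField (kV A) (LaurentSeries (kV A)))
    (hE : E = modularFunctionFieldFullC (kV A) M)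
    (z : Place (kV A) ↥E) (jE u y d y₂ : ↥E)
    (hj : (jE : LaurentSeries (kV A)) = jqModC (kV A))
    (hu : (u : LaurentSeries (kV A)) = H73.ubar4 (kV A))
    (hy : (y : LaurentSeries (kV A)) = (H21_DL (kV A) ^ (q - 1))⁻¹)
    (hd : (d : LaurentSeries (kV A)) = coeffMap (Int.castRingHom (kV A)) (kdel q uZ4))
    (hy₂ : (y₂ : LaurentSeries (kV A))
      = - coeffMap (Int.castRingHom (kV A)) (kdel q uZ4) ^ q)
    (hz : 0 ≤ z.ord jE) (hss : 0 < z.ord y) :
    ∃ c : kV A, z.ord (u - algebraMap (kV A) ↥E c) = 1 ∧ c ^ q ^ 2 = c ∧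
      z.ord y₂ = -(q : ℤ) :=
  pole_inst_d2 A q hA M hqM h5 h4 E hE z jE u y d y₂ hj hu hy hd hy₂ hz hss
    (hP_inst A q M hA hqM (Or.inl h5) h4 E hE z jE u d hj hu hd hz)

include hA hqM h4 in
/-- `δ̄ ≠ 0`, from the pole at one supersingular place. -/
theorem dbar_ne_zero_of_place (h5 : 5 ≤ q)
    (E : IntermediateField (kV A) (LaurentSeries (kV A)))
    (hE : E = modularFunctionFieldFullC (kV A) M)
    (z : Place (kV A) ↥E) (jE u y : ↥E)
    (hj : (jE : LaurentSeries (kV A)) = jqModC (kV A))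
    (hu : (u : LaurentSeries (kV A)) = H73.ubar4 (kV A))
    (hy : (y : LaurentSeries (kV A)) = (H21_DL (kV A) ^ (q - 1))⁻¹)
    (hz : 0 ≤ z.ord jE) (hss : 0 < z.ord y) :
    coeffMap (Int.castRingHom (kV A)) (kdel q uZ4) ≠ 0 := by
  intro h0
  have hmem : coeffMap (Int.castRingHom (kV A)) (kdel q uZ4) ∈ E := by
    rw [hE]
    exact dbar_mem A q M hA hqM h4
  obtain ⟨c, -, -, h3⟩ := pole_full A q M hA hqM h4 h5 E hE z jE u y ⟨_, hmem⟩ hj hu hy rfl hz hss
  have e : (⟨_, hmem⟩ : ↥E) = 0 := Subtype.ext h0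
  rw [e, Place.ord_zero] at h3
  omega

/-! ### The versions on `FM A M` (the residue field of the Gauss valuation of level `M`) -/

include hA hqM h4 in
/-- **POLE-INST on `FM A M`**. -/
theorem pole_full_FM (h5 : 5 ≤ q) (z : Place (kV A) (FM A M)) (jE u y d : FM A M)
    (hj : (jE : LaurentSeries (kV A)) = jqModC (kV A))
    (hu : (u : LaurentSeries (kV A)) = H73.ubar4 (kV A))
    (hy : (y : LaurentSeries (kV A)) = (H21_DL (kV A) ^ (q - 1))⁻¹)
    (hd : (d : LaurentSeries (kV A)) = coeffMap (Int.castRingHom (kV A)) (kdel q uZ4))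
    (hz : 0 ≤ z.ord jE) (hss : 0 < z.ord y) :
    ∃ c : kV A, z.ord (u - algebraMap (kV A) (FM A M) c) = 1 ∧ c ^ q ^ 2 = c ∧ z.ord d = -1 :=
  pole_full A q M hA hqM h4 h5 _ (stmt_GA M q hqF.out hqM A hA) z jE u y d hj hu hy hd hz hss

include hA hqM h4 in
/-- **POLE-INST on `FM A M`**, with `y₂ = - δ̄^q`. -/
theorem pole_full_d2_FM (h5 : 5 ≤ q) (z : Place (kV A) (FM A M)) (jE u y d y₂ : FM A M)
    (hj : (jE : LaurentSeries (kV A)) = jqModC (kV A))
    (hu : (u : LaurentSeries (kV A)) = H73.ubar4 (kV A))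
    (hy : (y : LaurentSeries (kV A)) = (H21_DL (kV A) ^ (q - 1))⁻¹)
    (hd : (d : LaurentSeries (kV A)) = coeffMap (Int.castRingHom (kV A)) (kdel q uZ4))
    (hy₂ : (y₂ : LaurentSeries (kV A))
      = - coeffMap (Int.castRingHom (kV A)) (kdel q uZ4) ^ q)
    (hz : 0 ≤ z.ord jE) (hss : 0 < z.ord y) :
    ∃ c : kV A, z.ord (u - algebraMap (kV A) (FM A M) c) = 1 ∧ c ^ q ^ 2 = c ∧
      z.ord y₂ = -(q : ℤ) :=
  pole_full_d2 A q M hA hqM h4 h5 _ (stmt_GA M q hqF.out hqM A hA) z jE u y d y₂ hj hu hy hd hy₂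
    hz hss

include hA hqM h4 in
/-- `δ̄` as an element of `FM A M`. -/
theorem dbar_mem_FM :
    coeffMap (Int.castRingHom (kV A)) (kdel q uZ4)
      ∈ redField A (modularFunctionFieldBar M) (hScM A M) := by
  rw [stmt_GA M q hqF.out hqM A hA]
  exact dbar_mem A q M hA hqM h4

include hA hqM ht h4 in
/-- **`hP` on `FM A M`**. -/
theorem hP_FM (z : Place (kV A) (FM A M)) (jE u d : FM A M)
    (hj : (jE : LaurentSeries (kV A)) = jqModC (kV A))
    (hu : (u : LaurentSeries (kV A)) = H73.ubar4 (kV A))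
    (hd : (d : LaurentSeries (kV A)) = coeffMap (Int.castRingHom (kV A)) (kdel q uZ4))
    (hz : 0 ≤ z.ord jE) : d * (u ^ q ^ 2 - u) ∈ z.toValuationSubring :=
  hP_inst A q M hA hqM ht h4 _ (stmt_GA M q hqF.out hqM A hA) z jE u d hj hu hd hz

end Final

end Fermat.Agent.S36.NU.H44
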