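import Fermat.Agent.S36.NU.H5_Q23Small
import Fermat.Agent.RED.H29_Mod3Series

/-!
# S36 / NU-B, leaf Q23 (helper5): POLE for `q = 2` (auxiliary level `9`)

Characteristic `2`.  `j₀ = j̄`, `j₁ = j̄(t³)`, `j₂ = j̄(t⁹)`, `v₁ = h̄₃` (`v₁² = j₁ / j₀`),
`v = h̄₃(t³)`, `h = v (v₁ + 1) / (v + 1)` (the reduction of the Hauptmodul `η(τ)³ / η(9τ)³` of
`X₀(9)`).

* `q23_two_ode` : `θ h · (h + 1)² = h (h² + h + 1)`;
* `q23_two_jh` : `j₀ h⁹ (h² + h + 1) = (h + 1)¹²`;
* `q23_ord_dbar_two` : **POLE for `q = 2`**: in a field `E ⊆ k((t))` with `[E : E²] = 2` containing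
  `j̄, j̄(t³), j̄(t⁹)`, at every place `z` with `ord_z j̄ > 0` (supersingular) and every coordinate `ū`
  at `z` with THETA and (L1): `c⁴ = c` and `ord_z d̄ = -1`.  No ramification input.
-/

set_option autoImplicit false

noncomputable section

open ModularCurve AlgebraicCurve IntermediateField

namespace Fermat.Agent.S36.NU.H5

open Fermat.Agent.RED.H51 Fermat.Agent.S36.NU.H73

section TwoSeries

variable (k : Type*) [Field k]

/-- `h̄₃`, the reduction of `η(t)¹² / η(t³)¹²`. -/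
def q23V1 : LaurentSeries k := coeffMap (Int.castRingHom k) Fermat.Agent.RED.H29.hZ3

/-- `h̄₃(t³)`. -/
def q23V : LaurentSeries k := qExpand k 3 (q23V1 k)

/-- The reduction of the Hauptmodul of `X₀(9)` in characteristic `2`. -/
def q23H2 : LaurentSeries k := q23V k * (q23V1 k + 1) / (q23V k + 1)

variable {k}

theorem q23V1_coeff_neg_one : (q23V1 k).coeff (-1) = 1 := by
  rw [q23V1, coeffMap_coeff, Fermat.Agent.RED.H29.coeff_hZ3_neg_one, map_one]

theorem q23V1_ne_zero : q23V1 k ≠ 0 := by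
  intro h
  have h1 := q23V1_coeff_neg_one (k := k)
  rw [h] at h1
  simp at h1

theorem q23V_ne_zero : q23V k ≠ 0 := by
  intro h
  apply q23V1_ne_zero (k := k)
  apply qExpand_injective (R := k) 3
  rw [map_zero]
  exact h

theorem q23_qExpand_three_three (f : LaurentSeries k) :
    qExpand k 3 (qExpand k 3 f) = qExpand k 9 f := by
  rw [qExpand_qExpand]

variable [CharP k 2]

theorem q23_two_L : (2 : LaurentSeries k) = 0 := by
  have h := q23_natCast_eq_zero (k := k) (n := 2) (by exact_mod_cast CharP.cast_eq_zero k 2)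
  exact_mod_cast h

/-- `(v₁ + 1)⁴ = j₀ v₁³`. -/
theorem q23V1_ident : (q23V1 k + 1) ^ 4 = jqModC k * q23V1 k ^ 3 := by
  have h := congrArg (coeffMap (Int.castRingHom k)) Fermat.Agent.RED.H29.hZ3_one
  rw [map_mul, map_pow, map_add, map_add, map_mul, map_pow, coeffMap_jqModC, map_ofNat,
    map_ofNat] at h
  have h2 := q23_two_L (k := k)
  rw [q23V1]
  have e27 : (27 : LaurentSeries k) = 1 := by linear_combination 13 * h2
  have e243 : (243 : LaurentSeries k) = 1 := by linear_combination 121 * h2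
  rw [e27, e243] at h
  linear_combination h

/-- `(v₁ + 1)⁴ = j₁ v₁`. -/
theorem q23V1_ident' : (q23V1 k + 1) ^ 4 = qExpand k 3 (jqModC k) * q23V1 k := by
  have h := congrArg (coeffMap (Int.castRingHom k)) Fermat.Agent.RED.H29.hZ3_two
  rw [map_mul, map_pow, map_add, map_add, map_mul, coeffMap_qExpand, coeffMap_jqModC,
    map_ofNat, map_ofNat] at h
  have h2 := q23_two_L (k := k)
  rw [q23V1]
  have e27 : (27 : LaurentSeries k) = 1 := by linear_combination 13 * h2
  have e3 : (3 : LaurentSeries k) = 1 := by linear_combination h2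
  rw [e27, e3] at h
  linear_combination h

/-- `(v + 1)⁴ = j₁ v³`. -/
theorem q23V_ident : (q23V k + 1) ^ 4 = qExpand k 3 (jqModC k) * q23V k ^ 3 := by
  have h := congrArg (qExpand k 3) (q23V1_ident (k := k))
  rw [map_pow, map_add, map_one, map_mul, map_pow] at h
  exact h

/-- `(v + 1)⁴ = j₂ v`. -/
theorem q23V_ident' : (q23V k + 1) ^ 4 = qExpand k 9 (jqModC k) * q23V k := by
  have h := congrArg (qExpand k 3) (q23V1_ident' (k := k))
  rw [map_pow, map_add, map_one, map_mul, q23_qExpand_three_three] at h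
  exact h

theorem q23_V1V_ne_one : q23V1 k * q23V k ≠ 1 := by
  intro h
  have h0 := q23V1_ident (k := k)
  have h1 := q23V_ident' (k := k)
  have hv1 := q23V1_ne_zero (k := k)
  have key : q23V1 k ^ 3 * (qExpand k 9 (jqModC k) - jqModC k) = 0 := by
    linear_combination h0 - (q23V1 k ^ 4) * h1
      + (((q23V1 k * q23V k + q23V1 k) ^ 3
          + (q23V1 k * q23V k + q23V1 k) ^ 2 * (1 + q23V1 k)
          + (q23V1 k * q23V k + q23V1 k) * (1 + q23V1 k) ^ 2
          + (1 + q23V1 k) ^ 3) - qExpand k 9 (jqModC k) * q23V1 k ^ 3) * h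
  rcases mul_eq_zero.mp key with h4 | h4
  · exact hv1 (pow_eq_zero_iff (by norm_num) |>.mp h4)
  · exact q23_jN_ne (k := k) 9 (by norm_num) (sub_eq_zero.mp h4)

theorem q23V_add_one_ne_zero : q23V k + 1 ≠ 0 := by
  intro h
  have h2 := q23V_ident' (k := k)
  rw [h, zero_pow (by norm_num)] at h2
  rcases mul_eq_zero.mp h2.symm with h4 | h4
  · exact q23_jN_ne_zero (k := k) 9 h4
  · exact q23V_ne_zero (k := k) h4

/-- The modular equation of level `3` for `h̄₃`: `v³ + v₁³ v² + v₁² v + v₁ = 0`. -/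
theorem q23_two_modEq :
    q23V k ^ 3 + q23V1 k ^ 3 * q23V k ^ 2 + q23V1 k ^ 2 * q23V k + q23V1 k = 0 :=
  q23_two_R (q23_two_L (k := k)) (q23V1_ident' (k := k)) (q23V_ident (k := k))
    (q23_V1V_ne_one (k := k))

theorem q23H2_mul : q23H2 k * (q23V k + 1) = q23V k * (q23V1 k + 1) := by
  rw [q23H2, div_mul_cancel₀ _ (q23V_add_one_ne_zero (k := k))]

/-- `h³ + h² + h = v`. -/
theorem q23H2_cube_add : q23H2 k ^ 3 + q23H2 k ^ 2 + q23H2 k = q23V k :=
  (q23_two_h (q23_two_L (k := k)) (q23_two_modEq (k := k)) (q23H2_mul (k := k))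
    (q23V_add_one_ne_zero (k := k))).1

/-- `v₁ (h² + h + 1) = h³`. -/
theorem q23H2_V1 : q23V1 k * (q23H2 k ^ 2 + q23H2 k + 1) = q23H2 k ^ 3 :=
  (q23_two_h (q23_two_L (k := k)) (q23_two_modEq (k := k)) (q23H2_mul (k := k))
    (q23V_add_one_ne_zero (k := k))).2

/-- **`j̄ h⁹ (h² + h + 1) = (h + 1)¹²`**. -/
theorem q23_two_jh :
    jqModC k * q23H2 k ^ 9 * (q23H2 k ^ 2 + q23H2 k + 1) = (q23H2 k + 1) ^ 12 :=
  q23_two_j (q23_two_L (k := k)) (q23V1_ident (k := k)) (q23H2_V1 (k := k))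

/-- `θ v₁ = v₁`. -/
theorem q23_thetaL_V1 : thetaL (q23V1 k) = q23V1 k := by
  have h := congrArg thetaL (q23V1_ident' (k := k))
  rw [thetaL_mul, thetaL_pow, q23_thetaL_jN (k := k) (ℓ := 2) (Or.inl rfl) 3, map_add,
    show thetaL (1 : LaurentSeries k) = 0 from Derivation.map_one_eq_zero _, add_zero] at h
  have h2 := q23_two_L (k := k)
  refine mul_left_cancel₀ (q23_jN_ne_zero (k := k) 3) ?_
  push_cast at h
  linear_combination -h
    + (2 * (q23V1 k + 1) ^ 3 * thetaL (q23V1 k)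
        + q23V1 k * qExpand k 3 (jqModC k)) * h2

/-- `θ v = v`. -/
theorem q23_thetaL_V : thetaL (q23V k) = q23V k := by
  rw [q23V, thetaL_qExpand, q23_thetaL_V1]
  have h2 := q23_two_L (k := k)
  push_cast
  linear_combination (qExpand k 3 (q23V1 k)) * h2

/-- **The ODE of the Hauptmodul of `X₀(9)` in characteristic `2`**:
`θ h · (h + 1)² = h (h² + h + 1)`. -/
theorem q23_two_ode :
    thetaL (q23H2 k) * (q23H2 k + 1) ^ 2 = q23H2 k * (q23H2 k ^ 2 + q23H2 k + 1) := by
  have h := congrArg thetaL (q23H2_cube_add (k := k))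
  rw [map_add, map_add, thetaL_pow, thetaL_pow, q23_thetaL_V, ← q23H2_cube_add (k := k)] at h
  have h2 := q23_two_L (k := k)
  push_cast at h
  simp only [pow_one] at h
  linear_combination h + (-(q23H2 k ^ 2 * thetaL (q23H2 k))) * h2

/-- `j₀ v₁² = j₁`. -/
theorem q23_j0_mul_V1 : jqModC k * q23V1 k ^ 2 = qExpand k 3 (jqModC k) := by
  have h1 := q23V1_ident (k := k)
  have h2 := q23V1_ident' (k := k)
  refine mul_right_cancel₀ (q23V1_ne_zero (k := k)) ?_
  linear_combination h2 - h1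

/-- `v₁ = (j₀ + j₁)² / (j₀² j₁)`. -/
theorem q23V1_eq : (jqModC k + qExpand k 3 (jqModC k)) ^ 2 /
    (jqModC k ^ 2 * qExpand k 3 (jqModC k)) = q23V1 k := by
  have hA := q23V1_ident' (k := k)
  have hB := q23_j0_mul_V1 (k := k)
  have h2 := q23_two_L (k := k)
  rw [div_eq_iff (mul_ne_zero (pow_ne_zero 2 (q23_jq_ne_zero (k := k)))
    (q23_jN_ne_zero (k := k) 3))]
  linear_combination (jqModC k ^ 2) * hA
    - (2 * jqModC k * (1 + q23V1 k ^ 2) - (jqModC k * q23V1 k ^ 2 - qExpand k 3 (jqModC k))) * hB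
    - (2 * jqModC k ^ 2 * q23V1 k * (q23V1 k ^ 2 + q23V1 k + 1)) * h2

/-- `v = (j₁ + j₂)² / (j₁² j₂)`. -/
theorem q23V_eq : (qExpand k 3 (jqModC k) + qExpand k 9 (jqModC k)) ^ 2 /
    (qExpand k 3 (jqModC k) ^ 2 * qExpand k 9 (jqModC k)) = q23V k := by
  have h := congrArg (qExpand k 3) (q23V1_eq (k := k))
  rw [map_div₀, map_pow, map_add, map_mul, map_pow, q23_qExpand_three_three] at h
  exact h

end TwoSeries

section TwoPlace

variable {k : Type*} [Field k] [CharP k 2]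
variable {E : IntermediateField k (LaurentSeries k)}

/-- The reduction of the Hauptmodul of `X₀(9)` as an element of a field `E ∋ j̄, j̄(t³), j̄(t⁹)`. -/
def q23hE2 (jE0 jE1 jE2 : ↥E) : ↥E :=
  ((jE1 + jE2) ^ 2 / (jE1 ^ 2 * jE2)) * ((jE0 + jE1) ^ 2 / (jE0 ^ 2 * jE1) + 1) /
    ((jE1 + jE2) ^ 2 / (jE1 ^ 2 * jE2) + 1)

omit [CharP k 2] in
theorem q23_coe_div' (a b : ↥E) :
    ((a / b : ↥E) : LaurentSeries k) = (a : LaurentSeries k) / (b : LaurentSeries k) := rfl

theorem q23hE2_coe {jE0 jE1 jE2 : ↥E} (hj0 : (jE0 : LaurentSeries k) = jqModC k)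
    (hj1 : (jE1 : LaurentSeries k) = qExpand k 3 (jqModC k))
    (hj2 : (jE2 : LaurentSeries k) = qExpand k 9 (jqModC k)) :
    ((q23hE2 jE0 jE1 jE2 : ↥E) : LaurentSeries k) = q23H2 k := by
  have e1 : (((jE0 + jE1) ^ 2 / (jE0 ^ 2 * jE1) : ↥E) : LaurentSeries k) = q23V1 k := by
    rw [q23_coe_div', IntermediateField.coe_pow, IntermediateField.coe_add,
      IntermediateField.coe_mul, IntermediateField.coe_pow, hj0, hj1]
    exact q23V1_eq (k := k)
  have e2 : (((jE1 + jE2) ^ 2 / (jE1 ^ 2 * jE2) : ↥E) : LaurentSeries k) = q23V k := by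
    rw [q23_coe_div', IntermediateField.coe_pow, IntermediateField.coe_add,
      IntermediateField.coe_mul, IntermediateField.coe_pow, hj1, hj2]
    exact q23V_eq (k := k)
  rw [q23hE2, q23H2, q23_coe_div', IntermediateField.coe_mul, IntermediateField.coe_add,
    IntermediateField.coe_add, IntermediateField.coe_one, e1, e2]

omit [CharP k 2] in
/-- At a zero of `j̄`: `h` is regular and `h ≡ 1`. -/
theorem q23_two_place (z : Place k ↥E) {h j : ↥E}
    (hjh : j * h ^ 9 * (h ^ 2 + h + 1) = (h + 1) ^ 12) (hz : 0 < z.ord j) :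
    h ∈ z.toValuationSubring ∧ OrdGe z 1 (h + 1) := by
  have hj0 : j ≠ 0 := ne_zero_of_ord_ne_zero z (by omega)
  have hmem : h ∈ z.toValuationSubring := by
    by_contra hh
    have hneg : z.ord h < 0 := (not_mem_iff_ord_neg z).mp hh
    have hh0 : h ≠ 0 := ne_zero_of_ord_ne_zero z (by omega)
    have h1 : OrdGe z (z.ord h + 1) (1 : ↥E) := Or.inr (by rw [z.ord_one]; omega)
    have hp := ord_add_eq z hh0 h1
    have hsq0 : h ^ 2 ≠ 0 := pow_ne_zero 2 hh0
    have hsq : z.ord (h ^ 2) = 2 * z.ord h := by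
      rw [ord_pow]
      push_cast
      ring
    have h2 : OrdGe z (z.ord (h ^ 2) + 1) (h + 1) := Or.inr (by rw [hsq, hp.2]; omega)
    have hq := ord_add_eq z hsq0 h2
    rw [← add_assoc] at hq
    have hL : z.ord (j * h ^ 9 * (h ^ 2 + h + 1)) = z.ord j + 9 * z.ord h + 2 * z.ord h := by
      rw [z.ord_mul (mul_ne_zero hj0 (pow_ne_zero 9 hh0)) hq.1,
        z.ord_mul hj0 (pow_ne_zero 9 hh0), ord_pow, hq.2, hsq]
      push_cast
      ring
    have hR : z.ord ((h + 1) ^ 12) = 12 * z.ord h := by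
      rw [ord_pow, hp.2]
      push_cast
      ring
    rw [hjh, hR] at hL
    omega
  refine ⟨hmem, ?_⟩
  rcases eq_or_ne (h + 1) 0 with h0 | h0
  · exact Or.inl h0
  · refine Or.inr ?_
    have hR0 : (h + 1) ^ 12 ≠ 0 := pow_ne_zero 12 h0
    rw [← hjh] at hR0
    have hG0 : h ^ 9 * (h ^ 2 + h + 1) ≠ 0 := by
      intro h1
      apply hR0
      rw [mul_assoc, h1, mul_zero]
    have hG : 0 ≤ z.ord (h ^ 9 * (h ^ 2 + h + 1)) := by
      rw [← mem_iff_ord_nonneg z hG0]
      exact mul_mem (pow_mem hmem 9) (add_mem (add_mem (pow_mem hmem 2) hmem) (one_mem _))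
    have hL : z.ord ((h + 1) ^ 12) = z.ord j + z.ord (h ^ 9 * (h ^ 2 + h + 1)) := by
      rw [← hjh, mul_assoc, z.ord_mul hj0 hG0]
    rw [ord_pow] at hL
    push_cast at hL
    omega

/-- **POLE for `q = 2`** (auxiliary level `9`): `c⁴ = c` and `ord_z d̄ = -1` at every zero `z` of
`j̄` and every coordinate `ū` at `z`. -/
theorem q23_ord_dbar_two (hPB : HasPBasis 2 ↥E) (z : Place k ↥E) {u d jE0 jE1 jE2 P : ↥E}
    (c : k) (hu : z.ord (u - algebraMap k ↥E c) = 1)
    (hθ : thetaL (d : LaurentSeries k) =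
      (u : LaurentSeries k) ^ (2 - 1) * thetaL (u : LaurentSeries k) -
        thetaL (u : LaurentSeries k) ^ 2)
    (hj0 : (jE0 : LaurentSeries k) = jqModC k)
    (hj1 : (jE1 : LaurentSeries k) = qExpand k 3 (jqModC k))
    (hj2 : (jE2 : LaurentSeries k) = qExpand k 9 (jqModC k))
    (hz : 0 < z.ord jE0)
    (hL1 : P = d * (u ^ 2 ^ 2 - u)) (hP : P ∈ z.toValuationSubring) :
    c ^ 2 ^ 2 = c ∧ z.ord d = -1 := by
  have : Fact (Nat.Prime 2) := ⟨Nat.prime_two⟩
  set h : ↥E := q23hE2 jE0 jE1 jE2 with hdef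
  have hcoe : (h : LaurentSeries k) = q23H2 k := q23hE2_coe hj0 hj1 hj2
  have hjh : jE0 * h ^ 9 * (h ^ 2 + h + 1) = (h + 1) ^ 12 := by
    apply Subtype.ext
    rw [IntermediateField.coe_mul, IntermediateField.coe_mul, IntermediateField.coe_pow,
      IntermediateField.coe_add, IntermediateField.coe_add, IntermediateField.coe_pow,
      IntermediateField.coe_one, IntermediateField.coe_pow, IntermediateField.coe_add,
      IntermediateField.coe_one, hcoe, hj0]
    exact q23_two_jh (k := k)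
  obtain ⟨hmem, hvan⟩ := q23_two_place z hjh hz
  have hvan' : OrdGe z 1 (h - algebraMap k ↥E (-1)) := by
    rwa [map_neg, map_one, sub_neg_eq_add]
  have hA := ord_sub_const z hvan' (b := 0) (neg_ne_zero.mpr one_ne_zero)
  rw [map_zero, sub_zero] at hA
  have hB : h ^ 2 + h + 1 ≠ 0 ∧ z.ord (h ^ 2 + h + 1) = 0 := by
    have h1 : OrdGe z (z.ord (1 : ↥E) + 1) (h * (h + 1)) := by
      rw [z.ord_one]
      have := ((ordGe_zero_iff_mem z h).mpr hmem).mul hvan
      simpa using this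
    have h2 := ord_add_eq z (one_ne_zero (α := ↥E)) h1
    rw [z.ord_one] at h2
    have e : h ^ 2 + h + 1 = 1 + h * (h + 1) := by ring
    rw [e]
    exact h2
  have hode : thetaL (h : LaurentSeries k) * (((h + 1) ^ 2 : ↥E) : LaurentSeries k) =
      ((h * (h ^ 2 + h + 1) : ↥E) : LaurentSeries k) := by
    rw [IntermediateField.coe_pow, IntermediateField.coe_add, IntermediateField.coe_one,
      IntermediateField.coe_mul, IntermediateField.coe_add, IntermediateField.coe_add,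
      IntermediateField.coe_pow, IntermediateField.coe_one, hcoe]
    exact q23_two_ode (k := k)
  have hb : OrdGe z 1 ((h + 1) ^ 2) := by
    have := ordGe_pow hvan 2
    exact this.mono (by norm_num)
  have ha : z.ord (h * (h ^ 2 + h + 1)) = 0 := by
    rw [z.ord_mul hA.1 hB.1, hA.2, hB.2, add_zero]
  exact q23_ord_dbar_ode (q := 2) hPB z c hu hθ hode hmem (mul_ne_zero hA.1 hB.1) ha hb hL1 hP

end TwoPlace

end Fermat.Agent.S36.NU.H5
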