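import Fermat.Agent.S36.NU.H5_Q23Three
import Fermat.Agent.S36.NU.H5_Q23Two
import Fermat.Agent.S36.NU.H73_PBasisC

/-!
# S36 / NU-B, leaf Q23 (helper5): POLE for `q = 2, 3` at `κ = modularFunctionFieldFullC (kV A) M'`

* `q23_ord_dbar_three_full` : `A` over `3`, `4 ∣ M'`, `3 ∤ M'`;
* `q23_ord_dbar_two_full`   : `A` over `2`, `9 ∣ M'`, `2 ∤ M'`.

At every place `z` of `κ` with `ord_z j̄ > 0` and every coordinate `ū` at `z` with THETA and (L1):
`c^{q²} = c` and `ord_z d̄ = -1` (the hypotheses `hc`, `hd` of `H10.eis_ord'` / `eis_N5`).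
-/

set_option autoImplicit false
set_option synthInstance.maxHeartbeats 400000
set_option maxHeartbeats 1000000

noncomputable section

open ModularCurve AlgebraicCurve Fermat.Agent.S28.H73 Fermat.Agent.RED.H73 Fermat.Agent.BAD.H88
  Fermat.Agent.BAD.H82 Fermat.Agent.S24

namespace Fermat.Agent.S36.NU.H5

open Fermat.Agent.BAD.H73 Fermat.Agent.RED.H51 Fermat.Agent.S36.NU.H73

variable (A : ValuationSubring Kbar) (M' : ℕ) [NeZero M']

/-- **POLE for `q = 3`** at level `M'`, `4 ∣ M'`, `3 ∤ M'`. -/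
theorem q23_ord_dbar_three_full (hA : A.LiesOverPrime 3) (h4 : 4 ∣ M') (h3 : ¬ 3 ∣ M')
    (z : Place (kV A) ↥(modularFunctionFieldFullC (kV A) M'))
    {u d P : ↥(modularFunctionFieldFullC (kV A) M')} (c : kV A)
    (hu : z.ord (u - algebraMap (kV A) ↥(modularFunctionFieldFullC (kV A) M') c) = 1)
    (hθ : thetaL (d : LaurentSeries (kV A)) =
      (u : LaurentSeries (kV A)) ^ (3 - 1) * thetaL (u : LaurentSeries (kV A)) -
        thetaL (u : LaurentSeries (kV A)) ^ 3)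
    (hz : 0 < z.ord (⟨jqModC (kV A), jqModC_mem_full (kV A) M'⟩ :
      ↥(modularFunctionFieldFullC (kV A) M')))
    (hL1 : P = d * (u ^ 3 ^ 2 - u)) (hP : P ∈ z.toValuationSubring) :
    c ^ 3 ^ 2 = c ∧ z.ord d = -1 := by
  have : CharP (kV A) 3 := charP_kV A Nat.prime_three hA
  have h2 : 2 ∣ M' := Dvd.dvd.trans (by norm_num) h4
  exact q23_ord_dbar_three (hasPBasis_fullC A 3 Nat.prime_three hA M' h3) z
    (jE0 := ⟨jqModC (kV A), jqModC_mem_full (kV A) M'⟩)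
    (jE1 := ⟨qExpand (kV A) 2 (jqModC (kV A)), jqModCd_mem_full (kV A) M' h2⟩)
    (jE2 := ⟨qExpand (kV A) 4 (jqModC (kV A)), jqModCd_mem_full (kV A) M' h4⟩)
    c hu hθ rfl rfl rfl hz hL1 hP

/-- **POLE for `q = 2`** at level `M'`, `9 ∣ M'`, `2 ∤ M'`. -/
theorem q23_ord_dbar_two_full (hA : A.LiesOverPrime 2) (h9 : 9 ∣ M') (h2 : ¬ 2 ∣ M')
    (z : Place (kV A) ↥(modularFunctionFieldFullC (kV A) M'))
    {u d P : ↥(modularFunctionFieldFullC (kV A) M')} (c : kV A)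
    (hu : z.ord (u - algebraMap (kV A) ↥(modularFunctionFieldFullC (kV A) M') c) = 1)
    (hθ : thetaL (d : LaurentSeries (kV A)) =
      (u : LaurentSeries (kV A)) ^ (2 - 1) * thetaL (u : LaurentSeries (kV A)) -
        thetaL (u : LaurentSeries (kV A)) ^ 2)
    (hz : 0 < z.ord (⟨jqModC (kV A), jqModC_mem_full (kV A) M'⟩ :
      ↥(modularFunctionFieldFullC (kV A) M')))
    (hL1 : P = d * (u ^ 2 ^ 2 - u)) (hP : P ∈ z.toValuationSubring) :
    c ^ 2 ^ 2 = c ∧ z.ord d = -1 := by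
  have : CharP (kV A) 2 := charP_kV A Nat.prime_two hA
  have h3 : 3 ∣ M' := Dvd.dvd.trans (by norm_num) h9
  exact q23_ord_dbar_two (hasPBasis_fullC A 2 Nat.prime_two hA M' h2) z
    (jE0 := ⟨jqModC (kV A), jqModC_mem_full (kV A) M'⟩)
    (jE1 := ⟨qExpand (kV A) 3 (jqModC (kV A)), jqModCd_mem_full (kV A) M' h3⟩)
    (jE2 := ⟨qExpand (kV A) 9 (jqModC (kV A)), jqModCd_mem_full (kV A) M' h9⟩)
    c hu hθ rfl rfl rfl hz hL1 hP

end Fermat.Agent.S36.NU.H5
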