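import Fermat.Agent.S36.NU.H5_Q23Ram
import Fermat.Agent.S36.NU.H5_Q23Full
import Fermat.Agent.BAD.H30_Num23
import Fermat.Agent.RED.H73_GACard

/-!
# S36 / NU-B, leaf Q23 (helper5): COORD + RAM for `q = 2, 3` at `κ = modularFunctionFieldFullC (kV A) M'`

The reduction `h̄` of the Hauptmodul of `X₀(4)` (`q = 3`, `4 ∣ M'`) resp. `X₀(9)` (`q = 2`,
`9 ∣ M'`) is a LOCAL COORDINATE at every supersingular place `z` (`ord_z j̄ > 0`) of `κ`:

* `q23_coord_three` : `ord_z (h̄ - 1) = 1` and `ord_z j̄ = 6`;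
* `q23_coord_two`   : `ord_z (h̄ + 1) = 1` and `ord_z j̄ = 12`.

Proof: helper30's node count (`num23_three`, `num23_two`: at least `g(qM') + 1 - 2 g(M')` zeros of
`j̄`) `= ψ(M') / 6` resp. `ψ(M') / 12` (helper94 `arith3`, `arith2`; no elliptic points), the zeros
theorem `∑ ord_z j̄ ≤ [κ : k(j̄)] = ψ(M')` (helper51, helper73), and `ord_z j̄ = 6 ord_z (h̄ - 1)`
resp. `12 ord_z (h̄ + 1)`.
-/

set_option autoImplicit false
set_option linter.style.haveILetI false
set_option linter.unusedSectionVars false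
set_option synthInstance.maxHeartbeats 400000
set_option maxHeartbeats 1000000

noncomputable section

open ModularCurve AlgebraicCurve IntermediateField Fermat.Agent.S28.H73 Fermat.Agent.RED.H73
  Fermat.Agent.BAD.H88 Fermat.Agent.BAD.H82 Fermat.Agent.S24

namespace Fermat.Agent.S36.NU.H5

open Fermat.Agent.BAD.H73 Fermat.Agent.RED.H51 Fermat.Agent.S36.NU.H73 Fermat.Agent.BAD.H21
  Fermat.Agent.BAD.H30

/-- `ν₂(M) = 0` if `4 ∣ M`. -/
theorem q23_nuTwo_eq_zero {M : ℕ} (h : 4 ∣ M) : nuTwo M = 0 := by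
  unfold nuTwo
  have : IsEmpty {x : ZMod M // x ^ 2 + 1 = 0} := by
    refine ⟨fun x => ?_⟩
    have h1 := congrArg (ZMod.castHom h (ZMod 4)) x.2
    rw [map_add, map_pow, map_one, map_zero] at h1
    revert h1
    generalize (ZMod.castHom h (ZMod 4)) x.1 = y
    revert y
    decide
  exact Nat.card_of_isEmpty

/-- `ν₃(M) = 0` if `9 ∣ M`. -/
theorem q23_nuThree_eq_zero {M : ℕ} (h : 9 ∣ M) : nuThree M = 0 := by
  unfold nuThree
  have : IsEmpty {x : ZMod M // x ^ 2 + x + 1 = 0} := by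
    refine ⟨fun x => ?_⟩
    have h1 := congrArg (ZMod.castHom h (ZMod 9)) x.2
    rw [map_add, map_add, map_pow, map_one, map_zero] at h1
    revert h1
    generalize (ZMod.castHom h (ZMod 9)) x.1 = y
    revert y
    decide
  exact Nat.card_of_isEmpty

section Transport

variable (A : ValuationSubring Kbar) (M : ℕ) [NeZero M]

/-- The count of zeros of `j̄`, as a property of a subfield of `k((t))`. -/
def Q23Count (n : ℕ) (E : IntermediateField (kV A) (LaurentSeries (kV A))) : Prop :=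
  ∀ hj : jqModC (kV A) ∈ E, ∃ Z : Finset (Place (kV A) ↥E),
    (∀ z ∈ Z, 0 < z.ord (⟨jqModC (kV A), hj⟩ : ↥E)) ∧ dedekindPsi M ≤ n * Z.card

theorem q23_count_three (hA : A.LiesOverPrime 3) (h4 : 4 ∣ M) (h3 : ¬ 3 ∣ M) :
    Q23Count A M 6 (modularFunctionFieldFullC (kV A) M) := by
  have h2 : 2 ∣ M := Dvd.dvd.trans (by norm_num) h4
  have hGA := stmt_GA M 3 Nat.prime_three h3 A hA
  rw [← hGA]
  intro hj
  obtain ⟨Z, -, hZ, hcard⟩ := num23_three M A h2 h3 hA
  refine ⟨Z, fun z hz => ?_, ?_⟩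
  · have e : (⟨jqModC (kV A), hj⟩ : ↥(redField A
        (laurentBaseChange Kbar (modularFunctionFieldFull M))
        (hasScale_laurentBaseChange A M))) = H21_jt M A :=
      Subtype.ext (red_jF A M).symm
    rw [e]
    exact hZ z hz
  · have har := Fermat.Agent.BAD.H94.arith3 h2 h3
    rw [q23_nuTwo_eq_zero h4] at har
    have h6 : (dedekindPsi M : ℚ) ≤ 6 * (Z.card : ℚ) := by
      push_cast at har
      linarith
    exact_mod_cast h6

theorem q23_count_two (hA : A.LiesOverPrime 2) (h9 : 9 ∣ M) (h2 : ¬ 2 ∣ M) :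
    Q23Count A M 12 (modularFunctionFieldFullC (kV A) M) := by
  have h3 : 3 ∣ M := Dvd.dvd.trans (by norm_num) h9
  have hGA := stmt_GA M 2 Nat.prime_two h2 A hA
  rw [← hGA]
  intro hj
  obtain ⟨Z, -, hZ, hcard⟩ := num23_two M A h3 h2 hA
  refine ⟨Z, fun z hz => ?_, ?_⟩
  · have e : (⟨jqModC (kV A), hj⟩ : ↥(redField A
        (laurentBaseChange Kbar (modularFunctionFieldFull M))
        (hasScale_laurentBaseChange A M))) = H21_jt M A :=
      Subtype.ext (red_jF A M).symm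
    rw [e]
    exact hZ z hz
  · have har := Fermat.Agent.BAD.H94.arith2 h3 h2
    rw [q23_nuThree_eq_zero h9] at har
    have h6 : (dedekindPsi M : ℚ) ≤ 12 * (Z.card : ℚ) := by
      push_cast at har
      linarith
    exact_mod_cast h6

/-- `[κ : k(j̄)] = ψ(M)`. -/
theorem q23_finrank_j {q : ℕ} (hq : q.Prime) (hA : A.LiesOverPrime q) (hM : ¬ q ∣ M) :
    Module.finrank ↥((kV A)⟮(⟨jqModC (kV A), jqModC_mem_full (kV A) M⟩ :
      ↥(modularFunctionFieldFullC (kV A) M))⟯) ↥(modularFunctionFieldFullC (kV A) M)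
      = dedekindPsi M := by
  rw [finrank_adjoin_simple_subtype]
  exact relfinrank_fullC_red_bar A (inv_natCast_mem_of_liesOver A M hq hM hA)

end Transport

section Coord

variable (A : ValuationSubring Kbar) (M : ℕ) [NeZero M]

/-- `j̄` as an element of `κ`. -/
abbrev q23jFull : ↥(modularFunctionFieldFullC (kV A) M) :=
  ⟨jqModC (kV A), jqModC_mem_full (kV A) M⟩

/-- The reduction of the Hauptmodul of `X₀(4)` as an element of `κ`, `4 ∣ M`. -/
def q23hFull3 (h4 : 4 ∣ M) : ↥(modularFunctionFieldFullC (kV A) M) :=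
  q23hE3 (q23jFull A M)
    ⟨qExpand (kV A) 2 (jqModC (kV A)),
      jqModCd_mem_full (kV A) M (Dvd.dvd.trans (by norm_num : 2 ∣ 4) h4)⟩
    ⟨qExpand (kV A) 4 (jqModC (kV A)), jqModCd_mem_full (kV A) M h4⟩

/-- The reduction of the Hauptmodul of `X₀(9)` as an element of `κ`, `9 ∣ M`. -/
def q23hFull2 (h9 : 9 ∣ M) : ↥(modularFunctionFieldFullC (kV A) M) :=
  q23hE2 (q23jFull A M)
    ⟨qExpand (kV A) 3 (jqModC (kV A)),
      jqModCd_mem_full (kV A) M (Dvd.dvd.trans (by norm_num : 3 ∣ 9) h9)⟩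
    ⟨qExpand (kV A) 9 (jqModC (kV A)), jqModCd_mem_full (kV A) M h9⟩

theorem q23hFull3_coe (hA : A.LiesOverPrime 3) (h4 : 4 ∣ M) :
    ((q23hFull3 A M h4 : ↥(modularFunctionFieldFullC (kV A) M)) : LaurentSeries (kV A))
      = q23H3 (kV A) := by
  haveI : CharP (kV A) 3 := charP_kV A Nat.prime_three hA
  exact q23hE3_coe rfl rfl rfl

theorem q23hFull2_coe (hA : A.LiesOverPrime 2) (h9 : 9 ∣ M) :
    ((q23hFull2 A M h9 : ↥(modularFunctionFieldFullC (kV A) M)) : LaurentSeries (kV A))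
      = q23H2 (kV A) := by
  haveI : CharP (kV A) 2 := charP_kV A Nat.prime_two hA
  exact q23hE2_coe rfl rfl rfl

/-- `j̄ h̄⁴ (h̄ + 1) = (h̄ - 1)⁶` in `κ`. -/
theorem q23hFull3_rel (hA : A.LiesOverPrime 3) (h4 : 4 ∣ M) :
    q23jFull A M * q23hFull3 A M h4 ^ 4 * (q23hFull3 A M h4 + 1)
      = (q23hFull3 A M h4 - 1) ^ 6 := by
  haveI : CharP (kV A) 3 := charP_kV A Nat.prime_three hA
  apply Subtype.ext
  rw [IntermediateField.coe_mul, IntermediateField.coe_mul, IntermediateField.coe_pow,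
    IntermediateField.coe_add, IntermediateField.coe_one, IntermediateField.coe_pow, coeE_sub,
    IntermediateField.coe_one, q23hFull3_coe A M hA h4]
  exact q23_three_jh (k := kV A)

/-- `j̄ h̄⁹ (h̄² + h̄ + 1) = (h̄ + 1)¹²` in `κ`. -/
theorem q23hFull2_rel (hA : A.LiesOverPrime 2) (h9 : 9 ∣ M) :
    q23jFull A M * q23hFull2 A M h9 ^ 9 * (q23hFull2 A M h9 ^ 2 + q23hFull2 A M h9 + 1)
      = (q23hFull2 A M h9 + 1) ^ 12 := by
  haveI : CharP (kV A) 2 := charP_kV A Nat.prime_two hA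
  apply Subtype.ext
  rw [IntermediateField.coe_mul, IntermediateField.coe_mul, IntermediateField.coe_pow,
    IntermediateField.coe_add, IntermediateField.coe_add, IntermediateField.coe_pow,
    IntermediateField.coe_one, IntermediateField.coe_pow, IntermediateField.coe_add,
    IntermediateField.coe_one, q23hFull2_coe A M hA h9]
  exact q23_two_jh (k := kV A)

theorem q23jFull_ne_zero : q23jFull A M ≠ 0 := by
  intro h
  have h1 : ((q23jFull A M : ↥(modularFunctionFieldFullC (kV A) M)) : LaurentSeries (kV A))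
      = 0 := by rw [h]; rfl
  exact q23_jq_ne_zero (k := kV A) h1

/-- **COORD + RAM for `q = 3`**: `h̄ - 1` is a local coordinate at every zero of `j̄`, and
`ord_z j̄ = 6`. -/
theorem q23_coord_three (hA : A.LiesOverPrime 3) (h4 : 4 ∣ M) (h3 : ¬ 3 ∣ M)
    (z : Place (kV A) ↥(modularFunctionFieldFullC (kV A) M))
    (hz : 0 < z.ord (q23jFull A M)) :
    z.ord (q23hFull3 A M h4 - algebraMap (kV A) ↥(modularFunctionFieldFullC (kV A) M) 1) = 1 ∧
      z.ord (q23jFull A M) = 6 := by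
  haveI : CharP (kV A) 3 := charP_kV A Nat.prime_three hA
  have h2k : (2 : kV A) ≠ 0 := by
    intro h2
    have h3' : ((3 : ℕ) : kV A) = 0 := CharP.cast_eq_zero (kV A) 3
    have h1 : (1 : kV A) = 0 := by
      have : (1 : kV A) = ((3 : ℕ) : kV A) - 2 := by push_cast; ring
      rw [this, h3', h2, sub_zero]
    exact one_ne_zero h1
  have hrel := q23hFull3_rel A M hA h4
  have hord : ∀ z' : Place (kV A) ↥(modularFunctionFieldFullC (kV A) M),
      0 < z'.ord (q23jFull A M) →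
        z'.ord (q23jFull A M) = ((6 : ℕ) : ℤ) * z'.ord (q23hFull3 A M h4 - 1) ∧
          0 < z'.ord (q23hFull3 A M h4 - 1) := by
    intro z' hz'
    obtain ⟨-, hvan⟩ := q23_three_place z' hrel hz'
    exact q23_three_ord_j h2k z' hrel hvan (q23jFull_ne_zero A M)
  obtain ⟨Z, hZ, hcard⟩ := q23_count_three A M hA h4 h3 (jqModC_mem_full (kV A) M)
  have hfr := q23_finrank_j A M Nat.prime_three hA h3
  haveI : FiniteDimensional ↥((kV A)⟮q23jFull A M⟯) ↥(modularFunctionFieldFullC (kV A) M) :=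
    Module.finite_of_finrank_pos (by
      rw [hfr]
      exact H21_psi_pos M)
  have h1 := q23_ram_of_count (q23jFull A M) (q23hFull3 A M h4 - 1) 6 hord Z hZ
    (by rw [hfr]; exact hcard) z hz
  rw [map_one]
  refine ⟨h1, ?_⟩
  rw [(hord z hz).1, h1]
  norm_num

/-- **COORD + RAM for `q = 2`**: `h̄ + 1` is a local coordinate at every zero of `j̄`, and
`ord_z j̄ = 12`. -/
theorem q23_coord_two (hA : A.LiesOverPrime 2) (h9 : 9 ∣ M) (h2 : ¬ 2 ∣ M)
    (z : Place (kV A) ↥(modularFunctionFieldFullC (kV A) M))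
    (hz : 0 < z.ord (q23jFull A M)) :
    z.ord (q23hFull2 A M h9 - algebraMap (kV A) ↥(modularFunctionFieldFullC (kV A) M) 1) = 1 ∧
      z.ord (q23jFull A M) = 12 := by
  haveI : CharP (kV A) 2 := charP_kV A Nat.prime_two hA
  have hrel := q23hFull2_rel A M hA h9
  have hord : ∀ z' : Place (kV A) ↥(modularFunctionFieldFullC (kV A) M),
      0 < z'.ord (q23jFull A M) →
        z'.ord (q23jFull A M) = ((12 : ℕ) : ℤ) * z'.ord (q23hFull2 A M h9 + 1) ∧
          0 < z'.ord (q23hFull2 A M h9 + 1) := by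
    intro z' hz'
    obtain ⟨hmem, hvan⟩ := q23_two_place z' hrel hz'
    exact q23_two_ord_j z' hrel hmem hvan (q23jFull_ne_zero A M)
  obtain ⟨Z, hZ, hcard⟩ := q23_count_two A M hA h9 h2 (jqModC_mem_full (kV A) M)
  have hfr := q23_finrank_j A M Nat.prime_two hA h2
  haveI : FiniteDimensional ↥((kV A)⟮q23jFull A M⟯) ↥(modularFunctionFieldFullC (kV A) M) :=
    Module.finite_of_finrank_pos (by
      rw [hfr]
      exact H21_psi_pos M)
  have h1 := q23_ram_of_count (q23jFull A M) (q23hFull2 A M h9 + 1) 12 hord Z hZ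
    (by rw [hfr]; exact hcard) z hz
  have h2E : (2 : ↥(modularFunctionFieldFullC (kV A) M)) = 0 := by
    apply Subtype.ext
    show ((2 : ↥(modularFunctionFieldFullC (kV A) M)) : LaurentSeries (kV A)) = 0
    rw [show ((2 : ↥(modularFunctionFieldFullC (kV A) M)) : LaurentSeries (kV A)) = 2 from rfl]
    exact q23_two_L (k := kV A)
  have e : q23hFull2 A M h9 - algebraMap (kV A) ↥(modularFunctionFieldFullC (kV A) M) 1
      = q23hFull2 A M h9 + 1 := by
    rw [map_one]
    linear_combination (-1 : ↥(modularFunctionFieldFullC (kV A) M)) * h2E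
  rw [e]
  refine ⟨h1, ?_⟩
  rw [(hord z hz).1, h1]
  norm_num

/-- **N5 input for `q = 3`, `u = h̄`**: at every supersingular place `z`, `h̄ - 1` is a coordinate,
and any `d̄` with THETA and (L1) for `ū = h̄` has a simple pole at `z`. -/
theorem q23_pole_coord_three (hA : A.LiesOverPrime 3) (h4 : 4 ∣ M) (h3 : ¬ 3 ∣ M)
    (z : Place (kV A) ↥(modularFunctionFieldFullC (kV A) M))
    (hz : 0 < z.ord (q23jFull A M)) {d P : ↥(modularFunctionFieldFullC (kV A) M)}
    (hθ : thetaL (d : LaurentSeries (kV A)) =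
      (q23H3 (kV A)) ^ (3 - 1) * thetaL (q23H3 (kV A)) - thetaL (q23H3 (kV A)) ^ 3)
    (hL1 : P = d * (q23hFull3 A M h4 ^ 3 ^ 2 - q23hFull3 A M h4))
    (hP : P ∈ z.toValuationSubring) :
    z.ord (q23hFull3 A M h4 - algebraMap (kV A) ↥(modularFunctionFieldFullC (kV A) M) 1) = 1 ∧
      z.ord d = -1 := by
  have hc := (q23_coord_three A M hA h4 h3 z hz).1
  refine ⟨hc, ?_⟩
  rw [← q23hFull3_coe A M hA h4] at hθ
  exact (q23_ord_dbar_three_full A M hA h4 h3 z (1 : kV A) hc hθ hz hL1 hP).2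

/-- **N5 input for `q = 2`, `u = h̄`**. -/
theorem q23_pole_coord_two (hA : A.LiesOverPrime 2) (h9 : 9 ∣ M) (h2 : ¬ 2 ∣ M)
    (z : Place (kV A) ↥(modularFunctionFieldFullC (kV A) M))
    (hz : 0 < z.ord (q23jFull A M)) {d P : ↥(modularFunctionFieldFullC (kV A) M)}
    (hθ : thetaL (d : LaurentSeries (kV A)) =
      (q23H2 (kV A)) ^ (2 - 1) * thetaL (q23H2 (kV A)) - thetaL (q23H2 (kV A)) ^ 2)
    (hL1 : P = d * (q23hFull2 A M h9 ^ 2 ^ 2 - q23hFull2 A M h9))
    (hP : P ∈ z.toValuationSubring) :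
    z.ord (q23hFull2 A M h9 - algebraMap (kV A) ↥(modularFunctionFieldFullC (kV A) M) 1) = 1 ∧
      z.ord d = -1 := by
  have hc := (q23_coord_two A M hA h9 h2 z hz).1
  refine ⟨hc, ?_⟩
  rw [← q23hFull2_coe A M hA h9] at hθ
  exact (q23_ord_dbar_two_full A M hA h9 h2 z (1 : kV A) hc hθ hz hL1 hP).2

end Coord

end Fermat.Agent.S36.NU.H5
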