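import Fermat.Agent.S36.NU.H73_Lev4
import Fermat.Agent.S36.NU.H73_ThetaJ
import Fermat.Agent.RED.H70_Mod2Series

/-!
# `θ u = u F` and `F¹² Δ⁴ Δ₄⁴ = 3¹² Δ₂¹⁰` for `u = Δ(t)/Δ(t⁴)` (S36 / NU-B / COORD, step 2; helper73)

In `ℤ((t))`, with `P = E₂`, `f_d = f(t^d)`, `F = P - 4 P₄`, `v = Δ/Δ₂` (helper70's `hZ2`),
`u = v v₂ = Δ/Δ₄`:

* `thetaL_FZ : 3 θ F = F (5 P₂ - P - 4 P₄)` (from the level-4 identity `lev4_identity`);
* `FZ_pow_twelve : F¹² Δ⁴ Δ₄⁴ = 3¹² Δ₂¹⁰` (both sides solve `θ Z = 20 P₂ Z`);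
* `thetaL_uZ4 : θ u = u F`;
* `thetaL_uZ4_pow : (θ u)¹² j⁸ (j - 1728)⁶ = 3¹² v⁶ v₂¹⁶ (θ j)¹²`,
  and `thetaL_ubar_pow`, the same over any field.

Consequence (`H73_Coord.lean`): at a place `z` of the function field in characteristic `q ≥ 5` at
which `v`, `v₂` are units and `j̄` is tamely ramified with `e = 1, 3, 2` over `j₀ ≠ 0, 1728`,
`j₀ = 0`, `j₀ = 1728`, the function `ū` is a local coordinate.
-/

set_option autoImplicit false

noncomputable section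

open ModularCurve

namespace Fermat.Agent.S36.NU.H73

open Fermat.Agent.BAD.H21 Fermat.Agent.S23.H96

section UnitTheta

local notation "ι" => HahnSeries.ofPowerSeries ℤ ℤ

/-- `E₂(t²)`. -/
def P2Z : LaurentSeries ℤ := qExpand ℤ 2 PZ

/-- `E₂(t⁴)`. -/
def P4Z : LaurentSeries ℤ := qExpand ℤ 4 PZ

/-- `E₄(t⁴)`. -/
def Q4Z : LaurentSeries ℤ := qExpand ℤ 4 QZ

/-- `Δ(t²)`. -/
def D2Z : LaurentSeries ℤ := qExpand ℤ 2 DZ

/-- `Δ(t⁴)`. -/
def D4Z : LaurentSeries ℤ := qExpand ℤ 4 DZ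

/-- `F = E₂(t) - 4 E₂(t⁴)`. -/
def FZ : LaurentSeries ℤ := PZ - 4 * P4Z

theorem natCast_ne_zero_LZ (n : ℕ) (hn : n ≠ 0) : ((n : ℕ) : LaurentSeries ℤ) ≠ 0 := by
  intro h
  have h1 := congrArg (fun x => x.coeff 0) h
  have h2 : ((n : ℕ) : LaurentSeries ℤ) = HahnSeries.C ((n : ℕ) : ℤ) := by
    rw [map_natCast]
  simp only [h2, HahnSeries.coeff_zero] at h1
  rw [HahnSeries.C_apply, HahnSeries.coeff_single_same] at h1
  exact hn (by exact_mod_cast h1)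

theorem thetaL_natCast_mul {R : Type*} [CommRing R] (n : ℕ) (f : LaurentSeries R) :
    thetaL ((n : LaurentSeries R) * f) = (n : LaurentSeries R) * thetaL f := by
  rw [thetaL_mul, Derivation.map_natCast, mul_zero, add_zero]

theorem lev4_Z : QZ - 16 * Q4Z = 5 * (FZ * (PZ - 4 * P2Z + 4 * P4Z)) := by
  have h := congrArg (HahnSeries.ofPowerSeries ℤ ℤ) lev4_identity
  simp only [map_sub, map_mul, map_add, map_ofNat] at h
  simp only [QZ, Q4Z, FZ, PZ, P2Z, P4Z, Fermat.Agent.RED.H10.qExpand_ofPowerSeries]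
  exact h

/-- **Ramanujan**: `12 θ E₂ = E₂² - E₄`. -/
theorem thetaL_PZ : 12 * thetaL PZ = PZ ^ 2 - QZ := by
  have h := congrArg (HahnSeries.ofPowerSeries ℤ ℤ) H21_theta_e2Series
  rw [map_mul, map_sub, map_pow, map_ofNat] at h
  rw [PZ, thetaL_ofPowerSeries, h, QZ]

theorem thetaL_P4Z : 3 * thetaL P4Z = P4Z ^ 2 - Q4Z := by
  have h := congrArg (qExpand ℤ 4) thetaL_PZ
  rw [map_mul, map_sub, map_pow, map_ofNat] at h
  rw [P4Z, thetaL_qExpand, Q4Z]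
  push_cast
  linear_combination h

theorem thetaL_FZ : 3 * thetaL FZ = FZ * (5 * P2Z - PZ - 4 * P4Z) := by
  have e1 := thetaL_PZ
  have e2 := thetaL_P4Z
  have e3 := lev4_Z
  have h4 : thetaL ((4 : LaurentSeries ℤ) * P4Z) = 4 * thetaL P4Z := by
    have := thetaL_natCast_mul 4 P4Z
    simpa using this
  have hF : thetaL FZ = thetaL PZ - 4 * thetaL P4Z := by
    rw [FZ, map_sub, h4]
  refine mul_left_cancel₀ (natCast_ne_zero_LZ 4 (by norm_num)) ?_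
  rw [hF]
  push_cast
  rw [FZ] at e3 ⊢
  linear_combination e1 - 16 * e2 - e3

theorem thetaL_D2Z : thetaL D2Z = 2 * P2Z * D2Z := by
  rw [D2Z, thetaL_qExpand, thetaL_DZ, map_mul, P2Z]
  push_cast
  ring

theorem thetaL_D4Z : thetaL D4Z = 4 * P4Z * D4Z := by
  rw [D4Z, thetaL_qExpand, thetaL_DZ, map_mul, P4Z]
  push_cast
  ring

theorem thetaL_W : thetaL (FZ ^ 12 * DZ ^ 4 * D4Z ^ 4)
    = 20 * P2Z * (FZ ^ 12 * DZ ^ 4 * D4Z ^ 4) := by
  rw [thetaL_mul, thetaL_mul, thetaL_pow, thetaL_pow, thetaL_pow, thetaL_DZ, thetaL_D4Z]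
  have e := thetaL_FZ
  push_cast
  linear_combination (4 * FZ ^ 11 * DZ ^ 4 * D4Z ^ 4) * e

theorem thetaL_V : thetaL (D2Z ^ 10) = 20 * P2Z * D2Z ^ 10 := by
  rw [thetaL_pow, thetaL_D2Z]
  push_cast
  ring

/-- Uniqueness for `θ Z = g Z`: a solution vanishing up to order `g(0)` is zero. -/
theorem eq_zero_of_thetaL_eq (g : PowerSeries ℤ) (n : ℤ)
    (hg : PowerSeries.constantCoeff g = n) (Z : LaurentSeries ℤ)
    (hZ : thetaL Z = HahnSeries.ofPowerSeries ℤ ℤ g * Z)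
    (h0 : ∀ m ≤ n, Z.coeff m = 0) : Z = 0 := by
  by_contra hne
  have hc : Z.coeff Z.order ≠ 0 := (HahnSeries.coeff_order_eq_zero.not).mpr hne
  have hlt : n < Z.order := by
    by_contra hle
    exact hc (h0 _ (not_lt.mp hle))
  have hdec : Z = HahnSeries.single Z.order (1 : ℤ) * ι Z.powerSeriesPart :=
    (LaurentSeries.single_order_mul_powerSeriesPart Z).symm
  have h1 := congrArg (fun x => x.coeff Z.order) hZ
  simp only [thetaL_coeff] at h1
  have hgen : ∀ (m : ℤ) (z : PowerSeries ℤ),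
      (ι g * (HahnSeries.single m (1 : ℤ) * ι z)).coeff m = n * PowerSeries.constantCoeff z := by
    intro m z
    rw [← mul_assoc, mul_comm (ι g), mul_assoc, ← map_mul, HahnSeries.coeff_single_mul, one_mul,
      sub_self, show (0 : ℤ) = ((0 : ℕ) : ℤ) from rfl, HahnSeries.ofPowerSeries_apply_coeff,
      PowerSeries.coeff_zero_eq_constantCoeff_apply, map_mul, hg]
  have hcc : PowerSeries.constantCoeff Z.powerSeriesPart = Z.coeff Z.order := by
    rw [← PowerSeries.coeff_zero_eq_constantCoeff_apply, LaurentSeries.powerSeriesPart_coeff]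
    simp
  have h2 : (ι g * Z).coeff Z.order = n * Z.coeff Z.order := by
    have := hgen Z.order Z.powerSeriesPart
    rw [← hdec, hcc] at this
    exact this
  rw [h2] at h1
  have h3 : (Z.order - n) * Z.coeff Z.order = 0 := by
    have : ((Z.order : ℤ) : ℤ) * Z.coeff Z.order = n * Z.coeff Z.order := by
      simpa using h1
    linear_combination this
  rcases mul_eq_zero.mp h3 with h | h
  · omega
  · exact hc h

/-- `F` as a power series. -/
def FpS : PowerSeries ℤ := H21_e2Series - 4 * PowerSeries.expand 4 four_ne_zero H21_e2Series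

theorem FZ_eq : FZ = ι FpS := by
  simp only [FZ, PZ, P4Z, FpS, Fermat.Agent.RED.H10.qExpand_ofPowerSeries, map_sub, map_mul,
    map_ofNat]

theorem DZ_eq : DZ = ι (PowerSeries.X * dedekindEtaUnit) := by
  rw [DZ, H21_X_mul_etaUnit]

theorem D2Z_eq : D2Z = ι (PowerSeries.X ^ 2 * PowerSeries.expand 2 two_ne_zero dedekindEtaUnit) := by
  rw [D2Z, DZ_eq, Fermat.Agent.RED.H10.qExpand_ofPowerSeries, map_mul, PowerSeries.expand_X]

theorem D4Z_eq : D4Z = ι (PowerSeries.X ^ 4 * PowerSeries.expand 4 four_ne_zero dedekindEtaUnit) := by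
  rw [D4Z, DZ_eq, Fermat.Agent.RED.H10.qExpand_ofPowerSeries, map_mul, PowerSeries.expand_X]

theorem constantCoeff_e2Series : PowerSeries.constantCoeff H21_e2Series = 1 := by
  rw [← PowerSeries.coeff_zero_eq_constantCoeff_apply, H21_coeff_e2Series, if_pos rfl]

theorem constantCoeff_FpS : PowerSeries.constantCoeff FpS = -3 := by
  rw [FpS, map_sub, map_mul, PowerSeries.constantCoeff_expand, constantCoeff_e2Series, map_ofNat]
  norm_num

/-- **`F¹² Δ⁴ Δ₄⁴ = 3¹² Δ₂¹⁰`**. -/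
theorem FZ_pow_twelve : FZ ^ 12 * DZ ^ 4 * D4Z ^ 4 = 3 ^ 12 * D2Z ^ 10 := by
  rw [← sub_eq_zero]
  have h3 : thetaL ((3 : LaurentSeries ℤ) ^ 12) = 0 := by
    rw [thetaL_pow]
    have : thetaL (3 : LaurentSeries ℤ) = 0 := by
      simpa using Derivation.map_natCast (thetaL (R := ℤ)) 3
    rw [this, mul_zero]
  have hg : ι (20 * PowerSeries.expand 2 two_ne_zero H21_e2Series) = 20 * P2Z := by
    rw [map_mul, map_ofNat, P2Z, PZ, Fermat.Agent.RED.H10.qExpand_ofPowerSeries]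
  refine eq_zero_of_thetaL_eq (20 * PowerSeries.expand 2 two_ne_zero H21_e2Series) 20 ?_ _ ?_ ?_
  · rw [map_mul, PowerSeries.constantCoeff_expand, constantCoeff_e2Series, map_ofNat]
    norm_num
  · rw [hg, map_sub, thetaL_W, thetaL_mul, h3, thetaL_V]
    ring
  · intro m hm
    have hS : FZ ^ 12 * DZ ^ 4 * D4Z ^ 4 - 3 ^ 12 * D2Z ^ 10
        = ι (PowerSeries.X ^ 20 * (FpS ^ 12 * dedekindEtaUnit ^ 4
            * (PowerSeries.expand 4 four_ne_zero dedekindEtaUnit) ^ 4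
          - 3 ^ 12 * (PowerSeries.expand 2 two_ne_zero dedekindEtaUnit) ^ 10)) := by
      rw [FZ_eq, DZ_eq, D2Z_eq, D4Z_eq]
      simp only [map_sub, map_mul, map_pow, map_ofNat]
      ring
    rw [hS]
    rcases lt_or_ge m 0 with hneg | hpos
    · exact ofPowerSeries_coeff_of_neg _ hneg
    · lift m to ℕ using hpos
      rw [HahnSeries.ofPowerSeries_apply_coeff, PowerSeries.coeff_X_pow_mul']
      split_ifs with h20
      · have hm20 : m = 20 := by omega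
        subst hm20
        rw [Nat.sub_self, PowerSeries.coeff_zero_eq_constantCoeff_apply, map_sub, map_mul,
          map_mul, map_mul, map_pow, map_pow, map_pow, map_pow, map_pow,
          PowerSeries.constantCoeff_expand, PowerSeries.constantCoeff_expand,
          constantCoeff_FpS, constantCoeff_dedekindEtaUnit, map_ofNat]
        norm_num
      · rfl

/-! ### The function `u = Δ(t)/Δ(t⁴)` -/

/-- `v₂ = Δ(t²)/Δ(t⁴)`. -/
def vZ2 : LaurentSeries ℤ := qExpand ℤ 2 Fermat.Agent.RED.H70.hZ2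

/-- `u = Δ(t)/Δ(t⁴)`. -/
def uZ4 : LaurentSeries ℤ := Fermat.Agent.RED.H70.hZ2 * vZ2

theorem hZ2_mul_D2Z : Fermat.Agent.RED.H70.hZ2 * D2Z = DZ := by
  rw [D2Z, DZ, Fermat.Agent.RED.H10.qExpand_ofPowerSeries]
  exact Fermat.Agent.RED.H70.hZ2_mul_delta2

theorem vZ2_mul_D4Z : vZ2 * D4Z = D2Z := by
  have h := congrArg (qExpand ℤ 2) hZ2_mul_D2Z
  rw [map_mul, D2Z, qExpand_qExpand, qExpand_congr (show 2 * 2 = 4 by norm_num)] at h
  exact h

theorem uZ4_mul_D4Z : uZ4 * D4Z = DZ := by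
  rw [uZ4, mul_assoc, vZ2_mul_D4Z, hZ2_mul_D2Z]

theorem D4Z_ne_zero : D4Z ≠ 0 := by
  intro h
  apply DZ_ne_zero
  rw [← uZ4_mul_D4Z, h, mul_zero]

/-- **`θ u = u F`**. -/
theorem thetaL_uZ4 : thetaL uZ4 = uZ4 * FZ := by
  have h := congrArg thetaL uZ4_mul_D4Z
  rw [thetaL_mul, thetaL_D4Z, thetaL_DZ] at h
  refine mul_right_cancel₀ D4Z_ne_zero ?_
  have e := uZ4_mul_D4Z
  rw [FZ]
  linear_combination h - PZ * e

/-- **`(θ u)¹² j⁸ (j - 1728)⁶ = 3¹² v⁶ v₂¹⁶ (θ j)¹²`**. -/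
theorem thetaL_uZ4_pow : thetaL uZ4 ^ 12 * (jZ ^ 8 * (jZ - 1728) ^ 6)
    = 3 ^ 12 * (Fermat.Agent.RED.H70.hZ2 ^ 6 * vZ2 ^ 16) * thetaL jZ ^ 12 := by
  have key : (uZ4 * FZ) ^ 12 = 3 ^ 12 * (Fermat.Agent.RED.H70.hZ2 ^ 6 * vZ2 ^ 16) * DZ ^ 2 := by
    have hne : DZ ^ 4 * D4Z ^ 4 ≠ 0 :=
      mul_ne_zero (pow_ne_zero _ DZ_ne_zero) (pow_ne_zero _ D4Z_ne_zero)
    refine mul_right_cancel₀ hne ?_
    have e1 := FZ_pow_twelve
    have hD2 : D2Z = vZ2 * D4Z := vZ2_mul_D4Z.symm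
    have hD : DZ = Fermat.Agent.RED.H70.hZ2 * (vZ2 * D4Z) := by
      rw [← hD2, hZ2_mul_D2Z]
    rw [hD2] at e1
    generalize DZ = d at hD e1 ⊢
    subst hD
    rw [uZ4]
    linear_combination (Fermat.Agent.RED.H70.hZ2 * vZ2) ^ 12 * e1
  have hj : thetaL jZ ^ 12 = (jZ ^ 4 * (jZ - 1728) ^ 3 * DZ) ^ 2 := by
    rw [← thetaL_jZ_pow_six, ← pow_mul]
  rw [thetaL_uZ4, key, hj]
  ring

end UnitTheta

section Field

variable (k : Type*) [Field k]

/-- `v̄ = Δ̄(t)/Δ̄(t²)`. -/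
def vbar : LaurentSeries k := coeffMap (Int.castRingHom k) Fermat.Agent.RED.H70.hZ2

/-- `v̄₂ = Δ̄(t²)/Δ̄(t⁴)`. -/
def vbar2 : LaurentSeries k := qExpand k 2 (vbar k)

/-- `ū = Δ̄(t)/Δ̄(t⁴)`. -/
def ubar4 : LaurentSeries k := vbar k * vbar2 k

theorem coeffMap_uZ4 : coeffMap (Int.castRingHom k) uZ4 = ubar4 k := by
  rw [uZ4, map_mul, vZ2, coeffMap_qExpand]
  rfl

/-- `(v̄ + 256)³ = j̄ v̄²`. -/
theorem vbar_ident : (vbar k + 256) ^ 3 = jqModC k * vbar k ^ 2 := by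
  have h := congrArg (coeffMap (Int.castRingHom k)) Fermat.Agent.RED.H70.hZ2_ident
  rw [map_pow, map_add, map_ofNat, map_mul, map_pow, coeffMap_jqModC] at h
  exact h

/-- `(v̄ + 16)³ = j̄(t²) v̄`. -/
theorem vbar_ident' : (vbar k + 16) ^ 3 = qExpand k 2 (jqModC k) * vbar k := by
  have h := congrArg (coeffMap (Int.castRingHom k)) Fermat.Agent.RED.H70.hZ2_ident'
  rw [map_pow, map_add, map_ofNat, map_mul, coeffMap_qExpand, coeffMap_jqModC] at h
  exact h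

/-- `(v̄₂ + 256)³ = j̄(t²) v̄₂²`. -/
theorem vbar2_ident : (vbar2 k + 256) ^ 3 = qExpand k 2 (jqModC k) * vbar2 k ^ 2 := by
  have h := congrArg (qExpand k 2) (vbar_ident k)
  rw [map_pow, map_add, map_ofNat, map_mul, map_pow] at h
  exact h

/-- `ū Δ̄(t⁴) = Δ̄(t)`. -/
theorem ubar4_mul : ubar4 k * qExpand k 4 (coeffMap (Int.castRingHom k) DZ)
    = coeffMap (Int.castRingHom k) DZ := by
  have h := congrArg (coeffMap (Int.castRingHom k)) uZ4_mul_D4Z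
  rw [map_mul, coeffMap_uZ4, D4Z, coeffMap_qExpand] at h
  exact h

/-- **`(θ ū)¹² j̄⁸ (j̄ - 1728)⁶ = 3¹² v̄⁶ v̄₂¹⁶ (θ j̄)¹²`** over any field. -/
theorem thetaL_ubar_pow : thetaL (ubar4 k) ^ 12 * (jqModC k ^ 8 * (jqModC k - 1728) ^ 6)
    = 3 ^ 12 * (vbar k ^ 6 * vbar2 k ^ 16) * thetaL (jqModC k) ^ 12 := by
  have h := congrArg (coeffMap (Int.castRingHom k)) thetaL_uZ4_pow
  simp only [map_mul, map_pow, map_sub, map_ofNat] at h
  rw [← thetaL_coeffMap, ← thetaL_coeffMap, coeffMap_uZ4, vZ2, coeffMap_qExpand,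
    show coeffMap (Int.castRingHom k) jZ = jqModC k from coeffMap_jqModC _] at h
  exact h

end Field

end Fermat.Agent.S36.NU.H73
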