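import Fermat.Agent.S36.NU.H5_Q23Three
import Fermat.Agent.S36.NU.H5_Q23Two
import Fermat.Agent.S36.NU.H5_Q23LiftAlg
import Fermat.Agent.S36.NU.H73_UnitTheta
import Fermat.Agent.S36.NU.H73_CoordC
import Fermat.Agent.S36.NU.H65_Series

/-!
# S36 / NU-B, leaf Q23-LIFT (helper5): the integral lifts of the coordinates for `q = 2, 3`

* `q23hZ4 ∈ ℤ((t))` : the Hauptmodul `η(τ)⁸/η(4τ)⁸` of `X₀(4)`, defined as
  `(h₂(t²) - 16 h₂) / (h₂ + 16)`;  `q23hZ4_cube : q23hZ4 ^ 3 = h₂ · h₂(t²) = Δ(t)/Δ(t⁴)`;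
  `coeffMap_q23hZ4 : coeffMap _ q23hZ4 = q23H3 k` in characteristic `3`.
* `q23hZ9 ∈ ℤ((t))` : the Hauptmodul `η(τ)³/η(9τ)³` of `X₀(9)`;
  `q23hZ9_pow : q23hZ9 ^ 4 = h₃ · h₃(t³)`;
  `coeffMap_q23hZ9 : coeffMap _ q23hZ9 = q23H2 k` in characteristic `2`.
-/

set_option autoImplicit false
set_option linter.unusedSectionVars false

noncomputable section

open ModularCurve

namespace Fermat.Agent.S36.NU.H5

open Fermat.Agent.RED.H51 Fermat.Agent.S36.NU.H73

section IntSeries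

local notation "ι" => HahnSeries.ofPowerSeries ℤ ℤ

theorem q23l_isUnit (n : ℤ) (U : PowerSeries ℤ) (hU : PowerSeries.constantCoeff U = 1) :
    IsUnit (HahnSeries.single n (1 : ℤ) * ι U) := by
  refine IsUnit.mul ?_ ?_
  · refine IsUnit.of_mul_eq_one (HahnSeries.single (-n) (1 : ℤ)) ?_
    rw [HahnSeries.single_mul_single, add_neg_cancel, mul_one]
    rfl
  · have h : U * U.invOfUnit 1 = 1 := PowerSeries.mul_invOfUnit _ _ (by rw [hU]; rfl)
    exact IsUnit.of_mul_eq_one (ι (U.invOfUnit 1)) (by rw [← map_mul, h, map_one])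

theorem q23l_sX : (HahnSeries.single (-1 : ℤ) (1 : ℤ)) * ι PowerSeries.X = 1 :=
  Fermat.Agent.RED.H70.single_neg_one_mul_X

/-! ### Level `4` -/

/-- `h₂(t²) ∈ ℤ((t))`. -/
def q23wZ : LaurentSeries ℤ := qExpand ℤ 2 Fermat.Agent.RED.H70.hZ2

theorem q23l_four_isUnit : IsUnit (Fermat.Agent.RED.H70.hZ2 + 16) := by
  have h : Fermat.Agent.RED.H70.hZ2 + 16 = HahnSeries.single (-1 : ℤ) (1 : ℤ)
      * ι (ModularCurve.dedekindEtaUnit * Fermat.Agent.RED.H70.eta2UnitInv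
        + 16 * PowerSeries.X) := by
    have e : ι (ModularCurve.dedekindEtaUnit * Fermat.Agent.RED.H70.eta2UnitInv
        + 16 * PowerSeries.X)
        = ι (ModularCurve.dedekindEtaUnit * Fermat.Agent.RED.H70.eta2UnitInv)
          + 16 * ι PowerSeries.X := by
      rw [map_add, map_mul (ι) 16 PowerSeries.X, map_ofNat]
    rw [Fermat.Agent.RED.H70.hZ2, e]
    linear_combination (-16 : LaurentSeries ℤ) * q23l_sX
  rw [h]
  refine q23l_isUnit _ _ ?_
  rw [map_add, map_mul, map_mul, ModularCurve.constantCoeff_dedekindEtaUnit,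
    Fermat.Agent.RED.H70.constantCoeff_eta2UnitInv, PowerSeries.constantCoeff_X]
  norm_num

/-- The Hauptmodul `η(τ)⁸/η(4τ)⁸` of `X₀(4)` in `ℤ((t))`. -/
def q23hZ4 : LaurentSeries ℤ :=
  (q23wZ - 16 * Fermat.Agent.RED.H70.hZ2) * Ring.inverse (Fermat.Agent.RED.H70.hZ2 + 16)

theorem q23hZ4_mul :
    q23hZ4 * (Fermat.Agent.RED.H70.hZ2 + 16) = q23wZ - 16 * Fermat.Agent.RED.H70.hZ2 := by
  rw [q23hZ4, mul_assoc, Ring.inverse_mul_cancel _ q23l_four_isUnit, mul_one]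

theorem q23l_four_ne : Fermat.Agent.RED.H70.hZ2 * q23wZ ≠ 4096 := by
  intro h
  have : Fact (Nat.Prime 3) := ⟨by norm_num⟩
  have h1 := congrArg (coeffMap (Int.castRingHom (ZMod 3))) h
  rw [map_mul, q23wZ, coeffMap_qExpand, map_ofNat] at h1
  have h3 := q23_three_L (k := ZMod 3)
  apply q23_W1W_ne_one (k := ZMod 3)
  rw [q23W, q23W1]
  linear_combination h1 + 1365 * h3

theorem q23l_hZ2_add_ne : Fermat.Agent.RED.H70.hZ2 + 16 ≠ 0 :=
  q23l_four_isUnit.ne_zero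

/-- The modular equation of level `2` for `h₂` over `ℤ`. -/
theorem q23l_modEq4 :
    q23wZ ^ 2 = (Fermat.Agent.RED.H70.hZ2 ^ 2 + 48 * Fermat.Agent.RED.H70.hZ2) * q23wZ
      + 4096 * Fermat.Agent.RED.H70.hZ2 := by
  refine q23l_four_modEq _ _ (qExpand ℤ 2 (jqModC ℤ)) Fermat.Agent.RED.H70.hZ2_ident' ?_
    q23l_four_ne
  have h := congrArg (qExpand ℤ 2) Fermat.Agent.RED.H70.hZ2_ident
  rw [map_pow, map_add, map_mul, map_pow, map_ofNat] at h
  exact h

theorem q23hZ4_sq :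
    q23hZ4 ^ 2 = Fermat.Agent.RED.H70.hZ2 * q23hZ4 + 16 * Fermat.Agent.RED.H70.hZ2 :=
  q23l_four_sq _ _ _ q23hZ4_mul q23l_modEq4 q23l_hZ2_add_ne

theorem q23hZ4_w : q23wZ = q23hZ4 ^ 2 + 16 * q23hZ4 :=
  q23l_four_w _ _ _ q23hZ4_mul q23hZ4_sq

theorem q23hZ4_v : Fermat.Agent.RED.H70.hZ2 * (q23hZ4 + 16) = q23hZ4 ^ 2 :=
  q23l_four_v _ _ q23hZ4_sq

/-- `x₄³ = Δ(t)/Δ(t⁴)` (helper73's `uZ4`). -/
theorem q23hZ4_cube : q23hZ4 ^ 3 = uZ4 := by
  rw [uZ4, vZ2]
  exact q23l_four_cube _ _ _ q23hZ4_mul q23hZ4_sq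

/-! ### Level `9` -/

/-- `h₃(t³) ∈ ℤ((t))`. -/
def q23w3Z : LaurentSeries ℤ := qExpand ℤ 3 Fermat.Agent.RED.H29.hZ3

/-- The numerator of the Hauptmodul of `X₀(9)`. -/
def q23numZ : LaurentSeries ℤ :=
  1458 * Fermat.Agent.RED.H29.hZ3
    + q23w3Z * (Fermat.Agent.RED.H29.hZ3 ^ 2 + 18 * Fermat.Agent.RED.H29.hZ3 + 27)

/-- The denominator of the Hauptmodul of `X₀(9)`. -/
def q23denZ : LaurentSeries ℤ :=
  q23w3Z * (Fermat.Agent.RED.H29.hZ3 + 9) - 243 * Fermat.Agent.RED.H29.hZ3 + 729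

theorem q23l_alg_den {R : Type*} [CommRing R] (s t E h : R) (hst : s * t = 1) :
    s ^ 3 * E * (s * h + 9) - 243 * (s * h) + 729
      = s ^ 4 * (E * (h + 9 * t) - 243 * t ^ 3 * h + 729 * t ^ 4) := by
  linear_combination (-(9 * s ^ 3 * E) + 243 * s * h * ((s * t) ^ 2 + s * t + 1)
    - 729 * ((s * t) ^ 3 + (s * t) ^ 2 + s * t + 1)) * hst

theorem q23l_nine_isUnit : IsUnit q23denZ := by
  have hw : q23w3Z = HahnSeries.single (-1 : ℤ) (1 : ℤ) ^ 3
      * ι (PowerSeries.expand 3 three_ne_zero Fermat.Agent.RED.H29.hNum) := by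
    rw [q23w3Z, Fermat.Agent.RED.H29.hZ3, map_mul, ModularCurve.qExpand_single,
      Fermat.Agent.RED.H10.qExpand_ofPowerSeries, HahnSeries.single_pow]
    simp
  have h : q23denZ = HahnSeries.single (-4 : ℤ) (1 : ℤ)
      * ι (PowerSeries.expand 3 three_ne_zero Fermat.Agent.RED.H29.hNum
          * (Fermat.Agent.RED.H29.hNum + 9 * PowerSeries.X)
        - 243 * PowerSeries.X ^ 3 * Fermat.Agent.RED.H29.hNum + 729 * PowerSeries.X ^ 4) := by
    have e4 : HahnSeries.single (-4 : ℤ) (1 : ℤ) = HahnSeries.single (-1 : ℤ) (1 : ℤ) ^ 4 := by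
      rw [HahnSeries.single_pow]
      simp
    have e : ι (PowerSeries.expand 3 three_ne_zero Fermat.Agent.RED.H29.hNum
          * (Fermat.Agent.RED.H29.hNum + 9 * PowerSeries.X)
        - 243 * PowerSeries.X ^ 3 * Fermat.Agent.RED.H29.hNum + 729 * PowerSeries.X ^ 4)
        = ι (PowerSeries.expand 3 three_ne_zero Fermat.Agent.RED.H29.hNum)
          * (ι Fermat.Agent.RED.H29.hNum + 9 * ι PowerSeries.X)
        - 243 * ι PowerSeries.X ^ 3 * ι Fermat.Agent.RED.H29.hNum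
        + 729 * ι PowerSeries.X ^ 4 := by
      simp only [map_add, map_sub, map_mul, map_pow, map_ofNat]
    rw [q23denZ, hw, Fermat.Agent.RED.H29.hZ3, e4, e]
    exact q23l_alg_den _ _ _ _ q23l_sX
  rw [h]
  refine q23l_isUnit _ _ ?_
  rw [map_add, map_sub, map_mul, map_mul, map_mul, map_mul, map_add, map_mul, map_pow, map_pow,
    PowerSeries.constantCoeff_expand, Fermat.Agent.RED.H29.constantCoeff_hNum,
    PowerSeries.constantCoeff_X]
  norm_num

/-- The Hauptmodul `η(τ)³/η(9τ)³` of `X₀(9)` in `ℤ((t))`. -/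
def q23hZ9 : LaurentSeries ℤ := q23numZ * Ring.inverse q23denZ

theorem q23hZ9_mul : q23hZ9 * q23denZ = q23numZ := by
  rw [q23hZ9, mul_assoc, Ring.inverse_mul_cancel _ q23l_nine_isUnit, mul_one]

theorem q23l_nine_ne : Fermat.Agent.RED.H29.hZ3 * q23w3Z ≠ 729 := by
  intro h
  have : Fact (Nat.Prime 2) := ⟨by norm_num⟩
  have h1 := congrArg (coeffMap (Int.castRingHom (ZMod 2))) h
  rw [map_mul, q23w3Z, coeffMap_qExpand, map_ofNat] at h1
  have h2 := q23_two_L (k := ZMod 2)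
  apply q23_V1V_ne_one (k := ZMod 2)
  rw [q23V, q23V1]
  linear_combination h1 + 364 * h2

/-- The modular equation of level `3` for `h₃` over `ℤ`. -/
theorem q23l_modEq9 :
    q23w3Z ^ 3 = (Fermat.Agent.RED.H29.hZ3 ^ 3 + 36 * Fermat.Agent.RED.H29.hZ3 ^ 2
        + 270 * Fermat.Agent.RED.H29.hZ3) * q23w3Z ^ 2
      + (729 * Fermat.Agent.RED.H29.hZ3 ^ 2 + 26244 * Fermat.Agent.RED.H29.hZ3) * q23w3Z
      + 531441 * Fermat.Agent.RED.H29.hZ3 := by
  refine q23l_nine_modEq _ _ (qExpand ℤ 3 (jqModC ℤ)) Fermat.Agent.RED.H29.hZ3_two ?_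
    q23l_nine_ne
  have h := congrArg (qExpand ℤ 3) Fermat.Agent.RED.H29.hZ3_one
  rw [map_mul, map_pow, map_add, map_add, map_mul, map_pow, map_ofNat, map_ofNat] at h
  exact h

theorem q23hZ9_cube :
    q23hZ9 ^ 3 = Fermat.Agent.RED.H29.hZ3 * (q23hZ9 ^ 2 + 9 * q23hZ9 + 27) :=
  q23l_nine_R1 _ _ _ _ _ rfl rfl q23hZ9_mul q23l_modEq9 q23l_nine_isUnit.ne_zero

theorem q23hZ9_w : q23w3Z = q23hZ9 * (q23hZ9 ^ 2 + 9 * q23hZ9 + 27) :=
  q23l_nine_R2 _ _ _ _ _ rfl rfl q23hZ9_mul q23l_modEq9 q23l_nine_isUnit.ne_zero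

/-- `x₉⁴ = h₃ · h₃(t³) = η(t)¹²/η(t⁹)¹²`. -/
theorem q23hZ9_pow : q23hZ9 ^ 4 = Fermat.Agent.RED.H29.hZ3 * q23w3Z :=
  q23l_nine_pow _ _ _ q23hZ9_cube q23hZ9_w

/-! ### `h₃² = Δ(t)/Δ(t³)` and the unit `j(t³) - 36 h₃² - 756` -/

theorem q23l_alg_sq {R : Type*} [CommRing R] (s t a b c : R) (hst : s * t = 1)
    (hbc : b ^ 12 * c = 1) :
    (s * (a ^ 12 * c)) ^ 2 * (t ^ 3 * b ^ 24) = t * a ^ 24 := by
  linear_combination (t * a ^ 24 * (s * t + 1) * (b ^ 12 * c) ^ 2) * hst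
    + (t * a ^ 24 * (b ^ 12 * c + 1)) * hbc

/-- `h₃² Δ(t³) = Δ(t)` over `ℤ`. -/
theorem q23l_hZ3_sq_mul :
    Fermat.Agent.RED.H29.hZ3 ^ 2 * qExpand ℤ 3 DZ = DZ := by
  have e1 : qExpand ℤ 3 DZ = ι PowerSeries.X ^ 3 * ι Fermat.Agent.RED.H29.bZ ^ 24 := by
    rw [DZ, Fermat.Agent.RED.H70.deltaSeries_eq, Fermat.Agent.RED.H10.qExpand_ofPowerSeries,
      map_mul, map_pow, PowerSeries.expand_X, map_mul, map_pow, map_pow]
  have e2 : DZ = ι PowerSeries.X * ι ModularCurve.etaProd ^ 24 := by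
    rw [DZ, Fermat.Agent.RED.H70.deltaSeries_eq, map_mul, map_pow]
  have e3 : Fermat.Agent.RED.H29.hZ3 = HahnSeries.single (-1 : ℤ) (1 : ℤ)
      * (ι ModularCurve.etaProd ^ 12 * ι Fermat.Agent.RED.H29.bInv) := by
    rw [Fermat.Agent.RED.H29.hZ3, Fermat.Agent.RED.H29.hNum, map_mul, map_pow]
  have hbc : ι Fermat.Agent.RED.H29.bZ ^ 12 * ι Fermat.Agent.RED.H29.bInv = 1 := by
    rw [← map_pow, ← map_mul, Fermat.Agent.RED.H29.bZ_mul_bInv, map_one]
  rw [e1, e3]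
  conv_rhs => rw [e2]
  exact q23l_alg_sq _ _ _ _ _ q23l_sX hbc

theorem q23l_alg_den3 {R : Type*} [CommRing R] (s t J h : R) (hst : s * t = 1) :
    s ^ 3 * J - 36 * (s * h) ^ 2 - 756
      = s ^ 3 * (J - 36 * t * h ^ 2 - 756 * t ^ 3) := by
  linear_combination (36 * s ^ 2 * h ^ 2 + 756 * ((s * t) ^ 2 + s * t + 1)) * hst

theorem q23l_j3_isUnit :
    IsUnit (qExpand ℤ 3 (jqModC ℤ) - 36 * Fermat.Agent.RED.H29.hZ3 ^ 2 - 756) := by
  have hj : qExpand ℤ 3 (jqModC ℤ) = HahnSeries.single (-1 : ℤ) (1 : ℤ) ^ 3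
      * ι (PowerSeries.expand 3 three_ne_zero ModularCurve.jNum) := by
    rw [jqModC, Fermat.Agent.RED.H70.jNum_map_int, map_mul, ModularCurve.qExpand_single,
      Fermat.Agent.RED.H10.qExpand_ofPowerSeries, HahnSeries.single_pow]
    simp
  have h : qExpand ℤ 3 (jqModC ℤ) - 36 * Fermat.Agent.RED.H29.hZ3 ^ 2 - 756
      = HahnSeries.single (-3 : ℤ) (1 : ℤ)
        * ι (PowerSeries.expand 3 three_ne_zero ModularCurve.jNum
          - 36 * PowerSeries.X * Fermat.Agent.RED.H29.hNum ^ 2 - 756 * PowerSeries.X ^ 3) := by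
    have e3 : HahnSeries.single (-3 : ℤ) (1 : ℤ) = HahnSeries.single (-1 : ℤ) (1 : ℤ) ^ 3 := by
      rw [HahnSeries.single_pow]
      simp
    have e : ι (PowerSeries.expand 3 three_ne_zero ModularCurve.jNum
          - 36 * PowerSeries.X * Fermat.Agent.RED.H29.hNum ^ 2 - 756 * PowerSeries.X ^ 3)
        = ι (PowerSeries.expand 3 three_ne_zero ModularCurve.jNum)
          - 36 * ι PowerSeries.X * ι Fermat.Agent.RED.H29.hNum ^ 2
          - 756 * ι PowerSeries.X ^ 3 := by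
      simp only [map_sub, map_mul, map_pow, map_ofNat]
    rw [hj, Fermat.Agent.RED.H29.hZ3, e3, e]
    exact q23l_alg_den3 _ _ _ _ q23l_sX
  rw [h]
  refine q23l_isUnit _ _ ?_
  rw [map_sub, map_sub, map_mul, map_mul, map_mul, map_pow, map_pow,
    PowerSeries.constantCoeff_expand, ModularCurve.constantCoeff_jNum,
    PowerSeries.constantCoeff_X]
  norm_num

end IntSeries

/-! ### Reductions -/

section Red

variable (k : Type*) [Field k]

/-- The image of `x₄` over any field. -/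
theorem q23l_map_hZ4_mul :
    coeffMap (Int.castRingHom k) q23hZ4 * (q23W1 k + 16) = q23W k - 16 * q23W1 k := by
  have h := congrArg (coeffMap (Int.castRingHom k)) q23hZ4_mul
  rw [map_mul, map_add, map_sub, map_mul, map_ofNat, q23wZ, coeffMap_qExpand] at h
  exact h

theorem q23l_map_hZ4_cube :
    coeffMap (Int.castRingHom k) q23hZ4 ^ 3 = ubar4 k := by
  rw [← map_pow, q23hZ4_cube, coeffMap_uZ4]

/-- **Reduction of `x₄` in characteristic `3`** is the coordinate `h̄ = q23H3`. -/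
theorem coeffMap_q23hZ4 [CharP k 3] : coeffMap (Int.castRingHom k) q23hZ4 = q23H3 k := by
  have h := q23l_map_hZ4_mul k
  have h3 := q23_three_L (k := k)
  refine mul_right_cancel₀ (q23W1_add_one_ne_zero (k := k)) ?_
  rw [q23H3_mul]
  linear_combination h - 5 * (coeffMap (Int.castRingHom k) q23hZ4 + q23W1 k) * h3

/-- The image of `x₉` over any field. -/
theorem q23l_map_hZ9_mul :
    coeffMap (Int.castRingHom k) q23hZ9
        * (q23V k * (q23V1 k + 9) - 243 * q23V1 k + 729)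
      = 1458 * q23V1 k + q23V k * (q23V1 k ^ 2 + 18 * q23V1 k + 27) := by
  have h := congrArg (coeffMap (Int.castRingHom k)) q23hZ9_mul
  rw [q23denZ, q23numZ, q23w3Z] at h
  simp only [map_mul, map_add, map_sub, map_pow, map_ofNat, coeffMap_qExpand] at h
  exact h

theorem q23l_map_hZ9_pow :
    coeffMap (Int.castRingHom k) q23hZ9 ^ 4 = q23V1 k * q23V k := by
  rw [← map_pow, q23hZ9_pow, map_mul, q23w3Z, coeffMap_qExpand]
  rfl

theorem q23V1_add_one_ne_zero : q23V1 k + 1 ≠ 0 := by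
  intro h
  have h1 := congrArg (fun f : LaurentSeries k => f.coeff (-1)) h
  simp only [HahnSeries.coeff_add, q23V1_coeff_neg_one, HahnSeries.coeff_zero] at h1
  rw [HahnSeries.coeff_one, if_neg (by norm_num), add_zero] at h1
  exact one_ne_zero h1

/-- **Reduction of `x₉` in characteristic `2`** is the coordinate `h̄ = q23H2`. -/
theorem coeffMap_q23hZ9 [CharP k 2] : coeffMap (Int.castRingHom k) q23hZ9 = q23H2 k := by
  have h := q23l_map_hZ9_mul k
  have h2 := q23_two_L (k := k)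
  refine mul_right_cancel₀ (q23V_add_one_ne_zero (k := k)) ?_
  rw [q23H2_mul]
  refine mul_right_cancel₀ (q23V1_add_one_ne_zero k) ?_
  linear_combination (exp := 1) h
    + (coeffMap (Int.castRingHom k) q23hZ9 * (-(4 * q23V k) + 122 * q23V1 k - 364)
      + 729 * q23V1 k + q23V k * (9 * q23V1 k + 13) - q23V k * q23V1 k) * h2

end Red

/-! ### The series over an arbitrary field -/

section Field

open Fermat.Agent.BAD.H30

variable (k : Type*) [Field k]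

theorem q23l_den4_ne : q23W1 k + 16 ≠ 0 := by
  have h := (q23l_four_isUnit.map (coeffMap (Int.castRingHom k))).ne_zero
  rwa [map_add, map_ofNat] at h

theorem q23l_den9_ne : q23V k * (q23V1 k + 9) - 243 * q23V1 k + 729 ≠ 0 := by
  have h := (q23l_nine_isUnit.map (coeffMap (Int.castRingHom k))).ne_zero
  rw [q23denZ, q23w3Z] at h
  simp only [map_mul, map_add, map_sub, map_ofNat, coeffMap_qExpand] at h
  exact h

theorem q23l_den3_ne : qExpand k 3 (jqModC k) - 36 * q23V1 k ^ 2 - 756 ≠ 0 := by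
  have h := (q23l_j3_isUnit.map (coeffMap (Int.castRingHom k))).ne_zero
  simp only [map_mul, map_sub, map_pow, map_ofNat, coeffMap_qExpand,
    coeffMap_jqModC] at h
  exact h

theorem q23l_V1_sq : q23V1 k ^ 2 = deltaR k * (qExpand k 3 (deltaR k))⁻¹ := by
  have h := congrArg (coeffMap (Int.castRingHom k)) q23l_hZ3_sq_mul
  rw [map_mul, map_pow, coeffMap_qExpand, coeffMap_DZ] at h
  exact (eq_mul_inv_iff_mul_eq₀ (qExpand_deltaR_ne_zero k 3)).mpr h

theorem q23l_V1_two :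
    (q23V1 k + 27) * (q23V1 k + 3) ^ 3 = qExpand k 3 (jqModC k) * q23V1 k := by
  have h := congrArg (coeffMap (Int.castRingHom k)) Fermat.Agent.RED.H29.hZ3_two
  simp only [map_mul, map_add, map_pow, map_ofNat, coeffMap_qExpand, coeffMap_jqModC] at h
  exact h

/-- `h₃` as a rational function of `u = h₃² = Δ(t)/Δ(t³)` and `j(t³)`. -/
theorem q23l_V1_eq :
    q23V1 k = ((q23V1 k ^ 2) ^ 2 + 270 * q23V1 k ^ 2 + 729)
      / (qExpand k 3 (jqModC k) - 36 * q23V1 k ^ 2 - 756) := by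
  rw [eq_div_iff (q23l_den3_ne k)]
  linear_combination -(q23l_V1_two k)

theorem q23l_V_sq :
    q23V k ^ 2 = qExpand k 3 (deltaR k) * (qExpand k 9 (deltaR k))⁻¹ := by
  have h := congrArg (qExpand k 3) (q23l_V1_sq k)
  rw [map_pow, map_mul, map_inv₀, q23_qExpand_three_three] at h
  exact h

theorem q23l_V_eq :
    q23V k = ((q23V k ^ 2) ^ 2 + 270 * q23V k ^ 2 + 729)
      / (qExpand k 9 (jqModC k) - 36 * q23V k ^ 2 - 756) := by
  have h := congrArg (qExpand k 3) (q23l_V1_eq k)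
  simp only [map_div₀, map_add, map_sub, map_mul, map_pow, map_ofNat,
    q23_qExpand_three_three] at h
  exact h

end Field

/-! ### Characteristic `0`: the elements of `F_N` -/

section CharZero

open Fermat.Agent.S24 (Kbar FN jF)
open Fermat.Agent.BAD.H30 Fermat.Agent.BAD.H88

variable (N : ℕ) [NeZero N]

theorem q23l_unit_mem (d : ℕ) [NeZero d] (hd : d ∣ N) :
    deltaR Kbar * (qExpand Kbar d (deltaR Kbar))⁻¹ ∈ modularFunctionFieldBar N := by
  rw [← coeffEmb_modularUnitSeries]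
  exact unit_mem N d hd

theorem q23l_jd_mem (d : ℕ) [NeZero d] (hd : d ∣ N) :
    qExpand Kbar d (jqModC Kbar) ∈ modularFunctionFieldBar N := by
  show _ ∈ laurentBaseChange Kbar (modularFunctionFieldFull N)
  rw [Fermat.Agent.RED.H73.laurentBaseChange_full_eq]
  exact jqModCd_mem_full Kbar N hd

theorem q23l_W1_mem (h2 : 2 ∣ N) : q23W1 Kbar ∈ modularFunctionFieldBar N := by
  have e : q23W1 Kbar = deltaR Kbar * (qExpand Kbar 2 (deltaR Kbar))⁻¹ := vbar_eq Kbar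
  rw [e]
  exact q23l_unit_mem N 2 h2

theorem q23l_W_mem (h4 : 4 ∣ N) : q23W Kbar ∈ modularFunctionFieldBar N := by
  have e : q23W Kbar = ubar4 Kbar * (vbar Kbar)⁻¹ := vbar2_eq Kbar
  rw [e, ubar4_eq, vbar_eq]
  exact mul_mem (q23l_unit_mem N 4 h4)
    (inv_mem (q23l_unit_mem N 2 (Dvd.dvd.trans (by norm_num) h4)))

/-- The Hauptmodul of `X₀(4)` lies in `F_N`, `4 ∣ N`. -/
theorem q23l_hZ4_mem (h4 : 4 ∣ N) :
    coeffMap (Int.castRingHom Kbar) q23hZ4 ∈ modularFunctionFieldBar N := by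
  have h := q23l_map_hZ4_mul Kbar
  rw [← eq_div_iff (q23l_den4_ne Kbar)] at h
  have h2 : 2 ∣ N := Dvd.dvd.trans (by norm_num) h4
  rw [h]
  exact div_mem (sub_mem (q23l_W_mem N h4) (mul_mem (ofNat_mem _ 16) (q23l_W1_mem N h2)))
    (add_mem (q23l_W1_mem N h2) (ofNat_mem _ 16))

theorem q23l_V1_mem (h3 : 3 ∣ N) : q23V1 Kbar ∈ modularFunctionFieldBar N := by
  have hu : q23V1 Kbar ^ 2 ∈ modularFunctionFieldBar N := by
    rw [q23l_V1_sq]
    exact q23l_unit_mem N 3 h3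
  rw [q23l_V1_eq]
  exact div_mem (add_mem (add_mem (pow_mem hu 2) (mul_mem (ofNat_mem _ 270) hu))
      (ofNat_mem _ 729))
    (sub_mem (sub_mem (q23l_jd_mem N 3 h3) (mul_mem (ofNat_mem _ 36) hu)) (ofNat_mem _ 756))

theorem q23l_V_mem (h9 : 9 ∣ N) : q23V Kbar ∈ modularFunctionFieldBar N := by
  have h3 : 3 ∣ N := Dvd.dvd.trans (by norm_num) h9
  have hu : q23V Kbar ^ 2 ∈ modularFunctionFieldBar N := by
    rw [q23l_V_sq]
    have e : qExpand Kbar 3 (deltaR Kbar) * (qExpand Kbar 9 (deltaR Kbar))⁻¹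
        = (deltaR Kbar * (qExpand Kbar 9 (deltaR Kbar))⁻¹)
          * (deltaR Kbar * (qExpand Kbar 3 (deltaR Kbar))⁻¹)⁻¹ := by
      have h0 := deltaR_ne_zero Kbar
      have h3' := qExpand_deltaR_ne_zero Kbar 3
      have h9' := qExpand_deltaR_ne_zero Kbar 9
      field_simp
    rw [e]
    exact mul_mem (q23l_unit_mem N 9 h9) (inv_mem (q23l_unit_mem N 3 h3))
  rw [q23l_V_eq]
  exact div_mem (add_mem (add_mem (pow_mem hu 2) (mul_mem (ofNat_mem _ 270) hu))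
      (ofNat_mem _ 729))
    (sub_mem (sub_mem (q23l_jd_mem N 9 h9) (mul_mem (ofNat_mem _ 36) hu)) (ofNat_mem _ 756))

/-- The Hauptmodul of `X₀(9)` lies in `F_N`, `9 ∣ N`. -/
theorem q23l_hZ9_mem (h9 : 9 ∣ N) :
    coeffMap (Int.castRingHom Kbar) q23hZ9 ∈ modularFunctionFieldBar N := by
  have h := q23l_map_hZ9_mul Kbar
  rw [← eq_div_iff (q23l_den9_ne Kbar)] at h
  have h3 : 3 ∣ N := Dvd.dvd.trans (by norm_num) h9
  have hv := q23l_V1_mem N h3
  have hw := q23l_V_mem N h9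
  rw [h]
  exact div_mem
    (add_mem (mul_mem (ofNat_mem _ 1458) hv)
      (mul_mem hw (add_mem (add_mem (pow_mem hv 2) (mul_mem (ofNat_mem _ 18) hv))
        (ofNat_mem _ 27))))
    (add_mem (sub_mem (mul_mem hw (add_mem hv (ofNat_mem _ 9)))
      (mul_mem (ofNat_mem _ 243) hv)) (ofNat_mem _ 729))

/-- **The lift of the coordinate for `q = 3`**: the Hauptmodul `η(τ)⁸/η(4τ)⁸` in `F_N`. -/
def q23uF3 (h4 : 4 ∣ N) : FN N := ⟨coeffMap (Int.castRingHom Kbar) q23hZ4, q23l_hZ4_mem N h4⟩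

/-- **The lift of the coordinate for `q = 2`**: the Hauptmodul `η(τ)³/η(9τ)³` in `F_N`. -/
def q23uF2 (h9 : 9 ∣ N) : FN N := ⟨coeffMap (Int.castRingHom Kbar) q23hZ9, q23l_hZ9_mem N h9⟩

theorem q23uF3_coe (h4 : 4 ∣ N) :
    ((q23uF3 N h4 : FN N) : LaurentSeries Kbar) = coeffMap (Int.castRingHom Kbar) q23hZ4 := rfl

theorem q23uF2_coe (h9 : 9 ∣ N) :
    ((q23uF2 N h9 : FN N) : LaurentSeries Kbar) = coeffMap (Int.castRingHom Kbar) q23hZ9 := rfl

/-- `x₄³ = Δ(t)/Δ(t⁴)`. -/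
theorem q23uF3_cube (h4 : 4 ∣ N) : q23uF3 N h4 ^ 3 = unitF N 4 h4 := by
  apply Subtype.ext
  rw [coeffMap_uZ4_Kbar, ← q23hZ4_cube, map_pow]
  rfl

/-- `x₉⁸ = Δ(t)/Δ(t⁹)`. -/
theorem q23uF2_pow (h9 : 9 ∣ N) : q23uF2 N h9 ^ 8 = unitF N 9 h9 := by
  apply Subtype.ext
  have h1 : ((q23uF2 N h9 ^ 8 : FN N) : LaurentSeries Kbar)
      = (coeffMap (Int.castRingHom Kbar) q23hZ9 ^ 4) ^ 2 := by
    rw [← pow_mul]
    rfl
  rw [h1, q23l_map_hZ9_pow, mul_pow, q23l_V1_sq, q23l_V_sq, unitF_coe,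
    coeffEmb_modularUnitSeries]
  have h0 := deltaR_ne_zero Kbar
  have h3' := qExpand_deltaR_ne_zero Kbar 3
  have h9' := qExpand_deltaR_ne_zero Kbar 9
  field_simp

theorem q23uF3_ne_zero (h4 : 4 ∣ N) : q23uF3 N h4 ≠ 0 := by
  intro h
  have h1 := q23uF3_cube N h4
  rw [h, zero_pow (by norm_num)] at h1
  exact unitF_ne_zero N 4 h4 h1.symm

theorem q23uF2_ne_zero (h9 : 9 ∣ N) : q23uF2 N h9 ≠ 0 := by
  intro h
  have h1 := q23uF2_pow N h9
  rw [h, zero_pow (by norm_num)] at h1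
  exact unitF_ne_zero N 9 h9 h1.symm

/-- The lift has neither zeros nor poles where `j` is regular. -/
theorem ord_q23uF3 (h4 : 4 ∣ N) (P : AlgebraicCurve.Place Kbar (FN N))
    (hP : 0 ≤ P.ord (jF N)) : P.ord (q23uF3 N h4) = 0 := by
  have h := ord_unitF N 4 h4 P hP
  rw [← q23uF3_cube, ord_pow] at h
  have : (3 : ℤ) * P.ord (q23uF3 N h4) = 0 := by exact_mod_cast h
  omega

theorem ord_q23uF2 (h9 : 9 ∣ N) (P : AlgebraicCurve.Place Kbar (FN N))
    (hP : 0 ≤ P.ord (jF N)) : P.ord (q23uF2 N h9) = 0 := by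
  have h := ord_unitF N 9 h9 P hP
  rw [← q23uF2_pow, ord_pow] at h
  have : (8 : ℤ) * P.ord (q23uF2 N h9) = 0 := by exact_mod_cast h
  omega

end CharZero

/-! ### Gauss reduction -/

section Gauss

open Fermat.Agent.S24 (Kbar FN jF)
open Fermat.Agent.BAD Fermat.Agent.BAD.H82 Fermat.Agent.S28.H73 Fermat.Agent.S28
open Fermat.Agent.RED.H73 Fermat.Agent.S36.NU.H65

variable (A : ValuationSubring (AlgebraicClosure ℚ)) (N : ℕ) [NeZero N]

theorem q23uF3_mem_gaussV (h4 : 4 ∣ N) : q23uF3 N h4 ∈ gaussV A N :=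
  intSer_mem A q23hZ4

theorem q23uF2_mem_gaussV (h9 : 9 ∣ N) : q23uF2 N h9 ∈ gaussV A N :=
  intSer_mem A q23hZ9

/-- The Gauss reduction of the lift is the reduction of the integral series (any `A`). -/
theorem gaussRes_q23uF3_int (h4 : 4 ∣ N) :
    ((gaussRes A N ⟨q23uF3 N h4, q23uF3_mem_gaussV A N h4⟩ :
        ↥(redField A (FNbar N) (hasScale_laurentBaseChange A N))) : LaurentSeries (kV A))
      = coeffMap (Int.castRingHom (kV A)) q23hZ4 :=
  gaussRedV_intSer A q23hZ4 _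

theorem gaussRes_q23uF2_int (h9 : 9 ∣ N) :
    ((gaussRes A N ⟨q23uF2 N h9, q23uF2_mem_gaussV A N h9⟩ :
        ↥(redField A (FNbar N) (hasScale_laurentBaseChange A N))) : LaurentSeries (kV A))
      = coeffMap (Int.castRingHom (kV A)) q23hZ9 :=
  gaussRedV_intSer A q23hZ9 _

/-- **Gauss reduction for `q = 3`**: the reduction of `x₄` is the coordinate `h̄ = q23H3`. -/
theorem gaussRes_q23uF3 (hA : A.LiesOverPrime 3) (h4 : 4 ∣ N) :
    ((gaussRes A N ⟨q23uF3 N h4, q23uF3_mem_gaussV A N h4⟩ :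
        ↥(redField A (FNbar N) (hasScale_laurentBaseChange A N))) : LaurentSeries (kV A))
      = q23H3 (kV A) := by
  have : CharP (kV A) 3 := charP_kV A Nat.prime_three hA
  rw [gaussRes_q23uF3_int, coeffMap_q23hZ4]

/-- **Gauss reduction for `q = 2`**: the reduction of `x₉` is the coordinate `h̄ = q23H2`. -/
theorem gaussRes_q23uF2 (hA : A.LiesOverPrime 2) (h9 : 9 ∣ N) :
    ((gaussRes A N ⟨q23uF2 N h9, q23uF2_mem_gaussV A N h9⟩ :
        ↥(redField A (FNbar N) (hasScale_laurentBaseChange A N))) : LaurentSeries (kV A))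
      = q23H2 (kV A) := by
  have : CharP (kV A) 2 := charP_kV A Nat.prime_two hA
  rw [gaussRes_q23uF2_int, coeffMap_q23hZ9]

end Gauss

end Fermat.Agent.S36.NU.H5
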