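import Fermat.Agent.S36.NU.H44_PoleReg
import Fermat.Agent.S36.NU.H5_Q23Lift
import Fermat.Agent.S36.NU.H5_Q23Coord

/-!
# S36 / NU-B, leaf POLE-INST, part 3 (helper44): `hP` GENERIC in the coordinate, and `q = 2, 3`

`q ∤ M` tame, `A` over `q`, `f ∈ F_M` with an integral expansion `u₀ ∈ ℤ((t))` such that
`α f = f(τ)` and `β f = f(qτ)` are regular at the non-cuspidal places of `F_{M q}`.
With `δ = (f^q - f(qτ)) / q` (expansion `kdel q u₀`), `W₁ = δ (f(qτ)^q - f)`:

* `hP_gen` : `δ̄ (ū^{q²} - ū)` is regular at the non-cuspidal places of the residue field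
  `κ = k(j~(t^d) : d ∣ M)` (total conservation at level `M q`);
* `dbar_mem_gen` : `δ̄ ∈ κ`;
* instances: `f = unitF M d` (any `d ∣ M`), helper5's `q23uF3` (`q = 3`, `4 ∣ M`) and `q23uF2`
  (`q = 2`, `9 ∣ M`);
* `pole_full_three`, `pole_full_two` : helper5's `q23_pole_coord_three/two` WITHOUT `hP`.
-/

set_option autoImplicit false
set_option linter.style.haveILetI false
set_option linter.unusedSectionVars false
set_option synthInstance.maxHeartbeats 400000
set_option maxHeartbeats 1000000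

noncomputable section

open Polynomial AlgebraicCurve IntermediateField ModularCurve HahnSeries

namespace Fermat.Agent.S36.NU.H44

open Fermat.Agent.RED.H51 Fermat.Agent.BAD.H21 Fermat.Agent.S36.NU.H73 Fermat.Agent.S36.NU.H65
open Fermat.Agent.S28.H73 Fermat.Agent.RED.H73 Fermat.Agent.RED Fermat.Agent.BAD
open Fermat.Agent.BAD.H88 Fermat.Agent.BAD.H30 Fermat.Agent.RED.H17
open Fermat.Agent.S24 (Kbar FN)

section GenLevel

variable (q M : ℕ) [NeZero M] [NeZero (M * q)] [NeZero q] [hqF : Fact q.Prime]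
  (f : FN M) (u₀ : LaurentSeries ℤ) (hf : (f : LaurentSeries Kbar) = intSer Kbar u₀)

/-- `α f`. -/
def gA : FN (M * q) := heckeAlphaBar Kbar M q f

/-- `β f`. -/
def gB : FN (M * q) := heckeBetaBar Kbar M q f

/-- `δ = ((α f)^q - β f) / q`. -/
def gDel : FN (M * q) :=
  algebraMap Kbar (FN (M * q)) ((q : Kbar)⁻¹) * (gA q M f ^ q - gB q M f)

/-- `W₁ = δ ((β f)^q - α f)`. -/
def gW1 : FN (M * q) := gDel q M f * (gB q M f ^ q - gA q M f)

include hf in
theorem coe_gA : ((gA q M f : FN (M * q)) : LaurentSeries Kbar) = intSer Kbar u₀ := by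
  rw [gA, coe_heckeAlphaBar, hf]

include hf in
theorem coe_gB :
    ((gB q M f : FN (M * q)) : LaurentSeries Kbar) = intSer Kbar (qExpand ℤ q u₀) := by
  rw [gB, coe_heckeBetaBar, hf, intSer_qExpand]

include hf in
theorem coe_gDel :
    ((gDel q M f : FN (M * q)) : LaurentSeries Kbar) = intSer Kbar (kdel q u₀) := by
  have h := congrArg (intSer Kbar) (kdel_spec q u₀)
  simp only [intSer, map_mul, map_sub, map_pow, map_natCast] at h
  have e : ((gDel q M f : FN (M * q)) : LaurentSeries Kbar)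
      = algebraMap Kbar (LaurentSeries Kbar) ((q : Kbar)⁻¹)
        * (((gA q M f : FN (M * q)) : LaurentSeries Kbar) ^ q
          - ((gB q M f : FN (M * q)) : LaurentSeries Kbar)) := rfl
  rw [e, coe_gA q M f u₀ hf, coe_gB q M f u₀ hf]
  simp only [intSer]
  rw [← h, ← mul_assoc]
  have h1 : algebraMap Kbar (LaurentSeries Kbar) ((q : Kbar)⁻¹) * ((q : ℕ) : LaurentSeries Kbar)
      = 1 := by
    rw [← map_natCast (algebraMap Kbar (LaurentSeries Kbar)) q, ← map_mul,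
      inv_mul_cancel₀ (natCast_ne_zero_Kbar q), map_one]
  rw [h1, one_mul]

/-- The integer series of `W₁`. -/
def gW1Z : LaurentSeries ℤ := kdel q u₀ * (qExpand ℤ q u₀ ^ q - u₀)

include hf in
theorem coe_gW1 : ((gW1 q M f : FN (M * q)) : LaurentSeries Kbar) = intSer Kbar (gW1Z q u₀) := by
  have e : ((gW1 q M f : FN (M * q)) : LaurentSeries Kbar)
      = ((gDel q M f : FN (M * q)) : LaurentSeries Kbar)
        * (((gB q M f : FN (M * q)) : LaurentSeries Kbar) ^ q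
          - ((gA q M f : FN (M * q)) : LaurentSeries Kbar)) := rfl
  rw [e, coe_gDel q M f u₀ hf, coe_gA q M f u₀ hf, coe_gB q M f u₀ hf, gW1Z]
  simp only [intSer, map_mul, map_sub, map_pow]

variable (A : ValuationSubring Kbar)

include hf in
theorem gDel_mem_V1 : gDel q M f ∈ V1 A q M := by
  show ((gDel q M f : FN (M * q)) : LaurentSeries Kbar) ∈ gaussRingV A
  rw [coe_gDel q M f u₀ hf]
  exact intSer_mem A _

include hf in
theorem gW1_mem_V1 : gW1 q M f ∈ V1 A q M := by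
  show ((gW1 q M f : FN (M * q)) : LaurentSeries Kbar) ∈ gaussRingV A
  rw [coe_gW1 q M f u₀ hf]
  exact intSer_mem A _

include hf in
theorem coe_red1_gDel (h : gDel q M f ∈ V1 A q M) :
    ((red1 A q M ⟨gDel q M f, h⟩ : F1 A q M) : LaurentSeries (kV A))
      = coeffMap (Int.castRingHom (kV A)) (kdel q u₀) := by
  rw [coe_gaussResF'_eq]
  have e : (⟨((gDel q M f : FN (M * q)) : LaurentSeries Kbar), h⟩ :
      gaussRingV A) = ⟨intSer Kbar (kdel q u₀), intSer_mem A _⟩ :=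
    Subtype.ext (coe_gDel q M f u₀ hf)
  exact (congrArg (gaussRedV A) e).trans (gaussRedV_intSer A _ _)

include hf in
theorem coe_red1_gW1 (hA : A.LiesOverPrime q) (h : gW1 q M f ∈ V1 A q M) :
    ((red1 A q M ⟨gW1 q M f, h⟩ : F1 A q M) : LaurentSeries (kV A))
      = coeffMap (Int.castRingHom (kV A)) (kdel q u₀)
        * (coeffMap (Int.castRingHom (kV A)) u₀ ^ q ^ 2
          - coeffMap (Int.castRingHom (kV A)) u₀) := by
  haveI : CharP (kV A) q := BAD.H82.charP_kV A hqF.out hA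
  rw [coe_gaussResF'_eq]
  have e : (⟨((gW1 q M f : FN (M * q)) : LaurentSeries Kbar), h⟩ :
      gaussRingV A) = ⟨intSer Kbar (gW1Z q u₀), intSer_mem A _⟩ :=
    Subtype.ext (coe_gW1 q M f u₀ hf)
  rw [(congrArg (gaussRedV A) e).trans (gaussRedV_intSer A _ _), gW1Z]
  simp only [map_mul, map_sub, map_pow]
  rw [coeffMap_qExpand, ← intRed_pow q u₀, ← pow_mul, ← pow_two]

end GenLevel

section GenWQ

variable (q M : ℕ) (a b : ℤ) (hab : a * q + b * M = 1) (hq : q.Prime)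
  [NeZero M] [NeZero (M * q)] [NeZero q] [hqF : Fact q.Prime] (f : FN M)

theorem wq_gW1 : wq q M a b hab hq (gW1 q M f) = gW1 q M f := by
  rw [gW1, gDel, gA, gB, map_mul, map_mul, map_sub, map_sub, map_pow, map_pow, AlgEquiv.commutes,
    wq_alpha, wq_beta]
  ring

variable (A : ValuationSubring Kbar)

theorem gW1_mem_V2 (h : gW1 q M f ∈ V1 A q M) : gW1 q M f ∈ V2 A q M a b hab hq := by
  rw [mem_V2_iff, wq_gW1]
  exact h

end GenWQ

section GenReg

variable (q M : ℕ) [NeZero M] [NeZero (M * q)] [NeZero q] [hqF : Fact q.Prime] (f : FN M)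

theorem regAt_gW1 (P : Place Kbar (FN (M * q)))
    (hA : RegAt P (gA q M f)) (hB : RegAt P (gB q M f)) : RegAt P (gW1 q M f) := by
  rw [gW1, gDel]
  exact ((regAt_algebraMap P _).mul ((hA.pow q).sub hB)).mul ((hB.pow q).sub hA)

end GenReg

section GenFinal

variable (A : ValuationSubring Kbar) (q M : ℕ) (a b : ℤ) (hab : a * q + b * M = 1)
  (hq : q.Prime) [NeZero M] [NeZero (M * q)] [NeZero q] [hqF : Fact q.Prime]
  (hA : A.LiesOverPrime q) (hqM : ¬ q ∣ M) (ht : H91.TameAt M q)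
  (f : FN M) (u₀ : LaurentSeries ℤ) (hf : (f : LaurentSeries Kbar) = intSer Kbar u₀)
  (hregA : ∀ P : Place Kbar (FN (M * q)), 0 ≤ P.ord (Fermat.Agent.S24.jF (M * q)) →
    RegAt P (gA q M f))
  (hregB : ∀ P : Place Kbar (FN (M * q)), 0 ≤ P.ord (Fermat.Agent.S24.jF (M * q)) →
    RegAt P (gB q M f))

include hab hq hA hqM ht hf hregA hregB in
/-- **`hP` on `F₁`, generic**: `δ̄ (ū^{q²} - ū)` is regular at the non-cuspidal places. -/
theorem regAt_P_gen (z : Place (kV A) (F1 A q M)) (jE u d : F1 A q M)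
    (hj : (jE : LaurentSeries (kV A)) = jqModC (kV A))
    (hu : (u : LaurentSeries (kV A)) = coeffMap (Int.castRingHom (kV A)) u₀)
    (hd : (d : LaurentSeries (kV A)) = coeffMap (Int.castRingHom (kV A)) (kdel q u₀))
    (hz : 0 ≤ z.ord jE) : d * (u ^ q ^ 2 - u) ∈ z.toValuationSubring := by
  haveI : IsAlgClosed (kV A) := isAlgClosed_kV A
  haveI : Infinite (kV A) := IsAlgClosed.instInfinite
  have H := RED.H17.ffHyp_of_isFF _ _ (Fermat.Agent.RED.H95.stmt_HKA_isFF (M * q))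
  have hV1 : gW1 q M f ∈ V1 A q M := gW1_mem_V1 q M f u₀ hf A
  have hR : (Fermat.Agent.S35.H89.modTot A q M a b hab hq hA hqM ht).InR z (gW1 q M f) :=
    ⟨hV1, gW1_mem_V2 q M a b hab hq f A hV1, fun P hP => by
      have h0 := ord_jF_nonneg_of_rhoF1 A q M a b hab hq hA hqM ht z jE hj hz P hP
      exact regAt_gW1 q M f P (hregA P h0) (hregB P h0)⟩
  have h := hR.regAt₁ H.principal
  rw [(Fermat.Agent.S35.H89.modTot A q M a b hab hq hA hqM ht).p₁.rd_of_mem hV1] at h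
  have e : d * (u ^ q ^ 2 - u) = red1 A q M ⟨gW1 q M f, hV1⟩ := by
    apply Subtype.ext
    rw [coe_red1_gW1 q M f u₀ hf A hA hV1]
    show (d : LaurentSeries (kV A)) * ((u : LaurentSeries (kV A)) ^ q ^ 2
      - (u : LaurentSeries (kV A))) = _
    rw [hd, hu]
  rw [e]
  exact (regAt_iff_mem z _).1 h

include hA hqM ht hf hregA hregB in
/-- **`hP`, generic in the coordinate**, on any `E = k(j~(t^d) : d ∣ M)`. -/
theorem hP_gen (E : IntermediateField (kV A) (LaurentSeries (kV A)))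
    (hE : E = modularFunctionFieldFullC (kV A) M)
    (z : Place (kV A) ↥E) (jE u d : ↥E)
    (hj : (jE : LaurentSeries (kV A)) = jqModC (kV A))
    (hu : (u : LaurentSeries (kV A)) = coeffMap (Int.castRingHom (kV A)) u₀)
    (hd : (d : LaurentSeries (kV A)) = coeffMap (Int.castRingHom (kV A)) (kdel q u₀))
    (hz : 0 ≤ z.ord jE) : d * (u ^ q ^ 2 - u) ∈ z.toValuationSubring := by
  obtain ⟨a, b, hab⟩ := exists_bezout q M hqM
  have hE' : E = redField A (modularFunctionFieldBar (M * q)) (hSc A q M) :=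
    hE.trans (H82.redField_eq_fullC q M a b hab hqF.out A hA).symm
  subst hE'
  exact regAt_P_gen A q M a b hab hqF.out hA hqM ht f u₀ hf hregA hregB z jE u d hj hu hd hz

include hA hqM hf in
/-- `δ̄ ∈ k(j~(t^d) : d ∣ M)`, generic in the coordinate. -/
theorem dbar_mem_gen :
    coeffMap (Int.castRingHom (kV A)) (kdel q u₀) ∈ modularFunctionFieldFullC (kV A) M := by
  obtain ⟨a, b, hab⟩ := exists_bezout q M hqM
  rw [← H82.redField_eq_fullC q M a b hab hqF.out A hA,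
    ← coe_red1_gDel q M f u₀ hf A (gDel_mem_V1 q M f u₀ hf A)]
  exact SetLike.coe_mem _

include hA hqM hf in
/-- `ū ∈ k(j~(t^d) : d ∣ M)`, generic in the coordinate. -/
theorem ubar_mem_gen :
    coeffMap (Int.castRingHom (kV A)) u₀ ∈ modularFunctionFieldFullC (kV A) M := by
  obtain ⟨a, b, hab⟩ := exists_bezout q M hqM
  rw [← H82.redField_eq_fullC q M a b hab hqF.out A hA]
  have hV1 : gA q M f ∈ V1 A q M := by
    show ((gA q M f : FN (M * q)) : LaurentSeries Kbar) ∈ gaussRingV A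
    rw [coe_gA q M f u₀ hf]
    exact intSer_mem A _
  have e : ((red1 A q M ⟨gA q M f, hV1⟩ : F1 A q M) : LaurentSeries (kV A))
      = coeffMap (Int.castRingHom (kV A)) u₀ := by
    rw [coe_gaussResF'_eq]
    have e' : (⟨((gA q M f : FN (M * q)) : LaurentSeries Kbar), hV1⟩ :
        gaussRingV A) = ⟨intSer Kbar u₀, intSer_mem A _⟩ :=
      Subtype.ext (coe_gA q M f u₀ hf)
    exact (congrArg (gaussRedV A) e').trans (gaussRedV_intSer A _ _)
  rw [← e]
  exact SetLike.coe_mem _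

end GenFinal

/-! ### Regularity of `α f`, `β f` for the modular units and helper5's Hauptmoduln -/

section Units

variable (q M : ℕ) [NeZero M] [NeZero (M * q)] [NeZero q] [hqF : Fact q.Prime]
  (d : ℕ) [NeZero d] (hd : d ∣ M)

omit [NeZero M] [NeZero (M * q)] [NeZero q] hqF [NeZero d] in
theorem dvd_lvl (hd : d ∣ M) : d ∣ M * q := Dvd.dvd.mul_right hd q

omit [NeZero M] [NeZero (M * q)] [NeZero q] hqF [NeZero d] in
theorem mul_dvd_lvl (hd : d ∣ M) : d * q ∣ M * q := Nat.mul_dvd_mul_right hd q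

theorem alpha_unitF :
    heckeAlphaBar Kbar M q (unitF M d hd) = unitF (M * q) d (dvd_lvl q M d hd) := by
  apply Subtype.ext
  rw [coe_heckeAlphaBar, unitF_coe, unitF_coe]

theorem beta_unitF_mul :
    haveI : NeZero (d * q) := ⟨Nat.mul_ne_zero (NeZero.ne d) (NeZero.ne q)⟩
    heckeBetaBar Kbar M q (unitF M d hd) * unitF (M * q) q (q_dvd_lvl q M)
      = unitF (M * q) (d * q) (mul_dvd_lvl q M d hd) := by
  haveI : NeZero (d * q) := ⟨Nat.mul_ne_zero (NeZero.ne d) (NeZero.ne q)⟩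
  apply Subtype.ext
  show ((heckeBetaBar Kbar M q (unitF M d hd) : FN (M * q)) : LaurentSeries Kbar)
      * ((unitF (M * q) q (q_dvd_lvl q M) : FN (M * q)) : LaurentSeries Kbar)
    = ((unitF (M * q) (d * q) (mul_dvd_lvl q M d hd) : FN (M * q)) : LaurentSeries Kbar)
  rw [coe_heckeBetaBar, unitF_coe, unitF_coe, unitF_coe, coeffEmb_modularUnitSeries,
    coeffEmb_modularUnitSeries, coeffEmb_modularUnitSeries, map_mul, map_inv₀,
    qExpand_qExpand, qExpand_eq_of_eq (mul_comm q d)]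
  have h1 : qExpand Kbar q (deltaR Kbar) ≠ 0 := qExpand_deltaR_ne_zero (R := Kbar) q
  have h2 : qExpand Kbar (d * q) (deltaR Kbar) ≠ 0 :=
    qExpand_deltaR_ne_zero (R := Kbar) (d * q)
  field_simp

theorem ord_alpha_unitF (P : Place Kbar (FN (M * q)))
    (hP : 0 ≤ P.ord (Fermat.Agent.S24.jF (M * q))) :
    P.ord (heckeAlphaBar Kbar M q (unitF M d hd)) = 0 := by
  rw [alpha_unitF]
  exact ord_unitF (M * q) d _ P hP

theorem ord_beta_unitF (P : Place Kbar (FN (M * q)))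
    (hP : 0 ≤ P.ord (Fermat.Agent.S24.jF (M * q))) :
    P.ord (heckeBetaBar Kbar M q (unitF M d hd)) = 0 := by
  haveI : NeZero (d * q) := ⟨Nat.mul_ne_zero (NeZero.ne d) (NeZero.ne q)⟩
  have h1 := ord_unitF (M * q) q (q_dvd_lvl q M) P hP
  have h2 := ord_unitF (M * q) (d * q) (mul_dvd_lvl q M d hd) P hP
  have h0 : unitF (M * q) q (q_dvd_lvl q M) ≠ 0 := unitF_ne_zero (M * q) q _
  have hB0 : heckeBetaBar Kbar M q (unitF M d hd) ≠ 0 := by
    intro h
    have e := beta_unitF_mul q M d hd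
    rw [h, zero_mul] at e
    exact unitF_ne_zero (M * q) (d * q) _ e.symm
  have e := congrArg P.ord (beta_unitF_mul q M d hd)
  rw [P.ord_mul hB0 h0, h1, h2, add_zero] at e
  exact e

/-- If `f ^ n = unitF M d` (`n ≥ 1`) then `α f` has neither zeros nor poles off the cusps. -/
theorem ord_alpha_of_pow (f : FN M) (n : ℕ) (hn : n ≠ 0) (hfn : f ^ n = unitF M d hd)
    (P : Place Kbar (FN (M * q))) (hP : 0 ≤ P.ord (Fermat.Agent.S24.jF (M * q))) :
    P.ord (heckeAlphaBar Kbar M q f) = 0 := by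
  have h := ord_alpha_unitF q M d hd P hP
  rw [← hfn, map_pow, RED.H17.ord_pow] at h
  have hn' : (n : ℤ) ≠ 0 := by exact_mod_cast hn
  rcases mul_eq_zero.1 h with h | h
  · exact absurd h hn'
  · exact h

/-- If `f ^ n = unitF M d` (`n ≥ 1`) then `β f` has neither zeros nor poles off the cusps. -/
theorem ord_beta_of_pow (f : FN M) (n : ℕ) (hn : n ≠ 0) (hfn : f ^ n = unitF M d hd)
    (P : Place Kbar (FN (M * q))) (hP : 0 ≤ P.ord (Fermat.Agent.S24.jF (M * q))) :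
    P.ord (heckeBetaBar Kbar M q f) = 0 := by
  have h := ord_beta_unitF q M d hd P hP
  rw [← hfn, map_pow, RED.H17.ord_pow] at h
  have hn' : (n : ℤ) ≠ 0 := by exact_mod_cast hn
  rcases mul_eq_zero.1 h with h | h
  · exact absurd h hn'
  · exact h

end Units

/-! ### `hP` for roots of modular units -/

section RootUnit

variable (A : ValuationSubring Kbar) (q M : ℕ) [NeZero M] [NeZero (M * q)] [NeZero q]
  [hqF : Fact q.Prime] (hA : A.LiesOverPrime q) (hqM : ¬ q ∣ M) (ht : H91.TameAt M q)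
  (d : ℕ) [NeZero d] (hd : d ∣ M)
  (f : FN M) (u₀ : LaurentSeries ℤ) (hf : (f : LaurentSeries Kbar) = intSer Kbar u₀)
  (n : ℕ) (hn : n ≠ 0) (hfn : f ^ n = unitF M d hd)

include hA hqM ht hf hn hfn in
/-- **`hP` for an `n`-th root `f` of a modular unit `Δ(t)/Δ(t^d)`** with integral expansion. -/
theorem hP_root (E : IntermediateField (kV A) (LaurentSeries (kV A)))
    (hE : E = modularFunctionFieldFullC (kV A) M)
    (z : Place (kV A) ↥E) (jE u dE : ↥E)
    (hj : (jE : LaurentSeries (kV A)) = jqModC (kV A))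
    (hu : (u : LaurentSeries (kV A)) = coeffMap (Int.castRingHom (kV A)) u₀)
    (hdE : (dE : LaurentSeries (kV A)) = coeffMap (Int.castRingHom (kV A)) (kdel q u₀))
    (hz : 0 ≤ z.ord jE) : dE * (u ^ q ^ 2 - u) ∈ z.toValuationSubring :=
  hP_gen A q M hA hqM ht f u₀ hf
    (fun P hP => regAt_of_ord_nonneg (by
      rw [gA, ord_alpha_of_pow q M d hd f n hn hfn P hP]))
    (fun P hP => regAt_of_ord_nonneg (by
      rw [gB, ord_beta_of_pow q M d hd f n hn hfn P hP]))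
    E hE z jE u dE hj hu hdE hz

end RootUnit

/-! ### `q = 3` (`4 ∣ M`) and `q = 2` (`9 ∣ M`): helper5's Hauptmoduln -/

section Three

variable (A : ValuationSubring Kbar) (M : ℕ) [NeZero M] [NeZero (M * 3)]

/-- **`hP` for `q = 3`**, `ū = h̄` the reduction of the Hauptmodul of `X₀(4)`. -/
theorem hP_three (hA : A.LiesOverPrime 3) (h4 : 4 ∣ M) (h3 : ¬ 3 ∣ M)
    (E : IntermediateField (kV A) (LaurentSeries (kV A)))
    (hE : E = modularFunctionFieldFullC (kV A) M)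
    (z : Place (kV A) ↥E) (jE u d : ↥E)
    (hj : (jE : LaurentSeries (kV A)) = jqModC (kV A))
    (hu : (u : LaurentSeries (kV A)) = H5.q23H3 (kV A))
    (hd : (d : LaurentSeries (kV A)) = coeffMap (Int.castRingHom (kV A)) (kdel 3 H5.q23hZ4))
    (hz : 0 ≤ z.ord jE) : d * (u ^ 3 ^ 2 - u) ∈ z.toValuationSubring := by
  haveI : Fact (Nat.Prime 3) := ⟨Nat.prime_three⟩
  haveI : CharP (kV A) 3 := BAD.H82.charP_kV A Nat.prime_three hA
  have ht : H91.TameAt M 3 := Or.inr (Or.inl ⟨rfl, Dvd.dvd.trans (by norm_num) h4⟩)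
  exact hP_root A 3 M hA h3 ht 4 h4 (H5.q23uF3 M h4) H5.q23hZ4 (H5.q23uF3_coe M h4) 3
    (by norm_num) (H5.q23uF3_cube M h4) E hE z jE u d hj
    (hu.trans (H5.coeffMap_q23hZ4 (kV A)).symm) hd hz

/-- `δ̄ ∈ κ` for `q = 3`. -/
theorem dbar_mem_three (hA : A.LiesOverPrime 3) (h4 : 4 ∣ M) (h3 : ¬ 3 ∣ M) :
    coeffMap (Int.castRingHom (kV A)) (kdel 3 H5.q23hZ4)
      ∈ modularFunctionFieldFullC (kV A) M := by
  haveI : Fact (Nat.Prime 3) := ⟨Nat.prime_three⟩
  exact dbar_mem_gen A 3 M hA h3 (H5.q23uF3 M h4) H5.q23hZ4 (H5.q23uF3_coe M h4)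

/-- **POLE-INST for `q = 3`, unconditional**: at a supersingular place `z` (`ord_z j̄ > 0`),
`h̄ - 1` is a coordinate, `δ̄` has a simple pole and `- δ̄³` a pole of order `3`. -/
theorem pole_full_three (hA : A.LiesOverPrime 3) (h4 : 4 ∣ M) (h3 : ¬ 3 ∣ M)
    (E : IntermediateField (kV A) (LaurentSeries (kV A)))
    (hE : E = modularFunctionFieldFullC (kV A) M)
    (z : Place (kV A) ↥E) (jE u d y₂ : ↥E)
    (hj : (jE : LaurentSeries (kV A)) = jqModC (kV A))
    (hu : (u : LaurentSeries (kV A)) = H5.q23H3 (kV A))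
    (hd : (d : LaurentSeries (kV A)) = coeffMap (Int.castRingHom (kV A)) (kdel 3 H5.q23hZ4))
    (hy₂ : (y₂ : LaurentSeries (kV A))
      = - coeffMap (Int.castRingHom (kV A)) (kdel 3 H5.q23hZ4) ^ 3)
    (hz : 0 < z.ord jE) :
    z.ord (u - algebraMap (kV A) ↥E 1) = 1 ∧ (1 : kV A) ^ 3 ^ 2 = 1 ∧ z.ord d = -1 ∧
      z.ord y₂ = -((3 : ℕ) : ℤ) := by
  haveI : Fact (Nat.Prime 3) := ⟨Nat.prime_three⟩
  haveI : CharP (kV A) 3 := BAD.H82.charP_kV A Nat.prime_three hA
  have hP := hP_three A M hA h4 h3 E hE z jE u d hj hu hd hz.le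
  subst hE
  have hjE : jE = H5.q23jFull A M := Subtype.ext hj
  have huE : u = H5.q23hFull3 A M h4 :=
    Subtype.ext (hu.trans (H5.q23hFull3_coe A M hA h4).symm)
  rw [hjE] at hz
  rw [huE] at hP ⊢
  have hθ : thetaL (d : LaurentSeries (kV A)) =
      (H5.q23H3 (kV A)) ^ (3 - 1) * thetaL (H5.q23H3 (kV A)) - thetaL (H5.q23H3 (kV A)) ^ 3 := by
    rw [hd, ← H5.coeffMap_q23hZ4 (kV A)]
    exact thetaL_dbar_of_int H5.q23hZ4 (kdel 3 H5.q23hZ4) (kdel_spec 3 H5.q23hZ4)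
  obtain ⟨h1, h2⟩ := H5.q23_pole_coord_three A M hA h4 h3 z hz hθ rfl hP
  refine ⟨h1, one_pow _, h2, ?_⟩
  have e : y₂ = - d ^ 3 := by
    apply Subtype.ext
    rw [hy₂]
    show _ = -((d : LaurentSeries (kV A)) ^ 3)
    rw [hd]
  rw [e, ord_neg, RED.H17.ord_pow, h2]
  norm_num

end Three

section Two

variable (A : ValuationSubring Kbar) (M : ℕ) [NeZero M] [NeZero (M * 2)]

/-- **`hP` for `q = 2`**, `ū = h̄` the reduction of the Hauptmodul of `X₀(9)`. -/
theorem hP_two (hA : A.LiesOverPrime 2) (h9 : 9 ∣ M) (h2 : ¬ 2 ∣ M)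
    (E : IntermediateField (kV A) (LaurentSeries (kV A)))
    (hE : E = modularFunctionFieldFullC (kV A) M)
    (z : Place (kV A) ↥E) (jE u d : ↥E)
    (hj : (jE : LaurentSeries (kV A)) = jqModC (kV A))
    (hu : (u : LaurentSeries (kV A)) = H5.q23H2 (kV A))
    (hd : (d : LaurentSeries (kV A)) = coeffMap (Int.castRingHom (kV A)) (kdel 2 H5.q23hZ9))
    (hz : 0 ≤ z.ord jE) : d * (u ^ 2 ^ 2 - u) ∈ z.toValuationSubring := by
  haveI : Fact (Nat.Prime 2) := ⟨Nat.prime_two⟩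
  haveI : CharP (kV A) 2 := BAD.H82.charP_kV A Nat.prime_two hA
  have ht : H91.TameAt M 2 := Or.inr (Or.inr ⟨rfl, Dvd.dvd.trans (by norm_num) h9⟩)
  exact hP_root A 2 M hA h2 ht 9 h9 (H5.q23uF2 M h9) H5.q23hZ9 (H5.q23uF2_coe M h9) 8
    (by norm_num) (H5.q23uF2_pow M h9) E hE z jE u d hj
    (hu.trans (H5.coeffMap_q23hZ9 (kV A)).symm) hd hz

/-- `δ̄ ∈ κ` for `q = 2`. -/
theorem dbar_mem_two (hA : A.LiesOverPrime 2) (h9 : 9 ∣ M) (h2 : ¬ 2 ∣ M) :
    coeffMap (Int.castRingHom (kV A)) (kdel 2 H5.q23hZ9)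
      ∈ modularFunctionFieldFullC (kV A) M := by
  haveI : Fact (Nat.Prime 2) := ⟨Nat.prime_two⟩
  exact dbar_mem_gen A 2 M hA h2 (H5.q23uF2 M h9) H5.q23hZ9 (H5.q23uF2_coe M h9)

/-- **POLE-INST for `q = 2`, unconditional**: at a supersingular place `z` (`ord_z j̄ > 0`),
`h̄ - 1` is a coordinate, `δ̄` has a simple pole and `- δ̄²` a pole of order `2`. -/
theorem pole_full_two (hA : A.LiesOverPrime 2) (h9 : 9 ∣ M) (h2 : ¬ 2 ∣ M)
    (E : IntermediateField (kV A) (LaurentSeries (kV A)))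
    (hE : E = modularFunctionFieldFullC (kV A) M)
    (z : Place (kV A) ↥E) (jE u d y₂ : ↥E)
    (hj : (jE : LaurentSeries (kV A)) = jqModC (kV A))
    (hu : (u : LaurentSeries (kV A)) = H5.q23H2 (kV A))
    (hd : (d : LaurentSeries (kV A)) = coeffMap (Int.castRingHom (kV A)) (kdel 2 H5.q23hZ9))
    (hy₂ : (y₂ : LaurentSeries (kV A))
      = - coeffMap (Int.castRingHom (kV A)) (kdel 2 H5.q23hZ9) ^ 2)
    (hz : 0 < z.ord jE) :
    z.ord (u - algebraMap (kV A) ↥E 1) = 1 ∧ (1 : kV A) ^ 2 ^ 2 = 1 ∧ z.ord d = -1 ∧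
      z.ord y₂ = -((2 : ℕ) : ℤ) := by
  haveI : Fact (Nat.Prime 2) := ⟨Nat.prime_two⟩
  haveI : CharP (kV A) 2 := BAD.H82.charP_kV A Nat.prime_two hA
  have hP := hP_two A M hA h9 h2 E hE z jE u d hj hu hd hz.le
  subst hE
  have hjE : jE = H5.q23jFull A M := Subtype.ext hj
  have huE : u = H5.q23hFull2 A M h9 :=
    Subtype.ext (hu.trans (H5.q23hFull2_coe A M hA h9).symm)
  rw [hjE] at hz
  rw [huE] at hP ⊢
  have hθ : thetaL (d : LaurentSeries (kV A)) =
      (H5.q23H2 (kV A)) ^ (2 - 1) * thetaL (H5.q23H2 (kV A)) - thetaL (H5.q23H2 (kV A)) ^ 2 := by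
    rw [hd, ← H5.coeffMap_q23hZ9 (kV A)]
    exact thetaL_dbar_of_int H5.q23hZ9 (kdel 2 H5.q23hZ9) (kdel_spec 2 H5.q23hZ9)
  obtain ⟨h1, h2'⟩ := H5.q23_pole_coord_two A M hA h9 h2 z hz hθ rfl hP
  refine ⟨h1, one_pow _, h2', ?_⟩
  have e : y₂ = - d ^ 2 := by
    apply Subtype.ext
    rw [hy₂]
    show _ = -((d : LaurentSeries (kV A)) ^ 2)
    rw [hd]
  rw [e, ord_neg, RED.H17.ord_pow, h2']
  norm_num

end Two

end Fermat.Agent.S36.NU.H44
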