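import Fermat.Agent.BAD.H42_ApproxR
import Fermat.Agent.BAD.H42_NormRedR

/-!
# S36 / NU-B, leaf VALVEC-MOD (helper51): functions with prescribed valuation vectors

`D : H42.NRData E L Et ι κ` (finitely many pairwise incomparable valuation rings of rank one with
"uniformisers" `π i`).  By the approximation theorem (helper42) there is, for every `i₀`, a
function `t` with `v_{i₀} (t) = v_{i₀} (π i₀)` and `v_j (t) = 1` for `j ≠ i₀`.
-/

set_option autoImplicit false
set_option linter.style.haveILetI false
set_option linter.unusedSectionVars false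

noncomputable section

namespace Fermat.Agent.S36.NU.H51

open Fermat.Agent.BAD Fermat.Agent.BAD.H42

section Abs

variable {L : Type} [Field L] {ι : Type} [DecidableEq ι] [Fintype ι]

/-- **Functions with valuation vector `e_{i₀}`**, for finitely many pairwise incomparable
valuation rings of rank one. -/
theorem exists_unif_abs (V : ι → ValuationSubring L) (hA : ∀ i, IsArch (V i))
    (hinc : ∀ i j, i ≠ j → ¬ V i ≤ V j) (hnt : ∀ i, V i ≠ ⊤) (i₀ : ι) (π : L) (hπ0 : π ≠ 0)
    (hπ : (V i₀).valuation π < 1) :
    ∃ t : L, (V i₀).valuation t = (V i₀).valuation π ∧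
      ∀ j, j ≠ i₀ → (V j).valuation t = 1 := by
  classical
  -- the comparison elements
  set c : ι → L := fun l => if l = i₀ then π else 1 with hc
  have hc0 : ∀ l, c l ≠ 0 := by
    intro l
    rw [hc]
    by_cases h : l = i₀
    · simp [h, hπ0]
    · simp [h]
  -- the approximations of `1`
  have hE : ∀ j : ι, ∃ E : L, (V j).valuation (E - 1) < 1 ∧
      ∀ l ∈ Finset.univ.erase j, (V l).valuation E < (V l).valuation (c l) := fun j =>
    exists_one_small V hA hinc hnt j (Finset.univ.erase j) (Finset.notMem_erase j _) c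
      (fun l _ => hc0 l)
  choose E hE1 hE2 using hE
  have hEj : ∀ j, (V j).valuation (E j) = 1 := by
    intro j
    have : E j = 1 + (E j - 1) := by ring
    rw [this]
    exact Valuation.map_one_add_of_lt _ (hE1 j)
  -- the approximation of `π`
  have hπV : π ∈ V i₀ := (ValuationSubring.valuation_le_one_iff _ _).1 hπ.le
  obtain ⟨b, -, hb1, hb2⟩ := exists_approx_small V hA hinc hnt i₀ (Finset.univ.erase i₀)
    (Finset.notMem_erase i₀ _) (fun _ => (1 : L)) (fun _ _ => one_ne_zero) π hπV
  refine ⟨b + ∑ j ∈ Finset.univ.erase i₀, E j, ?_, ?_⟩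
  · -- at `i₀`
    have hvπ : (V i₀).valuation π ≠ 0 := (Valuation.ne_zero_iff _).2 hπ0
    have hs : (V i₀).valuation (∑ j ∈ Finset.univ.erase i₀, E j) < (V i₀).valuation π := by
      apply Valuation.map_sum_lt _ hvπ
      intro j hj
      have hne : i₀ ≠ j := fun h => (Finset.ne_of_mem_erase hj) h.symm
      have h1 := hE2 j i₀ (Finset.mem_erase.2 ⟨hne, Finset.mem_univ _⟩)
      rw [hc] at h1
      simpa using h1
    rw [← hb1] at hs
    rw [Valuation.map_add_eq_of_lt_left _ hs, hb1]
  · -- at `l ≠ i₀`
    intro l hl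
    have hmem : l ∈ Finset.univ.erase i₀ := Finset.mem_erase.2 ⟨hl, Finset.mem_univ _⟩
    rw [← Finset.add_sum_erase _ _ hmem, ← add_assoc, add_comm b, add_assoc]
    have hb : (V l).valuation b < 1 := by
      have := hb2 l hmem
      rwa [map_one] at this
    have hs : (V l).valuation (∑ j ∈ (Finset.univ.erase i₀).erase l, E j) < 1 := by
      apply Valuation.map_sum_lt _ one_ne_zero
      intro j hj
      have hjl : j ≠ l := Finset.ne_of_mem_erase hj
      have h1 := hE2 j l (Finset.mem_erase.2 ⟨fun h => hjl h.symm, Finset.mem_univ _⟩)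
      rw [hc] at h1
      simpa [hl] using h1
    have hsum : (V l).valuation (b + ∑ j ∈ (Finset.univ.erase i₀).erase l, E j) < 1 :=
      Valuation.map_add_lt _ hb hs
    rw [← hEj l] at hsum
    rw [Valuation.map_add_eq_of_lt_left _ hsum, hEj l]

end Abs

section NR

variable {E L Et : Type} [Field E] [Field L] [Field Et] [Algebra E L]
  {ι : Type} {κ : ι → Type} [∀ i, Field (κ i)] [∀ i, Algebra Et (κ i)]
  [DecidableEq ι] [Fintype ι]

/-- **Functions with valuation vector `e_{i₀}`** for an `NRData`. -/
theorem exists_unif (D : NRData E L Et ι κ) (i₀ : ι) :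
    ∃ t : L, (D.V i₀).valuation t = (D.V i₀).valuation (D.π i₀) ∧
      ∀ j, j ≠ i₀ → (D.V j).valuation t = 1 :=
  exists_unif_abs D.V D.hA D.hinc D.V_ne_top i₀ (D.π i₀) (D.π_ne_zero i₀) (D.hπ i₀)

end NR

end Fermat.Agent.S36.NU.H51
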