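import Fermat.Agent.BAD.H42_FundIneq

/-!
# S36 / NU-MOD, leaf NM-A1 (helper87): `NRData` for two valuations (abstract builder)

Two valuation rings `V₀`, `V₁` of `L₀` over the discrete valuation ring `VE` of `E₀`
(uniformiser `ϖ`), residue maps `r₀ : V₀ → C`, `r₁ : V₁ → K₁`, where `C` is the residue field
of `VE`; structure maps: the identity of `C` for `V₀`, a given one `C → K₁` for `V₁`;
ramification `e = (1, e₁)` with uniformisers `(ϖ, π₁)`.

* `kap2 C K₁ : Fin 2 → Type`, `nr2 : NRData E₀ L₀ C (Fin 2) (kap2 C K₁)`;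
* `fund2` : `1 + e₁ [K₁ : C] ≤ [L₀ : E₀]` (fundamental inequality);
* `finrank_K1_eq_one_two` : if `1 + e₁ = [L₀ : E₀]` then `[K₁ : C] = 1`; `surjective_K1_two`;
* `hdeg_two` : `∑ e f = [L₀ : E₀]` if `1 + e₁ = [L₀ : E₀]`.
-/

set_option autoImplicit false
set_option linter.style.haveILetI false
set_option linter.unusedSectionVars false

noncomputable section

namespace Fermat.Agent.S36.NU.H87

open Fermat.Agent.BAD

/-- The two residue fields. -/
def kap2 (C K₁ : Type) : Fin 2 → Type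
  | 0 => C
  | 1 => K₁

instance kap2Field (C K₁ : Type) [Field C] [Field K₁] : ∀ i, Field (kap2 C K₁ i)
  | 0 => inferInstanceAs (Field C)
  | 1 => inferInstanceAs (Field K₁)

/-- The two structure maps: the identity, a given one. -/
@[reducible] def kap2Alg (C K₁ : Type) [Field C] [Field K₁] (a₁ : Algebra C K₁) :
    ∀ i, Algebra C (kap2 C K₁ i)
  | 0 => Algebra.id C
  | 1 => a₁

section Builder

variable {E₀ L₀ C K₁ : Type} [Field E₀] [Field L₀] [Field C] [Field K₁] [Algebra E₀ L₀]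
  (a₁ : Algebra C K₁)
  (VE : ValuationSubring E₀) (redE : ↥VE →+* C)
  (V₀ V₁ : ValuationSubring L₀)
  (r₀ : ↥V₀ →+* C) (r₁ : ↥V₁ →+* K₁)
  (ϖ : E₀) (π₁ : L₀) (e₁ : ℕ)

/-- The two valuation rings. -/
def VTwo : Fin 2 → ValuationSubring L₀
  | 0 => V₀
  | 1 => V₁

/-- The two residue maps. -/
def redTwo : ∀ i : Fin 2, ↥(VTwo V₀ V₁ i) →+* kap2 C K₁ i
  | 0 => r₀
  | 1 => r₁

/-- The two uniformisers. -/
def piTwo : Fin 2 → L₀
  | 0 => algebraMap E₀ L₀ ϖ
  | 1 => π₁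

/-- The two ramification indices. -/
def eTwo : Fin 2 → ℕ
  | 0 => 1
  | 1 => e₁

theorem val_lt_one_of_red_eq_zero_two {V : ValuationSubring L₀} {R : Type} [Field R]
    (r : ↥V →+* R) (x : L₀) (hx : x ∈ V) (h0 : r ⟨x, hx⟩ = 0) : V.valuation x < 1 := by
  rw [lt_iff_le_and_ne]
  refine ⟨(ValuationSubring.valuation_le_one_iff V x).2 hx, fun h1 => ?_⟩
  have hu : IsUnit (⟨x, hx⟩ : ↥V) := (ValuationSubring.valuation_eq_one_iff V ⟨x, hx⟩).2 h1
  exact (hu.map r).ne_zero h0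

/-- **The `NRData` of two valuations.** -/
def nr2 (hϖ0 : ϖ ≠ 0) (hϖ : ϖ ∈ VE) (hϖr : redE ⟨ϖ, hϖ⟩ = 0)
    (hE : ∀ a : E₀, VE.valuation a < 1 → VE.valuation a ≤ VE.valuation ϖ)
    (hVE₀ : ∀ a : E₀, a ∈ VE → algebraMap E₀ L₀ a ∈ V₀)
    (hVE₁ : ∀ a : E₀, a ∈ VE → algebraMap E₀ L₀ a ∈ V₁)
    (hkerE : ∀ a : ↥VE, ¬ IsUnit a → redE a = 0)
    (hs₀ : Function.Surjective r₀) (hs₁ : Function.Surjective r₁)
    (hk₀ : ∀ a : ↥V₀, ¬ IsUnit a → r₀ a = 0) (hk₁ : ∀ a : ↥V₁, ¬ IsUnit a → r₁ a = 0)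
    (hc₀ : ∀ (a : ↥VE) (ha : algebraMap E₀ L₀ (a : E₀) ∈ V₀), r₀ ⟨_, ha⟩ = redE a)
    (hc₁ : ∀ (a : ↥VE) (ha : algebraMap E₀ L₀ (a : E₀) ∈ V₁),
      r₁ ⟨_, ha⟩ = @algebraMap C K₁ _ _ a₁ (redE a))
    (h01 : ¬ V₀ ≤ V₁) (h10 : ¬ V₁ ≤ V₀)
    (hA₀ : H42.IsArch V₀) (hA₁ : H42.IsArch V₁)
    (hπ₁ : V₁.valuation π₁ < 1) (he₁ : 0 < e₁)
    (hram₁ : V₁.valuation (algebraMap E₀ L₀ ϖ) = V₁.valuation π₁ ^ e₁) :
    @H42.NRData E₀ L₀ C _ _ _ _ (Fin 2) (kap2 C K₁) _ (kap2Alg C K₁ a₁) :=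
  letI := kap2Alg C K₁ a₁
  { VE := VE
    V := VTwo V₀ V₁
    redE := redE
    red := redTwo V₀ V₁ r₀ r₁
    ϖ := ϖ
    π := piTwo ϖ π₁
    e := eTwo e₁
    hϖ0 := hϖ0
    hE := hE
    hVE := fun i => by
      fin_cases i
      · exact hVE₀
      · exact hVE₁
    hkerE := hkerE
    hsurj := fun i => by
      fin_cases i
      · exact hs₀
      · exact hs₁
    hker := fun i => by
      fin_cases i
      · exact hk₀
      · exact hk₁
    hcompat := fun i => by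
      fin_cases i
      · exact hc₀
      · exact hc₁
    hinc := fun i j hij => by
      fin_cases i <;> fin_cases j
      · exact absurd rfl hij
      · exact h01
      · exact h10
      · exact absurd rfl hij
    hA := fun i => by
      fin_cases i
      · exact hA₀
      · exact hA₁
    hπ := fun i => by
      fin_cases i
      · show V₀.valuation (algebraMap E₀ L₀ ϖ) < 1
        exact val_lt_one_of_red_eq_zero_two r₀ _ (hVE₀ ϖ hϖ) (by
          rw [hc₀ ⟨ϖ, hϖ⟩ (hVE₀ ϖ hϖ), hϖr])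
      · exact hπ₁
    he := fun i => by
      fin_cases i
      · exact Nat.one_pos
      · exact he₁
    hram := fun i => by
      fin_cases i
      · exact (pow_one _).symm
      · exact hram₁ }

end Builder

section Consequences

variable {E₀ L₀ C K₁ : Type} [Field E₀] [Field L₀] [Field C] [Field K₁] [Algebra E₀ L₀]
  [Module.Finite E₀ L₀]
  (a₁ : Algebra C K₁)
  (D : @H42.NRData E₀ L₀ C _ _ _ _ (Fin 2) (kap2 C K₁) _ (kap2Alg C K₁ a₁))

/-- **The fundamental inequality for two valuations.** -/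
theorem fund2 (e₀ e₁ : ℕ)
    (he : letI := kap2Alg C K₁ a₁; D.e 0 = e₀ ∧ D.e 1 = e₁) :
    e₀ * 1 + e₁ * @Module.finrank C K₁ _ _ a₁.toModule ≤ Module.finrank E₀ L₀ := by
  letI := kap2Alg C K₁ a₁
  have h := D.sum_le_finrank
  rw [Fin.sum_univ_two, he.1, he.2] at h
  have h0 : @Module.finrank C (kap2 C K₁ 0) _ _ (kap2Alg C K₁ a₁ 0).toModule = 1 :=
    Module.finrank_self C
  rw [h0] at h
  exact h

include D in
/-- The residue field `K₁` is finite over `C`. -/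
theorem finite_K1_two : @Module.Finite C K₁ _ _ a₁.toModule := by
  letI := kap2Alg C K₁ a₁
  exact D.finite_res 1

include D in
/-- **`[K₁ : C] = 1`** if the degrees add up. -/
theorem finrank_K1_eq_one_two (n e₁ : ℕ) (hn : Module.finrank E₀ L₀ = n)
    (he : letI := kap2Alg C K₁ a₁; D.e 0 = 1 ∧ D.e 1 = e₁) (hpos : 0 < e₁)
    (hsum : 1 + e₁ = n) :
    @Module.finrank C K₁ _ _ a₁.toModule = 1 := by
  have h := fund2 a₁ D 1 e₁ he
  rw [hn, ← hsum] at h
  have hpos' : 0 < @Module.finrank C K₁ _ _ a₁.toModule := by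
    letI := a₁
    haveI : Module.Finite C K₁ := finite_K1_two a₁ D
    exact Module.finrank_pos
  have h1 : e₁ * @Module.finrank C K₁ _ _ a₁.toModule ≤ e₁ * 1 := by omega
  have h2 := Nat.le_of_mul_le_mul_left h1 hpos
  omega

include D in
/-- The structure map `C → K₁` is surjective if the degrees add up. -/
theorem surjective_K1_two (n e₁ : ℕ) (hn : Module.finrank E₀ L₀ = n)
    (he : letI := kap2Alg C K₁ a₁; D.e 0 = 1 ∧ D.e 1 = e₁) (hpos : 0 < e₁)
    (hsum : 1 + e₁ = n) :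
    Function.Surjective (@algebraMap C K₁ _ _ a₁) := by
  letI := a₁
  have h1 : Module.finrank C K₁ = 1 := finrank_K1_eq_one_two a₁ D n e₁ hn he hpos hsum
  haveI : Module.Finite C K₁ := finite_K1_two a₁ D
  intro y
  have hb : (⊥ : Subalgebra C K₁) = ⊤ := Subalgebra.bot_eq_top_of_finrank_eq_one h1
  have hy : y ∈ (⊥ : Subalgebra C K₁) := by rw [hb]; trivial
  exact Algebra.mem_bot.mp hy

include D in
/-- **`∑ e f = [L₀ : E₀]`** if `1 + e₁ = [L₀ : E₀]`. -/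
theorem hdeg_two (n e₁ : ℕ) (hn : Module.finrank E₀ L₀ = n)
    (he : letI := kap2Alg C K₁ a₁; D.e 0 = 1 ∧ D.e 1 = e₁) (hpos : 0 < e₁)
    (hsum : 1 + e₁ = n) :
    letI := kap2Alg C K₁ a₁
    ∑ i, D.e i * Module.finrank C (kap2 C K₁ i) = Module.finrank E₀ L₀ := by
  letI := kap2Alg C K₁ a₁
  have h1 : @Module.finrank C K₁ _ _ a₁.toModule = 1 :=
    finrank_K1_eq_one_two a₁ D n e₁ hn he hpos hsum
  have h0 : @Module.finrank C (kap2 C K₁ 0) _ _ (kap2Alg C K₁ a₁ 0).toModule = 1 :=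
    Module.finrank_self C
  have h1' : @Module.finrank C (kap2 C K₁ 1) _ _ (kap2Alg C K₁ a₁ 1).toModule = 1 := h1
  rw [Fin.sum_univ_two, he.1, he.2, h0, h1', hn, ← hsum, mul_one, mul_one]

end Consequences

end Fermat.Agent.S36.NU.H87
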