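import Fermat.Agent.S36.NU.H88_Restrict2

/-!
# S36, NU-B1 (helper88): `W_{q²} ∘ α = β ∘ w_q`, restriction of `V₀₂`, and the table as `comap`s

`α, β : F_{M q} → F_{M q²}`, `w = w_q` of level `M q`, `V' = V₂₀ A (M q) = BAD.H88.V1 A q M`,
`V'₂ = BAD.H88.V2 A q M k B`.
* `wSq_alpha : W_{q²} (α x) = β (w x)`, `wSq_beta : W_{q²} (β x) = α (w x)`;
* `alpha_mem_V02_iff`, `beta_mem_V02_iff`, `red02_alpha`, `red02_beta`;
* `V20_comap_alpha = V'`, `V20_comap_beta = V'`, `V11_comap_alpha = V'`, `V11_comap_beta = V'₂`,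
  `V02_comap_alpha = V'₂`, `V02_comap_beta = V'₂`.
-/

set_option autoImplicit false
set_option synthInstance.maxHeartbeats 400000
set_option maxHeartbeats 1000000
set_option linter.unusedSectionVars false
set_option linter.style.haveILetI false

noncomputable section

namespace Fermat.Agent.S36.NU.H88

open Fermat.Agent.S24 Fermat.Agent.BAD.H88 ModularCurve
open Fermat.Agent.S28 Fermat.Agent.S28.H73 Fermat.Agent.RED.H73 Fermat.Agent.RED.H17
open Fermat.Agent.RED.H95 Fermat.Agent.RED.H10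

section Restrict3

variable (A : ValuationSubring Kbar)
variable (q M : ℕ) (B k : ℤ) (hB : B * M + k * q = 1) (hq : q.Prime) [NeZero M] [NeZero q]

include hB hq

/-- `W_{q²}` of level `M q²` (level written `M * q * q`). -/
abbrev wS : FN (M * q * q) ≃ₐ[Kbar] FN (M * q * q) := wSq (M * q * q) q M B k (lvl q M) hB

/-- `W_{q²} ∘ α = β ∘ w_q`. -/
theorem wS_comp_alpha :
    (wS q M B k hB).toAlgHom.comp (heckeAlphaBar Kbar (M * q) q)
      = (heckeBetaBar Kbar (M * q) q).comp (wL q M B k hB hq).toAlgHom := by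
  apply algHom_ext_of_adjoin _ (adjoin_jdF (M * q))
  rintro x ⟨D, hD0, hD, rfl⟩
  have hq0 : 0 < q := hq.pos
  haveI : NeZero (D * q) := ⟨(Nat.mul_pos (Nat.pos_of_ne_zero (NeZero.ne D)) hq0).ne'⟩
  rw [AlgHom.comp_apply, AlgHom.comp_apply, alpha_jdF]
  rcases dvd_cases q M k B (hab_of_hB q M B k hB) hq D hD with ⟨e, he⟩ | ⟨d, e, hd, he⟩
  · have h1 : (wL q M B k hB hq).toAlgHom (jdF (M * q) D hD)
        = jdF (M * q) (D * q) (Nat.mul_dvd_mul_right ⟨e, he⟩ q) :=
      wqHom_jdF q M k B (hab_of_hB q M B k hB) hq D ⟨e, he⟩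
    haveI : NeZero (D * q * q) :=
      ⟨(Nat.mul_pos (Nat.mul_pos (Nat.pos_of_ne_zero (NeZero.ne D)) hq0) hq0).ne'⟩
    rw [h1, beta_jdF]
    exact wQ_jdF' (M * q * q) (q * q) M _ _ (lvl q M) _ D (D * q * q) D e 1 (q * q)
      (mul_one D).symm (mul_assoc D q q) he (one_mul _).symm _ _
  · subst hd
    have hdpos : 0 < d := by
      rcases Nat.eq_zero_or_pos d with h | h
      · exfalso; apply NeZero.ne (d * q); rw [h, zero_mul]
      · exact h
    haveI : NeZero d := ⟨hdpos.ne'⟩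
    have h1 : (wL q M B k hB hq).toAlgHom (jdF (M * q) (d * q) hD)
        = jdF (M * q) d (Dvd.dvd.mul_right ⟨e, he⟩ q) :=
      wqHom_jdF_mul q M k B (hab_of_hB q M B k hB) hq d ⟨e, he⟩
    rw [h1, beta_jdF]
    exact wQ_jdF' (M * q * q) (q * q) M _ _ (lvl q M) _ (d * q) (d * q) d e q q
      rfl rfl he rfl _ _

/-- `W_{q²} ∘ β = α ∘ w_q`. -/
theorem wS_comp_beta :
    (wS q M B k hB).toAlgHom.comp (heckeBetaBar Kbar (M * q) q)
      = (heckeAlphaBar Kbar (M * q) q).comp (wL q M B k hB hq).toAlgHom := by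
  apply algHom_ext_of_adjoin _ (adjoin_jdF (M * q))
  rintro x ⟨D, hD0, hD, rfl⟩
  have hq0 : 0 < q := hq.pos
  haveI : NeZero (D * q) := ⟨(Nat.mul_pos (Nat.pos_of_ne_zero (NeZero.ne D)) hq0).ne'⟩
  rw [AlgHom.comp_apply, AlgHom.comp_apply, beta_jdF]
  rcases dvd_cases q M k B (hab_of_hB q M B k hB) hq D hD with ⟨e, he⟩ | ⟨d, e, hd, he⟩
  · have h1 : (wL q M B k hB hq).toAlgHom (jdF (M * q) D hD)
        = jdF (M * q) (D * q) (Nat.mul_dvd_mul_right ⟨e, he⟩ q) :=
      wqHom_jdF q M k B (hab_of_hB q M B k hB) hq D ⟨e, he⟩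
    rw [h1, alpha_jdF]
    exact wQ_jdF' (M * q * q) (q * q) M _ _ (lvl q M) _ (D * q) (D * q) D e q q
      rfl rfl he rfl _ _
  · subst hd
    have hdpos : 0 < d := by
      rcases Nat.eq_zero_or_pos d with h | h
      · exfalso; apply NeZero.ne (d * q); rw [h, zero_mul]
      · exact h
    haveI : NeZero d := ⟨hdpos.ne'⟩
    have h1 : (wL q M B k hB hq).toAlgHom (jdF (M * q) (d * q) hD)
        = jdF (M * q) d (Dvd.dvd.mul_right ⟨e, he⟩ q) :=
      wqHom_jdF_mul q M k B (hab_of_hB q M B k hB) hq d ⟨e, he⟩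
    rw [h1, alpha_jdF]
    exact wQ_jdF' (M * q * q) (q * q) M _ _ (lvl q M) _ (d * q * q) d d e (q * q) 1
      (mul_assoc d q q) (mul_one d).symm he (mul_one _).symm _ _

theorem wS_alpha (x : FN (M * q)) :
    wS q M B k hB (heckeAlphaBar Kbar (M * q) q x)
      = heckeBetaBar Kbar (M * q) q (wL q M B k hB hq x) :=
  congrArg (fun f : FN (M * q) →ₐ[Kbar] FN (M * q * q) => f x) (wS_comp_alpha q M B k hB hq)

theorem wS_beta (x : FN (M * q)) :
    wS q M B k hB (heckeBetaBar Kbar (M * q) q x)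
      = heckeAlphaBar Kbar (M * q) q (wL q M B k hB hq x) :=
  congrArg (fun f : FN (M * q) →ₐ[Kbar] FN (M * q * q) => f x) (wS_comp_beta q M B k hB hq)

/-! ### `V₀₂` -/

/-- `α x ∈ V₀₂ ↔ w x ∈ V'`. -/
theorem alpha_mem_V02_iff (x : FN (M * q)) :
    heckeAlphaBar Kbar (M * q) q x ∈ V02 A (M * q * q) q M B k (lvl q M) hB
      ↔ wL q M B k hB hq x ∈ V20 A (M * q) := by
  rw [mem_V02_iff]
  have e : wSq (M * q * q) q M B k (lvl q M) hB (heckeAlphaBar Kbar (M * q) q x)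
      = heckeBetaBar Kbar (M * q) q (wL q M B k hB hq x) := wS_alpha q M B k hB hq x
  rw [e]
  exact beta_mem_V20_iff A q M _

/-- `β x ∈ V₀₂ ↔ w x ∈ V'`. -/
theorem beta_mem_V02_iff (x : FN (M * q)) :
    heckeBetaBar Kbar (M * q) q x ∈ V02 A (M * q * q) q M B k (lvl q M) hB
      ↔ wL q M B k hB hq x ∈ V20 A (M * q) := by
  rw [mem_V02_iff]
  have e : wSq (M * q * q) q M B k (lvl q M) hB (heckeBetaBar Kbar (M * q) q x)
      = heckeAlphaBar Kbar (M * q) q (wL q M B k hB hq x) := wS_beta q M B k hB hq x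
  rw [e]
  exact alpha_mem_V20_iff A q M _

/-- `red₀₂ (α x) = (red' (w x))(t^q)`. -/
theorem red02_alpha (x : FN (M * q)) (h : wL q M B k hB hq x ∈ V20 A (M * q))
    (h' : heckeAlphaBar Kbar (M * q) q x ∈ V02 A (M * q * q) q M B k (lvl q M) hB) :
    ((red02 A (M * q * q) q M B k (lvl q M) hB ⟨_, h'⟩ : F20 A (M * q * q)) :
        LaurentSeries (kV A))
      = qExpand (kV A) q
          ((red20 A (M * q) ⟨wL q M B k hB hq x, h⟩ : F20 A (M * q)) : LaurentSeries (kV A)) := by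
  have hb : heckeBetaBar Kbar (M * q) q (wL q M B k hB hq x) ∈ V20 A (M * q * q) :=
    (beta_mem_V20_iff A q M _).mpr h
  have e : red02 A (M * q * q) q M B k (lvl q M) hB ⟨_, h'⟩
      = red20 A (M * q * q) ⟨heckeBetaBar Kbar (M * q) q (wL q M B k hB hq x), hb⟩ := by
    rw [red02_mk]
    congr 1
    exact Subtype.ext (wS_alpha q M B k hB hq x)
  rw [e]
  exact red20_beta A q M _ h hb

/-- `red₀₂ (β x) = red' (w x)`. -/
theorem red02_beta (x : FN (M * q)) (h : wL q M B k hB hq x ∈ V20 A (M * q))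
    (h' : heckeBetaBar Kbar (M * q) q x ∈ V02 A (M * q * q) q M B k (lvl q M) hB) :
    ((red02 A (M * q * q) q M B k (lvl q M) hB ⟨_, h'⟩ : F20 A (M * q * q)) :
        LaurentSeries (kV A))
      = ((red20 A (M * q) ⟨wL q M B k hB hq x, h⟩ : F20 A (M * q)) : LaurentSeries (kV A)) := by
  have ha : heckeAlphaBar Kbar (M * q) q (wL q M B k hB hq x) ∈ V20 A (M * q * q) :=
    (alpha_mem_V20_iff A q M _).mpr h
  have e : red02 A (M * q * q) q M B k (lvl q M) hB ⟨_, h'⟩
      = red20 A (M * q * q) ⟨heckeAlphaBar Kbar (M * q) q (wL q M B k hB hq x), ha⟩ := by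
    rw [red02_mk]
    congr 1
    exact Subtype.ext (wS_beta q M B k hB hq x)
  rw [e]
  exact red20_alpha A q M _ h ha

/-! ### The table as `comap`s -/

omit hB hq in
/-- **`V₂₀ ∩ α F_{M q} = V'`.** -/
theorem V20_comap_alpha :
    (V20 A (M * q * q)).comap (heckeAlphaBar Kbar (M * q) q).toRingHom = V1 A q M := by
  apply SetLike.ext
  intro x
  rw [ValuationSubring.mem_comap]
  exact alpha_mem_V20_iff A q M x

omit hB hq in
/-- **`V₂₀ ∩ β F_{M q} = V'`.** -/
theorem V20_comap_beta :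
    (V20 A (M * q * q)).comap (heckeBetaBar Kbar (M * q) q).toRingHom = V1 A q M := by
  apply SetLike.ext
  intro x
  rw [ValuationSubring.mem_comap]
  exact beta_mem_V20_iff A q M x

/-- **`V₁₁ ∩ α F_{M q} = V'`.** -/
theorem V11_comap_alpha :
    (V11 A (M * q * q) q M B k (lvl q M) hB hq).comap (heckeAlphaBar Kbar (M * q) q).toRingHom
      = V1 A q M := by
  apply SetLike.ext
  intro x
  rw [ValuationSubring.mem_comap]
  exact alpha_mem_V11_iff A q M B k hB hq x

/-- **`V₁₁ ∩ β F_{M q} = V'₂`.** -/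
theorem V11_comap_beta :
    (V11 A (M * q * q) q M B k (lvl q M) hB hq).comap (heckeBetaBar Kbar (M * q) q).toRingHom
      = V2 A q M k B (hab_of_hB q M B k hB) hq := by
  apply SetLike.ext
  intro x
  rw [ValuationSubring.mem_comap]
  exact beta_mem_V11_iff A q M B k hB hq x

/-- **`V₀₂ ∩ α F_{M q} = V'₂`.** -/
theorem V02_comap_alpha :
    (V02 A (M * q * q) q M B k (lvl q M) hB).comap (heckeAlphaBar Kbar (M * q) q).toRingHom
      = V2 A q M k B (hab_of_hB q M B k hB) hq := by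
  apply SetLike.ext
  intro x
  rw [ValuationSubring.mem_comap]
  exact alpha_mem_V02_iff A q M B k hB hq x

/-- **`V₀₂ ∩ β F_{M q} = V'₂`.** -/
theorem V02_comap_beta :
    (V02 A (M * q * q) q M B k (lvl q M) hB).comap (heckeBetaBar Kbar (M * q) q).toRingHom
      = V2 A q M k B (hab_of_hB q M B k hB) hq := by
  apply SetLike.ext
  intro x
  rw [ValuationSubring.mem_comap]
  exact beta_mem_V02_iff A q M B k hB hq x

end Restrict3

end Fermat.Agent.S36.NU.H88
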