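import Fermat.Agent.S36.NU.H23_Mod2
import Fermat.Agent.S36.NU.H87_NR2
import Fermat.Agent.S36.NU.H88_Restrict3

/-!
# S36 / NU-MOD, leaf NM-A1 (helper87): the `NRData` of `L0 (M q²) / L0 (M q)` above `V₁`

Level `N = M q²`, `q ∤ M`, base level `M q`; `E₀ = L0 A (M q) ⊂ L₀ = L0 A (M q²)` (the inclusion
`α`, algebra `H23.algL0 A (hleA q M)`), of degree `q`.  Above the Gauss valuation `V₁` of level
`M q` (`VE0 A (M q)`, uniformiser `q`, residue field `C' = FM A (M q)`) lie `V₂₀` (`e = 1`) and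
`V₁₁` (`e = q - 1`, uniformiser `j(t^{q²}) - j(t)`), both with residue field `C'`.

* `rEA_surjective` : the residue map of `VE0 A (M q)` is onto `FM A (M q)`;
* `r20A`, `r11A : V..o → FM A (M q)` the residue maps (`coe_r20A = s20`, `coe_r11A = s11`);
* `s11_memA` : the reductions at `V₁₁` of the inertia-fixed functions lie in the residue field
  of level `M q` (by the fundamental inequality);
* `nrA1 : NRData (L0 (M q)) (L0 (M q²)) C' (Fin 2) (kap2 C' C')`, `nrA1_hdeg`;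
* `normA1` : `red (N h) = red₂₀ h * red₁₁ h ^ (q - 1)` for `h ∈ V₂₀ ∩ V₁₁` inertia-fixed.
-/

set_option autoImplicit false
set_option synthInstance.maxHeartbeats 400000
set_option maxHeartbeats 1000000
set_option linter.style.haveILetI false
set_option linter.unusedSectionVars false

noncomputable section

open ModularCurve AlgebraicCurve
open Fermat.Agent.S24 Fermat.Agent.BAD.H88 Fermat.Agent.S28 Fermat.Agent.S28.H73
open Fermat.Agent.RED.H73 Fermat.Agent.RED.H17 Fermat.Agent.S36.NU.H88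
open Fermat.Agent.S36.NU.H23

namespace Fermat.Agent.S36.NU.H87

section NrA1

variable (A : ValuationSubring Kbar) (q M : ℕ) (B k : ℤ) (hB : B * M + k * q = 1) (hq : q.Prime)
  [NeZero M] [NeZero q] [NeZero (M * q * q)] (hqM : ¬ q ∣ M) (hA : A.LiesOverPrime q)

/-- `F_{M q} ⊆ F_{M q²}`. -/
theorem hleA : modularFunctionFieldBar (M * q) ≤ modularFunctionFieldBar (M * q * q) :=
  Fermat.Agent.S36.NU.H82.FM_le_of_dvd (M * q * q) (M * q) ⟨q, rfl⟩

/-- The inclusion is the degeneracy map `α`. -/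
theorem inclusion_eq_alphaA (x : FN (M * q)) :
    IntermediateField.inclusion (hleA q M) x = heckeAlphaBar Kbar (M * q) q x := by
  apply Subtype.ext
  rw [IntermediateField.coe_inclusion, coe_heckeAlphaBar]

theorem coe_inclL0_alphaA (a : ↥(L0 A (M * q))) :
    ((inclL0 A (hleA q M) a : ↥(L0 A (M * q * q))) : FN (M * q * q))
      = heckeAlphaBar Kbar (M * q) q (a : FN (M * q)) := by
  rw [coe_inclL0, inclusion_eq_alphaA]

theorem coe_inclL0_seriesA (a : ↥(L0 A (M * q))) :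
    (((inclL0 A (hleA q M) a : ↥(L0 A (M * q * q))) : FN (M * q * q)) : LaurentSeries Kbar)
      = ((a : FN (M * q)) : LaurentSeries Kbar) := by
  rw [coe_inclL0, IntermediateField.coe_inclusion]

/-! ### The residue field of level `M q` -/

include hq hqM hA in
/-- (D) at level `M q`. -/
theorem FMq_eq :
    redField A (modularFunctionFieldBar (M * q)) (hScM A (M * q))
      = modularFunctionFieldFullC (kV A) M :=
  Fermat.Agent.S36.NU.H82.redField_level_pow q 1 M (M * q) hq hqM (by ring) A hA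

include hq hqM hA in
/-- The residue map of `VE0 A (M q)` is onto the residue field of level `M q`. -/
theorem rEA_surjective : Function.Surjective (rE A (M * q)) := by
  intro y
  have hy : (y : LaurentSeries (kV A)) ∈ modularFunctionFieldFullC (kV A) M := by
    rw [← FMq_eq A q M hq hqM hA]; exact y.2
  obtain ⟨x, hx, hxV, e⟩ := Fermat.Agent.S36.NU.H42.surj_L0 A q M hq hqM hA _ hy
  have h1 : heckeAlphaBar Kbar M q x ∈ L0 A (M * q) :=
    Fermat.Agent.S36.NU.H82.alpha_mem_L0 A M q x hx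
  have h2 : heckeAlphaBar Kbar M q x ∈ VM A (M * q) := (alpha_mem_V1_iff A q M x).2 hxV
  refine ⟨⟨⟨_, h1⟩, h2⟩, ?_⟩
  apply Subtype.ext
  rw [← e]
  exact red1_alpha A q M x hxV h2

/-! ### The maps `VE0 → V..o` -/

theorem hVE20A (a : ↥(L0 A (M * q))) (ha : a ∈ VE0 A (M * q)) :
    inclL0 A (hleA q M) a ∈ V20o A q M := by
  rw [mem_V20o_iff, coe_inclL0_seriesA]
  exact ha

include hB hq in
theorem hVE11A (a : ↥(L0 A (M * q))) (ha : a ∈ VE0 A (M * q)) :
    inclL0 A (hleA q M) a ∈ V11o A q M B k hB hq := by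
  show ((inclL0 A (hleA q M) a : ↥(L0 A (M * q * q))) : FN (M * q * q))
    ∈ V11 A (M * q * q) q M B k (lvl q M) hB hq
  rw [coe_inclL0_alphaA]
  exact (alpha_mem_V11_iff A q M B k hB hq (a : FN (M * q))).2 ha

/-! ### Compatibilities, in `k((t))` -/

theorem s20_inclA (a : ↥(VE0 A (M * q)))
    (h : inclL0 A (hleA q M) (a : ↥(L0 A (M * q))) ∈ V20o A q M) :
    s20 A q M ⟨_, h⟩ = sE A (M * q) a := by
  rw [s20_mk]
  show _ = gaussRedV A ⟨(((a : ↥(L0 A (M * q))) : FN (M * q)) : LaurentSeries Kbar), a.2⟩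
  congr 1

include hB hq in
theorem s11_inclA (a : ↥(VE0 A (M * q)))
    (h : inclL0 A (hleA q M) (a : ↥(L0 A (M * q))) ∈ V11o A q M B k hB hq) :
    s11 A q M B k hB hq ⟨_, h⟩ = sE A (M * q) a := by
  rw [s11_mk]
  show _ = gaussRedV A ⟨(((a : ↥(L0 A (M * q))) : FN (M * q)) : LaurentSeries Kbar), a.2⟩
  congr 1
  apply Subtype.ext
  show cM q M B k hB hq ((inclL0 A (hleA q M) (a : ↥(L0 A (M * q))) : ↥(L0 A (M * q * q))) :
    FN (M * q * q)) = _
  rw [coe_inclL0_alphaA, cM_alpha]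

/-! ### The residue maps into the residue field of level `M q` -/

include hq hqM hA in
theorem s20_memA (x : ↥(V20o A q M)) :
    s20 A q M x ∈ redField A (modularFunctionFieldBar (M * q)) (hScM A (M * q)) := by
  rw [FMq_eq A q M hq hqM hA]
  exact s20_mem A q M hq hqM hA x

/-- The residue map of `V20o`, into the residue field of level `M q`. -/
def r20A : ↥(V20o A q M) →+* FM A (M * q) where
  toFun x := ⟨s20 A q M x, s20_memA A q M hq hqM hA x⟩
  map_one' := Subtype.ext (map_one (s20 A q M))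
  map_mul' x y := Subtype.ext (map_mul (s20 A q M) x y)
  map_zero' := Subtype.ext (map_zero (s20 A q M))
  map_add' x y := Subtype.ext (map_add (s20 A q M) x y)

theorem coe_r20A (x : ↥(V20o A q M)) :
    ((r20A A q M hq hqM hA x : FM A (M * q)) : LaurentSeries (kV A)) = s20 A q M x := rfl

theorem r20A_eq_zero_of_not_isUnit (x : ↥(V20o A q M)) (hx : ¬ IsUnit x) :
    r20A A q M hq hqM hA x = 0 := by
  apply Subtype.ext
  rw [coe_r20A, s20_eq_zero_of_not_isUnit A q M x hx]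
  rfl

theorem r20A_incl (a : ↥(VE0 A (M * q)))
    (h : inclL0 A (hleA q M) (a : ↥(L0 A (M * q))) ∈ V20o A q M) :
    r20A A q M hq hqM hA ⟨_, h⟩ = rE A (M * q) a := by
  apply Subtype.ext
  rw [coe_r20A, coe_rE]
  exact s20_inclA A q M a h

include hq hqM hA in
theorem r20A_surjective : Function.Surjective (r20A A q M hq hqM hA) := by
  intro y
  obtain ⟨a, rfl⟩ := rEA_surjective A q M hq hqM hA y
  exact ⟨⟨_, hVE20A A q M a a.2⟩, r20A_incl A q M hq hqM hA a _⟩

/-! ### The residue field of `V11o`, as a subfield of `k((t))` -/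

/-- The image of the residue map of `V11o`: the residue field of `V₁₁ ∩ L₀`. -/
def K11 : Subfield (LaurentSeries (kV A)) where
  carrier := Set.range (s11 A q M B k hB hq)
  mul_mem' := by
    rintro _ _ ⟨x, rfl⟩ ⟨y, rfl⟩
    exact ⟨x * y, map_mul _ x y⟩
  one_mem' := ⟨1, map_one _⟩
  add_mem' := by
    rintro _ _ ⟨x, rfl⟩ ⟨y, rfl⟩
    exact ⟨x + y, map_add _ x y⟩
  zero_mem' := ⟨0, map_zero _⟩
  neg_mem' := by
    rintro _ ⟨x, rfl⟩
    exact ⟨-x, map_neg _ x⟩
  inv_mem' := by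
    rintro _ ⟨x, rfl⟩
    by_cases hx : IsUnit x
    · obtain ⟨u, rfl⟩ := hx
      refine ⟨((u⁻¹ : (↥(V11o A q M B k hB hq))ˣ) : ↥(V11o A q M B k hB hq)), ?_⟩
      have h1 : s11 A q M B k hB hq (u : ↥(V11o A q M B k hB hq))
          * s11 A q M B k hB hq ((u⁻¹ : (↥(V11o A q M B k hB hq))ˣ) :
            ↥(V11o A q M B k hB hq)) = 1 := by
        rw [← map_mul, Units.mul_inv, map_one]
      exact (inv_eq_of_mul_eq_one_right h1).symm
    · refine ⟨0, ?_⟩
      rw [s11_eq_zero_of_not_isUnit A q M B k hB hq x hx, map_zero, inv_zero]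

theorem mem_K11_iff (y : LaurentSeries (kV A)) :
    y ∈ K11 A q M B k hB hq ↔ ∃ x, s11 A q M B k hB hq x = y := Iff.rfl

/-- The residue map of `V11o`, onto its residue field. -/
def r11K : ↥(V11o A q M B k hB hq) →+* ↥(K11 A q M B k hB hq) :=
  (s11 A q M B k hB hq).codRestrict (K11 A q M B k hB hq) (fun x => ⟨x, rfl⟩)

theorem coe_r11K (x : ↥(V11o A q M B k hB hq)) :
    ((r11K A q M B k hB hq x : ↥(K11 A q M B k hB hq)) : LaurentSeries (kV A))
      = s11 A q M B k hB hq x := rfl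

theorem r11K_surjective : Function.Surjective (r11K A q M B k hB hq) := by
  rintro ⟨_, x, rfl⟩
  exact ⟨x, rfl⟩

theorem r11K_eq_zero_of_not_isUnit (x : ↥(V11o A q M B k hB hq)) (hx : ¬ IsUnit x) :
    r11K A q M B k hB hq x = 0 := by
  apply Subtype.ext
  rw [coe_r11K, s11_eq_zero_of_not_isUnit A q M B k hB hq x hx]
  rfl

include hq hqM hA in
/-- The residue field of level `M q` is contained in the residue field of `V11o`. -/
theorem FMq_le_K11 (c : FM A (M * q)) :
    (c : LaurentSeries (kV A)) ∈ K11 A q M B k hB hq := by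
  obtain ⟨a, rfl⟩ := rEA_surjective A q M hq hqM hA c
  exact ⟨⟨_, hVE11A A q M B k hB hq a a.2⟩, s11_inclA A q M B k hB hq a _⟩

/-- The structure map `C' → K₁₁`. -/
def incK11 : FM A (M * q) →+* ↥(K11 A q M B k hB hq) :=
  ((IntermediateField.val _).toRingHom).codRestrict (K11 A q M B k hB hq)
    (fun c => FMq_le_K11 A q M B k hB hq hqM hA c)

theorem coe_incK11 (c : FM A (M * q)) :
    ((incK11 A q M B k hB hq hqM hA c : ↥(K11 A q M B k hB hq)) : LaurentSeries (kV A))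
      = (c : LaurentSeries (kV A)) := rfl

/-- `K₁₁` as an algebra over the residue field of level `M q`. -/
@[reducible] def algK11 : Algebra (FM A (M * q)) ↥(K11 A q M B k hB hq) :=
  (incK11 A q M B k hB hq hqM hA).toAlgebra

theorem r11K_incl (a : ↥(VE0 A (M * q)))
    (h : inclL0 A (hleA q M) (a : ↥(L0 A (M * q))) ∈ V11o A q M B k hB hq) :
    r11K A q M B k hB hq ⟨_, h⟩
      = @algebraMap (FM A (M * q)) ↥(K11 A q M B k hB hq) _ _ (algK11 A q M B k hB hq hqM hA)
          (rE A (M * q) a) := by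
  apply Subtype.ext
  rw [coe_r11K]
  exact s11_inclA A q M B k hB hq a h

/-! ### The uniformisers -/

theorem coe_inclL0_piEA :
    ((inclL0 A (hleA q M) (piE A q (M * q)) : ↥(L0 A (M * q * q))) : FN (M * q * q))
      = ((q : ℕ) : FN (M * q * q)) := by
  rw [coe_inclL0, coe_piE, map_natCast]

include hA in
/-- **Ramification of `V11o`** over level `M q`: `v₁₁(q) = v₁₁(π₁) ^ (q - 1)`. -/
theorem hram11A :
    (V11o A q M B k hB hq).valuation (inclL0 A (hleA q M) (piE A q (M * q)))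
      = (V11o A q M B k hB hq).valuation (pi11 A q M) ^ (q - 1) := by
  rw [← map_pow, V11o, valuation_resV0_eq_iff, coe_inclL0_piEA]
  have h := ram11_j A q M B k hB hq hA (sq_dvd_lvl q M)
  rw [← map_pow] at h
  exact h.symm

include hq in
theorem q_sub_one_pos : 0 < q - 1 := Nat.sub_pos_of_lt hq.one_lt

/-! ### Degrees -/

theorem finite_FA :
    @Module.Finite (FN (M * q)) (FN (M * q * q)) _ _ (algF (hleA q M)).toModule :=
  (Fermat.Agent.RED.H51.stmt_FFB_finite _ _ _ (Fermat.Agent.RED.H95.stmt_HKA_isFF (M * q))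
    (Fermat.Agent.RED.H95.stmt_HKA_isFF (M * q * q))
    (IntermediateField.inclusion (hleA q M))).2

include hq in
theorem finrank_FA :
    @Module.finrank (FN (M * q)) (FN (M * q * q)) _ _ (algF (hleA q M)).toModule = q :=
  (Fermat.Agent.Lib.HeckeComm.relfinrank_FN (M * q) (M * q * q) ⟨q, rfl⟩).symm.trans
    (Fermat.Agent.S36.NU.H82.relfinrank_NU_top q M hq)

theorem finite_L0_A :
    @Module.Finite ↥(L0 A (M * q)) ↥(L0 A (M * q * q)) _ _ (algL0 A (hleA q M)).toModule :=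
  finite_L0 A (hleA q M) (finite_FA q M)

include hq in
/-- **`[L0 (M q²) : L0 (M q)] = q`**. -/
theorem finrank_L0_A :
    @Module.finrank ↥(L0 A (M * q)) ↥(L0 A (M * q * q)) _ _ (algL0 A (hleA q M)).toModule = q :=
  (finrank_L0 A (hleA q M) (finite_FA q M)).trans (finrank_FA q M hq)

/-! ### The preliminary `NRData`, with the residue field `K₁₁` of `V11o` -/

/-- The `NRData` of `L0 (M q²) / L0 (M q)` above `V₁`, with the residue field `K₁₁`. -/
def nrA1pre :
    @Fermat.Agent.BAD.H42.NRData ↥(L0 A (M * q)) ↥(L0 A (M * q * q)) (FM A (M * q)) _ _ _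
      (algL0 A (hleA q M)) (Fin 2) (kap2 (FM A (M * q)) ↥(K11 A q M B k hB hq)) _
      (kap2Alg (FM A (M * q)) ↥(K11 A q M B k hB hq) (algK11 A q M B k hB hq hqM hA)) :=
  letI := algL0 A (hleA q M)
  nr2 (algK11 A q M B k hB hq hqM hA) (VE0 A (M * q)) (rE A (M * q))
    (V20o A q M) (V11o A q M B k hB hq) (r20A A q M hq hqM hA) (r11K A q M B k hB hq)
    (piE A q (M * q)) (pi11 A q M) (q - 1)
    (piE_ne_zero A q (M * q) hq) (piE_mem A q (M * q) hA) (rE_piE A q (M * q) hA)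
    (hE_mod A q (M * q) hq hA)
    (fun a ha => hVE20A A q M a ha)
    (fun a ha => hVE11A A q M B k hB hq a ha)
    (rE_eq_zero_of_not_isUnit A (M * q))
    (r20A_surjective A q M hq hqM hA) (r11K_surjective A q M B k hB hq)
    (r20A_eq_zero_of_not_isUnit A q M hq hqM hA)
    (r11K_eq_zero_of_not_isUnit A q M B k hB hq)
    (fun a ha => r20A_incl A q M hq hqM hA a ha)
    (fun a ha => r11K_incl A q M B k hB hq hqM hA a ha)
    (Fermat.Agent.S36.NU.H82.not_le_20_11 A q M B k hB hq hA)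
    (Fermat.Agent.S36.NU.H82.not_le_11_20 A q M B k hB hq hA)
    (isArch_resV0 _ _ (Fermat.Agent.S36.NU.H82.isArch_V20 A hq hA (M * q * q)))
    (isArch_resV0 _ _
      (Fermat.Agent.S36.NU.H82.isArch_V11 A hq hA (M * q * q) M B k (lvl q M) hB))
    (val_pi11_lt_one A q M B k hB hq hA) (q_sub_one_pos q hq)
    (hram11A A q M B k hB hq hA)

include hqM hA in
/-- **RES11 over level `M q`**: the reductions at `V₁₁` of the inertia-fixed functions lie in
the residue field of level `M q` (fundamental inequality: `1 + (q - 1) f ≤ q`). -/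
theorem s11_memA (x : ↥(V11o A q M B k hB hq)) :
    s11 A q M B k hB hq x ∈ redField A (modularFunctionFieldBar (M * q)) (hScM A (M * q)) := by
  letI := algL0 A (hleA q M)
  haveI : Module.Finite ↥(L0 A (M * q)) ↥(L0 A (M * q * q)) := finite_L0_A A q M
  have hs := surjective_K1_two (algK11 A q M B k hB hq hqM hA)
    (nrA1pre A q M B k hB hq hqM hA) q (q - 1) (finrank_L0_A A q M hq) ⟨rfl, rfl⟩
    (q_sub_one_pos q hq) (by have := hq.one_lt; omega)
  obtain ⟨c, hc⟩ := hs (r11K A q M B k hB hq x)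
  have h1 : (c : LaurentSeries (kV A)) = s11 A q M B k hB hq x :=
    congrArg (fun z : ↥(K11 A q M B k hB hq) => (z : LaurentSeries (kV A))) hc
  rw [← h1]
  exact c.2

/-- The residue map of `V11o`, into the residue field of level `M q`. -/
def r11A : ↥(V11o A q M B k hB hq) →+* FM A (M * q) where
  toFun x := ⟨s11 A q M B k hB hq x, s11_memA A q M B k hB hq hqM hA x⟩
  map_one' := Subtype.ext (map_one (s11 A q M B k hB hq))
  map_mul' x y := Subtype.ext (map_mul (s11 A q M B k hB hq) x y)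
  map_zero' := Subtype.ext (map_zero (s11 A q M B k hB hq))
  map_add' x y := Subtype.ext (map_add (s11 A q M B k hB hq) x y)

theorem coe_r11A (x : ↥(V11o A q M B k hB hq)) :
    ((r11A A q M B k hB hq hqM hA x : FM A (M * q)) : LaurentSeries (kV A))
      = s11 A q M B k hB hq x := rfl

theorem r11A_eq_zero_of_not_isUnit (x : ↥(V11o A q M B k hB hq)) (hx : ¬ IsUnit x) :
    r11A A q M B k hB hq hqM hA x = 0 := by
  apply Subtype.ext
  rw [coe_r11A, s11_eq_zero_of_not_isUnit A q M B k hB hq x hx]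
  rfl

theorem r11A_incl (a : ↥(VE0 A (M * q)))
    (h : inclL0 A (hleA q M) (a : ↥(L0 A (M * q))) ∈ V11o A q M B k hB hq) :
    r11A A q M B k hB hq hqM hA ⟨_, h⟩ = rE A (M * q) a := by
  apply Subtype.ext
  rw [coe_r11A, coe_rE]
  exact s11_inclA A q M B k hB hq a h

theorem r11A_surjective : Function.Surjective (r11A A q M B k hB hq hqM hA) := by
  intro y
  obtain ⟨a, rfl⟩ := rEA_surjective A q M hq hqM hA y
  exact ⟨⟨_, hVE11A A q M B k hB hq a a.2⟩, r11A_incl A q M B k hB hq hqM hA a _⟩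

/-! ### The `NRData` of `L0 (M q²) / L0 (M q)` above `V₁` -/

/-- The structure maps of the residue fields: the identity, twice. -/
@[reducible] def algA : ∀ i, Algebra (FM A (M * q)) (kap2 (FM A (M * q)) (FM A (M * q)) i) :=
  kap2Alg (FM A (M * q)) (FM A (M * q)) (Algebra.id (FM A (M * q)))

/-- **NM-A1**: the `NRData` of `L0 (M q²) / L0 (M q)` (along `α`) above the Gauss valuation
`V₁` of level `M q`: `VE = VE0 A (M q)`, `ϖ = q`; `V = (V20o, V11o)`, `red = (r20A, r11A)`,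
`e = (1, q - 1)`, `π = (q, j(t^{q²}) - j(t))`; all residue fields are `FM A (M q)`. -/
def nrA1 :
    @Fermat.Agent.BAD.H42.NRData ↥(L0 A (M * q)) ↥(L0 A (M * q * q)) (FM A (M * q)) _ _ _
      (algL0 A (hleA q M)) (Fin 2) (kap2 (FM A (M * q)) (FM A (M * q))) _ (algA A q M) :=
  letI := algL0 A (hleA q M)
  nr2 (Algebra.id (FM A (M * q))) (VE0 A (M * q)) (rE A (M * q))
    (V20o A q M) (V11o A q M B k hB hq) (r20A A q M hq hqM hA) (r11A A q M B k hB hq hqM hA)
    (piE A q (M * q)) (pi11 A q M) (q - 1)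
    (piE_ne_zero A q (M * q) hq) (piE_mem A q (M * q) hA) (rE_piE A q (M * q) hA)
    (hE_mod A q (M * q) hq hA)
    (fun a ha => hVE20A A q M a ha)
    (fun a ha => hVE11A A q M B k hB hq a ha)
    (rE_eq_zero_of_not_isUnit A (M * q))
    (r20A_surjective A q M hq hqM hA) (r11A_surjective A q M B k hB hq hqM hA)
    (r20A_eq_zero_of_not_isUnit A q M hq hqM hA)
    (r11A_eq_zero_of_not_isUnit A q M B k hB hq hqM hA)
    (fun a ha => r20A_incl A q M hq hqM hA a ha)
    (fun a ha => r11A_incl A q M B k hB hq hqM hA a ha)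
    (Fermat.Agent.S36.NU.H82.not_le_20_11 A q M B k hB hq hA)
    (Fermat.Agent.S36.NU.H82.not_le_11_20 A q M B k hB hq hA)
    (isArch_resV0 _ _ (Fermat.Agent.S36.NU.H82.isArch_V20 A hq hA (M * q * q)))
    (isArch_resV0 _ _
      (Fermat.Agent.S36.NU.H82.isArch_V11 A hq hA (M * q * q) M B k (lvl q M) hB))
    (val_pi11_lt_one A q M B k hB hq hA) (q_sub_one_pos q hq)
    (hram11A A q M B k hB hq hA)

/-! The fields, by `rfl`. -/

theorem nrA1_VE :
    @Fermat.Agent.BAD.H42.NRData.VE ↥(L0 A (M * q)) ↥(L0 A (M * q * q)) (FM A (M * q)) _ _ _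
      (algL0 A (hleA q M)) (Fin 2) (kap2 (FM A (M * q)) (FM A (M * q))) _ (algA A q M)
      (nrA1 A q M B k hB hq hqM hA) = VE0 A (M * q) := rfl

theorem nrA1_redE :
    @Fermat.Agent.BAD.H42.NRData.redE ↥(L0 A (M * q)) ↥(L0 A (M * q * q)) (FM A (M * q)) _ _ _
      (algL0 A (hleA q M)) (Fin 2) (kap2 (FM A (M * q)) (FM A (M * q))) _ (algA A q M)
      (nrA1 A q M B k hB hq hqM hA) = rE A (M * q) := rfl

theorem nrA1_ϖ :
    @Fermat.Agent.BAD.H42.NRData.ϖ ↥(L0 A (M * q)) ↥(L0 A (M * q * q)) (FM A (M * q)) _ _ _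
      (algL0 A (hleA q M)) (Fin 2) (kap2 (FM A (M * q)) (FM A (M * q))) _ (algA A q M)
      (nrA1 A q M B k hB hq hqM hA) = piE A q (M * q) := rfl

theorem nrA1_V0 :
    @Fermat.Agent.BAD.H42.NRData.V ↥(L0 A (M * q)) ↥(L0 A (M * q * q)) (FM A (M * q)) _ _ _
      (algL0 A (hleA q M)) (Fin 2) (kap2 (FM A (M * q)) (FM A (M * q))) _ (algA A q M)
      (nrA1 A q M B k hB hq hqM hA) 0 = V20o A q M := rfl

theorem nrA1_V1 :
    @Fermat.Agent.BAD.H42.NRData.V ↥(L0 A (M * q)) ↥(L0 A (M * q * q)) (FM A (M * q)) _ _ _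
      (algL0 A (hleA q M)) (Fin 2) (kap2 (FM A (M * q)) (FM A (M * q))) _ (algA A q M)
      (nrA1 A q M B k hB hq hqM hA) 1 = V11o A q M B k hB hq := rfl

theorem nrA1_red0 :
    @Fermat.Agent.BAD.H42.NRData.red ↥(L0 A (M * q)) ↥(L0 A (M * q * q)) (FM A (M * q)) _ _ _
      (algL0 A (hleA q M)) (Fin 2) (kap2 (FM A (M * q)) (FM A (M * q))) _ (algA A q M)
      (nrA1 A q M B k hB hq hqM hA) 0 = r20A A q M hq hqM hA := rfl

theorem nrA1_red1 :
    @Fermat.Agent.BAD.H42.NRData.red ↥(L0 A (M * q)) ↥(L0 A (M * q * q)) (FM A (M * q)) _ _ _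
      (algL0 A (hleA q M)) (Fin 2) (kap2 (FM A (M * q)) (FM A (M * q))) _ (algA A q M)
      (nrA1 A q M B k hB hq hqM hA) 1 = r11A A q M B k hB hq hqM hA := rfl

theorem nrA1_e0 :
    @Fermat.Agent.BAD.H42.NRData.e ↥(L0 A (M * q)) ↥(L0 A (M * q * q)) (FM A (M * q)) _ _ _
      (algL0 A (hleA q M)) (Fin 2) (kap2 (FM A (M * q)) (FM A (M * q))) _ (algA A q M)
      (nrA1 A q M B k hB hq hqM hA) 0 = 1 := rfl

theorem nrA1_e1 :
    @Fermat.Agent.BAD.H42.NRData.e ↥(L0 A (M * q)) ↥(L0 A (M * q * q)) (FM A (M * q)) _ _ _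
      (algL0 A (hleA q M)) (Fin 2) (kap2 (FM A (M * q)) (FM A (M * q))) _ (algA A q M)
      (nrA1 A q M B k hB hq hqM hA) 1 = q - 1 := rfl

theorem nrA1_π0 :
    @Fermat.Agent.BAD.H42.NRData.π ↥(L0 A (M * q)) ↥(L0 A (M * q * q)) (FM A (M * q)) _ _ _
      (algL0 A (hleA q M)) (Fin 2) (kap2 (FM A (M * q)) (FM A (M * q))) _ (algA A q M)
      (nrA1 A q M B k hB hq hqM hA) 0 = inclL0 A (hleA q M) (piE A q (M * q)) := rfl

theorem nrA1_π1 :
    @Fermat.Agent.BAD.H42.NRData.π ↥(L0 A (M * q)) ↥(L0 A (M * q * q)) (FM A (M * q)) _ _ _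
      (algL0 A (hleA q M)) (Fin 2) (kap2 (FM A (M * q)) (FM A (M * q))) _ (algA A q M)
      (nrA1 A q M B k hB hq hqM hA) 1 = pi11 A q M := rfl

/-- **`∑ e f = [L0 (M q²) : L0 (M q)] = q`**. -/
theorem nrA1_hdeg :
    ∑ i, @Fermat.Agent.BAD.H42.NRData.e ↥(L0 A (M * q)) ↥(L0 A (M * q * q)) (FM A (M * q)) _ _ _
          (algL0 A (hleA q M)) (Fin 2) (kap2 (FM A (M * q)) (FM A (M * q))) _ (algA A q M)
          (nrA1 A q M B k hB hq hqM hA) i
        * @Module.finrank (FM A (M * q)) (kap2 (FM A (M * q)) (FM A (M * q)) i) _ _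
            (algA A q M i).toModule
      = @Module.finrank ↥(L0 A (M * q)) ↥(L0 A (M * q * q)) _ _
          (algL0 A (hleA q M)).toModule := by
  letI := algL0 A (hleA q M)
  haveI : Module.Finite ↥(L0 A (M * q)) ↥(L0 A (M * q * q)) := finite_L0_A A q M
  exact hdeg_two (Algebra.id (FM A (M * q))) (nrA1 A q M B k hB hq hqM hA) q (q - 1)
    (finrank_L0_A A q M hq) ⟨rfl, rfl⟩ (q_sub_one_pos q hq) (by have := hq.one_lt; omega)

/-! ### NORM-RED along `α` above `V₁` -/

include hqM hA in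
/-- **NORM-RED along `α` above `V₁`**, in `k((t))`: for an inertia-fixed function `h` of level
`M q²` in `V₂₀ ∩ V₁₁`, the norm `N h` to `L0 (M q)` is Gauss-integral and
`red (N h) = red₂₀ h * red₁₁ h ^ (q - 1)`. -/
theorem normA1 (h : ↥(L0 A (M * q * q))) (h20 : h ∈ V20o A q M)
    (h11 : h ∈ V11o A q M B k hB hq) :
    ∃ δ : ↥(VE0 A (M * q)),
      @Algebra.norm ↥(L0 A (M * q)) ↥(L0 A (M * q * q)) _ _ (algL0 A (hleA q M)) h
        = (δ : ↥(L0 A (M * q))) ∧
      sE A (M * q) δ = s20 A q M ⟨h, h20⟩ * s11 A q M B k hB hq ⟨h, h11⟩ ^ (q - 1) := by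
  letI := algL0 A (hleA q M)
  letI := algA A q M
  haveI : Module.Finite ↥(L0 A (M * q)) ↥(L0 A (M * q * q)) := finite_L0_A A q M
  haveI : ∀ i, Module.Finite (FM A (M * q)) (kap2 (FM A (M * q)) (FM A (M * q)) i) :=
    fun i => (nrA1 A q M B k hB hq hqM hA).finite_res i
  have hh : ∀ i, h ∈ (nrA1 A q M B k hB hq hqM hA).V i := by
    intro i
    fin_cases i
    · exact h20
    · exact h11
  obtain ⟨δ, h1, h2⟩ := (nrA1 A q M B k hB hq hqM hA).normRed
    (nrA1_hdeg A q M B k hB hq hqM hA) h hh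
  refine ⟨δ, h1, ?_⟩
  rw [Fin.prod_univ_two] at h2
  have e0 : Algebra.norm (FM A (M * q))
      ((nrA1 A q M B k hB hq hqM hA).red 0 ⟨h, hh 0⟩) = r20A A q M hq hqM hA ⟨h, h20⟩ :=
    congrArg (fun f : FM A (M * q) →* FM A (M * q) => f (r20A A q M hq hqM hA ⟨h, h20⟩))
      (Algebra.norm_self (FM A (M * q)))
  have e1 : Algebra.norm (FM A (M * q))
      ((nrA1 A q M B k hB hq hqM hA).red 1 ⟨h, hh 1⟩)
        = r11A A q M B k hB hq hqM hA ⟨h, h11⟩ :=
    congrArg (fun f : FM A (M * q) →* FM A (M * q) =>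
      f (r11A A q M B k hB hq hqM hA ⟨h, h11⟩)) (Algebra.norm_self (FM A (M * q)))
  rw [e0, e1] at h2
  have h3 : rE A (M * q) δ
      = r20A A q M hq hqM hA ⟨h, h20⟩ ^ 1 * r11A A q M B k hB hq hqM hA ⟨h, h11⟩ ^ (q - 1) := h2
  rw [pow_one] at h3
  have h4 := congrArg (fun z : FM A (M * q) => (z : LaurentSeries (kV A))) h3
  exact h4

include hqM hA in
/-- **NORM-RED along `α` above `V₁`**, for the norm of `F_{M q²} / F_{M q}`. -/
theorem normA1_F (h : ↥(L0 A (M * q * q))) (h20 : h ∈ V20o A q M)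
    (h11 : h ∈ V11o A q M B k hB hq) :
    ∃ hm : @Algebra.norm (FN (M * q)) (FN (M * q * q)) _ _ (algF (hleA q M))
        (h : FN (M * q * q)) ∈ VM A (M * q),
      ((redM A (M * q) ⟨_, hm⟩ : FM A (M * q)) : LaurentSeries (kV A))
        = s20 A q M ⟨h, h20⟩ * s11 A q M B k hB hq ⟨h, h11⟩ ^ (q - 1) := by
  obtain ⟨δ, h1, h2⟩ := normA1 A q M B k hB hq hqM hA h h20 h11
  have e : @Algebra.norm (FN (M * q)) (FN (M * q * q)) _ _ (algF (hleA q M))
      (h : FN (M * q * q)) = ((δ : ↥(L0 A (M * q))) : FN (M * q)) := by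
    rw [norm_L0 A (hleA q M) (finite_FA q M) h, h1]
  have hm : @Algebra.norm (FN (M * q)) (FN (M * q * q)) _ _ (algF (hleA q M))
      (h : FN (M * q * q)) ∈ VM A (M * q) := by
    rw [e]; exact δ.2
  refine ⟨hm, ?_⟩
  rw [← h2]
  show gaussRedV A ⟨_, hm⟩ = gaussRedV A ⟨_, δ.2⟩
  congr 1
  exact Subtype.ext (congrArg (fun z : FN (M * q) => (z : LaurentSeries Kbar)) e)

end NrA1

end Fermat.Agent.S36.NU.H87
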