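import Fermat.Agent.S36.NU.H51_ValVecMod
import Fermat.Agent.S36.NU.H87_NrA1

/-!
# S36 / NU-B, leaf VALVEC-MOD (helper51): NORM-VAL along `α` above `V₁`

`Nα` := the norm of `L0 A (M q²) / L0 A (M q)` (inclusion `= α`).

* `coe_NαA` : `Nα` is the norm along `α` (bridge);
* `val1_NαA` : `v₁ (Nα x) = v₁ (q) ^ (k₂₀ + k₁₁)` (helper79's NORM-VAL on helper87's `nrA1`).
-/

set_option autoImplicit false
set_option synthInstance.maxHeartbeats 400000
set_option maxHeartbeats 1000000
set_option linter.style.haveILetI false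
set_option linter.unusedSectionVars false

noncomputable section

open ModularCurve AlgebraicCurve
open Fermat.Agent.S24 Fermat.Agent.BAD.H88 Fermat.Agent.S28 Fermat.Agent.S28.H73
open Fermat.Agent.RED.H73 Fermat.Agent.RED.H17 Fermat.Agent.S36.NU.H88
open Fermat.Agent.S36.NU.H23 Fermat.Agent.Lib.HeckeComm Fermat.Agent.BAD
open Fermat.Agent.S36.NU.H82

namespace Fermat.Agent.S36.NU.H51

section A1

variable (A : ValuationSubring Kbar) (q M : ℕ) (B k : ℤ) (hB : B * M + k * q = 1) (hq : q.Prime)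
  [NeZero M] [NeZero q] [NeZero (M * q)] [NeZero (M * q * q)]
  (hqM : ¬ q ∣ M) (hA : A.LiesOverPrime q)

/-- The norm does not depend on the name of the algebra structure. -/
theorem norm_congr_alg {E L : Type*} [Field E] [Field L] (a₁ a₂ : Algebra E L) (h : a₁ = a₂)
    (x : L) : @Algebra.norm E L _ _ a₁ x = @Algebra.norm E L _ _ a₂ x := by
  subst h; rfl

/-- The norm of `L0 A (M q²) / L0 A (M q)` along the inclusion `= α`. -/
def NαA : ↥(L0 A (M * q * q)) → ↥(L0 A (M * q)) := fun x =>
  @Algebra.norm ↥(L0 A (M * q)) ↥(L0 A (M * q * q)) _ _ (algL0 A (H87.hleA q M)) x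

theorem algF_eq_alpha :
    algF (H87.hleA q M) = (heckeAlphaBar Kbar (M * q) q).toRingHom.toAlgebra := by
  have h : IntermediateField.inclusion (H87.hleA q M) = heckeAlphaBar Kbar (M * q) q :=
    AlgHom.ext (H87.inclusion_eq_alphaA q M)
  show (IntermediateField.inclusion (H87.hleA q M)).toRingHom.toAlgebra = _
  rw [h]

/-- **Bridge**: `Nα` is the norm along `α`. -/
theorem coe_NαA (x : ↥(L0 A (M * q * q))) :
    ((NαA A q M x : ↥(L0 A (M * q))) : FN (M * q))
      = normAlongHom (heckeAlphaBar Kbar (M * q) q).toRingHom (x : FN (M * q * q)) := by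
  have h := norm_L0 A (H87.hleA q M) (H87.finite_FA q M) x
  have h2 := norm_congr_alg _ _ (algF_eq_alpha q M) (x : FN (M * q * q))
  exact h.symm.trans h2

theorem inclL0_piEA_eq :
    inclL0 A (H87.hleA q M) (piE A q (M * q)) = ((q : ℕ) : ↥(L0 A (M * q * q))) := by
  apply Subtype.ext
  rw [H87.coe_inclL0_piEA]
  rfl

include hqM hA in
/-- **NORM-VAL along `α` above `V₁`**. -/
theorem val1_NαA (x : ↥(L0 A (M * q * q))) (k₁ k₂ : ℤ)
    (h20 : (V20o A q M).valuation x
        = (V20o A q M).valuation ((q : ℕ) : ↥(L0 A (M * q * q))) ^ k₁)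
    (h11 : (V11o A q M B k hB hq).valuation x
        = (V11o A q M B k hB hq).valuation (pi11 A q M) ^ k₂) :
    (V1o A q M).valuation (NαA A q M x)
      = (V1o A q M).valuation ((q : ℕ) : ↥(L0 A (M * q))) ^ (k₁ + k₂) := by
  letI := algL0 A (H87.hleA q M)
  letI := H87.algA A q M
  haveI : Module.Finite ↥(L0 A (M * q)) ↥(L0 A (M * q * q)) := H87.finite_L0_A A q M
  have hk : ∀ i, ((H87.nrA1 A q M B k hB hq hqM hA).V i).valuation x
      = ((H87.nrA1 A q M B k hB hq hqM hA).V i).valuation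
          ((H87.nrA1 A q M B k hB hq hqM hA).π i) ^ (![k₁, k₂] i) := by
    intro i
    fin_cases i
    · show (V20o A q M).valuation x
        = (V20o A q M).valuation (inclL0 A (H87.hleA q M) (piE A q (M * q))) ^ k₁
      rw [inclL0_piEA_eq]
      exact h20
    · exact h11
  have h := H79.nv_val_norm (H87.nrA1 A q M B k hB hq hqM hA)
    (H87.nrA1_hdeg A q M B k hB hq hqM hA) x ![k₁, k₂] hk
  rw [Fin.sum_univ_two] at h
  have h0 : @Module.finrank (FM A (M * q)) (H87.kap2 (FM A (M * q)) (FM A (M * q)) 0) _ _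
      (H87.algA A q M 0).toModule = 1 := Module.finrank_self (FM A (M * q))
  have h1 : @Module.finrank (FM A (M * q)) (H87.kap2 (FM A (M * q)) (FM A (M * q)) 1) _ _
      (H87.algA A q M 1).toModule = 1 := Module.finrank_self (FM A (M * q))
  rw [h0, h1] at h
  simp only [Nat.cast_one, one_mul, Matrix.cons_val_zero, Matrix.cons_val_one] at h
  exact h

end A1

end Fermat.Agent.S36.NU.H51
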