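import Fermat.Agent.S36.NU.H51_ValVecSym
import Fermat.Agent.S36.NU.H51_ValVecA1

/-!
# S36 / NU-B, leaf VALVEC-MOD (helper51): NORM-VAL along `β` by symmetry

* `normAlong_beta_eq` : `N_β x = w_q (N_α (W_{q²} x))`; `normAlong_alpha_eq` : the converse;
* `NβA` : the norm of `L0 A (M q²) / L0 A (M q)` along `β`, `coe_NβA` (bridge);
* `val2_NβA` : `v₂ (Nβ x) = v₂ (q) ^ (k₁₁ + k₀₂)` (from `val1_NαA`);
* `NormValA2`, `NormValB1` : the two remaining NORM-VAL statements (above `V₂` along `α`, above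
  `V₁` along `β`), `normValB1_of_A2`, `normValA2_of_B1` : they are equivalent;
* `stmt_ValVecMod_of_A2`, `stmt_ValVecMod_of_B1` : **VALVEC-MOD** from either.
-/

set_option autoImplicit false
set_option synthInstance.maxHeartbeats 400000
set_option maxHeartbeats 1000000
set_option linter.style.haveILetI false
set_option linter.unusedSectionVars false

noncomputable section

open ModularCurve AlgebraicCurve
open Fermat.Agent.S24 Fermat.Agent.BAD.H88 Fermat.Agent.S28 Fermat.Agent.S28.H73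
open Fermat.Agent.RED.H73 Fermat.Agent.RED.H17 Fermat.Agent.S36.NU.H88
open Fermat.Agent.S36.NU.H23 Fermat.Agent.Lib.HeckeComm Fermat.Agent.BAD
open Fermat.Agent.S36.NU.H82

namespace Fermat.Agent.S36.NU.H51

section Beta

variable (A : ValuationSubring Kbar) (q M : ℕ) (B k : ℤ) (hB : B * M + k * q = 1) (hq : q.Prime)
  [NeZero M] [NeZero q] [NeZero (M * q)] [NeZero (M * q * q)]
  (hqM : ¬ q ∣ M) (hA : A.LiesOverPrime q)

/-! ### Transport of the norm -/

theorem wL_symm_apply (z : FN (M * q)) :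
    (wL q M B k hB hq).toRingEquiv.symm z = wL q M B k hB hq z := by
  rw [RingEquiv.symm_apply_eq]
  exact (wq_wq q M k B (hab_of_hB q M B k hB) hq z).symm

/-- **`N_β x = w_q (N_α (W_{q²} x))`**. -/
theorem normAlong_beta_eq (x : FN (M * q * q)) :
    normAlongHom (heckeBetaBar Kbar (M * q) q).toRingHom x
      = wL q M B k hB hq
          (normAlongHom (heckeAlphaBar Kbar (M * q) q).toRingHom (wS q M B k hB x)) := by
  have h := @Algebra.norm_eq_of_equiv_equiv (FN (M * q)) (FN (M * q * q)) (FN (M * q))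
    (FN (M * q * q)) _ _ _ _ (heckeBetaBar Kbar (M * q) q).toRingHom.toAlgebra
    (heckeAlphaBar Kbar (M * q) q).toRingHom.toAlgebra
    (wL q M B k hB hq).toRingEquiv (wS q M B k hB).toRingEquiv
    (RingHom.ext fun y => (wS_beta q M B k hB hq y).symm) x
  rw [wL_symm_apply] at h
  exact h

/-- **`N_α x = w_q (N_β (W_{q²} x))`**. -/
theorem normAlong_alpha_eq (x : FN (M * q * q)) :
    normAlongHom (heckeAlphaBar Kbar (M * q) q).toRingHom x
      = wL q M B k hB hq
          (normAlongHom (heckeBetaBar Kbar (M * q) q).toRingHom (wS q M B k hB x)) := by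
  rw [normAlong_beta_eq q M B k hB hq, wq_wq q M k B (hab_of_hB q M B k hB) hq,
    wSq_wSq (M * q * q) q M B k (lvl q M) hB]

/-- The norm of `L0 A (M q²) / L0 A (M q)` along `β`. -/
def NβA : ↥(L0 A (M * q * q)) → ↥(L0 A (M * q)) := fun x =>
  wLo A q M B k hB hq (NαA A q M (wSo A q M B k hB x))

/-- **Bridge**: `Nβ` is the norm along `β`. -/
theorem coe_NβA (x : ↥(L0 A (M * q * q))) :
    ((NβA A q M B k hB hq x : ↥(L0 A (M * q))) : FN (M * q))
      = normAlongHom (heckeBetaBar Kbar (M * q) q).toRingHom (x : FN (M * q * q)) := by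
  rw [normAlong_beta_eq q M B k hB hq]
  show wL q M B k hB hq ((NαA A q M (wSo A q M B k hB x) : ↥(L0 A (M * q))) : FN (M * q)) = _
  rw [coe_NαA, coe_wSo]

theorem NαA_eq (x : ↥(L0 A (M * q * q))) :
    NαA A q M x = wLo A q M B k hB hq (NβA A q M B k hB hq (wSo A q M B k hB x)) := by
  show _ = wLo A q M B k hB hq (wLo A q M B k hB hq
    (NαA A q M (wSo A q M B k hB (wSo A q M B k hB x))))
  rw [wLo_wLo, wSo_wSo]

/-! ### NORM-VAL along `β` above `V₂` -/

include hqM hA in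
/-- **NORM-VAL along `β` above `V₂`**. -/
theorem val2_NβA (x : ↥(L0 A (M * q * q))) (k₂ k₃ : ℤ)
    (h11 : (V11o A q M B k hB hq).valuation x
        = (V11o A q M B k hB hq).valuation (pi11 A q M) ^ k₂)
    (h02 : (V02o A q M B k hB).valuation x
        = (V02o A q M B k hB).valuation ((q : ℕ) : ↥(L0 A (M * q * q))) ^ k₃) :
    (V2o A q M B k hB hq).valuation (NβA A q M B k hB hq x)
      = (V2o A q M B k hB hq).valuation ((q : ℕ) : ↥(L0 A (M * q))) ^ (k₂ + k₃) := by
  apply val2_wLo_of_val1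
  rw [add_comm]
  exact val1_NαA A q M B k hB hq hqM hA _ k₃ k₂ (val20_wSo_of_val02 A q M B k hB x k₃ h02)
    (val11_wSo A q M B k hB hq hqM hA x k₂ h11)

/-! ### The two remaining statements -/

/-- **NORM-VAL along `α` above `V₂`** (`V₀₂` is the only valuation above, `e = 1`, `f = q`). -/
def NormValA2 : Prop :=
  ∀ x : ↥(L0 A (M * q * q)), x ≠ 0 → ∀ k₃ : ℤ,
    (V02o A q M B k hB).valuation x
      = (V02o A q M B k hB).valuation ((q : ℕ) : ↥(L0 A (M * q * q))) ^ k₃ →
    (V2o A q M B k hB hq).valuation (NαA A q M x)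
      = (V2o A q M B k hB hq).valuation ((q : ℕ) : ↥(L0 A (M * q))) ^ ((q : ℤ) * k₃)

/-- **NORM-VAL along `β` above `V₁`** (`V₂₀` is the only valuation above, `e = 1`, `f = q`). -/
def NormValB1 : Prop :=
  ∀ x : ↥(L0 A (M * q * q)), x ≠ 0 → ∀ k₁ : ℤ,
    (V20o A q M).valuation x
      = (V20o A q M).valuation ((q : ℕ) : ↥(L0 A (M * q * q))) ^ k₁ →
    (V1o A q M).valuation (NβA A q M B k hB hq x)
      = (V1o A q M).valuation ((q : ℕ) : ↥(L0 A (M * q))) ^ ((q : ℤ) * k₁)

theorem wSo_ne_zero (x : ↥(L0 A (M * q * q))) (hx : x ≠ 0) : wSo A q M B k hB x ≠ 0 :=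
  (map_ne_zero (wSo A q M B k hB)).2 hx

theorem normValB1_of_A2 (h : NormValA2 A q M B k hB hq) : NormValB1 A q M B k hB hq := by
  intro x hx k₁ h20
  apply val1_wLo_of_val2
  exact h _ (wSo_ne_zero A q M B k hB x hx) k₁ (val02_wSo_of_val20 A q M B k hB x k₁ h20)

theorem normValA2_of_B1 (h : NormValB1 A q M B k hB hq) : NormValA2 A q M B k hB hq := by
  intro x hx k₃ h02
  rw [NαA_eq A q M B k hB hq x]
  apply val2_wLo_of_val1
  exact h _ (wSo_ne_zero A q M B k hB x hx) k₃ (val20_wSo_of_val02 A q M B k hB x k₃ h02)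

/-- The forms with an arbitrary name for the norm. -/
theorem normValA2_of_any
    (h : ∀ x : ↥(L0 A (M * q * q)), x ≠ 0 → ∀ k₃ : ℤ,
      (V02o A q M B k hB).valuation x
        = (V02o A q M B k hB).valuation ((q : ℕ) : ↥(L0 A (M * q * q))) ^ k₃ →
      ∃ y : ↥(L0 A (M * q)), (y : FN (M * q))
          = normAlongHom (heckeAlphaBar Kbar (M * q) q).toRingHom (x : FN (M * q * q)) ∧
        (V2o A q M B k hB hq).valuation y
          = (V2o A q M B k hB hq).valuation ((q : ℕ) : ↥(L0 A (M * q))) ^ ((q : ℤ) * k₃)) :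
    NormValA2 A q M B k hB hq := by
  intro x hx k₃ h02
  obtain ⟨y, hy, hv⟩ := h x hx k₃ h02
  have e : NαA A q M x = y := Subtype.ext ((coe_NαA A q M x).trans hy.symm)
  rw [e]
  exact hv

theorem normValB1_of_any
    (h : ∀ x : ↥(L0 A (M * q * q)), x ≠ 0 → ∀ k₁ : ℤ,
      (V20o A q M).valuation x
        = (V20o A q M).valuation ((q : ℕ) : ↥(L0 A (M * q * q))) ^ k₁ →
      ∃ y : ↥(L0 A (M * q)), (y : FN (M * q))
          = normAlongHom (heckeBetaBar Kbar (M * q) q).toRingHom (x : FN (M * q * q)) ∧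
        (V1o A q M).valuation y
          = (V1o A q M).valuation ((q : ℕ) : ↥(L0 A (M * q))) ^ ((q : ℤ) * k₁)) :
    NormValB1 A q M B k hB hq := by
  intro x hx k₁ h20
  obtain ⟨y, hy, hv⟩ := h x hx k₁ h20
  have e : NβA A q M B k hB hq x = y := Subtype.ext ((coe_NβA A q M B k hB hq x).trans hy.symm)
  rw [e]
  exact hv

/-! ### VALVEC-MOD -/

include hqM hA in
theorem normValHyp_of_A2 (h : NormValA2 A q M B k hB hq) : NormValHyp A q M B k hB hq :=
  ⟨NαA A q M, NβA A q M B k hB hq, coe_NαA A q M, coe_NβA A q M B k hB hq,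
    fun x _ k₁ k₂ h20 h11 => val1_NαA A q M B k hB hq hqM hA x k₁ k₂ h20 h11,
    h, normValB1_of_A2 A q M B k hB hq h,
    fun x _ k₂ k₃ h11 h02 => val2_NβA A q M B k hB hq hqM hA x k₂ k₃ h11 h02⟩

include hqM hA in
/-- **VALVEC-MOD** from NORM-VAL along `α` above `V₂`. -/
theorem stmt_ValVecMod_of_A2 (h : NormValA2 A q M B k hB hq) :
    H10.Stmt_ValVecMod A q M B k hB hq :=
  stmt_ValVecMod_of_normVal A q M B k hB hq hqM hA (normValHyp_of_A2 A q M B k hB hq hqM hA h)

include hqM hA in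
/-- **VALVEC-MOD** from NORM-VAL along `β` above `V₁`. -/
theorem stmt_ValVecMod_of_B1 (h : NormValB1 A q M B k hB hq) :
    H10.Stmt_ValVecMod A q M B k hB hq :=
  stmt_ValVecMod_of_A2 A q M B k hB hq hqM hA (normValA2_of_B1 A q M B k hB hq h)

end Beta

end Fermat.Agent.S36.NU.H51
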