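import Fermat.Agent.BAD.H42_FundIneq

/-!
# S36 / NU-B, leaf NORM-VAL (helper79): the value groups and the valuations of norms

`D : H42.NRData E L Et ι κ` (helper42: a discrete valuation ring `V_E` of `E` with uniformiser
`ϖ`, valuation rings `V i` of `L` over it with "uniformisers" `π i` and "ramification indices"
`e i`, `v_i (ϖ) = v_i (π i) ^ e i`), with `∑ e i [κ i : Et] = [L : E]`.

* `nv_exists_zpow_unit` : every `a ≠ 0` of `E` is `ϖ ^ t` times a unit of `V_E`;
* `nv_exists_pow_val_eq` : for `x ≠ 0` in `L` some power `v_i (x) ^ m`, `m > 0`, is the value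
  of an element of `E`;
* `nv_exists_val_eq_zpow` (**EXACT**) : the value group of `V i` is generated by `v_i (π i)`;
* `nv_val_norm` (**NORM-VAL**) : if `v_i (x) = v_i (π i) ^ k i` for all `i` then
  `v_E (N_{L/E} x) = v_E (ϖ) ^ (∑ [κ i : Et] k i)`;
* `nv_exists_val_norm` : the same with the existence of the `k i`.
-/

set_option autoImplicit false
set_option linter.style.haveILetI false
set_option linter.unusedSectionVars false

noncomputable section

namespace Fermat.Agent.S36.NU.H79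

open Fermat.Agent.BAD Fermat.Agent.BAD.H42

/-- In a linearly ordered group with zero: `γ ^ m = ϱ ^ K`, `m > 0`; then there are `m' > 0`,
`K'` and `ϱ' = ϱ ^ u γ ^ v` with `ϱ' ^ m' = ϱ`, `γ = ϱ' ^ K'`. -/
theorem nv_bezout {Γ : Type*} [LinearOrderedCommGroupWithZero Γ] {γ ϱ : Γ} (hγ : γ ≠ 0)
    (hϱ : ϱ ≠ 0) {m : ℕ} (hm : 0 < m) {K : ℤ} (h : γ ^ m = ϱ ^ K) :
    ∃ (m' : ℕ) (K' u v : ℤ), 0 < m' ∧ (ϱ ^ u * γ ^ v) ^ m' = ϱ ∧ γ = (ϱ ^ u * γ ^ v) ^ K' := by
  set d : ℕ := Int.gcd (m : ℤ) K with hd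
  have hd0 : 0 < d := Int.gcd_pos_of_ne_zero_left _ (by exact_mod_cast hm.ne')
  obtain ⟨m₁, hm₁⟩ : (d : ℤ) ∣ (m : ℤ) := Int.gcd_dvd_left _ _
  obtain ⟨K₁, hK₁⟩ : (d : ℤ) ∣ K := Int.gcd_dvd_right _ _
  have hm₁pos : 0 < m₁ := by
    have h1 : (0 : ℤ) < (d : ℤ) * m₁ := by rw [← hm₁]; exact_mod_cast hm
    have hd' : (0 : ℤ) < (d : ℤ) := by exact_mod_cast hd0
    exact (mul_pos_iff_of_pos_left hd').mp h1
  have hcop : IsCoprime m₁ K₁ := by
    have h1 : Int.gcd m₁ K₁ = 1 := by
      have h2 : Int.gcd ((d : ℤ) * m₁) ((d : ℤ) * K₁) = d * Int.gcd m₁ K₁ := by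
        rw [Int.gcd_mul_left]
        simp
      rw [← hm₁, ← hK₁, ← hd] at h2
      have h3 : d * 1 = d * Int.gcd m₁ K₁ := by rw [mul_one]; exact h2
      exact (Nat.eq_of_mul_eq_mul_left hd0 h3).symm
    exact Int.isCoprime_iff_gcd_eq_one.mpr h1
  obtain ⟨u, v, huv⟩ := hcop
  -- `γ ^ m₁ = ϱ ^ K₁`
  have h1 : (γ ^ m₁ * (ϱ ^ K₁)⁻¹) ^ d = 1 := by
    rw [mul_pow, ← zpow_natCast (γ ^ m₁), ← zpow_mul, inv_pow, ← zpow_natCast (ϱ ^ K₁),
      ← zpow_mul, mul_comm m₁, mul_comm K₁, ← hm₁, ← hK₁, zpow_natCast, h]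
    exact mul_inv_cancel₀ (zpow_ne_zero _ hϱ)
  have h2 : γ ^ m₁ * (ϱ ^ K₁)⁻¹ = 1 := (pow_eq_one_iff_left hd0.ne').mp h1
  have h3 : γ ^ m₁ = ϱ ^ K₁ := by
    have := congrArg (· * ϱ ^ K₁) h2
    simp only [one_mul] at this
    rwa [mul_assoc, inv_mul_cancel₀ (zpow_ne_zero _ hϱ), mul_one] at this
  obtain ⟨m', hm'⟩ : ∃ m' : ℕ, (m' : ℤ) = m₁ := ⟨m₁.toNat, Int.toNat_of_nonneg hm₁pos.le⟩
  refine ⟨m', K₁, u, v, by exact_mod_cast (hm' ▸ hm₁pos : (0 : ℤ) < (m' : ℤ)), ?_, ?_⟩
  · rw [← zpow_natCast, hm', mul_zpow, ← zpow_mul, ← zpow_mul]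
    have : γ ^ (v * m₁) = ϱ ^ (v * K₁) := by
      rw [mul_comm v m₁, zpow_mul, h3, ← zpow_mul, mul_comm]
    rw [this, ← zpow_add₀ hϱ, huv, zpow_one]
  · rw [mul_zpow, ← zpow_mul, ← zpow_mul]
    have : ϱ ^ (u * K₁) = γ ^ (u * m₁) := by
      rw [mul_comm u K₁, zpow_mul, ← h3, ← zpow_mul, mul_comm]
    rw [this, ← zpow_add₀ hγ, huv, zpow_one]

theorem nv_prod_zpow {Γ : Type*} [CommGroupWithZero Γ] {ι : Type*} (s : Finset ι) (a : Γ)
    (ha : a ≠ 0) (f : ι → ℤ) : ∏ i ∈ s, a ^ f i = a ^ (∑ i ∈ s, f i) := by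
  classical
  induction s using Finset.induction_on with
  | empty => simp
  | insert i s hi ih => rw [Finset.prod_insert hi, Finset.sum_insert hi, zpow_add₀ ha, ih]

variable {E L Et : Type} [Field E] [Field L] [Field Et] [Algebra E L]
  {ι : Type} {κ : ι → Type} [∀ i, Field (κ i)] [∀ i, Algebra Et (κ i)]
  (D : NRData E L Et ι κ)

/-- Units of `V_E` have value `1` at every `V i`. -/
theorem nv_val_unit (i : ι) {u : E} (hu0 : u ≠ 0) (hu : u ∈ D.VE) (hu' : u⁻¹ ∈ D.VE) :
    (D.V i).valuation (algebraMap E L u) = 1 := by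
  have h1 : (D.V i).valuation (algebraMap E L u) ≤ 1 :=
    (ValuationSubring.valuation_le_one_iff _ _).2 (D.hVE i _ hu)
  have h2 : (D.V i).valuation (algebraMap E L u⁻¹) ≤ 1 :=
    (ValuationSubring.valuation_le_one_iff _ _).2 (D.hVE i _ hu')
  rw [map_inv₀, map_inv₀] at h2
  have h0 : (D.V i).valuation (algebraMap E L u) ≠ 0 :=
    (Valuation.ne_zero_iff _).2 ((map_ne_zero_iff _ (algebraMap E L).injective).2 hu0)
  exact le_antisymm h1 ((inv_le_one₀ (zero_lt_iff.2 h0)).1 h2)

/-- Units of `V_E` have value `1`. -/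
theorem nv_valE_unit {u : E} (hu0 : u ≠ 0) (hu : u ∈ D.VE) (hu' : u⁻¹ ∈ D.VE) :
    D.VE.valuation u = 1 := by
  have h1 : D.VE.valuation u ≤ 1 := (ValuationSubring.valuation_le_one_iff _ _).2 hu
  have h2 : D.VE.valuation u⁻¹ ≤ 1 := (ValuationSubring.valuation_le_one_iff _ _).2 hu'
  rw [map_inv₀] at h2
  have h0 : D.VE.valuation u ≠ 0 := (Valuation.ne_zero_iff _).2 hu0
  exact le_antisymm h1 ((inv_le_one₀ (zero_lt_iff.2 h0)).1 h2)

/-- An element of `V_E` whose value at `V i` is larger than that of `ϖ ^ n` is `ϖ ^ t` times a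
unit. -/
theorem nv_exists_pow_unit_aux (i : ι) (n : ℕ) : ∀ a : E, a ≠ 0 → a ∈ D.VE →
    (D.V i).valuation (algebraMap E L D.ϖ) ^ n < (D.V i).valuation (algebraMap E L a) →
    ∃ (t : ℕ) (u : E), u ≠ 0 ∧ u ∈ D.VE ∧ u⁻¹ ∈ D.VE ∧ a = D.ϖ ^ t * u := by
  induction n with
  | zero =>
    intro a _ ha h
    rw [pow_zero] at h
    exact absurd ((ValuationSubring.valuation_le_one_iff _ _).2 (D.hVE i _ ha)) (not_le.2 h)
  | succ n ih =>
    intro a ha0 ha h
    by_cases hu : a⁻¹ ∈ D.VE
    · exact ⟨0, a, ha0, ha, hu, by rw [pow_zero, one_mul]⟩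
    · have h1 : D.VE.valuation a < 1 := by
        rw [lt_iff_le_and_ne]
        refine ⟨(ValuationSubring.valuation_le_one_iff _ _).2 ha, fun h1 => hu ?_⟩
        rw [← ValuationSubring.valuation_le_one_iff, map_inv₀, h1, inv_one]
      have h2 := D.hE a h1
      have hϖv : D.VE.valuation D.ϖ ≠ 0 := (Valuation.ne_zero_iff _).2 D.hϖ0
      have h3 : a / D.ϖ ∈ D.VE := by
        rw [← ValuationSubring.valuation_le_one_iff, map_div₀]
        exact (div_le_one₀ (zero_lt_iff.2 hϖv)).2 h2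
      have h4 : a / D.ϖ ≠ 0 := div_ne_zero ha0 D.hϖ0
      have hϖL : (D.V i).valuation (algebraMap E L D.ϖ) ≠ 0 :=
        (Valuation.ne_zero_iff _).2 D.ϖL_ne_zero
      have h5 : (D.V i).valuation (algebraMap E L D.ϖ) ^ n
          < (D.V i).valuation (algebraMap E L (a / D.ϖ)) := by
        rw [map_div₀, map_div₀, lt_div_iff₀ (zero_lt_iff.2 hϖL), ← pow_succ]
        exact h
      obtain ⟨t, u, hu0, hu, hu', e⟩ := ih _ h4 h3 h5
      refine ⟨t + 1, u, hu0, hu, hu', ?_⟩
      rw [pow_succ, mul_assoc, mul_comm D.ϖ u, ← mul_assoc, ← e, div_mul_cancel₀ _ D.hϖ0]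

/-- **Every non-zero element of `E` is `ϖ ^ t` times a unit of `V_E`.** -/
theorem nv_exists_zpow_unit (i : ι) (a : E) (ha : a ≠ 0) :
    ∃ (t : ℤ) (u : E), u ≠ 0 ∧ u ∈ D.VE ∧ u⁻¹ ∈ D.VE ∧ a = D.ϖ ^ t * u := by
  have key : ∀ a : E, a ≠ 0 → a ∈ D.VE →
      ∃ (t : ℕ) (u : E), u ≠ 0 ∧ u ∈ D.VE ∧ u⁻¹ ∈ D.VE ∧ a = D.ϖ ^ t * u := by
    intro a ha0 ha
    have haL : algebraMap E L a ≠ 0 := (map_ne_zero_iff _ (algebraMap E L).injective).2 ha0
    obtain ⟨n, hn⟩ := D.hA i (algebraMap E L D.ϖ) (algebraMap E L a) (D.val_ϖ_lt_one i) haL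
    rw [map_pow] at hn
    exact nv_exists_pow_unit_aux D i n a ha0 ha hn
  rcases D.VE.mem_or_inv_mem a with h | h
  · obtain ⟨t, u, hu0, hu, hu', e⟩ := key a ha h
    exact ⟨t, u, hu0, hu, hu', by rw [zpow_natCast]; exact e⟩
  · obtain ⟨t, u, hu0, hu, hu', e⟩ := key a⁻¹ (inv_ne_zero ha) h
    refine ⟨-t, u⁻¹, inv_ne_zero hu0, hu', by rwa [inv_inv], ?_⟩
    rw [zpow_neg, zpow_natCast, ← mul_inv, ← e, inv_inv]

/-- The values of the elements of `E`: powers of the value of `ϖ`, with the same exponent for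
`V_E` and for all `V i`. -/
theorem nv_val_const (i₀ : ι) (a : E) (ha : a ≠ 0) :
    ∃ t : ℤ, D.VE.valuation a = D.VE.valuation D.ϖ ^ t ∧
      ∀ i, (D.V i).valuation (algebraMap E L a) = (D.V i).valuation (algebraMap E L D.ϖ) ^ t := by
  obtain ⟨t, u, hu0, hu, hu', e⟩ := nv_exists_zpow_unit D i₀ a ha
  refine ⟨t, ?_, fun i => ?_⟩
  · rw [e, map_mul, map_zpow₀, nv_valE_unit D hu0 hu hu', mul_one]
  · rw [e, map_mul, map_zpow₀, map_mul, map_zpow₀, nv_val_unit D i hu0 hu hu', mul_one]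

/-- For `x ≠ 0` in `L`, algebraic over `E`, a positive power of the value of `x` is the value of
an element of `E`. -/
theorem nv_exists_pow_val_eq [Algebra.IsAlgebraic E L] (W : ValuationSubring L) (x : L)
    (hx : x ≠ 0) :
    ∃ (m : ℕ) (a : E), 0 < m ∧ a ≠ 0 ∧
      W.valuation x ^ m = W.valuation (algebraMap E L a) := by
  classical
  obtain ⟨p, hp0, hp⟩ := (Algebra.IsAlgebraic.isAlgebraic (R := E) x)
  have hsum : ∑ k ∈ p.support, algebraMap E L (p.coeff k) * x ^ k = 0 := by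
    rw [← hp, Polynomial.aeval_def, Polynomial.eval₂_eq_sum, Polynomial.sum_def]
  have hsupp : p.support.Nonempty := Polynomial.support_nonempty.mpr hp0
  have hterm : ∀ k ∈ p.support, W.valuation (algebraMap E L (p.coeff k) * x ^ k) ≠ 0 := by
    intro k hk
    rw [Valuation.ne_zero_iff]
    exact mul_ne_zero ((map_ne_zero_iff _ (algebraMap E L).injective).2
      (Polynomial.mem_support_iff.mp hk)) (pow_ne_zero _ hx)
  -- two terms with the same value
  have hex : ∃ k ∈ p.support, ∃ l ∈ p.support, k < l ∧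
      W.valuation (algebraMap E L (p.coeff k) * x ^ k)
        = W.valuation (algebraMap E L (p.coeff l) * x ^ l) := by
    by_contra hcon
    simp only [not_exists, not_and] at hcon
    obtain ⟨j, hj, hjmax⟩ := Finset.exists_max_image p.support
      (fun k => W.valuation (algebraMap E L (p.coeff k) * x ^ k)) hsupp
    have hlt : ∀ i ∈ p.support \ {j}, W.valuation (algebraMap E L (p.coeff i) * x ^ i)
        < W.valuation (algebraMap E L (p.coeff j) * x ^ j) := by
      intro i hi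
      rw [Finset.mem_sdiff, Finset.mem_singleton] at hi
      refine lt_of_le_of_ne (hjmax i hi.1) ?_
      rcases lt_or_gt_of_ne hi.2 with h1 | h1
      · exact hcon i hi.1 j hj h1
      · exact fun e => hcon j hj i hi.1 h1 e.symm
    have := Valuation.map_sum_eq_of_lt W.valuation hj hlt
    rw [hsum, map_zero] at this
    exact hterm j hj this.symm
  obtain ⟨k, hk, l, hl, hkl, e⟩ := hex
  have hck : p.coeff k ≠ 0 := Polynomial.mem_support_iff.mp hk
  have hcl : p.coeff l ≠ 0 := Polynomial.mem_support_iff.mp hl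
  refine ⟨l - k, p.coeff k / p.coeff l, by omega, div_ne_zero hck hcl, ?_⟩
  have hxv : W.valuation x ≠ 0 := (Valuation.ne_zero_iff _).2 hx
  have hclv : W.valuation (algebraMap E L (p.coeff l)) ≠ 0 :=
    (Valuation.ne_zero_iff _).2 ((map_ne_zero_iff _ (algebraMap E L).injective).2 hcl)
  rw [map_mul, map_mul, map_pow, map_pow] at e
  rw [map_div₀, map_div₀, eq_div_iff hclv]
  have hpow : W.valuation x ^ l = W.valuation x ^ (l - k) * W.valuation x ^ k := by
    rw [← pow_add]
    congr 1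
    omega
  rw [hpow] at e
  have e' : W.valuation (algebraMap E L (p.coeff k)) * W.valuation x ^ k
      = (W.valuation x ^ (l - k) * W.valuation (algebraMap E L (p.coeff l)))
        * W.valuation x ^ k := by
    rw [e, ← mul_assoc, mul_comm (W.valuation (algebraMap E L (p.coeff l)))]
  exact (mul_right_cancel₀ (pow_ne_zero k hxv) e').symm

/-- **EXACT**: the value group of `V i` is generated by the value of `π i`. -/
theorem nv_exists_val_eq_zpow [Fintype ι] [DecidableEq ι] [Module.Finite E L]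
    (hdeg : ∑ i, D.e i * Module.finrank Et (κ i) = Module.finrank E L) (i : ι) (x : L)
    (hx : x ≠ 0) : ∃ k : ℤ, (D.V i).valuation x = (D.V i).valuation (D.π i) ^ k := by
  haveI : Algebra.IsAlgebraic E L := Algebra.IsAlgebraic.of_finite E L
  obtain ⟨m, a, hm, ha, hma⟩ := nv_exists_pow_val_eq (E := E) (D.V i) x hx
  obtain ⟨t, -, ht⟩ := nv_val_const D i a ha
  have hγ : (D.V i).valuation x ≠ 0 := (Valuation.ne_zero_iff _).2 hx
  have hϱ : (D.V i).valuation (D.π i) ≠ 0 := D.val_π_ne_zero i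
  have h1 : (D.V i).valuation x ^ m = (D.V i).valuation (D.π i) ^ ((D.e i : ℤ) * t) := by
    rw [hma, ht i, D.hram i, ← zpow_natCast, ← zpow_mul]
  obtain ⟨m', K', u, v, hm', e1, e2⟩ := nv_bezout hγ hϱ hm h1
  by_cases h1' : m' = 1
  · refine ⟨K', ?_⟩
    rw [h1', pow_one] at e1
    rw [e1] at e2
    exact e2
  · exfalso
    have hm2 : 2 ≤ m' := by omega
    set π' : L := D.π i ^ u * x ^ v with hπ'
    have hvπ' : (D.V i).valuation π'
        = (D.V i).valuation (D.π i) ^ u * (D.V i).valuation x ^ v := by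
      rw [hπ', map_mul, map_zpow₀, map_zpow₀]
    rw [← hvπ'] at e1
    have hlt : (D.V i).valuation π' < 1 := by
      have := D.hπ i
      rw [← e1] at this
      exact (pow_lt_one_iff hm'.ne').mp this
    let D' : NRData E L Et ι κ :=
      { D with
        π := Function.update D.π i π'
        e := Function.update D.e i (m' * D.e i)
        hπ := fun j => by
          by_cases hj : j = i
          · subst hj
            rw [Function.update_self]
            exact hlt
          · rw [Function.update_of_ne hj]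
            exact D.hπ j
        he := fun j => by
          by_cases hj : j = i
          · subst hj
            rw [Function.update_self]
            exact Nat.mul_pos hm' (D.he j)
          · rw [Function.update_of_ne hj]
            exact D.he j
        hram := fun j => by
          by_cases hj : j = i
          · subst hj
            rw [Function.update_self, Function.update_self, pow_mul, e1]
            exact D.hram j
          · rw [Function.update_of_ne hj, Function.update_of_ne hj]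
            exact D.hram j }
    have hle := D'.sum_le_finrank
    rw [← hdeg] at hle
    have hfin : Module.Finite Et (κ i) := D.finite_res i
    have hfpos : 0 < Module.finrank Et (κ i) := Module.finrank_pos
    have hlt' : ∑ j, D.e j * Module.finrank Et (κ j) < ∑ j, D'.e j * Module.finrank Et (κ j) := by
      refine Finset.sum_lt_sum (fun j _ => ?_) ⟨i, Finset.mem_univ i, ?_⟩
      · by_cases hj : j = i
        · subst hj
          show D.e j * _ ≤ Function.update D.e j (m' * D.e j) j * _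
          rw [Function.update_self]
          exact Nat.mul_le_mul_right _ (Nat.le_mul_of_pos_left _ hm')
        · show D.e j * _ ≤ Function.update D.e i (m' * D.e i) j * _
          rw [Function.update_of_ne hj]
      · show D.e i * _ < Function.update D.e i (m' * D.e i) i * _
        rw [Function.update_self]
        have h3 : 0 < D.e i * Module.finrank Et (κ i) := Nat.mul_pos (D.he i) hfpos
        calc D.e i * Module.finrank Et (κ i) < 2 * (D.e i * Module.finrank Et (κ i)) := by omega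
          _ ≤ m' * (D.e i * Module.finrank Et (κ i)) := Nat.mul_le_mul_right _ hm2
          _ = m' * D.e i * Module.finrank Et (κ i) := by ring
    exact absurd hle (not_le.2 hlt')

/-- **NORM-VAL**: the valuation of the norm of an arbitrary non-zero element. -/
theorem nv_val_norm [Fintype ι] [DecidableEq ι] [Module.Finite E L]
    (hdeg : ∑ i, D.e i * Module.finrank Et (κ i) = Module.finrank E L) (x : L)
    (k : ι → ℤ) (hk : ∀ i, (D.V i).valuation x = (D.V i).valuation (D.π i) ^ k i) :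
    D.VE.valuation (Algebra.norm E x)
      = D.VE.valuation D.ϖ ^ (∑ i, (Module.finrank Et (κ i) : ℤ) * k i) := by
  classical
  set P : ℕ := ∏ j, D.e j with hP
  have hP0 : 0 < P := Finset.prod_pos (fun j _ => D.he j)
  have hdiv : ∀ i, ∃ Q : ℕ, P = D.e i * Q := fun i =>
    Finset.dvd_prod_of_mem D.e (Finset.mem_univ i)
  choose Q hQ using hdiv
  set y : L := x ^ P with hy
  set c : ι → E := fun i => D.ϖ ^ (-((Q i : ℤ) * k i)) with hc
  have hc0 : ∀ i, c i ≠ 0 := fun i => zpow_ne_zero _ D.hϖ0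
  have hval : ∀ i, (D.V i).valuation (algebraMap E L (c i) * y) = 1 := by
    intro i
    have e : (D.e i : ℤ) * (-((Q i : ℤ) * k i)) + k i * (P : ℤ) = 0 := by
      rw [hQ i]; push_cast; ring
    rw [hy, hc, map_mul, map_pow, hk i, map_zpow₀ (algebraMap E L), map_zpow₀, D.hram i,
      ← zpow_natCast (_ ^ k i), ← zpow_mul,
      ← zpow_natCast ((D.V i).valuation (D.π i)) (D.e i), ← zpow_mul,
      ← zpow_add₀ (D.val_π_ne_zero i), e, zpow_zero]
  have hu : ∀ i, algebraMap E L (c i) * y ∈ D.V i := fun i =>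
    (ValuationSubring.valuation_le_one_iff _ _).1 (hval i).le
  haveI : ∀ i, Module.Finite Et (κ i) := fun i => D.finite_res i
  obtain ⟨δ, hδ, hδr⟩ := D.normRed_scaled hdeg y c hc0 hu
  -- `δ` is a unit
  have hred : ∀ i, D.red i ⟨_, hu i⟩ ≠ 0 := by
    intro i h0
    have hunit : IsUnit (⟨_, hu i⟩ : ↥(D.V i)) :=
      (ValuationSubring.valuation_eq_one_iff _ _).2 (hval i)
    exact (hunit.map (D.red i)).ne_zero h0
  have hδ0 : D.redE δ ≠ 0 := by
    rw [hδr]
    refine Finset.prod_ne_zero_iff.2 fun i _ => pow_ne_zero _ ?_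
    haveI := D.finite_res i
    exact Algebra.norm_ne_zero_iff.2 (hred i)
  have hδu : IsUnit δ := by
    by_contra h
    exact hδ0 (D.hkerE δ h)
  have hδv : D.VE.valuation (δ : E) = 1 := (ValuationSubring.valuation_eq_one_iff _ _).1 hδu
  have hϖv : D.VE.valuation D.ϖ ≠ 0 := (Valuation.ne_zero_iff _).2 D.hϖ0
  -- the valuation of the product of the constants
  have hprod : D.VE.valuation (∏ i, c i ^ (D.e i * Module.finrank Et (κ i)))
      = D.VE.valuation D.ϖ ^ (-((P : ℤ) * ∑ i, (Module.finrank Et (κ i) : ℤ) * k i)) := by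
    rw [map_prod]
    have : ∀ i ∈ Finset.univ, D.VE.valuation (c i ^ (D.e i * Module.finrank Et (κ i)))
        = D.VE.valuation D.ϖ ^ (-((P : ℤ) * ((Module.finrank Et (κ i) : ℤ) * k i))) := by
      intro i _
      rw [hc, map_pow, map_zpow₀, ← zpow_natCast, ← zpow_mul]
      congr 1
      rw [hQ i]
      push_cast
      ring
    rw [Finset.prod_congr rfl this, nv_prod_zpow _ _ hϖv, Finset.sum_neg_distrib,
      Finset.mul_sum]
  have h1 := congrArg D.VE.valuation hδ
  rw [map_mul, hδv, hprod] at h1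
  have h2 : D.VE.valuation (Algebra.norm E y)
      = D.VE.valuation D.ϖ ^ ((P : ℤ) * ∑ i, (Module.finrank Et (κ i) : ℤ) * k i) := by
    have h3 := congrArg (fun z => D.VE.valuation D.ϖ ^
      ((P : ℤ) * ∑ i, (Module.finrank Et (κ i) : ℤ) * k i) * z) h1
    simp only [mul_one] at h3
    rw [← mul_assoc, ← zpow_add₀ hϖv, add_neg_cancel, zpow_zero, one_mul] at h3
    exact h3
  rw [hy, map_pow, map_pow, mul_comm (P : ℤ), zpow_mul, zpow_natCast] at h2
  exact (pow_left_inj hP0.ne').mp h2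

/-- **NORM-VAL**, existence form. -/
theorem nv_exists_val_norm [Fintype ι] [DecidableEq ι] [Module.Finite E L]
    (hdeg : ∑ i, D.e i * Module.finrank Et (κ i) = Module.finrank E L) (x : L) (hx : x ≠ 0) :
    ∃ k : ι → ℤ, (∀ i, (D.V i).valuation x = (D.V i).valuation (D.π i) ^ k i) ∧
      D.VE.valuation (Algebra.norm E x)
        = D.VE.valuation D.ϖ ^ (∑ i, (Module.finrank Et (κ i) : ℤ) * k i) := by
  choose k hk using fun i => nv_exists_val_eq_zpow D hdeg i x hx
  exact ⟨k, hk, nv_val_norm D hdeg x k hk⟩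

end Fermat.Agent.S36.NU.H79
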