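import Fermat.Agent.S36.NU.H23_Mod3
import Fermat.Agent.S36.NU.H79_NormVal
import Fermat.Agent.S36.NU.H16_ValVec
import Fermat.Agent.Lib.HeckeComm.H2_NormBC

/-!
# S36 / NU-B, leaf VALVEC-MOD (helper51): the core

Level `M q²`, `q ∤ M`; `L₀ = L0 A (M q²)`, `L' = L0 A (M q)`.

* `IsUnit3C`, `IsNormPow0C`, `ValVecModC` : the shapes of the target (`H10.Stmt_ValVecMod`);
* `exact20`, `exact11`, `exact02` : **EXACT** for the three valuations of `L₀`, from helper23's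
  `nrM` and helper79's `nv_exists_val_eq_zpow`;
* `valVecMod_core` : `ValVecModC` from helper16's `valvec`, given two discrete valuations
  `V'₁`, `V'₂` of `L'` (uniformiser `q`), the functions `t₁₁`, `t₀₂`, and **NORM-VAL** for the
  norms `Nα`, `Nβ : L₀ → L'`.
-/

set_option autoImplicit false
set_option synthInstance.maxHeartbeats 400000
set_option maxHeartbeats 1000000
set_option linter.style.haveILetI false
set_option linter.unusedSectionVars false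

noncomputable section

open ModularCurve AlgebraicCurve
open Fermat.Agent.S24 Fermat.Agent.BAD.H88 Fermat.Agent.S28 Fermat.Agent.S28.H73
open Fermat.Agent.RED.H73 Fermat.Agent.RED.H17 Fermat.Agent.S36.NU.H88
open Fermat.Agent.S36.NU.H23 Fermat.Agent.Lib.HeckeComm Fermat.Agent.BAD

namespace Fermat.Agent.S36.NU.H51

section Core

variable (A : ValuationSubring Kbar) (q M : ℕ) (B k : ℤ) (hB : B * M + k * q = 1) (hq : q.Prime)
  [NeZero M] [NeZero q] [NeZero (M * q)] [NeZero (M * q * q)]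

/-- Units for the three valuations. -/
def IsUnit3C (h : ↥(L0 A (M * q * q))) : Prop :=
  (h ∈ V20o A q M ∧ h⁻¹ ∈ V20o A q M) ∧
  (h ∈ V11o A q M B k hB hq ∧ h⁻¹ ∈ V11o A q M B k hB hq) ∧
  (h ∈ V02o A q M B k hB ∧ h⁻¹ ∈ V02o A q M B k hB)

/-- The norm along `φ` is a constant of the inertia field times an `n`-th power of an
inertia-fixed function. -/
def IsNormPow0C (φ : FN (M * q) →ₐ[Kbar] FN (M * q * q)) (n : ℕ) (h : FN (M * q * q)) : Prop :=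
  ∃ (c : Kbar) (g : FN (M * q)), (∀ σ ∈ A.inertiaSubgroupIn ℚ, σ c = c) ∧ g ∈ L0 A (M * q) ∧
    normAlongHom φ.toRingHom h = algebraMap Kbar (FN (M * q)) c * g ^ n

/-- The shape of VALVEC-MOD. -/
def ValVecModC : Prop :=
  ∀ n : ℕ, 0 < n → ∀ f : ↥(L0 A (M * q * q)), f ≠ 0 →
    IsNormPow0C A q M (heckeAlphaBar Kbar (M * q) q) n (f : FN (M * q * q)) →
    IsNormPow0C A q M (heckeBetaBar Kbar (M * q) q) n (f : FN (M * q * q)) →
    ∃ (b : ℤ) (w : ↥(L0 A (M * q * q))), w ≠ 0 ∧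
      IsUnit3C A q M B k hB hq
        (f ^ (q + 1) * ((q : ℕ) : ↥(L0 A (M * q * q))) ^ (-b) * w ^ n)

/-! ### EXACT for the three valuations of `L₀` -/

theorem inclL0_piE_eq :
    inclL0 A (hleMN q M) (piE A q M) = ((q : ℕ) : ↥(L0 A (M * q * q))) := by
  apply Subtype.ext
  rw [coe_inclL0_piE]
  rfl

section Exact

variable (hqM : ¬ q ∣ M) (hA : A.LiesOverPrime q)

include hqM hA in
/-- **EXACT** for the three valuations, in the form of `nrM`. -/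
theorem exact_nrM (i : Fin 3) (x : ↥(L0 A (M * q * q))) (hx : x ≠ 0) :
    ∃ m : ℤ,
      ((@H42.NRData.V ↥(L0 A M) ↥(L0 A (M * q * q)) (FM A M) _ _ _ (algL0 A (hleMN q M))
        (Fin 3) (kap3 (FM A M) (FM A M)) _ (algM A q M hq hqM hA)
        (nrM A q M B k hB hq hqM hA) i).valuation x)
      = ((@H42.NRData.V ↥(L0 A M) ↥(L0 A (M * q * q)) (FM A M) _ _ _ (algL0 A (hleMN q M))
        (Fin 3) (kap3 (FM A M) (FM A M)) _ (algM A q M hq hqM hA)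
        (nrM A q M B k hB hq hqM hA) i).valuation
          (@H42.NRData.π ↥(L0 A M) ↥(L0 A (M * q * q)) (FM A M) _ _ _ (algL0 A (hleMN q M))
        (Fin 3) (kap3 (FM A M) (FM A M)) _ (algM A q M hq hqM hA)
        (nrM A q M B k hB hq hqM hA) i)) ^ m := by
  letI := algL0 A (hleMN q M)
  letI := algM A q M hq hqM hA
  haveI : Module.Finite ↥(L0 A M) ↥(L0 A (M * q * q)) := finite_L0_NU A q M
  exact H79.nv_exists_val_eq_zpow (nrM A q M B k hB hq hqM hA)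
    (nrM_hdeg A q M B k hB hq hqM hA) i x hx

include hB hq hqM hA in
theorem exact20 (x : ↥(L0 A (M * q * q))) (hx : x ≠ 0) :
    ∃ m : ℤ, (V20o A q M).valuation x
      = (V20o A q M).valuation ((q : ℕ) : ↥(L0 A (M * q * q))) ^ m := by
  obtain ⟨m, hm⟩ := exact_nrM A q M B k hB hq hqM hA 0 x hx
  refine ⟨m, ?_⟩
  rw [← inclL0_piE_eq A q M]
  exact hm

include hqM hA in
theorem exact11 (x : ↥(L0 A (M * q * q))) (hx : x ≠ 0) :
    ∃ m : ℤ, (V11o A q M B k hB hq).valuation x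
      = (V11o A q M B k hB hq).valuation (pi11 A q M) ^ m :=
  exact_nrM A q M B k hB hq hqM hA 1 x hx

include hB hq hqM hA in
theorem exact02 (x : ↥(L0 A (M * q * q))) (hx : x ≠ 0) :
    ∃ m : ℤ, (V02o A q M B k hB).valuation x
      = (V02o A q M B k hB).valuation ((q : ℕ) : ↥(L0 A (M * q * q))) ^ m := by
  obtain ⟨m, hm⟩ := exact_nrM A q M B k hB hq hqM hA 2 x hx
  refine ⟨m, ?_⟩
  rw [← inclL0_piE_eq A q M]
  exact hm

include hA in
theorem hram11' :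
    (V11o A q M B k hB hq).valuation ((q : ℕ) : ↥(L0 A (M * q * q)))
      = (V11o A q M B k hB hq).valuation (pi11 A q M) ^ (q - 1) := by
  rw [← inclL0_piE_eq A q M]
  exact hram11 A q M B k hB hq hA

end Exact

/-! ### The core -/

section CoreThm

variable (hqM : ¬ q ∣ M) (hA : A.LiesOverPrime q)

include hqM hA in
/-- **VALVEC-MOD, core**: from two discrete valuations of `L' = L0 A (M q)` with uniformiser
`q`, the functions `t₁₁`, `t₀₂` and NORM-VAL for `Nα`, `Nβ`. -/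
theorem valVecMod_core
    (V'₁ V'₂ : ValuationSubring ↥(L0 A (M * q)))
    (hϖ₁ : V'₁.valuation ((q : ℕ) : ↥(L0 A (M * q))) < 1)
    (hϖ₂ : V'₂.valuation ((q : ℕ) : ↥(L0 A (M * q))) < 1)
    (hD'₁ : ∀ y : ↥(L0 A (M * q)), y ≠ 0 →
      ∃ m : ℤ, V'₁.valuation y = V'₁.valuation ((q : ℕ) : ↥(L0 A (M * q))) ^ m)
    (hD'₂ : ∀ y : ↥(L0 A (M * q)), y ≠ 0 →
      ∃ m : ℤ, V'₂.valuation y = V'₂.valuation ((q : ℕ) : ↥(L0 A (M * q))) ^ m)
    (hconst : ∀ (c : Kbar) (hc : algebraMap Kbar (FN (M * q)) c ∈ L0 A (M * q)), c ≠ 0 →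
      ∃ m : ℤ,
        V'₁.valuation (⟨algebraMap Kbar (FN (M * q)) c, hc⟩ : ↥(L0 A (M * q)))
          = V'₁.valuation ((q : ℕ) : ↥(L0 A (M * q))) ^ m ∧
        V'₂.valuation (⟨algebraMap Kbar (FN (M * q)) c, hc⟩ : ↥(L0 A (M * q)))
          = V'₂.valuation ((q : ℕ) : ↥(L0 A (M * q))) ^ m)
    (t₁₁ t₀₂ : ↥(L0 A (M * q * q)))
    (ht₁₁ : (V20o A q M).valuation t₁₁ = 1 ∧
      (V11o A q M B k hB hq).valuation t₁₁ = (V11o A q M B k hB hq).valuation (pi11 A q M) ∧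
      (V02o A q M B k hB).valuation t₁₁ = 1)
    (ht₀₂ : (V20o A q M).valuation t₀₂ = 1 ∧ (V11o A q M B k hB hq).valuation t₀₂ = 1 ∧
      (V02o A q M B k hB).valuation t₀₂
        = (V02o A q M B k hB).valuation ((q : ℕ) : ↥(L0 A (M * q * q))))
    (Nα Nβ : ↥(L0 A (M * q * q)) → ↥(L0 A (M * q)))
    (hbrα : ∀ x : ↥(L0 A (M * q * q)), ((Nα x : ↥(L0 A (M * q))) : FN (M * q))
      = normAlongHom (heckeAlphaBar Kbar (M * q) q).toRingHom (x : FN (M * q * q)))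
    (hbrβ : ∀ x : ↥(L0 A (M * q * q)), ((Nβ x : ↥(L0 A (M * q))) : FN (M * q))
      = normAlongHom (heckeBetaBar Kbar (M * q) q).toRingHom (x : FN (M * q * q)))
    (hNα₁ : ∀ x : ↥(L0 A (M * q * q)), x ≠ 0 → ∀ k₁ k₂ : ℤ,
      (V20o A q M).valuation x
        = (V20o A q M).valuation ((q : ℕ) : ↥(L0 A (M * q * q))) ^ k₁ →
      (V11o A q M B k hB hq).valuation x
        = (V11o A q M B k hB hq).valuation (pi11 A q M) ^ k₂ →
      V'₁.valuation (Nα x) = V'₁.valuation ((q : ℕ) : ↥(L0 A (M * q))) ^ (k₁ + k₂))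
    (hNα₂ : ∀ x : ↥(L0 A (M * q * q)), x ≠ 0 → ∀ k₃ : ℤ,
      (V02o A q M B k hB).valuation x
        = (V02o A q M B k hB).valuation ((q : ℕ) : ↥(L0 A (M * q * q))) ^ k₃ →
      V'₂.valuation (Nα x) = V'₂.valuation ((q : ℕ) : ↥(L0 A (M * q))) ^ ((q : ℤ) * k₃))
    (hNβ₁ : ∀ x : ↥(L0 A (M * q * q)), x ≠ 0 → ∀ k₁ : ℤ,
      (V20o A q M).valuation x
        = (V20o A q M).valuation ((q : ℕ) : ↥(L0 A (M * q * q))) ^ k₁ →
      V'₁.valuation (Nβ x) = V'₁.valuation ((q : ℕ) : ↥(L0 A (M * q))) ^ ((q : ℤ) * k₁))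
    (hNβ₂ : ∀ x : ↥(L0 A (M * q * q)), x ≠ 0 → ∀ k₂ k₃ : ℤ,
      (V11o A q M B k hB hq).valuation x
        = (V11o A q M B k hB hq).valuation (pi11 A q M) ^ k₂ →
      (V02o A q M B k hB).valuation x
        = (V02o A q M B k hB).valuation ((q : ℕ) : ↥(L0 A (M * q * q))) ^ k₃ →
      V'₂.valuation (Nβ x) = V'₂.valuation ((q : ℕ) : ↥(L0 A (M * q))) ^ (k₂ + k₃)) :
    ValVecModC A q M B k hB hq := by
  intro n hn f hf hα hβ
  obtain ⟨cα, gα, hcα, hgα, eα⟩ := hα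
  obtain ⟨cβ, gβ, hcβ, hgβ, eβ⟩ := hβ
  -- the uniformisers
  have hq0 : ((q : ℕ) : ↥(L0 A (M * q * q))) ≠ 0 := piE_ne_zero A q (M * q * q) hq
  have hq0' : ((q : ℕ) : ↥(L0 A (M * q))) ≠ 0 := piE_ne_zero A q (M * q) hq
  have hpi0 : pi11 A q M ≠ 0 := by
    intro h0
    have h1 := hram11' A q M B k hB hq hA
    rw [h0, map_zero, zero_pow (Nat.sub_pos_of_lt hq.one_lt).ne'] at h1
    exact hq0 ((Valuation.zero_iff _).1 h1)
  -- the valuation vector of `f`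
  obtain ⟨k₁, hk₁⟩ := exact20 A q M B k hB hq hqM hA f hf
  obtain ⟨k₂, hk₂⟩ := exact11 A q M B k hB hq hqM hA f hf
  obtain ⟨k₃, hk₃⟩ := exact02 A q M B k hB hq hqM hA f hf
  have hvq' : V'₁.valuation ((q : ℕ) : ↥(L0 A (M * q))) ≠ 0 :=
    (Valuation.ne_zero_iff _).2 hq0'
  -- the constants are not zero
  have hNα0 : Nα f ≠ 0 := by
    intro h0
    have h1 := hNα₁ f hf k₁ k₂ hk₁ hk₂
    rw [h0, map_zero] at h1
    exact zpow_ne_zero _ hvq' h1.symm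
  have hNβ0 : Nβ f ≠ 0 := by
    intro h0
    have h1 := hNβ₁ f hf k₁ hk₁
    rw [h0, map_zero] at h1
    exact zpow_ne_zero _ hvq' h1.symm
  have hcα0 : cα ≠ 0 := by
    rintro rfl
    apply hNα0
    apply Subtype.ext
    rw [hbrα, eα, map_zero, zero_mul]
    rfl
  have hcβ0 : cβ ≠ 0 := by
    rintro rfl
    apply hNβ0
    apply Subtype.ext
    rw [hbrβ, eβ, map_zero, zero_mul]
    rfl
  have hcαm : algebraMap Kbar (FN (M * q)) cα ∈ L0 A (M * q) := (const_mem_L0_iff A cα).2 hcα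
  have hcβm : algebraMap Kbar (FN (M * q)) cβ ∈ L0 A (M * q) := (const_mem_L0_iff A cβ).2 hcβ
  have eα' : Nα f = (⟨algebraMap Kbar (FN (M * q)) cα, hcαm⟩ : ↥(L0 A (M * q)))
      * (⟨gα, hgα⟩ : ↥(L0 A (M * q))) ^ n := by
    apply Subtype.ext
    rw [hbrα, eα]
    rfl
  have eβ' : Nβ f = (⟨algebraMap Kbar (FN (M * q)) cβ, hcβm⟩ : ↥(L0 A (M * q)))
      * (⟨gβ, hgβ⟩ : ↥(L0 A (M * q))) ^ n := by
    apply Subtype.ext
    rw [hbrβ, eβ]
    rfl
  exact H16.valvec (V20o A q M) (V11o A q M B k hB hq) (V02o A q M B k hB) V'₁ V'₂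
    ((q : ℕ) : ↥(L0 A (M * q * q))) (pi11 A q M) ((q : ℕ) : ↥(L0 A (M * q * q)))
    ((q : ℕ) : ↥(L0 A (M * q * q))) t₁₁ t₀₂
    ((q : ℕ) : ↥(L0 A (M * q))) ((q : ℕ) : ↥(L0 A (M * q))) q n hq.one_lt.le hn.ne'
    hq0 hpi0 hq0
    (exact20 A q M B k hB hq hqM hA) (exact11 A q M B k hB hq hqM hA)
    (exact02 A q M B k hB hq hqM hA)
    rfl (hram11' A q M B k hB hq hA) rfl ht₁₁ ht₀₂ hϖ₁ hϖ₂ hq0' hq0' hD'₁ hD'₂
    Nα Nβ hNα₁ hNα₂ hNβ₁ hNβ₂ f hf _ _ _ _ eα' eβ'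
    (hconst cα hcαm hcα0) (hconst cβ hcβm hcβ0)

end CoreThm

end Core

end Fermat.Agent.S36.NU.H51
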