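import Fermat.Agent.S36.NU.H51_ValVecA2
import Fermat.Agent.S36.NU.H10_Final

/-!
# S36 / NU-B, leaf VALVEC-MOD (helper51): the final statement, in the shapes of helper10

* `stmt_ValVecMod_final : ¬ q ∣ M → A.LiesOverPrime q → H10.Stmt_ValVecMod A q M B k hB hq`
  with the instances `[NeZero M] [NeZero q] [NeZero (M * q * q)]` only;
* `stmt_ValVecAll : H10.Stmt_ValVecAll`.
-/

set_option autoImplicit false
set_option linter.style.haveILetI false
set_option linter.unusedSectionVars false

noncomputable section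

open Fermat.Agent.S24

namespace Fermat.Agent.S36.NU.H51

/-- **VALVEC-MOD** (second target of `H10.Stmt_S36Targets`). -/
theorem stmt_ValVecMod_final (A : ValuationSubring Kbar) (q M : ℕ) (B k : ℤ)
    (hB : B * M + k * q = 1) (hq : q.Prime) [NeZero M] [NeZero q] [NeZero (M * q * q)]
    (hqM : ¬ q ∣ M) (hA : A.LiesOverPrime q) : H10.Stmt_ValVecMod A q M B k hB hq :=
  haveI : NeZero (M * q) := ⟨mul_ne_zero (NeZero.ne M) (NeZero.ne q)⟩
  stmt_ValVecMod A q M B k hB hq hqM hA

/-- **VALVEC at every level** (third input of `H10.nuCoreTame_final`). -/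
theorem stmt_ValVecAll : H10.Stmt_ValVecAll :=
  fun A q M B k hB hq _ _ _ _ hqM hA _ _ => stmt_ValVecMod A q M B k hB hq hqM hA

end Fermat.Agent.S36.NU.H51
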