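import Fermat.Agent.S36.NU.H51_ValVecCore
import Fermat.Agent.S36.NU.H82_Val0
import Fermat.Agent.BAD.H88_WqGal

/-!
# S36 / NU-B, leaf VALVEC-MOD (helper51): the two valuations of the lower level

`W` a valuation ring of `F_N` (`N = M q`) which induces `A` on the constants and whose values on
the inertia-fixed functions are powers of the value of `q` (`IsLowVal`).  Then its restriction to
`L0 A N` satisfies the hypotheses `hϖ`, `hD'`, `hconst` of `valVecMod_core`.

* `isLowVal_V20` : the Gauss valuation;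
* `isLowVal_V2` : the second valuation `V₂ = V₁ ∘ w_q`.
-/

set_option autoImplicit false
set_option synthInstance.maxHeartbeats 400000
set_option maxHeartbeats 1000000
set_option linter.style.haveILetI false
set_option linter.unusedSectionVars false

noncomputable section

open ModularCurve AlgebraicCurve
open Fermat.Agent.S24 Fermat.Agent.BAD.H88 Fermat.Agent.S28 Fermat.Agent.S28.H73
open Fermat.Agent.RED.H73 Fermat.Agent.RED.H17 Fermat.Agent.S36.NU.H88
open Fermat.Agent.S36.NU.H23 Fermat.Agent.Lib.HeckeComm Fermat.Agent.BAD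
open Fermat.Agent.S36.NU.H82

namespace Fermat.Agent.S36.NU.H51

section Low

variable (A : ValuationSubring Kbar) (N : ℕ) [NeZero N] (q : ℕ)

/-- A valuation ring of `F_N` inducing `A` on the constants, with values in `v(q)^ℤ` on the
inertia-fixed functions. -/
structure IsLowVal (W : ValuationSubring (FN N)) : Prop where
  const : ∀ c : Kbar, algebraMap Kbar (FN N) c ∈ W ↔ c ∈ A
  exact : ∀ x : FN N, x ∈ L0 A N → x ≠ 0 →
    ∃ m : ℤ, W.valuation x = W.valuation ((q : ℕ) : FN N) ^ m

variable {A N q}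

theorem IsLowVal.val_q_lt_one {W : ValuationSubring (FN N)} (h : IsLowVal A N q W)
    (hA : A.LiesOverPrime q) : W.valuation ((q : ℕ) : FN N) < 1 := by
  have e : ((q : ℕ) : FN N) = algebraMap Kbar (FN N) (q : Kbar) := (map_natCast _ q).symm
  rw [e]
  apply lt_of_le_of_ne
  · rw [ValuationSubring.valuation_le_one_iff, h.const]
    exact ((A.mem_nonunits_iff_exists_mem_maximalIdeal).1 hA).1
  · intro h1
    have hq0 : algebraMap Kbar (FN N) (q : Kbar) ≠ 0 := by
      intro h0
      rw [h0, map_zero] at h1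
      exact zero_ne_one h1
    have h2 : (algebraMap Kbar (FN N) (q : Kbar))⁻¹ ∈ W := by
      rw [← ValuationSubring.valuation_le_one_iff, map_inv₀, h1, inv_one]
    rw [← map_inv₀, h.const] at h2
    have h3 : A.valuation (q : Kbar) < 1 := (A.mem_nonunits_iff).1 hA
    have h4 : A.valuation (q : Kbar)⁻¹ ≤ 1 := (ValuationSubring.valuation_le_one_iff _ _).2 h2
    rw [map_inv₀] at h4
    have hq0' : (q : Kbar) ≠ 0 := fun h => hq0 (by rw [h, map_zero])
    have h5 := (inv_le_one₀ (zero_lt_iff.2 ((Valuation.ne_zero_iff _).2 hq0'))).1 h4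
    exact absurd h3 (not_lt.2 h5)

theorem coe_natCast_zpow_L0 (m : ℤ) :
    (((((q : ℕ) : ↥(L0 A N)) ^ m : ↥(L0 A N)) : FN N)) = ((q : ℕ) : FN N) ^ m := by
  have h := map_zpow₀ (L0 A N).subtype ((q : ℕ) : ↥(L0 A N)) m
  rw [map_natCast] at h
  exact h

theorem IsLowVal.res_val_q_lt_one {W : ValuationSubring (FN N)} (h : IsLowVal A N q W)
    (hA : A.LiesOverPrime q) :
    (resV0 (L0 A N) W).valuation ((q : ℕ) : ↥(L0 A N)) < 1 := by
  rw [valuation_resV0_lt_one_iff]
  exact h.val_q_lt_one hA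

theorem IsLowVal.res_exact {W : ValuationSubring (FN N)} (h : IsLowVal A N q W)
    (y : ↥(L0 A N)) (hy : y ≠ 0) :
    ∃ m : ℤ, (resV0 (L0 A N) W).valuation y
      = (resV0 (L0 A N) W).valuation ((q : ℕ) : ↥(L0 A N)) ^ m := by
  have hy' : (y : FN N) ≠ 0 := fun h0 => hy (Subtype.ext h0)
  obtain ⟨m, hm⟩ := h.exact (y : FN N) y.2 hy'
  refine ⟨m, ?_⟩
  rw [← map_zpow₀, valuation_resV0_eq_iff, coe_natCast_zpow_L0, map_zpow₀]
  exact hm

theorem IsLowVal.val_const {W : ValuationSubring (FN N)} (h : IsLowVal A N q W)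
    (c : Kbar) (m : ℤ) (hm : A.valuation c = A.valuation (q : Kbar) ^ m)
    (hc : algebraMap Kbar (FN N) c ∈ L0 A N) :
    (resV0 (L0 A N) W).valuation (⟨algebraMap Kbar (FN N) c, hc⟩ : ↥(L0 A N))
      = (resV0 (L0 A N) W).valuation ((q : ℕ) : ↥(L0 A N)) ^ m := by
  rw [← map_zpow₀, valuation_resV0_eq_iff, coe_natCast_zpow_L0]
  have h1 : A.valuation c = A.valuation ((q : Kbar) ^ m) := by rw [map_zpow₀]; exact hm
  have h2 := val_algebraMap_congr A W h.const h1
  rw [h2, map_zpow₀, map_natCast]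

/-- The hypothesis `hconst` of `valVecMod_core`. -/
theorem IsLowVal.res_const {W₁ W₂ : ValuationSubring (FN N)} (h₁ : IsLowVal A N q W₁)
    (h₂ : IsLowVal A N q W₂) (hq : q.Prime) (hA : A.LiesOverPrime q)
    (c : Kbar) (hc : algebraMap Kbar (FN N) c ∈ L0 A N) (hc0 : c ≠ 0) :
    ∃ m : ℤ,
      (resV0 (L0 A N) W₁).valuation (⟨algebraMap Kbar (FN N) c, hc⟩ : ↥(L0 A N))
        = (resV0 (L0 A N) W₁).valuation ((q : ℕ) : ↥(L0 A N)) ^ m ∧
      (resV0 (L0 A N) W₂).valuation (⟨algebraMap Kbar (FN N) c, hc⟩ : ↥(L0 A N))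
        = (resV0 (L0 A N) W₂).valuation ((q : ℕ) : ↥(L0 A N)) ^ m := by
  obtain ⟨m, hm⟩ := valuation_Kur A hq hA c ((const_mem_L0_iff A c).1 hc) hc0
  exact ⟨m, h₁.val_const c m hm hc, h₂.val_const c m hm hc⟩

variable (A N q)

/-- The Gauss valuation. -/
theorem isLowVal_V20 (hq : q.Prime) (hA : A.LiesOverPrime q) : IsLowVal A N q (V20 A N) where
  const := const_mem20 A N
  exact := fun x hx hx0 => exists_val20_eq_zpow A N hq hA x hx hx0

end Low

section Low2

variable (A : ValuationSubring Kbar)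
variable (q M : ℕ) (a b : ℤ) (hab : a * q + b * M = 1) (hq : q.Prime) [NeZero (M * q)]

/-- `w_q` preserves the inertia-fixed functions. -/
theorem wq_mem_L0 (x : FN (M * q)) (hx : x ∈ L0 A (M * q)) :
    wq q M a b hab hq x ∈ L0 A (M * q) := by
  intro σ hσ
  have h := wq_arith q M a b hab hq σ x
  rw [hx σ hσ] at h
  exact h.symm

/-- The second valuation `V₂ = V₁ ∘ w_q`. -/
theorem isLowVal_V2 (hA : A.LiesOverPrime q) :
    IsLowVal A (M * q) q (V2 A q M a b hab hq) where
  const := fun c => (const_mem2 A q M a b hab hq c).trans (const_mem1 A q M c)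
  exact := fun x hx hx0 => by
    have hw0 : wq q M a b hab hq x ≠ 0 := by
      intro h0
      exact hx0 ((map_eq_zero_iff _ (wq q M a b hab hq).injective).1 h0)
    obtain ⟨m, hm⟩ := exists_val20_eq_zpow A (M * q) hq hA _
      (wq_mem_L0 A q M a b hab hq x hx) hw0
    refine ⟨m, ?_⟩
    rw [← map_zpow₀]
    refine (val_eq_iff_of_mem_iff (V2 A q M a b hab hq) (V1 A q M)
      ((wq q M a b hab hq : FN (M * q) ≃ₐ[Kbar] FN (M * q)) : FN (M * q) →+* FN (M * q))
      (fun x => mem_V2_iff A q M a b hab hq x) x _).2 ?_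
    show (V1 A q M).valuation (wq q M a b hab hq x)
      = (V1 A q M).valuation (wq q M a b hab hq (((q : ℕ) : FN (M * q)) ^ m))
    rw [map_zpow₀ (wq q M a b hab hq), map_natCast, map_zpow₀]
    exact hm

end Low2

end Fermat.Agent.S36.NU.H51
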