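import Fermat.Agent.S36.NU.H51_ValVecLow
import Fermat.Agent.S36.NU.H51_Unif
import Fermat.Agent.S36.NU.H10_FinTopDefs

/-!
# S36 / NU-B, leaf VALVEC-MOD (helper51)

Level `M q²`, `q ∤ M`; `L₀ = L0 A (M q²)`, `L' = L0 A (M q)`, `V'₁`, `V'₂` the restrictions to
`L'` of the two valuations `V1`, `V2` of level `M q`.

* `exists_t11`, `exists_t02` : functions of `L₀` with valuation vectors `(0, 1, 0)`, `(0, 0, 1)`
  (approximation theorem, from helper23's `nrM`);
* `NormValHyp` : **NORM-VAL** for the norms of `L₀ / L'` along `α` and `β`;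
* `stmt_ValVecMod_of_normVal : NormValHyp → H10.Stmt_ValVecMod`.
-/

set_option autoImplicit false
set_option synthInstance.maxHeartbeats 400000
set_option maxHeartbeats 1000000
set_option linter.style.haveILetI false
set_option linter.unusedSectionVars false

noncomputable section

open ModularCurve AlgebraicCurve
open Fermat.Agent.S24 Fermat.Agent.BAD.H88 Fermat.Agent.S28 Fermat.Agent.S28.H73
open Fermat.Agent.RED.H73 Fermat.Agent.RED.H17 Fermat.Agent.S36.NU.H88
open Fermat.Agent.S36.NU.H23 Fermat.Agent.Lib.HeckeComm Fermat.Agent.BAD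
open Fermat.Agent.S36.NU.H82

namespace Fermat.Agent.S36.NU.H51

section Mod

variable (A : ValuationSubring Kbar) (q M : ℕ) (B k : ℤ) (hB : B * M + k * q = 1) (hq : q.Prime)
  [NeZero M] [NeZero q] [NeZero (M * q)] [NeZero (M * q * q)]
  (hqM : ¬ q ∣ M) (hA : A.LiesOverPrime q)

/-- The first valuation of `L' = L0 A (M q)`. -/
def V1o : ValuationSubring ↥(L0 A (M * q)) := resV0 (L0 A (M * q)) (V1 A q M)

/-- The second valuation of `L' = L0 A (M q)`. -/
def V2o : ValuationSubring ↥(L0 A (M * q)) :=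
  resV0 (L0 A (M * q)) (V2 A q M k B (hab_of_hB q M B k hB) hq)

include hqM hA in
/-- A function with valuation vector `(0, 1, 0)`. -/
theorem exists_t11 :
    ∃ t : ↥(L0 A (M * q * q)), (V20o A q M).valuation t = 1 ∧
      (V11o A q M B k hB hq).valuation t = (V11o A q M B k hB hq).valuation (pi11 A q M) ∧
      (V02o A q M B k hB).valuation t = 1 := by
  letI := algL0 A (hleMN q M)
  letI := algM A q M hq hqM hA
  obtain ⟨t, h1, h2⟩ := exists_unif (nrM A q M B k hB hq hqM hA) 1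
  exact ⟨t, h2 0 (by decide), h1, h2 2 (by decide)⟩

include hqM hA in
/-- A function with valuation vector `(0, 0, 1)`. -/
theorem exists_t02 :
    ∃ t : ↥(L0 A (M * q * q)), (V20o A q M).valuation t = 1 ∧
      (V11o A q M B k hB hq).valuation t = 1 ∧
      (V02o A q M B k hB).valuation t
        = (V02o A q M B k hB).valuation ((q : ℕ) : ↥(L0 A (M * q * q))) := by
  letI := algL0 A (hleMN q M)
  letI := algM A q M hq hqM hA
  obtain ⟨t, h1, h2⟩ := exists_unif (nrM A q M B k hB hq hqM hA) 2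
  refine ⟨t, h2 0 (by decide), h2 1 (by decide), ?_⟩
  rw [← inclL0_piE_eq A q M]
  exact h1

/-- **NORM-VAL** for the norms of `L₀ / L'` along `α` and `β`. -/
def NormValHyp : Prop :=
  ∃ Nα Nβ : ↥(L0 A (M * q * q)) → ↥(L0 A (M * q)),
    (∀ x : ↥(L0 A (M * q * q)), ((Nα x : ↥(L0 A (M * q))) : FN (M * q))
      = normAlongHom (heckeAlphaBar Kbar (M * q) q).toRingHom (x : FN (M * q * q))) ∧
    (∀ x : ↥(L0 A (M * q * q)), ((Nβ x : ↥(L0 A (M * q))) : FN (M * q))
      = normAlongHom (heckeBetaBar Kbar (M * q) q).toRingHom (x : FN (M * q * q))) ∧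
    (∀ x : ↥(L0 A (M * q * q)), x ≠ 0 → ∀ k₁ k₂ : ℤ,
      (V20o A q M).valuation x
        = (V20o A q M).valuation ((q : ℕ) : ↥(L0 A (M * q * q))) ^ k₁ →
      (V11o A q M B k hB hq).valuation x
        = (V11o A q M B k hB hq).valuation (pi11 A q M) ^ k₂ →
      (V1o A q M).valuation (Nα x)
        = (V1o A q M).valuation ((q : ℕ) : ↥(L0 A (M * q))) ^ (k₁ + k₂)) ∧
    (∀ x : ↥(L0 A (M * q * q)), x ≠ 0 → ∀ k₃ : ℤ,
      (V02o A q M B k hB).valuation x
        = (V02o A q M B k hB).valuation ((q : ℕ) : ↥(L0 A (M * q * q))) ^ k₃ →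
      (V2o A q M B k hB hq).valuation (Nα x)
        = (V2o A q M B k hB hq).valuation ((q : ℕ) : ↥(L0 A (M * q))) ^ ((q : ℤ) * k₃)) ∧
    (∀ x : ↥(L0 A (M * q * q)), x ≠ 0 → ∀ k₁ : ℤ,
      (V20o A q M).valuation x
        = (V20o A q M).valuation ((q : ℕ) : ↥(L0 A (M * q * q))) ^ k₁ →
      (V1o A q M).valuation (Nβ x)
        = (V1o A q M).valuation ((q : ℕ) : ↥(L0 A (M * q))) ^ ((q : ℤ) * k₁)) ∧
    (∀ x : ↥(L0 A (M * q * q)), x ≠ 0 → ∀ k₂ k₃ : ℤ,
      (V11o A q M B k hB hq).valuation x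
        = (V11o A q M B k hB hq).valuation (pi11 A q M) ^ k₂ →
      (V02o A q M B k hB).valuation x
        = (V02o A q M B k hB).valuation ((q : ℕ) : ↥(L0 A (M * q * q))) ^ k₃ →
      (V2o A q M B k hB hq).valuation (Nβ x)
        = (V2o A q M B k hB hq).valuation ((q : ℕ) : ↥(L0 A (M * q))) ^ (k₂ + k₃))

include hqM hA in
/-- **VALVEC-MOD** from NORM-VAL. -/
theorem stmt_ValVecMod_of_normVal (h : NormValHyp A q M B k hB hq) :
    H10.Stmt_ValVecMod A q M B k hB hq := by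
  obtain ⟨Nα, Nβ, hbrα, hbrβ, hNα₁, hNα₂, hNβ₁, hNβ₂⟩ := h
  obtain ⟨t₁₁, ht₁₁⟩ := exists_t11 A q M B k hB hq hqM hA
  obtain ⟨t₀₂, ht₀₂⟩ := exists_t02 A q M B k hB hq hqM hA
  have h1 : IsLowVal A (M * q) q (V1 A q M) := isLowVal_V20 A (M * q) q hq hA
  have h2 : IsLowVal A (M * q) q (V2 A q M k B (hab_of_hB q M B k hB) hq) :=
    isLowVal_V2 A q M k B (hab_of_hB q M B k hB) hq hA
  exact valVecMod_core A q M B k hB hq hqM hA (V1o A q M) (V2o A q M B k hB hq)
    (h1.res_val_q_lt_one hA) (h2.res_val_q_lt_one hA) h1.res_exact h2.res_exact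
    (fun c hc hc0 => h1.res_const h2 hq hA c hc hc0) t₁₁ t₀₂ ht₁₁ ht₀₂ Nα Nβ hbrα hbrβ
    hNα₁ hNα₂ hNβ₁ hNβ₂

end Mod

end Fermat.Agent.S36.NU.H51
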