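import Fermat.Agent.S36.NU.H73_Pole

/-!
# S36 / NU-B, leaf Q23 (helper5): `d̄` has a pole where the differential `dt/t` vanishes

Abstract form, any prime `q`.  `E ⊆ k((t))` with `[E : E^q] = q`, `z` a place of `E / k`, `ū` a
coordinate at `z`, `d̄` with THETA.  If some `h ∈ E` satisfies an ODE `θ h · b = a` with `a` a unit
at `z` and `b` vanishing at `z`, then `θ ū` has a pole at `z`, hence `d̄ ∉ O_z`; with (L1) this gives
`c ∈ 𝔽_{q²}` and `ord_z d̄ = -1`.

No ramification input is used.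
-/

set_option autoImplicit false

noncomputable section

open ModularCurve AlgebraicCurve IntermediateField Polynomial

namespace Fermat.Agent.S36.NU.H5

open Fermat.Agent.RED.H51 Fermat.Agent.S36.NU.H73

variable {k : Type*} [Field k] {q : ℕ} [Fact q.Prime] [CharP k q]
variable {E : IntermediateField k (LaurentSeries k)}

/-- **`d̄ ∉ O_z`** at a place `z` where an ODE `θ h · b = a` degenerates (`a` unit, `b(z) = 0`). -/
theorem q23_dbar_not_mem_ode (hPB : HasPBasis q ↥E) (z : Place k ↥E) {u d h a b : ↥E} (c : k)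
    (hu : z.ord (u - algebraMap k ↥E c) = 1)
    (hθ : thetaL (d : LaurentSeries k) =
      (u : LaurentSeries k) ^ (q - 1) * thetaL (u : LaurentSeries k) -
        thetaL (u : LaurentSeries k) ^ q)
    (hode : thetaL (h : LaurentSeries k) * (b : LaurentSeries k) = (a : LaurentSeries k))
    (hh : h ∈ z.toValuationSubring) (ha0 : a ≠ 0) (ha : z.ord a = 0) (hb : OrdGe z 1 b) :
    d ∉ z.toValuationSubring := by
  intro hd
  have hq : q.Prime := Fact.out
  have hθh : thetaL (h : LaurentSeries k) ≠ 0 := by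
    intro h0
    rw [h0, zero_mul] at hode
    apply ha0
    apply Subtype.ext
    rw [← hode]
    rfl
  have hπθ : thetaL ((u - algebraMap k ↥E c : ↥E) : LaurentSeries k) =
      thetaL (u : LaurentSeries k) := by
    rw [coeE_sub, map_sub,
      show ((algebraMap k ↥E c : ↥E) : LaurentSeries k) = algebraMap k (LaurentSeries k) c from rfl,
      thetaL_algebraMap, sub_zero]
  have hθ0 : thetaL (u : LaurentSeries k) ≠ 0 := by
    have := thetaL_ne_zero_of_ord hPB z hu hθh
    rwa [hπθ] at this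
  obtain ⟨X, hX, hXθ⟩ := Gu_mem hPB z c hu hθ0 hθ hd
  obtain ⟨g, hg, hgθ⟩ := theta_mem hPB z hu hh
  rw [hπθ] at hgθ
  -- `a ^ (q-1) = g ^ (q-1) * X * b ^ (q-1)` in `E`
  have hkey : a ^ (q - 1) = g ^ (q - 1) * X * b ^ (q - 1) := by
    apply Subtype.ext
    rw [IntermediateField.coe_pow, IntermediateField.coe_mul, IntermediateField.coe_mul,
      IntermediateField.coe_pow, IntermediateField.coe_pow, hXθ, ← hode, hgθ]
    ring
  have hq1 : 1 ≤ q - 1 := by have := hq.two_le; omega
  have hR : OrdGe z (0 + 1) (g ^ (q - 1) * X * b ^ (q - 1)) := by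
    refine OrdGe.mul ((ordGe_zero_iff_mem z _).mpr (mul_mem (pow_mem hg _) hX)) ?_
    have h1 := ordGe_pow hb (q - 1)
    refine h1.mono ?_
    have : (1 : ℤ) ≤ ((q - 1 : ℕ) : ℤ) := by exact_mod_cast hq1
    nlinarith
  rw [← hkey] at hR
  have h2 := hR.le (pow_ne_zero _ ha0)
  rw [ord_pow, ha] at h2
  simp at h2

/-- **POLE at a degenerate point of an ODE**: `c ∈ 𝔽_{q²}` and `ord_z d̄ = -1`. -/
theorem q23_ord_dbar_ode (hPB : HasPBasis q ↥E) (z : Place k ↥E) {u d h a b P : ↥E} (c : k)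
    (hu : z.ord (u - algebraMap k ↥E c) = 1)
    (hθ : thetaL (d : LaurentSeries k) =
      (u : LaurentSeries k) ^ (q - 1) * thetaL (u : LaurentSeries k) -
        thetaL (u : LaurentSeries k) ^ q)
    (hode : thetaL (h : LaurentSeries k) * (b : LaurentSeries k) = (a : LaurentSeries k))
    (hh : h ∈ z.toValuationSubring) (ha0 : a ≠ 0) (ha : z.ord a = 0) (hb : OrdGe z 1 b)
    (hL1 : P = d * (u ^ q ^ 2 - u)) (hP : P ∈ z.toValuationSubring) :
    c ^ q ^ 2 = c ∧ z.ord d = -1 :=
  haveI : CharP ↥E q := charP_E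
  pole_of_not_mem q z c hu hL1 hP (q23_dbar_not_mem_ode hPB z c hu hθ hode hh ha0 ha hb)

end Fermat.Agent.S36.NU.H5
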