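import Fermat.Agent.S36.NU.H5_Q23Gu
import Fermat.Agent.S36.NU.H30_Ram

/-!
# S36 / NU-B, COORD at ALL regular places for `q = 2, 3` (helper5)

`κ = modularFunctionFieldFullC (kV A) M'`, `A` over `q ∈ {2, 3}`, `q ∤ M'`, tame level
(`4 ∣ M'` for `q = 3`, `9 ∣ M'` for `q = 2`), `h̄` = the reduction of the Hauptmodul of `X₀(4)`
resp. `X₀(9)`.

* `q23_ram_generic_eq`, `q23_ram_full_generic_eq` : RAM at a generic value for ALL tame `(M', q)`
  (helper30's `ram_generic_eq` is stated for `q ≥ 5`): every zero of `j̄ - γ`, `γ ≠ 0, 1728`, is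
  simple.
* `q23_deg_fullC` : every place of `κ` has degree one (tame `(M', q)`).
* `q23_coord_final_three`, `q23_coord_final_two` : **COORD** at every place `z` of `κ` at which
  `j̄` is regular: `ord_z h̄ = 0` and `ord_z (h̄ - c) = 1` for some constant `c`
  (the analogue of `H30.coord_u4_final`).
-/

set_option autoImplicit false
set_option linter.style.haveILetI false
set_option linter.unusedSectionVars false
set_option synthInstance.maxHeartbeats 400000
set_option maxHeartbeats 1000000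

noncomputable section

open ModularCurve AlgebraicCurve IntermediateField Polynomial Fermat.Agent.S28.H73
  Fermat.Agent.RED.H73 Fermat.Agent.BAD.H88 Fermat.Agent.BAD.H82 Fermat.Agent.S24

namespace Fermat.Agent.S36.NU.H5

open Fermat.Agent.BAD.H73 Fermat.Agent.RED.H51 Fermat.Agent.S36.NU.H73 Fermat.Agent.BAD.H21
  Fermat.Agent.BAD.H30 Fermat.Agent.BAD Fermat.Agent.S36.NU.H30

section Ram

variable {A : ValuationSubring Kbar} {M q : ℕ} [NeZero M]

/-- **RAM at a generic value** (all tame `(M, q)`): every zero of `j~ - γ`, `γ ≠ 0, 1728`, is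
simple. -/
theorem q23_ram_generic_eq (hq : q.Prime) (hqM : ¬ q ∣ M) (ht : H91.TameAt M q)
    (hA : A.LiesOverPrime q)
    (γ : kV A) (h0 : γ ≠ 0) (h1728 : γ ≠ 1728) (z : Place (kV A) ↥(H91.redM A M))
    (hz : 0 < z.ord (H91.jRed A M - algebraMap (kV A) ↥(H91.redM A M) γ)) :
    z.ord (H91.jRed A M - algebraMap (kV A) ↥(H91.redM A M) γ) = 1 := by
  obtain ⟨ρ, rfl⟩ := (redSetting A (hasScale_laurentBaseChange A M)).resO_surj γ
  have hρ0 : (ρ : Kbar) ≠ 0 := by
    intro h
    apply h0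
    have : ρ = 0 := Subtype.ext h
    rw [this, map_zero]
  have hρ1 : (ρ : Kbar) ≠ 1728 := by
    intro h
    apply h1728
    have : ρ = 1728 := Subtype.ext h
    rw [this, map_ofNat]
  refine ram_red_eq hq hqM ht hA ρ 1
    (fun P hP => ram_char0_generic M (ρ : Kbar) hρ0 hρ1 P hP) ?_ z hz
  intro ρ' hb hres
  exfalso
  rcases Fermat.Agent.RED.H76.isBranchValue_jF M hb with h | h
  · apply h0
    rw [← hres]
    have : ρ' = 0 := Subtype.ext h
    rw [this, map_zero]
  · apply h1728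
    rw [← hres]
    have : ρ' = 1728 := Subtype.ext h
    rw [this, map_ofNat]

/-- **RAM at a generic value**, on `κ` (all tame `(M, q)`). -/
theorem q23_ram_full_generic_eq (hq : q.Prime) (hqM : ¬ q ∣ M) (ht : H91.TameAt M q)
    (hA : A.LiesOverPrime q) (γ : kV A) (h0 : γ ≠ 0) (h1728 : γ ≠ 1728)
    (jE : ↥(modularFunctionFieldFullC (kV A) M))
    (hj : (jE : LaurentSeries (kV A)) = jqModC (kV A))
    (z : Place (kV A) ↥(modularFunctionFieldFullC (kV A) M))
    (hz : 0 < z.ord (jE - algebraMap (kV A) ↥(modularFunctionFieldFullC (kV A) M) γ)) :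
    z.ord (jE - algebraMap (kV A) ↥(modularFunctionFieldFullC (kV A) M) γ) = 1 :=
  ram_transport_eq (modularFunctionFieldFullC (kV A) M) (stmt_GA M q hq hqM A hA) jE hj
    γ 1 (fun z hz => q23_ram_generic_eq hq hqM ht hA γ h0 h1728 z hz) z hz

/-- Every place of `κ` has degree one (all tame `(M, q)`). -/
theorem q23_deg_fullC (hq : q.Prime) (hqM : ¬ q ∣ M) (ht : H91.TameAt M q)
    (hA : A.LiesOverPrime q)
    (z : Place (kV A) ↥(modularFunctionFieldFullC (kV A) M)) : z.deg = 1 :=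
  (Fermat.Agent.BAD.H17.ffHyp_congr (Fermat.Agent.RED.H73.stmt_GA M q hq hqM A hA)
    (Fermat.Agent.BAD.H17.ffHyp_redM hq hqM ht hA)).deg_one z

end Ram

section Abs

variable {k : Type*} [Field k] {E : IntermediateField k (LaurentSeries k)}

/-- If `j · P₁(h) = P₀(h)` with `P₁(h)` a unit at `z`, `h` regular at `z`, and `j - γ` is a
uniformizer at the degree-one place `z`, then `h - c` is a uniformizer for some constant `c`. -/
theorem q23_coord_of_rel (z : Place k ↥E) (hdeg : z.deg = 1) {h j : ↥E} (P0 P1 : k[X])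
    (hrel : j * aeval h P1 = aeval h P0) (hU0 : aeval h P1 ≠ 0) (hU : z.ord (aeval h P1) = 0)
    (hh : h ∈ z.toValuationSubring) (γ : k)
    (hγ : z.ord (j - algebraMap k ↥E γ) = 1) :
    ∃ c : k, z.ord (h - algebraMap k ↥E c) = 1 := by
  obtain ⟨c, hc⟩ := exists_value z hdeg ((ordGe_zero_iff_mem z h).mpr hh)
  refine ⟨c, ?_⟩
  have hjγ0 : j - algebraMap k ↥E γ ≠ 0 := ne_zero_of_ord_ne_zero z (by omega)
  set P : k[X] := P0 - C γ * P1 with hP
  have hPh : aeval h P = (j - algebraMap k ↥E γ) * aeval h P1 := by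
    rw [hP, map_sub, map_mul, aeval_C, ← hrel]
    ring
  have hPh0 : aeval h P ≠ 0 := by
    rw [hPh]
    exact mul_ne_zero hjγ0 hU0
  have hord : z.ord (aeval h P) = 1 := by
    rw [hPh, z.ord_mul hjγ0 hU0, hγ, hU, add_zero]
  -- `c` is a root of `P`
  have hroot : P.IsRoot c := by
    by_contra hnr
    have hne : P.eval c ≠ 0 := hnr
    have hr : (P - C (P.eval c)).IsRoot c := by
      rw [IsRoot, eval_sub, eval_C, sub_self]
    have h1 := ordGe_aeval_of_isRoot z hc hr
    rw [map_sub, aeval_C] at h1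
    have h2 := ord_sub_const z h1 (b := 0) hne
    rw [map_zero, sub_zero] at h2
    rw [h2.2] at hord
    exact zero_ne_one hord
  obtain ⟨Q, hQ⟩ := dvd_iff_isRoot.mpr hroot
  have hfac : aeval h P = (h - algebraMap k ↥E c) * aeval h Q := by
    rw [hQ, map_mul, map_sub, aeval_X, aeval_C]
  have hhc0 : h - algebraMap k ↥E c ≠ 0 := by
    intro h0
    rw [hfac, h0, zero_mul] at hPh0
    exact hPh0 rfl
  have hQ0 : aeval h Q ≠ 0 := by
    intro h0
    rw [hfac, h0, mul_zero] at hPh0
    exact hPh0 rfl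
  have hQm : 0 ≤ z.ord (aeval h Q) := by
    rw [← mem_iff_ord_nonneg z hQ0]
    exact aeval_mem z hh Q
  have hge : 1 ≤ z.ord (h - algebraMap k ↥E c) := hc.le hhc0
  rw [hfac, z.ord_mul hhc0 hQ0] at hord
  omega

end Abs

section Concrete

variable (A : ValuationSubring Kbar) (M : ℕ) [NeZero M]

theorem q23jFull_sub_ne_zero (γ : kV A) :
    q23jFull A M - algebraMap (kV A) ↥(modularFunctionFieldFullC (kV A) M) γ ≠ 0 := by
  intro h0
  have h1 := congrArg (fun x : ↥(modularFunctionFieldFullC (kV A) M) =>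
    (x : LaurentSeries (kV A)).coeff (-1)) h0
  simp only [ZeroMemClass.coe_zero, HahnSeries.coeff_zero] at h1
  rw [coeE_sub, HahnSeries.coeff_sub, coeff_jqModC_neg_one,
    show ((algebraMap (kV A) ↥(modularFunctionFieldFullC (kV A) M) γ :
      ↥(modularFunctionFieldFullC (kV A) M)) : LaurentSeries (kV A))
      = algebraMap (kV A) (LaurentSeries (kV A)) γ from rfl, LaurentSeries.algebraMap_apply,
    HahnSeries.C_apply, HahnSeries.coeff_single_of_ne (by norm_num), sub_zero] at h1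
  exact one_ne_zero h1

/-- The value of `j̄` at a place where it is regular and does not vanish, with RAM. -/
theorem q23_ord_j_sub {q : ℕ} (hq : q.Prime) (hqM : ¬ q ∣ M) (ht : H91.TameAt M q)
    (hA : A.LiesOverPrime q) (h1728 : (1728 : kV A) = 0)
    (z : Place (kV A) ↥(modularFunctionFieldFullC (kV A) M))
    (hz : z.ord (q23jFull A M) = 0) :
    ∃ γ : kV A, γ ≠ 0 ∧
      z.ord (q23jFull A M - algebraMap (kV A) ↥(modularFunctionFieldFullC (kV A) M) γ) = 1 := by
  have hdeg := q23_deg_fullC hq hqM ht hA z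
  obtain ⟨γ, hγ⟩ := exists_value z hdeg (Or.inr hz.ge : OrdGe z 0 (q23jFull A M))
  have hpos : 0 < z.ord (q23jFull A M
      - algebraMap (kV A) ↥(modularFunctionFieldFullC (kV A) M) γ) :=
    lt_of_lt_of_le one_pos (hγ.le (q23jFull_sub_ne_zero A M γ))
  have hγ0 : γ ≠ 0 := by
    rintro rfl
    rw [map_zero, sub_zero] at hpos
    omega
  refine ⟨γ, hγ0, ?_⟩
  exact q23_ram_full_generic_eq hq hqM ht hA γ hγ0 (by rw [h1728]; exact hγ0)
    (q23jFull A M) rfl z hpos

/-- **COORD for `q = 3` at every regular place** (`4 ∣ M`, `3 ∤ M`): `h̄` is a unit and (up to a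
constant) a local coordinate at every place of `κ` at which `j̄` is regular. -/
theorem q23_coord_final_three (hA : A.LiesOverPrime 3) (h4 : 4 ∣ M) (h3 : ¬ 3 ∣ M)
    (z : Place (kV A) ↥(modularFunctionFieldFullC (kV A) M))
    (hz : 0 ≤ z.ord (⟨jqModC (kV A), jqModC_mem_full (kV A) M⟩ :
      ↥(modularFunctionFieldFullC (kV A) M))) :
    z.ord (q23hFull3 A M h4) = 0 ∧
      ∃ c : kV A, z.ord (q23hFull3 A M h4
        - algebraMap (kV A) ↥(modularFunctionFieldFullC (kV A) M) c) = 1 := by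
  haveI : CharP (kV A) 3 := charP_kV A Nat.prime_three hA
  have h2k : (2 : kV A) ≠ 0 := by
    intro h2
    have h3' : ((3 : ℕ) : kV A) = 0 := CharP.cast_eq_zero (kV A) 3
    have h1 : (1 : kV A) = 0 := by
      have : (1 : kV A) = ((3 : ℕ) : kV A) - 2 := by push_cast; ring
      rw [this, h3', h2, sub_zero]
    exact one_ne_zero h1
  have hrel := q23hFull3_rel A M hA h4
  obtain ⟨hh0, hp0, -, ha, hb, -⟩ := q23_gu_three_ords z h2k hrel (q23jFull_ne_zero' A M) hz
  refine ⟨ha, ?_⟩
  rcases hz.lt_or_eq with hpos | h0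
  · exact ⟨1, (q23_coord_three A M hA h4 h3 z hpos).1⟩
  · have ht : H91.TameAt M 3 := Or.inr (Or.inl ⟨rfl, Dvd.dvd.trans (by norm_num) h4⟩)
    have h1728 : (1728 : kV A) = 0 := by
      have h3' : ((3 : ℕ) : kV A) = 0 := CharP.cast_eq_zero (kV A) 3
      have : (1728 : kV A) = ((3 : ℕ) : kV A) * 576 := by push_cast; norm_num
      rw [this, h3', zero_mul]
    obtain ⟨γ, -, hγ⟩ := q23_ord_j_sub A M Nat.prime_three h3 ht hA h1728 z h0.symm
    have hdeg := q23_deg_fullC Nat.prime_three h3 ht hA z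
    refine q23_coord_of_rel z hdeg (h := q23hFull3 A M h4) (j := q23jFull A M)
      ((X - 1) ^ 6) (X ^ 4 * (X + 1)) ?_ ?_ ?_ ((mem_iff_ord_nonneg z hh0).mpr ha.ge) γ hγ
    · simp only [map_mul, map_pow, map_add, map_sub, aeval_X, map_one]
      rw [← mul_assoc]
      exact hrel
    · simp only [map_mul, map_pow, map_add, aeval_X, map_one]
      exact mul_ne_zero (pow_ne_zero 4 hh0) hp0
    · simp only [map_mul, map_pow, map_add, aeval_X, map_one]
      rw [z.ord_mul (pow_ne_zero 4 hh0) hp0, ord_pow, ha, hb]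
      norm_num

/-- **COORD for `q = 2` at every regular place** (`9 ∣ M`, `2 ∤ M`): `h̄` is a unit and (up to a
constant) a local coordinate at every place of `κ` at which `j̄` is regular. -/
theorem q23_coord_final_two (hA : A.LiesOverPrime 2) (h9 : 9 ∣ M) (h2 : ¬ 2 ∣ M)
    (z : Place (kV A) ↥(modularFunctionFieldFullC (kV A) M))
    (hz : 0 ≤ z.ord (⟨jqModC (kV A), jqModC_mem_full (kV A) M⟩ :
      ↥(modularFunctionFieldFullC (kV A) M))) :
    z.ord (q23hFull2 A M h9) = 0 ∧
      ∃ c : kV A, z.ord (q23hFull2 A M h9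
        - algebraMap (kV A) ↥(modularFunctionFieldFullC (kV A) M) c) = 1 := by
  haveI : CharP (kV A) 2 := charP_kV A Nat.prime_two hA
  have hrel := q23hFull2_rel A M hA h9
  obtain ⟨hh0, -, hq0, ha, he, -⟩ := q23_gu_two_ords z hrel (q23jFull_ne_zero' A M) hz
  refine ⟨ha, ?_⟩
  rcases hz.lt_or_eq with hpos | h0
  · exact ⟨1, (q23_coord_two A M hA h9 h2 z hpos).1⟩
  · have ht : H91.TameAt M 2 := Or.inr (Or.inr ⟨rfl, Dvd.dvd.trans (by norm_num) h9⟩)
    have h1728 : (1728 : kV A) = 0 := by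
      have h2' : ((2 : ℕ) : kV A) = 0 := CharP.cast_eq_zero (kV A) 2
      have : (1728 : kV A) = ((2 : ℕ) : kV A) * 864 := by push_cast; norm_num
      rw [this, h2', zero_mul]
    obtain ⟨γ, -, hγ⟩ := q23_ord_j_sub A M Nat.prime_two h2 ht hA h1728 z h0.symm
    have hdeg := q23_deg_fullC Nat.prime_two h2 ht hA z
    refine q23_coord_of_rel z hdeg (h := q23hFull2 A M h9) (j := q23jFull A M)
      ((X + 1) ^ 12) (X ^ 9 * (X ^ 2 + X + 1)) ?_ ?_ ?_
      ((mem_iff_ord_nonneg z hh0).mpr ha.ge) γ hγ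
    · simp only [map_mul, map_pow, map_add, aeval_X, map_one]
      rw [← mul_assoc]
      exact hrel
    · simp only [map_mul, map_pow, map_add, aeval_X, map_one]
      exact mul_ne_zero (pow_ne_zero 9 hh0) hq0
    · simp only [map_mul, map_pow, map_add, aeval_X, map_one]
      rw [z.ord_mul (pow_ne_zero 9 hh0) hq0, ord_pow, ha, he]
      norm_num

end Concrete

end Fermat.Agent.S36.NU.H5
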