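import Fermat.Agent.S36.NU.H5_Q23Coord
import Fermat.Agent.S36.NU.H73_CoordC

/-!
# S36 / NU-B, leaf GU-UNIT for `q = 2, 3` (helper5)

`G_u = (θ ū)^(q-1)` for the coordinate `ū = h̄` (the reduction of the Hauptmodul of `X₀(4)` for
`q = 3`, of `X₀(9)` for `q = 2`), `s = H(j̄) = Δ̄^(1-q)` (`= j̄²` resp. `j̄`):

* `q23_ord_Gu_three_full`, `q23_ord_Gu_two_full` : `12 ord_z G_u + 2 ord_z s = 0` at every place
  `z` of `κ = modularFunctionFieldFullC (kV A) M'` at which `j̄` is regular;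
* `q23_ord_Gu_ordinary_three_full`, `q23_ord_Gu_ordinary_two_full` : `ord_z G_u = 0` if moreover
  `ord_z s = 0` (ordinary point).
* `q23_h_unit_three_full`, `q23_h_unit_two_full` : `h̄` is a unit at every place where `j̄` is
  regular.

Same shape as helper73's `ord_Gu_full`, `ord_Gu_ordinary_full` (`q ≥ 5`, `u = Δ(t)/Δ(t⁴)`).
-/

set_option autoImplicit false
set_option linter.style.haveILetI false
set_option linter.unusedSectionVars false
set_option synthInstance.maxHeartbeats 400000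
set_option maxHeartbeats 1000000

noncomputable section

open ModularCurve AlgebraicCurve IntermediateField Fermat.Agent.S28.H73 Fermat.Agent.RED.H73
  Fermat.Agent.BAD.H88 Fermat.Agent.BAD.H82 Fermat.Agent.S24

namespace Fermat.Agent.S36.NU.H5

open Fermat.Agent.BAD.H73 Fermat.Agent.RED.H51 Fermat.Agent.S36.NU.H73 Fermat.Agent.BAD.H21
  Fermat.Agent.BAD.H30

section Abs

variable {k : Type*} [Field k] {E : IntermediateField k (LaurentSeries k)}

/-- `q = 3`: the orders of `h`, `h + 1` and `j` at a place where `j` is regular. -/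
theorem q23_gu_three_ords (z : Place k ↥E) {h j : ↥E} (h2 : (2 : k) ≠ 0)
    (hjh : j * h ^ 4 * (h + 1) = (h - 1) ^ 6) (hj0 : j ≠ 0) (hz : 0 ≤ z.ord j) :
    h ≠ 0 ∧ h + 1 ≠ 0 ∧ h - 1 ≠ 0 ∧ z.ord h = 0 ∧ z.ord (h + 1) = 0 ∧
      z.ord j = 6 * z.ord (h - 1) := by
  have h2E : (2 : ↥E) ≠ 0 := by
    have e : (2 : ↥E) = algebraMap k ↥E 2 := (map_ofNat _ 2).symm
    rw [e, Ne, map_eq_zero]
    exact h2
  have hh0 : h ≠ 0 := by
    intro h0
    rw [h0] at hjh
    norm_num at hjh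
  have hp0 : h + 1 ≠ 0 := by
    intro h1
    rw [h1, mul_zero] at hjh
    have h3 : h - 1 = 0 := (pow_eq_zero_iff (by norm_num)).mp hjh.symm
    apply h2E
    linear_combination h1 - h3
  have hm0 : h - 1 ≠ 0 := by
    intro h1
    rw [h1, zero_pow (by norm_num)] at hjh
    exact mul_ne_zero (mul_ne_zero hj0 (pow_ne_zero 4 hh0)) hp0 hjh
  have hL : z.ord j + 4 * z.ord h + z.ord (h + 1) = 6 * z.ord (h - 1) := by
    have e := congrArg z.ord hjh
    rw [z.ord_mul (mul_ne_zero hj0 (pow_ne_zero 4 hh0)) hp0,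
      z.ord_mul hj0 (pow_ne_zero 4 hh0), ord_pow, ord_pow] at e
    push_cast at e
    exact e
  -- `ord h = 0`
  have ha : z.ord h = 0 := by
    rcases lt_trichotomy (z.ord h) 0 with hneg | h0 | hpos
    · exfalso
      have h1 : OrdGe z (z.ord h + 1) (1 : ↥E) := Or.inr (by rw [z.ord_one]; omega)
      have hp := ord_add_eq z hh0 h1
      have hm := ord_add_eq z hh0 h1.neg
      rw [← sub_eq_add_neg] at hm
      rw [hp.2, hm.2] at hL
      omega
    · exact h0
    · exfalso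
      have hx : OrdGe z 1 (h - algebraMap k ↥E 0) := by
        rw [map_zero, sub_zero]
        exact Or.inr (by omega)
      have hm := ord_sub_const z hx (b := 1) zero_ne_one
      have hp := ord_sub_const z hx (b := -1) (by
        intro h01
        have : (1 : k) = 0 := by linear_combination h01
        exact one_ne_zero this)
      rw [map_one] at hm
      rw [map_neg, map_one, sub_neg_eq_add] at hp
      rw [hp.2, hm.2] at hL
      omega
  have hb0 : 0 ≤ z.ord (h + 1) := by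
    rw [← mem_iff_ord_nonneg z hp0]
    exact add_mem ((mem_iff_ord_nonneg z hh0).mpr ha.ge) (one_mem _)
  have hc0 : 0 ≤ z.ord (h - 1) := by
    rw [← mem_iff_ord_nonneg z hm0]
    exact sub_mem ((mem_iff_ord_nonneg z hh0).mpr ha.ge) (one_mem _)
  have hb : z.ord (h + 1) = 0 := by
    rcases hb0.lt_or_eq with hpos | h0
    · exfalso
      have hx : OrdGe z 1 (h - algebraMap k ↥E (-1)) := by
        rw [map_neg, map_one, sub_neg_eq_add]
        exact Or.inr (by omega)
      have hm := ord_sub_const z hx (b := 1) (by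
        intro h01
        apply h2
        linear_combination -h01)
      rw [map_one] at hm
      rw [hm.2, ha] at hL
      omega
    · exact h0.symm
  refine ⟨hh0, hp0, hm0, ha, hb, ?_⟩
  rw [ha, hb] at hL
  omega

/-- **GU-UNIT, abstract, `q = 3`**. -/
theorem q23_gu_three_abs (z : Place k ↥E) {h j G s : ↥E} (h2 : (2 : k) ≠ 0)
    (hjh : j * h ^ 4 * (h + 1) = (h - 1) ^ 6)
    (hG : G * (h - 1) ^ 2 = h ^ 2 * (h + 1) ^ 2) (hs : s = j ^ 2)
    (hj0 : j ≠ 0) (hz : 0 ≤ z.ord j) :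
    G ≠ 0 ∧ s ≠ 0 ∧ 12 * z.ord G + 2 * z.ord s = 0 := by
  obtain ⟨hh0, hp0, hm0, ha, hb, hJ⟩ := q23_gu_three_ords z h2 hjh hj0 hz
  have hR0 : h ^ 2 * (h + 1) ^ 2 ≠ 0 := mul_ne_zero (pow_ne_zero 2 hh0) (pow_ne_zero 2 hp0)
  have hG0 : G ≠ 0 := by
    rintro rfl
    rw [zero_mul] at hG
    exact hR0 hG.symm
  have hs0 : s ≠ 0 := by
    rw [hs]
    exact pow_ne_zero 2 hj0
  refine ⟨hG0, hs0, ?_⟩
  have e := congrArg z.ord hG
  rw [z.ord_mul hG0 (pow_ne_zero 2 hm0), z.ord_mul (pow_ne_zero 2 hh0) (pow_ne_zero 2 hp0),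
    ord_pow, ord_pow, ord_pow, ha, hb] at e
  push_cast at e
  have e2 : z.ord s = 2 * z.ord j := by
    rw [hs, ord_pow]
    push_cast
    ring
  rw [e2, hJ]
  omega

/-- `q = 2`: the orders of `h`, `h² + h + 1` and `j` at a place where `j` is regular. -/
theorem q23_gu_two_ords (z : Place k ↥E) {h j : ↥E}
    (hjh : j * h ^ 9 * (h ^ 2 + h + 1) = (h + 1) ^ 12) (hj0 : j ≠ 0) (hz : 0 ≤ z.ord j) :
    h ≠ 0 ∧ h + 1 ≠ 0 ∧ h ^ 2 + h + 1 ≠ 0 ∧ z.ord h = 0 ∧ z.ord (h ^ 2 + h + 1) = 0 ∧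
      z.ord j = 12 * z.ord (h + 1) := by
  have hh0 : h ≠ 0 := by
    intro h0
    rw [h0] at hjh
    norm_num at hjh
  have hp0 : h + 1 ≠ 0 := by
    intro h1
    have e : h ^ 2 + h + 1 = 1 := by linear_combination h * h1
    rw [e, h1, mul_one, zero_pow (by norm_num)] at hjh
    exact mul_ne_zero hj0 (pow_ne_zero 9 hh0) hjh
  have hq0 : h ^ 2 + h + 1 ≠ 0 := by
    intro h1
    rw [h1, mul_zero] at hjh
    exact hp0 ((pow_eq_zero_iff (by norm_num)).mp hjh.symm)
  have hL : z.ord j + 9 * z.ord h + z.ord (h ^ 2 + h + 1) = 12 * z.ord (h + 1) := by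
    have e := congrArg z.ord hjh
    rw [z.ord_mul (mul_ne_zero hj0 (pow_ne_zero 9 hh0)) hq0,
      z.ord_mul hj0 (pow_ne_zero 9 hh0), ord_pow, ord_pow] at e
    push_cast at e
    exact e
  have ha : z.ord h = 0 := by
    rcases lt_trichotomy (z.ord h) 0 with hneg | h0 | hpos
    · exfalso
      have h1 : OrdGe z (z.ord h + 1) (1 : ↥E) := Or.inr (by rw [z.ord_one]; omega)
      have hp := ord_add_eq z hh0 h1
      have hsq : z.ord (h ^ 2) = 2 * z.ord h := by
        rw [ord_pow]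
        push_cast
        ring
      have h3 : OrdGe z (z.ord (h ^ 2) + 1) (h + 1) := Or.inr (by rw [hp.2, hsq]; omega)
      have hq := ord_add_eq z (pow_ne_zero 2 hh0) h3
      rw [← add_assoc] at hq
      rw [hp.2, hq.2, hsq] at hL
      omega
    · exact h0
    · exfalso
      have hx : OrdGe z 1 (h - algebraMap k ↥E 0) := by
        rw [map_zero, sub_zero]
        exact Or.inr (by omega)
      have hp := ord_sub_const z hx (b := -1) (by
        intro h01
        have : (1 : k) = 0 := by linear_combination h01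
        exact one_ne_zero this)
      rw [map_neg, map_one, sub_neg_eq_add] at hp
      have h1 : OrdGe z (z.ord (1 : ↥E) + 1) (h ^ 2 + h) := by
        rw [z.ord_one]
        refine OrdGe.add (Or.inr ?_) (Or.inr (by omega))
        rw [ord_pow]
        push_cast
        omega
      have hq := ord_add_eq' z one_ne_zero h1
      rw [z.ord_one] at hq
      rw [hp.2, hq.2] at hL
      omega
  have hhm : h ∈ z.toValuationSubring := (mem_iff_ord_nonneg z hh0).mpr ha.ge
  have hb0 : 0 ≤ z.ord (h + 1) := by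
    rw [← mem_iff_ord_nonneg z hp0]
    exact add_mem hhm (one_mem _)
  have he0 : 0 ≤ z.ord (h ^ 2 + h + 1) := by
    rw [← mem_iff_ord_nonneg z hq0]
    exact add_mem (add_mem (pow_mem hhm 2) hhm) (one_mem _)
  have he : z.ord (h ^ 2 + h + 1) = 0 := by
    rcases he0.lt_or_eq with hpos | h0
    · exfalso
      have hbpos : 0 < z.ord (h + 1) := by
        rw [ha] at hL
        omega
      have h1 : OrdGe z (z.ord (1 : ↥E) + 1) ((h + 1) ^ 2 - (h + 1)) := by
        rw [z.ord_one]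
        refine OrdGe.sub (Or.inr ?_) (Or.inr (by omega))
        rw [ord_pow]
        push_cast
        omega
      have hq := ord_add_eq' z one_ne_zero h1
      rw [z.ord_one] at hq
      have e : (h + 1) ^ 2 - (h + 1) + 1 = h ^ 2 + h + 1 := by ring
      rw [e] at hq
      omega
    · exact h0.symm
  refine ⟨hh0, hp0, hq0, ha, he, ?_⟩
  rw [ha, he] at hL
  omega

/-- **GU-UNIT, abstract, `q = 2`**. -/
theorem q23_gu_two_abs (z : Place k ↥E) {h j G s : ↥E}
    (hjh : j * h ^ 9 * (h ^ 2 + h + 1) = (h + 1) ^ 12)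
    (hG : G * (h + 1) ^ 2 = h * (h ^ 2 + h + 1)) (hs : s = j)
    (hj0 : j ≠ 0) (hz : 0 ≤ z.ord j) :
    G ≠ 0 ∧ s ≠ 0 ∧ 12 * z.ord G + 2 * z.ord s = 0 := by
  obtain ⟨hh0, hp0, hq0, ha, he, hJ⟩ := q23_gu_two_ords z hjh hj0 hz
  have hG0 : G ≠ 0 := by
    rintro rfl
    rw [zero_mul] at hG
    exact mul_ne_zero hh0 hq0 hG.symm
  have hs0 : s ≠ 0 := by
    rw [hs]
    exact hj0
  refine ⟨hG0, hs0, ?_⟩
  have e := congrArg z.ord hG
  rw [z.ord_mul hG0 (pow_ne_zero 2 hp0), z.ord_mul hh0 hq0, ord_pow, ha, he] at e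
  push_cast at e
  rw [hs, hJ]
  omega

end Abs

section Concrete

variable (A : ValuationSubring Kbar) (M' : ℕ) [NeZero M']

theorem q23jFull_ne_zero' : q23jFull A M' ≠ 0 := by
  intro h0
  have h1 := congrArg (fun x : ↥(modularFunctionFieldFullC (kV A) M') =>
    (x : LaurentSeries (kV A)).coeff (-1)) h0
  simp only [ZeroMemClass.coe_zero, HahnSeries.coeff_zero] at h1
  rw [coeff_jqModC_neg_one] at h1
  exact one_ne_zero h1

/-- `Δ̄⁻¹ = j̄` in characteristic `2`, `3`. -/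
theorem q23_deltaR_inv {k : Type*} [Field k] {ℓ : ℕ} [CharP k ℓ] (h23 : ℓ = 2 ∨ ℓ = 3) :
    (deltaR k)⁻¹ = jqModC k := by
  have h := q23_j_mul_D (k := k) h23
  rw [coeffMap_DZ] at h
  exact inv_eq_of_mul_eq_one_left h

/-- `h̄` is a unit at every place of `κ` where `j̄` is regular (`q = 3`). -/
theorem q23_h_unit_three_full (hA : A.LiesOverPrime 3) (h4 : 4 ∣ M')
    (z : Place (kV A) ↥(modularFunctionFieldFullC (kV A) M'))
    (hz : 0 ≤ z.ord (q23jFull A M')) :
    q23hFull3 A M' h4 ≠ 0 ∧ z.ord (q23hFull3 A M' h4) = 0 := by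
  haveI : CharP (kV A) 3 := charP_kV A Nat.prime_three hA
  have h2k : (2 : kV A) ≠ 0 := by
    intro h2
    have h3' : ((3 : ℕ) : kV A) = 0 := CharP.cast_eq_zero (kV A) 3
    have h1 : (1 : kV A) = 0 := by
      have : (1 : kV A) = ((3 : ℕ) : kV A) - 2 := by push_cast; ring
      rw [this, h3', h2, sub_zero]
    exact one_ne_zero h1
  obtain ⟨h0, -, -, ha, -, -⟩ := q23_gu_three_ords z h2k (q23hFull3_rel A M' hA h4)
    (q23jFull_ne_zero' A M') hz
  exact ⟨h0, ha⟩

/-- `h̄` is a unit at every place of `κ` where `j̄` is regular (`q = 2`). -/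
theorem q23_h_unit_two_full (hA : A.LiesOverPrime 2) (h9 : 9 ∣ M')
    (z : Place (kV A) ↥(modularFunctionFieldFullC (kV A) M'))
    (hz : 0 ≤ z.ord (q23jFull A M')) :
    q23hFull2 A M' h9 ≠ 0 ∧ z.ord (q23hFull2 A M' h9) = 0 := by
  obtain ⟨h0, -, -, ha, -, -⟩ := q23_gu_two_ords z (q23hFull2_rel A M' hA h9)
    (q23jFull_ne_zero' A M') hz
  exact ⟨h0, ha⟩

/-- **GU-UNIT for `q = 3`**: `12 ord_z G_u + 2 ord_z H(j̄) = 0` at every place `z` of `κ` at which
`j̄` is regular (`4 ∣ M'`; `G_u = (θ h̄)²`, `H(j̄) = Δ̄⁻²`). -/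
theorem q23_ord_Gu_three_full (hA : A.LiesOverPrime 3) (h4 : 4 ∣ M')
    (z : Place (kV A) ↥(modularFunctionFieldFullC (kV A) M'))
    (hz : 0 ≤ z.ord (⟨jqModC (kV A), jqModC_mem_full (kV A) M'⟩ :
      ↥(modularFunctionFieldFullC (kV A) M')))
    {GuE sE : ↥(modularFunctionFieldFullC (kV A) M')}
    (hG : (GuE : LaurentSeries (kV A)) = thetaL (q23H3 (kV A)) ^ (3 - 1))
    (hs : (sE : LaurentSeries (kV A)) = (deltaR (kV A) ^ (3 - 1))⁻¹) :
    GuE ≠ 0 ∧ sE ≠ 0 ∧ 12 * z.ord GuE + 2 * z.ord sE = 0 := by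
  haveI : CharP (kV A) 3 := charP_kV A Nat.prime_three hA
  have h2k : (2 : kV A) ≠ 0 := by
    intro h2
    have h3' : ((3 : ℕ) : kV A) = 0 := CharP.cast_eq_zero (kV A) 3
    have h1 : (1 : kV A) = 0 := by
      have : (1 : kV A) = ((3 : ℕ) : kV A) - 2 := by push_cast; ring
      rw [this, h3', h2, sub_zero]
    exact one_ne_zero h1
  refine q23_gu_three_abs z h2k (h := q23hFull3 A M' h4) (j := q23jFull A M')
    (q23hFull3_rel A M' hA h4) ?_ ?_ (q23jFull_ne_zero' A M') hz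
  · apply Subtype.ext
    rw [IntermediateField.coe_mul, IntermediateField.coe_mul, IntermediateField.coe_pow,
      IntermediateField.coe_pow, IntermediateField.coe_pow, IntermediateField.coe_add,
      IntermediateField.coe_one, coeE_sub, IntermediateField.coe_one,
      q23hFull3_coe A M' hA h4, hG]
    have hode := q23_three_ode (k := kV A)
    have h3 := q23_three_L (k := kV A)
    linear_combination (thetaL (q23H3 (kV A)) * (2 * q23H3 (kV A) + 1)
        + q23H3 (kV A) * (q23H3 (kV A) + 1)) * hode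
      - (thetaL (q23H3 (kV A)) ^ 2 * q23H3 (kV A) * (q23H3 (kV A) + 2)) * h3
  · apply Subtype.ext
    rw [IntermediateField.coe_pow, hs, ← inv_pow, q23_deltaR_inv (ℓ := 3) (Or.inr rfl)]

/-- **GU-UNIT for `q = 3`** at the ordinary points. -/
theorem q23_ord_Gu_ordinary_three_full (hA : A.LiesOverPrime 3) (h4 : 4 ∣ M')
    (z : Place (kV A) ↥(modularFunctionFieldFullC (kV A) M'))
    (hz : 0 ≤ z.ord (⟨jqModC (kV A), jqModC_mem_full (kV A) M'⟩ :
      ↥(modularFunctionFieldFullC (kV A) M')))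
    {GuE sE : ↥(modularFunctionFieldFullC (kV A) M')}
    (hG : (GuE : LaurentSeries (kV A)) = thetaL (q23H3 (kV A)) ^ (3 - 1))
    (hs : (sE : LaurentSeries (kV A)) = (deltaR (kV A) ^ (3 - 1))⁻¹) (hs0 : z.ord sE = 0) :
    GuE ≠ 0 ∧ z.ord GuE = 0 := by
  obtain ⟨hG0, -, h⟩ := q23_ord_Gu_three_full A M' hA h4 z hz hG hs
  refine ⟨hG0, ?_⟩
  rw [hs0] at h
  omega

/-- **GU-UNIT for `q = 2`**: `12 ord_z G_u + 2 ord_z H(j̄) = 0` at every place `z` of `κ` at which
`j̄` is regular (`9 ∣ M'`; `G_u = θ h̄`, `H(j̄) = Δ̄⁻¹`). -/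
theorem q23_ord_Gu_two_full (hA : A.LiesOverPrime 2) (h9 : 9 ∣ M')
    (z : Place (kV A) ↥(modularFunctionFieldFullC (kV A) M'))
    (hz : 0 ≤ z.ord (⟨jqModC (kV A), jqModC_mem_full (kV A) M'⟩ :
      ↥(modularFunctionFieldFullC (kV A) M')))
    {GuE sE : ↥(modularFunctionFieldFullC (kV A) M')}
    (hG : (GuE : LaurentSeries (kV A)) = thetaL (q23H2 (kV A)) ^ (2 - 1))
    (hs : (sE : LaurentSeries (kV A)) = (deltaR (kV A) ^ (2 - 1))⁻¹) :
    GuE ≠ 0 ∧ sE ≠ 0 ∧ 12 * z.ord GuE + 2 * z.ord sE = 0 := by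
  haveI : CharP (kV A) 2 := charP_kV A Nat.prime_two hA
  refine q23_gu_two_abs z (h := q23hFull2 A M' h9) (j := q23jFull A M')
    (q23hFull2_rel A M' hA h9) ?_ ?_ (q23jFull_ne_zero' A M') hz
  · apply Subtype.ext
    rw [IntermediateField.coe_mul, IntermediateField.coe_mul, IntermediateField.coe_pow,
      IntermediateField.coe_add, IntermediateField.coe_add, IntermediateField.coe_add,
      IntermediateField.coe_pow, IntermediateField.coe_one,
      q23hFull2_coe A M' hA h9, hG]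
    have hode := q23_two_ode (k := kV A)
    linear_combination hode
  · apply Subtype.ext
    rw [hs, show (2 - 1 : ℕ) = 1 from rfl, pow_one, q23_deltaR_inv (ℓ := 2) (Or.inl rfl)]

/-- **GU-UNIT for `q = 2`** at the ordinary points. -/
theorem q23_ord_Gu_ordinary_two_full (hA : A.LiesOverPrime 2) (h9 : 9 ∣ M')
    (z : Place (kV A) ↥(modularFunctionFieldFullC (kV A) M'))
    (hz : 0 ≤ z.ord (⟨jqModC (kV A), jqModC_mem_full (kV A) M'⟩ :
      ↥(modularFunctionFieldFullC (kV A) M')))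
    {GuE sE : ↥(modularFunctionFieldFullC (kV A) M')}
    (hG : (GuE : LaurentSeries (kV A)) = thetaL (q23H2 (kV A)) ^ (2 - 1))
    (hs : (sE : LaurentSeries (kV A)) = (deltaR (kV A) ^ (2 - 1))⁻¹) (hs0 : z.ord sE = 0) :
    GuE ≠ 0 ∧ z.ord GuE = 0 := by
  obtain ⟨hG0, -, h⟩ := q23_ord_Gu_two_full A M' hA h9 z hz hG hs
  refine ⟨hG0, ?_⟩
  rw [hs0] at h
  omega

end Concrete

end Fermat.Agent.S36.NU.H5
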