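import Fermat.Agent.S36.NU.H5_Q23Three
import Fermat.Agent.S36.NU.H5_Q23Two
import Fermat.Agent.RED.H51_ZerosLe

/-!
# S36 / NU-B, leaf Q23 (helper5): RAM / COORD for `q = 2, 3` from a count (abstract part)

* `q23_ram_of_count` : `F / k` a function field, `j, g ∈ F`, `n ≥ 1` with `ord_z j = n ord_z g`,
  `ord_z g > 0` at every zero `z` of `j`.  If there are finitely many zeros `Z` of `j` with
  `[F : k(j)] ≤ n #Z`, then `ord_z g = 1` at EVERY zero `z` of `j` (and `Z` is the set of all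
  zeros).
* `q23_three_ord_j` : characteristic `3`, `j h⁴ (h + 1) = (h - 1)⁶`: at a zero of `j`,
  `ord j = 6 ord (h - 1)`, `ord (h - 1) > 0`.
* `q23_two_ord_j` : characteristic `2`, `j h⁹ (h² + h + 1) = (h + 1)¹²`: at a zero of `j`,
  `ord j = 12 ord (h + 1)`, `ord (h + 1) > 0`.
-/

set_option autoImplicit false

noncomputable section

open ModularCurve AlgebraicCurve IntermediateField

namespace Fermat.Agent.S36.NU.H5

open Fermat.Agent.RED.H51 Fermat.Agent.S36.NU.H73

section Count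

variable {k F : Type*} [Field k] [Field F] [Algebra k F]

/-- **Unramifiedness from a count.** -/
theorem q23_ram_of_count (j g : F) (n : ℕ) [FiniteDimensional k⟮j⟯ F]
    (hord : ∀ z : Place k F, 0 < z.ord j → z.ord j = n * z.ord g ∧ 0 < z.ord g)
    (Z : Finset (Place k F)) (hZ : ∀ z ∈ Z, 0 < z.ord j)
    (hcount : Module.finrank k⟮j⟯ F ≤ n * Z.card)
    (z : Place k F) (hz : 0 < z.ord j) : z.ord g = 1 := by
  classical
  obtain ⟨hzj, hzg⟩ := hord z hz
  have hn : (0 : ℤ) < n := by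
    by_contra h
    have h0 : (n : ℤ) = 0 := by
      have : (0 : ℤ) ≤ n := Int.natCast_nonneg n
      omega
    rw [h0, zero_mul] at hzj
    omega
  have hge : ∀ v ∈ Z, (n : ℤ) ≤ v.ord j := by
    intro v hv
    obtain ⟨h1, h2⟩ := hord v (hZ v hv)
    rw [h1]
    nlinarith
  have hsumZ : (n : ℤ) * Z.card ≤ ∑ v ∈ Z, v.ord j := by
    have := Finset.card_nsmul_le_sum Z (fun v => v.ord j) (n : ℤ) hge
    simpa [mul_comm] using this
  have hcount' : (Module.finrank k⟮j⟯ F : ℤ) ≤ n * Z.card := by exact_mod_cast hcount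
  -- `z ∈ Z`
  have hzZ : z ∈ Z := by
    by_contra hnot
    have hS : ∀ v ∈ insert z Z, 0 < v.ord j := by
      intro v hv
      rcases Finset.mem_insert.mp hv with rfl | hv
      · exact hz
      · exact hZ v hv
    have h1 := sum_ord_le_finrank j (insert z Z) hS
    rw [Finset.sum_insert hnot] at h1
    have : (n : ℤ) ≤ z.ord j := by rw [hzj]; nlinarith
    omega
  -- the sum over `Z \ {z}`
  have h1 := sum_ord_le_finrank j Z hZ
  rw [← Finset.insert_erase hzZ, Finset.sum_insert (Finset.notMem_erase z Z)] at h1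
  have hge' : ∀ v ∈ Z.erase z, (n : ℤ) ≤ v.ord j :=
    fun v hv => hge v (Finset.mem_of_mem_erase hv)
  have h2 : (n : ℤ) * (Z.erase z).card ≤ ∑ v ∈ Z.erase z, v.ord j := by
    have := Finset.card_nsmul_le_sum (Z.erase z) (fun v => v.ord j) (n : ℤ) hge'
    simpa [mul_comm] using this
  have hcard : (Z.card : ℤ) = (Z.erase z).card + 1 := by
    rw [Finset.card_erase_of_mem hzZ]
    have : 0 < Z.card := Finset.card_pos.mpr ⟨z, hzZ⟩
    omega
  have h3 : z.ord j ≤ n := by
    rw [hcard] at hcount'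
    nlinarith
  rw [hzj] at h3
  have h4 : z.ord g ≤ 1 := by
    by_contra h
    have : (2 : ℤ) ≤ z.ord g := by omega
    nlinarith
  omega

end Count

section Relations

variable {k F : Type*} [Field k] [Field F] [Algebra k F]

/-- Characteristic `3`: `ord j = 6 ord (h - 1)` at a zero of `j`. -/
theorem q23_three_ord_j (h2k : (2 : k) ≠ 0) (z : Place k F) {h j : F}
    (hjh : j * h ^ 4 * (h + 1) = (h - 1) ^ 6)
    (hvan : OrdGe z 1 (h - 1)) (hj0 : j ≠ 0) :
    z.ord j = 6 * z.ord (h - 1) ∧ 0 < z.ord (h - 1) := by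
  have h1 : (1 : F) ≠ 0 := one_ne_zero
  -- `h` and `h + 1` are units at `z`
  have hA : h ≠ 0 ∧ z.ord h = 0 := by
    have := ord_add_eq z h1 (g := h - 1) (by rw [z.ord_one, zero_add]; exact hvan)
    rw [z.ord_one] at this
    have e : (1 : F) + (h - 1) = h := by ring
    rwa [e] at this
  have h2F : (algebraMap k F 2 : F) ≠ 0 := by
    rw [Ne, map_eq_zero]; exact h2k
  have hB : h + 1 ≠ 0 ∧ z.ord (h + 1) = 0 := by
    have := ord_add_eq z h2F (g := h - 1) (by rw [ord_algebraMap, zero_add]; exact hvan)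
    rw [ord_algebraMap] at this
    have e : (algebraMap k F 2 : F) + (h - 1) = h + 1 := by
      rw [map_ofNat]; ring
    rwa [e] at this
  have hg0 : h - 1 ≠ 0 := by
    intro h0
    rw [h0, zero_pow (by norm_num)] at hjh
    exact (mul_ne_zero (mul_ne_zero hj0 (pow_ne_zero 4 hA.1)) hB.1) hjh
  have hL : z.ord (j * h ^ 4 * (h + 1)) = z.ord j := by
    rw [z.ord_mul (mul_ne_zero hj0 (pow_ne_zero 4 hA.1)) hB.1,
      z.ord_mul hj0 (pow_ne_zero 4 hA.1), ord_pow, hA.2, hB.2]
    simp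
  rw [hjh, ord_pow] at hL
  refine ⟨?_, hvan.pos_of_ne hg0⟩
  push_cast at hL
  omega

/-- Characteristic `2`: `ord j = 12 ord (h + 1)` at a zero of `j`. -/
theorem q23_two_ord_j (z : Place k F) {h j : F}
    (hjh : j * h ^ 9 * (h ^ 2 + h + 1) = (h + 1) ^ 12) (hmem : h ∈ z.toValuationSubring)
    (hvan : OrdGe z 1 (h + 1)) (hj0 : j ≠ 0) :
    z.ord j = 12 * z.ord (h + 1) ∧ 0 < z.ord (h + 1) := by
  have hm1 : (-1 : F) ≠ 0 := neg_ne_zero.mpr one_ne_zero
  have hA : h ≠ 0 ∧ z.ord h = 0 := by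
    have hm : z.ord (-1 : F) = 0 := by rw [ord_neg, z.ord_one]
    have := ord_add_eq z hm1 (g := h + 1) (by rw [hm, zero_add]; exact hvan)
    rw [hm] at this
    have e : (-1 : F) + (h + 1) = h := by ring
    rwa [e] at this
  have hB : h ^ 2 + h + 1 ≠ 0 ∧ z.ord (h ^ 2 + h + 1) = 0 := by
    have h1 : OrdGe z (z.ord (1 : F) + 1) (h * (h + 1)) := by
      rw [z.ord_one]
      have := ((ordGe_zero_iff_mem z h).mpr hmem).mul hvan
      simpa using this
    have h2 := ord_add_eq z (one_ne_zero (α := F)) h1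
    rw [z.ord_one] at h2
    have e : h ^ 2 + h + 1 = 1 + h * (h + 1) := by ring
    rw [e]
    exact h2
  have hg0 : h + 1 ≠ 0 := by
    intro h0
    rw [h0, zero_pow (by norm_num)] at hjh
    exact (mul_ne_zero (mul_ne_zero hj0 (pow_ne_zero 9 hA.1)) hB.1) hjh
  have hL : z.ord (j * h ^ 9 * (h ^ 2 + h + 1)) = z.ord j := by
    rw [z.ord_mul (mul_ne_zero hj0 (pow_ne_zero 9 hA.1)) hB.1,
      z.ord_mul hj0 (pow_ne_zero 9 hA.1), ord_pow, hA.2, hB.2]
    simp
  rw [hjh, ord_pow] at hL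
  refine ⟨?_, hvan.pos_of_ne hg0⟩
  push_cast at hL
  omega

end Relations

end Fermat.Agent.S36.NU.H5
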