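import Fermat.Agent.S36.NU.H5_Q23Abs
import Fermat.Agent.S36.NU.H5_Q23Alg

/-!
# S36 / NU-B, leaf Q23 (helper5): `θ j̄ = - j̄` in characteristic `2` and `3`

`E₄ ≡ E₆ ≡ 1` modulo `2` and `3`, hence `j̄ Δ̄ = 1` and `θ j̄ = - j̄`; with the chain rule
`θ (f(t^N)) = N (θ f)(t^N)` this gives `θ (j̄(t^N)) = - N j̄(t^N)`.
Also the small facts on series used by the two cases (`q23_natCast_eq_zero`, `q23_jN_ne`, ...).
-/

set_option autoImplicit false

noncomputable section

open ModularCurve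

namespace Fermat.Agent.S36.NU.H5

open Fermat.Agent.BAD.H21 Fermat.Agent.S23.H96 Fermat.Agent.S36.NU.H73

section Small

variable {k : Type*} [Field k] {ℓ : ℕ} [CharP k ℓ]

theorem q23_Rb_eq_one (h23 : ℓ = 2 ∨ ℓ = 3) : H21_Rb k = 1 := by
  have h504 : ((504 : ℤ) : k) = 0 := by
    rw [CharP.intCast_eq_zero_iff k ℓ]
    rcases h23 with rfl | rfl <;> norm_num
  rw [H21_Rb, e6Series, map_sub, map_one, map_mul, PowerSeries.map_C]
  simp only [eq_intCast]
  rw [h504, map_zero, zero_mul, sub_zero]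

theorem q23_coeffMap_QZ (h23 : ℓ = 2 ∨ ℓ = 3) : coeffMap (Int.castRingHom k) QZ = 1 := by
  rw [QZ, coeffMap_ofPowerSeries]
  show HahnSeries.ofPowerSeries ℤ k (H21_Qb k) = 1
  rw [H21_Qb_eq_one_of_small (F := k) h23, map_one]

theorem q23_coeffMap_RZ (h23 : ℓ = 2 ∨ ℓ = 3) : coeffMap (Int.castRingHom k) RZ = 1 := by
  rw [RZ, coeffMap_ofPowerSeries]
  show HahnSeries.ofPowerSeries ℤ k (H21_Rb k) = 1
  rw [q23_Rb_eq_one (k := k) h23, map_one]

/-- `j̄ Δ̄ = 1` in characteristic `2`, `3`. -/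
theorem q23_j_mul_D (h23 : ℓ = 2 ∨ ℓ = 3) :
    jqModC k * coeffMap (Int.castRingHom k) DZ = 1 := by
  have h := congrArg (coeffMap (Int.castRingHom k)) jZ_mul_DZ
  rw [map_mul, map_pow, coeffMap_jqModC, q23_coeffMap_QZ h23, one_pow] at h
  exact h

/-- **`θ j̄ = - j̄`** in characteristic `2`, `3`. -/
theorem q23_thetaL_j (h23 : ℓ = 2 ∨ ℓ = 3) : thetaL (jqModC k) = -jqModC k := by
  have h := congrArg (coeffMap (Int.castRingHom k)) thetaL_jZ_mul_DZ
  rw [map_mul, map_neg, map_mul, map_pow, ← thetaL_coeffMap, coeffMap_jqModC,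
    q23_coeffMap_QZ h23, q23_coeffMap_RZ h23, one_pow, one_mul] at h
  have h2 := q23_j_mul_D (k := k) h23
  calc thetaL (jqModC k) = thetaL (jqModC k) * (jqModC k * coeffMap (Int.castRingHom k) DZ) := by
        rw [h2, mul_one]
    _ = jqModC k * (thetaL (jqModC k) * coeffMap (Int.castRingHom k) DZ) := by ring
    _ = -jqModC k := by rw [h]; ring

/-- `θ (j̄(t^N)) = - N j̄(t^N)`. -/
theorem q23_thetaL_jN (h23 : ℓ = 2 ∨ ℓ = 3) (N : ℕ) [NeZero N] :
    thetaL (qExpand k N (jqModC k)) = -((N : LaurentSeries k) * qExpand k N (jqModC k)) := by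
  rw [thetaL_qExpand, q23_thetaL_j h23, map_neg, mul_neg]

end Small

section Series

variable {k : Type*} [Field k]

theorem q23_jq_ne_zero : jqModC k ≠ 0 := by
  intro h
  have h1 := coeff_jqModC_neg_one k
  rw [h] at h1
  simp at h1

theorem q23_jN_ne_zero (N : ℕ) [NeZero N] : qExpand k N (jqModC k) ≠ 0 := by
  intro h
  apply q23_jq_ne_zero (k := k)
  apply qExpand_injective (R := k) N
  rw [h, map_zero]

/-- `j̄(t^N) ≠ j̄` for `N ≥ 2`. -/
theorem q23_jN_ne (N : ℕ) [NeZero N] (hN : 2 ≤ N) : qExpand k N (jqModC k) ≠ jqModC k := by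
  intro h
  have h1 : (qExpand k N (jqModC k)).coeff (-1 : ℤ) = (jqModC k).coeff (-1 : ℤ) := by rw [h]
  rw [coeff_jqModC_neg_one, qExpand_coeff_of_not_dvd] at h1
  · exact zero_ne_one h1
  · intro hd
    have h2 : ((N : ℕ) : ℤ) ∣ 1 := (dvd_neg (a := (N : ℤ)) (b := 1)).mp hd
    have h3 : N ∣ 1 := by exact_mod_cast h2
    have := Nat.dvd_one.mp h3
    omega

/-- A natural number which vanishes in `k` vanishes in `k((t))`. -/
theorem q23_natCast_eq_zero {n : ℕ} (h : (n : k) = 0) : (n : LaurentSeries k) = 0 := by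
  have : (n : LaurentSeries k) = HahnSeries.C (n : k) := by rw [map_natCast]
  rw [this, h, map_zero]

end Series

end Fermat.Agent.S36.NU.H5
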