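import Fermat.Agent.S36.NU.H5_Q23Small
import Fermat.Agent.RED.H70_Mod2Series

/-!
# S36 / NU-B, leaf Q23 (helper5): POLE for `q = 3` (auxiliary level `4`)

Characteristic `3`.  `j₀ = j̄`, `j₁ = j̄(t²)`, `j₂ = j̄(t⁴)`, `w₁ = h̄₂ = j₁ / j₀`, `w = h̄₂(t²) = j₂ / j₁`,
`h = (w - w₁) / (w₁ + 1)` (the reduction of the Hauptmodul `η(τ)⁸ / η(4τ)⁸` of `X₀(4)`).

* `q23_three_ode` : `θ h · (2 h + 1) = h (h + 1)`;
* `q23_three_jh` : `j₀ h⁴ (h + 1) = (h - 1)⁶`;
* `q23_ord_dbar_three` : **POLE for `q = 3`**: in a field `E ⊆ k((t))` with `[E : E³] = 3` containing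
  `j̄, j̄(t²), j̄(t⁴)`, at every place `z` with `ord_z j̄ > 0` (supersingular) and every coordinate `ū`
  at `z` with THETA and (L1): `c⁹ = c` and `ord_z d̄ = -1`.  No ramification input.
-/

set_option autoImplicit false

noncomputable section

open ModularCurve AlgebraicCurve IntermediateField

namespace Fermat.Agent.S36.NU.H5

open Fermat.Agent.RED.H51 Fermat.Agent.S36.NU.H73

section ThreeSeries

variable (k : Type*) [Field k]

/-- `h̄₂`, the reduction of `Δ(t)/Δ(t²)`. -/
def q23W1 : LaurentSeries k := coeffMap (Int.castRingHom k) Fermat.Agent.RED.H70.hZ2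

/-- `h̄₂(t²)`. -/
def q23W : LaurentSeries k := qExpand k 2 (q23W1 k)

/-- The reduction of the Hauptmodul of `X₀(4)` in characteristic `3`. -/
def q23H3 : LaurentSeries k := (q23W k - q23W1 k) / (q23W1 k + 1)

variable {k}

theorem q23W1_coeff_neg_one : (q23W1 k).coeff (-1) = 1 := by
  rw [q23W1, coeffMap_coeff, Fermat.Agent.RED.H70.hZ2_coeff_neg_one, map_one]

theorem q23W1_ne_zero : q23W1 k ≠ 0 := by
  intro h
  have h1 := q23W1_coeff_neg_one (k := k)
  rw [h] at h1
  simp at h1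

variable [CharP k 3]

theorem q23_three_L : (3 : LaurentSeries k) = 0 := by
  have h := q23_natCast_eq_zero (k := k) (n := 3) (by exact_mod_cast CharP.cast_eq_zero k 3)
  exact_mod_cast h

theorem q23W1_ident : (q23W1 k + 1) ^ 3 = jqModC k * q23W1 k ^ 2 := by
  have h := congrArg (coeffMap (Int.castRingHom k)) Fermat.Agent.RED.H70.hZ2_ident
  rw [map_pow, map_add, map_mul, map_pow, coeffMap_jqModC, map_ofNat] at h
  have h3 := q23_three_L (k := k)
  rw [q23W1]
  linear_combination h +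
    (-85 * ((coeffMap (Int.castRingHom k) Fermat.Agent.RED.H70.hZ2 + 256) ^ 2
      + (coeffMap (Int.castRingHom k) Fermat.Agent.RED.H70.hZ2 + 256)
        * (coeffMap (Int.castRingHom k) Fermat.Agent.RED.H70.hZ2 + 1)
      + (coeffMap (Int.castRingHom k) Fermat.Agent.RED.H70.hZ2 + 1) ^ 2)) * h3

theorem q23W1_ident' : (q23W1 k + 1) ^ 3 = qExpand k 2 (jqModC k) * q23W1 k := by
  have h := congrArg (coeffMap (Int.castRingHom k)) Fermat.Agent.RED.H70.hZ2_ident'
  rw [map_pow, map_add, map_mul, coeffMap_qExpand, coeffMap_jqModC, map_ofNat] at h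
  have h3 := q23_three_L (k := k)
  rw [q23W1]
  linear_combination h +
    (-5 * ((coeffMap (Int.castRingHom k) Fermat.Agent.RED.H70.hZ2 + 16) ^ 2
      + (coeffMap (Int.castRingHom k) Fermat.Agent.RED.H70.hZ2 + 16)
        * (coeffMap (Int.castRingHom k) Fermat.Agent.RED.H70.hZ2 + 1)
      + (coeffMap (Int.castRingHom k) Fermat.Agent.RED.H70.hZ2 + 1) ^ 2)) * h3

/-- `j₀ w₁ = j₁`. -/
theorem q23_j0_mul_W1 : jqModC k * q23W1 k = qExpand k 2 (jqModC k) := by
  have h1 := q23W1_ident (k := k)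
  have h2 := q23W1_ident' (k := k)
  refine mul_right_cancel₀ (q23W1_ne_zero (k := k)) ?_
  linear_combination h2 - h1

omit [CharP k 3] in
theorem q23_qExpand_two_two (f : LaurentSeries k) :
    qExpand k 2 (qExpand k 2 f) = qExpand k 4 f := by
  rw [qExpand_qExpand]

/-- `j₁ w = j₂`. -/
theorem q23_j1_mul_W : qExpand k 2 (jqModC k) * q23W k = qExpand k 4 (jqModC k) := by
  have h := congrArg (qExpand k 2) (q23_j0_mul_W1 (k := k))
  rw [map_mul, q23_qExpand_two_two] at h
  exact h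

theorem q23W_ident : (q23W k + 1) ^ 3 = qExpand k 2 (jqModC k) * q23W k ^ 2 := by
  have h := congrArg (qExpand k 2) (q23W1_ident (k := k))
  rw [map_pow, map_add, map_one, map_mul, map_pow] at h
  exact h

omit [CharP k 3] in
theorem q23W_ne_zero : q23W k ≠ 0 := by
  intro h
  apply q23W1_ne_zero (k := k)
  apply qExpand_injective (R := k) 2
  rw [map_zero]
  exact h

theorem q23_W1W_ne_one : q23W1 k * q23W k ≠ 1 := by
  intro h
  -- then `j₂ = j₀`
  have h0 := q23W1_ident (k := k)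
  have h1 := q23W_ident (k := k)
  have h2 := q23_j1_mul_W (k := k)
  have hw1 := q23W1_ne_zero (k := k)
  have key : q23W1 k ^ 2 * (qExpand k 4 (jqModC k) - jqModC k) = 0 := by
    linear_combination h0 - (q23W1 k ^ 3) * h1
      + (((q23W1 k * q23W k + q23W1 k) ^ 2 + (q23W1 k * q23W k + q23W1 k) * (1 + q23W1 k)
          + (1 + q23W1 k) ^ 2) - qExpand k 4 (jqModC k) * q23W1 k ^ 2) * h
      - (q23W1 k ^ 3 * q23W k) * h2
  rcases mul_eq_zero.mp key with h4 | h4
  · exact hw1 (pow_eq_zero_iff (two_ne_zero) |>.mp h4)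
  · exact q23_jN_ne (k := k) 4 (by norm_num) (sub_eq_zero.mp h4)

theorem q23W1_add_one_ne_zero : q23W1 k + 1 ≠ 0 := by
  intro h
  have h2 := q23W1_ident' (k := k)
  rw [h, zero_pow (by norm_num)] at h2
  rcases mul_eq_zero.mp h2.symm with h4 | h4
  · exact q23_jN_ne_zero (k := k) 2 h4
  · exact q23W1_ne_zero (k := k) h4

/-- The modular equation of level `2` for `h̄₂`: `w² = w₁² w + w₁`. -/
theorem q23_three_modEq : q23W k ^ 2 = q23W1 k ^ 2 * q23W k + q23W1 k :=
  q23_three_R (q23_three_L (k := k)) (q23W1_ident' (k := k)) (q23W_ident (k := k))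
    (q23_W1W_ne_one (k := k))

theorem q23H3_mul : q23H3 k * (q23W1 k + 1) = q23W k - q23W1 k := by
  rw [q23H3, div_mul_cancel₀ _ (q23W1_add_one_ne_zero (k := k))]

/-- `h² + h = w`. -/
theorem q23H3_sq_add : q23H3 k ^ 2 + q23H3 k = q23W k :=
  (q23_three_h (q23_three_L (k := k)) (q23_three_modEq (k := k)) (q23H3_mul (k := k))
    (q23W1_add_one_ne_zero (k := k))).1

/-- `w₁ (h + 1) = h²`. -/
theorem q23H3_W1 : q23W1 k * (q23H3 k + 1) = q23H3 k ^ 2 :=
  (q23_three_h (q23_three_L (k := k)) (q23_three_modEq (k := k)) (q23H3_mul (k := k))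
    (q23W1_add_one_ne_zero (k := k))).2

/-- **`j̄ h⁴ (h + 1) = (h - 1)⁶`**. -/
theorem q23_three_jh : jqModC k * q23H3 k ^ 4 * (q23H3 k + 1) = (q23H3 k - 1) ^ 6 :=
  q23_three_j (q23_three_L (k := k)) (q23W1_ident (k := k)) (q23H3_W1 (k := k))

/-- `θ w₁ = - w₁`. -/
theorem q23_thetaL_W1 : thetaL (q23W1 k) = -q23W1 k := by
  have h := congrArg thetaL (q23_j0_mul_W1 (k := k))
  rw [thetaL_mul, q23_thetaL_j (k := k) (ℓ := 3) (Or.inr rfl),
    q23_thetaL_jN (k := k) (ℓ := 3) (Or.inr rfl) 2] at h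
  have e := q23_j0_mul_W1 (k := k)
  refine mul_left_cancel₀ (q23_jq_ne_zero (k := k)) ?_
  push_cast at h
  linear_combination h + 2 * e

/-- `θ w = w`. -/
theorem q23_thetaL_W : thetaL (q23W k) = q23W k := by
  rw [q23W, thetaL_qExpand, q23_thetaL_W1, map_neg]
  have h3 := q23_three_L (k := k)
  push_cast
  linear_combination (-(qExpand k 2 (q23W1 k))) * h3

/-- **The ODE of the Hauptmodul of `X₀(4)` in characteristic `3`**:
`θ h · (2 h + 1) = h (h + 1)`. -/
theorem q23_three_ode : thetaL (q23H3 k) * (2 * q23H3 k + 1) = q23H3 k * (q23H3 k + 1) := by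
  have h := congrArg thetaL (q23H3_sq_add (k := k))
  rw [map_add, thetaL_pow, q23_thetaL_W, ← q23H3_sq_add (k := k)] at h
  push_cast at h
  simp only [pow_one] at h
  linear_combination h

end ThreeSeries

section ThreePlace

variable {k : Type*} [Field k] [CharP k 3]
variable {E : IntermediateField k (LaurentSeries k)}

/-- The reduction of the Hauptmodul of `X₀(4)` as an element of a field `E ∋ j̄, j̄(t²), j̄(t⁴)`. -/
def q23hE3 (jE0 jE1 jE2 : ↥E) : ↥E := (jE2 / jE1 - jE1 / jE0) / (jE1 / jE0 + 1)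

omit [CharP k 3] in
theorem q23_coe_div (a b : ↥E) :
    ((a / b : ↥E) : LaurentSeries k) = (a : LaurentSeries k) / (b : LaurentSeries k) := rfl

theorem q23hE3_coe {jE0 jE1 jE2 : ↥E} (hj0 : (jE0 : LaurentSeries k) = jqModC k)
    (hj1 : (jE1 : LaurentSeries k) = qExpand k 2 (jqModC k))
    (hj2 : (jE2 : LaurentSeries k) = qExpand k 4 (jqModC k)) :
    ((q23hE3 jE0 jE1 jE2 : ↥E) : LaurentSeries k) = q23H3 k := by
  have e1 : (jE1 : LaurentSeries k) / (jE0 : LaurentSeries k) = q23W1 k := by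
    rw [hj0, hj1, div_eq_iff (q23_jq_ne_zero (k := k)), mul_comm]
    exact (q23_j0_mul_W1 (k := k)).symm
  have e2 : (jE2 : LaurentSeries k) / (jE1 : LaurentSeries k) = q23W k := by
    rw [hj1, hj2, div_eq_iff (q23_jN_ne_zero (k := k) 2), mul_comm]
    exact (q23_j1_mul_W (k := k)).symm
  rw [q23hE3, q23H3, q23_coe_div, coeE_sub, IntermediateField.coe_add, q23_coe_div, q23_coe_div,
    IntermediateField.coe_one, e1, e2]

omit [CharP k 3] in
/-- At a zero of `j̄`: `h` is regular and `h ≡ 1`. -/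
theorem q23_three_place (z : Place k ↥E) {h j : ↥E}
    (hjh : j * h ^ 4 * (h + 1) = (h - 1) ^ 6) (hz : 0 < z.ord j) :
    h ∈ z.toValuationSubring ∧ OrdGe z 1 (h - 1) := by
  have hj0 : j ≠ 0 := ne_zero_of_ord_ne_zero z (by omega)
  have hmem : h ∈ z.toValuationSubring := by
    by_contra hh
    have hneg : z.ord h < 0 := (not_mem_iff_ord_neg z).mp hh
    have hh0 : h ≠ 0 := ne_zero_of_ord_ne_zero z (by omega)
    have h1 : OrdGe z (z.ord h + 1) (1 : ↥E) := Or.inr (by rw [z.ord_one]; omega)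
    have hp := ord_add_eq z hh0 h1
    have hm := ord_add_eq z hh0 h1.neg
    rw [← sub_eq_add_neg] at hm
    have hL : z.ord (j * h ^ 4 * (h + 1)) = z.ord j + 4 * z.ord h + z.ord h := by
      rw [z.ord_mul (mul_ne_zero hj0 (pow_ne_zero 4 hh0)) hp.1,
        z.ord_mul hj0 (pow_ne_zero 4 hh0), ord_pow, hp.2]
      push_cast
      ring
    have hR : z.ord ((h - 1) ^ 6) = 6 * z.ord h := by
      rw [ord_pow, hm.2]
      push_cast
      ring
    rw [hjh, hR] at hL
    omega
  refine ⟨hmem, ?_⟩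
  rcases eq_or_ne (h - 1) 0 with h0 | h0
  · exact Or.inl h0
  · refine Or.inr ?_
    have hR0 : (h - 1) ^ 6 ≠ 0 := pow_ne_zero 6 h0
    rw [← hjh] at hR0
    have hG0 : h ^ 4 * (h + 1) ≠ 0 := by
      intro h1
      apply hR0
      rw [mul_assoc, h1, mul_zero]
    have hG : 0 ≤ z.ord (h ^ 4 * (h + 1)) := by
      rw [← mem_iff_ord_nonneg z hG0]
      exact mul_mem (pow_mem hmem 4) (add_mem hmem (one_mem _))
    have hL : z.ord ((h - 1) ^ 6) = z.ord j + z.ord (h ^ 4 * (h + 1)) := by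
      rw [← hjh, mul_assoc, z.ord_mul hj0 hG0]
    rw [ord_pow] at hL
    push_cast at hL
    omega

/-- **POLE for `q = 3`** (auxiliary level `4`): `c⁹ = c` and `ord_z d̄ = -1` at every zero `z` of
`j̄` and every coordinate `ū` at `z`. -/
theorem q23_ord_dbar_three (hPB : HasPBasis 3 ↥E) (z : Place k ↥E) {u d jE0 jE1 jE2 P : ↥E}
    (c : k) (hu : z.ord (u - algebraMap k ↥E c) = 1)
    (hθ : thetaL (d : LaurentSeries k) =
      (u : LaurentSeries k) ^ (3 - 1) * thetaL (u : LaurentSeries k) -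
        thetaL (u : LaurentSeries k) ^ 3)
    (hj0 : (jE0 : LaurentSeries k) = jqModC k)
    (hj1 : (jE1 : LaurentSeries k) = qExpand k 2 (jqModC k))
    (hj2 : (jE2 : LaurentSeries k) = qExpand k 4 (jqModC k))
    (hz : 0 < z.ord jE0)
    (hL1 : P = d * (u ^ 3 ^ 2 - u)) (hP : P ∈ z.toValuationSubring) :
    c ^ 3 ^ 2 = c ∧ z.ord d = -1 := by
  have : Fact (Nat.Prime 3) := ⟨Nat.prime_three⟩
  set h : ↥E := q23hE3 jE0 jE1 jE2 with hdef
  have hcoe : (h : LaurentSeries k) = q23H3 k := q23hE3_coe hj0 hj1 hj2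
  have h3E : (3 : ↥E) = 0 := by
    apply Subtype.ext
    show ((3 : ↥E) : LaurentSeries k) = 0
    rw [show ((3 : ↥E) : LaurentSeries k) = 3 from rfl]
    exact q23_three_L (k := k)
  have hjh : jE0 * h ^ 4 * (h + 1) = (h - 1) ^ 6 := by
    apply Subtype.ext
    rw [IntermediateField.coe_mul, IntermediateField.coe_mul, IntermediateField.coe_pow,
      IntermediateField.coe_add, IntermediateField.coe_one, IntermediateField.coe_pow, coeE_sub,
      IntermediateField.coe_one, hcoe, hj0]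
    exact q23_three_jh (k := k)
  obtain ⟨hmem, hvan⟩ := q23_three_place z hjh hz
  have hvan' : OrdGe z 1 (h - algebraMap k ↥E 1) := by rwa [map_one]
  have h10 : (1 : k) ≠ 0 := one_ne_zero
  have h2k : (2 : k) ≠ 0 := by
    intro h2
    have h3 : ((3 : ℕ) : k) = 0 := CharP.cast_eq_zero k 3
    have h1 : (1 : k) = 0 := by
      have : (1 : k) = ((3 : ℕ) : k) - 2 := by push_cast; ring
      rw [this, h3, h2, sub_zero]
    exact one_ne_zero h1
  have hA := ord_sub_const z hvan' h10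
  rw [map_zero, sub_zero] at hA
  have hB := ord_sub_const z hvan' (b := -1) (by
    intro h1
    apply h2k
    have : (2 : k) = 1 - (-1) := by ring
    rw [this, ← h1, sub_self])
  rw [map_neg, map_one, sub_neg_eq_add] at hB
  have hode : thetaL (h : LaurentSeries k) * ((2 * h + 1 : ↥E) : LaurentSeries k) =
      ((h * (h + 1) : ↥E) : LaurentSeries k) := by
    rw [IntermediateField.coe_add, IntermediateField.coe_mul, IntermediateField.coe_mul,
      IntermediateField.coe_add, IntermediateField.coe_one, hcoe,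
      show ((2 : ↥E) : LaurentSeries k) = 2 from rfl]
    exact q23_three_ode (k := k)
  have hb : OrdGe z 1 (2 * h + 1) := by
    have e : 2 * h + 1 = -(h - 1) := by linear_combination h * h3E
    rw [e]
    exact hvan.neg
  have ha : z.ord (h * (h + 1)) = 0 := by
    rw [z.ord_mul hA.1 hB.1, hA.2, hB.2, add_zero]
  exact q23_ord_dbar_ode (q := 3) hPB z c hu hθ hode hmem (mul_ne_zero hA.1 hB.1) ha hb hL1 hP

end ThreePlace

end Fermat.Agent.S36.NU.H5
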