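import Fermat.Agent.S36.NU.H16_LocalDefs
import Mathlib.RingTheory.DedekindDomain.AdicValuation
import Mathlib.RingTheory.Jacobson.Ring
import Mathlib.FieldTheory.IsAlgClosed.Basic

/-!
# S36 / NU-B, local side of TI3, leaf (L1) BRANCH-ALG (helper61)

If the image `A` of the coordinate ring `B` of a chart in the function field `κ i` of the
component `i` is a Dedekind domain with fraction field `κ i`, and the residue field of the closed
point `𝔪 ⊇ Icomp i` is the field of constants, then the component has a `Branch` through `𝔪`.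

* `branch_of_dedekind` : the main statement, for an abstract Dedekind model `φ : B ↠ A`,
  `A → κ i` the fraction field (the case where `A` is a field is allowed).
* `residue_of_finiteType` : the residue-field hypothesis from `IsAlgClosed k` and
  `Algebra.FiniteType k A` (Zariski's lemma).
* `branch_of_dedekind_finiteType` : the two together.
* `branch_of_range` : the same with `A = (C.rdB i).range`.
-/

set_option autoImplicit false

noncomputable section

namespace Fermat.Agent.S36.NU.H61

open Fermat.Agent.S36.NU.H16 IsDedekindDomain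

/-- In `ℤᵐ⁰` the powers of an element `< 1` are eventually below any nonzero element. -/
theorem exists_pow_le_of_lt_one (a b : WithZero (Multiplicative ℤ)) (ha : a < 1) (hb : b ≠ 0) :
    ∃ N : ℕ, ∀ M : ℕ, N ≤ M → a ^ M ≤ b := by
  by_cases ha0 : a = 0
  · refine ⟨1, fun M hM => ?_⟩
    subst ha0
    rw [zero_pow (by omega)]
    exact zero_le
  · have hla : WithZero.log a < 0 := by
      have h1 := (WithZero.log_lt_log ha0 one_ne_zero).2 ha
      simpa using h1
    refine ⟨(-WithZero.log b).toNat, fun M hM => ?_⟩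
    rw [← WithZero.log_le_log (pow_ne_zero _ ha0) hb, WithZero.log_pow, nsmul_eq_mul]
    have h2 : -WithZero.log b ≤ (M : ℤ) := by
      have h3 := Int.self_le_toNat (-WithZero.log b)
      have h4 : ((-WithZero.log b).toNat : ℤ) ≤ (M : ℤ) := by exact_mod_cast hM
      omega
    have h5 : (0 : ℤ) ≤ (M : ℤ) := Int.natCast_nonneg M
    nlinarith

variable {R F k ι : Type*} {κ : ι → Type*} [CommRing R] [Field F] [Algebra R F]
  [Field k] [∀ i, Field (κ i)] [∀ i, Algebra k (κ i)]

section Model

variable (C : Chart R F k ι κ) (i : ι) {A : Type*} [CommRing A] [Algebra A (κ i)]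
  (φ : C.B →+* A)

/-- the kernel of a model `φ` of the component is `Icomp i`. -/
theorem ker_model (hinj : Function.Injective (algebraMap A (κ i)))
    (hcomp : ∀ β, algebraMap A (κ i) (φ β) = C.rdB i β) :
    RingHom.ker φ = C.Icomp i := by
  ext β
  rw [RingHom.mem_ker, C.mem_Icomp, ← hcomp]
  constructor
  · intro h
    rw [h, map_zero]
  · intro h
    exact hinj (by rw [h, map_zero])

/-- membership in `𝔪` is detected in the model. -/
theorem mem_iff_model (hinj : Function.Injective (algebraMap A (κ i)))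
    (hφ : Function.Surjective φ)
    (hcomp : ∀ β, algebraMap A (κ i) (φ β) = C.rdB i β)
    (𝔪 : Ideal C.B) (h𝔪 : C.Icomp i ≤ 𝔪) (β : C.B) :
    β ∈ 𝔪 ↔ φ β ∈ 𝔪.map φ := by
  constructor
  · exact Ideal.mem_map_of_mem φ
  · intro h
    have h1 : β ∈ (𝔪.map φ).comap φ := h
    rw [Ideal.comap_map_of_surjective φ hφ] at h1
    have h2 : (⊥ : Ideal A).comap φ ≤ 𝔪 := by
      intro x hx
      apply h𝔪
      rw [← ker_model C i φ hinj hcomp]
      exact hx
    exact (sup_le le_rfl h2) h1

end Model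

section Basic

variable (C : Chart R F k ι κ) (i : ι)

theorem rdB_algebraMap (r : R) :
    C.rdB i (algebraMap R C.B r) = algebraMap k (κ i) (C.res r) :=
  C.red_const i r _

/-- the nonunits of a valuation subring are closed under addition. -/
theorem add_mem_nonunits {K : Type*} [Field K] (O : ValuationSubring K) {x y : K}
    (hx : x ∈ O.nonunits) (hy : y ∈ O.nonunits) : x + y ∈ O.nonunits := by
  rw [ValuationSubring.mem_nonunits_iff] at hx hy ⊢
  exact lt_of_le_of_lt (O.valuation.map_add x y) (max_lt hx hy)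

/-- the nonunits of a valuation subring absorb multiplication by integers. -/
theorem mul_mem_nonunits {K : Type*} [Field K] (O : ValuationSubring K) {x y : K}
    (hx : x ∈ O) (hy : y ∈ O.nonunits) : x * y ∈ O.nonunits := by
  rw [ValuationSubring.mem_nonunits_iff] at hy ⊢
  rw [map_mul]
  have h1 : O.valuation x ≤ 1 := (O.valuation_le_one_iff x).2 hx
  calc O.valuation x * O.valuation y ≤ 1 * O.valuation y := by gcongr
    _ = O.valuation y := one_mul _
    _ < 1 := hy

end Basic

/-- **A branch from `reg`, `van`, `normal`, `arch` and the residue field hypothesis**: `value`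
follows. -/
theorem value_of_normal (C : Chart R F k ι κ) (i : ι)
    (𝔪 : Ideal C.B) (hmax : 𝔪.IsMaximal) (O : ValuationSubring (κ i))
    (van : ∀ β : C.B, β ∈ 𝔪 ↔ C.rdB i β ∈ O.nonunits)
    (normal : ∀ y ∈ O, ∃ b β : C.B, β ∉ 𝔪 ∧ C.rdB i b = y * C.rdB i β)
    (hk : ∀ β : C.B, ∃ r : R, β - algebraMap R C.B r ∈ 𝔪) :
    ∀ y ∈ O, ∃ c : k, y - algebraMap k (κ i) c ∈ O.nonunits := by
  intro y hy
  obtain ⟨b, β, hβ, hb⟩ := normal y hy
  obtain ⟨β'', m, hm, hsum⟩ := hmax.exists_inv hβ
  obtain ⟨r, hr⟩ := hk (b * β'')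
  refine ⟨C.res r, ?_⟩
  have h1 : C.rdB i (b * β'' - algebraMap R C.B r) ∈ O.nonunits := (van _).1 hr
  have h2 : C.rdB i m ∈ O.nonunits := (van _).1 hm
  have h3 : y - algebraMap k (κ i) (C.res r) =
      y * C.rdB i m + C.rdB i (b * β'' - algebraMap R C.B r) := by
    rw [map_sub, map_mul, hb, rdB_algebraMap]
    have h4 : C.rdB i (β'' * β + m) = 1 := by rw [hsum, map_one]
    rw [map_add, map_mul] at h4
    linear_combination (-y) * h4
  rw [h3]
  exact add_mem_nonunits O (mul_mem_nonunits O hy h2) h1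

/-- **(L1) BRANCH-ALG**, abstract form.  `φ : B ↠ A` with `A` a Dedekind domain (possibly a field)
with fraction field `κ i`, compatible with `rdB i`; the residue field of `𝔪` consists of
constants.  Then the component `i` has a branch through `𝔪`. -/
theorem branch_of_dedekind (C : Chart R F k ι κ) (i : ι)
    {A : Type*} [CommRing A] [IsDedekindDomain A] [Algebra A (κ i)] [IsFractionRing A (κ i)]
    (φ : C.B →+* A) (hφ : Function.Surjective φ)
    (hcomp : ∀ β, algebraMap A (κ i) (φ β) = C.rdB i β)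
    (𝔪 : Ideal C.B) (hmax : 𝔪.IsMaximal) (h𝔪 : C.Icomp i ≤ 𝔪)
    (hk : ∀ β : C.B, ∃ r : R, β - algebraMap R C.B r ∈ 𝔪) :
    Nonempty (Branch C 𝔪 i) := by
  classical
  have hinj : Function.Injective (algebraMap A (κ i)) := IsFractionRing.injective A (κ i)
  have hmem := mem_iff_model C i φ hinj hφ hcomp 𝔪 h𝔪
  have hPmax : (𝔪.map φ).IsMaximal := by
    rcases Ideal.map_eq_top_or_isMaximal_of_surjective φ hφ hmax with h | h
    · exfalso
      have h1 : (1 : C.B) ∈ 𝔪 := by
        rw [hmem, h]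
        exact Submodule.mem_top
      exact hmax.ne_top ((Ideal.eq_top_iff_one 𝔪).2 h1)
    · exact h
  by_cases hbot : 𝔪.map φ = ⊥
  · -- `A` is a field, `O = ⊤`
    have hfield : IsField A := by
      rw [Ring.isField_iff_maximal_bot, ← hbot]
      exact hPmax
    have hsurj : Function.Surjective (algebraMap A (κ i)) :=
      IsFractionRing.surjective_iff_isField.2 hfield
    have hnon : ∀ x : κ i, x ∈ (⊤ : ValuationSubring (κ i)).nonunits ↔ x = 0 := by
      intro x
      rw [ValuationSubring.mem_nonunits_iff_or]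
      constructor
      · rintro (h | h)
        · exact h
        · exact absurd (ValuationSubring.mem_top _) h
      · intro h
        exact Or.inl h
    have van : ∀ β : C.B, β ∈ 𝔪 ↔ C.rdB i β ∈ (⊤ : ValuationSubring (κ i)).nonunits := by
      intro β
      rw [hnon, hmem, hbot, Ideal.mem_bot, ← hcomp]
      constructor
      · intro h
        rw [h, map_zero]
      · intro h
        exact hinj (by rw [h, map_zero])
    have normal : ∀ y ∈ (⊤ : ValuationSubring (κ i)),
        ∃ b β : C.B, β ∉ 𝔪 ∧ C.rdB i b = y * C.rdB i β := by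
      intro y _
      obtain ⟨a, rfl⟩ := hsurj y
      obtain ⟨b, rfl⟩ := hφ a
      refine ⟨b, 1, ?_, ?_⟩
      · intro h
        exact hmax.ne_top ((Ideal.eq_top_iff_one 𝔪).2 h)
      · rw [map_one, mul_one, hcomp]
    exact ⟨{
      O := ⊤
      reg := fun β => ValuationSubring.mem_top _
      van := van
      normal := normal
      arch := fun x _ y _ => ⟨0, fun M _ => ValuationSubring.mem_top _⟩
      value := value_of_normal C i 𝔪 hmax ⊤ van normal hk }⟩
  · -- the height one prime `P = φ 𝔪`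
    let v : HeightOneSpectrum A := ⟨𝔪.map φ, hPmax.isPrime, hbot⟩
    let O : ValuationSubring (κ i) := (v.valuation (κ i)).valuationSubring
    have hOmem : ∀ x : κ i, x ∈ O ↔ v.valuation (κ i) x ≤ 1 := fun x => Iff.rfl
    have hOnon : ∀ x : κ i, x ∈ O.nonunits ↔ v.valuation (κ i) x < 1 := by
      intro x
      rw [ValuationSubring.mem_nonunits_iff]
      exact ((Valuation.isEquiv_valuation_valuationSubring (v.valuation (κ i))).lt_one_iff_lt_one).symm
    have reg : ∀ β : C.B, C.rdB i β ∈ O := by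
      intro β
      rw [hOmem, ← hcomp]
      exact v.valuation_le_one _
    have van : ∀ β : C.B, β ∈ 𝔪 ↔ C.rdB i β ∈ O.nonunits := by
      intro β
      rw [hOnon, ← hcomp, v.valuation_lt_one_iff_mem, hmem]
    have normal : ∀ y ∈ O, ∃ b β : C.B, β ∉ 𝔪 ∧ C.rdB i b = y * C.rdB i β := by
      intro y hy
      obtain ⟨n, d, hnd⟩ := v.exists_primeCompl_mul_eq_of_integer y ((hOmem y).1 hy)
      obtain ⟨b, hb⟩ := hφ n
      obtain ⟨β, hβ⟩ := hφ (d : A)
      refine ⟨b, β, ?_, ?_⟩
      · rw [hmem, hβ]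
        exact d.2
      · rw [← hcomp, ← hcomp, hb, hβ, hnd]
    have arch : ∀ x ∈ O.nonunits, ∀ y : κ i, y ≠ 0 →
        ∃ N : ℕ, ∀ M : ℕ, N ≤ M → x ^ M * y⁻¹ ∈ O := by
      intro x hx y hy
      have hy' : v.valuation (κ i) y ≠ 0 := (Valuation.ne_zero_iff _).2 hy
      obtain ⟨N, hN⟩ := exists_pow_le_of_lt_one _ _ ((hOnon x).1 hx) hy'
      refine ⟨N, fun M hM => ?_⟩
      rw [hOmem, map_mul, map_pow, map_inv₀]
      exact mul_inv_le_one_of_le₀ (hN M hM) zero_le
    exact ⟨{
      O := O
      reg := reg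
      van := van
      normal := normal
      arch := arch
      value := value_of_normal C i 𝔪 hmax O van normal hk }⟩

/-! ### The residue field hypothesis from Zariski's lemma -/

/-- **Zariski's lemma, ring-hom form**: a ring hom of finite type from an algebraically closed
field to a field is surjective. -/
theorem surjective_of_finiteType_field {k' K : Type*} [Field k'] [IsAlgClosed k'] [Field K]
    (g : k' →+* K) (hg : g.FiniteType) : Function.Surjective g := by
  have h1 : g.Finite := RingHom.finite_iff_finiteType_of_isJacobsonRing.2 hg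
  have h2 : g.IsIntegral := h1.to_isIntegral
  exact (IsAlgClosed.ringHom_bijective_of_isIntegral g h2).2

/-- the constants of `R` that die in `k` lie in every `𝔪 ⊇ Icomp i`. -/
theorem algebraMap_mem_of_res_eq_zero (C : Chart R F k ι κ) (i : ι)
    (𝔪 : Ideal C.B) (h𝔪 : C.Icomp i ≤ 𝔪) {r : R} (hr : C.res r = 0) :
    algebraMap R C.B r ∈ 𝔪 := by
  apply h𝔪
  rw [C.mem_Icomp, rdB_algebraMap, hr, map_zero]

/-- **Residue field of a closed point**, ring-hom form: if `R → B / 𝔪` is of finite type and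
`k` is algebraically closed, then the residue field of `𝔪` consists of constants. -/
theorem residue_of_ringHom_finiteType [IsAlgClosed k] (C : Chart R F k ι κ) (i : ι)
    (𝔪 : Ideal C.B) (hmax : 𝔪.IsMaximal) (h𝔪 : C.Icomp i ≤ 𝔪)
    (hft : ((Ideal.Quotient.mk 𝔪).comp (algebraMap R C.B)).FiniteType) :
    ∀ β : C.B, ∃ r : R, β - algebraMap R C.B r ∈ 𝔪 := by
  let _ : Field (C.B ⧸ 𝔪) := Ideal.Quotient.field 𝔪
  let f : R →+* C.B ⧸ 𝔪 := (Ideal.Quotient.mk 𝔪).comp (algebraMap R C.B)
  have hker : RingHom.ker C.res ≤ RingHom.ker f := by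
    intro r hr
    rw [RingHom.mem_ker] at hr ⊢
    exact Ideal.Quotient.eq_zero_iff_mem.2 (algebraMap_mem_of_res_eq_zero C i 𝔪 h𝔪 hr)
  let g : k →+* C.B ⧸ 𝔪 := C.res.liftOfSurjective C.res_surj ⟨f, hker⟩
  have hgf : g.comp C.res = f := RingHom.liftOfSurjective_comp C.res C.res_surj ⟨f, hker⟩
  have hg : g.FiniteType := by
    apply RingHom.FiniteType.of_comp_finiteType (f := C.res)
    rw [hgf]
    exact hft
  have hsurj := surjective_of_finiteType_field g hg
  intro β
  obtain ⟨c, hc⟩ := hsurj (Ideal.Quotient.mk 𝔪 β)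
  obtain ⟨r, rfl⟩ := C.res_surj c
  refine ⟨r, ?_⟩
  rw [← Ideal.Quotient.eq, ← hc]
  exact (RingHom.congr_fun hgf r)

/-- **Residue field of a closed point**: `B` of finite type over `R`, `k` algebraically closed. -/
theorem residue_of_finiteType_B [IsAlgClosed k] (C : Chart R F k ι κ) (i : ι)
    [Algebra.FiniteType R C.B]
    (𝔪 : Ideal C.B) (hmax : 𝔪.IsMaximal) (h𝔪 : C.Icomp i ≤ 𝔪) :
    ∀ β : C.B, ∃ r : R, β - algebraMap R C.B r ∈ 𝔪 := by
  apply residue_of_ringHom_finiteType C i 𝔪 hmax h𝔪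
  apply RingHom.FiniteType.comp
  · exact RingHom.FiniteType.of_surjective _ Ideal.Quotient.mk_surjective
  · exact (RingHom.finiteType_algebraMap (A := R) (B := C.B)).2 inferInstance

/-- **Residue field of a closed point**: the model `A` of the component is a `k`-algebra of finite
type, `k` algebraically closed. -/
theorem residue_of_finiteType [IsAlgClosed k] (C : Chart R F k ι κ) (i : ι)
    {A : Type*} [CommRing A] [Algebra k A] [Algebra.FiniteType k A] [Algebra A (κ i)]
    [IsScalarTower k A (κ i)]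
    (hinj : Function.Injective (algebraMap A (κ i)))
    (φ : C.B →+* A) (hφ : Function.Surjective φ)
    (hcomp : ∀ β, algebraMap A (κ i) (φ β) = C.rdB i β)
    (𝔪 : Ideal C.B) (hmax : 𝔪.IsMaximal) (h𝔪 : C.Icomp i ≤ 𝔪) :
    ∀ β : C.B, ∃ r : R, β - algebraMap R C.B r ∈ 𝔪 := by
  have hmem := mem_iff_model C i φ hinj hφ hcomp 𝔪 h𝔪
  have hPmax : (𝔪.map φ).IsMaximal := by
    rcases Ideal.map_eq_top_or_isMaximal_of_surjective φ hφ hmax with h | h
    · exfalso
      have h1 : (1 : C.B) ∈ 𝔪 := by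
        rw [hmem, h]
        exact Submodule.mem_top
      exact hmax.ne_top ((Ideal.eq_top_iff_one 𝔪).2 h1)
    · exact h
  let _ : Field (A ⧸ 𝔪.map φ) := Ideal.Quotient.field _
  have hg : ((Ideal.Quotient.mk (𝔪.map φ)).comp (algebraMap k A)).FiniteType := by
    apply RingHom.FiniteType.comp
    · exact RingHom.FiniteType.of_surjective _ Ideal.Quotient.mk_surjective
    · exact (RingHom.finiteType_algebraMap (A := k) (B := A)).2 inferInstance
  have hsurj := surjective_of_finiteType_field _ hg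
  intro β
  obtain ⟨c, hc⟩ := hsurj (Ideal.Quotient.mk (𝔪.map φ) (φ β))
  obtain ⟨r, rfl⟩ := C.res_surj c
  refine ⟨r, ?_⟩
  have h1 : φ (algebraMap R C.B r) = algebraMap k A (C.res r) := by
    apply hinj
    rw [hcomp, rdB_algebraMap, ← IsScalarTower.algebraMap_apply]
  rw [hmem, map_sub, h1, ← Ideal.Quotient.eq, ← hc]
  rfl

/-- **(L1) BRANCH-ALG** for a Dedekind model of finite type over `k = k̄`. -/
theorem branch_of_dedekind_finiteType [IsAlgClosed k] (C : Chart R F k ι κ) (i : ι)
    {A : Type*} [CommRing A] [IsDedekindDomain A] [Algebra k A] [Algebra.FiniteType k A]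
    [Algebra A (κ i)] [IsFractionRing A (κ i)] [IsScalarTower k A (κ i)]
    (φ : C.B →+* A) (hφ : Function.Surjective φ)
    (hcomp : ∀ β, algebraMap A (κ i) (φ β) = C.rdB i β)
    (𝔪 : Ideal C.B) (hmax : 𝔪.IsMaximal) (h𝔪 : C.Icomp i ≤ 𝔪) :
    Nonempty (Branch C 𝔪 i) :=
  branch_of_dedekind C i φ hφ hcomp 𝔪 hmax h𝔪
    (residue_of_finiteType C i (IsFractionRing.injective A (κ i)) φ hφ hcomp 𝔪 hmax h𝔪)

/-! ### The image of the coordinate ring in the function field of the component -/

/-- `A_i = rdB i (B) ⊆ κ i`, as a `k`-subalgebra. -/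
def imgAlg (C : Chart R F k ι κ) (i : ι) : Subalgebra k (κ i) where
  toSubsemiring := (C.rdB i).rangeS
  algebraMap_mem' c := by
    obtain ⟨r, rfl⟩ := C.res_surj c
    exact ⟨algebraMap R C.B r, rdB_algebraMap C i r⟩

theorem mem_imgAlg (C : Chart R F k ι κ) (i : ι) (y : κ i) :
    y ∈ imgAlg C i ↔ ∃ β : C.B, C.rdB i β = y := Iff.rfl

/-- the surjection `B ↠ A_i`. -/
def toImg (C : Chart R F k ι κ) (i : ι) : C.B →+* imgAlg C i :=
  (C.rdB i).codRestrict (imgAlg C i) fun β => ⟨β, rfl⟩

theorem toImg_surjective (C : Chart R F k ι κ) (i : ι) : Function.Surjective (toImg C i) := by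
  rintro ⟨y, β, rfl⟩
  exact ⟨β, rfl⟩

theorem algebraMap_toImg (C : Chart R F k ι κ) (i : ι) (β : C.B) :
    algebraMap (imgAlg C i) (κ i) (toImg C i β) = C.rdB i β := rfl

/-- **(L1) BRANCH-ALG**, image form with the residue field hypothesis. -/
theorem branch_of_img (C : Chart R F k ι κ) (i : ι)
    [IsDedekindDomain (imgAlg C i)] [IsFractionRing (imgAlg C i) (κ i)]
    (𝔪 : Ideal C.B) (hmax : 𝔪.IsMaximal) (h𝔪 : C.Icomp i ≤ 𝔪)
    (hk : ∀ β : C.B, ∃ r : R, β - algebraMap R C.B r ∈ 𝔪) :
    Nonempty (Branch C 𝔪 i) :=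
  branch_of_dedekind C i (toImg C i) (toImg_surjective C i) (algebraMap_toImg C i) 𝔪 hmax h𝔪 hk

/-- **(L1) BRANCH-ALG**, image form: `A_i = rdB i (B)` Dedekind with fraction field `κ i`,
finitely generated over `k = k̄`. -/
theorem branch_of_img_fg [IsAlgClosed k] (C : Chart R F k ι κ) (i : ι)
    [IsDedekindDomain (imgAlg C i)] [IsFractionRing (imgAlg C i) (κ i)]
    (hfg : (imgAlg C i).FG)
    (𝔪 : Ideal C.B) (hmax : 𝔪.IsMaximal) (h𝔪 : C.Icomp i ≤ 𝔪) :
    Nonempty (Branch C 𝔪 i) := by
  have : Algebra.FiniteType k (imgAlg C i) := (Subalgebra.fg_iff_finiteType _).1 hfg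
  exact branch_of_dedekind_finiteType C i (toImg C i) (toImg_surjective C i)
    (algebraMap_toImg C i) 𝔪 hmax h𝔪

/-- **(L1) BRANCH-ALG**, the statement of the leaf (in `Type`, as the statements of
`H16_LocalDefs`). -/
def Stmt_BranchAlg : Prop :=
  ∀ {R F k ι : Type} {κ : ι → Type} [CommRing R] [Field F] [Algebra R F]
    [Field k] [IsAlgClosed k] [∀ i, Field (κ i)] [∀ i, Algebra k (κ i)]
    (C : Chart R F k ι κ) (i : ι)
    (_ : IsDedekindDomain (imgAlg C i)) (_ : IsFractionRing (imgAlg C i) (κ i))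
    (_ : (imgAlg C i).FG)
    (𝔪 : Ideal C.B) (_ : 𝔪.IsMaximal) (_ : C.Icomp i ≤ 𝔪), Nonempty (Branch C 𝔪 i)

theorem stmt_BranchAlg : Stmt_BranchAlg := by
  intro R F k ι κ _ _ _ _ _ _ _ C i hD hF hfg 𝔪 hmax h𝔪
  exact branch_of_img_fg C i hfg 𝔪 hmax h𝔪

end Fermat.Agent.S36.NU.H61
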