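import Fermat.Agent.S36.NU.H16_LocalDefs

/-!
# S36 / NU-B, TI3 local side, leaf (L1) BRANCH-ALG (helper65)

* `branchOfDedekind` : if the image `A` of the coordinate ring `C.B` in the residue field `κ i` of the
  component `i` is a Dedekind domain with fraction field `κ i`, all of whose residue fields are `k`,
  then every closed point `𝔪 ⊇ Icomp i` (with `𝔪 ≠ Icomp i`) has a `H16.Branch`.
  The valuation ring is the one of the height one prime `𝔪 / Icomp i` of `A`.
* `residue_eq_of_finiteType` : the residue fields are `k` when `A` is of finite type over `k = k̄`.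
* `branchOfFiniteType` : both together.
-/

set_option linter.style.haveILetI false

set_option autoImplicit false

noncomputable section

namespace Fermat.Agent.S36.NU.H65

open Fermat.Agent.S36.NU.H16 IsDedekindDomain WithZero

/-- Rank one for `ℤᵐ⁰`. -/
theorem zm0_arch (a b : ℤᵐ⁰) (ha : a < 1) : ∃ N : ℕ, ∀ M : ℕ, N ≤ M → a ^ M * b ≤ 1 := by
  rcases eq_or_ne a 0 with rfl | ha0
  · refine ⟨1, fun M hM => ?_⟩
    rw [zero_pow (by omega), zero_mul]
    exact zero_le_one
  rcases eq_or_ne b 0 with rfl | hb0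
  · exact ⟨0, fun M _ => by rw [mul_zero]; exact zero_le_one⟩
  have ha1 : log a < 0 := by
    rw [log_lt_iff_lt_exp ha0, exp_zero]
    exact ha
  refine ⟨(log b).toNat, fun M hM => ?_⟩
  have hne : a ^ M * b ≠ 0 := mul_ne_zero (pow_ne_zero _ ha0) hb0
  rw [← exp_zero, ← log_le_iff_le_exp hne, log_mul (pow_ne_zero _ ha0) hb0, log_pow]
  have h1 : log b ≤ (M : ℤ) := by
    have := Int.self_le_toNat (log b)
    have h2 : ((log b).toNat : ℤ) ≤ (M : ℤ) := by exact_mod_cast hM
    omega
  have h3 : M • log a ≤ -(M : ℤ) := by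
    rw [nsmul_eq_mul]
    nlinarith
  omega

variable {R F k ι : Type*} {κ : ι → Type*} [CommRing R] [Field F] [Algebra R F]
  [Field k] [∀ i, Field (κ i)] [∀ i, Algebra k (κ i)]

/-- **(L1) BRANCH-ALG.**  If the image `A` of the coordinate ring in the residue field `κ i` of the
component `i` is a Dedekind domain with fraction field `κ i`, all of whose residue fields are `k`,
then every closed point `𝔪` of the chart on the component `i` has a `Branch`. -/
def branchOfDedekind (C : Chart R F k ι κ) (i : ι) (A : Type*) [CommRing A] [IsDedekindDomain A]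
    [Algebra A (κ i)] [IsFractionRing A (κ i)] [Algebra k A] [IsScalarTower k A (κ i)]
    (ψ : C.B →+* A) (hψ : Function.Surjective ψ)
    (hcomp : ∀ β, algebraMap A (κ i) (ψ β) = C.rdB i β)
    (hres : ∀ P : Ideal A, P.IsMaximal → ∀ a : A, ∃ c : k, a - algebraMap k A c ∈ P)
    (𝔪 : Ideal C.B) (h𝔪 : 𝔪.IsMaximal) (hi : C.Icomp i ≤ 𝔪)
    (hne : ∃ β ∈ 𝔪, C.rdB i β ≠ 0) : Branch C 𝔪 i :=
  have hinj : Function.Injective (algebraMap A (κ i)) := IsFractionRing.injective A (κ i)
  have hker : RingHom.ker ψ ≤ 𝔪 := by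
    intro β hβ
    apply hi
    rw [C.mem_Icomp, ← hcomp, RingHom.mem_ker.1 hβ, map_zero]
  have hmem : ∀ β : C.B, ψ β ∈ 𝔪.map ψ ↔ β ∈ 𝔪 := by
    intro β
    constructor
    · intro h
      have h1 : β ∈ (𝔪.map ψ).comap ψ := h
      rw [Ideal.comap_map_of_surjective ψ hψ] at h1
      have h2 : 𝔪 ⊔ Ideal.comap ψ ⊥ = 𝔪 := sup_eq_left.2 hker
      rwa [h2] at h1
    · exact fun h => Ideal.mem_map_of_mem ψ h
  have hmax : (𝔪.map ψ).IsMaximal := by
    rcases Ideal.map_eq_top_or_isMaximal_of_surjective ψ hψ h𝔪 with h | h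
    · exfalso
      obtain ⟨β, hβ⟩ := hψ 1
      have : β ∈ 𝔪 := (hmem β).1 (by rw [hβ, h]; exact Submodule.mem_top)
      have h1 : (1 : C.B) - β ∈ RingHom.ker ψ := by
        rw [RingHom.mem_ker, map_sub, map_one, hβ, sub_self]
      have h2 : (1 : C.B) ∈ 𝔪 := by
        have := 𝔪.add_mem (hker h1) this
        simpa using this
      exact h𝔪.ne_top ((Ideal.eq_top_iff_one _).2 h2)
    · exact h
  have hbot : 𝔪.map ψ ≠ ⊥ := by
    obtain ⟨β, hβ, hβ0⟩ := hne
    intro h
    have h1 : ψ β ∈ 𝔪.map ψ := Ideal.mem_map_of_mem ψ hβ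
    rw [h, Ideal.mem_bot] at h1
    apply hβ0
    rw [← hcomp, h1, map_zero]
  let v : HeightOneSpectrum A := ⟨𝔪.map ψ, hmax.isPrime, hbot⟩
  have hnon : ∀ x : κ i, x ∈ (v.valuation (κ i)).valuationSubring.nonunits ↔
      v.valuation (κ i) x < 1 := by
    intro x
    rw [ValuationSubring.mem_nonunits_iff]
    exact ((Valuation.isEquiv_valuation_valuationSubring (v.valuation (κ i))).lt_one_iff_lt_one).symm
  { O := (v.valuation (κ i)).valuationSubring
    reg := fun β => by
      rw [Valuation.mem_valuationSubring_iff, ← hcomp]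
      exact v.valuation_le_one (ψ β)
    van := fun β => by
      rw [hnon, ← hcomp, HeightOneSpectrum.valuation_lt_one_iff_mem]
      exact (hmem β).symm
    normal := fun y hy => by
      obtain ⟨n, d, hnd⟩ := v.exists_primeCompl_mul_eq_of_integer y
        ((Valuation.mem_valuationSubring_iff _ _).1 hy)
      obtain ⟨b, hb⟩ := hψ n
      obtain ⟨β, hβ⟩ := hψ (d : A)
      refine ⟨b, β, ?_, ?_⟩
      · intro h
        have h1 : (d : A) ∈ 𝔪.map ψ := by rw [← hβ]; exact (hmem β).2 h
        exact d.2 h1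
      · rw [← hcomp, ← hcomp, hb, hβ, hnd]
    arch := fun x hx y hy => by
      obtain ⟨N, hN⟩ := zm0_arch (v.valuation (κ i) x) (v.valuation (κ i) y⁻¹) ((hnon x).1 hx)
      refine ⟨N, fun M hM => ?_⟩
      rw [Valuation.mem_valuationSubring_iff, map_mul, map_pow]
      exact hN M hM
    value := fun y hy => by
      obtain ⟨n, d, hnd⟩ := v.exists_primeCompl_mul_eq_of_integer y
        ((Valuation.mem_valuationSubring_iff _ _).1 hy)
      obtain ⟨cn, hcn⟩ := hres _ hmax n
      obtain ⟨cd, hcd⟩ := hres _ hmax (d : A)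
      have hcd0 : cd ≠ 0 := by
        rintro rfl
        rw [map_zero, sub_zero] at hcd
        exact d.2 hcd
      have hd0 : algebraMap A (κ i) (d : A) ≠ 0 := by
        intro h
        have : (d : A) = 0 := hinj (by rw [h, map_zero])
        exact d.2 (by rw [this]; exact Ideal.zero_mem _)
      refine ⟨cn / cd, ?_⟩
      rw [hnon]
      -- `y - cn / cd = ((n - cn) cd - cn (d - cd)) / (d cd)`
      have hvd : v.valuation (κ i) (algebraMap A (κ i) (d : A)) = 1 :=
        (HeightOneSpectrum.valuation_eq_one_iff_notMem v).2 d.2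
      have hcdK : algebraMap k (κ i) cd ≠ 0 := (map_ne_zero _).2 hcd0
      have hvcd : v.valuation (κ i) (algebraMap k (κ i) cd) = 1 := by
        rw [IsScalarTower.algebraMap_apply k A (κ i)]
        refine (HeightOneSpectrum.valuation_eq_one_iff_notMem v).2 ?_
        intro h
        have h1 : (1 : A) ∈ 𝔪.map ψ := by
          have h2 := Ideal.mul_mem_left _ (algebraMap k A cd⁻¹) h
          rw [← map_mul, inv_mul_cancel₀ hcd0, map_one] at h2
          exact h2
        exact hmax.ne_top ((Ideal.eq_top_iff_one _).2 h1)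
      have hnum : algebraMap A (κ i)
          ((n - algebraMap k A cn) * algebraMap k A cd - algebraMap k A cn * ((d : A) - algebraMap k A cd))
          = (y - algebraMap k (κ i) (cn / cd)) *
            (algebraMap A (κ i) (d : A) * algebraMap k (κ i) cd) := by
        simp only [map_sub, map_mul, ← IsScalarTower.algebraMap_apply k A (κ i), map_div₀]
        rw [← hnd]
        field_simp
        ring
      have hnumP : (n - algebraMap k A cn) * algebraMap k A cd -
          algebraMap k A cn * ((d : A) - algebraMap k A cd) ∈ 𝔪.map ψ :=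
        Ideal.sub_mem _ (Ideal.mul_mem_right _ _ hcn) (Ideal.mul_mem_left _ _ hcd)
      have h1 : v.valuation (κ i) (algebraMap A (κ i)
          ((n - algebraMap k A cn) * algebraMap k A cd -
            algebraMap k A cn * ((d : A) - algebraMap k A cd))) < 1 :=
        (HeightOneSpectrum.valuation_lt_one_iff_mem (K := κ i) v _).2 hnumP
      rw [hnum, map_mul, map_mul, hvd, hvcd, mul_one, mul_one] at h1
      exact h1 }

/-- Residue fields of a finitely generated algebra over an algebraically closed field. -/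
theorem residue_eq_of_finiteType (k A : Type*) [Field k] [IsAlgClosed k] [CommRing A] [Algebra k A]
    [Algebra.FiniteType k A] (P : Ideal A) (hP : P.IsMaximal) (a : A) :
    ∃ c : k, a - algebraMap k A c ∈ P := by
  letI := Ideal.Quotient.field P
  haveI : Algebra.FiniteType k (A ⧸ P) :=
    Algebra.FiniteType.of_surjective (Ideal.Quotient.mkₐ k P) (Ideal.Quotient.mkₐ_surjective k P)
  haveI : Module.Finite k (A ⧸ P) := finite_of_finite_type_of_isJacobsonRing k (A ⧸ P)
  haveI : Algebra.IsIntegral k (A ⧸ P) := Algebra.IsIntegral.of_finite k (A ⧸ P)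
  obtain ⟨c, hc⟩ := (IsAlgClosed.algebraMap_bijective_of_isIntegral (k := k) (K := A ⧸ P)).2
    (Ideal.Quotient.mk P a)
  refine ⟨c, ?_⟩
  rw [← Ideal.Quotient.eq, ← hc]
  rfl

/-- **(L1) BRANCH-ALG**, finite type form. -/
def branchOfFiniteType {R F k ι : Type*} {κ : ι → Type*} [CommRing R] [Field F] [Algebra R F]
    [Field k] [IsAlgClosed k] [∀ i, Field (κ i)] [∀ i, Algebra k (κ i)]
    (C : Chart R F k ι κ) (i : ι) (A : Type*) [CommRing A] [IsDedekindDomain A]
    [Algebra A (κ i)] [IsFractionRing A (κ i)] [Algebra k A] [IsScalarTower k A (κ i)]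
    [Algebra.FiniteType k A]
    (ψ : C.B →+* A) (hψ : Function.Surjective ψ)
    (hcomp : ∀ β, algebraMap A (κ i) (ψ β) = C.rdB i β)
    (𝔪 : Ideal C.B) (h𝔪 : 𝔪.IsMaximal) (hi : C.Icomp i ≤ 𝔪)
    (hne : ∃ β ∈ 𝔪, C.rdB i β ≠ 0) : Branch C 𝔪 i :=
  branchOfDedekind C i A ψ hψ hcomp (fun P hP a => residue_eq_of_finiteType k A P hP a)
    𝔪 h𝔪 hi hne

end Fermat.Agent.S36.NU.H65
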