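import Fermat.Agent.S36.NU.H65_Assemble
import Fermat.Agent.S36.NU.H16_LL

/-!
# S36 / NU-B, TI3: the abstract theorem, final form (helper65)

`ti3_final` = `H16.chart` (local lemma + patching, for the two charts) + `ti3_const`
(Newton + Čech + Artin-Rees + constants).

What the modular side has to provide (`R = O_{K^ur}`, `K = K^ur`, `F = F_N^I`, `j`, `h`, `n`):

* the two charts `C0` (`B` = integral closure of `R[j]`), `Coo` (`R[1/j]`) with the same components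
  (`hV`, `hrd`) and their `Setup` (`inc`, `root_g : g i ^ n * rd i h = 1`);
* `hfg` : `{s : h sⁿ integral over R[1/j]}` is finitely generated over `R[1/j]`
  (`H17.MInt_inv_fg_of_finite`);
* RADQ for the two charts (`H17.isRadQ_of_rd_eq_zero_adjoin`);
* at every closed point of the special fibre of each chart: the branches, a local generator `s`,
  and the equality of the values of `g i / rd i s` on the branches (`hpt0`, `hptoo`).

Conclusion: `∃ s ≠ 0, h sⁿ` is integral over `R` (hence a constant: `h = c s⁻ⁿ`).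
-/

set_option autoImplicit false

namespace Fermat.Agent.S36.NU.H65

open Fermat.Agent.S36.NU.H16 Fermat.Agent.S36.NU.H17

variable {R F k ι : Type*} {κ : ι → Type*} [CommRing R] [Field F] [Algebra R F]
  [Field k] [∀ i, Field (κ i)] [∀ i, Algebra k (κ i)]

/-- **TI3, abstract final form.** -/
theorem ti3_final [Fintype ι] [IsNoetherianRing R] [IsDomain R] [IsIntegrallyClosed R]
    (K : Type*) [Field K] [Algebra R K] [IsFractionRing R K] [Algebra K F] [IsScalarTower R K F]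
    (C0 Coo : Chart R F k ι κ) (qn n : ℕ) (h : F)
    (g : ∀ i, κ i) (S0 : Setup C0 qn n h g) (Soo : Setup Coo qn n h g)
    (j : F) (hjt : Transcendental K j) (hB0 : C0.B = intSub R j) (hBoo : Coo.B = intSub R j⁻¹)
    (hV : ∀ i, C0.V i = Coo.V i) (hrd : ∀ i x, C0.rd i x = Coo.rd i x)
    (q : R) (hq0 : q ≠ 0) (hqu : ¬ IsUnit q) (n' : R) (hnn : (n : R) * n' = 1)
    (hfg : (MInt R j⁻¹ h n S0.n_pos).FG)
    (hrad0 : ∀ β ∈ C0.B, (∀ i, C0.rd i β = 0) → IsRadQ C0.B q β)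
    (hradoo : ∀ β ∈ Coo.B, (∀ i, Coo.rd i β = 0) → IsRadQ Coo.B q β)
    (hpt0 : ∀ 𝔪 : Ideal C0.B, 𝔪.IsMaximal → (∃ i, C0.Icomp i ≤ 𝔪) →
      ∃ (_ : ∀ i, C0.Icomp i ≤ 𝔪 → Branch C0 𝔪 i) (s : F) (hs : h * s ^ n ∈ C0.B),
        (⟨h * s ^ n, hs⟩ : C0.B) ∉ 𝔪 ∧
        ∀ br : (∀ i, C0.Icomp i ≤ 𝔪 → Branch C0 𝔪 i), ∃ c : k,
          ∀ (i : ι) (hi : C0.Icomp i ≤ 𝔪),
            g i * (C0.rd i s)⁻¹ - algebraMap k (κ i) c ∈ (br i hi).O.nonunits)
    (hptoo : ∀ 𝔪 : Ideal Coo.B, 𝔪.IsMaximal → (∃ i, Coo.Icomp i ≤ 𝔪) →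
      ∃ (_ : ∀ i, Coo.Icomp i ≤ 𝔪 → Branch Coo 𝔪 i) (s : F) (hs : h * s ^ n ∈ Coo.B),
        (⟨h * s ^ n, hs⟩ : Coo.B) ∉ 𝔪 ∧
        ∀ br : (∀ i, Coo.Icomp i ≤ 𝔪 → Branch Coo 𝔪 i), ∃ c : k,
          ∀ (i : ι) (hi : Coo.Icomp i ≤ 𝔪),
            g i * (Coo.rd i s)⁻¹ - algebraMap k (κ i) c ∈ (br i hi).O.nonunits) :
    ∃ s : F, s ≠ 0 ∧ IsIntegral R (h * s ^ n) := by
  obtain ⟨a, ha, hra⟩ := chart C0 qn n h g S0 hpt0
  obtain ⟨b, hb, hrb⟩ := chart Coo qn n h g Soo hptoo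
  exact ti3_const K C0 Coo qn n h g S0 Soo j hjt hB0 hBoo hV hrd q hq0 hqu n' hnn hfg
    hrad0 hradoo a b ha hra hb hrb

end Fermat.Agent.S36.NU.H65
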