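import Fermat.Agent.S36.NU.H65_Inst
import Fermat.Agent.S36.NU.H10_FinTopDefs
import Fermat.Agent.S36.NU.H88_ChartAlg

/-!
# S36 / NU-B, INST-SKEL part 2 (helper65): `Stmt_FinMod` from the modular instances

`finMod_of` : `H10.Stmt_FinMod A q M B k hB hq` from `fin_local'` (H65_Inst), helper44's
`stmt_HOR` and "integral over `R` ⟹ constant", with the modular instances as hypotheses:
the two charts `C0`, `Coo` over `R = Rur A`, `F = L0 A (M q²)` (helper88 `chartOf`), the datum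
`D : NUData ..` (helper79), the local data `PointData` (M2, M4), RADQ, `RootClosed`, `SS ≠ ∅`,
and the two bridges `hunit` (`IsUnit3 ⟹ rdN ≠ 0`) and `hNα`, `hNβ` (`IsNormPow0 ⟹` the norm
hypothesis of `NUData.trivRed`).

The slices INST-A (helper74: `hfg`, `hHOR0`, `hHORoo`, the instances) and INST-B (helper15:
`hunit`, `hconst`, `hNα`, `hNβ`) are hypotheses here, in the shape asked from their owners.

* `isUnit_natCast_Rur` : `n` prime to `q` is a unit of `Rur A`;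
* `finMod_of` : the assembly.
-/

set_option autoImplicit false
set_option synthInstance.maxHeartbeats 400000
set_option maxHeartbeats 1000000
set_option linter.style.haveILetI false
set_option linter.unusedSectionVars false

noncomputable section

open ModularCurve AlgebraicCurve IntermediateField

attribute [local instance] Classical.propDecidable

namespace Fermat.Agent.S36.NU.H65

open Fermat.Agent.S24 Fermat.Agent.BAD.H88 Fermat.Agent.S36.NU.H23 Fermat.Agent.S36.NU.H41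
  Fermat.Agent.S36.NU.H88 Fermat.Agent.S36.NU.H16 Fermat.Agent.S36.NU.H17
  Fermat.Agent.S36.NU.H24 Fermat.Agent.S36.NU.H79 Fermat.Agent.S36.NU.H10
  Fermat.Agent.Lib.HeckeComm

section Rur

variable (A : ValuationSubring Kbar) (q : ℕ) (hq : q.Prime) (hA : A.LiesOverPrime q)

include hq hA in
/-- `n` prime to `q` is a unit of `Rur A`. -/
theorem isUnit_natCast_Rur (n : ℕ) (hn : Nat.Coprime n q) : IsUnit ((n : ℕ) : ↥(Rur A)) := by
  haveI := isDiscreteValuationRing_Rur A q hq hA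
  by_contra hnu
  have h1 : ((n : ℕ) : ↥(Rur A)) ∈ IsLocalRing.maximalIdeal ↥(Rur A) :=
    (IsLocalRing.mem_maximalIdeal _).2 hnu
  have h2 : ((q : ℕ) : ↥(Rur A)) ∈ IsLocalRing.maximalIdeal ↥(Rur A) :=
    (IsLocalRing.mem_maximalIdeal _).2 (irreducible_natCast A q hq hA).not_isUnit
  obtain ⟨a, b, hab⟩ := (Nat.isCoprime_iff_coprime.2 hn)
  have h3 : ((a : ℤ) : ↥(Rur A)) * ((n : ℕ) : ↥(Rur A)) +
      ((b : ℤ) : ↥(Rur A)) * ((q : ℕ) : ↥(Rur A)) = 1 := by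
    have := congrArg (fun z : ℤ => (z : ↥(Rur A))) hab
    simpa using this
  have h4 : (1 : ↥(Rur A)) ∈ IsLocalRing.maximalIdeal ↥(Rur A) := by
    rw [← h3]
    exact Ideal.add_mem _ (Ideal.mul_mem_left _ _ h1) (Ideal.mul_mem_left _ _ h2)
  exact (Ideal.ne_top_iff_one _).1 (IsLocalRing.maximalIdeal.isMaximal _).ne_top h4

end Rur

section Assembly

variable (A : ValuationSubring Kbar) (q M : ℕ) (B k : ℤ) (hB : B * M + k * q = 1) (hq : q.Prime)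
  [NeZero M] [NeZero q] [NeZero (M * q * q)]
  {kk ι Z K L K' L' L₁ L₂ : Type*} {κ : ι → Type*} [Field kk] [∀ i, Field (κ i)]
  [∀ i, Algebra kk (κ i)] [Fintype ι] [Field K] [Field L] [Algebra K L]
  [Algebra ↥(L0 A (M * q * q)) L] [Field K'] [Field L'] [Algebra K' L'] [Field L₁]
  [Algebra kk L₁] [Field L₂] [Algebra kk L₂]

/-- **INST, the assembly**: `Stmt_FinMod` from the modular instances. -/
theorem finMod_of [IsAlgClosed kk] (hA : A.LiesOverPrime q)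
    (D : NUData K ↥(L0 A (M * q * q)) L kk ι Z κ K' L' L₁ L₂) (hDq : D.q = q)
    (C0 Coo : Chart ↥(Rur A) ↥(L0 A (M * q * q)) kk ι κ)
    [IsNoetherianRing C0.B] [IsFractionRing C0.B ↥(L0 A (M * q * q))]
    [IsNoetherianRing Coo.B] [IsFractionRing Coo.B ↥(L0 A (M * q * q))]
    (hc0 : Compat C0 D.T) (hcoo : Compat Coo D.T) (hP : HasPrincipalDivisors K L)
    (hB0 : C0.B = intSub ↥(Rur A) (j0 A (M * q * q)))
    (hBoo : Coo.B = intSub ↥(Rur A) (j0 A (M * q * q))⁻¹)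
    (hchart0 : ∀ n : ℕ, 0 < n → Nat.Coprime n q → ChartHyp C0 q n)
    (hchartoo : ∀ n : ℕ, 0 < n → Nat.Coprime n q → ChartHyp Coo q n)
    -- the local data (M2, M4, DISJ)
    (hpt0 : PointData C0 D ((q : ℕ) : ↥(Rur A)))
    (hptoo : ∀ 𝔪 : Ideal Coo.B, 𝔪.IsMaximal → (∃ i, Coo.Icomp i ≤ 𝔪) →
      (∀ β : Coo.B, (β : ↥(L0 A (M * q * q))) = (j0 A (M * q * q))⁻¹ → β ∈ 𝔪) →
      PointDataAt Coo D ((q : ℕ) : ↥(Rur A)) 𝔪)
    (hSS0 : ∀ z ∈ D.SS, InChart C0 D.T z) (hSS : D.SS.Nonempty)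
    (hk₁ : ∀ n : ℕ, 0 < n → Nat.Coprime n q → RootClosed kk L₁ n)
    (hk₂ : ∀ n : ℕ, 0 < n → Nat.Coprime n q → RootClosed kk L₂ n)
    -- RADQ
    (hrad0 : ∀ β ∈ C0.B, (∀ i, C0.rd i β = 0) → IsRadQ C0.B ((q : ℕ) : ↥(Rur A)) β)
    (hradoo : ∀ β ∈ Coo.B, (∀ i, Coo.rd i β = 0) → IsRadQ Coo.B ((q : ℕ) : ↥(Rur A)) β)
    -- INST-A
    (hfg : ∀ (H : ↥(L0 A (M * q * q))) (n : ℕ) (hn : 0 < n), H ≠ 0 →
      (MInt ↥(Rur A) (j0 A (M * q * q))⁻¹ H n hn).FG)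
    (E₀ : ℕ) (hE₀ : E₀ ≠ 0)
    (hHOR0 : ∀ (n : ℕ) (h : ↥(L0 A (M * q * q))), h ≠ 0 →
      (∀ P : Place Kbar (FN (M * q * q)), (n : ℤ) ∣ P.ord (h : FN (M * q * q))) →
      HOR C0 ((q : ℕ) : ↥(Rur A)) n (h ^ E₀))
    (hHORoo : ∀ (n : ℕ) (h : ↥(L0 A (M * q * q))), h ≠ 0 →
      (∀ P : Place Kbar (FN (M * q * q)), (n : ℤ) ∣ P.ord (h : FN (M * q * q))) →
      HOR Coo ((q : ℕ) : ↥(Rur A)) n (h ^ E₀))
    -- INST-B
    (hunit : ∀ h : ↥(L0 A (M * q * q)), h ≠ 0 → IsUnit3 A q M B k hB hq h →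
      ∀ i, D.T.rdN i h ≠ 0)
    (hconst : ∀ x : ↥(L0 A (M * q * q)), IsIntegral ↥(Rur A) x →
      ∃ c : Kbar, (x : FN (M * q * q)) = algebraMap Kbar (FN (M * q * q)) c)
    (hNα : ∀ (n : ℕ) (h : ↥(L0 A (M * q * q))),
      IsNormPow0 A q M (heckeAlphaBar Kbar (M * q) q) n (h : FN (M * q * q)) →
      ∃ (c : K') (g : L'), D.Nα h = algebraMap K' L' c * g ^ n)
    (hNβ : ∀ (n : ℕ) (h : ↥(L0 A (M * q * q))),
      IsNormPow0 A q M (heckeBetaBar Kbar (M * q) q) n (h : FN (M * q * q)) →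
      ∃ (c : K') (g : L'), D.Nβ h = algebraMap K' L' c * g ^ n) :
    Stmt_FinMod A q M B k hB hq := by
  haveI := isDiscreteValuationRing_Rur A q hq hA
  have hq1 : 0 < (q + 1) * (q - 1) :=
    Nat.mul_pos (Nat.succ_pos _) (Nat.sub_pos_of_lt hq.one_lt)
  refine ⟨E₀ * ((q + 1) * (q - 1)), Nat.mul_ne_zero hE₀ hq1.ne', ?_⟩
  intro n hn hcop h hU hdiv hα hβ
  by_cases h0 : h = 0
  · refine ⟨1, 0, one_ne_zero, ?_⟩
    rw [h0, map_zero]
    simp [zero_pow (Nat.mul_ne_zero hE₀ hq1.ne')]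
  -- the unit `H = h ^ E₀`
  have hu : ∀ i, D.T.rdN i h ≠ 0 := hunit h h0 hU
  have hm : ∀ i, h ∈ D.T.V i := fun i => D.T.mem_of_rdN_ne_zero (hu i)
  have huH : ∀ i, D.T.rdN i (h ^ E₀) ≠ 0 := fun i => by
    rw [D.T.rdN_pow (hm i)]
    exact pow_ne_zero _ (hu i)
  -- the norms
  obtain ⟨cα, gα, hcα⟩ := hNα n h hα
  obtain ⟨cβ, gβ, hcβ⟩ := hNβ n h hβ
  have hα' : D.Nα (h ^ E₀) = algebraMap K' L' (cα ^ E₀) * (gα ^ E₀) ^ n := by
    rw [map_pow, hcα, mul_pow, map_pow, ← pow_mul, ← pow_mul, mul_comm n E₀]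
  have hβ' : D.Nβ (h ^ E₀) = algebraMap K' L' (cβ ^ E₀) * (gβ ^ E₀) ^ n := by
    rw [map_pow, hcβ, mul_pow, map_pow, ← pow_mul, ← pow_mul, mul_comm n E₀]
  -- `n` is invertible in `R`
  obtain ⟨n', hnn⟩ := (isUnit_natCast_Rur A q hq hA n hcop).exists_right_inv
  have hq0 : ((q : ℕ) : ↥(Rur A)) ≠ 0 := by exact_mod_cast hq.ne_zero
  have hqu : ¬ IsUnit ((q : ℕ) : ↥(Rur A)) := (irreducible_natCast A q hq hA).not_isUnit
  have hC0 : ChartHyp C0 D.q n := by rw [hDq]; exact hchart0 n hn hcop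
  have hCoo : ChartHyp Coo D.q n := by rw [hDq]; exact hchartoo n hn hcop
  obtain ⟨s, hs0, hsint⟩ := fin_local' D ↥(Kur A) C0 Coo hc0 hcoo hP n hC0 hCoo
    (j0 A (M * q * q)) (transcendental_j0 A (M * q * q)) hB0 hBoo ((q : ℕ) : ↥(Rur A)) hq0 hqu n'
    hnn hpt0 hptoo hSS0 hSS (hk₁ n hn hcop) (hk₂ n hn hcop) hrad0 hradoo (h ^ E₀) huH
    (hHOR0 n h h0 hdiv) (hHORoo n h h0 hdiv)
    (hfg _ n hC0.n_pos (pow_ne_zero _ (pow_ne_zero _ h0))) hα' hβ'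
  obtain ⟨c, hc⟩ := hconst _ hsint
  refine ⟨(s : FN (M * q * q)), c, fun h1 => hs0 (Subtype.ext h1), ?_⟩
  rw [← hc, hDq, ← pow_mul]
  rfl

end Assembly

end Fermat.Agent.S36.NU.H65
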