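import Fermat.Agent.S36.NU.H65_Mid23
import Fermat.Agent.S36.NU.H99_Pt0

/-!
# S36 / NU-B, (M4): the middle ordinary points of the chart of `j` for `q = 2, 3` (helper65)

* `mid_small` : `(H99.chartL0_mod ..).Mid` for `(q = 3, 4 ∣ M)` or `(q = 2, 9 ∣ M)` (the
  divisibility of `M` is not used);
* `mid_chart0_q23` : the same from `q = 2 ∨ q = 3`;
* `mid_chart0_all` : `(H99.chartL0_mod ..).Mid` in the three tame cases
  `(5 ≤ q ∧ 4 ∣ M) ∨ (q = 3 ∧ 4 ∣ M) ∨ (q = 2 ∧ 9 ∣ M)`.
-/

set_option autoImplicit false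
set_option synthInstance.maxHeartbeats 400000
set_option maxHeartbeats 1000000
set_option linter.unusedSectionVars false
set_option linter.style.haveILetI false

noncomputable section

open ModularCurve AlgebraicCurve IntermediateField
open Fermat.Agent.S24 Fermat.Agent.BAD Fermat.Agent.BAD.H88 Fermat.Agent.S28
open Fermat.Agent.S28.H73 Fermat.Agent.RED.H73 Fermat.Agent.RED.H17
open Fermat.Agent.S36.NU.H88 Fermat.Agent.S36.NU.H23 Fermat.Agent.S36.NU.H41
open Fermat.Agent.S36.NU.H99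

namespace Fermat.Agent.S36.NU.H65

section MidSmall

variable (A : ValuationSubring Kbar) (q M : ℕ) (B k : ℤ) (hB : B * M + k * q = 1) (hq : q.Prime)
  [NeZero M] [NeZero q] [NeZero (M * q)] [NeZero (M * q * q)]
  (hqM : ¬ q ∣ M) (hA : A.LiesOverPrime q) (ht : H91.TameAt M q)

attribute [local instance] algkM

/-- The middle ordinary points of the chart of `j`, `q = 2` or `q = 3`. -/
theorem mid_chart0_q23 (h23 : q = 2 ∨ q = 3) :
    (chartL0_mod A q M B k hB hq hqM hA ht).Mid :=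
  mid_q23 (chartL0_mod A q M B k hB hq hqM hA ht) hA h23

/-- **The middle ordinary points of the chart of `j`** for `(q = 3, 4 ∣ M)` or
`(q = 2, 9 ∣ M)`. -/
theorem mid_small (h : (q = 3 ∧ 4 ∣ M) ∨ (q = 2 ∧ 9 ∣ M)) :
    (chartL0_mod A q M B k hB hq hqM hA ht).Mid :=
  mid_chart0_q23 A q M B k hB hq hqM hA ht (h.elim (fun h3 => Or.inr h3.1) (fun h2 => Or.inl h2.1))

/-- The middle ordinary points of the chart of `j` in the three tame cases. -/
theorem mid_chart0_all (h : (5 ≤ q ∧ 4 ∣ M) ∨ (q = 3 ∧ 4 ∣ M) ∨ (q = 2 ∧ 9 ∣ M)) :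
    (chartL0_mod A q M B k hB hq hqM hA ht).Mid := by
  rcases h with h5 | h
  · exact (chartL0_mod A q M B k hB hq hqM hA ht).mid_u4 hA h5.1 h5.2
  · exact mid_small A q M B k hB hq hqM hA ht h

end MidSmall

end Fermat.Agent.S36.NU.H65
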