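import Fermat.Agent.S36.NU.H99_OrdMod3
import Fermat.Agent.S36.NU.H5_Q23Small
import Fermat.Agent.S36.NU.H88_ChartInt
import Fermat.Agent.BAD.H30_UnitGaussSS

/-!
# S36 / NU-B, (M4) LOCEQ at the ordinary points of the middle component, `q = 2, 3` (helper65)

For `q ∈ {2, 3}` the coordinate is `f = j`: `θ j̄ = - j̄` and `Δ̄⁻¹ = j̄`, so the reduction of
`t₁₁^(q-1) / q` at `V₁₁` is `ε̄ j̄^(q-1) = ε̄ HU`, `HU = Δ̄(t)/Δ̄(t^q) = red₁₁ eps1`, and the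
certificate of `H99.ord11_of_cert` is `red₁₁ (E11 f₁₁ c) = red₁₁ (eps1 ^ 3)`, `c` a constant lift
of `ε̄⁻¹`.

* `ord11_q23` : local equation datum and only one branch at the closed points `𝔪 ⊇ Icomp₁₁`
  with `eps1 ∉ 𝔪`, for `q = 2` or `q = 3`.
-/

set_option autoImplicit false
set_option synthInstance.maxHeartbeats 400000
set_option maxHeartbeats 1000000
set_option linter.unusedSectionVars false
set_option linter.style.haveILetI false

noncomputable section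

open ModularCurve AlgebraicCurve IntermediateField
open Fermat.Agent.S24 Fermat.Agent.BAD.H88 Fermat.Agent.BAD.H30 Fermat.Agent.BAD.H21
open Fermat.Agent.S28 Fermat.Agent.S28.H73 Fermat.Agent.RED.H73 Fermat.Agent.RED.H17
open Fermat.Agent.S36.NU.H88 Fermat.Agent.S36.NU.H23
open Fermat.Agent.S36.NU.H41 Fermat.Agent.RED
open Fermat.Agent.S36.NU.H99 Fermat.Agent.S36.NU.H5

namespace Fermat.Agent.S36.NU.H65

open Fermat.Agent.S36.NU.H16 (Chart LocEq valq_of_crit)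

section Q23Series

variable (K : Type*) [Field K]

/-- The reduction of `Δ ∈ ℤ((t))`. -/
theorem q23_coeffMap_DZ' : coeffMap (Int.castRingHom K) Fermat.Agent.S36.NU.H73.DZ = deltaR K := by
  rw [deltaR_eq_DL, Fermat.Agent.S36.NU.H73.DZ, ModularCurve.coeffMap_ofPowerSeries]
  rfl

variable {K} {ℓ : ℕ} [CharP K ℓ]

/-- `j̄ Δ̄ = 1` in characteristic `2`, `3`. -/
theorem q23_j_mul_deltaR (h23 : ℓ = 2 ∨ ℓ = 3) : jqModC K * deltaR K = 1 := by
  have h := q23_j_mul_D (k := K) h23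
  rw [q23_coeffMap_DZ'] at h
  exact h

/-- `Δ̄(t)/Δ̄(t^ℓ) = j̄^(ℓ-1)` in characteristic `ℓ = 2, 3`. -/
theorem q23_unit_eq [Fact ℓ.Prime] [NeZero ℓ] (h23 : ℓ = 2 ∨ ℓ = 3) :
    deltaR K * (qExpand K ℓ (deltaR K))⁻¹ = jqModC K ^ (ℓ - 1) := by
  have h := q23_j_mul_deltaR (K := K) h23
  have hd : deltaR K ≠ 0 := deltaR_ne_zero K
  have hj : jqModC K = (deltaR K)⁻¹ := eq_inv_of_mul_eq_one_left h
  rw [qExpand_deltaR_char K ℓ, hj]
  rcases h23 with rfl | rfl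
  · show deltaR K * (deltaR K ^ 2)⁻¹ = ((deltaR K)⁻¹) ^ 1
    field_simp
  · show deltaR K * (deltaR K ^ 3)⁻¹ = ((deltaR K)⁻¹) ^ 2
    field_simp

/-- `(θ j̄)^(ℓ-1) = j̄^(ℓ-1)` in characteristic `ℓ = 2, 3`. -/
theorem q23_thetaL_pow (h23 : ℓ = 2 ∨ ℓ = 3) :
    Fermat.Agent.S36.NU.H73.thetaL (jqModC K) ^ (ℓ - 1) = jqModC K ^ (ℓ - 1) := by
  rw [q23_thetaL_j (k := K) h23]
  rcases h23 with rfl | rfl
  · have h2 : (2 : LaurentSeries K) = 0 := by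
      have := q23_natCast_eq_zero (k := K) (n := 2) (by exact_mod_cast CharP.cast_eq_zero K 2)
      exact_mod_cast this
    have : -jqModC K = jqModC K := by
      have h3 : jqModC K + jqModC K = 0 := by rw [← two_mul, h2, zero_mul]
      exact neg_eq_of_add_eq_zero_left h3
    simp [this]
  · show (-jqModC K) ^ 2 = jqModC K ^ 2
    ring

end Q23Series

section Ord11

variable {A : ValuationSubring Kbar}
variable {q M : ℕ} {B k : ℤ} {hB : B * M + k * q = 1} {hq : q.Prime} [NeZero M] [NeZero q]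
  [NeZero (M * q)] [NeZero (M * q * q)]

variable {R k' ι : Type*} {κ : ι → Type*} [CommRing R] [Algebra R ↥(L0 A (M * q * q))]
  [Field k'] [∀ i, Field (κ i)] [∀ i, Algebra k' (κ i)]

variable [Fintype ι] [DecidableEq ι]
variable {C : Chart R ↥(L0 A (M * q * q)) k' ι κ} {qR : R} {e : ι → ℕ} {i₂₀ i₁₁ i₀₂ : ι}

/-- `t₁₁(j) = j(q²τ) - j(τ)` is integral over `K^ur[j]`. -/
theorem isIntegral_t11o_j (A : ValuationSubring Kbar) (q M : ℕ) [NeZero M] [NeZero q]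
    [NeZero (M * q)] [NeZero (M * q * q)] :
    IsIntegral ↥(Algebra.adjoin ↥(Kur A) ({j0 A (M * q * q)} : Set ↥(L0 A (M * q * q))))
      (t11o A q M (jdF M 1 (one_dvd M)) jInt (coe_jdF_one M)) := by
  haveI : NeZero (q * q) := ⟨mul_ne_zero (NeZero.ne q) (NeZero.ne q)⟩
  have hqq : q * q ∣ M * q * q := ⟨M, by ring⟩
  have e : t11o A q M (jdF M 1 (one_dvd M)) jInt (coe_jdF_one M)
      = (⟨jdF (M * q * q) (q * q) hqq, jdF_mem_L0 A (M * q * q) (q * q) hqq⟩ :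
          ↥(L0 A (M * q * q)))
        - ⟨jdF (M * q * q) 1 (one_dvd _), jdF_mem_L0 A (M * q * q) 1 (one_dvd _)⟩ := by
    apply Subtype.ext
    show t11 q M (jdF M 1 (one_dvd M)) = jdF (M * q * q) (q * q) hqq - jdF (M * q * q) 1 (one_dvd _)
    rw [t11, incAA_jdF_one, incBB_jdF_one q M hqq]
  rw [e]
  exact (isIntegral_jdF_L0 A (M * q * q) (q * q) hqq).sub
    (isIntegral_jdF_L0 A (M * q * q) 1 (one_dvd _))

/-- Inertia-fixed constants are integral over `K^ur[j]`. -/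
theorem isIntegral_const_L0 (A : ValuationSubring Kbar) (N : ℕ) [NeZero N] (c : ↥(L0 A N))
    (hc : ∃ c' : Kbar, (c : FN N) = algebraMap Kbar (FN N) c') :
    IsIntegral ↥(Algebra.adjoin ↥(Kur A) ({j0 A N} : Set ↥(L0 A N))) c := by
  obtain ⟨c', hc'⟩ := hc
  refine isIntegral_Kur_of_bar A N c ?_
  rw [hc', IsScalarTower.algebraMap_apply Kbar
    ↥(Algebra.adjoin Kbar ({Fermat.Agent.S24.jF N} : Set (FN N))) (FN N)]
  exact isIntegral_algebraMap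

include hq in
/-- **Ordinary points of `C₁₁`, `q = 2, 3`**: if `eps1 ∉ 𝔪 ⊇ Icomp₁₁` then `𝔪` has a local
equation datum and `C₁₁` is the only component through `𝔪`. -/
theorem ord11_q23 (S : ChartL0 A q M B k hB hq C qR e i₂₀ i₁₁ i₀₂) (h23 : q = 2 ∨ q = 3)
    (hA : (q : Kbar) ∈ A.nonunits) (𝔪 : Ideal C.B) [h𝔪 : 𝔪.IsPrime] (hi : C.Icomp i₁₁ ≤ 𝔪)
    (hw : (⟨eps1o A q M, S.eps1o_mem_B⟩ : C.B) ∉ 𝔪) :
    Nonempty (LocEq C qR 𝔪) ∧ ∀ i', C.Icomp i' ≤ 𝔪 → i' = i₁₁ := by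
  haveI : Fact q.Prime := ⟨hq⟩
  haveI : CharP (kV A) q := Fermat.Agent.BAD.H82.charP_kV A hq hA
  have hε := resV_epsK_ne_zero A q M B k hB hq
  obtain ⟨c, hcc, ⟨h20, -⟩, ⟨h11, hs11⟩, ⟨h02, -⟩⟩ :=
    hlift_mod A q M B k hB hq hA (resV A ⟨epsK q B, epsK_mem A q M B k hB hq⟩)⁻¹
  have hcB : c ∈ C.B := S.mem_B (isIntegral_const_L0 A (M * q * q) c hcc) h20 h11 h02
  refine ord11_of_cert S hA (jdF M 1 (one_dvd M)) jInt (coe_jdF_one M)
    (isIntegral_t11o_j A q M) 𝔪 hi hw 1 one_pos ⟨c, hcB⟩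
    ((⟨eps1o A q M, S.eps1o_mem_B⟩ : C.B) ^ 3) (pow_not_mem C 𝔪 hw 3) ?_
  intro h1 h2
  have hf11 := f11o_mem11 A q M B k hB hq (jdF M 1 (one_dvd M)) jInt (coe_jdF_one M)
  have e1 : (⟨(E11o A q M * f11o A q M (jdF M 1 (one_dvd M)) jInt (coe_jdF_one M)) ^ 1
        * ((⟨c, hcB⟩ : C.B) : ↥(L0 A (M * q * q))), h1⟩ : ↥(V11o A q M B k hB hq))
      = ⟨E11o A q M, E11o_mem11 A q M B k hB hq⟩ * ⟨_, hf11⟩ * ⟨c, h11⟩ := by
    apply Subtype.ext
    show (E11o A q M * f11o A q M (jdF M 1 (one_dvd M)) jInt (coe_jdF_one M)) ^ 1 * c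
      = E11o A q M * f11o A q M (jdF M 1 (one_dvd M)) jInt (coe_jdF_one M) * c
    rw [pow_one]
  have e2 : (⟨(((⟨eps1o A q M, S.eps1o_mem_B⟩ : C.B) ^ 3 : C.B) : ↥(L0 A (M * q * q))), h2⟩ :
      ↥(V11o A q M B k hB hq)) = ⟨eps1o A q M, eps1o_mem11 A q M B k hB hq⟩ ^ 3 := by
    apply Subtype.ext
    rfl
  have hu : coeffMap (Int.castRingHom (kV A)) jInt = jqModC (kV A) := by
    rw [jInt, qExpand_one_apply, coeffMap_jqModC]
  have hHU : HU A q M = jqModC (kV A) ^ (q - 1) := by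
    rw [HU_eq]
    exact q23_unit_eq (K := kV A) h23
  have ha0 : algebraMap (kV A) (LaurentSeries (kV A))
      (resV A ⟨epsK q B, epsK_mem A q M B k hB hq⟩) ≠ 0 :=
    (map_ne_zero _).2 hε
  rw [e1, e2, map_mul, map_mul, map_pow, s11_E11 A q M B k hB hq hA, s11_eps1,
    s11_f11o A q M B k hB hq _ _ _ hA, hs11, hu, q23_thetaL_pow (K := kV A) h23, ← hHU,
    map_inv₀]
  field_simp

end Ord11

end Fermat.Agent.S36.NU.H65
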