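import Mathlib

/-!
# S36 / NU-B, leaf TI3-ALG (helper65): the abstract trivialisation theorem

Pure commutative algebra, no Riemann-Roch, no genus, no count.

Setting: `R` noetherian, `q : R`, `F` a field over `R`, `j : F` nonzero, `h : F`, `n` invertible in `R`.
`B0`, `Boo`, `B0oo` are the coordinate rings of the charts `j ≠ ∞`, `j ≠ 0` and of the overlap,
`M0 = {s : h sⁿ ∈ B0}` (`rootMod`), `Moo` likewise.

* `ar_core` : Artin-Rees for an injective map into a finite module.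
* `ti3_alg` : (Cech + Artin-Rees) `Moo` finitely generated over `R[1/j]` by `μ`, `j ^ m μ ⊂ M0`,
  and for every `N` a pair `a ∈ M0`, `b ∈ Moo` with `a - b ∈ q ^ N M0oo`, `a ∉ q M0`.
  Then `M0 ∩ Moo ≠ 0`.  No saturation hypothesis is needed.
* `rootMod`, `mem_rootMod`, `mixed_mem`, `mul_mem_rootMod` : `{s : h sⁿ ∈ B}` is a module over `B` when `B`
  is closed under `n`-th roots.
* `newton_step`, `newton_iter`, `newton_qadic` : Newton iteration for `n`-th roots.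
* `IsRadQ S q x` : `x` is nilpotent modulo `q S`; `isRadQ_iff` : link with `Ideal.radical`.
* `overlap` : `h aⁿ ≡ 1 ≡ h bⁿ mod q ^ N`, `h a bⁿ⁻¹ ≡ 1 mod rad (q)`  ⟹  `a - b ∈ q ^ N M0oo`.
* `ti3_of_pair` : the combined theorem: ONE pair `(a, b)` with `h aⁿ ≡ 1 mod rad (q B0)`,
  `h bⁿ ≡ 1 mod rad (q Boo)`, `h a bⁿ⁻¹ ≡ 1 mod rad (q B0oo)` gives `s ≠ 0` with `h sⁿ ∈ B0 ∩ Boo`.
-/

set_option autoImplicit false

namespace Fermat.Agent.S36.NU.H65

open scoped Pointwise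

/-- Artin–Rees core: an injective linear map into a finite module over a noetherian ring
reflects divisibility by `q` up to a bounded loss. -/
theorem ar_core {R P W : Type*} [CommRing R] [IsNoetherianRing R]
    [AddCommGroup P] [Module R P] [Module.Finite R P]
    [AddCommGroup W] [Module R W] (q : R) (d : W →ₗ[R] P) (hd : Function.Injective d) :
    ∃ N0 : ℕ, ∀ N : ℕ, N0 ≤ N → ∀ w : W, (∃ p : P, d w = q ^ N • p) → ∃ w' : W, w = q • w' := by
  obtain ⟨k, hk⟩ := Ideal.exists_pow_inf_eq_pow_smul (Ideal.span {q}) (LinearMap.range d)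
  refine ⟨k + 1, fun N hN w ⟨p, hp⟩ => ?_⟩
  obtain ⟨c, rfl⟩ := Nat.exists_eq_add_of_le hN
  have h1 : d w ∈ (Ideal.span {q}) ^ (k + 1) • (⊤ : Submodule R P) ⊓ LinearMap.range d := by
    refine ⟨?_, LinearMap.mem_range_self d w⟩
    have hpp : q ^ (k + 1 + c) • p = q ^ (k + 1) • (q ^ c • p) := by rw [pow_add, mul_smul]
    rw [hp, hpp]
    exact Submodule.smul_mem_smul (Ideal.pow_mem_pow (Ideal.mem_span_singleton_self q) (k + 1))
      Submodule.mem_top
  rw [hk (k + 1) (by omega)] at h1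
  have h2 : d w ∈ (Ideal.span {q}) • LinearMap.range d := by
    have : k + 1 - k = 1 := by omega
    rw [this, pow_one] at h1
    exact Submodule.smul_mono le_rfl inf_le_right h1
  rw [Submodule.ideal_span_singleton_smul] at h2
  obtain ⟨y, hy, hyw⟩ := (Submodule.mem_smul_pointwise_iff_exists _ _ _).1 h2
  obtain ⟨w', rfl⟩ := hy
  refine ⟨w', hd ?_⟩
  rw [map_smul]
  exact hyw.symm

section TIAlg

variable {R F : Type*} [CommRing R] [IsNoetherianRing R] [Field F] [Algebra R F]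

/-- **TI3-ALG** (abstract trivialisation, Čech + Artin–Rees form).
`M0`, `Moo` are the sections of a rank one module over the two charts `j ≠ ∞`, `j ≠ 0`;
`Moo` is finitely generated over `R[1/j]` by `μ`, and `j ^ m • μ ⊂ M0`.
If for every `N` there are `a ∈ M0`, `b ∈ Moo`, congruent modulo `q ^ N` on the overlap, with `a ∉ q M0`,
then `M0 ∩ Moo ≠ 0`. -/
theorem ti3_alg (q : R) (j : F) (hj : j ≠ 0) (M0 Moo : Submodule R F)
    (hM0 : ∀ x ∈ M0, j * x ∈ M0) (hMoo : ∀ x ∈ Moo, j⁻¹ * x ∈ Moo)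
    (μ : Finset F) (hμ : ∀ u ∈ μ, u ∈ Moo)
    (hgen : ∀ x ∈ Moo, x ∈ Submodule.span R {y : F | ∃ e : ℕ, ∃ u ∈ μ, y = j⁻¹ ^ e * u})
    (m : ℕ) (hm : ∀ u ∈ μ, j ^ m * u ∈ M0)
    (hseq : ∀ N : ℕ, ∃ a ∈ M0, ∃ b ∈ Moo, ∃ x : F, (∃ k : ℕ, j⁻¹ ^ k * x ∈ Moo) ∧
        a - b = q ^ N • x ∧ ¬ ∃ a' ∈ M0, a = q • a') :
    ∃ s : F, s ≠ 0 ∧ s ∈ M0 ∧ s ∈ Moo := by
  classical
  by_contra hcon
  have hzero : ∀ s : F, s ∈ M0 → s ∈ Moo → s = 0 := by
    intro s h0 h1
    by_contra hs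
    exact hcon ⟨s, hs, h0, h1⟩
  have hMoo_pow : ∀ (e : ℕ) (x : F), x ∈ Moo → j⁻¹ ^ e * x ∈ Moo := by
    intro e
    induction e with
    | zero => intro x hx; simpa using hx
    | succ e ih => intro x hx; rw [pow_succ, mul_assoc]; exact ih _ (hMoo _ hx)
  have hM0_pow : ∀ (e : ℕ) (x : F), x ∈ M0 → j ^ e * x ∈ M0 := by
    intro e
    induction e with
    | zero => intro x hx; simpa using hx
    | succ e ih => intro x hx; rw [pow_succ, mul_assoc]; exact ih _ (hM0 _ hx)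
  set jmMoo : Submodule R F := Moo.map (LinearMap.mulLeft R (j ^ m)) with hjmMoo
  have hmem_jm : ∀ y : F, y ∈ jmMoo ↔ ∃ x ∈ Moo, j ^ m * x = y := by
    intro y
    rw [hjmMoo, Submodule.mem_map]
    rfl
  have hMoo_le : Moo ≤ jmMoo := by
    intro x hx
    rw [hmem_jm]
    refine ⟨j⁻¹ ^ m * x, hMoo_pow m x hx, ?_⟩
    rw [← mul_assoc, ← mul_pow, mul_inv_cancel₀ hj, one_pow, one_mul]
  -- (V) integral vanishing
  have hV : ∀ x : F, (∃ k : ℕ, j⁻¹ ^ k * x ∈ Moo) →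
      ∃ c0 ∈ M0, ∃ c1 ∈ Moo, x = c0 + j ^ m * c1 := by
    rintro x ⟨k, hk⟩
    have key : Submodule.span R {y : F | ∃ e : ℕ, ∃ u ∈ μ, y = j⁻¹ ^ e * u} ≤
        (M0 ⊔ jmMoo).comap (LinearMap.mulLeft R (j ^ k)) := by
      rw [Submodule.span_le]
      rintro y ⟨e, u, hu, rfl⟩
      show j ^ k * (j⁻¹ ^ e * u) ∈ M0 ⊔ jmMoo
      rcases le_or_gt (e + m) k with h | h
      · refine Submodule.mem_sup_left ?_
        obtain ⟨d, rfl⟩ := Nat.exists_eq_add_of_le h
        have : j ^ (e + m + d) * (j⁻¹ ^ e * u) = j ^ d * (j ^ m * u) := by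
          rw [pow_add, pow_add, inv_pow]
          field_simp
        rw [this]
        exact hM0_pow _ _ (hm u hu)
      · refine Submodule.mem_sup_right ?_
        rw [hmem_jm]
        refine ⟨j⁻¹ ^ (e + m - k) * u, hMoo_pow _ _ (hμ u hu), ?_⟩
        obtain ⟨d, hd⟩ := Nat.exists_eq_add_of_lt h
        have h1 : e + m - k = d + 1 := by omega
        have h2 : e + m = k + (d + 1) := by omega
        rw [h1]
        have h3 : j ^ e * j ^ m = j ^ k * j ^ (d + 1) := by rw [← pow_add, ← pow_add, h2]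
        simp only [inv_pow]
        field_simp
        linear_combination u * h3
    have h5 := key (hgen _ hk)
    have h6 : j ^ k * (j⁻¹ ^ k * x) = x := by
      rw [← mul_assoc, ← mul_pow, mul_inv_cancel₀ hj, one_pow, one_mul]
    have h7 : x ∈ M0 ⊔ jmMoo := by
      have : j ^ k * (j⁻¹ ^ k * x) ∈ M0 ⊔ jmMoo := h5
      rwa [h6] at this
    obtain ⟨c0, hc0, y, hy, rfl⟩ := Submodule.mem_sup.1 h7
    obtain ⟨c1, hc1, rfl⟩ := (hmem_jm y).1 hy
    exact ⟨c0, hc0, c1, hc1, rfl⟩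
  -- the finite module `P = j^m Moo / Moo`
  set P : Submodule R (F ⧸ Moo) := jmMoo.map Moo.mkQ with hP
  set G : Finset F := ((Finset.range (m + 1)) ×ˢ μ).image (fun eu => j ^ eu.1 * eu.2) with hG
  have hG_mem : ∀ (e : ℕ) (u : F), e ≤ m → u ∈ μ → j ^ e * u ∈ (G : Set F) := by
    intro e u he hu
    rw [hG, Finset.coe_image]
    refine ⟨(e, u), ?_, rfl⟩
    simp only [Finset.coe_product, Finset.coe_range, Set.mem_prod, Set.mem_Iio, Finset.mem_coe]
    exact ⟨by omega, hu⟩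
  have hjm_le : jmMoo ≤ Moo ⊔ Submodule.span R (G : Set F) := by
    intro y hy
    obtain ⟨x, hx, rfl⟩ := (hmem_jm y).1 hy
    have key : Submodule.span R {y : F | ∃ e : ℕ, ∃ u ∈ μ, y = j⁻¹ ^ e * u} ≤
        (Moo ⊔ Submodule.span R (G : Set F)).comap (LinearMap.mulLeft R (j ^ m)) := by
      rw [Submodule.span_le]
      rintro y ⟨e, u, hu, rfl⟩
      show j ^ m * (j⁻¹ ^ e * u) ∈ Moo ⊔ Submodule.span R (G : Set F)
      rcases le_or_gt m e with h | h
      · refine Submodule.mem_sup_left ?_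
        obtain ⟨d, rfl⟩ := Nat.exists_eq_add_of_le h
        have : j ^ m * (j⁻¹ ^ (m + d) * u) = j⁻¹ ^ d * u := by
          rw [pow_add, inv_pow, inv_pow]
          field_simp
        rw [this]
        exact hMoo_pow _ _ (hμ u hu)
      · refine Submodule.mem_sup_right (Submodule.subset_span ?_)
        obtain ⟨d, hd⟩ := Nat.exists_eq_add_of_lt h
        have : j ^ m * (j⁻¹ ^ e * u) = j ^ (d + 1) * u := by
          have h2 : m = e + (d + 1) := by omega
          rw [h2, pow_add, inv_pow]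
          field_simp
        rw [this]
        exact hG_mem _ _ (by omega) hu
    exact key (hgen _ hx)
  have hG_le : Submodule.span R (G : Set F) ≤ jmMoo := by
    rw [Submodule.span_le]
    intro y hy
    rw [hG, Finset.coe_image] at hy
    obtain ⟨⟨e, u⟩, heu, rfl⟩ := hy
    simp only [Finset.coe_product, Finset.coe_range, Set.mem_prod, Set.mem_Iio,
      Finset.mem_coe] at heu
    show j ^ e * u ∈ jmMoo
    rw [hmem_jm]
    refine ⟨j⁻¹ ^ (m - e) * u, hMoo_pow _ _ (hμ u heu.2), ?_⟩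
    have h2 : m = e + (m - e) := by omega
    rw [inv_pow]
    nth_rewrite 1 [h2]
    rw [pow_add]
    field_simp
  have hPeq : P = (Submodule.span R (G : Set F)).map Moo.mkQ := by
    apply le_antisymm
    · rw [hP]
      refine (Submodule.map_mono hjm_le).trans ?_
      rw [Submodule.map_sup]
      refine sup_le ?_ le_rfl
      rintro y ⟨x, hx, rfl⟩
      have : Moo.mkQ x = 0 := by
        rw [Submodule.mkQ_apply, Submodule.Quotient.mk_eq_zero]
        exact hx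
      rw [this]
      exact Submodule.zero_mem _
    · exact Submodule.map_mono hG_le
  have hPfg : P.FG := by
    rw [hPeq]
    exact (Submodule.fg_span (Finset.finite_toSet G)).map _
  have hPfin : Module.Finite R P := Module.Finite.iff_fg.2 hPfg
  -- the boundary map
  set W : Submodule R F := M0 ⊓ jmMoo with hW
  let d : W →ₗ[R] P := (Moo.mkQ.comp W.subtype).codRestrict P
    (fun w => Submodule.mem_map_of_mem w.2.2)
  have hd : Function.Injective d := by
    rw [← LinearMap.ker_eq_bot, LinearMap.ker_eq_bot']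
    intro w hw
    have h1 : Moo.mkQ (w : F) = 0 := congrArg Subtype.val hw
    rw [Submodule.mkQ_apply, Submodule.Quotient.mk_eq_zero] at h1
    exact Subtype.ext (hzero _ w.2.1 h1)
  obtain ⟨N0, hN0⟩ := ar_core q d hd
  obtain ⟨a, ha, b, hb, x, hx, hab, hna⟩ := hseq (N0 + 1)
  obtain ⟨c0, hc0, c1, hc1, rfl⟩ := hV x hx
  have hw0 : a - q ^ (N0 + 1) • c0 ∈ M0 := M0.sub_mem ha (M0.smul_mem _ hc0)
  have hweq : a - q ^ (N0 + 1) • c0 = b + q ^ (N0 + 1) • (j ^ m * c1) := by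
    have : a = b + q ^ (N0 + 1) • (c0 + j ^ m * c1) := by rw [← hab]; ring
    rw [this, smul_add]; ring
  have hjc1 : j ^ m * c1 ∈ jmMoo := (hmem_jm _).2 ⟨c1, hc1, rfl⟩
  have hw1 : a - q ^ (N0 + 1) • c0 ∈ jmMoo := by
    rw [hweq]
    exact jmMoo.add_mem (hMoo_le hb) (jmMoo.smul_mem _ hjc1)
  obtain ⟨w', hw'⟩ := hN0 (N0 + 1) (by omega) ⟨a - q ^ (N0 + 1) • c0, hw0, hw1⟩
    ⟨⟨Moo.mkQ (j ^ m * c1), Submodule.mem_map_of_mem hjc1⟩, by
      apply Subtype.ext
      show Moo.mkQ (a - q ^ (N0 + 1) • c0) = q ^ (N0 + 1) • Moo.mkQ (j ^ m * c1)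
      rw [hweq, map_add, map_smul]
      have : Moo.mkQ b = 0 := by
        rw [Submodule.mkQ_apply, Submodule.Quotient.mk_eq_zero]
        exact hb
      rw [this, zero_add]⟩
  apply hna
  refine ⟨(w' : F) + q ^ N0 • c0, M0.add_mem w'.2.1 (M0.smul_mem _ hc0), ?_⟩
  have h1 : a - q ^ (N0 + 1) • c0 = q • (w' : F) := congrArg Subtype.val hw'
  rw [smul_add, ← h1, smul_smul, ← pow_succ']
  ring

end TIAlg
section RootMod

variable {R F : Type*} [CommRing R] [Field F] [Algebra R F]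

/-- Mixed products: if `h sⁿ, h s'ⁿ ∈ B` and `B` is closed under `n`-th roots then
`h sⁱ s'ᵈ ∈ B` for `i + d = n`. -/
theorem mixed_mem (B : Subalgebra R F) (h : F) (n : ℕ)
    (hB : ∀ x : F, x ^ n ∈ B → x ∈ B) {s s' : F} (hs : h * s ^ n ∈ B) (hs' : h * s' ^ n ∈ B)
    (i d : ℕ) (hid : i + d = n) : h * s ^ i * s' ^ d ∈ B := by
  apply hB
  have : (h * s ^ i * s' ^ d) ^ n = (h * s ^ n) ^ i * (h * s' ^ n) ^ d := by
    subst hid
    ring
  rw [this]
  exact B.mul_mem (B.pow_mem hs _) (B.pow_mem hs' _)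

/-- `{s : h sⁿ ∈ B}` as an `R`-submodule, for `B` closed under `n`-th roots. -/
def rootMod (B : Subalgebra R F) (h : F) (n : ℕ) (hn : 0 < n)
    (hB : ∀ x : F, x ^ n ∈ B → x ∈ B) : Submodule R F where
  carrier := {s | h * s ^ n ∈ B}
  zero_mem' := by
    show h * 0 ^ n ∈ B
    rw [zero_pow hn.ne', mul_zero]
    exact B.zero_mem
  add_mem' := by
    intro s s' hs hs'
    show h * (s + s') ^ n ∈ B
    rw [add_pow, Finset.mul_sum]
    refine B.sum_mem (fun i hi => ?_)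
    have hi' : i + (n - i) = n := by
      have := Finset.mem_range.1 hi
      omega
    have := mixed_mem B h n hB hs hs' i (n - i) hi'
    have h2 : h * (s ^ i * s' ^ (n - i) * (n.choose i : F)) =
        (h * s ^ i * s' ^ (n - i)) * (n.choose i : F) := by ring
    rw [h2]
    exact B.mul_mem this (natCast_mem B _)
  smul_mem' := by
    intro c s hs
    show h * (c • s) ^ n ∈ B
    have : h * (c • s) ^ n = (c ^ n) • (h * s ^ n) := by
      rw [smul_pow, mul_smul_comm]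
    rw [this]
    exact B.smul_mem hs _

@[simp]
theorem mem_rootMod (B : Subalgebra R F) (h : F) (n : ℕ) (hn : 0 < n)
    (hB : ∀ x : F, x ^ n ∈ B → x ∈ B) (s : F) :
    s ∈ rootMod B h n hn hB ↔ h * s ^ n ∈ B := Iff.rfl

/-- `rootMod B` is stable under multiplication by `B`. -/
theorem mul_mem_rootMod (B : Subalgebra R F) (h : F) (n : ℕ) (hn : 0 < n)
    (hB : ∀ x : F, x ^ n ∈ B → x ∈ B) {β s : F} (hβ : β ∈ B)
    (hs : s ∈ rootMod B h n hn hB) : β * s ∈ rootMod B h n hn hB := by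
  rw [mem_rootMod] at hs ⊢
  have : h * (β * s) ^ n = β ^ n * (h * s ^ n) := by ring
  rw [this]
  exact B.mul_mem (B.pow_mem hβ _) hs

end RootMod

section Newton

variable {R F : Type*} [CommRing R] [Field F] [Algebra R F]

/-- `(1 - y)ⁿ = 1 - n y + y² c` with `c ∈ B`. -/
theorem one_sub_pow_expand (B : Subalgebra R F) {y : F} (hy : y ∈ B) (n : ℕ) :
    ∃ c ∈ B, (1 - y) ^ n = 1 - (n : F) * y + y ^ 2 * c := by
  induction n with
  | zero => exact ⟨0, B.zero_mem, by simp⟩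
  | succ n ih =>
    obtain ⟨c, hc, h⟩ := ih
    refine ⟨c + (n : F) - y * c, B.sub_mem (B.add_mem hc (natCast_mem B n)) (B.mul_mem hy hc), ?_⟩
    rw [pow_succ, h]
    push_cast
    ring

/-- **Newton step** for `n`-th roots: if `h aⁿ = 1 + ν` with `ν ∈ B` and `n` is invertible in `B`,
then `a' = a (1 - ν / n)` satisfies `h a'ⁿ = 1 + ν² c`, `c ∈ B`. -/
theorem newton_step (B : Subalgebra R F) (n : ℕ) (n' : F) (hn' : n' ∈ B) (hnn : (n : F) * n' = 1)
    (h a ν : F) (hν : h * a ^ n = 1 + ν) (hνB : ν ∈ B) :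
    ∃ c ∈ B, h * (a * (1 - ν * n')) ^ n = 1 + ν ^ 2 * c := by
  obtain ⟨c, hc, hexp⟩ := one_sub_pow_expand B (B.mul_mem hνB hn') n
  refine ⟨n' ^ 2 * c * (1 + ν) - 1, B.sub_mem (B.mul_mem (B.mul_mem (B.pow_mem hn' 2) hc)
    (B.add_mem B.one_mem hνB)) B.one_mem, ?_⟩
  have h1 : h * (a * (1 - ν * n')) ^ n = (h * a ^ n) * (1 - ν * n') ^ n := by
    rw [mul_pow, mul_assoc]
  rw [h1, hν, hexp]
  have h2 : (n : F) * (ν * n') = ν := by
    rw [mul_comm ν n', ← mul_assoc, hnn, one_mul]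
  rw [h2]
  ring

/-- **Newton iteration**: from `h aⁿ = 1 + ν₀`, `ν₀ ∈ B`, get for every `k` some
`a_k = a (1 + ν₀ v)`, `v ∈ B`, with `h a_kⁿ = 1 + ν₀ ^ (2 ^ k) c`, `c ∈ B`. -/
theorem newton_iter (B : Subalgebra R F) (n : ℕ) (n' : F) (hn' : n' ∈ B) (hnn : (n : F) * n' = 1)
    (h a ν₀ : F) (hν : h * a ^ n = 1 + ν₀) (hνB : ν₀ ∈ B) (k : ℕ) :
    ∃ v ∈ B, ∃ c ∈ B, h * (a * (1 + ν₀ * v)) ^ n = 1 + ν₀ ^ (2 ^ k) * c := by
  induction k with
  | zero => exact ⟨0, B.zero_mem, 1, B.one_mem, by simp [hν]⟩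
  | succ k ih =>
    obtain ⟨v, hv, c, hc, h1⟩ := ih
    have hνk : ν₀ ^ (2 ^ k) * c ∈ B := B.mul_mem (B.pow_mem hνB _) hc
    obtain ⟨c', hc', h2⟩ := newton_step B n n' hn' hnn h (a * (1 + ν₀ * v)) _ h1 hνk
    have hk1 : 1 ≤ 2 ^ k := Nat.one_le_two_pow
    obtain ⟨r, hr⟩ := Nat.exists_eq_add_of_le hk1
    refine ⟨v - ν₀ ^ r * c * n' * (1 + ν₀ * v), ?_, c ^ 2 * c', B.mul_mem (B.pow_mem hc 2) hc', ?_⟩
    · exact B.sub_mem hv (B.mul_mem (B.mul_mem (B.mul_mem (B.pow_mem hνB _) hc) hn')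
        (B.add_mem B.one_mem (B.mul_mem hνB hv)))
    · have h3 : a * (1 + ν₀ * (v - ν₀ ^ r * c * n' * (1 + ν₀ * v))) =
          a * (1 + ν₀ * v) * (1 - ν₀ ^ (2 ^ k) * c * n') := by
        rw [hr, pow_add, pow_one]
        ring
      rw [h3, h2, pow_succ 2 k]
      ring

/-- Newton iteration, `q`-adic form: if moreover `ν₀ ^ e = q z` with `z ∈ B`, then for every `N`
there is `a_N = a (1 + ν₀ v)` with `h a_Nⁿ = 1 + q ^ N c`. -/
theorem newton_qadic (B : Subalgebra R F) (q : R) (n : ℕ) (n' : F) (hn' : n' ∈ B)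
    (hnn : (n : F) * n' = 1)
    (h a ν₀ : F) (hν : h * a ^ n = 1 + ν₀) (hνB : ν₀ ∈ B) (e : ℕ) (z : F) (hz : z ∈ B)
    (hez : ν₀ ^ e = q • z) (N : ℕ) :
    ∃ v ∈ B, ∃ c ∈ B, h * (a * (1 + ν₀ * v)) ^ n = 1 + q ^ N • c := by
  obtain ⟨v, hv, c, hc, h1⟩ := newton_iter B n n' hn' hnn h a ν₀ hν hνB (e * N)
  have hlt : e * N ≤ 2 ^ (e * N) := Nat.lt_two_pow_self.le
  obtain ⟨r, hr⟩ := Nat.exists_eq_add_of_le hlt
  refine ⟨v, hv, z ^ N * ν₀ ^ r * c, B.mul_mem (B.mul_mem (B.pow_mem hz _) (B.pow_mem hνB _)) hc, ?_⟩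
  rw [h1, hr, pow_add, pow_mul, hez, smul_pow]
  simp only [Algebra.smul_def, map_pow]
  ring

end Newton
section Overlap

/-- If `u` is a unit and `η` lies in the radical of `(q)`, then `(u + η) ^ L` is coprime to
`q ^ K`. -/
theorem isCoprime_unit_add_rad {A : Type*} [CommRing A] (q u η : A) (hu : IsUnit u)
    (hη : η ∈ (Ideal.span {q}).radical) (L K : ℕ) : IsCoprime ((u + η) ^ L) (q ^ K) := by
  obtain ⟨e, he⟩ := Ideal.mem_radical_iff.1 hη
  obtain ⟨z, hz⟩ := Ideal.mem_span_singleton'.1 he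
  obtain ⟨v, hv⟩ := hu.exists_left_inv
  have h1 : IsCoprime u η := ⟨v, 0, by rw [hv, zero_mul, add_zero]⟩
  have h2 : IsCoprime (u + η) η := by simpa using h1.add_mul_left_left 1
  have h3 : IsCoprime (u + η) (η ^ e) := h2.pow_right
  have h4 : IsCoprime (u + η) (q * z) := by rw [mul_comm, hz]; exact h3
  exact (h4.of_mul_right_left).pow

variable {R F : Type*} [CommRing R] [Field F] [Algebra R F]

/-- `x` is nilpotent modulo `q S`. -/
def IsRadQ (S : Subalgebra R F) (q : R) (x : F) : Prop := ∃ e : ℕ, ∃ z ∈ S, x ^ e = q • z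

theorem isRadQ_iff (S : Subalgebra R F) (q : R) (x : S) :
    IsRadQ S q (x : F) ↔ x ∈ (Ideal.span {algebraMap R S q}).radical := by
  rw [Ideal.mem_radical_iff]
  constructor
  · rintro ⟨e, z, hz, h⟩
    refine ⟨e, Ideal.mem_span_singleton'.2 ⟨⟨z, hz⟩, ?_⟩⟩
    apply Subtype.ext
    push_cast
    rw [h, Algebra.smul_def, mul_comm]
  · rintro ⟨e, he⟩
    obtain ⟨z, hz⟩ := Ideal.mem_span_singleton'.1 he
    refine ⟨e, z, z.2, ?_⟩
    have := congrArg (Subtype.val) hz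
    push_cast at this
    rw [← this, Algebra.smul_def, mul_comm]

theorem IsRadQ.mono {S S' : Subalgebra R F} (hSS : S ≤ S') {q : R} {x : F}
    (h : IsRadQ S q x) : IsRadQ S' q x := by
  obtain ⟨e, z, hz, h⟩ := h
  exact ⟨e, z, hSS hz, h⟩

/-- **Overlap lemma.**  If `h aⁿ ≡ 1 ≡ h bⁿ mod q ^ N` in `S` and `h a bⁿ⁻¹ ≡ 1` modulo the radical of
`q S`, then `a - b = q ^ N y` with `h yⁿ ∈ S`. -/
theorem overlap (S : Subalgebra R F) (q : R) (hq : algebraMap R F q ≠ 0) (n : ℕ) (hn : 0 < n)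
    (n' : F) (hn' : n' ∈ S) (hnn : (n : F) * n' = 1)
    (hS : ∀ x : F, x ^ n ∈ S → x ∈ S)
    (h a b : F) (N : ℕ) (hN : 0 < N) (α β : F) (hα : α ∈ S) (hβ : β ∈ S)
    (ha : h * a ^ n = 1 + q ^ N • α) (hb : h * b ^ n = 1 + q ^ N • β)
    (hab : IsRadQ S q (h * a * b ^ (n - 1) - 1)) :
    ∃ y : F, a - b = q ^ N • y ∧ h * y ^ n ∈ S := by
  classical
  have haS : h * a ^ n ∈ S := by
    rw [ha]; exact S.add_mem S.one_mem (S.smul_mem hα _)
  have hbS : h * b ^ n ∈ S := by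
    rw [hb]; exact S.add_mem S.one_mem (S.smul_mem hβ _)
  have htS : ∀ i : ℕ, i < n → h * a ^ (i + 1) * b ^ (n - 1 - i) ∈ S := fun i hi =>
    mixed_mem S h n hS haS hbS (i + 1) (n - 1 - i) (by omega)
  set qS : S := algebraMap R S q with hqS
  set I : Ideal S := (Ideal.span {qS}).radical with hI
  -- `T0 = h bⁿ ≡ 1`
  have hT0 : (⟨h * b ^ n, hbS⟩ : S) - 1 ∈ I := by
    apply Ideal.le_radical
    rw [Ideal.mem_span_singleton']
    obtain ⟨r, hr⟩ := Nat.exists_eq_add_of_le (Nat.succ_le_of_lt hN)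
    refine ⟨qS ^ r * ⟨β, hβ⟩, ?_⟩
    apply Subtype.ext
    push_cast
    rw [hb, hr, Algebra.smul_def, hqS]
    simp only [pow_add, pow_one, Nat.succ_eq_add_one, zero_add, map_mul, map_pow]
    have : ((algebraMap R S q : S) : F) = algebraMap R F q := rfl
    rw [this]
    ring
  have h1n : h * a * b ^ (n - 1) ∈ S := by
    have := htS 0 hn
    simpa using this
  have hT1 : (⟨h * a * b ^ (n - 1), h1n⟩ : S) - 1 ∈ I := by
    rw [hI, ← isRadQ_iff]
    exact hab
  have hTi : ∀ i : ℕ, ∀ hi : i < n, (⟨h * a ^ (i + 1) * b ^ (n - 1 - i), htS i hi⟩ : S) - 1 ∈ I := by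
    intro i hi
    have hrel : (⟨h * a ^ (i + 1) * b ^ (n - 1 - i), htS i hi⟩ : S) * (⟨h * b ^ n, hbS⟩ : S) ^ i =
        (⟨h * a * b ^ (n - 1), h1n⟩ : S) ^ (i + 1) := by
      apply Subtype.ext
      push_cast
      obtain ⟨d, hd⟩ := Nat.exists_eq_add_of_lt hi
      have h1 : n - 1 - i = d := by omega
      have h2 : n - 1 = i + d := by omega
      have h3 : n = i + d + 1 := by omega
      rw [h1, h2]
      nth_rewrite 1 [h3]
      ring
    have e0 : Ideal.Quotient.mk I (⟨h * b ^ n, hbS⟩ : S) = 1 := by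
      rw [← map_one (Ideal.Quotient.mk I), Ideal.Quotient.eq]; exact hT0
    have e1 : Ideal.Quotient.mk I (⟨h * a * b ^ (n - 1), h1n⟩ : S) = 1 := by
      rw [← map_one (Ideal.Quotient.mk I), Ideal.Quotient.eq]; exact hT1
    have := congrArg (Ideal.Quotient.mk I) hrel
    rw [map_mul, map_pow, map_pow, e0, e1, one_pow, one_pow, mul_one] at this
    rw [← Ideal.Quotient.eq, map_one]
    exact this
  -- the sum `x = c a`
  set x : S := ∑ i : Fin n, (⟨h * a ^ ((i : ℕ) + 1) * b ^ (n - 1 - (i : ℕ)), htS i i.2⟩ : S) with hx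
  have hxη : x - (n : S) ∈ I := by
    have : x - (n : S) = ∑ i : Fin n,
        ((⟨h * a ^ ((i : ℕ) + 1) * b ^ (n - 1 - (i : ℕ)), htS i i.2⟩ : S) - 1) := by
      rw [Finset.sum_sub_distrib, hx]
      simp
    rw [this]
    exact I.sum_mem (fun i _ => hTi i i.2)
  have hnS : IsUnit ((n : ℕ) : S) := by
    refine IsUnit.of_mul_eq_one (⟨n', hn'⟩ : S) ?_
    apply Subtype.ext
    push_cast
    exact hnn
  have hcop : IsCoprime (x ^ n) (qS ^ (n * N)) := by
    have := isCoprime_unit_add_rad qS (n : S) (x - (n : S)) hnS hxη n (n * N)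
    simpa using this
  obtain ⟨γ, δ, hγδ⟩ := hcop
  have hγδF : (γ : F) * (x : F) ^ n + (δ : F) * (algebraMap R F q) ^ (n * N) = 1 := by
    have := congrArg Subtype.val hγδ
    push_cast at this
    exact this
  have hxF : (x : F) = ∑ i ∈ Finset.range n, h * a ^ (i + 1) * b ^ (n - 1 - i) := by
    rw [hx]
    push_cast
    rw [Finset.sum_range (fun i => h * a ^ (i + 1) * b ^ (n - 1 - i))]
  have hxab : (x : F) * (a - b) = a * ((algebraMap R F q) ^ N * (α - β)) := by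
    have h1 : (x : F) = h * a * ∑ i ∈ Finset.range n, a ^ i * b ^ (n - 1 - i) := by
      rw [hxF, Finset.mul_sum]
      refine Finset.sum_congr rfl (fun i _ => ?_)
      ring
    rw [h1, mul_assoc, (Commute.all a b).geom_sum₂_mul n]
    have h2 : h * a * (a ^ n - b ^ n) = a * (h * a ^ n - h * b ^ n) := by ring
    rw [h2, ha, hb, Algebra.smul_def, Algebra.smul_def, map_pow]
    ring
  have hqN : (algebraMap R F q) ^ N ≠ 0 := pow_ne_zero _ hq
  refine ⟨(a - b) / (algebraMap R F q) ^ N, ?_, ?_⟩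
  · rw [Algebra.smul_def, map_pow]
    field_simp
  · set y := (a - b) / (algebraMap R F q) ^ N with hy
    have hxy : (x : F) * y = a * (α - β) := by
      rw [hy, ← mul_div_assoc, hxab]
      field_simp
    have hX : h * y ^ n * (x : F) ^ n ∈ S := by
      have : h * y ^ n * (x : F) ^ n = (h * a ^ n) * (α - β) ^ n := by
        have : h * y ^ n * (x : F) ^ n = h * ((x : F) * y) ^ n := by rw [mul_pow]; ring
        rw [this, hxy, mul_pow]; ring
      rw [this]
      exact S.mul_mem haS (S.pow_mem (S.sub_mem hα hβ) _)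
    have hY : h * y ^ n * (algebraMap R F q) ^ (n * N) ∈ S := by
      have : h * y ^ n * (algebraMap R F q) ^ (n * N) = h * (a - b) ^ n := by
        have hyq : y * (algebraMap R F q) ^ N = a - b := by
          rw [hy]; field_simp
        rw [← hyq, mul_pow, ← pow_mul, mul_comm N n]; ring
      rw [this]
      -- `h (a - b)ⁿ ∈ S`
      rw [sub_eq_add_neg, add_pow, Finset.mul_sum]
      refine S.sum_mem (fun i hi => ?_)
      have hi' : i + (n - i) = n := by
        have := Finset.mem_range.1 hi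
        omega
      have := mixed_mem S h n hS haS hbS i (n - i) hi'
      have h2 : h * (a ^ i * (-b) ^ (n - i) * (n.choose i : F)) =
          (h * a ^ i * b ^ (n - i)) * ((-1) ^ (n - i) * (n.choose i : F)) := by
        rw [neg_pow]; ring
      rw [h2]
      exact S.mul_mem this (S.mul_mem (S.pow_mem (S.neg_mem S.one_mem) _) (natCast_mem S _))
    have : h * y ^ n = (γ : F) * (h * y ^ n * (x : F) ^ n) +
        (δ : F) * (h * y ^ n * (algebraMap R F q) ^ (n * N)) := by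
      have : h * y ^ n = h * y ^ n * ((γ : F) * (x : F) ^ n +
          (δ : F) * (algebraMap R F q) ^ (n * N)) := by rw [hγδF, mul_one]
      nth_rewrite 1 [this]
      ring
    rw [this]
    exact S.add_mem (S.mul_mem γ.2 hX) (S.mul_mem δ.2 hY)

end Overlap

section Pair

/-- In a commutative ring: `t ≡ 1`, `x ≡ 0 ≡ y` mod `I` imply `t (1 + x v) (1 + y w) ^ k ≡ 1`. -/
theorem mul_one_add_mem {A : Type*} [CommRing A] (I : Ideal A) {t x y : A} (v w : A) (k : ℕ)
    (ht : t - 1 ∈ I) (hx : x ∈ I) (hy : y ∈ I) :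
    t * (1 + x * v) * (1 + y * w) ^ k - 1 ∈ I := by
  have e0 : Ideal.Quotient.mk I t = 1 := by
    rw [← map_one (Ideal.Quotient.mk I), Ideal.Quotient.eq]; exact ht
  have e1 : Ideal.Quotient.mk I x = 0 := Ideal.Quotient.eq_zero_iff_mem.2 hx
  have e2 : Ideal.Quotient.mk I y = 0 := Ideal.Quotient.eq_zero_iff_mem.2 hy
  rw [← Ideal.Quotient.eq, map_one, map_mul, map_mul, map_pow, map_add, map_add, map_mul, map_mul,
    map_one, e0, e1, e2]
  simp

variable {R F : Type*} [CommRing R] [IsNoetherianRing R] [Field F] [Algebra R F]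

/-- **TI3 from one pair** (Newton + overlap + `ti3_alg`).
`B0`, `Boo`, `B0oo` are the coordinate rings of the charts `j ≠ ∞`, `j ≠ 0` and of their overlap.
If there are `a`, `b` with `h aⁿ ∈ B0`, `h bⁿ ∈ Boo`, both `≡ 1` modulo the radical of `q`, and
`h a bⁿ⁻¹ ≡ 1` modulo the radical of `q B0oo`, then there is `s ≠ 0` with `h sⁿ ∈ B0 ∩ Boo`. -/
theorem ti3_of_pair (q : R) (hq : algebraMap R F q ≠ 0) (n : ℕ) (hn : 0 < n) (n' : R)
    (hnn : (n : R) * n' = 1) (j : F) (hj : j ≠ 0) (h : F)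
    (B0 Boo B0oo : Subalgebra R F) (hjB0 : j ∈ B0) (hjBoo : j⁻¹ ∈ Boo)
    (h0le : B0 ≤ B0oo) (hoole : Boo ≤ B0oo)
    (hloc0 : ∀ β ∈ B0oo, ∃ k : ℕ, j ^ k * β ∈ B0)
    (hlocoo : ∀ β ∈ B0oo, ∃ k : ℕ, j⁻¹ ^ k * β ∈ Boo)
    (hroot0 : ∀ x : F, x ^ n ∈ B0 → x ∈ B0)
    (hrootoo : ∀ x : F, x ^ n ∈ Boo → x ∈ Boo)
    (hroot0oo : ∀ x : F, x ^ n ∈ B0oo → x ∈ B0oo)
    (μ : Finset F) (hμ : ∀ u ∈ μ, h * u ^ n ∈ Boo)
    (hgen : ∀ x : F, h * x ^ n ∈ Boo →
      x ∈ Submodule.span R {y : F | ∃ e : ℕ, ∃ u ∈ μ, y = j⁻¹ ^ e * u})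
    (hunit : ¬ ∃ z ∈ B0, (1 : F) = q • z)
    (a b : F) (ha : h * a ^ n ∈ B0) (hb : h * b ^ n ∈ Boo)
    (hra : IsRadQ B0 q (h * a ^ n - 1)) (hrb : IsRadQ Boo q (h * b ^ n - 1))
    (hrab : IsRadQ B0oo q (h * a * b ^ (n - 1) - 1)) :
    ∃ s : F, s ≠ 0 ∧ h * s ^ n ∈ B0 ∧ h * s ^ n ∈ Boo := by
  classical
  have hnnF : ((n : ℕ) : F) * algebraMap R F n' = 1 := by
    have := congrArg (algebraMap R F) hnn
    simpa using this
  have hpowoo : ∀ k : ℕ, j⁻¹ ^ k ∈ Boo := fun k => Boo.pow_mem hjBoo k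
  have hpow0 : ∀ k : ℕ, j ^ k ∈ B0 := fun k => B0.pow_mem hjB0 k
  -- the exponent `m`
  have hm : ∃ m : ℕ, ∀ u ∈ μ, j ^ m * u ∈ rootMod B0 h n hn hroot0 := by
    have key : ∀ u : F, h * u ^ n ∈ Boo → ∃ k : ℕ, ∀ m : ℕ, k ≤ m →
        j ^ m * u ∈ rootMod B0 h n hn hroot0 := by
      intro u hu
      obtain ⟨k, hk⟩ := hloc0 _ (hoole hu)
      refine ⟨k, fun m hkm => ?_⟩
      rw [mem_rootMod]
      obtain ⟨d, rfl⟩ := Nat.exists_eq_add_of_le hkm
      obtain ⟨n1, rfl⟩ := Nat.exists_eq_add_of_le (Nat.succ_le_of_lt hn)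
      have : h * (j ^ (k + d) * u) ^ (Nat.succ 0 + n1) =
          j ^ (d * (Nat.succ 0 + n1) + k * n1) * (j ^ k * (h * u ^ (Nat.succ 0 + n1))) := by
        ring
      rw [this]
      exact B0.mul_mem (hpow0 _) hk
    have : ∀ s : Finset F, (∀ u ∈ s, h * u ^ n ∈ Boo) →
        ∃ k : ℕ, ∀ u ∈ s, ∀ m : ℕ, k ≤ m → j ^ m * u ∈ rootMod B0 h n hn hroot0 := by
      intro s
      induction s using Finset.induction_on with
      | empty => intro _; exact ⟨0, fun u hu => absurd hu (Finset.notMem_empty u)⟩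
      | insert u s hus ih =>
        intro hs
        obtain ⟨k1, hk1⟩ := ih (fun v hv => hs v (Finset.mem_insert_of_mem hv))
        obtain ⟨k2, hk2⟩ := key u (hs u (Finset.mem_insert_self u s))
        refine ⟨max k1 k2, fun v hv m hm => ?_⟩
        rcases Finset.mem_insert.1 hv with rfl | hv
        · exact hk2 m (le_trans (le_max_right _ _) hm)
        · exact hk1 v hv m (le_trans (le_max_left _ _) hm)
    obtain ⟨k, hk⟩ := this μ hμ
    exact ⟨k, fun u hu => hk u hu k le_rfl⟩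
  obtain ⟨m, hm⟩ := hm
  obtain ⟨s, hs0, hs1, hs2⟩ := ti3_alg q j hj (rootMod B0 h n hn hroot0)
    (rootMod Boo h n hn hrootoo)
    (fun x hx => mul_mem_rootMod B0 h n hn hroot0 hjB0 hx)
    (fun x hx => mul_mem_rootMod Boo h n hn hrootoo hjBoo hx)
    μ hμ (fun x hx => hgen x hx) m hm (by
      intro N
      obtain ⟨ea, za, hza, hea⟩ := hra
      obtain ⟨eb, zb, hzb, heb⟩ := hrb
      have hνa : h * a ^ n - 1 ∈ B0 := B0.sub_mem ha B0.one_mem
      have hνb : h * b ^ n - 1 ∈ Boo := Boo.sub_mem hb Boo.one_mem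
      obtain ⟨va, hva, ca, hca, hA⟩ := newton_qadic B0 q n (algebraMap R F n')
        (B0.algebraMap_mem n') hnnF h a (h * a ^ n - 1) (by ring) hνa ea za hza hea (N + 1)
      obtain ⟨vb, hvb, cb, hcb, hB⟩ := newton_qadic Boo q n (algebraMap R F n')
        (Boo.algebraMap_mem n') hnnF h b (h * b ^ n - 1) (by ring) hνb eb zb hzb heb (N + 1)
      set a1 := a * (1 + (h * a ^ n - 1) * va) with ha1
      set b1 := b * (1 + (h * b ^ n - 1) * vb) with hb1
      have ha1M : h * a1 ^ n ∈ B0 := by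
        rw [hA]; exact B0.add_mem B0.one_mem (B0.smul_mem hca _)
      have hb1M : h * b1 ^ n ∈ Boo := by
        rw [hB]; exact Boo.add_mem Boo.one_mem (Boo.smul_mem hcb _)
      -- the `t₁`-condition for the new pair
      have h1n : h * a * b ^ (n - 1) ∈ B0oo := by
        have := mixed_mem B0oo h n hroot0oo (h0le ha) (hoole hb) 1 (n - 1) (by omega)
        simpa using this
      have hrab1 : IsRadQ B0oo q (h * a1 * b1 ^ (n - 1) - 1) := by
        have e : h * a1 * b1 ^ (n - 1) - 1 =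
            ((⟨h * a * b ^ (n - 1), h1n⟩ : B0oo) *
              (1 + (⟨h * a ^ n - 1, h0le hνa⟩ : B0oo) * ⟨va, h0le hva⟩) *
              (1 + (⟨h * b ^ n - 1, hoole hνb⟩ : B0oo) * ⟨vb, hoole hvb⟩) ^ (n - 1) - 1 : B0oo) := by
          push_cast
          rw [ha1, hb1, mul_pow]
          ring
        rw [e, isRadQ_iff]
        apply mul_one_add_mem
        · rw [← isRadQ_iff]; exact hrab
        · rw [← isRadQ_iff]; exact IsRadQ.mono h0le ⟨ea, za, hza, hea⟩
        · rw [← isRadQ_iff]; exact IsRadQ.mono hoole ⟨eb, zb, hzb, heb⟩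
      obtain ⟨y, hy, hyS⟩ := overlap B0oo q hq n hn (algebraMap R F n') (B0oo.algebraMap_mem n')
        hnnF hroot0oo h a1 b1 (N + 1) (Nat.succ_pos N) ca cb (h0le hca) (hoole hcb) hA hB hrab1
      refine ⟨a1, ha1M, b1, hb1M, q • y, ?_, ?_, ?_⟩
      · obtain ⟨k, hk⟩ := hlocoo _ hyS
        refine ⟨k, ?_⟩
        rw [mem_rootMod]
        obtain ⟨n1, rfl⟩ := Nat.exists_eq_add_of_le (Nat.succ_le_of_lt hn)
        have : h * (j⁻¹ ^ k * q • y) ^ (Nat.succ 0 + n1) =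
            (q ^ (Nat.succ 0 + n1)) • (j⁻¹ ^ (k * n1) * (j⁻¹ ^ k * (h * y ^ (Nat.succ 0 + n1)))) := by
          simp only [Algebra.smul_def, map_pow]
          ring
        rw [this]
        exact Boo.smul_mem (Boo.mul_mem (hpowoo _) hk) _
      · rw [hy, pow_succ, mul_smul]
      · rintro ⟨a', ha', haa'⟩
        rw [mem_rootMod] at ha'
        apply hunit
        obtain ⟨n1, hn1⟩ := Nat.exists_eq_add_of_le (Nat.succ_le_of_lt hn)
        refine ⟨q ^ n1 • (h * a' ^ n) - q ^ N • ca, B0.sub_mem (B0.smul_mem ha' _)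
          (B0.smul_mem hca _), ?_⟩
        have h1 : h * a1 ^ n = q ^ n • (h * a' ^ n) := by
          rw [haa', smul_pow, mul_smul_comm]
        rw [hA] at h1
        have h2 : (1 : F) = q ^ n • (h * a' ^ n) - q ^ (N + 1) • ca := by
          rw [← h1]; ring
        rw [h2, smul_sub, smul_smul, smul_smul]
        congr 2
        · rw [hn1]; simp only [Nat.succ_eq_add_one, zero_add]; ring
        · ring)
  exact ⟨s, hs0, hs1, hs2⟩

end Pair

end Fermat.Agent.S36.NU.H65
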