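import Fermat.Agent.S36.NU.H69_NrRes

/-!
# S36 / NU-MOD, leaf NM-A2 (helper69): the `NRData` of `L0 (M q²) / L0 (M q)` above `V₂`

Level `M q²` over level `M q` along `α` (the inclusion; algebra `H23.algL0 A (H87.hleA q M)`, as
in helper87's `nrA1`), of degree `q`.  Above the second valuation `V₂ = V₁ ∘ w_q` of level `M q`
(`VE2`, uniformiser `q`, residue map `rE2 = red₁ ∘ w_q` into `C' = FM A (M q)`) lies the single
valuation `V₀₂`, with `e = 1` and residue field `C'` over `C'` through `Fr` (`t ↦ t ^ q`), of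
degree `q`.

* `nrA2 : NRData (L0 (M q)) (L0 (M q²)) C' Unit (fun _ => C')`, `nrA2_hdeg`;
* `normA2` : `red₂ (N_α h) = φ (red₀₂ h)` in `k((t))` (`φ = frobL`, the coefficientwise
  Frobenius); `normA2_F` for the norm of `F_{M q²} / F_{M q}`, `normA2_N` for `normAlongHom α`.
-/

set_option autoImplicit false
set_option synthInstance.maxHeartbeats 400000
set_option maxHeartbeats 1000000
set_option linter.style.haveILetI false
set_option linter.unusedSectionVars false

noncomputable section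

open ModularCurve AlgebraicCurve
open Fermat.Agent.S24 Fermat.Agent.BAD.H88 Fermat.Agent.S28 Fermat.Agent.S28.H73
open Fermat.Agent.RED.H73 Fermat.Agent.RED.H17 Fermat.Agent.S36.NU.H88
open Fermat.Agent.S36.NU.H23 Fermat.Agent.S36.NU.H87

namespace Fermat.Agent.S36.NU.H69

open Fermat.Agent.BAD

section NrA2

variable (A : ValuationSubring Kbar) (q M : ℕ) (B k : ℤ) (hB : B * M + k * q = 1) (hq : q.Prime)
  [NeZero M] [NeZero q] [NeZero (M * q)] [NeZero (M * q * q)]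
  (hqM : ¬ q ∣ M) (hA : A.LiesOverPrime q)

/-! ### The two descriptions of the tower along `α` -/

/-- The inclusion `L0 (M q) → L0 (M q²)` is `α`. -/
theorem inclL0_eq_aL0 : inclL0 A (hleA q M) = aL0 A q M :=
  RingHom.ext fun a => Subtype.ext (coe_inclL0_alphaA A q M a)

/-- helper23's structure (inclusion) is helper26's structure along `α`. -/
theorem algL0_eq_algA : algL0 A (hleA q M) = algA A q M :=
  congrArg RingHom.toAlgebra (inclL0_eq_aL0 A q M)

theorem norm_congr_alg (a b : Algebra ↥(L0 A (M * q)) ↥(L0 A (M * q * q))) (hab : a = b)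
    (h : ↥(L0 A (M * q * q))) :
    @Algebra.norm ↥(L0 A (M * q)) ↥(L0 A (M * q * q)) _ _ a h
      = @Algebra.norm ↥(L0 A (M * q)) ↥(L0 A (M * q * q)) _ _ b h := by
  subst hab; rfl

/-- The norm along `α` of an inertia-fixed function, for helper23's structure. -/
theorem norm_algL0_A (g : ↥(L0 A (M * q * q))) :
    Fermat.Agent.Lib.HeckeComm.normAlongHom (heckeAlphaBar Kbar (M * q) q).toRingHom
        (g : FN (M * q * q))
      = ((@Algebra.norm ↥(L0 A (M * q)) ↥(L0 A (M * q * q)) _ _ (algL0 A (hleA q M)) g :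
          ↥(L0 A (M * q))) : FN (M * q)) := by
  rw [norm_congr_alg A q M _ _ (algL0_eq_algA A q M) g]
  exact norm_algA A q M g

/-! ### The map `VE2 → V02o` -/

include hq in
/-- `α` maps `VE2` into `V02o`. -/
theorem hVA2 (a : ↥(L0 A (M * q))) (ha : a ∈ VE2 A q M B k hB hq) :
    inclL0 A (hleA q M) a ∈ V02o A q M B k hB := by
  show ((inclL0 A (hleA q M) a : ↥(L0 A (M * q * q))) : FN (M * q * q))
    ∈ V02 A (M * q * q) q M B k (lvl q M) hB
  rw [coe_inclL0_alphaA]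
  exact (alpha_mem_V02_iff A q M B k hB hq (a : FN (M * q))).2 ha

/-- `red₀₂ (α a) = (red₂ a)(t ^ q)`, in `k((t))`. -/
theorem s02_inclA (a : ↥(VE2 A q M B k hB hq))
    (h : inclL0 A (hleA q M) (a : ↥(L0 A (M * q))) ∈ V02o A q M B k hB) :
    s02 A q M B k hB ⟨_, h⟩
      = qExpand (kV A) q ((rE2 A q M B k hB hq a : F1 A q M) : LaurentSeries (kV A)) := by
  have hα : heckeAlphaBar Kbar (M * q) q ((a : ↥(L0 A (M * q))) : FN (M * q))
      ∈ V02 A (M * q * q) q M B k (lvl q M) hB :=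
    (alpha_mem_V02_iff A q M B k hB hq _).2 a.2
  have e := red02_alpha A q M B k hB hq ((a : ↥(L0 A (M * q))) : FN (M * q)) a.2 hα
  have e2 : s02 A q M B k hB ⟨_, h⟩
      = ((red02 A (M * q * q) q M B k (lvl q M) hB
          ⟨heckeAlphaBar Kbar (M * q) q ((a : ↥(L0 A (M * q))) : FN (M * q)), hα⟩ :
            F20 A (M * q * q)) : LaurentSeries (kV A)) := by
    show ((red02 A (M * q * q) q M B k (lvl q M) hB
      ⟨((inclL0 A (hleA q M) (a : ↥(L0 A (M * q))) : ↥(L0 A (M * q * q))) : FN (M * q * q)),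
        h⟩ : F20 A (M * q * q)) : LaurentSeries (kV A)) = _
    congr 2
  rw [e2, e]
  rfl

/-- `red₀₂ (α a) = Fr (red₂ a)`. -/
theorem r02A_inclA (a : ↥(VE2 A q M B k hB hq))
    (h : inclL0 A (hleA q M) (a : ↥(L0 A (M * q))) ∈ V02o A q M B k hB) :
    r02A A q M B k hB hq hqM hA ⟨_, h⟩ = FrA A q M hq hqM hA (rE2 A q M B k hB hq a) := by
  apply Subtype.ext
  rw [coe_FrA, coe_r02A]
  exact s02_inclA A q M B k hB hq a h

/-- **NM-A2**: the `NRData` of `L0 (M q²) / L0 (M q)` along `α` above the second valuation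
`V₂ = V₁ ∘ w_q` of level `M q`: `VE = VE2`, `ϖ = q`; the single valuation `V02o`,
`red = r02A`, `e = 1`; residue field `FM A (M q)` over itself through `Fr`. -/
def nrA2 :
    @H42.NRData ↥(L0 A (M * q)) ↥(L0 A (M * q * q)) (FM A (M * q)) _ _ _
      (algL0 A (hleA q M)) Unit (fun _ => FM A (M * q)) _ (fun _ => algFrA A q M hq hqM hA) :=
  @H42.nr1 ↥(L0 A (M * q)) ↥(L0 A (M * q * q)) (FM A (M * q)) (FM A (M * q)) _ _ _ _
    (algL0 A (hleA q M)) (algFrA A q M hq hqM hA)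
    (VE2 A q M B k hB hq) (rE2 A q M B k hB hq) (V02o A q M B k hB)
    (r02A A q M B k hB hq hqM hA) (piL A q M)
    (piL_ne_zero A q M hq) (piL_mem2 A q M B k hB hq hA) (rE2_piL A q M B k hB hq hA)
    (hE2 A q M B k hB hq hA)
    (fun a ha => hVA2 A q M B k hB hq a ha)
    (rE2_eq_zero_of_not_isUnit A q M B k hB hq)
    (r02A_surjective A q M B k hB hq hqM hA)
    (r02A_eq_zero_of_not_isUnit A q M B k hB hq hqM hA)
    (fun a ha => r02A_inclA A q M B k hB hq hqM hA a ha)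
    (isArch_resV0 _ _
      (Fermat.Agent.S36.NU.H82.isArch_V02 A hq hA (M * q * q) M B k (lvl q M) hB))

/-! The fields, by `rfl`. -/

theorem nrA2_VE :
    @H42.NRData.VE ↥(L0 A (M * q)) ↥(L0 A (M * q * q)) (FM A (M * q)) _ _ _
      (algL0 A (hleA q M)) Unit (fun _ => FM A (M * q)) _ (fun _ => algFrA A q M hq hqM hA)
      (nrA2 A q M B k hB hq hqM hA) = VE2 A q M B k hB hq := rfl

theorem nrA2_VE' :
    @H42.NRData.VE ↥(L0 A (M * q)) ↥(L0 A (M * q * q)) (FM A (M * q)) _ _ _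
      (algL0 A (hleA q M)) Unit (fun _ => FM A (M * q)) _ (fun _ => algFrA A q M hq hqM hA)
      (nrA2 A q M B k hB hq hqM hA)
      = resV0 (L0 A (M * q)) (V2 A q M k B (hab_of_hB q M B k hB) hq) := rfl

theorem nrA2_redE :
    @H42.NRData.redE ↥(L0 A (M * q)) ↥(L0 A (M * q * q)) (FM A (M * q)) _ _ _
      (algL0 A (hleA q M)) Unit (fun _ => FM A (M * q)) _ (fun _ => algFrA A q M hq hqM hA)
      (nrA2 A q M B k hB hq hqM hA) = rE2 A q M B k hB hq := rfl

theorem nrA2_ϖ :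
    @H42.NRData.ϖ ↥(L0 A (M * q)) ↥(L0 A (M * q * q)) (FM A (M * q)) _ _ _
      (algL0 A (hleA q M)) Unit (fun _ => FM A (M * q)) _ (fun _ => algFrA A q M hq hqM hA)
      (nrA2 A q M B k hB hq hqM hA) = ((q : ℕ) : ↥(L0 A (M * q))) := rfl

theorem nrA2_V (i : Unit) :
    @H42.NRData.V ↥(L0 A (M * q)) ↥(L0 A (M * q * q)) (FM A (M * q)) _ _ _
      (algL0 A (hleA q M)) Unit (fun _ => FM A (M * q)) _ (fun _ => algFrA A q M hq hqM hA)
      (nrA2 A q M B k hB hq hqM hA) i = V02o A q M B k hB := rfl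

theorem nrA2_red (i : Unit) :
    @H42.NRData.red ↥(L0 A (M * q)) ↥(L0 A (M * q * q)) (FM A (M * q)) _ _ _
      (algL0 A (hleA q M)) Unit (fun _ => FM A (M * q)) _ (fun _ => algFrA A q M hq hqM hA)
      (nrA2 A q M B k hB hq hqM hA) i = r02A A q M B k hB hq hqM hA := rfl

theorem nrA2_e (i : Unit) :
    @H42.NRData.e ↥(L0 A (M * q)) ↥(L0 A (M * q * q)) (FM A (M * q)) _ _ _
      (algL0 A (hleA q M)) Unit (fun _ => FM A (M * q)) _ (fun _ => algFrA A q M hq hqM hA)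
      (nrA2 A q M B k hB hq hqM hA) i = 1 := rfl

theorem nrA2_π (i : Unit) :
    @H42.NRData.π ↥(L0 A (M * q)) ↥(L0 A (M * q * q)) (FM A (M * q)) _ _ _
      (algL0 A (hleA q M)) Unit (fun _ => FM A (M * q)) _ (fun _ => algFrA A q M hq hqM hA)
      (nrA2 A q M B k hB hq hqM hA) i = ((q : ℕ) : ↥(L0 A (M * q * q))) :=
  map_natCast (inclL0 A (hleA q M)) q

/-- **`∑ e f = 1 · q = [L0 (M q²) : L0 (M q)]`**. -/
theorem nrA2_hdeg :
    ∑ i, @H42.NRData.e ↥(L0 A (M * q)) ↥(L0 A (M * q * q)) (FM A (M * q)) _ _ _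
          (algL0 A (hleA q M)) Unit (fun _ => FM A (M * q)) _
          (fun _ => algFrA A q M hq hqM hA) (nrA2 A q M B k hB hq hqM hA) i
        * @Module.finrank (FM A (M * q)) (FM A (M * q)) _ _
            (algFrA A q M hq hqM hA).toModule
      = @Module.finrank ↥(L0 A (M * q)) ↥(L0 A (M * q * q)) _ _
          (algL0 A (hleA q M)).toModule := by
  rw [Fintype.sum_unique, finrank_L0_A A q M hq, finrank_algFrA A q M hq hqM hA, nrA2_e,
    one_mul]

/-! ### NORM-RED along `α` above `V₂` -/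

include hqM in
/-- **NORM-RED along `α` above `V₂`**, in `k((t))`: for an inertia-fixed function `h` of level
`M q²` in `V₀₂`, the norm `N_α h` to `L0 (M q)` lies in `V₂` and
`red₂ (N_α h) = φ (red₀₂ h)`, `φ` the coefficientwise Frobenius. -/
theorem normA2 (h : ↥(L0 A (M * q * q))) (h02 : h ∈ V02o A q M B k hB) :
    ∃ δ : ↥(VE2 A q M B k hB hq),
      @Algebra.norm ↥(L0 A (M * q)) ↥(L0 A (M * q * q)) _ _ (algL0 A (hleA q M)) h
        = (δ : ↥(L0 A (M * q))) ∧
      ((rE2 A q M B k hB hq δ : F1 A q M) : LaurentSeries (kV A))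
        = @Fermat.Agent.BAD.H73.frobL (kV A) _ q ⟨hq⟩ (Fermat.Agent.BAD.H82.charP_kV A hq hA)
          (@Fermat.Agent.BAD.H73.perfectRing_kV _ _ _ A q ⟨hq⟩
            (Fermat.Agent.BAD.H82.charP_kV A hq hA)) (s02 A q M B k hB ⟨h, h02⟩) := by
  obtain ⟨δ, h1, h2⟩ := @H42.NRData.normRed ↥(L0 A (M * q)) ↥(L0 A (M * q * q)) (FM A (M * q))
    _ _ _ (algL0 A (hleA q M)) Unit (fun _ => FM A (M * q)) _
    (fun _ => algFrA A q M hq hqM hA)
    (fun _ => finite_algFrA A q M hq hqM hA) (nrA2 A q M B k hB hq hqM hA) _ _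
    (finite_L0_A A q M) (nrA2_hdeg A q M B k hB hq hqM hA) h (fun _ => h02)
  refine ⟨δ, h1, ?_⟩
  rw [Fintype.prod_unique] at h2
  have h3 : rE2 A q M B k hB hq δ
      = @Algebra.norm (FM A (M * q)) (FM A (M * q)) _ _ (algFrA A q M hq hqM hA)
          (r02A A q M B k hB hq hqM hA ⟨h, h02⟩) ^ 1 := h2
  rw [pow_one] at h3
  have h4 := congrArg (fun z : FM A (M * q) => (z : LaurentSeries (kV A))) h3
  exact h4.trans (coe_norm_algFrA A q M hq hqM hA _)

include hqM in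
/-- **NORM-RED along `α` above `V₂`**, for the norm of `F_{M q²} / F_{M q}`. -/
theorem normA2_F (h : ↥(L0 A (M * q * q))) (h02 : h ∈ V02o A q M B k hB) :
    ∃ hm : @Algebra.norm (FN (M * q)) (FN (M * q * q)) _ _ (algF (hleA q M))
        (h : FN (M * q * q)) ∈ V2 A q M k B (hab_of_hB q M B k hB) hq,
      ((red2 A q M k B (hab_of_hB q M B k hB) hq ⟨_, hm⟩ : F1 A q M) : LaurentSeries (kV A))
        = @Fermat.Agent.BAD.H73.frobL (kV A) _ q ⟨hq⟩ (Fermat.Agent.BAD.H82.charP_kV A hq hA)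
          (@Fermat.Agent.BAD.H73.perfectRing_kV _ _ _ A q ⟨hq⟩
            (Fermat.Agent.BAD.H82.charP_kV A hq hA)) (s02 A q M B k hB ⟨h, h02⟩) := by
  obtain ⟨δ, h1, h2⟩ := normA2 A q M B k hB hq hqM hA h h02
  have e : @Algebra.norm (FN (M * q)) (FN (M * q * q)) _ _ (algF (hleA q M))
      (h : FN (M * q * q)) = ((δ : ↥(L0 A (M * q))) : FN (M * q)) := by
    rw [norm_L0 A (hleA q M) (finite_FA q M) h, h1]
  have hm : @Algebra.norm (FN (M * q)) (FN (M * q * q)) _ _ (algF (hleA q M))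
      (h : FN (M * q * q)) ∈ V2 A q M k B (hab_of_hB q M B k hB) hq := by
    rw [e]; exact δ.2
  refine ⟨hm, ?_⟩
  rw [← h2]
  show ((red2 A q M k B (hab_of_hB q M B k hB) hq ⟨_, hm⟩ : F1 A q M) : LaurentSeries (kV A))
    = ((red2 A q M k B (hab_of_hB q M B k hB) hq ⟨((δ : ↥(L0 A (M * q))) : FN (M * q)), δ.2⟩ :
      F1 A q M) : LaurentSeries (kV A))
  congr 2
  exact Subtype.ext e

include hqM in
/-- **NORM-RED along `α` above `V₂`**, for `normAlongHom α`. -/
theorem normA2_N (h : ↥(L0 A (M * q * q))) (h02 : h ∈ V02o A q M B k hB) :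
    ∃ hm : Fermat.Agent.Lib.HeckeComm.normAlongHom (heckeAlphaBar Kbar (M * q) q).toRingHom
        (h : FN (M * q * q)) ∈ V2 A q M k B (hab_of_hB q M B k hB) hq,
      ((red2 A q M k B (hab_of_hB q M B k hB) hq ⟨_, hm⟩ : F1 A q M) : LaurentSeries (kV A))
        = @Fermat.Agent.BAD.H73.frobL (kV A) _ q ⟨hq⟩ (Fermat.Agent.BAD.H82.charP_kV A hq hA)
          (@Fermat.Agent.BAD.H73.perfectRing_kV _ _ _ A q ⟨hq⟩
            (Fermat.Agent.BAD.H82.charP_kV A hq hA)) (s02 A q M B k hB ⟨h, h02⟩) := by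
  obtain ⟨δ, h1, h2⟩ := normA2 A q M B k hB hq hqM hA h h02
  have e : Fermat.Agent.Lib.HeckeComm.normAlongHom (heckeAlphaBar Kbar (M * q) q).toRingHom
      (h : FN (M * q * q)) = ((δ : ↥(L0 A (M * q))) : FN (M * q)) := by
    rw [norm_algL0_A A q M h, h1]
  have hm : Fermat.Agent.Lib.HeckeComm.normAlongHom (heckeAlphaBar Kbar (M * q) q).toRingHom
      (h : FN (M * q * q)) ∈ V2 A q M k B (hab_of_hB q M B k hB) hq := by
    rw [e]; exact δ.2
  refine ⟨hm, ?_⟩
  rw [← h2]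
  show ((red2 A q M k B (hab_of_hB q M B k hB) hq ⟨_, hm⟩ : F1 A q M) : LaurentSeries (kV A))
    = ((red2 A q M k B (hab_of_hB q M B k hB) hq ⟨((δ : ↥(L0 A (M * q))) : FN (M * q)), δ.2⟩ :
      F1 A q M) : LaurentSeries (kV A))
  congr 2
  exact Subtype.ext e

end NrA2

end Fermat.Agent.S36.NU.H69
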