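import Fermat.Agent.S36.NU.H69_NrRes

/-!
# S36 / NU-MOD, leaf NM-B1 (helper69): the `NRData` of `L0 (M q²) / β L0 (M q)` above `V₁`

Level `M q²` over level `M q` along `β` (algebra `algB` = helper26's `H26.algL0Along` for
`heckeBetaBar Kbar (M q) q`), of degree `q`.  Above the Gauss valuation `V₁` of level `M q`
(`VE0 A (M q)`, uniformiser `q`, residue field `C' = FM A (M q)`) lies the single valuation
`V₂₀`, with `e = 1` and residue field `C'` over `C'` through `Fr` (`t ↦ t ^ q`), of degree `q`.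

* `nrB1 : NRData (L0 (M q)) (L0 (M q²)) C' Unit (fun _ => C')`, `nrB1_hdeg`;
* `normB1` : `red (N_β h) = φ (red₂₀ h)` in `k((t))` (`φ = frobL`, the coefficientwise
  Frobenius), `normB1_F` the same for `normAlongHom β`.
-/

set_option autoImplicit false
set_option synthInstance.maxHeartbeats 400000
set_option maxHeartbeats 1000000
set_option linter.style.haveILetI false
set_option linter.unusedSectionVars false

noncomputable section

open ModularCurve AlgebraicCurve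
open Fermat.Agent.S24 Fermat.Agent.BAD.H88 Fermat.Agent.S28 Fermat.Agent.S28.H73
open Fermat.Agent.RED.H73 Fermat.Agent.RED.H17 Fermat.Agent.S36.NU.H88
open Fermat.Agent.S36.NU.H23

namespace Fermat.Agent.S36.NU.H69

open Fermat.Agent.BAD

section NrB1

variable (A : ValuationSubring Kbar) (q M : ℕ) (B k : ℤ) (hB : B * M + k * q = 1) (hq : q.Prime)
  [NeZero M] [NeZero q] [NeZero (M * q)] [NeZero (M * q * q)]
  (hqM : ¬ q ∣ M) (hA : A.LiesOverPrime q)

/-- `β` maps `VE0 A (M q)` into `V20o`. -/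
theorem hVB1 (a : ↥(L0 A (M * q))) (ha : a ∈ VE0 A (M * q)) : bL0 A q M a ∈ V20o A q M :=
  (beta_mem_V20_iff A q M (a : FN (M * q))).2 ha

/-- `red₂₀ (β a) = Fr (red a)`. -/
theorem r20A_bL0 (a : ↥(VE0 A (M * q))) (h : bL0 A q M (a : ↥(L0 A (M * q))) ∈ V20o A q M) :
    Fermat.Agent.S36.NU.H87.r20A A q M hq hqM hA ⟨_, h⟩
      = FrA A q M hq hqM hA (rE A (M * q) a) := by
  apply Subtype.ext
  rw [coe_FrA, coe_rE, Fermat.Agent.S36.NU.H87.coe_r20A]
  exact red20_beta A q M ((a : ↥(L0 A (M * q))) : FN (M * q)) a.2 h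

/-- **NM-B1**: the `NRData` of `L0 (M q²) / L0 (M q)` along `β` above the Gauss valuation `V₁`
of level `M q`: `VE = VE0 A (M q)`, `ϖ = q`; the single valuation `V20o`, `red = r20A`,
`e = 1`; residue field `FM A (M q)` over itself through `Fr`. -/
def nrB1 :
    @H42.NRData ↥(L0 A (M * q)) ↥(L0 A (M * q * q)) (FM A (M * q)) _ _ _ (algB A q M)
      Unit (fun _ => FM A (M * q)) _ (fun _ => algFrA A q M hq hqM hA) :=
  @H42.nr1 ↥(L0 A (M * q)) ↥(L0 A (M * q * q)) (FM A (M * q)) (FM A (M * q)) _ _ _ _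
    (algB A q M) (algFrA A q M hq hqM hA)
    (VE0 A (M * q)) (rE A (M * q)) (V20o A q M)
    (Fermat.Agent.S36.NU.H87.r20A A q M hq hqM hA) (piE A q (M * q))
    (piE_ne_zero A q (M * q) hq) (piE_mem A q (M * q) hA) (rE_piE A q (M * q) hA)
    (hE_mod A q (M * q) hq hA)
    (fun a ha => hVB1 A q M a ha)
    (rE_eq_zero_of_not_isUnit A (M * q))
    (Fermat.Agent.S36.NU.H87.r20A_surjective A q M hq hqM hA)
    (Fermat.Agent.S36.NU.H87.r20A_eq_zero_of_not_isUnit A q M hq hqM hA)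
    (fun a ha => r20A_bL0 A q M hq hqM hA a ha)
    (isArch_resV0 _ _ (Fermat.Agent.S36.NU.H82.isArch_V20 A hq hA (M * q * q)))

/-! The fields, by `rfl`. -/

theorem nrB1_VE :
    @H42.NRData.VE ↥(L0 A (M * q)) ↥(L0 A (M * q * q)) (FM A (M * q)) _ _ _ (algB A q M)
      Unit (fun _ => FM A (M * q)) _ (fun _ => algFrA A q M hq hqM hA)
      (nrB1 A q M hq hqM hA) = VE0 A (M * q) := rfl

theorem nrB1_VE' :
    @H42.NRData.VE ↥(L0 A (M * q)) ↥(L0 A (M * q * q)) (FM A (M * q)) _ _ _ (algB A q M)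
      Unit (fun _ => FM A (M * q)) _ (fun _ => algFrA A q M hq hqM hA)
      (nrB1 A q M hq hqM hA) = resV0 (L0 A (M * q)) (V1 A q M) := rfl

theorem nrB1_redE :
    @H42.NRData.redE ↥(L0 A (M * q)) ↥(L0 A (M * q * q)) (FM A (M * q)) _ _ _ (algB A q M)
      Unit (fun _ => FM A (M * q)) _ (fun _ => algFrA A q M hq hqM hA)
      (nrB1 A q M hq hqM hA) = rE A (M * q) := rfl

theorem nrB1_ϖ :
    @H42.NRData.ϖ ↥(L0 A (M * q)) ↥(L0 A (M * q * q)) (FM A (M * q)) _ _ _ (algB A q M)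
      Unit (fun _ => FM A (M * q)) _ (fun _ => algFrA A q M hq hqM hA)
      (nrB1 A q M hq hqM hA) = piE A q (M * q) := rfl

theorem nrB1_ϖ_natCast :
    @H42.NRData.ϖ ↥(L0 A (M * q)) ↥(L0 A (M * q * q)) (FM A (M * q)) _ _ _ (algB A q M)
      Unit (fun _ => FM A (M * q)) _ (fun _ => algFrA A q M hq hqM hA)
      (nrB1 A q M hq hqM hA) = ((q : ℕ) : ↥(L0 A (M * q))) := rfl

theorem nrB1_V (i : Unit) :
    @H42.NRData.V ↥(L0 A (M * q)) ↥(L0 A (M * q * q)) (FM A (M * q)) _ _ _ (algB A q M)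
      Unit (fun _ => FM A (M * q)) _ (fun _ => algFrA A q M hq hqM hA)
      (nrB1 A q M hq hqM hA) i = V20o A q M := rfl

theorem nrB1_red (i : Unit) :
    @H42.NRData.red ↥(L0 A (M * q)) ↥(L0 A (M * q * q)) (FM A (M * q)) _ _ _ (algB A q M)
      Unit (fun _ => FM A (M * q)) _ (fun _ => algFrA A q M hq hqM hA)
      (nrB1 A q M hq hqM hA) i = Fermat.Agent.S36.NU.H87.r20A A q M hq hqM hA := rfl

theorem nrB1_e (i : Unit) :
    @H42.NRData.e ↥(L0 A (M * q)) ↥(L0 A (M * q * q)) (FM A (M * q)) _ _ _ (algB A q M)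
      Unit (fun _ => FM A (M * q)) _ (fun _ => algFrA A q M hq hqM hA)
      (nrB1 A q M hq hqM hA) i = 1 := rfl

theorem nrB1_π (i : Unit) :
    @H42.NRData.π ↥(L0 A (M * q)) ↥(L0 A (M * q * q)) (FM A (M * q)) _ _ _ (algB A q M)
      Unit (fun _ => FM A (M * q)) _ (fun _ => algFrA A q M hq hqM hA)
      (nrB1 A q M hq hqM hA) i = ((q : ℕ) : ↥(L0 A (M * q * q))) :=
  map_natCast (bL0 A q M) q

/-- **`∑ e f = 1 · q = [L0 (M q²) : β L0 (M q)]`**. -/
theorem nrB1_hdeg :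
    ∑ i, @H42.NRData.e ↥(L0 A (M * q)) ↥(L0 A (M * q * q)) (FM A (M * q)) _ _ _ (algB A q M)
          Unit (fun _ => FM A (M * q)) _ (fun _ => algFrA A q M hq hqM hA)
          (nrB1 A q M hq hqM hA) i
        * @Module.finrank (FM A (M * q)) (FM A (M * q)) _ _
            (algFrA A q M hq hqM hA).toModule
      = @Module.finrank ↥(L0 A (M * q)) ↥(L0 A (M * q * q)) _ _ (algB A q M).toModule := by
  rw [Fintype.sum_unique, finrank_algB A q M hq, finrank_algFrA A q M hq hqM hA, nrB1_e,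
    one_mul]

/-! ### NORM-RED along `β` above `V₁` -/

include hqM in
/-- **NORM-RED along `β` above `V₁`**, in `k((t))`: for an inertia-fixed function `h` of level
`M q²` in `V₂₀`, the norm `N_β h` to `L0 (M q)` is Gauss-integral and
`red (N_β h) = φ (red₂₀ h)`, `φ` the coefficientwise Frobenius. -/
theorem normB1 (h : ↥(L0 A (M * q * q))) (h20 : h ∈ V20o A q M) :
    ∃ δ : ↥(VE0 A (M * q)),
      @Algebra.norm ↥(L0 A (M * q)) ↥(L0 A (M * q * q)) _ _ (algB A q M) h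
        = (δ : ↥(L0 A (M * q))) ∧
      sE A (M * q) δ
        = @Fermat.Agent.BAD.H73.frobL (kV A) _ q ⟨hq⟩ (Fermat.Agent.BAD.H82.charP_kV A hq hA)
          (@Fermat.Agent.BAD.H73.perfectRing_kV _ _ _ A q ⟨hq⟩
            (Fermat.Agent.BAD.H82.charP_kV A hq hA)) (s20 A q M ⟨h, h20⟩) := by
  letI := algB A q M
  letI : ∀ _ : Unit, Algebra (FM A (M * q)) (FM A (M * q)) := fun _ => algFrA A q M hq hqM hA
  haveI : Module.Finite ↥(L0 A (M * q)) ↥(L0 A (M * q * q)) := finite_algB A q M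
  haveI : ∀ i : Unit, @Module.Finite (FM A (M * q)) (FM A (M * q)) _ _
      (algFrA A q M hq hqM hA).toModule := fun _ => finite_algFrA A q M hq hqM hA
  obtain ⟨δ, h1, h2⟩ := @H42.NRData.normRed ↥(L0 A (M * q)) ↥(L0 A (M * q * q)) (FM A (M * q))
    _ _ _ (algB A q M) Unit (fun _ => FM A (M * q)) _ (fun _ => algFrA A q M hq hqM hA)
    (fun _ => finite_algFrA A q M hq hqM hA) (nrB1 A q M hq hqM hA) _ _
    (finite_algB A q M) (nrB1_hdeg A q M hq hqM hA) h (fun _ => h20)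
  refine ⟨δ, h1, ?_⟩
  rw [Fintype.prod_unique] at h2
  have h3 : rE A (M * q) δ
      = @Algebra.norm (FM A (M * q)) (FM A (M * q)) _ _ (algFrA A q M hq hqM hA)
          (Fermat.Agent.S36.NU.H87.r20A A q M hq hqM hA ⟨h, h20⟩) ^ 1 := h2
  rw [pow_one] at h3
  have h4 := congrArg (fun z : FM A (M * q) => (z : LaurentSeries (kV A))) h3
  exact h4.trans (coe_norm_algFrA A q M hq hqM hA _)

include hqM in
/-- **NORM-RED along `β` above `V₁`**, for `normAlongHom β`. -/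
theorem normB1_F (h : ↥(L0 A (M * q * q))) (h20 : h ∈ V20o A q M) :
    ∃ hm : Fermat.Agent.Lib.HeckeComm.normAlongHom (heckeBetaBar Kbar (M * q) q).toRingHom
        (h : FN (M * q * q)) ∈ VM A (M * q),
      ((redM A (M * q) ⟨_, hm⟩ : FM A (M * q)) : LaurentSeries (kV A))
        = @Fermat.Agent.BAD.H73.frobL (kV A) _ q ⟨hq⟩ (Fermat.Agent.BAD.H82.charP_kV A hq hA)
          (@Fermat.Agent.BAD.H73.perfectRing_kV _ _ _ A q ⟨hq⟩
            (Fermat.Agent.BAD.H82.charP_kV A hq hA)) (s20 A q M ⟨h, h20⟩) := by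
  obtain ⟨δ, h1, h2⟩ := normB1 A q M hq hqM hA h h20
  have e : Fermat.Agent.Lib.HeckeComm.normAlongHom (heckeBetaBar Kbar (M * q) q).toRingHom
      (h : FN (M * q * q)) = ((δ : ↥(L0 A (M * q))) : FN (M * q)) := by
    rw [norm_algB A q M h, h1]
  have hm : Fermat.Agent.Lib.HeckeComm.normAlongHom (heckeBetaBar Kbar (M * q) q).toRingHom
      (h : FN (M * q * q)) ∈ VM A (M * q) := by
    rw [e]; exact δ.2
  refine ⟨hm, ?_⟩
  rw [← h2]
  show gaussRedV A ⟨_, hm⟩ = gaussRedV A ⟨_, δ.2⟩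
  congr 1
  exact Subtype.ext (congrArg (fun z : FN (M * q) => (z : LaurentSeries Kbar)) e)

end NrB1

end Fermat.Agent.S36.NU.H69
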