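import Fermat.Agent.S36.NU.H23_Mod3
import Fermat.Agent.S36.NU.H26_DivNormL0
import Fermat.Agent.BAD.H42_IntTower
import Fermat.Agent.NEB.Geom.H70_KU2

/-!
# S36 / NU-B, leaves NM-A2, NM-B1, NM-B2 (helper69): the common base

Level `M q²` over level `M q`, `q ∤ M`, `A` over `q`.  `E = L0 A (M q)`, `L = L0 A (M q²)` (the
inertia-fixed functions), with the two structures `algA` (along `α`) and `algB` (along `β`) of
helper26.

* `finrank_algA`, `finrank_algB : [L : E] = q`, `finite_algA`, `finite_algB`;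
* `VE1`, `VE2` : the two valuation rings of `E` (restrictions of `V₁`, `V₂ = V₁ ∘ w_q`), with
  residue maps `rE1`, `rE2` into `F₁ = F1 A q M`, uniformiser `piL = q`, discreteness `hE1`, `hE2`;
-/

set_option autoImplicit false
set_option synthInstance.maxHeartbeats 400000
set_option maxHeartbeats 1000000
set_option linter.style.haveILetI false
set_option linter.unusedSectionVars false

noncomputable section

open ModularCurve AlgebraicCurve
open Fermat.Agent.S24 Fermat.Agent.BAD.H88 Fermat.Agent.S28 Fermat.Agent.S28.H73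
open Fermat.Agent.RED.H73 Fermat.Agent.RED.H17 Fermat.Agent.S36.NU.H88
open Fermat.Agent.S36.NU.H23

namespace Fermat.Agent.S36.NU.H69

open Fermat.Agent.BAD

section Base

variable (A : ValuationSubring Kbar) (q M : ℕ) (B k : ℤ) (hB : B * M + k * q = 1) (hq : q.Prime)
  [NeZero M] [NeZero q] [NeZero (M * q)] [NeZero (M * q * q)]
  (hqM : ¬ q ∣ M) (hA : A.LiesOverPrime q)

/-! ### The two towers -/

/-- `α` on the inertia-fixed functions. -/
def aL0 : ↥(L0 A (M * q)) →+* ↥(L0 A (M * q * q)) :=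
  Fermat.Agent.S36.NU.H26.mapL0 A (heckeAlphaBar Kbar (M * q) q)
    (Fermat.Agent.S36.NU.H26.arithEquivariant_alpha (M * q) q)

/-- `β` on the inertia-fixed functions. -/
def bL0 : ↥(L0 A (M * q)) →+* ↥(L0 A (M * q * q)) :=
  Fermat.Agent.S36.NU.H26.mapL0 A (heckeBetaBar Kbar (M * q) q)
    (Fermat.Agent.S36.NU.H26.arithEquivariant_beta (M * q) q)

theorem coe_aL0 (x : ↥(L0 A (M * q))) :
    ((aL0 A q M x : ↥(L0 A (M * q * q))) : FN (M * q * q))
      = heckeAlphaBar Kbar (M * q) q (x : FN (M * q)) := rfl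

theorem coe_bL0 (x : ↥(L0 A (M * q))) :
    ((bL0 A q M x : ↥(L0 A (M * q * q))) : FN (M * q * q))
      = heckeBetaBar Kbar (M * q) q (x : FN (M * q)) := rfl

/-- `L0 (M q²)` over `L0 (M q)` along `α` (helper26's structure). -/
@[reducible] def algA : Algebra ↥(L0 A (M * q)) ↥(L0 A (M * q * q)) :=
  Fermat.Agent.S36.NU.H26.algL0Along A (heckeAlphaBar Kbar (M * q) q)
    (Fermat.Agent.S36.NU.H26.arithEquivariant_alpha (M * q) q)

/-- `L0 (M q²)` over `L0 (M q)` along `β` (helper26's structure). -/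
@[reducible] def algB : Algebra ↥(L0 A (M * q)) ↥(L0 A (M * q * q)) :=
  Fermat.Agent.S36.NU.H26.algL0Along A (heckeBetaBar Kbar (M * q) q)
    (Fermat.Agent.S36.NU.H26.arithEquivariant_beta (M * q) q)

theorem algebraMap_algA (x : ↥(L0 A (M * q))) :
    @algebraMap ↥(L0 A (M * q)) ↥(L0 A (M * q * q)) _ _ (algA A q M) x = aL0 A q M x := rfl

theorem algebraMap_algB (x : ↥(L0 A (M * q))) :
    @algebraMap ↥(L0 A (M * q)) ↥(L0 A (M * q * q)) _ _ (algB A q M) x = bL0 A q M x := rfl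

theorem finite_algA :
    @Module.Finite ↥(L0 A (M * q)) ↥(L0 A (M * q * q)) _ _ (algA A q M).toModule :=
  Fermat.Agent.S36.NU.H26.finite_L0_along A (heckeAlphaBar Kbar (M * q) q)
    (Fermat.Agent.S36.NU.H26.arithEquivariant_alpha (M * q) q)
    (Fermat.Agent.S36.H44.alpha_finite (M * q) q)

theorem finite_algB :
    @Module.Finite ↥(L0 A (M * q)) ↥(L0 A (M * q * q)) _ _ (algB A q M).toModule :=
  Fermat.Agent.S36.NU.H26.finite_L0_along A (heckeBetaBar Kbar (M * q) q)
    (Fermat.Agent.S36.NU.H26.arithEquivariant_beta (M * q) q)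
    (Fermat.Agent.S36.H44.beta_finite (M * q) q)

include hq in
/-- **`[L0 (M q²) : α L0 (M q)] = q`.** -/
theorem finrank_algA :
    @Module.finrank ↥(L0 A (M * q)) ↥(L0 A (M * q * q)) _ _ (algA A q M).toModule = q :=
  (Fermat.Agent.S36.NU.H26.finrank_L0_along A (heckeAlphaBar Kbar (M * q) q)
    (Fermat.Agent.S36.NU.H26.arithEquivariant_alpha (M * q) q)
    (Fermat.Agent.S36.H44.alpha_finite (M * q) q)).trans
    (Fermat.Agent.NEB.OLD.H6.finrankAlong_alpha_of_dvd (M * q) q hq (Dvd.intro_left M rfl))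

include hq in
/-- **`[L0 (M q²) : β L0 (M q)] = q`.** -/
theorem finrank_algB :
    @Module.finrank ↥(L0 A (M * q)) ↥(L0 A (M * q * q)) _ _ (algB A q M).toModule = q :=
  (Fermat.Agent.S36.NU.H26.finrank_L0_along A (heckeBetaBar Kbar (M * q) q)
    (Fermat.Agent.S36.NU.H26.arithEquivariant_beta (M * q) q)
    (Fermat.Agent.S36.H44.beta_finite (M * q) q)).trans
    (Fermat.Agent.NEB.Geom.H70.finrankAlong_beta_of_dvd (M * q) q hq (Dvd.intro_left M rfl))

/-- The norm along `α` of an inertia-fixed function. -/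
theorem norm_algA (g : ↥(L0 A (M * q * q))) :
    Fermat.Agent.Lib.HeckeComm.normAlongHom (heckeAlphaBar Kbar (M * q) q).toRingHom
        (g : FN (M * q * q))
      = ((@Algebra.norm ↥(L0 A (M * q)) ↥(L0 A (M * q * q)) _ _ (algA A q M) g :
          ↥(L0 A (M * q))) : FN (M * q)) :=
  Fermat.Agent.S36.NU.H26.norm_L0_along A (heckeAlphaBar Kbar (M * q) q)
    (Fermat.Agent.S36.NU.H26.arithEquivariant_alpha (M * q) q)
    (Fermat.Agent.S36.H44.alpha_finite (M * q) q) g

/-- The norm along `β` of an inertia-fixed function. -/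
theorem norm_algB (g : ↥(L0 A (M * q * q))) :
    Fermat.Agent.Lib.HeckeComm.normAlongHom (heckeBetaBar Kbar (M * q) q).toRingHom
        (g : FN (M * q * q))
      = ((@Algebra.norm ↥(L0 A (M * q)) ↥(L0 A (M * q * q)) _ _ (algB A q M) g :
          ↥(L0 A (M * q))) : FN (M * q)) :=
  Fermat.Agent.S36.NU.H26.norm_L0_along A (heckeBetaBar Kbar (M * q) q)
    (Fermat.Agent.S36.NU.H26.arithEquivariant_beta (M * q) q)
    (Fermat.Agent.S36.H44.beta_finite (M * q) q) g

/-! ### The two valuation rings of `L0 (M q)` -/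

/-- `V₁` on `L0 A (M q)`. -/
def VE1 : ValuationSubring ↥(L0 A (M * q)) := resV0 (L0 A (M * q)) (V1 A q M)

/-- `V₂ = V₁ ∘ w_q` on `L0 A (M q)`. -/
def VE2 : ValuationSubring ↥(L0 A (M * q)) :=
  resV0 (L0 A (M * q)) (V2 A q M k B (hab_of_hB q M B k hB) hq)

theorem mem_VE1_iff (x : ↥(L0 A (M * q))) : x ∈ VE1 A q M ↔ (x : FN (M * q)) ∈ V1 A q M :=
  Iff.rfl

theorem mem_VE2_iff (x : ↥(L0 A (M * q))) :
    x ∈ VE2 A q M B k hB hq ↔ wL q M B k hB hq (x : FN (M * q)) ∈ V1 A q M := Iff.rfl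

/-- The residue map of `VE1`. -/
def rE1 : ↥(VE1 A q M) →+* F1 A q M := resRed (L0 A (M * q)) (V1 A q M) (red1 A q M)

/-- The residue map of `VE2`. -/
def rE2 : ↥(VE2 A q M B k hB hq) →+* F1 A q M :=
  resRed (L0 A (M * q)) (V2 A q M k B (hab_of_hB q M B k hB) hq)
    (red2 A q M k B (hab_of_hB q M B k hB) hq)

theorem rE1_mk (x : ↥(L0 A (M * q))) (h : x ∈ VE1 A q M) :
    rE1 A q M ⟨x, h⟩ = red1 A q M ⟨(x : FN (M * q)), h⟩ := rfl

theorem rE2_mk (x : ↥(L0 A (M * q))) (h : x ∈ VE2 A q M B k hB hq) :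
    rE2 A q M B k hB hq ⟨x, h⟩ = red1 A q M ⟨wL q M B k hB hq (x : FN (M * q)), h⟩ := rfl

theorem rE1_eq_zero_of_not_isUnit (x : ↥(VE1 A q M)) (hx : ¬ IsUnit x) : rE1 A q M x = 0 :=
  resRed_eq_zero_of_not_isUnit (L0 A (M * q)) (V1 A q M) (red1 A q M)
    (red1_eq_zero_iff A q M) x hx

theorem rE2_eq_zero_of_not_isUnit (x : ↥(VE2 A q M B k hB hq)) (hx : ¬ IsUnit x) :
    rE2 A q M B k hB hq x = 0 :=
  resRed_eq_zero_of_not_isUnit (L0 A (M * q)) (V2 A q M k B (hab_of_hB q M B k hB) hq)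
    (red2 A q M k B (hab_of_hB q M B k hB) hq)
    (red2_eq_zero_iff A q M k B (hab_of_hB q M B k hB) hq) x hx

/-! ### The uniformiser `q` -/

/-- The uniformiser `q` of `VE1` and `VE2`. -/
def piL : ↥(L0 A (M * q)) := ((q : ℕ) : ↥(L0 A (M * q)))

theorem coe_piL : ((piL A q M : ↥(L0 A (M * q))) : FN (M * q)) = ((q : ℕ) : FN (M * q)) :=
  map_natCast (L0 A (M * q)).subtype q

include hq in
theorem piL_ne_zero : piL A q M ≠ 0 := by
  intro h
  have h1 : ((q : ℕ) : FN (M * q)) = 0 := by rw [← coe_piL A q M, h]; rfl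
  exact (Nat.cast_ne_zero (R := FN (M * q))).2 hq.ne_zero h1

theorem aL0_piL : aL0 A q M (piL A q M) = ((q : ℕ) : ↥(L0 A (M * q * q))) :=
  map_natCast (aL0 A q M) q

theorem bL0_piL : bL0 A q M (piL A q M) = ((q : ℕ) : ↥(L0 A (M * q * q))) :=
  map_natCast (bL0 A q M) q

include hA in
theorem val1_piL_lt_one : (VE1 A q M).valuation (piL A q M) < 1 := by
  rw [VE1, valuation_resV0_lt_one_iff, coe_piL]
  exact Fermat.Agent.S36.NU.H82.val20_natCast_lt_one A (M * q) hA

include hq hA in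
/-- `q` is a uniformiser of `VE1`. -/
theorem hE1 (a : ↥(L0 A (M * q))) (h : (VE1 A q M).valuation a < 1) :
    (VE1 A q M).valuation a ≤ (VE1 A q M).valuation (piL A q M) := by
  rw [VE1, valuation_resV0_le_iff, coe_piL]
  exact Fermat.Agent.S36.NU.H82.disc20 A (M * q) hq hA (a : FN (M * q)) a.2
    ((valuation_resV0_lt_one_iff _ _ a).1 h)

include hA in
theorem piL_mem1 : piL A q M ∈ VE1 A q M :=
  (ValuationSubring.valuation_le_one_iff _ _).1 (le_of_lt (val1_piL_lt_one A q M hA))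

include hA in
theorem rE1_piL : rE1 A q M ⟨piL A q M, piL_mem1 A q M hA⟩ = 0 := by
  apply rE1_eq_zero_of_not_isUnit
  intro hu
  have h1 := (ValuationSubring.valuation_eq_one_iff (VE1 A q M)
    ⟨piL A q M, piL_mem1 A q M hA⟩).1 hu
  exact (val1_piL_lt_one A q M hA).ne h1

/-- `w_q` preserves the inertia-fixed functions. -/
theorem wL_mem_L0 (x : FN (M * q)) (hx : x ∈ L0 A (M * q)) :
    wL q M B k hB hq x ∈ L0 A (M * q) := by
  intro σ hσ
  have h := wq_arith q M k B (hab_of_hB q M B k hB) hq σ x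
  rw [hx σ hσ] at h
  exact h.symm

theorem val2_le_iff (x y : FN (M * q)) :
    (V2 A q M k B (hab_of_hB q M B k hB) hq).valuation x
        ≤ (V2 A q M k B (hab_of_hB q M B k hB) hq).valuation y
      ↔ (V1 A q M).valuation (wL q M B k hB hq x)
          ≤ (V1 A q M).valuation (wL q M B k hB hq y) :=
  Fermat.Agent.S36.NU.H82.val_le_iff_of_mem_iff (V2 A q M k B (hab_of_hB q M B k hB) hq)
    (V1 A q M) ((wL q M B k hB hq : FN (M * q) ≃ₐ[Kbar] FN (M * q)) : FN (M * q) →+* FN (M * q))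
    (fun x => mem_V2_iff A q M k B (hab_of_hB q M B k hB) hq x) x y

theorem val2_lt_iff (x y : FN (M * q)) :
    (V2 A q M k B (hab_of_hB q M B k hB) hq).valuation x
        < (V2 A q M k B (hab_of_hB q M B k hB) hq).valuation y
      ↔ (V1 A q M).valuation (wL q M B k hB hq x)
          < (V1 A q M).valuation (wL q M B k hB hq y) := by
  rw [lt_iff_not_ge, lt_iff_not_ge, val2_le_iff]

include hA in
theorem val2_natCast_lt_one :
    (V2 A q M k B (hab_of_hB q M B k hB) hq).valuation ((q : ℕ) : FN (M * q)) < 1 := by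
  have h := (val2_lt_iff A q M B k hB hq ((q : ℕ) : FN (M * q)) 1).2
    (by rw [map_natCast, map_one, map_one]
        exact Fermat.Agent.S36.NU.H82.val20_natCast_lt_one A (M * q) hA)
  rwa [map_one] at h

include hA in
/-- **`q` is a uniformiser of `V₂ ∩ L0`.** -/
theorem disc2 (x : FN (M * q)) (hx : x ∈ L0 A (M * q))
    (hlt : (V2 A q M k B (hab_of_hB q M B k hB) hq).valuation x < 1) :
    (V2 A q M k B (hab_of_hB q M B k hB) hq).valuation x
      ≤ (V2 A q M k B (hab_of_hB q M B k hB) hq).valuation ((q : ℕ) : FN (M * q)) := by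
  rw [val2_le_iff A q M B k hB hq, map_natCast]
  have h1 : (V1 A q M).valuation (wL q M B k hB hq x) < 1 := by
    have h := (val2_lt_iff A q M B k hB hq x 1).1 (by rwa [map_one])
    rwa [map_one, map_one] at h
  exact Fermat.Agent.S36.NU.H82.disc20 A (M * q) hq hA _ (wL_mem_L0 A q M B k hB hq x hx) h1

include hA in
theorem val2_piL_lt_one : (VE2 A q M B k hB hq).valuation (piL A q M) < 1 := by
  rw [VE2, valuation_resV0_lt_one_iff, coe_piL]
  exact val2_natCast_lt_one A q M B k hB hq hA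

include hA in
/-- `q` is a uniformiser of `VE2`. -/
theorem hE2 (a : ↥(L0 A (M * q))) (h : (VE2 A q M B k hB hq).valuation a < 1) :
    (VE2 A q M B k hB hq).valuation a ≤ (VE2 A q M B k hB hq).valuation (piL A q M) := by
  rw [VE2, valuation_resV0_le_iff, coe_piL]
  exact disc2 A q M B k hB hq hA (a : FN (M * q)) a.2
    ((valuation_resV0_lt_one_iff _ _ a).1 h)

include hA in
theorem piL_mem2 : piL A q M ∈ VE2 A q M B k hB hq :=
  (ValuationSubring.valuation_le_one_iff _ _).1 (le_of_lt (val2_piL_lt_one A q M B k hB hq hA))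

include hA in
theorem rE2_piL : rE2 A q M B k hB hq ⟨piL A q M, piL_mem2 A q M B k hB hq hA⟩ = 0 := by
  apply rE2_eq_zero_of_not_isUnit
  intro hu
  have h1 := (ValuationSubring.valuation_eq_one_iff (VE2 A q M B k hB hq)
    ⟨piL A q M, piL_mem2 A q M B k hB hq hA⟩).1 hu
  exact (val2_piL_lt_one A q M B k hB hq hA).ne h1

end Base

end Fermat.Agent.S36.NU.H69
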