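import Fermat.Agent.S36.NU.H69_NrBase
import Fermat.Agent.S36.NU.H87_NrA1

/-!
# S36 / NU-B, leaves NM-A2, NM-B1 (helper69): the residue field of level `M q` and `Fr`

`C' = FM A (M q)` the residue field of level `M q` (`= fullC k M`, helper87's `FMq_eq`; this is
helper87's choice of `Et = κ` in `nrA1`, and it is `F1 A q M` up to proof irrelevance).

* `FrA : C' →ₐ[k] C'` (`t ↦ t ^ q`), `phiA : C' ≃+* C'` (the coefficientwise Frobenius);
* `algFrA` : the structure `Fr` of `C'` over `C'`, `finrank_algFrA : [C' : C']_Fr = q`,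
  `norm_algFrA : N x = φ x`, `coe_norm_algFrA` (in `k((t))`: `frobL`);
* `r02A : V02o → C'`, the residue map of `V₀₂` on the inertia-fixed functions.
-/

set_option autoImplicit false
set_option synthInstance.maxHeartbeats 400000
set_option maxHeartbeats 1000000
set_option linter.style.haveILetI false
set_option linter.unusedSectionVars false

noncomputable section

open ModularCurve AlgebraicCurve
open Fermat.Agent.S24 Fermat.Agent.BAD.H88 Fermat.Agent.S28 Fermat.Agent.S28.H73
open Fermat.Agent.RED.H73 Fermat.Agent.RED.H17 Fermat.Agent.S36.NU.H88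
open Fermat.Agent.S36.NU.H23

namespace Fermat.Agent.S36.NU.H69

open Fermat.Agent.BAD

section Res

variable (A : ValuationSubring Kbar) (q M : ℕ) (B k : ℤ) (hB : B * M + k * q = 1) (hq : q.Prime)
  [NeZero M] [NeZero q] [NeZero (M * q)] [NeZero (M * q * q)]
  (hqM : ¬ q ∣ M) (hA : A.LiesOverPrime q)

/-! ### `Fr` on the residue field of level `M q` -/

include hq hqM hA in
/-- The residue field of level `M q` is stable under the coefficientwise Frobenius. -/
theorem frobStable_FMq :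
    @Fermat.Agent.BAD.H73.FrobStable (kV A) _ q ⟨hq⟩ (Fermat.Agent.BAD.H82.charP_kV A hq hA)
      (@Fermat.Agent.BAD.H73.perfectRing_kV _ _ _ A q ⟨hq⟩
        (Fermat.Agent.BAD.H82.charP_kV A hq hA))
      (redField A (modularFunctionFieldBar (M * q)) (hScM A (M * q))) := by
  rw [Fermat.Agent.S36.NU.H87.FMq_eq A q M hq hqM hA]
  exact @Fermat.Agent.BAD.H73.frobStable_fullC (kV A) _ q ⟨hq⟩
    (Fermat.Agent.BAD.H82.charP_kV A hq hA)
    (@Fermat.Agent.BAD.H73.perfectRing_kV _ _ _ A q ⟨hq⟩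
      (Fermat.Agent.BAD.H82.charP_kV A hq hA)) M

/-- `Fr : t ↦ t ^ q` on the residue field of level `M q`. -/
def FrA : FM A (M * q) →ₐ[kV A] FM A (M * q) :=
  @Fermat.Agent.BAD.H73.FrE (kV A) _ q ⟨hq⟩ (Fermat.Agent.BAD.H82.charP_kV A hq hA)
    (@Fermat.Agent.BAD.H73.perfectRing_kV _ _ _ A q ⟨hq⟩
      (Fermat.Agent.BAD.H82.charP_kV A hq hA)) _ (frobStable_FMq A q M hq hqM hA)

/-- The coefficientwise Frobenius `φ` on the residue field of level `M q`. -/
def phiA : FM A (M * q) ≃+* FM A (M * q) :=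
  @Fermat.Agent.BAD.H73.frobE (kV A) _ q ⟨hq⟩ (Fermat.Agent.BAD.H82.charP_kV A hq hA)
    (@Fermat.Agent.BAD.H73.perfectRing_kV _ _ _ A q ⟨hq⟩
      (Fermat.Agent.BAD.H82.charP_kV A hq hA)) _ (frobStable_FMq A q M hq hqM hA)

theorem coe_FrA (g : FM A (M * q)) :
    ((FrA A q M hq hqM hA g : FM A (M * q)) : LaurentSeries (kV A))
      = qExpand (kV A) q (g : LaurentSeries (kV A)) := rfl

theorem coe_phiA (g : FM A (M * q)) :
    ((phiA A q M hq hqM hA g : FM A (M * q)) : LaurentSeries (kV A))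
      = @Fermat.Agent.BAD.H73.frobL (kV A) _ q ⟨hq⟩ (Fermat.Agent.BAD.H82.charP_kV A hq hA)
          (@Fermat.Agent.BAD.H73.perfectRing_kV _ _ _ A q ⟨hq⟩
            (Fermat.Agent.BAD.H82.charP_kV A hq hA)) (g : LaurentSeries (kV A)) := rfl

/-- The structure `Fr` of the residue field of level `M q` over itself. -/
@[reducible] def algFrA : Algebra (FM A (M * q)) (FM A (M * q)) :=
  (FrA A q M hq hqM hA).toRingHom.toAlgebra

theorem algebraMap_algFrA (y : FM A (M * q)) :
    @algebraMap (FM A (M * q)) (FM A (M * q)) _ _ (algFrA A q M hq hqM hA) y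
      = FrA A q M hq hqM hA y := rfl

include hq hqM hA in
theorem jqModC_mem_FMq :
    jqModC (kV A) ∈ redField A (modularFunctionFieldBar (M * q)) (hScM A (M * q)) := by
  rw [Fermat.Agent.S36.NU.H87.FMq_eq A q M hq hqM hA]
  exact jqModC_mem_full (kV A) M

include hq hqM hA in
theorem isSeparable_FMq :
    ∀ y ∈ redField A (modularFunctionFieldBar (M * q)) (hScM A (M * q)),
      IsSeparable ↥(IntermediateField.adjoin (kV A)
        ({jqModC (kV A)} : Set (LaurentSeries (kV A)))) y := by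
  have : IsAlgClosed (kV A) := isAlgClosed_kV A
  have : Infinite (kV A) := IsAlgClosed.instInfinite
  intro y hy
  rw [Fermat.Agent.S36.NU.H87.FMq_eq A q M hq hqM hA] at hy
  exact isSeparable_fullC_red A (inv_natCast_mem_of_liesOver A M hq hqM hA) (caDataBar M) hy

theorem coeff_jqMq :
    ((⟨jqModC (kV A), jqModC_mem_FMq A q M hq hqM hA⟩ : FM A (M * q)) :
      LaurentSeries (kV A)).coeff (-1) ≠ 0 := by
  show (jqModC (kV A)).coeff (-1) ≠ 0
  rw [coeff_jqModC_neg_one]
  exact one_ne_zero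

/-- **`[C' : C'] = q`** for the structure `Fr`. -/
theorem finrank_algFrA :
    @Module.finrank (FM A (M * q)) (FM A (M * q)) _ _ (algFrA A q M hq hqM hA).toModule = q :=
  @Fermat.Agent.BAD.H73.finrank_of_Fr (kV A) _ q ⟨hq⟩ (Fermat.Agent.BAD.H82.charP_kV A hq hA)
    (@Fermat.Agent.BAD.H73.perfectRing_kV _ _ _ A q ⟨hq⟩
      (Fermat.Agent.BAD.H82.charP_kV A hq hA)) _ (frobStable_FMq A q M hq hqM hA)
    (FM A (M * q)) _ (algFrA A q M hq hqM hA) (RingEquiv.refl _) (fun _ => rfl)
    ⟨jqModC (kV A), jqModC_mem_FMq A q M hq hqM hA⟩ (-1) (not_dvd_neg_one q hq)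
    (coeff_jqMq A q M hq hqM hA) (isSeparable_FMq A q M hq hqM hA)

theorem finite_algFrA :
    @Module.Finite (FM A (M * q)) (FM A (M * q)) _ _ (algFrA A q M hq hqM hA).toModule :=
  @Module.finite_of_finrank_pos (FM A (M * q)) (FM A (M * q)) _ _
    (algFrA A q M hq hqM hA).toModule
    (@Module.Free.of_divisionRing (FM A (M * q)) (FM A (M * q)) _ _
      (algFrA A q M hq hqM hA).toModule) _
    (by rw [finrank_algFrA A q M hq hqM hA]; exact hq.pos)

/-- **`N x = φ x`** for the structure `Fr`. -/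
theorem norm_algFrA (x : FM A (M * q)) :
    @Algebra.norm (FM A (M * q)) (FM A (M * q)) _ _ (algFrA A q M hq hqM hA) x
      = phiA A q M hq hqM hA x :=
  @Fermat.Agent.BAD.H73.norm_of_Fr (kV A) _ q ⟨hq⟩ (Fermat.Agent.BAD.H82.charP_kV A hq hA)
    (@Fermat.Agent.BAD.H73.perfectRing_kV _ _ _ A q ⟨hq⟩
      (Fermat.Agent.BAD.H82.charP_kV A hq hA)) _ (frobStable_FMq A q M hq hqM hA)
    (FM A (M * q)) _ (algFrA A q M hq hqM hA) (RingEquiv.refl _) (fun _ => rfl)
    (finrank_algFrA A q M hq hqM hA) x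

/-- `N x = φ x` in `k((t))`. -/
theorem coe_norm_algFrA (x : FM A (M * q)) :
    ((@Algebra.norm (FM A (M * q)) (FM A (M * q)) _ _ (algFrA A q M hq hqM hA) x :
        FM A (M * q)) : LaurentSeries (kV A))
      = @Fermat.Agent.BAD.H73.frobL (kV A) _ q ⟨hq⟩ (Fermat.Agent.BAD.H82.charP_kV A hq hA)
          (@Fermat.Agent.BAD.H73.perfectRing_kV _ _ _ A q ⟨hq⟩
            (Fermat.Agent.BAD.H82.charP_kV A hq hA)) (x : LaurentSeries (kV A)) := by
  rw [norm_algFrA A q M hq hqM hA x]
  rfl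

/-! ### The residue map of `V02o` into the residue field of level `M q` -/

include hq hqM hA in
theorem s02_memA (x : ↥(V02o A q M B k hB)) :
    s02 A q M B k hB x ∈ redField A (modularFunctionFieldBar (M * q)) (hScM A (M * q)) := by
  rw [Fermat.Agent.S36.NU.H87.FMq_eq A q M hq hqM hA]
  exact s02_mem A q M B k hB hq hqM hA x

/-- The residue map of `V02o`, into the residue field of level `M q`. -/
def r02A : ↥(V02o A q M B k hB) →+* FM A (M * q) where
  toFun x := ⟨s02 A q M B k hB x, s02_memA A q M B k hB hq hqM hA x⟩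
  map_one' := Subtype.ext (map_one (s02 A q M B k hB))
  map_mul' x y := Subtype.ext (map_mul (s02 A q M B k hB) x y)
  map_zero' := Subtype.ext (map_zero (s02 A q M B k hB))
  map_add' x y := Subtype.ext (map_add (s02 A q M B k hB) x y)

theorem coe_r02A (x : ↥(V02o A q M B k hB)) :
    ((r02A A q M B k hB hq hqM hA x : FM A (M * q)) : LaurentSeries (kV A))
      = s02 A q M B k hB x := rfl

theorem r02A_eq_zero_of_not_isUnit (x : ↥(V02o A q M B k hB)) (hx : ¬ IsUnit x) :
    r02A A q M B k hB hq hqM hA x = 0 := by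
  apply Subtype.ext
  rw [coe_r02A, s02_eq_zero_of_not_isUnit A q M B k hB x hx]
  rfl

include hq hqM hA in
theorem r02A_surjective : Function.Surjective (r02A A q M B k hB hq hqM hA) := by
  intro y
  have hy : (y : LaurentSeries (kV A)) ∈ redField A (modularFunctionFieldBar M) (hScM A M) := by
    rw [FM_eq A q M hq hqM hA, ← Fermat.Agent.S36.NU.H87.FMq_eq A q M hq hqM hA]
    exact y.2
  obtain ⟨x, hx⟩ := r02_surjective A q M B k hB hq hqM hA ⟨_, hy⟩
  refine ⟨x, Subtype.ext ?_⟩
  rw [coe_r02A, ← coe_r02 A q M B k hB hq hqM hA x, hx]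

end Res

end Fermat.Agent.S36.NU.H69
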