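import Fermat.Agent.S36.NU.H73_GPole
import Fermat.Agent.S36.NU.H73_UnitTheta
import Fermat.Agent.RED.H51_Det

/-!
# `ū = Δ̄(t)/Δ̄(t⁴)` is a local coordinate at every non-cuspidal point (S36 / NU-B / COORD, step 3;
helper73)

`E ⊆ k((t))` a function field in characteristic `q ≥ 5` with a `q`-basis, `z` a place of degree
one, `j̄, v̄ = Δ̄/Δ̄₂, v̄₂ = Δ̄₂/Δ̄₄ ∈ E`.

* `ord_eq_zero_of_cube` : UNIT: `(x + a)³ = y x²`, `y ∈ O_z`, `a ≠ 0`  ⇒  `ord_z x = 0`
  (applied to `(v̄ + 256)³ = j̄ v̄²` and `(v̄₂ + 256)³ = j̄₂ v̄₂²`, `j̄₂ = (v̄ + 16)³ / v̄`).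
* `theta_ord_exact` : DIFF, exact form: `ord_z (f - c) = e`, `q ∤ e`, `θ f = g θ π`
  ⇒  `ord_z g = e - 1`.
* `coord_u4` : **COORD**: if `ord_z (j̄ - j₀) = e` with `e = 1` (`j₀ ≠ 0, 1728`), `e = 3`
  (`j₀ = 0`), `e = 2` (`j₀ = 1728`) (RAM), then `ord_z (ū - c) = 1` for some `c ∈ k`.
  Proof: `(θ ū)¹² j̄⁸ (j̄ - 1728)⁶ = 3¹² v̄⁶ v̄₂¹⁶ (θ j̄)¹²` (`thetaL_ubar_pow`), so with
  `θ ū = g_u θ π`, `θ j̄ = g_j θ π`: `12 ord g_u + 8 ord j̄ + 6 ord (j̄ - 1728) = 12 (e - 1)`,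
  i.e. `ord g_u = 0` in all three cases.
-/

set_option autoImplicit false

noncomputable section

open ModularCurve AlgebraicCurve IntermediateField Polynomial

namespace Fermat.Agent.S36.NU.H73

open Fermat.Agent.RED.H51 Fermat.Agent.BAD.H21

section Coord

variable {k : Type*} [Field k] {q : ℕ} [Fact q.Prime] [CharP k q]
variable {E : IntermediateField k (LaurentSeries k)}

omit [Fact q.Prime] in
theorem natCast_eq_algebraMap_E (n : ℕ) : ((n : ℕ) : ↥E) = algebraMap k ↥E (n : k) := by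
  rw [map_natCast]

omit [Fact q.Prime] in
theorem natCast_ne_zero_E {n : ℕ} (hn : ¬ q ∣ n) : ((n : ℕ) : ↥E) ≠ 0 := by
  rw [natCast_eq_algebraMap_E, Ne, map_eq_zero, CharP.cast_eq_zero_iff k q]
  exact hn

omit [Fact q.Prime] [CharP k q] in
theorem ord_natCast_E (z : Place k ↥E) (n : ℕ) : z.ord ((n : ℕ) : ↥E) = 0 := by
  rw [natCast_eq_algebraMap_E]
  exact ord_algebraMap z _

omit [Fact q.Prime] [CharP k q] in
/-- **UNIT**: `(x + a)³ = y x²` with `y` regular at `z` and `a ≠ 0` forces `ord_z x = 0`. -/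
theorem ord_eq_zero_of_cube (z : Place k ↥E) {x y : ↥E} {a : k} (ha : a ≠ 0)
    (hy : y ∈ z.toValuationSubring) (h : (x + algebraMap k ↥E a) ^ 3 = y * x ^ 2) :
    x ≠ 0 ∧ z.ord x = 0 := by
  have hA : algebraMap k ↥E a ≠ 0 := by
    rw [Ne, map_eq_zero]; exact ha
  have hA0 : z.ord (algebraMap k ↥E a) = 0 := ord_algebraMap z a
  have hx : x ≠ 0 := by
    rintro rfl
    rw [zero_add, zero_pow (by norm_num), mul_zero] at h
    exact hA (pow_eq_zero_iff (by norm_num) |>.mp h)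
  refine ⟨hx, ?_⟩
  rcases eq_or_ne y 0 with rfl | hy0
  · rw [zero_mul] at h
    have h1 : x + algebraMap k ↥E a = 0 := pow_eq_zero_iff (by norm_num) |>.mp h
    have h2 : x = -algebraMap k ↥E a := eq_neg_of_add_eq_zero_left h1
    rw [h2, ord_neg, hA0]
  have hy1 : 0 ≤ z.ord y := (mem_iff_ord_nonneg z hy0).mp hy
  rcases lt_trichotomy (z.ord x) 0 with hneg | h0 | hpos
  · exfalso
    have h1 := ord_add_eq z hx (g := algebraMap k ↥E a)
      (Or.inr (by rw [hA0]; omega))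
    have h2 := congrArg z.ord h
    rw [ord_pow, h1.2, z.ord_mul hy0 (pow_ne_zero 2 hx), ord_pow] at h2
    push_cast at h2
    omega
  · exact h0
  · exfalso
    have h1 := ord_add_eq' z hA (g := x) (Or.inr (by rw [hA0]; omega))
    have h2 := congrArg z.ord h
    rw [ord_pow, h1.2, hA0, z.ord_mul hy0 (pow_ne_zero 2 hx), ord_pow] at h2
    push_cast at h2
    omega

omit [Fact q.Prime] [CharP k q] in
theorem mem_and_inv_mem_of_ord (z : Place k ↥E) {x : ↥E} (hx : x ≠ 0) (h : z.ord x = 0) :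
    x ∈ z.toValuationSubring ∧ x⁻¹ ∈ z.toValuationSubring := by
  constructor
  · rw [mem_iff_ord_nonneg z hx, h]
  · rw [mem_iff_ord_nonneg z (inv_ne_zero hx), z.ord_inv, h]
    simp

omit [Fact q.Prime] [CharP k q] in
theorem coe_injective_E {a b : ↥E} (h : (a : LaurentSeries k) = (b : LaurentSeries k)) : a = b :=
  Subtype.ext h

omit [Fact q.Prime] [CharP k q] in
/-- Uniqueness of `g` in `θ f = g θ π`. -/
theorem theta_unique {π g g' : ↥E} (hθπ : thetaL (π : LaurentSeries k) ≠ 0)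
    (h : (g : LaurentSeries k) * thetaL (π : LaurentSeries k)
      = (g' : LaurentSeries k) * thetaL (π : LaurentSeries k)) : g = g' :=
  Subtype.ext (mul_right_cancel₀ hθπ h)

/-- **DIFF, exact form**: if `ord_z (f - c) = e` with `q ∤ e` and `θ f = g θ π` then
`ord_z g = e - 1`. -/
theorem theta_ord_exact (hPB : HasPBasis q ↥E) (z : Place k ↥E) {π : ↥E} (hπ : z.ord π = 1)
    (hθπ : thetaL (π : LaurentSeries k) ≠ 0) {f : ↥E} (c : k) (e : ℕ)
    (hfc : f - algebraMap k ↥E c ≠ 0) (he : z.ord (f - algebraMap k ↥E c) = e)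
    (hqe : ¬ q ∣ e) {g : ↥E}
    (hg : thetaL (f : LaurentSeries k) = (g : LaurentSeries k) * thetaL (π : LaurentSeries k)) :
    g ≠ 0 ∧ z.ord g = (e : ℤ) - 1 := by
  have hπ0 : π ≠ 0 := by
    rintro rfl
    rw [z.ord_zero] at hπ
    exact zero_ne_one hπ
  have he0 : e ≠ 0 := by
    rintro rfl
    exact hqe (dvd_zero q)
  set f' : ↥E := f - algebraMap k ↥E c with hf'
  set w : ↥E := f' * (π ^ e)⁻¹ with hw
  have hw0 : w ≠ 0 := mul_ne_zero hfc (inv_ne_zero (pow_ne_zero e hπ0))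
  have hword : z.ord w = 0 := by
    rw [hw, z.ord_mul hfc (inv_ne_zero (pow_ne_zero e hπ0)), z.ord_inv, ord_pow, hπ, mul_one, he]
    omega
  have hwO : w ∈ z.toValuationSubring := by
    rw [mem_iff_ord_nonneg z hw0, hword]
  obtain ⟨gw, hgw, hθw⟩ := theta_mem hPB z hπ hwO
  have hfw : f' = π ^ e * w := by
    rw [hw]
    field_simp
  have hθf : thetaL (f : LaurentSeries k) = thetaL (f' : LaurentSeries k) := by
    rw [hf', coeE_sub, map_sub,
      show ((algebraMap k ↥E c : ↥E) : LaurentSeries k) = algebraMap k (LaurentSeries k) c from rfl,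
      thetaL_algebraMap, sub_zero]
  set T1 : ↥E := (e : ↥E) * π ^ (e - 1) * w with hT1
  set T2 : ↥E := π ^ e * gw with hT2
  have h1 : (f' : LaurentSeries k) = (π : LaurentSeries k) ^ e * (w : LaurentSeries k) := by
    conv_lhs => rw [hfw]
    rfl
  have h2 : ((T1 + T2 : ↥E) : LaurentSeries k) =
      (e : LaurentSeries k) * (π : LaurentSeries k) ^ (e - 1) * (w : LaurentSeries k) +
        (π : LaurentSeries k) ^ e * (gw : LaurentSeries k) := by
    rw [IntermediateField.coe_add, hT1, hT2, IntermediateField.coe_mul, IntermediateField.coe_mul,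
      IntermediateField.coe_mul E (π ^ e) gw, IntermediateField.coe_pow,
      IntermediateField.coe_pow]
    rfl
  have hgT : g = T1 + T2 := by
    refine theta_unique hθπ ?_
    rw [← hg, hθf, h2, h1, thetaL_mul, thetaL_pow, hθw]
    ring
  have hT1ne : T1 ≠ 0 :=
    mul_ne_zero (mul_ne_zero (natCast_ne_zero_E hqe) (pow_ne_zero _ hπ0)) hw0
  have hT1ord : z.ord T1 = (e : ℤ) - 1 := by
    rw [hT1, z.ord_mul (mul_ne_zero (natCast_ne_zero_E hqe) (pow_ne_zero _ hπ0)) hw0,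
      z.ord_mul (natCast_ne_zero_E hqe) (pow_ne_zero _ hπ0), ord_natCast_E, ord_pow, hπ, hword,
      Nat.cast_sub (Nat.one_le_iff_ne_zero.mpr he0)]
    simp
  have hT2ord : OrdGe z (z.ord T1 + 1) T2 := by
    rw [hT1ord]
    have hπe : OrdGe z (e : ℤ) (π ^ e) := Or.inr (by rw [ord_pow, hπ, mul_one])
    have := hπe.mul ((ordGe_zero_iff_mem z _).mpr hgw)
    exact this.mono (by omega)
  have := ord_add_eq z hT1ne hT2ord
  rw [hgT]
  exact ⟨this.1, this.2.trans hT1ord⟩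

omit [Fact q.Prime] [CharP k q] in
theorem coe_algebraMap_ofNat (n : ℕ) [n.AtLeastTwo] :
    ((algebraMap k ↥E (OfNat.ofNat n) : ↥E) : LaurentSeries k) = OfNat.ofNat n := by
  show algebraMap k (LaurentSeries k) (OfNat.ofNat n) = OfNat.ofNat n
  rw [map_ofNat]

omit [Fact q.Prime] in
theorem two_ne_zero_of_five_le (h5 : 5 ≤ q) : (2 : k) ≠ 0 := by
  have h : ¬ q ∣ 2 := fun hd => by
    have := Nat.le_of_dvd (by norm_num) hd
    omega
  have := (CharP.cast_eq_zero_iff k q 2).not.mpr h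
  simpa using this

omit [Fact q.Prime] in
theorem three_ne_zero_of_five_le (h5 : 5 ≤ q) : (3 : k) ≠ 0 := by
  have h : ¬ q ∣ 3 := fun hd => by
    have := Nat.le_of_dvd (by norm_num) hd
    omega
  have := (CharP.cast_eq_zero_iff k q 3).not.mpr h
  simpa using this

/-- **UNIT at level 4**: `v̄ = Δ̄/Δ̄₂` and `v̄₂ = Δ̄₂/Δ̄₄` are units at every place at which `j̄` is
regular (characteristic `≠ 2`). -/
theorem unit_v (z : Place k ↥E) (h2 : (2 : k) ≠ 0)
    {jE vE v2E : ↥E} (hj : (jE : LaurentSeries k) = jqModC k)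
    (hv : (vE : LaurentSeries k) = vbar k) (hv2 : (v2E : LaurentSeries k) = vbar2 k)
    (hjO : jE ∈ z.toValuationSubring) :
    (vE ≠ 0 ∧ z.ord vE = 0) ∧ (v2E ≠ 0 ∧ z.ord v2E = 0) := by
  have h256 : (256 : k) ≠ 0 := by
    rw [show (256 : k) = 2 ^ 8 by norm_num]
    exact pow_ne_zero _ h2
  have hvid : (vE + algebraMap k ↥E 256) ^ 3 = jE * vE ^ 2 := by
    apply Subtype.ext
    rw [IntermediateField.coe_pow, IntermediateField.coe_add, IntermediateField.coe_mul,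
      IntermediateField.coe_pow, coe_algebraMap_ofNat, hv, hj]
    exact vbar_ident k
  have hvU := ord_eq_zero_of_cube z h256 hjO hvid
  refine ⟨hvU, ?_⟩
  have hvO := mem_and_inv_mem_of_ord z hvU.1 hvU.2
  have hv0 : vbar k ≠ 0 := by
    rw [← hv]
    intro h0
    exact hvU.1 (Subtype.ext h0)
  have hj2O : (vE + algebraMap k ↥E 16) ^ 3 * vE⁻¹ ∈ z.toValuationSubring :=
    mul_mem (pow_mem (add_mem hvO.1 (z.algebraMap_mem' _)) 3) hvO.2
  have hj2 : (((vE + algebraMap k ↥E 16) ^ 3 * vE⁻¹ : ↥E) : LaurentSeries k)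
      = qExpand k 2 (jqModC k) := by
    rw [IntermediateField.coe_mul, IntermediateField.coe_pow, IntermediateField.coe_add,
      IntermediateField.coe_inv, coe_algebraMap_ofNat, hv, vbar_ident', mul_assoc,
      mul_inv_cancel₀ hv0, mul_one]
  have hv2id : (v2E + algebraMap k ↥E 256) ^ 3 = ((vE + algebraMap k ↥E 16) ^ 3 * vE⁻¹) * v2E ^ 2 := by
    apply Subtype.ext
    rw [IntermediateField.coe_pow, IntermediateField.coe_add,
      IntermediateField.coe_mul _ ((vE + algebraMap k ↥E 16) ^ 3 * vE⁻¹), hj2,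
      IntermediateField.coe_pow, coe_algebraMap_ofNat, hv2]
    exact vbar2_ident k
  exact ord_eq_zero_of_cube z h256 hj2O hv2id

omit [Fact q.Prime] [CharP k q] in
/-- The identity `g_u¹² j̄⁸ (j̄ - 1728)⁶ = 3¹² v̄⁶ v̄₂¹⁶ g_j¹²` in `E`. -/
theorem coord_ident {jE vE v2E π gj gu : ↥E} (hj : (jE : LaurentSeries k) = jqModC k)
    (hv : (vE : LaurentSeries k) = vbar k) (hv2 : (v2E : LaurentSeries k) = vbar2 k)
    (hθπ : thetaL (π : LaurentSeries k) ≠ 0)
    (hgj : thetaL (jE : LaurentSeries k) = (gj : LaurentSeries k) * thetaL (π : LaurentSeries k))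
    (hgu : thetaL ((vE * v2E : ↥E) : LaurentSeries k)
      = (gu : LaurentSeries k) * thetaL (π : LaurentSeries k)) :
    gu ^ 12 * (jE ^ 8 * (jE - algebraMap k ↥E 1728) ^ 6)
      = (algebraMap k ↥E 3) ^ 12 * (vE ^ 6 * v2E ^ 16) * gj ^ 12 := by
  have hucoe : ((vE * v2E : ↥E) : LaurentSeries k) = ubar4 k := by
    rw [IntermediateField.coe_mul, hv, hv2, ubar4]
  apply Subtype.ext
  have h := thetaL_ubar_pow k
  rw [← hucoe, hgu, ← hj, hgj, mul_pow, mul_pow] at h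
  have hπ12 : thetaL (π : LaurentSeries k) ^ 12 ≠ 0 := pow_ne_zero _ hθπ
  have e1 : ((gu ^ 12 * (jE ^ 8 * (jE - algebraMap k ↥E 1728) ^ 6) : ↥E) : LaurentSeries k)
      = (gu : LaurentSeries k) ^ 12 * ((jE : LaurentSeries k) ^ 8
        * ((jE : LaurentSeries k) - 1728) ^ 6) := by
    rw [IntermediateField.coe_mul, IntermediateField.coe_pow, IntermediateField.coe_mul,
      IntermediateField.coe_pow, IntermediateField.coe_pow, coeE_sub, coe_algebraMap_ofNat]
  have e2 : (((algebraMap k ↥E 3) ^ 12 * (vE ^ 6 * v2E ^ 16) * gj ^ 12 : ↥E) : LaurentSeries k)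
      = 3 ^ 12 * (vbar k ^ 6 * vbar2 k ^ 16) * (gj : LaurentSeries k) ^ 12 := by
    rw [IntermediateField.coe_mul, IntermediateField.coe_mul, IntermediateField.coe_pow,
      IntermediateField.coe_mul, IntermediateField.coe_pow, IntermediateField.coe_pow,
      IntermediateField.coe_pow, coe_algebraMap_ofNat, hv, hv2]
  rw [e1, e2]
  refine mul_right_cancel₀ hπ12 ?_
  linear_combination h

set_option maxHeartbeats 1000000 in
/-- **COORD** (`q ≥ 5`, level divisible by `4`): `ū = Δ̄(t)/Δ̄(t⁴) = v̄ v̄₂` is a local coordinate at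
every place `z` of degree one at which `j̄` has ramification index `e = 1, 3, 2` over
`j₀ ≠ 0, 1728`, `j₀ = 0`, `j₀ = 1728`. -/
theorem coord_u4 (hPB : HasPBasis q ↥E) (z : Place k ↥E) (hdeg : z.deg = 1) (h5 : 5 ≤ q)
    {jE vE v2E : ↥E} (hj : (jE : LaurentSeries k) = jqModC k)
    (hv : (vE : LaurentSeries k) = vbar k) (hv2 : (v2E : LaurentSeries k) = vbar2 k)
    (j0 : k) (e : ℕ) (hram : z.ord (jE - algebraMap k ↥E j0) = e)
    (hcase : (j0 ≠ 0 ∧ j0 ≠ 1728 ∧ e = 1) ∨ (j0 = 0 ∧ e = 3) ∨ (j0 = 1728 ∧ e = 2)) :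
    z.ord (vE * v2E) = 0 ∧ ∃ c : k, z.ord (vE * v2E - algebraMap k ↥E c) = 1 := by
  have hq : q.Prime := Fact.out
  have h2k : (2 : k) ≠ 0 := two_ne_zero_of_five_le h5
  have h3k : (3 : k) ≠ 0 := three_ne_zero_of_five_le h5
  have h1728k : (1728 : k) ≠ 0 := by
    rw [show (1728 : k) = 2 ^ 6 * 3 ^ 3 by norm_num]
    exact mul_ne_zero (pow_ne_zero _ h2k) (pow_ne_zero _ h3k)
  have he1 : 1 ≤ e := by
    rcases hcase with ⟨-, -, h⟩ | ⟨-, h⟩ | ⟨-, h⟩ <;> omega
  have he3 : e ≤ 3 := by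
    rcases hcase with ⟨-, -, h⟩ | ⟨-, h⟩ | ⟨-, h⟩ <;> omega
  have hqe : ¬ q ∣ e := fun hd => by
    have := Nat.le_of_dvd (by omega) hd
    omega
  have hjne : jE - algebraMap k ↥E j0 ≠ 0 :=
    ne_zero_of_ord_ne_zero z (by rw [hram]; exact_mod_cast (by omega : e ≠ 0))
  have hj0 : OrdGe z 1 (jE - algebraMap k ↥E j0) := Or.inr (by rw [hram]; exact_mod_cast he1)
  have hjO : jE ∈ z.toValuationSubring := mem_of_ordGe_sub z hj0
  obtain ⟨hvU, hv2U⟩ := unit_v z h2k hj hv hv2 hjO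
  have huO : vE * v2E ∈ z.toValuationSubring :=
    mul_mem (mem_and_inv_mem_of_ord z hvU.1 hvU.2).1 (mem_and_inv_mem_of_ord z hv2U.1 hv2U.2).1
  have huord : z.ord (vE * v2E) = 0 := by
    rw [z.ord_mul hvU.1 hv2U.1, hvU.2, hv2U.2, add_zero]
  refine ⟨huord, ?_⟩
  have hucoe : ((vE * v2E : ↥E) : LaurentSeries k) = ubar4 k := by
    rw [IntermediateField.coe_mul, hv, hv2, ubar4]
  -- a uniformizer and the derivatives
  obtain ⟨π, hπ0, hπ⟩ := exists_uniformizer z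
  have hθj : thetaL (jE : LaurentSeries k) ≠ 0 := by
    rw [hj]; exact thetaL_jqModC_ne_zero
  have hθπ : thetaL (π : LaurentSeries k) ≠ 0 := thetaL_ne_zero_of_ord hPB z hπ hθj
  obtain ⟨gj, -, hgj⟩ := theta_mem hPB z hπ hjO
  obtain ⟨gu, -, hgu⟩ := theta_mem hPB z hπ huO
  have hgjx := theta_ord_exact hPB z hπ hθπ j0 e hjne hram hqe hgj
  -- the identity in `E`
  have hid := coord_ident hj hv hv2 hθπ hgj hgu
  -- orders of `j̄` and `j̄ - 1728`
  have hjords : jE ≠ 0 ∧ jE - algebraMap k ↥E 1728 ≠ 0 ∧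
      8 * z.ord jE + 6 * z.ord (jE - algebraMap k ↥E 1728) = 12 * ((e : ℤ) - 1) := by
    rcases hcase with ⟨h0, h1728, rfl⟩ | ⟨rfl, rfl⟩ | ⟨rfl, rfl⟩
    · have a1 := ord_sub_const z hj0 h0
      rw [map_zero, sub_zero] at a1
      have a2 := ord_sub_const z hj0 h1728
      refine ⟨a1.1, a2.1, ?_⟩
      rw [a1.2, a2.2]
      norm_num
    · have a2 := ord_sub_const z hj0 h1728k.symm
      rw [map_zero, sub_zero] at hram hjne
      refine ⟨hjne, a2.1, ?_⟩
      rw [hram, a2.2]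
      norm_num
    · have a1 := ord_sub_const z hj0 h1728k
      rw [map_zero, sub_zero] at a1
      refine ⟨a1.1, hjne, ?_⟩
      rw [hram, a1.2]
      norm_num
  obtain ⟨hjE0, hjE1728, hsum⟩ := hjords
  have h3E : algebraMap k ↥E 3 ≠ 0 := by
    rw [Ne, map_eq_zero]; exact h3k
  have hR0 : (algebraMap k ↥E 3) ^ 12 * (vE ^ 6 * v2E ^ 16) * gj ^ 12 ≠ 0 :=
    mul_ne_zero (mul_ne_zero (pow_ne_zero _ h3E)
      (mul_ne_zero (pow_ne_zero _ hvU.1) (pow_ne_zero _ hv2U.1))) (pow_ne_zero _ hgjx.1)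
  have hgu0 : gu ≠ 0 := by
    rintro rfl
    rw [zero_pow (by norm_num), zero_mul] at hid
    exact hR0 hid.symm
  have hguord : z.ord gu = 0 := by
    have h := congrArg z.ord hid
    rw [z.ord_mul (pow_ne_zero _ hgu0) (mul_ne_zero (pow_ne_zero _ hjE0) (pow_ne_zero _ hjE1728)),
      z.ord_mul (pow_ne_zero _ hjE0) (pow_ne_zero _ hjE1728), ord_pow, ord_pow, ord_pow,
      z.ord_mul (mul_ne_zero (pow_ne_zero _ h3E)
        (mul_ne_zero (pow_ne_zero _ hvU.1) (pow_ne_zero _ hv2U.1))) (pow_ne_zero _ hgjx.1),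
      z.ord_mul (pow_ne_zero _ h3E) (mul_ne_zero (pow_ne_zero _ hvU.1) (pow_ne_zero _ hv2U.1)),
      z.ord_mul (pow_ne_zero _ hvU.1) (pow_ne_zero _ hv2U.1), ord_pow, ord_pow, ord_pow, ord_pow,
      ord_algebraMap, hvU.2, hv2U.2, hgjx.2] at h
    push_cast at h
    omega
  -- the value of `ū` at `z`
  obtain ⟨c, hc⟩ := exists_value z hdeg ((ordGe_zero_iff_mem z _).mpr huO)
  refine ⟨c, ?_⟩
  have hθuc : thetaL ((vE * v2E - algebraMap k ↥E c : ↥E) : LaurentSeries k) =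
      (gu : LaurentSeries k) * thetaL (π : LaurentSeries k) := by
    rw [coeE_sub, map_sub,
      show ((algebraMap k ↥E c : ↥E) : LaurentSeries k) = algebraMap k (LaurentSeries k) c from rfl,
      thetaL_algebraMap, sub_zero, hgu]
  have huc0 : vE * v2E - algebraMap k ↥E c ≠ 0 := by
    intro h0
    rw [h0] at hθuc
    have h1 : (gu : LaurentSeries k) * thetaL (π : LaurentSeries k) = 0 := by
      rw [← hθuc]
      exact map_zero _
    rcases mul_eq_zero.mp h1 with h2 | h2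
    · exact hgu0 (Subtype.ext h2)
    · exact hθπ h2
  have hge : 1 ≤ z.ord (vE * v2E - algebraMap k ↥E c) := hc.le huc0
  by_contra hne
  have h2 : OrdGe z ((2 : ℕ) : ℤ) (vE * v2E - algebraMap k ↥E c) :=
    Or.inr (by push_cast; omega)
  obtain ⟨g', hg', hθ'⟩ := theta_ordGe hPB z hπ 2 h2
  have hgg : g' = gu := theta_unique hθπ (by rw [← hθ', hθuc])
  rw [hgg] at hg'
  have := hg'.le hgu0
  rw [hguord] at this
  norm_num at this

end Coord

end Fermat.Agent.S36.NU.H73
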