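import Fermat.Agent.S36.NU.H73_Theta
import Fermat.Agent.RED.H51_Ord

/-!
# `θ` and places: the derivation `θ / θ π` preserves the valuation ring (S36 / NU-B / GPOLE,
places part 1; helper73)

`E ⊆ k((t))` a subfield with `[E : E^q] = q` (`HasPBasis q E`), `z` a place of `E / k`,
`π ∈ E` a uniformizer at `z`.  Then for every `f ∈ O_z` there is `g ∈ O_z` with `θ f = g θ π`
(`theta_mem`), and `g ∈ π^{e-1} O_z` if `f ∈ π^e O_z` (`theta_ordGe`).  No completion is used:
`f = ∑_{i<q} c_i^q π^i` and the orders of the terms are pairwise incongruent mod `q`.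
-/

set_option autoImplicit false

noncomputable section

open ModularCurve AlgebraicCurve IntermediateField

namespace Fermat.Agent.S36.NU.H73

open Fermat.Agent.RED.H51

section Valuation

variable {K F : Type*} [Field K] [Field F] [Algebra K F]

theorem eq_of_mul_add_eq {q i j : ℕ} (hi : i < q) (hj : j < q) {n n' : ℤ}
    (h : (q : ℤ) * n + i = q * n' + j) : i = j := by
  have h1 : ((q : ℤ) * n + i) % q = (i : ℤ) := by
    rw [Int.mul_add_emod_self_left]
    exact Int.emod_eq_of_lt (Int.natCast_nonneg i) (by exact_mod_cast hi)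
  have h2 : ((q : ℤ) * n' + j) % q = (j : ℤ) := by
    rw [Int.mul_add_emod_self_left]
    exact Int.emod_eq_of_lt (Int.natCast_nonneg j) (by exact_mod_cast hj)
  rw [h, h2] at h1
  exact_mod_cast h1.symm

theorem eq_zero_of_forall_ordGe (v : Place K F) {f : F} (h : ∀ m : ℤ, OrdGe v m f) : f = 0 := by
  by_contra hf
  have := (h (v.ord f + 1)).le hf
  omega

/-- A sum of terms whose orders are pairwise incongruent mod `q`: the order of the sum is the
minimum of the orders of the terms. -/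
theorem ordGe_of_sum_aux (v : Place K F) (q : ℕ) (t : ℕ → F)
    (ht : ∀ i, t i = 0 ∨ ∃ n : ℤ, v.ord (t i) = q * n + i) (s : Finset ℕ)
    (hs : ∀ i ∈ s, i < q) :
    (∀ m : ℤ, OrdGe v m (∑ i ∈ s, t i) → ∀ i ∈ s, OrdGe v m (t i)) ∧
      (∑ i ∈ s, t i ≠ 0 → ∃ i ∈ s, t i ≠ 0 ∧ v.ord (∑ i ∈ s, t i) = v.ord (t i)) := by
  classical
  induction s using Finset.induction_on with
  | empty =>
    refine ⟨fun m _ i hi => absurd hi (Finset.notMem_empty i), fun h => ?_⟩
    simp at h
  | insert a s ha ih =>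
    have hs' : ∀ i ∈ s, i < q := fun i hi => hs i (Finset.mem_insert_of_mem hi)
    obtain ⟨ihA, ihB⟩ := ih hs'
    have haq : a < q := hs a (Finset.mem_insert_self a s)
    rw [Finset.sum_insert ha]
    rcases eq_or_ne (t a) 0 with hta | hta
    · -- `t a = 0`
      rw [hta, zero_add]
      refine ⟨fun m hm i hi => ?_, fun h => ?_⟩
      · rcases Finset.mem_insert.mp hi with rfl | hi'
        · rw [hta]; exact ordGe_zero v m
        · exact ihA m hm i hi'
      · obtain ⟨i, hi, h1, h2⟩ := ihB h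
        exact ⟨i, Finset.mem_insert_of_mem hi, h1, h2⟩
    rcases eq_or_ne (∑ i ∈ s, t i) 0 with hsum | hsum
    · -- the rest vanishes
      rw [hsum, add_zero]
      have hall : ∀ i ∈ s, t i = 0 := fun i hi =>
        eq_zero_of_forall_ordGe v fun m => ihA m (hsum ▸ ordGe_zero v m) i hi
      refine ⟨fun m hm i hi => ?_, fun _ => ⟨a, Finset.mem_insert_self a s, hta, rfl⟩⟩
      rcases Finset.mem_insert.mp hi with rfl | hi'
      · exact hm
      · rw [hall i hi']; exact ordGe_zero v m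
    -- both nonzero
    obtain ⟨i₀, hi₀, hti₀, hord⟩ := ihB hsum
    have hne : v.ord (t a) ≠ v.ord (∑ i ∈ s, t i) := by
      intro h
      obtain ⟨n, hn⟩ := (ht a).resolve_left hta
      obtain ⟨n', hn'⟩ := (ht i₀).resolve_left hti₀
      rw [hord, hn, hn'] at h
      have := eq_of_mul_add_eq haq (hs' i₀ hi₀) h
      exact ha (this ▸ hi₀)
    rcases lt_or_gt_of_ne hne with hlt | hgt
    · -- `t a` dominates
      have h1 := ord_add_eq v hta (g := ∑ i ∈ s, t i) (Or.inr (by omega))
      refine ⟨fun m hm i hi => ?_, fun _ => ⟨a, Finset.mem_insert_self a s, hta, h1.2⟩⟩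
      have hm' : m ≤ v.ord (t a) := h1.2 ▸ hm.le h1.1
      rcases Finset.mem_insert.mp hi with rfl | hi'
      · exact Or.inr hm'
      · exact ihA m (Or.inr (by omega)) i hi'
    · -- the rest dominates
      have h1 := ord_add_eq' v hsum (g := t a) (Or.inr (by omega))
      refine ⟨fun m hm i hi => ?_, fun _ => ⟨i₀, Finset.mem_insert_of_mem hi₀, hti₀, ?_⟩⟩
      · have hm' : m ≤ v.ord (∑ i ∈ s, t i) := h1.2 ▸ hm.le h1.1
        rcases Finset.mem_insert.mp hi with rfl | hi'
        · exact Or.inr (by omega)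
        · exact ihA m (Or.inr hm') i hi'
      · rw [h1.2, hord]

/-- If `∑_{i<q} t_i` has order `≥ m` and the orders of the `t_i` are `≡ i mod q`, then every
`t_i` has order `≥ m`. -/
theorem ordGe_of_sum (v : Place K F) (q : ℕ) (t : ℕ → F)
    (ht : ∀ i, t i = 0 ∨ ∃ n : ℤ, v.ord (t i) = q * n + i) {m : ℤ}
    (h : OrdGe v m (∑ i ∈ Finset.range q, t i)) {i : ℕ} (hi : i < q) : OrdGe v m (t i) :=
  (ordGe_of_sum_aux v q t ht (Finset.range q) (fun _ hj => Finset.mem_range.mp hj)).1 m h i
    (Finset.mem_range.mpr hi)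

end Valuation

section PBasis

/-- `[E : E^q] ≤ q`, in the form: for every `π` which is not a `q`-th power, the powers
`1, π, …, π^{q-1}` span `E` over `E^q`. -/
def HasPBasis (q : ℕ) (E : Type*) [Field E] : Prop :=
  ∀ π : E, (∀ c : E, π ≠ c ^ q) → ∀ f : E, ∃ c : ℕ → E,
    f = ∑ i ∈ Finset.range q, c i ^ q * π ^ i

/-- `HasPBasis` from a subfield `E'` of `q`-th powers with `[E : E'] = q`. -/
theorem hasPBasis_of_finrank {E' E : Type*} [Field E'] [Field E] [Algebra E' E] {q : ℕ}
    (hq : q.Prime) (hfin : Module.finrank E' E = q)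
    (hrange : ∀ a : E', ∃ c : E, algebraMap E' E a = c ^ q) : HasPBasis q E := by
  intro π hπ f
  have hfd : FiniteDimensional E' E :=
    Module.finite_of_finrank_pos (by rw [hfin]; exact hq.pos)
  have hso : IsSimpleOrder (IntermediateField E' E) :=
    IntermediateField.isSimpleOrder_of_finrank_prime E' E (hfin ▸ hq)
  have hπbot : π ∉ (⊥ : IntermediateField E' E) := by
    intro h
    rw [IntermediateField.mem_bot] at h
    obtain ⟨a, rfl⟩ := h
    obtain ⟨c, hc⟩ := hrange a
    exact hπ c hc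
  have htop : E'⟮π⟯ = ⊤ := by
    rcases eq_bot_or_eq_top (E'⟮π⟯) with h | h
    · exfalso
      apply hπbot
      rw [← h]
      exact IntermediateField.mem_adjoin_simple_self E' π
    · exact h
  have hint : IsIntegral E' π := IsIntegral.of_finite E' π
  have hdeg : (minpoly E' π).natDegree = q := by
    rw [← IntermediateField.adjoin.finrank hint, htop, IntermediateField.finrank_top', hfin]
  have hf : f ∈ E'⟮π⟯ := by rw [htop]; trivial
  obtain ⟨p, hpdeg, hp⟩ := (IntermediateField.adjoin.powerBasis hint).exists_eq_aeval ⟨f, hf⟩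
  rw [IntermediateField.adjoin.powerBasis_dim, hdeg] at hpdeg
  have hp' : f = Polynomial.aeval π p := by
    have := congrArg (fun x : ↥(E'⟮π⟯) => (x : E)) hp
    simp only [IntermediateField.adjoin.powerBasis_gen] at this
    rw [this, IntermediateField.AdjoinSimple.coe_aeval_gen_apply]
  choose c hc using hrange
  refine ⟨fun i => c (p.coeff i), ?_⟩
  rw [hp', Polynomial.aeval_eq_sum_range' hpdeg]
  refine Finset.sum_congr rfl fun i _ => ?_
  rw [Algebra.smul_def, hc]

end PBasis

section Theta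

variable {k : Type*} [Field k] {q : ℕ} [Fact q.Prime] [CharP k q]
variable {E : IntermediateField k (LaurentSeries k)}

omit [Fact q.Prime] in
/-- `θ (∑ c_i^q π^i) = (∑ i c_i^q π^{i-1}) θ π`. -/
theorem theta_repr (π : ↥E) (c : ℕ → ↥E) :
    thetaL (((∑ i ∈ Finset.range q, c i ^ q * π ^ i : ↥E)) : LaurentSeries k) =
      ((∑ i ∈ Finset.range q, (i : ↥E) * c i ^ q * π ^ (i - 1) : ↥E) : LaurentSeries k) *
        thetaL (π : LaurentSeries k) := by
  have h1 : (((∑ i ∈ Finset.range q, c i ^ q * π ^ i : ↥E)) : LaurentSeries k) =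
      ∑ i ∈ Finset.range q, (c i : LaurentSeries k) ^ q * (π : LaurentSeries k) ^ i := by
    show E.val (∑ i ∈ Finset.range q, c i ^ q * π ^ i) = _
    rw [map_sum]
    rfl
  have h2 : ((∑ i ∈ Finset.range q, (i : ↥E) * c i ^ q * π ^ (i - 1) : ↥E) : LaurentSeries k) =
      ∑ i ∈ Finset.range q, (i : LaurentSeries k) * (c i : LaurentSeries k) ^ q *
        (π : LaurentSeries k) ^ (i - 1) := by
    show E.val (∑ i ∈ Finset.range q, (i : ↥E) * c i ^ q * π ^ (i - 1)) = _
    rw [map_sum]
    refine Finset.sum_congr rfl fun i _ => ?_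
    rw [map_mul, map_mul, map_pow, map_pow, map_natCast]
    rfl
  rw [h1, h2, map_sum, Finset.sum_mul]
  refine Finset.sum_congr rfl fun i _ => ?_
  rw [thetaL_mul, thetaL_pow_char q, mul_zero, add_zero, thetaL_pow]
  ring

/-- **The derivation `θ / θ π` preserves the valuation ring** of a place with uniformizer `π`. -/
theorem theta_mem (hPB : HasPBasis q ↥E) (z : Place k ↥E) {π : ↥E} (hπ : z.ord π = 1)
    {f : ↥E} (hf : f ∈ z.toValuationSubring) :
    ∃ g : ↥E, g ∈ z.toValuationSubring ∧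
      thetaL (f : LaurentSeries k) = (g : LaurentSeries k) * thetaL (π : LaurentSeries k) := by
  have hq : q.Prime := Fact.out
  have hπ0 : π ≠ 0 := by
    rintro rfl
    rw [z.ord_zero] at hπ
    exact zero_ne_one hπ
  have hπO : π ∈ z.toValuationSubring := by
    rw [mem_iff_ord_nonneg z hπ0, hπ]
    exact zero_le_one
  have hπq : ∀ c : ↥E, π ≠ c ^ q := by
    intro c h
    rw [h, ord_pow] at hπ
    have h2 : (2 : ℤ) ≤ q := by exact_mod_cast hq.two_le
    rcases le_or_gt (z.ord c) 0 with h0 | h0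
    · nlinarith
    · nlinarith
  obtain ⟨c, hc⟩ := hPB π hπq f
  have ht : ∀ i, c i ^ q * π ^ i = 0 ∨ ∃ n : ℤ, z.ord (c i ^ q * π ^ i) = q * n + i := by
    intro i
    rcases eq_or_ne (c i) 0 with h0 | h0
    · left
      rw [h0, zero_pow hq.ne_zero, zero_mul]
    · right
      refine ⟨z.ord (c i), ?_⟩
      rw [z.ord_mul (pow_ne_zero q h0) (pow_ne_zero i hπ0), ord_pow, ord_pow, hπ, mul_one]
  have h0 : OrdGe z 0 (∑ i ∈ Finset.range q, c i ^ q * π ^ i) := by
    rw [← hc]
    exact (ordGe_zero_iff_mem z f).mpr hf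
  have hci : ∀ i ∈ Finset.range q, c i ∈ z.toValuationSubring := by
    intro i hi
    have hiq : i < q := Finset.mem_range.mp hi
    rcases eq_or_ne (c i) 0 with hc0 | hc0
    · rw [hc0]; exact zero_mem _
    have h1 := ordGe_of_sum z q (fun i => c i ^ q * π ^ i) ht h0 hiq
    have h2 : (0 : ℤ) ≤ z.ord (c i ^ q * π ^ i) :=
      h1.le (mul_ne_zero (pow_ne_zero q hc0) (pow_ne_zero i hπ0))
    rw [z.ord_mul (pow_ne_zero q hc0) (pow_ne_zero i hπ0), ord_pow, ord_pow, hπ, mul_one] at h2
    rw [mem_iff_ord_nonneg z hc0]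
    by_contra hneg
    have h3 : z.ord (c i) ≤ -1 := by omega
    have h4 : (q : ℤ) * z.ord (c i) ≤ (q : ℤ) * (-1) :=
      mul_le_mul_of_nonneg_left h3 (Int.natCast_nonneg q)
    have h5 : (i : ℤ) < q := by exact_mod_cast hiq
    omega
  refine ⟨∑ i ∈ Finset.range q, (i : ↥E) * c i ^ q * π ^ (i - 1), ?_, ?_⟩
  · refine sum_mem fun i hi => ?_
    exact mul_mem (mul_mem (natCast_mem _ i) (pow_mem (hci i hi) q)) (pow_mem hπO _)
  · rw [hc]
    exact theta_repr π c

/-- `θ / θ π` lowers the order by at most one: if `ord_z f ≥ e` then `θ f = g θ π` with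
`ord_z g ≥ e - 1`. -/
theorem theta_ordGe (hPB : HasPBasis q ↥E) (z : Place k ↥E) {π : ↥E} (hπ : z.ord π = 1)
    {f : ↥E} (e : ℕ) (hf : OrdGe z e f) :
    ∃ g : ↥E, OrdGe z ((e : ℤ) - 1) g ∧
      thetaL (f : LaurentSeries k) = (g : LaurentSeries k) * thetaL (π : LaurentSeries k) := by
  have hπ0 : π ≠ 0 := by
    rintro rfl
    rw [z.ord_zero] at hπ
    exact zero_ne_one hπ
  have hπe : ∀ n : ℕ, OrdGe z n (π ^ n) := fun n =>
    Or.inr (by rw [ord_pow, hπ, mul_one])
  have hw : f * (π ^ e)⁻¹ ∈ z.toValuationSubring := by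
    rw [← ordGe_zero_iff_mem]
    rcases eq_or_ne f 0 with rfl | hf0
    · rw [zero_mul]; exact ordGe_zero z 0
    · refine Or.inr ?_
      rw [z.ord_mul hf0 (inv_ne_zero (pow_ne_zero e hπ0)), z.ord_inv, ord_pow, hπ, mul_one]
      have := hf.le hf0
      omega
  obtain ⟨gw, hgw, hθw⟩ := theta_mem hPB z hπ hw
  have hfw : f = π ^ e * (f * (π ^ e)⁻¹) := by
    field_simp
  refine ⟨(e : ↥E) * π ^ (e - 1) * (f * (π ^ e)⁻¹) + π ^ e * gw, ?_, ?_⟩
  · refine OrdGe.add ?_ ?_
    · rcases Nat.eq_zero_or_pos e with rfl | he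
      · have : ((0 : ℕ) : ↥E) * π ^ (0 - 1) * (f * (π ^ 0)⁻¹) = 0 := by
          rw [Nat.cast_zero, zero_mul, zero_mul]
        rw [this]
        exact ordGe_zero z _
      · have h1 : OrdGe z (0 + ((e - 1 : ℕ) : ℤ) + 0)
            ((e : ↥E) * π ^ (e - 1) * (f * (π ^ e)⁻¹)) :=
          (((ordGe_zero_iff_mem z _).mpr (natCast_mem _ e)).mul (hπe (e - 1))).mul
            ((ordGe_zero_iff_mem z _).mpr hw)
        refine h1.mono ?_
        rw [Nat.cast_sub he]
        simp
    · have h1 : OrdGe z ((e : ℤ) + 0) (π ^ e * gw) :=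
        (hπe e).mul ((ordGe_zero_iff_mem z _).mpr hgw)
      exact h1.mono (by omega)
  · have h1 : (f : LaurentSeries k) =
        (π : LaurentSeries k) ^ e * ((f * (π ^ e)⁻¹ : ↥E) : LaurentSeries k) := by
      conv_lhs => rw [hfw]
      rfl
    have h2 : (((e : ↥E) * π ^ (e - 1) * (f * (π ^ e)⁻¹) + π ^ e * gw : ↥E) : LaurentSeries k) =
        (e : LaurentSeries k) * (π : LaurentSeries k) ^ (e - 1) *
          ((f * (π ^ e)⁻¹ : ↥E) : LaurentSeries k) +
          (π : LaurentSeries k) ^ e * (gw : LaurentSeries k) := by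
      rw [IntermediateField.coe_add, IntermediateField.coe_mul, IntermediateField.coe_mul,
        IntermediateField.coe_mul E (π ^ e) gw, IntermediateField.coe_pow,
        IntermediateField.coe_pow]
      rfl
    rw [h1, h2, thetaL_mul, thetaL_pow, hθw]
    ring

end Theta

end Fermat.Agent.S36.NU.H73
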