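import Fermat.Agent.S36.NU.H73_Deriv
import Fermat.Agent.S36.NU.H73_ThetaJ
import Fermat.Prelude.Thm_ModularCurve_coeff_jqModC_neg_one

/-!
# `d̄` has a pole at the supersingular points (S36 / NU-B / GPOLE, places part 2; helper73)

`E ⊆ k((t))` with `[E : E^q] = q`, `j̄ ∈ E`, `z` a place of `E / k`, `ū ∈ E` a coordinate at `z`
(`ord_z (ū - c) = 1`), `d̄ ∈ E` with `θ d̄ = ū^{q-1} θ ū - (θ ū)^q` (THETA), `H` the supersingular
polynomial (`H(j̄) = Δ̄^{1-q}`).

* `Gu_mem` : if `d̄ ∈ O_z` then `G_u = (θ ū)^{q-1} ∈ O_z`.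
* `dbar_not_mem` : if `j̄(z) = j₀` is a root of `H`, `j₀ ≠ 0, 1728`, then `d̄ ∉ O_z`.
-/

set_option autoImplicit false

noncomputable section

open ModularCurve AlgebraicCurve IntermediateField Polynomial

namespace Fermat.Agent.S36.NU.H73

open Fermat.Agent.RED.H51 Fermat.Agent.BAD.H21

section GPole

variable {k : Type*} [Field k] {q : ℕ} [Fact q.Prime] [CharP k q]
variable {E : IntermediateField k (LaurentSeries k)}

omit [Fact q.Prime] [CharP k q] in
theorem thetaL_algebraMap (c : k) : thetaL (algebraMap k (LaurentSeries k) c) = 0 := by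
  rw [algebraMap_eq_C, thetaL_C]

omit [Fact q.Prime] [CharP k q] in
theorem coeE_sub (a b : ↥E) :
    ((a - b : ↥E) : LaurentSeries k) = (a : LaurentSeries k) - (b : LaurentSeries k) := rfl

omit [Fact q.Prime] [CharP k q] in
theorem thetaL_jqModC_ne_zero : thetaL (jqModC k) ≠ 0 := by
  intro h
  have h1 := congrArg (fun x => x.coeff (-1)) h
  simp only [thetaL_coeff, HahnSeries.coeff_zero] at h1
  rw [coeff_jqModC_neg_one] at h1
  simp at h1

/-- **THETA** for any `δ ∈ ℤ((t))` with `q δ = u ^ q - u(t^q)` (e.g. `deltaZ q u`, or helper65's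
`kdel q u`): `θ δ̄ = ū^{q-1} θ ū - (θ ū)^q`. -/
theorem thetaL_dbar_of_int (uZ δZ : LaurentSeries ℤ)
    (hspec : (q : LaurentSeries ℤ) * δZ = uZ ^ q - qExpand ℤ q uZ) :
    thetaL (coeffMap (Int.castRingHom k) δZ) =
      (coeffMap (Int.castRingHom k) uZ) ^ (q - 1) * thetaL (coeffMap (Int.castRingHom k) uZ)
        - (thetaL (coeffMap (Int.castRingHom k) uZ)) ^ q := by
  have hq0 : ((q : ℕ) : ℤ) ≠ 0 := by
    exact_mod_cast (Fact.out : q.Prime).ne_zero
  rw [thetaL_dbar_of_spec q (fun x hx => (mul_eq_zero.mp hx).resolve_left hq0)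
    (Int.castRingHom k) uZ δZ hspec, thetaL_coeffMap (Int.castRingHom k) uZ,
    pow_eq_qExpand_of_int q (thetaL uZ)]

/-- `θ π ≠ 0` for a uniformizer `π` (if `θ` does not vanish on `E`). -/
theorem thetaL_ne_zero_of_ord (hPB : HasPBasis q ↥E) (z : Place k ↥E) {π : ↥E}
    (hπ : z.ord π = 1) {f : ↥E} (hf : thetaL (f : LaurentSeries k) ≠ 0) :
    thetaL (π : LaurentSeries k) ≠ 0 := by
  intro h0
  apply hf
  have hq : q.Prime := Fact.out
  have hπq : ∀ c : ↥E, π ≠ c ^ q := by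
    intro c h
    rw [h, ord_pow] at hπ
    have h2 : (2 : ℤ) ≤ q := by exact_mod_cast hq.two_le
    rcases le_or_gt (z.ord c) 0 with h0 | h0
    · nlinarith
    · nlinarith
  obtain ⟨c, hc⟩ := hPB π hπq f
  rw [hc, theta_repr, h0, mul_zero]

/-- **If `d̄ ∈ O_z` then `G_u = (θ ū)^{q-1} ∈ O_z`**, for a coordinate `ū` at `z`. -/
theorem Gu_mem (hPB : HasPBasis q ↥E) (z : Place k ↥E) {u d : ↥E} (c : k)
    (hu : z.ord (u - algebraMap k ↥E c) = 1)
    (hθ0 : thetaL (u : LaurentSeries k) ≠ 0)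
    (hθ : thetaL (d : LaurentSeries k) =
      (u : LaurentSeries k) ^ (q - 1) * thetaL (u : LaurentSeries k) -
        thetaL (u : LaurentSeries k) ^ q)
    (hd : d ∈ z.toValuationSubring) :
    ∃ X : ↥E, X ∈ z.toValuationSubring ∧
      (X : LaurentSeries k) = thetaL (u : LaurentSeries k) ^ (q - 1) := by
  have hq : q.Prime := Fact.out
  have hπθ : thetaL ((u - algebraMap k ↥E c : ↥E) : LaurentSeries k) =
      thetaL (u : LaurentSeries k) := by
    rw [coeE_sub, map_sub]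
    have : ((algebraMap k ↥E c : ↥E) : LaurentSeries k) = algebraMap k (LaurentSeries k) c := rfl
    rw [this, thetaL_algebraMap, sub_zero]
  have huO : u ∈ z.toValuationSubring := by
    have h1 : u - algebraMap k ↥E c ∈ z.toValuationSubring := by
      rw [← ordGe_zero_iff_mem]
      exact Or.inr (by rw [hu]; exact zero_le_one)
    have h2 : algebraMap k ↥E c ∈ z.toValuationSubring := z.algebraMap_mem' c
    have := add_mem h1 h2
    rwa [sub_add_cancel] at this
  obtain ⟨g, hg, hgθ⟩ := theta_mem hPB z hu hd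
  rw [hπθ, hθ] at hgθ
  refine ⟨u ^ (q - 1) - g, sub_mem (pow_mem huO _) hg, ?_⟩
  rw [coeE_sub, IntermediateField.coe_pow]
  have hpow : thetaL (u : LaurentSeries k) ^ q =
      thetaL (u : LaurentSeries k) ^ (q - 1) * thetaL (u : LaurentSeries k) := by
    rw [← pow_succ, Nat.sub_add_cancel hq.one_le]
  rw [hpow, ← sub_mul] at hgθ
  have := mul_right_cancel₀ hθ0 hgθ
  rw [← this]
  ring

omit [Fact q.Prime] [CharP k q] in
theorem aeval_mem (z : Place k ↥E) {x : ↥E} (hx : x ∈ z.toValuationSubring) (P : k[X]) :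
    aeval x P ∈ z.toValuationSubring := by
  rw [aeval_eq_sum_range]
  refine sum_mem fun i _ => ?_
  rw [Algebra.smul_def]
  exact mul_mem (z.algebraMap_mem' _) (pow_mem hx i)

omit [Fact q.Prime] [CharP k q] in
/-- `x ≡ a mod 𝔪_z`, `a ≠ b` constants: `x - b` is a unit at `z`. -/
theorem ord_sub_const (z : Place k ↥E) {x : ↥E} {a b : k}
    (hx : OrdGe z 1 (x - algebraMap k ↥E a)) (hab : a ≠ b) :
    x - algebraMap k ↥E b ≠ 0 ∧ z.ord (x - algebraMap k ↥E b) = 0 := by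
  have hc : algebraMap k ↥E (a - b) ≠ 0 := by
    rw [Ne, map_eq_zero]
    exact sub_ne_zero.mpr hab
  have h0 : z.ord (algebraMap k ↥E (a - b)) = 0 := ord_algebraMap z _
  have h1 := ord_add_eq z hc (g := x - algebraMap k ↥E a) (by rw [h0, zero_add]; exact hx)
  have e : algebraMap k ↥E (a - b) + (x - algebraMap k ↥E a) = x - algebraMap k ↥E b := by
    rw [map_sub]; ring
  rw [e, h0] at h1
  exact h1

omit [Fact q.Prime] [CharP k q] in
theorem mem_of_ordGe_sub (z : Place k ↥E) {x : ↥E} {a : k}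
    (hx : OrdGe z 1 (x - algebraMap k ↥E a)) : x ∈ z.toValuationSubring := by
  have h1 : x - algebraMap k ↥E a ∈ z.toValuationSubring :=
    (ordGe_zero_iff_mem z _).mp (hx.mono zero_le_one)
  have := add_mem h1 (z.algebraMap_mem' a)
  rwa [sub_add_cancel] at this

omit [Fact q.Prime] [CharP k q] in
/-- `H(x)` vanishes at `z` if `x(z)` is a root of `H`. -/
theorem ordGe_aeval_of_isRoot (z : Place k ↥E) {x : ↥E} {a : k}
    (hx : OrdGe z 1 (x - algebraMap k ↥E a)) {H : k[X]} (hroot : H.IsRoot a) :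
    OrdGe z 1 (aeval x H) := by
  obtain ⟨H1, rfl⟩ := dvd_iff_isRoot.mpr hroot
  rw [map_mul, map_sub, aeval_X, aeval_C]
  have h1 : OrdGe z 0 (aeval x H1) :=
    (ordGe_zero_iff_mem z _).mpr (aeval_mem z (mem_of_ordGe_sub z hx) H1)
  have := hx.mul h1
  rwa [add_zero] at this

/-- The identity `Y⁶ H(j̄) = j̄^{4(q-1)} (j̄ - 1728)^{3(q-1)}` in `E`, where `Y = g_j^{q-1} G_u ∈ O_z`
if `d̄ ∈ O_z`, `θ j̄ = g_j θ ū`. -/
theorem exists_Y (hPB : HasPBasis q ↥E) (z : Place k ↥E) {u d jE : ↥E} (c : k)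
    (hu : z.ord (u - algebraMap k ↥E c) = 1)
    (hθ : thetaL (d : LaurentSeries k) =
      (u : LaurentSeries k) ^ (q - 1) * thetaL (u : LaurentSeries k) -
        thetaL (u : LaurentSeries k) ^ q)
    (hj : (jE : LaurentSeries k) = jqModC k)
    {H : k[X]} (hH : aeval (jqModC k) H = (H21_DL k ^ (q - 1))⁻¹)
    (hd : d ∈ z.toValuationSubring)
    {gj : ↥E} (hgj : thetaL (jE : LaurentSeries k) =
      (gj : LaurentSeries k) * thetaL (u : LaurentSeries k)) :
    ∃ X : ↥E, X ∈ z.toValuationSubring ∧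
      (gj ^ (q - 1) * X) ^ 6 * aeval jE H =
        jE ^ (4 * (q - 1)) * (jE - algebraMap k ↥E 1728) ^ (3 * (q - 1)) := by
  have hθj : thetaL (jE : LaurentSeries k) ≠ 0 := by
    rw [hj]; exact thetaL_jqModC_ne_zero
  have hθ0 : thetaL (u : LaurentSeries k) ≠ 0 := by
    have := thetaL_ne_zero_of_ord hPB z hu hθj
    rwa [coeE_sub, map_sub,
      show ((algebraMap k ↥E c : ↥E) : LaurentSeries k) = algebraMap k (LaurentSeries k) c from rfl,
      thetaL_algebraMap, sub_zero] at this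
  obtain ⟨X, hX, hXθ⟩ := Gu_mem hPB z c hu hθ0 hθ hd
  refine ⟨X, hX, ?_⟩
  apply Subtype.ext
  have hG := G_pow_six_mul_aeval hH
  rw [← hj, hgj, mul_pow, ← hXθ] at hG
  have h1728 : ((algebraMap k ↥E 1728 : ↥E) : LaurentSeries k) = 1728 := by
    show algebraMap k (LaurentSeries k) 1728 = 1728
    rw [map_ofNat]
  rw [IntermediateField.coe_mul, IntermediateField.coe_pow, IntermediateField.coe_mul,
    IntermediateField.coe_pow, IntermediateField.coe_mul, IntermediateField.coe_pow,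
    IntermediateField.coe_pow, coeE_sub, h1728, ← IntermediateField.aeval_coe]
  exact hG

/-- **`d̄` has a pole at every supersingular point `z` with `j̄(z) ≠ 0, 1728` at which `ū` is a
coordinate.** -/
theorem dbar_not_mem (hPB : HasPBasis q ↥E) (z : Place k ↥E) {u d jE : ↥E} (c : k)
    (hu : z.ord (u - algebraMap k ↥E c) = 1)
    (hθ : thetaL (d : LaurentSeries k) =
      (u : LaurentSeries k) ^ (q - 1) * thetaL (u : LaurentSeries k) -
        thetaL (u : LaurentSeries k) ^ q)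
    (hj : (jE : LaurentSeries k) = jqModC k)
    {H : k[X]} (hH : aeval (jqModC k) H = (H21_DL k ^ (q - 1))⁻¹)
    {j0 : k} (hj0 : OrdGe z 1 (jE - algebraMap k ↥E j0)) (hroot : H.IsRoot j0)
    (h0 : j0 ≠ 0) (h1728 : j0 ≠ 1728) : d ∉ z.toValuationSubring := by
  intro hd
  have hjO : jE ∈ z.toValuationSubring := mem_of_ordGe_sub z hj0
  obtain ⟨gj, hgjO, hgj⟩ := theta_mem hPB z hu hjO
  have hπθ : thetaL ((u - algebraMap k ↥E c : ↥E) : LaurentSeries k) =
      thetaL (u : LaurentSeries k) := by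
    rw [coeE_sub, map_sub,
      show ((algebraMap k ↥E c : ↥E) : LaurentSeries k) = algebraMap k (LaurentSeries k) c from rfl,
      thetaL_algebraMap, sub_zero]
  rw [hπθ] at hgj
  obtain ⟨X, hX, hY⟩ := exists_Y hPB z c hu hθ hj hH hd hgj
  -- orders
  have hj1 := ord_sub_const z hj0 h0
  rw [map_zero, sub_zero] at hj1
  have hj2 := ord_sub_const z hj0 h1728
  have hR0 : jE ^ (4 * (q - 1)) * (jE - algebraMap k ↥E 1728) ^ (3 * (q - 1)) ≠ 0 :=
    mul_ne_zero (pow_ne_zero _ hj1.1) (pow_ne_zero _ hj2.1)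
  have hRord : z.ord (jE ^ (4 * (q - 1)) * (jE - algebraMap k ↥E 1728) ^ (3 * (q - 1))) = 0 := by
    rw [z.ord_mul (pow_ne_zero _ hj1.1) (pow_ne_zero _ hj2.1), ord_pow, ord_pow, hj1.2, hj2.2]
    simp
  have hL : OrdGe z (0 + 1) ((gj ^ (q - 1) * X) ^ 6 * aeval jE H) := by
    refine OrdGe.mul ?_ (ordGe_aeval_of_isRoot z hj0 hroot)
    exact (ordGe_zero_iff_mem z _).mpr (pow_mem (mul_mem (pow_mem hgjO _) hX) 6)
  rw [hY] at hL
  have := hL.le hR0
  rw [hRord] at this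
  omega

/-- **The general inequality**: if `d̄ ∈ O_z`, `e = ord_z (j̄ - j₀) ≥ 1` and `(X - j₀)^μ ∣ H`, then
`6 (q-1) (e-1) + μ e ≤ 4 (q-1) ord_z j̄ + 3 (q-1) ord_z (j̄ - 1728)`. -/
theorem dbar_mem_ineq (hPB : HasPBasis q ↥E) (z : Place k ↥E) {u d jE : ↥E} (c : k)
    (hu : z.ord (u - algebraMap k ↥E c) = 1)
    (hθ : thetaL (d : LaurentSeries k) =
      (u : LaurentSeries k) ^ (q - 1) * thetaL (u : LaurentSeries k) -
        thetaL (u : LaurentSeries k) ^ q)
    (hj : (jE : LaurentSeries k) = jqModC k)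
    {H : k[X]} (hH : aeval (jqModC k) H = (H21_DL k ^ (q - 1))⁻¹)
    {j0 : k} {e μ : ℕ} (he : OrdGe z e (jE - algebraMap k ↥E j0)) (he1 : 1 ≤ e)
    (hμ : (X - C j0) ^ μ ∣ H)
    (hj0 : jE ≠ 0) (hj1728 : jE - algebraMap k ↥E 1728 ≠ 0)
    (hd : d ∈ z.toValuationSubring) :
    6 * ((q : ℤ) - 1) * ((e : ℤ) - 1) + μ * e ≤
      4 * ((q : ℤ) - 1) * z.ord jE + 3 * ((q : ℤ) - 1) * z.ord (jE - algebraMap k ↥E 1728) := by
  have hq : q.Prime := Fact.out
  have hq1 : ((q - 1 : ℕ) : ℤ) = (q : ℤ) - 1 := by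
    rw [Nat.cast_sub hq.one_le]; simp
  have hjO : jE ∈ z.toValuationSubring :=
    mem_of_ordGe_sub z (he.mono (by exact_mod_cast he1))
  obtain ⟨gj, hgjO, hgj⟩ := theta_ordGe hPB z hu e he
  have hπθ : thetaL ((u - algebraMap k ↥E c : ↥E) : LaurentSeries k) =
      thetaL (u : LaurentSeries k) := by
    rw [coeE_sub, map_sub,
      show ((algebraMap k ↥E c : ↥E) : LaurentSeries k) = algebraMap k (LaurentSeries k) c from rfl,
      thetaL_algebraMap, sub_zero]
  have hjθ : thetaL ((jE - algebraMap k ↥E j0 : ↥E) : LaurentSeries k) =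
      thetaL (jE : LaurentSeries k) := by
    rw [coeE_sub, map_sub,
      show ((algebraMap k ↥E j0 : ↥E) : LaurentSeries k) = algebraMap k (LaurentSeries k) j0
        from rfl,
      thetaL_algebraMap, sub_zero]
  rw [hπθ, hjθ] at hgj
  obtain ⟨X', hX, hY⟩ := exists_Y hPB z c hu hθ hj hH hd hgj
  have hR0 : jE ^ (4 * (q - 1)) * (jE - algebraMap k ↥E 1728) ^ (3 * (q - 1)) ≠ 0 :=
    mul_ne_zero (pow_ne_zero _ hj0) (pow_ne_zero _ hj1728)
  have hRord : z.ord (jE ^ (4 * (q - 1)) * (jE - algebraMap k ↥E 1728) ^ (3 * (q - 1))) =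
      4 * ((q : ℤ) - 1) * z.ord jE + 3 * ((q : ℤ) - 1) * z.ord (jE - algebraMap k ↥E 1728) := by
    rw [z.ord_mul (pow_ne_zero _ hj0) (pow_ne_zero _ hj1728), ord_pow, ord_pow]
    push_cast
    rw [hq1]
  obtain ⟨H1, rfl⟩ := hμ
  have hA : OrdGe z ((μ : ℤ) * e + 0) (aeval jE ((X - C j0) ^ μ * H1)) := by
    rw [map_mul, map_pow, map_sub, aeval_X, aeval_C]
    exact (ordGe_pow he μ).mul ((ordGe_zero_iff_mem z _).mpr (aeval_mem z hjO H1))
  have hB : OrdGe z (((6 : ℕ) : ℤ) * (((q - 1 : ℕ) : ℤ) * ((e : ℤ) - 1) + 0))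
      ((gj ^ (q - 1) * X') ^ 6) :=
    ordGe_pow ((ordGe_pow hgjO (q - 1)).mul ((ordGe_zero_iff_mem z _).mpr hX)) 6
  have hL := hB.mul hA
  rw [hY] at hL
  have := hL.le hR0
  rw [hRord, hq1] at this
  push_cast at this
  linarith

/-- **`d̄` has a pole at the supersingular points over `j = 0`** of ramification `e ≥ 3`
(`1728 ≠ 0` in `k`, `X⁴ ∣ H`). -/
theorem dbar_not_mem_zero (hPB : HasPBasis q ↥E) (z : Place k ↥E) {u d jE : ↥E} (c : k)
    (hu : z.ord (u - algebraMap k ↥E c) = 1)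
    (hθ : thetaL (d : LaurentSeries k) =
      (u : LaurentSeries k) ^ (q - 1) * thetaL (u : LaurentSeries k) -
        thetaL (u : LaurentSeries k) ^ q)
    (hj : (jE : LaurentSeries k) = jqModC k)
    {H : k[X]} (hH : aeval (jqModC k) H = (H21_DL k ^ (q - 1))⁻¹)
    (h1728 : (1728 : k) ≠ 0) (hμ : (X : k[X]) ^ 4 ∣ H) (he : 3 ≤ z.ord jE) :
    d ∉ z.toValuationSubring := by
  intro hd
  have hq : q.Prime := Fact.out
  have hj0 : jE ≠ 0 := ne_zero_of_ord_ne_zero z (by omega)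
  have he' : OrdGe z ((z.ord jE).toNat : ℤ) (jE - algebraMap k ↥E 0) := by
    rw [map_zero, sub_zero, Int.toNat_of_nonneg (by omega)]
    exact Or.inr le_rfl
  have hx : OrdGe z 1 (jE - algebraMap k ↥E 0) := by
    rw [map_zero, sub_zero]
    exact Or.inr (by omega)
  have h2 := ord_sub_const z hx (Ne.symm h1728)
  have hμ' : (X - C (0 : k)) ^ 4 ∣ H := by rwa [map_zero, sub_zero]
  have := dbar_mem_ineq hPB z c hu hθ hj hH he' (by omega) hμ' hj0 h2.1 hd
  rw [h2.2, Int.toNat_of_nonneg (by omega)] at this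
  have hq2 : (2 : ℤ) ≤ q := by exact_mod_cast hq.two_le
  push_cast at this
  nlinarith

/-- **`d̄` has a pole at the supersingular points over `j = 1728`** of ramification `e ≥ 2`
(`1728 ≠ 0` in `k`, `(X - 1728)⁶ ∣ H`). -/
theorem dbar_not_mem_1728 (hPB : HasPBasis q ↥E) (z : Place k ↥E) {u d jE : ↥E} (c : k)
    (hu : z.ord (u - algebraMap k ↥E c) = 1)
    (hθ : thetaL (d : LaurentSeries k) =
      (u : LaurentSeries k) ^ (q - 1) * thetaL (u : LaurentSeries k) -
        thetaL (u : LaurentSeries k) ^ q)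
    (hj : (jE : LaurentSeries k) = jqModC k)
    {H : k[X]} (hH : aeval (jqModC k) H = (H21_DL k ^ (q - 1))⁻¹)
    (h1728 : (1728 : k) ≠ 0) (hμ : (X - C (1728 : k)) ^ 6 ∣ H)
    (he : 2 ≤ z.ord (jE - algebraMap k ↥E 1728)) :
    d ∉ z.toValuationSubring := by
  intro hd
  have hq : q.Prime := Fact.out
  have hj1 : jE - algebraMap k ↥E 1728 ≠ 0 := ne_zero_of_ord_ne_zero z (by omega)
  have he' : OrdGe z ((z.ord (jE - algebraMap k ↥E 1728)).toNat : ℤ)
      (jE - algebraMap k ↥E 1728) := by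
    rw [Int.toNat_of_nonneg (by omega)]
    exact Or.inr le_rfl
  have hx : OrdGe z 1 (jE - algebraMap k ↥E 1728) := Or.inr (by omega)
  have h2 := ord_sub_const z hx (b := 0) h1728
  rw [map_zero, sub_zero] at h2
  have := dbar_mem_ineq hPB z c hu hθ hj hH he' (by omega) hμ h2.1 hj1 hd
  rw [h2.2, Int.toNat_of_nonneg (by omega)] at this
  have hq2 : (2 : ℤ) ≤ q := by exact_mod_cast hq.two_le
  push_cast at this
  nlinarith

end GPole

end Fermat.Agent.S36.NU.H73
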