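import Fermat.Agent.RED.H29_Mod3Forms
import Fermat.Agent.BAD.H21_RamSeries
import Mathlib.RingTheory.PowerSeries.Expand

/-!
# A weight-4 identity on `Γ₀(4)` (S36 / NU-B / COORD, step 1; helper73)

With `P = E₂`, `Q = E₄` (integral `q`-expansions) and `f_d = f(q^d)`:

  `Q - 16 Q₄ = 5 (P - 4 P₄) (P - 4 P₂ + 4 P₄)`     (`lev4_identity`).

Proof: `4 E₄ - 64 E₄(4z) + 20 g₄ (g₄ - 2 g₂)`, `g_N = N E₂(Nz) - E₂(z)`, is a modular form of weight
`4` on `Γ₀(4)` (index `6`) whose first three coefficients vanish (Sturm bound `= 2`).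

This is the input for `θ u = u (P - 4 P₄)`-calculus: `F = P - 4 P₄` satisfies
`3 θ F = F (5 P₂ - P - 4 P₄)`, whence `F¹² Δ⁴ Δ₄⁴ = 3¹² Δ₂¹⁰` (`H73_UnitTheta.lean`).
-/

set_option autoImplicit false

open UpperHalfPlane ModularForm EisensteinSeries CongruenceSubgroup
open scoped MatrixGroups ModularForm Manifold

noncomputable section

namespace Fermat.Agent.S36.NU.H73

open Fermat.Agent.S23.H22 Fermat.Agent.S23 PowerSeries Fermat.Agent.RED.H29 Fermat.Agent.BAD.H21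
  Fermat.Agent.S23.H96

/-! ### Tools -/

/-- The Sturm bound for `Γ₀(4)`: a form of weight `k` whose first `k / 2 + 1` coefficients vanish
is zero. -/
theorem sturm4 {k : ℤ} (f : ModularForm (Gamma0 4) k)
    (h : ∀ n : ℕ, n ≤ (k * 6).toNat / 12 → (qExpansion 1 f).coeff n = 0) : f = 0 := by
  have hidx : (Gamma0 4).index = 6 := by
    rw [Fermat.Agent.S20.H19.G1]
    unfold ModularCurve.dedekindPsi
    have hd : Nat.divisors 4 = {1, 2, 4} := by decide +kernel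
    rw [hd, Finset.sum_filter]
    have h2 : Squarefree 2 := Nat.prime_two.squarefree
    have h4 : ¬ Squarefree 4 := by
      intro h
      have := h 2 ⟨1, by norm_num⟩
      simp at this
    simp [h2, h4]
  refine ModularForm.sturm_bound_Gamma0 4 f fun n hn => h n ?_
  rw [hidx] at hn
  exact hn

/-- Truncation at order `3`. -/
theorem X_pow_three_dvd_sub (P : PowerSeries ℂ) (c0 c1 c2 : ℂ) (h0 : P.coeff 0 = c0)
    (h1 : P.coeff 1 = c1) (h2 : P.coeff 2 = c2) :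
    (X : PowerSeries ℂ) ^ 3 ∣ P - (C c0 + C c1 * X + C c2 * X ^ 2) := by
  rw [PowerSeries.X_pow_dvd_iff]
  intro m hm
  have h0' : PowerSeries.constantCoeff P = c0 := by
    rw [← PowerSeries.coeff_zero_eq_constantCoeff_apply]
    exact h0
  interval_cases m
  · simp [h0']
  · simp [h1, PowerSeries.coeff_X_pow]
  · simp [h2, PowerSeries.coeff_X_pow]

/-- The quotient map modulo `X ^ 3`. -/
abbrev pi3 : PowerSeries ℂ →+* PowerSeries ℂ ⧸ Ideal.span {(X : PowerSeries ℂ) ^ 3} :=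
  Ideal.Quotient.mk _

theorem pi3_eq_of_dvd {P Q : PowerSeries ℂ} (h : (X : PowerSeries ℂ) ^ 3 ∣ P - Q) :
    pi3 P = pi3 Q := by
  rw [Ideal.Quotient.eq, Ideal.mem_span_singleton]
  exact h

theorem coeff_eq_zero_of_pi3 {P : PowerSeries ℂ} (h : pi3 P = 0) (n : ℕ) (hn : n ≤ 2) :
    P.coeff n = 0 := by
  rw [Ideal.Quotient.eq_zero_iff_mem, Ideal.mem_span_singleton, PowerSeries.X_pow_dvd_iff] at h
  exact h n (by omega)

theorem pi3_eq_zero_of_eq_mul {P : PowerSeries ℂ} (s : PowerSeries ℂ) (h : P = X ^ 3 * s) :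
    pi3 P = 0 := by
  rw [Ideal.Quotient.eq_zero_iff_mem, Ideal.mem_span_singleton]
  exact ⟨s, h⟩

/-! ### The forms -/

theorem G0_four_le_two : G0 4 ≤ G0 2 := by
  rintro _ ⟨γ, hγ, rfl⟩
  refine ⟨γ, ?_, rfl⟩
  rw [SetLike.mem_coe, Gamma0_mem] at hγ ⊢
  have h4 : ((4 : ℕ) : ℤ) ∣ γ.1 1 0 := (ZMod.intCast_zmod_eq_zero_iff_dvd _ 4).mp hγ
  exact (ZMod.intCast_zmod_eq_zero_iff_dvd _ 2).mpr (dvd_trans ⟨2, by norm_num⟩ h4)

/-- `E₄` on `Γ₀(4)`. -/
def E4r4 : ModularForm (Gamma0 4) 4 := Fermat.Agent.S20.H29.restrictLevel (G0_le_SL 4) E₄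

/-- `g₄ = 4 E₂(4z) - E₂(z)`. -/
def g4 : ModularForm (Gamma0 4) 2 := Fermat.Agent.S16.H6.eisForm 4

/-- `g₂ = 2 E₂(2z) - E₂(z)` on `Γ₀(2)`. -/
def g2 : ModularForm (Gamma0 2) 2 := Fermat.Agent.S16.H6.eisForm 2

/-- `g₂` on `Γ₀(4)`. -/
def g2r : ModularForm (Gamma0 4) 2 := Fermat.Agent.S20.H29.restrictLevel G0_four_le_two g2

/-- `64 E₄(4z)`. -/
def E4t4 : ModularForm (Gamma0 4) 4 := levelRaise 4 E₄

theorem coeff_qExp_g4 (m : ℕ) : (qExpansion 1 g4).coeff m = Fermat.Agent.S16.H6.eisCoeff 4 m := by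
  have hsum : ∀ τ : ℍ, HasSum (fun m : ℕ ↦ Fermat.Agent.S16.H6.eisCoeff 4 m
      • Function.Periodic.qParam 1 (τ : ℂ) ^ m) (g4 τ) := fun τ =>
    Fermat.Agent.S16.H6.hasSum_eisFun 4 (by norm_num) τ
  exact (ModularFormClass.qExpansion_coeff_unique (f := g4) one_pos
    (CongruenceSubgroup.one_mem_strictPeriods_Gamma0 4) hsum m).symm

theorem coeff_qExp_g2 (m : ℕ) : (qExpansion 1 g2).coeff m = Fermat.Agent.S16.H6.eisCoeff 2 m := by
  have hsum : ∀ τ : ℍ, HasSum (fun m : ℕ ↦ Fermat.Agent.S16.H6.eisCoeff 2 m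
      • Function.Periodic.qParam 1 (τ : ℂ) ^ m) (g2 τ) := fun τ =>
    Fermat.Agent.S16.H6.hasSum_eisFun 2 (by norm_num) τ
  exact (ModularFormClass.qExpansion_coeff_unique (f := g2) one_pos
    (CongruenceSubgroup.one_mem_strictPeriods_Gamma0 2) hsum m).symm

theorem coeff_qExp_E4t4 (n : ℕ) : (qExpansion 1 E4t4).coeff n
    = if 4 ∣ n then 64 * (qExpansion 1 E₄).coeff (n / 4) else 0 := by
  have h := qExpansion_levelRaise_coeff 4 (k := 4) E₄ n
  rw [show ((4 : ℕ) : ℂ) ^ ((4 : ℤ) - 1) = 64 by norm_num] at h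
  exact h

/-! ### Truncations -/

theorem trunc3_E4 : (X : PowerSeries ℂ) ^ 3 ∣ qExpansion 1 E₄ -
    (C 1 + C 240 * X + C 2160 * X ^ 2) := by
  apply X_pow_three_dvd_sub <;> rw [coeff_qExp_E4]
  · simp
  · have : ArithmeticFunction.sigma 3 1 = 1 := by decide +kernel
    simp [this]
  · have : ArithmeticFunction.sigma 3 2 = 9 := by decide +kernel
    simp [this]; norm_num

theorem trunc3_g4 : (X : PowerSeries ℂ) ^ 3 ∣ qExpansion 1 g4 -
    (C 3 + C 24 * X + C 72 * X ^ 2) := by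
  apply X_pow_three_dvd_sub <;> rw [coeff_qExp_g4] <;>
    simp only [Fermat.Agent.S16.H6.eisCoeff, Fermat.Agent.S20.H70.E2coeff]
  · norm_num
  · have : ArithmeticFunction.sigma 1 1 = 1 := by decide +kernel
    simp [this]
  · have : ArithmeticFunction.sigma 1 2 = 3 := by decide +kernel
    simp [this]; norm_num

theorem trunc3_g2 : (X : PowerSeries ℂ) ^ 3 ∣ qExpansion 1 g2 -
    (C 1 + C 24 * X + C 24 * X ^ 2) := by
  apply X_pow_three_dvd_sub <;> rw [coeff_qExp_g2] <;>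
    simp only [Fermat.Agent.S16.H6.eisCoeff, Fermat.Agent.S20.H70.E2coeff]
  · norm_num
  · have : ArithmeticFunction.sigma 1 1 = 1 := by decide +kernel
    simp [this]
  · have : ArithmeticFunction.sigma 1 2 = 3 := by decide +kernel
    have h1 : ArithmeticFunction.sigma 1 1 = 1 := by decide +kernel
    simp [this, h1]; norm_num

theorem trunc3_E4t4 : (X : PowerSeries ℂ) ^ 3 ∣ qExpansion 1 E4t4 -
    (C 64 + C 0 * X + C 0 * X ^ 2) := by
  apply X_pow_three_dvd_sub <;> rw [coeff_qExp_E4t4, coeff_qExp_E4]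
  · simp
  · norm_num
  · norm_num

/-! ### The form `D = 4 E₄ - 64 E₄(4z) + 20 g₄ (g₄ - 2 g₂)` -/

/-- `4 E₄ - 64 E₄(4z) + 20 g₄ (g₄ - 2 g₂)`. -/
def D44 : ModularForm (Gamma0 4) 4 :=
  (4 : ℂ) • E4r4 - E4t4 + (20 : ℂ) • ModularForm.mcast (by norm_num) (g4.mul (g4 - (2 : ℂ) • g2r))

theorem nice_g4 : Nice 1 (g4 : ℍ → ℂ) := nice_G0 4 g4
theorem nice_g2 : Nice 1 (g2 : ℍ → ℂ) := nice_G0 2 g2
theorem nice_E4t4 : Nice 1 (E4t4 : ℍ → ℂ) := nice_G0 4 E4t4

theorem coe_D44 : (D44 : ℍ → ℂ) = (4 : ℂ) • (E₄ : ℍ → ℂ) - (E4t4 : ℍ → ℂ)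
    + (20 : ℂ) • ((g4 : ℍ → ℂ) * ((g4 : ℍ → ℂ) - (2 : ℂ) • (g2 : ℍ → ℂ))) := by
  ext z
  simp [D44, E4r4, g2r]
  rfl

/-- The `q`-expansion of `g₄`. -/
abbrev g4S : PowerSeries ℂ := qExpansion 1 (g4 : ℍ → ℂ)

/-- The `q`-expansion of `g₂`. -/
abbrev g2S : PowerSeries ℂ := qExpansion 1 (g2 : ℍ → ℂ)

/-- The `q`-expansion of `64 E₄(4z)`. -/
abbrev e4t4S : PowerSeries ℂ := qExpansion 1 (E4t4 : ℍ → ℂ)

theorem qExp_D44 : qExpansion 1 (D44 : ℍ → ℂ)
    = 4 * e4S - e4t4S + 20 * (g4S * (g4S - 2 * g2S)) := by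
  rw [coe_D44]
  have n1 := nice_g4.sub (nice_g2.smul 2)
  have n2 := nice_g4.mul n1
  rw [Nice.qExpansion_add one_pos ((nice_E4.smul 4).sub nice_E4t4) (n2.smul 20),
    Nice.qExpansion_sub one_pos (nice_E4.smul 4) nice_E4t4,
    Nice.qExpansion_smul one_pos nice_E4,
    Nice.qExpansion_smul one_pos n2,
    Nice.qExpansion_mul one_pos nice_g4 n1,
    Nice.qExpansion_sub one_pos nice_g4 (nice_g2.smul 2),
    Nice.qExpansion_smul one_pos nice_g2]
  simp only [PowerSeries.smul_eq_C_mul, map_ofNat]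

theorem pi3_g4S : pi3 g4S = pi3 (3 + 24 * X + 72 * X ^ 2) := by
  rw [pi3_eq_of_dvd trunc3_g4]
  simp only [map_ofNat]

theorem pi3_g2S : pi3 g2S = pi3 (1 + 24 * X + 24 * X ^ 2) := by
  rw [pi3_eq_of_dvd trunc3_g2]
  simp only [map_ofNat, map_one]

theorem pi3_e4S : pi3 e4S = pi3 (1 + 240 * X + 2160 * X ^ 2) := by
  rw [pi3_eq_of_dvd trunc3_E4]
  simp only [map_ofNat, map_one]

theorem pi3_e4t4S : pi3 e4t4S = pi3 64 := by
  rw [pi3_eq_of_dvd trunc3_E4t4]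
  congr 1
  simp only [map_ofNat, map_zero]
  ring

theorem check44 : pi3 (4 * e4S - e4t4S + 20 * (g4S * (g4S - 2 * g2S))) = 0 := by
  simp only [map_sub, map_add, map_mul, pi3_g4S, pi3_g2S, pi3_e4S, pi3_e4t4S]
  simp only [← map_mul, ← map_sub, ← map_add]
  apply pi3_eq_zero_of_eq_mul (-23040 + 34560 * X)
  ring

/-- `4 E₄ - 64 E₄(4z) + 20 g₄ (g₄ - 2 g₂) = 0` on `q`-expansions. -/
theorem series44 : 4 * e4S - e4t4S + 20 * (g4S * (g4S - 2 * g2S)) = 0 := by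
  have h0 : D44 = 0 := sturm4 D44 fun n hn => by
    have hq : qExpansion 1 D44 = _ := qExp_D44
    rw [hq]
    exact coeff_eq_zero_of_pi3 check44 n (hn.trans (by decide))
  have hq := qExp_D44
  rw [h0] at hq
  rw [← hq]
  exact qExpansion_zero 1

/-! ### Bridges to the integral series -/

/-- `E₂` over `ℂ`. -/
abbrev pC : PowerSeries ℂ := H21_e2Series.map (Int.castRingHom ℂ)

theorem E2coeff_eq_cast (m : ℕ) :
    Fermat.Agent.S20.H70.E2coeff m = ((H21_e2Series.coeff m : ℤ) : ℂ) := by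
  rw [H21_coeff_e2Series, Fermat.Agent.S20.H70.E2coeff]
  split_ifs <;> simp

theorem g4S_eq : g4S = 4 * PowerSeries.expand 4 four_ne_zero pC - pC := by
  ext n
  have h := coeff_qExp_g4 n
  rw [show (qExpansion 1 g4).coeff n = g4S.coeff n from rfl] at h
  rw [h, Fermat.Agent.S16.H6.eisCoeff, map_sub,
    show (4 : PowerSeries ℂ) = C (4 : ℂ) by rw [map_ofNat], PowerSeries.coeff_C_mul,
    PowerSeries.coeff_expand]
  split_ifs <;> simp [E2coeff_eq_cast]

theorem g2S_eq : g2S = 2 * PowerSeries.expand 2 two_ne_zero pC - pC := by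
  ext n
  have h := coeff_qExp_g2 n
  rw [show (qExpansion 1 g2).coeff n = g2S.coeff n from rfl] at h
  rw [h, Fermat.Agent.S16.H6.eisCoeff, map_sub,
    show (2 : PowerSeries ℂ) = C (2 : ℂ) by rw [map_ofNat], PowerSeries.coeff_C_mul,
    PowerSeries.coeff_expand]
  split_ifs <;> simp [E2coeff_eq_cast]

theorem e4t4S_eq : e4t4S = 64 * PowerSeries.expand 4 four_ne_zero e4S := by
  have h : e4t4S = C (64 : ℂ) * PowerSeries.expand 4 four_ne_zero e4S := by
    ext n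
    rw [PowerSeries.coeff_C_mul, PowerSeries.coeff_expand]
    have := coeff_qExp_E4t4 n
    rw [this]
    split_ifs <;> simp
  rw [h, map_ofNat]

/-- The identity over `ℂ`. -/
theorem lev4_identityC : e4S - 16 * PowerSeries.expand 4 four_ne_zero e4S
    = 5 * ((pC - 4 * PowerSeries.expand 4 four_ne_zero pC)
      * (pC - 4 * PowerSeries.expand 2 two_ne_zero pC + 4 * PowerSeries.expand 4 four_ne_zero pC)) := by
  have h := series44
  rw [e4t4S_eq, g4S_eq, g2S_eq] at h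
  have h4 : (4 : PowerSeries ℂ) ≠ 0 := by
    intro h0
    have := congrArg constantCoeff h0
    rw [map_ofNat, map_zero] at this
    norm_num at this
  apply mul_left_cancel₀ h4
  linear_combination h

/-- **The level-4 identity** `Q - 16 Q₄ = 5 (P - 4 P₄) (P - 4 P₂ + 4 P₄)` in `ℤ⟦q⟧`. -/
theorem lev4_identity : e4Series - 16 * PowerSeries.expand 4 four_ne_zero e4Series
    = 5 * ((H21_e2Series - 4 * PowerSeries.expand 4 four_ne_zero H21_e2Series)
      * (H21_e2Series - 4 * PowerSeries.expand 2 two_ne_zero H21_e2Series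
        + 4 * PowerSeries.expand 4 four_ne_zero H21_e2Series)) := by
  apply PowerSeries.map_injective (Int.castRingHom ℂ) Int.cast_injective
  simp only [map_mul, map_sub, map_add, map_ofNat, PowerSeries.map_expand]
  rw [← H96.qExpansion_E₄_eq]
  exact lev4_identityC

end Fermat.Agent.S36.NU.H73
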