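import Fermat.Agent.S36.NU.H73_GPole
import Fermat.Agent.S36.NU.H10_Eis

/-!
# POLE: `ord_z d̄ = -1` at the supersingular points (S36 / NU-B / POLE; helper73)

`pole_of_not_mem` : by (L1) `Ψ̄(ū^q) = d̄ (ū^{q²} - ū)` (helper10 `eis_red_L1`), if `d̄ ∉ O_z` at a
place `z` where `ū - c` is a coordinate, then `c ∈ 𝔽_{q²}` and `ord_z d̄ = -1`.
Together with GPOLE (`dbar_not_mem`, `dbar_not_mem_zero`, `dbar_not_mem_1728`):
`ord_dbar`, `ord_dbar_zero`, `ord_dbar_1728`.
-/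

set_option autoImplicit false

noncomputable section

open ModularCurve AlgebraicCurve IntermediateField Polynomial

namespace Fermat.Agent.S36.NU.H73

open Fermat.Agent.RED.H51 Fermat.Agent.BAD.H21

section Abstract

variable {k κ : Type*} [Field k] [Field κ] [Algebra k κ]

/-- **(L1) ⇒ simple pole and `c ∈ 𝔽_{q²}`.** -/
theorem pole_of_not_mem (q : ℕ) [hqp : Fact q.Prime] [CharP κ q] (z : Place k κ) {u d P : κ}
    (c : k) (hu : z.ord (u - algebraMap k κ c) = 1) (hL1 : P = d * (u ^ q ^ 2 - u))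
    (hP : P ∈ z.toValuationSubring) (hd : d ∉ z.toValuationSubring) :
    c ^ q ^ 2 = c ∧ z.ord d = -1 := by
  have hdneg : z.ord d < 0 := (not_mem_iff_ord_neg z).mp hd
  have hd0 : d ≠ 0 := ne_zero_of_ord_ne_zero z (by omega)
  have ht0 : u - algebraMap k κ c ≠ 0 := ne_zero_of_ord_ne_zero z (by rw [hu]; norm_num)
  have hq2 : 2 ≤ q ^ 2 := by
    calc 2 ≤ q := hqp.out.two_le
      _ = q ^ 1 := (pow_one q).symm
      _ ≤ q ^ 2 := Nat.pow_le_pow_right hqp.out.pos (by norm_num)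
  have hc : c ^ q ^ 2 = c := by
    by_contra hne
    have hkey : u ^ q ^ 2 - u = algebraMap k κ (c ^ q ^ 2 - c) +
        ((u - algebraMap k κ c) ^ q ^ 2 - (u - algebraMap k κ c)) := by
      have h1 : (u - algebraMap k κ c) ^ q ^ 2 = u ^ q ^ 2 - (algebraMap k κ c) ^ q ^ 2 :=
        sub_pow_char_pow u _ 2
      rw [h1, map_sub, map_pow]
      ring
    have ha : algebraMap k κ (c ^ q ^ 2 - c) ≠ 0 := by
      rw [Ne, map_eq_zero]
      exact sub_ne_zero.mpr hne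
    have ha0 : z.ord (algebraMap k κ (c ^ q ^ 2 - c)) = 0 := ord_algebraMap z _
    have hrest : OrdGe z 1 ((u - algebraMap k κ c) ^ q ^ 2 - (u - algebraMap k κ c)) := by
      refine OrdGe.sub ?_ (Or.inr hu.ge)
      refine Or.inr ?_
      rw [ord_pow, hu, mul_one]
      exact_mod_cast (by omega : 1 ≤ q ^ 2)
    have h1 := ord_add_eq z ha (g := (u - algebraMap k κ c) ^ q ^ 2 - (u - algebraMap k κ c))
      (by rw [ha0, zero_add]; exact hrest)
    rw [← hkey, ha0] at h1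
    have hP0 : P ≠ 0 := by rw [hL1]; exact mul_ne_zero hd0 h1.1
    have := (mem_iff_ord_nonneg z hP0).mp hP
    rw [hL1, z.ord_mul hd0 h1.1, h1.2] at this
    omega
  refine ⟨hc, ?_⟩
  have h2 : z.ord (u ^ q ^ 2 - u) = 1 :=
    Fermat.Agent.S36.NU.H10.ord_frob_sub q z u c hu (by norm_num) hc
  have h20 : u ^ q ^ 2 - u ≠ 0 := ne_zero_of_ord_ne_zero z (by rw [h2]; norm_num)
  have hP0 : P ≠ 0 := by rw [hL1]; exact mul_ne_zero hd0 h20
  have := (mem_iff_ord_nonneg z hP0).mp hP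
  rw [hL1, z.ord_mul hd0 h20, h2] at this
  omega

end Abstract

section Concrete

variable {k : Type*} [Field k] {q : ℕ} [Fact q.Prime] [CharP k q]
variable {E : IntermediateField k (LaurentSeries k)}

omit [Fact q.Prime] in
theorem charP_E : CharP ↥E q :=
  charP_of_injective_algebraMap (algebraMap k ↥E).injective q

/-- **POLE** (generic supersingular points): `ord_z d̄ = -1` and `ū(z) ∈ 𝔽_{q²}`. -/
theorem ord_dbar (hPB : HasPBasis q ↥E) (z : Place k ↥E) {u d jE P : ↥E} (c : k)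
    (hu : z.ord (u - algebraMap k ↥E c) = 1)
    (hθ : thetaL (d : LaurentSeries k) =
      (u : LaurentSeries k) ^ (q - 1) * thetaL (u : LaurentSeries k) -
        thetaL (u : LaurentSeries k) ^ q)
    (hj : (jE : LaurentSeries k) = jqModC k)
    {H : k[X]} (hH : aeval (jqModC k) H = (H21_DL k ^ (q - 1))⁻¹)
    {j0 : k} (hj0 : OrdGe z 1 (jE - algebraMap k ↥E j0)) (hroot : H.IsRoot j0)
    (h0 : j0 ≠ 0) (h1728 : j0 ≠ 1728)
    (hL1 : P = d * (u ^ q ^ 2 - u)) (hP : P ∈ z.toValuationSubring) :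
    c ^ q ^ 2 = c ∧ z.ord d = -1 :=
  haveI : CharP ↥E q := charP_E
  pole_of_not_mem q z c hu hL1 hP (dbar_not_mem hPB z c hu hθ hj hH hj0 hroot h0 h1728)

/-- **POLE** over `j = 0` (ramification `≥ 3`). -/
theorem ord_dbar_zero (hPB : HasPBasis q ↥E) (z : Place k ↥E) {u d jE P : ↥E} (c : k)
    (hu : z.ord (u - algebraMap k ↥E c) = 1)
    (hθ : thetaL (d : LaurentSeries k) =
      (u : LaurentSeries k) ^ (q - 1) * thetaL (u : LaurentSeries k) -
        thetaL (u : LaurentSeries k) ^ q)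
    (hj : (jE : LaurentSeries k) = jqModC k)
    {H : k[X]} (hH : aeval (jqModC k) H = (H21_DL k ^ (q - 1))⁻¹)
    (h1728 : (1728 : k) ≠ 0) (hμ : (X : k[X]) ^ 4 ∣ H) (he : 3 ≤ z.ord jE)
    (hL1 : P = d * (u ^ q ^ 2 - u)) (hP : P ∈ z.toValuationSubring) :
    c ^ q ^ 2 = c ∧ z.ord d = -1 :=
  haveI : CharP ↥E q := charP_E
  pole_of_not_mem q z c hu hL1 hP (dbar_not_mem_zero hPB z c hu hθ hj hH h1728 hμ he)

/-- **POLE** over `j = 1728` (ramification `≥ 2`). -/
theorem ord_dbar_1728 (hPB : HasPBasis q ↥E) (z : Place k ↥E) {u d jE P : ↥E} (c : k)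
    (hu : z.ord (u - algebraMap k ↥E c) = 1)
    (hθ : thetaL (d : LaurentSeries k) =
      (u : LaurentSeries k) ^ (q - 1) * thetaL (u : LaurentSeries k) -
        thetaL (u : LaurentSeries k) ^ q)
    (hj : (jE : LaurentSeries k) = jqModC k)
    {H : k[X]} (hH : aeval (jqModC k) H = (H21_DL k ^ (q - 1))⁻¹)
    (h1728 : (1728 : k) ≠ 0) (hμ : (X - C (1728 : k)) ^ 6 ∣ H)
    (he : 2 ≤ z.ord (jE - algebraMap k ↥E 1728))
    (hL1 : P = d * (u ^ q ^ 2 - u)) (hP : P ∈ z.toValuationSubring) :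
    c ^ q ^ 2 = c ∧ z.ord d = -1 :=
  haveI : CharP ↥E q := charP_E
  pole_of_not_mem q z c hu hL1 hP (dbar_not_mem_1728 hPB z c hu hθ hj hH h1728 hμ he)

end Concrete

end Fermat.Agent.S36.NU.H73
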