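import Fermat.Agent.S36.NU.H73_CoordC
import Fermat.Agent.S36.NU.H73_Pole
import Fermat.Agent.S36.NU.H30_RamFull

/-!
# COORD + RAM + POLE at the supersingular points, `q ≥ 5`, `4 ∣ M'` (S36 / NU-B; helper73)

`κ = modularFunctionFieldFullC (kV A) M'`, `A` over `q ≥ 5`, `q ∤ M'`, `4 ∣ M'`.

* (COORD, unconditional, is helper30's `H30.coord_u4_final` = `coord_u4_full` + `ram_exists`.)
* `ss_mult` : the supersingular polynomial `H` (helper21) with its multiplicities at `0`, `1728`.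
* `pole_coord_full` : **N5 input**.  At every supersingular place `z` (a zero of
  `H(j̄) = Δ̄^{1-q}`, the reduction of `Δ(t)/Δ(t^q)`), for `d̄` with THETA and (L1):
  `∃ c, ord_z (ū - c) = 1 ∧ c^{q²} = c ∧ ord_z d̄ = -1`.
-/

set_option autoImplicit false
set_option synthInstance.maxHeartbeats 400000
set_option maxHeartbeats 1000000

noncomputable section

open ModularCurve AlgebraicCurve Fermat.Agent.S28.H73 Fermat.Agent.RED.H73 Fermat.Agent.BAD.H88
  Fermat.Agent.BAD.H82 Fermat.Agent.S24 Fermat.Agent.S28 Polynomial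

namespace Fermat.Agent.S36.NU.H73

open Fermat.Agent.BAD.H73 Fermat.Agent.RED.H51 Fermat.Agent.BAD.H30 Fermat.Agent.BAD.H21

section SS

variable {F : Type*} [Field F] {ℓ : ℕ} [hℓ : Fact ℓ.Prime] [CharP F ℓ]

/-- **(SS) with multiplicities**: `H(j̃) = Δ̃^{1-ℓ}`, and `H` is divisible by `X⁴` if `0` is
supersingular, by `(X - 1728)⁶` if `1728` is supersingular. -/
theorem ss_mult (h5 : 5 ≤ ℓ) :
    ∃ H : F[X], H ≠ 0 ∧ aeval (jqModC F) H = (H21_DL F ^ (ℓ - 1))⁻¹ ∧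
      (H.IsRoot 0 → (X : F[X]) ^ 4 ∣ H) ∧ (H.IsRoot 1728 → (X - C (1728 : F)) ^ 6 ∣ H) := by
  obtain ⟨d⟩ := H21_exists_ssData (F := F) (ℓ := ℓ) h5
  have hw := H21_ss_weight hℓ.out h5
  have hdeg : d.H.natDegree ≤ ℓ - 1 := by
    rw [hw]; exact d.natDegree_H_le
  have hH : Fermat.Agent.S16.H41.hev (H21_Qb F ^ 3) (H21_Db F) (ℓ - 1) d.H = 1 := by
    rw [hw]; exact d.hev_H_series
  refine ⟨d.H, ?_, H21_aeval_jqModC hdeg hH, ?_, ?_⟩
  · intro h0
    rw [h0, Fermat.Agent.S16.H41.hev_zero] at hH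
    exact zero_ne_one hH
  · intro hr
    rw [d.isRoot_H_iff] at hr
    have ha : H21_ssA ℓ ≠ 0 := by
      rcases hr with ⟨h, -⟩ | ⟨-, h⟩ | h
      · exact h
      · exact absurd h.symm d.h1728
      · exact absurd h d.not_isRoot_zero
    unfold H21_SSData.H
    exact Dvd.dvd.mul_right (Dvd.dvd.mul_right (pow_dvd_pow _ (by omega)) _) _
  · intro hr
    rw [d.isRoot_H_iff] at hr
    have hb : H21_ssB ℓ ≠ 0 := by
      rcases hr with ⟨-, h⟩ | ⟨h, -⟩ | h
      · exact absurd h d.h1728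
      · exact h
      · exact absurd h d.not_isRoot_1728
    unfold H21_SSData.H
    exact Dvd.dvd.mul_right (Dvd.dvd.mul_left (pow_dvd_pow _ (by omega)) _) _

end SS

section Abs

variable {k : Type*} [Field k] {E : IntermediateField k (LaurentSeries k)}

/-- A zero of `H(x)` lies over a root of `H`. -/
theorem isRoot_of_ord_pos (z : Place k ↥E) {x : ↥E} {a : k}
    (hx : OrdGe z 1 (x - algebraMap k ↥E a)) {H : k[X]} (h : 0 < z.ord (aeval x H)) :
    H.IsRoot a := by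
  by_contra hr
  have hne : H.eval a ≠ 0 := hr
  obtain ⟨H1, hH1⟩ := Polynomial.X_sub_C_dvd_sub_C_eval (a := a) (p := H)
  have hdec : aeval x H = algebraMap k ↥E (H.eval a) + (x - algebraMap k ↥E a) * aeval x H1 := by
    have := congrArg (aeval x) hH1
    rw [map_sub, aeval_C, map_mul, map_sub, aeval_X, aeval_C] at this
    rw [← this]
    ring
  have hc : algebraMap k ↥E (H.eval a) ≠ 0 := by
    rw [Ne, map_eq_zero]; exact hne
  have hxO : x ∈ z.toValuationSubring := mem_of_ordGe_sub z hx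
  have h1 := ord_add_eq z hc (g := (x - algebraMap k ↥E a) * aeval x H1) (by
    rw [ord_algebraMap, zero_add]
    have := hx.mul ((ordGe_zero_iff_mem z _).mpr (aeval_mem z hxO H1))
    exact this.mono (by omega))
  rw [← hdec, ord_algebraMap] at h1
  omega

end Abs

section Concrete

variable (A : ValuationSubring Kbar) (q : ℕ) (hq : q.Prime) (hA : A.LiesOverPrime q)
variable (M' : ℕ) [NeZero M']

include hq hA in
/-- **COORD + POLE at the supersingular points** (`q ≥ 5`, `q ∤ M'`, `4 ∣ M'`).  `z` a place of `κ`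
at which `j̄` is regular and `Δ̄^{1-q} = H(j̄)` vanishes; `d̄ ∈ κ` with THETA for `ū = Δ̄(t)/Δ̄(t⁴)` and
(L1).  Then `ū - c` is a uniformizer at `z` for some `c ∈ 𝔽_{q²}` and `d̄` has a simple pole. -/
theorem pole_coord_full (hqM : ¬ q ∣ M') (h5 : 5 ≤ q) (h4 : 4 ∣ M')
    (z : Place (kV A) ↥(modularFunctionFieldFullC (kV A) M'))
    (hz : 0 ≤ z.ord (⟨jqModC (kV A), jqModC_mem_full (kV A) M'⟩ :
      ↥(modularFunctionFieldFullC (kV A) M')))
    {sE d P : ↥(modularFunctionFieldFullC (kV A) M')}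
    (hs : (sE : LaurentSeries (kV A)) = (deltaR (kV A) ^ (q - 1))⁻¹) (hss : 0 < z.ord sE)
    (hθ : thetaL (d : LaurentSeries (kV A)) =
      ubar4 (kV A) ^ (q - 1) * thetaL (ubar4 (kV A)) - thetaL (ubar4 (kV A)) ^ q)
    (hL1 : P = d * ((⟨ubar4 (kV A), ubar4_mem A q hq hA M' hqM h4⟩ :
        ↥(modularFunctionFieldFullC (kV A) M')) ^ q ^ 2
      - ⟨ubar4 (kV A), ubar4_mem A q hq hA M' hqM h4⟩))
    (hP : P ∈ z.toValuationSubring) :
    ∃ c : kV A, z.ord ((⟨ubar4 (kV A), ubar4_mem A q hq hA M' hqM h4⟩ :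
          ↥(modularFunctionFieldFullC (kV A) M'))
        - algebraMap (kV A) ↥(modularFunctionFieldFullC (kV A) M') c) = 1 ∧
      c ^ q ^ 2 = c ∧ z.ord d = -1 := by
  have : Fact q.Prime := ⟨hq⟩
  have : CharP (kV A) q := charP_kV A hq hA
  have hPB := hasPBasis_fullC A q hq hA M' hqM
  obtain ⟨j0, e, hram, hcase⟩ := Fermat.Agent.S36.NU.H30.ram_exists hq h5 hqM hA h4 z hz
  obtain ⟨-, c, hc⟩ := coord_u4_full A q hq hA M' hqM h5 h4 z j0 e hram hcase
  refine ⟨c, hc, ?_⟩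
  obtain ⟨H, -, hH, hμ0, hμ1⟩ := ss_mult (F := kV A) (ℓ := q) h5
  set jE : ↥(modularFunctionFieldFullC (kV A) M') :=
    ⟨jqModC (kV A), jqModC_mem_full (kV A) M'⟩ with hjE
  have he1 : 1 ≤ e := by
    rcases hcase with ⟨-, -, h⟩ | ⟨-, h⟩ | ⟨-, h⟩ <;> omega
  have hj0 : OrdGe z 1 (jE - algebraMap (kV A) ↥(modularFunctionFieldFullC (kV A) M') j0) :=
    Or.inr (by rw [hram]; exact_mod_cast he1)
  have hsE : sE = aeval jE H := by
    apply Subtype.ext
    rw [hs, deltaR_eq_DL, ← hH, ← IntermediateField.aeval_coe]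
  have hroot : H.IsRoot j0 := isRoot_of_ord_pos z hj0 (hsE ▸ hss)
  have h2k : (2 : kV A) ≠ 0 := two_ne_zero_of_five_le h5
  have h3k : (3 : kV A) ≠ 0 := three_ne_zero_of_five_le h5
  have h1728k : (1728 : kV A) ≠ 0 := by
    rw [show (1728 : kV A) = 2 ^ 6 * 3 ^ 3 by norm_num]
    exact mul_ne_zero (pow_ne_zero _ h2k) (pow_ne_zero _ h3k)
  rcases hcase with ⟨h0, h1728, -⟩ | ⟨rfl, rfl⟩ | ⟨rfl, rfl⟩
  · exact ord_dbar hPB z c hc hθ rfl hH hj0 hroot h0 h1728 hL1 hP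
  · rw [map_zero, sub_zero] at hram
    exact ord_dbar_zero hPB z c hc hθ rfl hH h1728k (hμ0 hroot) (by rw [hram]; norm_num) hL1 hP
  · exact ord_dbar_1728 hPB z c hc hθ rfl hH h1728k (hμ1 hroot) (by rw [hram]; norm_num) hL1 hP

omit [NeZero M'] in
/-- THETA for `ū`: if `d̄` is the reduction of `δ ∈ ℤ((t))` with `q δ = u^q - u(t^q)`, `u = uZ4`
(e.g. `deltaZ q uZ4`, or helper65's `kdel q uZ4`), then
`θ d̄ = ū^{q-1} θ ū - (θ ū)^q`. -/
theorem thetaL_dbar_u4 [Fact q.Prime] (k : Type*) [Field k] [CharP k q] (δZ : LaurentSeries ℤ)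
    (hspec : (q : LaurentSeries ℤ) * δZ = uZ4 ^ q - qExpand ℤ q uZ4) :
    thetaL (coeffMap (Int.castRingHom k) δZ) =
      ubar4 k ^ (q - 1) * thetaL (ubar4 k) - thetaL (ubar4 k) ^ q := by
  have h := thetaL_dbar_of_int (k := k) (q := q) uZ4 δZ hspec
  rw [coeffMap_uZ4] at h
  exact h

include hA in
/-- `pole_coord_full` for `d̄` = the reduction of an integral `δ` with `q δ = u^q - u(t^q)`. -/
theorem pole_coord_int [Fact q.Prime] (hqM : ¬ q ∣ M') (h5 : 5 ≤ q) (h4 : 4 ∣ M')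
    (z : Place (kV A) ↥(modularFunctionFieldFullC (kV A) M'))
    (hz : 0 ≤ z.ord (⟨jqModC (kV A), jqModC_mem_full (kV A) M'⟩ :
      ↥(modularFunctionFieldFullC (kV A) M')))
    {sE d P : ↥(modularFunctionFieldFullC (kV A) M')}
    (hs : (sE : LaurentSeries (kV A)) = (deltaR (kV A) ^ (q - 1))⁻¹) (hss : 0 < z.ord sE)
    (δZ : LaurentSeries ℤ)
    (hspec : (q : LaurentSeries ℤ) * δZ = uZ4 ^ q - qExpand ℤ q uZ4)
    (hd : (d : LaurentSeries (kV A)) = coeffMap (Int.castRingHom (kV A)) δZ)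
    (hL1 : P = d * ((⟨ubar4 (kV A), ubar4_mem A q Fact.out hA M' hqM h4⟩ :
        ↥(modularFunctionFieldFullC (kV A) M')) ^ q ^ 2
      - ⟨ubar4 (kV A), ubar4_mem A q Fact.out hA M' hqM h4⟩))
    (hP : P ∈ z.toValuationSubring) :
    ∃ c : kV A, z.ord ((⟨ubar4 (kV A), ubar4_mem A q Fact.out hA M' hqM h4⟩ :
          ↥(modularFunctionFieldFullC (kV A) M'))
        - algebraMap (kV A) ↥(modularFunctionFieldFullC (kV A) M') c) = 1 ∧
      c ^ q ^ 2 = c ∧ z.ord d = -1 := by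
  have : CharP (kV A) q := charP_kV A Fact.out hA
  exact pole_coord_full A q Fact.out hA M' hqM h5 h4 z hz hs hss
    (hd ▸ thetaL_dbar_u4 q (kV A) δZ hspec) hL1 hP

end Concrete

end Fermat.Agent.S36.NU.H73
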