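import Fermat.Agent.S36.NU.H16_LocEqSSMod
import Fermat.Agent.S36.NU.H99_OrdMod3
import Fermat.Agent.S36.NU.H74_FinHyps

/-!
# S36 / NU-B, leaf HSS-ASM, generic core (helper74)

Setting of helper23's `totM` (level `N = M q²`, `q ∤ M` tame, `C = FM A M`), a chart `C` with
helper99's `ChartL0` hypotheses (valuation rings `V20o`, `V11o`, `V02o`, indices `(1, q-1, 1)`,
`B` cut out of the integral closure of `K^ur[j]`), a coordinate `f ∈ F_M` with integral expansion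
`u₀` (`u = incAA f`, `u'' = incBB f`).

* `charP_FM` : the residue field of level `M` has characteristic `q`;
* `mem_B_uo`, `mem_B_u2o` : `u`, `u''` lie in `B` (from horizontal integrality and the three
  valuations);
* `hss_core_at` : **LOCEQ at one supersingular point** from the pole data
  (`ū - c` a local coordinate, `c ∈ 𝔽_{q²}`, `ord (rd (t₂₀/q)) = -q`): generic in `(f, u₀)`;
* `hss_core` : the hypothesis `hss` of `H99.pointData_of_dichotomy` on a set `SS` of points with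
  pole data.
-/

set_option autoImplicit false
set_option synthInstance.maxHeartbeats 400000
set_option maxHeartbeats 1000000
set_option linter.style.haveILetI false
set_option linter.unusedSectionVars false

noncomputable section

open ModularCurve AlgebraicCurve Polynomial

namespace Fermat.Agent.S36.NU.H74

open Fermat.Agent.S24 Fermat.Agent.BAD.H88 Fermat.Agent.S28 Fermat.Agent.S28.H73
  Fermat.Agent.RED.H73 Fermat.Agent.RED.H17 Fermat.Agent.S36.NU.H88 Fermat.Agent.S36.NU.H23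
  Fermat.Agent.S36.NU.H16 Fermat.Agent.S36.NU.H24 Fermat.Agent.S36.NU.H65
  Fermat.Agent.S36.NU.H79 Fermat.Agent.S36.NU.H41 Fermat.Agent.BAD Fermat.Agent.RED
  Fermat.Agent.S36.NU.H99

section Core

variable (A : ValuationSubring Kbar) (q M : ℕ) (B k : ℤ) (hB : B * M + k * q = 1) (hq : q.Prime)
  [NeZero M] [NeZero q] [NeZero (M * q)] [NeZero (M * q * q)]

include hq in
/-- The residue field of level `M` has characteristic `q`. -/
theorem charP_FM (hA : A.LiesOverPrime q) : CharP (FM A M) q := by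
  haveI : CharP (kV A) q := Fermat.Agent.BAD.H82.charP_kV A hq hA
  exact charP_of_injective_algebraMap (algebraMap (kV A) (FM A M)).injective q

variable {R : Type*} [CommRing R] [Algebra R ↥(L0 A (M * q * q))]

/-- The residue of `x` on the component `C₂₀` of a chart, as an element of `FM A M`. -/
def rd0 (C : @Chart R ↥(L0 A (M * q * q)) (kV A) (Fin 3) (kap3 (FM A M) (FM A M)) _ _ _ _ _
    (algkM A M)) (x : ↥(L0 A (M * q * q))) : FM A M :=
  @Chart.rd R ↥(L0 A (M * q * q)) (kV A) (Fin 3) (kap3 (FM A M) (FM A M)) _ _ _ _ _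
    (algkM A M) C 0 x

theorem rd0_eq (C : @Chart R ↥(L0 A (M * q * q)) (kV A) (Fin 3) (kap3 (FM A M) (FM A M)) _ _ _
    _ _ (algkM A M)) (x : ↥(L0 A (M * q * q))) :
    rd0 A q M C x = @Chart.rd R ↥(L0 A (M * q * q)) (kV A) (Fin 3) (kap3 (FM A M) (FM A M))
      _ _ _ _ _ (algkM A M) C 0 x := rfl

/-- `u = incAA f ∈ B`. -/
theorem mem_B_uo
    {k' ι : Type*} {κ : ι → Type*} [Field k'] [∀ i, Field (κ i)] [∀ i, Algebra k' (κ i)]
    {C : Chart R ↥(L0 A (M * q * q)) k' ι κ} {qR : R} {e : ι → ℕ} {i₂₀ i₁₁ i₀₂ : ι}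
    (S : ChartL0 A q M B k hB hq C qR e i₂₀ i₁₁ i₀₂)
    (f : FN M) (u₀ : LaurentSeries ℤ) (hf : (f : LaurentSeries Kbar) = H65.intSer Kbar u₀)
    (hint : IsIntegral ↥(Algebra.adjoin ↥(Kur A)
      ({j0 A (M * q * q)} : Set ↥(L0 A (M * q * q)))) (uo A q M f u₀ hf))
    (h20 : uo A q M f u₀ hf ∈ V20o A q M) (h11 : uo A q M f u₀ hf ∈ V11o A q M B k hB hq)
    (h02 : uo A q M f u₀ hf ∈ V02o A q M B k hB) : uo A q M f u₀ hf ∈ C.B :=
  S.mem_B hint h20 h11 h02

/-- `u'' = incBB f ∈ B`. -/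
theorem mem_B_u2o
    {k' ι : Type*} {κ : ι → Type*} [Field k'] [∀ i, Field (κ i)] [∀ i, Algebra k' (κ i)]
    {C : Chart R ↥(L0 A (M * q * q)) k' ι κ} {qR : R} {e : ι → ℕ} {i₂₀ i₁₁ i₀₂ : ι}
    (S : ChartL0 A q M B k hB hq C qR e i₂₀ i₁₁ i₀₂)
    (f : FN M) (u₀ : LaurentSeries ℤ) (hf : (f : LaurentSeries Kbar) = H65.intSer Kbar u₀)
    (hint : IsIntegral ↥(Algebra.adjoin ↥(Kur A)
      ({j0 A (M * q * q)} : Set ↥(L0 A (M * q * q)))) (u2o A q M f u₀ hf))
    (h20 : u2o A q M f u₀ hf ∈ V20o A q M) (h11 : u2o A q M f u₀ hf ∈ V11o A q M B k hB hq)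
    (h02 : u2o A q M f u₀ hf ∈ V02o A q M B k hB) : u2o A q M f u₀ hf ∈ C.B :=
  S.mem_B hint h20 h11 h02

include hB hq in
/-- **LOCEQ at one supersingular point**, generic in the coordinate `(f, u₀)`: from the pole
data at `z` (`ū - c` a local coordinate, `c ∈ 𝔽_{q²}`, `rd (t₂₀/q)` has a pole of order `q`), all
components pass through `𝔪_z` and there is a local equation datum at `𝔪_z`. -/
theorem hss_core_at (hA : A.LiesOverPrime q) :
    letI := algkM A M
    ∀ (C : Chart R ↥(L0 A (M * q * q)) (kV A) (Fin 3) (kap3 (FM A M) (FM A M)))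
      (qR : R) (e : Fin 3 → ℕ) (_ : ChartL0 A q M B k hB hq C qR e 0 1 2)
      (f : FN M) (u₀ : LaurentSeries ℤ) (hf : (f : LaurentSeries Kbar) = H65.intSer Kbar u₀)
      (_ : H65.ThetaNZ q (coeffMap (Int.castRingHom (kV A)) u₀))
      (_ : uo A q M f u₀ hf ∈ C.B) (_ : u2o A q M f u₀ hf ∈ C.B)
      (z : Place (kV A) (FM A M)) (c : kV A)
      (_ : z.ord (rd0 A q M C (uo A q M f u₀ hf) - algebraMap (kV A) (FM A M) c) = 1)
      (_ : c ^ q ^ 2 = c)
      (_ : z.ord (rd0 A q M C (d20o A q M f u₀ hf)) = -(q : ℤ))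
      (𝔪 : Ideal C.B) (_ : 𝔪.IsMaximal)
      (_ : ∀ β : C.B, β ∈ 𝔪 ↔ VanAt z (C.rdB 0 β)),
      (∀ i, C.Icomp i ≤ 𝔪) ∧ Nonempty (LocEq C qR 𝔪) := by
  letI := algkM A M
  intro C qR e S f u₀ hf hθ huB hu2B z c hu hc hd 𝔪 hmax hvan
  haveI : 𝔪.IsPrime := hmax.isPrime
  haveI : CharP (kap3 (FM A M) (FM A M) 0) q := charP_FM A q M hq hA
  exact locEq_ss_modV A q M B k hB hq C qR S.hqR hA S.hqV (ChartL0.Hint A q M) S.hBH
    (S.hqH (hq := hq)) S.critH e S.hE 0 1 2 S.hcases (by decide) (by decide) (by decide)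
    S.he₂₀ S.he₁₁ S.he₀₂ S.hV20 S.hV11 S.hV02 f u₀ hf hθ huB hu2B z c hu hc hd 𝔪 hvan

include hB hq in
/-- **The hypothesis `hss`** of `H99.pointData_of_dichotomy` on a set `SS` of points of the curve
of level `M` with pole data, generic in the coordinate `(f, u₀)`. -/
theorem hss_core (hA : A.LiesOverPrime q) :
    letI := algkM A M
    ∀ (C : Chart R ↥(L0 A (M * q * q)) (kV A) (Fin 3) (kap3 (FM A M) (FM A M)))
      (qR : R) (e : Fin 3 → ℕ) (_ : ChartL0 A q M B k hB hq C qR e 0 1 2)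
      (f : FN M) (u₀ : LaurentSeries ℤ) (hf : (f : LaurentSeries Kbar) = H65.intSer Kbar u₀)
      (_ : H65.ThetaNZ q (coeffMap (Int.castRingHom (kV A)) u₀))
      (_ : uo A q M f u₀ hf ∈ C.B) (_ : u2o A q M f u₀ hf ∈ C.B)
      (SS : Set (Place (kV A) (FM A M)))
      (_ : ∀ z ∈ SS, ∃ c : kV A,
        z.ord (rd0 A q M C (uo A q M f u₀ hf) - algebraMap (kV A) (FM A M) c) = 1 ∧
        c ^ q ^ 2 = c ∧ z.ord (rd0 A q M C (d20o A q M f u₀ hf)) = -(q : ℤ)),
      ∀ z ∈ SS, ∀ 𝔪 : Ideal C.B, 𝔪.IsMaximal →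
        (∀ β : C.B, β ∈ 𝔪 ↔ VanAt z (C.rdB 0 β)) → Nonempty (LocEq C qR 𝔪) := by
  letI := algkM A M
  intro C qR e S f u₀ hf hθ huB hu2B SS hpole z hz 𝔪 hmax hvan
  obtain ⟨c, hu, hc, hd⟩ := hpole z hz
  exact (hss_core_at A q M B k hB hq hA C qR e S f u₀ hf hθ huB hu2B z c hu hc hd 𝔪 hmax
    hvan).2

end Core

end Fermat.Agent.S36.NU.H74
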