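import Fermat.Agent.S36.NU.H99_OrdMod1
import Fermat.Agent.S36.NU.H16_LocEqSSMod

/-!
# S36 / NU-B, leaf HSS-ASM (helper74): horizontal integrality of the coordinates `u`, `u''`

`f ∈ F_M` a modular unit `Δ(t)/Δ(t^d)`, `d ∣ M`, or a root of one (`f ^ n = Δ(t)/Δ(t^d)`), with
integral expansion `u₀`; `u = incAA f = f(τ)`, `u'' = incBB f = f(q² τ)` in `F_{M q²}`.

* `isUnitOff_of_pow` : roots of units off the cusps are units off the cusps;
* `incAA_unitF`, `incBB_unitF_mul` : `u`, `u''` for `f = unitF M d` as quotients of the units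
  `unitF (M q²) _`;
* `isUnitOff_incAA_of_pow`, `isUnitOff_incBB_of_pow` : `u`, `u''` have neither zero nor pole off
  the cusps;
* `isIntegral_uo_of_pow`, `isIntegral_u2o_of_pow`, `isIntegral_uo_unitF`, `isIntegral_u2o_unitF` :
  **`u`, `u''` are integral over `K^ur[j]`** (the hypotheses `huI`, `hu2I` of `H16.hss_gen`).
-/

set_option autoImplicit false
set_option synthInstance.maxHeartbeats 400000
set_option maxHeartbeats 1000000
set_option linter.style.haveILetI false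
set_option linter.unusedSectionVars false

noncomputable section

open ModularCurve AlgebraicCurve IntermediateField

namespace Fermat.Agent.S36.NU.H74

open Fermat.Agent.S24 Fermat.Agent.BAD.H88 Fermat.Agent.BAD.H30 Fermat.Agent.BAD.H21
open Fermat.Agent.S28 Fermat.Agent.S28.H73 Fermat.Agent.RED.H73 Fermat.Agent.RED.H17
open Fermat.Agent.S36.NU.H88 Fermat.Agent.S36.NU.H23 Fermat.Agent.S36.NU.H16
open Fermat.Agent.S36.NU.H41 Fermat.Agent.RED Fermat.Agent.S36.NU.H99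

section UnitOff

variable {N : ℕ} [NeZero N]

/-- Roots of units off the cusps are units off the cusps. -/
theorem isUnitOff_of_pow {f : FN N} {n : ℕ} (hn : n ≠ 0) (h : IsUnitOff N (f ^ n)) :
    IsUnitOff N f := by
  refine ⟨fun h0 => h.1 (by rw [h0, zero_pow hn]), fun P hP => ?_⟩
  have h1 := h.2 P hP
  rw [Fermat.Agent.RED.H51.ord_pow] at h1
  rcases mul_eq_zero.1 h1 with h2 | h2
  · exact absurd (by exact_mod_cast h2) hn
  · exact h2

end UnitOff

section Inc

variable (q M : ℕ) [NeZero M] [NeZero q] [NeZero (M * q)] [NeZero (M * q * q)]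
variable (d : ℕ) [NeZero d] (hd : d ∣ M)

include hd in
theorem dvd_lvl2 : d ∣ M * q * q := Dvd.dvd.mul_right (Dvd.dvd.mul_right hd q) q

theorem qq_dvd_lvl2 : q * q ∣ M * q * q := ⟨M, by ring⟩

include hd in
theorem dqq_dvd_lvl2 : d * (q * q) ∣ M * q * q := by
  obtain ⟨c, rfl⟩ := hd
  exact ⟨c, by ring⟩

/-- `u = f(τ)` for `f = Δ(t)/Δ(t^d)`. -/
theorem incAA_unitF :
    incAA q M (unitF M d hd) = unitF (M * q * q) d (dvd_lvl2 q M d hd) := by
  apply Subtype.ext
  rw [coe_incAA, unitF_coe, unitF_coe]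

/-- `u'' = f(q² τ)` for `f = Δ(t)/Δ(t^d)`. -/
theorem incBB_unitF_mul :
    haveI : NeZero (q * q) := ⟨Nat.mul_ne_zero (NeZero.ne q) (NeZero.ne q)⟩
    haveI : NeZero (d * (q * q)) :=
      ⟨Nat.mul_ne_zero (NeZero.ne d) (Nat.mul_ne_zero (NeZero.ne q) (NeZero.ne q))⟩
    incBB q M (unitF M d hd) * unitF (M * q * q) (q * q) (qq_dvd_lvl2 q M)
      = unitF (M * q * q) (d * (q * q)) (dqq_dvd_lvl2 q M d hd) := by
  haveI : NeZero (q * q) := ⟨Nat.mul_ne_zero (NeZero.ne q) (NeZero.ne q)⟩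
  haveI : NeZero (d * (q * q)) :=
    ⟨Nat.mul_ne_zero (NeZero.ne d) (Nat.mul_ne_zero (NeZero.ne q) (NeZero.ne q))⟩
  apply Subtype.ext
  show ((incBB q M (unitF M d hd) : FN (M * q * q)) : LaurentSeries Kbar)
      * ((unitF (M * q * q) (q * q) (qq_dvd_lvl2 q M) : FN (M * q * q)) : LaurentSeries Kbar)
    = ((unitF (M * q * q) (d * (q * q)) (dqq_dvd_lvl2 q M d hd) : FN (M * q * q)) :
        LaurentSeries Kbar)
  rw [coe_incBB, unitF_coe, unitF_coe, unitF_coe, coeffEmb_modularUnitSeries,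
    coeffEmb_modularUnitSeries, coeffEmb_modularUnitSeries, qExpand_qExpand, map_mul, map_inv₀,
    qExpand_qExpand, qExpand_congr (mul_comm (q * q) d)]
  have h1 : qExpand Kbar (q * q) (deltaR Kbar) ≠ 0 := qExpand_deltaR_ne_zero (R := Kbar) (q * q)
  have h2 : qExpand Kbar (d * (q * q)) (deltaR Kbar) ≠ 0 :=
    qExpand_deltaR_ne_zero (R := Kbar) (d * (q * q))
  field_simp

theorem isUnitOff_incAA_unitF : IsUnitOff (M * q * q) (incAA q M (unitF M d hd)) := by
  rw [incAA_unitF]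
  exact isUnitOff_unitF d _

theorem isUnitOff_incBB_unitF : IsUnitOff (M * q * q) (incBB q M (unitF M d hd)) := by
  haveI : NeZero (q * q) := ⟨Nat.mul_ne_zero (NeZero.ne q) (NeZero.ne q)⟩
  haveI : NeZero (d * (q * q)) :=
    ⟨Nat.mul_ne_zero (NeZero.ne d) (Nat.mul_ne_zero (NeZero.ne q) (NeZero.ne q))⟩
  have h0 : unitF (M * q * q) (q * q) (qq_dvd_lvl2 q M) ≠ 0 := unitF_ne_zero _ _ _
  have e : incBB q M (unitF M d hd)
      = unitF (M * q * q) (d * (q * q)) (dqq_dvd_lvl2 q M d hd)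
        * (unitF (M * q * q) (q * q) (qq_dvd_lvl2 q M))⁻¹ :=
    (eq_mul_inv_iff_mul_eq₀ h0).2 (incBB_unitF_mul q M d hd)
  rw [e]
  exact (isUnitOff_unitF (d * (q * q)) _).mul (isUnitOff_unitF (q * q) _).inv

/-- `u = f(τ)` is a unit off the cusps if `f` is a root of `Δ(t)/Δ(t^d)`. -/
theorem isUnitOff_incAA_of_pow (f : FN M) (n : ℕ) (hn : n ≠ 0) (hfn : f ^ n = unitF M d hd) :
    IsUnitOff (M * q * q) (incAA q M f) := by
  refine isUnitOff_of_pow hn ?_
  rw [← map_pow, hfn]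
  exact isUnitOff_incAA_unitF q M d hd

/-- `u'' = f(q² τ)` is a unit off the cusps if `f` is a root of `Δ(t)/Δ(t^d)`. -/
theorem isUnitOff_incBB_of_pow (f : FN M) (n : ℕ) (hn : n ≠ 0) (hfn : f ^ n = unitF M d hd) :
    IsUnitOff (M * q * q) (incBB q M f) := by
  refine isUnitOff_of_pow hn ?_
  rw [← map_pow, hfn]
  exact isUnitOff_incBB_unitF q M d hd

end Inc

section Int

variable (A : ValuationSubring Kbar)
variable (q M : ℕ) [NeZero M] [NeZero q] [NeZero (M * q)] [NeZero (M * q * q)]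
variable (d : ℕ) [NeZero d] (hd : d ∣ M)

/-- `u` is integral over `K^ur[j]` if it is a unit off the cusps. -/
theorem isIntegral_uo_of_unitOff (f : FN M) (u₀ : LaurentSeries ℤ)
    (hf : (f : LaurentSeries Kbar) = H65.intSer Kbar u₀)
    (h : IsUnitOff (M * q * q) (incAA q M f)) :
    IsIntegral ↥(Algebra.adjoin ↥(Kur A) ({j0 A (M * q * q)} : Set ↥(L0 A (M * q * q))))
      (uo A q M f u₀ hf) :=
  isIntegral_Kur_of_bar A _ _ (isIntegral_bar_of_unitOff h)

/-- `u''` is integral over `K^ur[j]` if it is a unit off the cusps. -/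
theorem isIntegral_u2o_of_unitOff (f : FN M) (u₀ : LaurentSeries ℤ)
    (hf : (f : LaurentSeries Kbar) = H65.intSer Kbar u₀)
    (h : IsUnitOff (M * q * q) (incBB q M f)) :
    IsIntegral ↥(Algebra.adjoin ↥(Kur A) ({j0 A (M * q * q)} : Set ↥(L0 A (M * q * q))))
      (u2o A q M f u₀ hf) :=
  isIntegral_Kur_of_bar A _ _ (isIntegral_bar_of_unitOff h)

/-- **`huI`** for a root of a modular unit. -/
theorem isIntegral_uo_of_pow (f : FN M) (u₀ : LaurentSeries ℤ)
    (hf : (f : LaurentSeries Kbar) = H65.intSer Kbar u₀)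
    (n : ℕ) (hn : n ≠ 0) (hfn : f ^ n = unitF M d hd) :
    IsIntegral ↥(Algebra.adjoin ↥(Kur A) ({j0 A (M * q * q)} : Set ↥(L0 A (M * q * q))))
      (uo A q M f u₀ hf) :=
  isIntegral_uo_of_unitOff A q M f u₀ hf (isUnitOff_incAA_of_pow q M d hd f n hn hfn)

/-- **`hu2I`** for a root of a modular unit. -/
theorem isIntegral_u2o_of_pow (f : FN M) (u₀ : LaurentSeries ℤ)
    (hf : (f : LaurentSeries Kbar) = H65.intSer Kbar u₀)
    (n : ℕ) (hn : n ≠ 0) (hfn : f ^ n = unitF M d hd) :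
    IsIntegral ↥(Algebra.adjoin ↥(Kur A) ({j0 A (M * q * q)} : Set ↥(L0 A (M * q * q))))
      (u2o A q M f u₀ hf) :=
  isIntegral_u2o_of_unitOff A q M f u₀ hf (isUnitOff_incBB_of_pow q M d hd f n hn hfn)

/-- **`huI`** for `f = Δ(t)/Δ(t^d)`. -/
theorem isIntegral_uo_unitF (u₀ : LaurentSeries ℤ)
    (hf : ((unitF M d hd : FN M) : LaurentSeries Kbar) = H65.intSer Kbar u₀) :
    IsIntegral ↥(Algebra.adjoin ↥(Kur A) ({j0 A (M * q * q)} : Set ↥(L0 A (M * q * q))))
      (uo A q M (unitF M d hd) u₀ hf) :=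
  isIntegral_uo_of_unitOff A q M _ u₀ hf (isUnitOff_incAA_unitF q M d hd)

/-- **`hu2I`** for `f = Δ(t)/Δ(t^d)`. -/
theorem isIntegral_u2o_unitF (u₀ : LaurentSeries ℤ)
    (hf : ((unitF M d hd : FN M) : LaurentSeries Kbar) = H65.intSer Kbar u₀) :
    IsIntegral ↥(Algebra.adjoin ↥(Kur A) ({j0 A (M * q * q)} : Set ↥(L0 A (M * q * q))))
      (u2o A q M (unitF M d hd) u₀ hf) :=
  isIntegral_u2o_of_unitOff A q M _ u₀ hf (isUnitOff_incBB_unitF q M d hd)

end Int

end Fermat.Agent.S36.NU.H74
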