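import Fermat.Agent.S36.NU.H16_HssGen
import Fermat.Agent.S36.NU.H44_PoleRegGen
import Fermat.Agent.S36.NU.H74_HssInt
import Fermat.Agent.S36.NU.H74_FinHyps

/-!
# S36 / NU-B, leaf HSS-ASM, the instance `q ≥ 5` (helper74)

Setting of helper23's `totM` and helper88's `chart0` (level `N = M q²`, `q ∤ M` tame, `4 ∣ M`),
supersingular points `ssM A q M` (H74_FinHyps), coordinate `f = Δ(t)/Δ(t⁴)`, `u₀ = uZ4`.

* `DLinv_mem_FM` : the reduction `(Δ~ ^ (q - 1))⁻¹` of `Δ(t)/Δ(t^q)` lies in `FM A M`;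
* `ord_pos_of_ssM` : it vanishes at the supersingular points;
* `ord_jRed_of_ssM` : `j~` is regular at the supersingular points;
* `pole_ssM_five` : COORD + POLE at the supersingular points (`q ≥ 5`), from helper44's
  `pole_full_d2_FM`;
* `hss_five_at`, `hss_five` : **the hypothesis `hss`** of `H99.pointData_of_dichotomy` on
  `chart0`, for `q ≥ 5`, from `hG`, `hthree` (TI3-VAL).
-/

set_option autoImplicit false
set_option synthInstance.maxHeartbeats 400000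
set_option maxHeartbeats 1000000
set_option linter.style.haveILetI false
set_option linter.unusedSectionVars false

noncomputable section

open ModularCurve AlgebraicCurve Polynomial

namespace Fermat.Agent.S36.NU.H74

open Fermat.Agent.S24 Fermat.Agent.BAD.H88 Fermat.Agent.BAD.H30 Fermat.Agent.BAD.H21
open Fermat.Agent.S28 Fermat.Agent.S28.H73 Fermat.Agent.RED.H73 Fermat.Agent.RED.H17
open Fermat.Agent.S36.NU.H88 Fermat.Agent.S36.NU.H23 Fermat.Agent.S36.NU.H16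
open Fermat.Agent.S36.NU.H41 Fermat.Agent.S36.NU.H65 Fermat.Agent.S36.NU.H73
open Fermat.Agent.BAD Fermat.Agent.RED

section SS

variable (A : ValuationSubring Kbar) (q M : ℕ) (hq : q.Prime)
  [NeZero M] [NeZero q] [NeZero (M * q)] (hqM : ¬ q ∣ M) (hA : A.LiesOverPrime q)

include hq hqM hA in
/-- The reduction `(Δ~ ^ (q - 1))⁻¹` of `Δ(t)/Δ(t^q)` lies in the residue field of level `M`. -/
theorem DLinv_mem_FM :
    (H21_DL (kV A) ^ (q - 1))⁻¹ ∈ redField A (modularFunctionFieldBar M) (hScM A M) := by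
  haveI : Fact q.Prime := ⟨hq⟩
  obtain ⟨a, b, hab⟩ := H44.exists_bezout q M hqM
  rw [stmt_GA M q hq hqM A hA, ← H82.redField_eq_fullC q M a b hab hq A hA, ← deltaR_eq_DL,
    ← gaussRes_unitF_char A (M * q) q hA (Dvd.intro_left M rfl)]
  exact SetLike.coe_mem _

include hq hA in
/-- The reduction of `Δ(t)/Δ(t^q)` vanishes at the supersingular points. -/
theorem ord_pos_of_ssM {z : Place (kV A) (FM A M)} (hz : z ∈ ssM A q M) (y : FM A M)
    (hy : (y : LaurentSeries (kV A)) = (H21_DL (kV A) ^ (q - 1))⁻¹) : 0 < z.ord y := by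
  haveI : Fact q.Prime := ⟨hq⟩
  refine hz.2 y ?_
  rw [hy, gaussRes_unitF_char A (M * q) q hA (Dvd.intro_left M rfl), deltaR_eq_DL]

/-- `j~` is regular at the supersingular points. -/
theorem ord_jRed_of_ssM {z : Place (kV A) (FM A M)} (hz : z ∈ ssM A q M) (jE : FM A M)
    (hj : (jE : LaurentSeries (kV A)) = jqModC (kV A)) : 0 ≤ z.ord jE := by
  have e : jE = Fermat.Agent.BAD.H91.jRed A M := Subtype.ext (hj.trans (red_jF A M).symm)
  rw [e]
  exact hz.1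

end SS

section Five

variable (A : ValuationSubring Kbar) (q M : ℕ) (B k : ℤ) (hB : B * M + k * q = 1) (hq : q.Prime)
  [NeZero M] [NeZero q] [NeZero (M * q)] [NeZero (M * q * q)] (hqM : ¬ q ∣ M)
  (hA : A.LiesOverPrime q) (ht : H91.TameAt M q)

attribute [local instance] algkM

/-- The expansion of `Δ(t)/Δ(t⁴)`. -/
theorem coe_unitF4 (h4 : 4 ∣ M) :
    ((unitF M 4 h4 : FN M) : LaurentSeries Kbar) = H65.intSer Kbar uZ4 :=
  H73.coeffMap_uZ4_Kbar M h4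

include hq hqM hA in
/-- **COORD + POLE at the supersingular points**, `q ≥ 5`, `4 ∣ M`. -/
theorem pole_ssM_five (h5 : 5 ≤ q) (h4 : 4 ∣ M) {z : Place (kV A) (FM A M)}
    (hz : z ∈ ssM A q M) :
    ∃ (c : kV A) (u y₂ : FM A M),
      (u : LaurentSeries (kV A)) = coeffMap (Int.castRingHom (kV A)) uZ4 ∧
      (y₂ : LaurentSeries (kV A)) = - coeffMap (Int.castRingHom (kV A)) (H65.kdel q uZ4) ^ q ∧
      z.ord (u - algebraMap (kV A) (FM A M) c) = 1 ∧ c ^ q ^ 2 = c ∧ z.ord y₂ = -(q : ℤ) := by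
  haveI : Fact q.Prime := ⟨hq⟩
  have hu0 : coeffMap (Int.castRingHom (kV A)) uZ4
      ∈ redField A (modularFunctionFieldBar M) (hScM A M) := by
    rw [stmt_GA M q hq hqM A hA]
    exact H44.ubar_mem_gen A q M hA hqM (unitF M 4 h4) uZ4 (coe_unitF4 M h4)
  set u : FM A M := ⟨coeffMap (Int.castRingHom (kV A)) uZ4, hu0⟩ with hu
  set d : FM A M := ⟨coeffMap (Int.castRingHom (kV A)) (H65.kdel q uZ4),
    H44.dbar_mem_FM A q M hA hqM h4⟩ with hd
  set y : FM A M := ⟨(H21_DL (kV A) ^ (q - 1))⁻¹, DLinv_mem_FM A q M hq hqM hA⟩ with hy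
  have hj : ((Fermat.Agent.BAD.H91.jRed A M : FM A M) : LaurentSeries (kV A))
      = jqModC (kV A) := red_jF A M
  obtain ⟨c, h1, h2, h3⟩ := H44.pole_full_d2_FM A q M hA hqM h4 h5 z
    (Fermat.Agent.BAD.H91.jRed A M) u y d (-d ^ q) hj
    (by rw [hu]; exact (H73.coeffMap_uZ4 (k := kV A)))
    rfl rfl rfl hz.1 (ord_pos_of_ssM A q M hq hA hz y rfl)
  exact ⟨c, u, -d ^ q, rfl, rfl, h1, h2, h3⟩

include hB in
/-- **HSS-ASM at one supersingular point**, `q ≥ 5`: all components of `chart0` pass through the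
point over `z`, and there is a local equation datum there. -/
theorem hss_five_at (h5 : 5 ≤ q) (h4 : 4 ∣ M) (i₀ : Fin 3)
    (hG : ∀ p : (↥(Kur A))[X],
      aeval (j0 A (M * q * q)) p ∈ (totM A q M B k hB hq hqM hA ht).V i₀ →
        ∀ i, p.coeff i ∈ (algebraMap ↥(Rur A) ↥(Kur A)).range)
    (hthree : ∀ f : ↥(L0 A (M * q * q)),
      (∀ i, f ∈ (totM A q M B k hB hq hqM hA ht).V i) →
      ∃ P : (↥(L0 A (M * q * q)))[X], P.Monic ∧
        (∀ m, P.coeff m ∈ (totM A q M B k hB hq hqM hA ht).V i₀ ∧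
          P.coeff m ∈ IntermediateField.adjoin ↥(Kur A) {j0 A (M * q * q)}) ∧ P.eval f = 0)
    {z : Place (kV A) (FM A M)} (hz : z ∈ ssM A q M)
    (𝔪 : Ideal (chart0 A q M B k hB hq hqM hA ht).B) (hmax : 𝔪.IsMaximal)
    (h𝔪 : ∀ β : (chart0 A q M B k hB hq hqM hA ht).B,
      β ∈ 𝔪 ↔ VanAt ((totM A q M B k hB hq hqM hA ht).pt 0 z)
        ((chart0 A q M B k hB hq hqM hA ht).rdB 0 β)) :
    (∀ i, (chart0 A q M B k hB hq hqM hA ht).Icomp i ≤ 𝔪) ∧
      Nonempty (LocEq (chart0 A q M B k hB hq hqM hA ht) ((q : ℕ) : ↥(Rur A)) 𝔪) := by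
  haveI : 𝔪.IsPrime := hmax.isPrime
  haveI : CharP (kV A) q := Fermat.Agent.BAD.H82.charP_kV A hq hA
  obtain ⟨c, u, y₂, hu, hy₂, hord, hc, hd⟩ := pole_ssM_five A q M hq hqM hA h5 h4 hz
  exact hss_gen A q M B k hB hq hqM hA ht i₀ hG hthree (unitF M 4 h4) uZ4 (coe_unitF4 M h4)
    (thetaNZ_uZ4 (kV A) q h5)
    (isIntegral_uo_unitF A q M 4 h4 uZ4 (coe_unitF4 M h4))
    (isIntegral_u2o_unitF A q M 4 h4 uZ4 (coe_unitF4 M h4))
    z c u y₂ hu hy₂ hord hc hd 𝔪 h𝔪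

include hB in
/-- **The hypothesis `hss`** of `H99.pointData_of_dichotomy` on `chart0`, `q ≥ 5`, `4 ∣ M`. -/
theorem hss_five (h5 : 5 ≤ q) (h4 : 4 ∣ M) (i₀ : Fin 3)
    (hG : ∀ p : (↥(Kur A))[X],
      aeval (j0 A (M * q * q)) p ∈ (totM A q M B k hB hq hqM hA ht).V i₀ →
        ∀ i, p.coeff i ∈ (algebraMap ↥(Rur A) ↥(Kur A)).range)
    (hthree : ∀ f : ↥(L0 A (M * q * q)),
      (∀ i, f ∈ (totM A q M B k hB hq hqM hA ht).V i) →
      ∃ P : (↥(L0 A (M * q * q)))[X], P.Monic ∧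
        (∀ m, P.coeff m ∈ (totM A q M B k hB hq hqM hA ht).V i₀ ∧
          P.coeff m ∈ IntermediateField.adjoin ↥(Kur A) {j0 A (M * q * q)}) ∧ P.eval f = 0) :
    ∀ z ∈ ssM A q M, ∀ 𝔪 : Ideal (chart0 A q M B k hB hq hqM hA ht).B, 𝔪.IsMaximal →
      (∀ β : (chart0 A q M B k hB hq hqM hA ht).B,
        β ∈ 𝔪 ↔ VanAt ((totM A q M B k hB hq hqM hA ht).pt 0 z)
          ((chart0 A q M B k hB hq hqM hA ht).rdB 0 β)) →
      Nonempty (LocEq (chart0 A q M B k hB hq hqM hA ht) ((q : ℕ) : ↥(Rur A)) 𝔪) :=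
  fun _ hz 𝔪 hmax h𝔪 =>
    (hss_five_at A q M B k hB hq hqM hA ht h5 h4 i₀ hG hthree hz 𝔪 hmax h𝔪).2

end Five

end Fermat.Agent.S36.NU.H74
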