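/-
helper74, row 35 (S36), NU-B leaf KRON2, part 1: integrality of coefficients by interpolation.

`coeff_mem_of_eval_mem_subring` : `S` a subring of a field `E`, `P ∈ E[X]` of degree `< m`,
nodes `v_1, …, v_m ∈ S` with `(v_i - v_j)⁻¹ ∈ S` for `i ≠ j` and `P(v_i) ∈ S`: then the
coefficients of `P` are in `S`.
-/
import Mathlib.LinearAlgebra.Lagrange
import Mathlib.Algebra.Polynomial.Lifts

set_option autoImplicit false

noncomputable section

open Polynomial

namespace Fermat.Agent.S36.NU.H74

variable {E : Type*} [Field E]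

/-- The polynomials with coefficients in a subring, as a subring of `E[X]`. -/
def polySub (S : Subring E) : Subring E[X] := (Polynomial.mapRingHom S.subtype).range

theorem mem_polySub_iff (S : Subring E) (P : E[X]) :
    P ∈ polySub S ↔ ∀ k, P.coeff k ∈ S := by
  constructor
  · rintro ⟨Q, rfl⟩ k
    rw [Polynomial.coe_mapRingHom, Polynomial.coeff_map]
    exact (Q.coeff k).2
  · intro h
    have hl : P ∈ Polynomial.lifts S.subtype := by
      rw [Polynomial.lifts_iff_coeff_lifts]
      intro k
      exact ⟨⟨_, h k⟩, rfl⟩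
    obtain ⟨Q, hQ⟩ := hl
    exact ⟨Q, hQ⟩

theorem C_mem_polySub (S : Subring E) {a : E} (ha : a ∈ S) : C a ∈ polySub S :=
  ⟨C ⟨a, ha⟩, by simp⟩

theorem X_mem_polySub (S : Subring E) : (X : E[X]) ∈ polySub S :=
  ⟨X, by simp⟩

/-- **Integrality by interpolation.** -/
theorem coeff_mem_of_eval_mem_subring (S : Subring E) (P : E[X]) {m : ℕ}
    (hP : P.degree < m) (v : Fin m → E) (hinj : Function.Injective v)
    (hv : ∀ i, v i ∈ S) (hinv : ∀ i j, i ≠ j → (v i - v j)⁻¹ ∈ S)
    (hval : ∀ i, P.eval (v i) ∈ S) (k : ℕ) : P.coeff k ∈ S := by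
  classical
  have h1 : P = Lagrange.interpolate Finset.univ v fun i => P.eval (v i) := by
    refine Lagrange.eq_interpolate (hinj.injOn) ?_
    rw [Finset.card_univ, Fintype.card_fin]
    exact hP
  have h2 : Lagrange.interpolate Finset.univ v (fun i => P.eval (v i)) ∈ polySub S := by
    rw [Lagrange.interpolate_apply]
    refine Subring.sum_mem _ fun i _ => ?_
    refine Subring.mul_mem _ (C_mem_polySub S (hval i)) ?_
    rw [Lagrange.basis]
    refine Subring.prod_mem _ fun j hj => ?_
    rw [Lagrange.basisDivisor]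
    have hji : i ≠ j := fun h => (Finset.mem_erase.1 hj).1 h.symm
    exact Subring.mul_mem _ (C_mem_polySub S (hinv i j hji))
      (Subring.sub_mem _ (X_mem_polySub S) (C_mem_polySub S (hv j)))
  rw [← h1] at h2
  exact (mem_polySub_iff S P).1 h2 k

end Fermat.Agent.S36.NU.H74
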