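/-
helper74, row 35 (S36), NU-B leaf KRON2: reduction of the characteristic polynomial.

Setting of helper42's `NRData` (BAD/H42_NormRedR.lean): `V_E` a discrete valuation ring of `E`
with residue field `Et`, valuation rings `V i` of the finite extension `L / E` with residue
fields `κ i`, ramification indices `e i`, `∑ e i [κ i : Et] = [L : E]`.

* `exists_charpoly_red` : for `x ∈ ⋂ V i` the characteristic polynomial `Φ` of `x` over `E` has
  coefficients in `V_E`, and its reduction is `∏ g_i ^ e_i`, if `g_i ∈ Et[Y]` are polynomials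
  with `g_i(c̄) = N_{κ_i / Et}(c̄ - red_i x)` for `c ∈ V_E`  (`Et` infinite).
* `exists_kron` : if moreover `∏ g_i ^ e_i` is the reduction of `T ∈ V_E[Y]` then
  `Φ = T + ϖ Ψ` with `Ψ ∈ V_E[Y]`, and `Φ(x) = 0`.

KRON2 is the case `ι = Fin 3`, `e = (1, q - 1, 1)`,
`g = (Y - ū^{q²}, Y - ū, Y^{q²} - ū)`, `T = (Y - u^{q²})(Y - u)^{q-1}(Y^{q²} - u)`.
-/
import Fermat.Agent.S36.NU.H74_Lagrange
import Fermat.Agent.BAD.H42_NormRedR
import Fermat.Agent.BAD.H42_NormPI

set_option autoImplicit false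
set_option linter.style.haveILetI false
set_option linter.unusedSectionVars false

noncomputable section

open Polynomial

namespace Fermat.Agent.S36.NU.H74

open Fermat.Agent.BAD.H42

variable {E L Et : Type} [Field E] [Field L] [Field Et] [Algebra E L]
  {ι : Type} {κ : ι → Type} [∀ i, Field (κ i)] [∀ i, Algebra Et (κ i)]
  [∀ i, Module.Finite Et (κ i)] (D : NRData E L Et ι κ)

/-- The value of the characteristic polynomial at a constant is a norm. -/
theorem eval_charpoly_lmul [Module.Finite E L] (x : L) (c : E) :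
    (Algebra.lmul E L x).charpoly.eval c = Algebra.norm E (algebraMap E L c - x) := by
  rw [LinearMap.eval_charpoly, Algebra.norm_apply]
  congr 1
  ext y
  simp [Algebra.smul_def]

/-- An element of `V_E` with nonzero reduction is a unit. -/
theorem isUnit_of_redE_ne_zero (a : ↥D.VE) (h : D.redE a ≠ 0) : IsUnit a := by
  by_contra hu
  exact h (D.hkerE a hu)

/-- **Reduction of the characteristic polynomial.** -/
theorem exists_charpoly_red [Fintype ι] [DecidableEq ι] [Module.Finite E L] [Infinite Et]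
    (hdeg : ∑ i, D.e i * Module.finrank Et (κ i) = Module.finrank E L)
    (hsurjE : Function.Surjective D.redE)
    (x : L) (hx : ∀ i, x ∈ D.V i) (g : ι → Et[X])
    (hg : ∀ (i : ι) (c : ↥D.VE) (h : algebraMap E L (c : E) - x ∈ D.V i),
      Algebra.norm Et (D.red i ⟨algebraMap E L (c : E) - x, h⟩) = (g i).eval (D.redE c)) :
    ∃ Φ : (↥D.VE)[X], Φ.map D.VE.subtype = (Algebra.lmul E L x).charpoly ∧
      Φ.map D.redE = ∏ i, g i ^ D.e i := by
  classical
  set P : E[X] := (Algebra.lmul E L x).charpoly with hPdef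
  have hmem : ∀ (i : ι) (c : ↥D.VE), algebraMap E L (c : E) - x ∈ D.V i := fun i c =>
    (D.V i).sub_mem (D.hVE i _ c.2) (hx i)
  -- the values
  have hvalue : ∀ c : ↥D.VE, ∃ δ : ↥D.VE, P.eval (c : E) = (δ : E) ∧
      D.redE δ = (∏ i, g i ^ D.e i).eval (D.redE c) := by
    intro c
    obtain ⟨δ, h1, h2⟩ := D.normRed hdeg (algebraMap E L (c : E) - x) (fun i => hmem i c)
    refine ⟨δ, ?_, ?_⟩
    · rw [hPdef, eval_charpoly_lmul, h1]
    · rw [h2, Polynomial.eval_prod]
      refine Finset.prod_congr rfl fun i _ => ?_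
      rw [Polynomial.eval_pow, hg i c (hmem i c)]
  -- the nodes
  set n := Module.finrank E L with hn
  have hnodes : ∀ j : Fin (n + 1), ∃ c : ↥D.VE, D.redE c = Infinite.natEmbedding Et (j : ℕ) :=
    fun j => hsurjE _
  choose v hv using hnodes
  have hvne : ∀ i j : Fin (n + 1), i ≠ j → D.redE (v i - v j) ≠ 0 := by
    intro i j hij h0
    rw [map_sub, hv, hv, sub_eq_zero] at h0
    exact hij (Fin.ext ((Infinite.natEmbedding Et).injective h0))
  have hvinj : Function.Injective fun j : Fin (n + 1) => ((v j : ↥D.VE) : E) := by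
    intro i j hij
    by_contra hne
    apply hvne i j hne
    have : v i = v j := Subtype.ext hij
    rw [this, sub_self, map_zero]
  have hPdeg : P.degree < ((n + 1 : ℕ) : WithBot ℕ) := by
    have h1 : P.natDegree = n := LinearMap.charpoly_natDegree _
    have h2 : P ≠ 0 := (LinearMap.charpoly_monic _).ne_zero
    rw [Polynomial.degree_eq_natDegree h2, h1]
    exact_mod_cast Nat.lt_succ_self n
  have hcoeff : ∀ k, P.coeff k ∈ D.VE.toSubring := by
    intro k
    refine coeff_mem_of_eval_mem_subring D.VE.toSubring P hPdeg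
      (fun j => ((v j : ↥D.VE) : E)) hvinj (fun j => (v j).2) ?_ ?_ k
    · intro i j hij
      obtain ⟨w, hw⟩ := isUnit_of_redE_ne_zero D (v i - v j) (hvne i j hij)
      have h3 : ((w : ↥D.VE) : E) * (((w⁻¹ : (↥D.VE)ˣ) : ↥D.VE) : E) = 1 :=
        congrArg Subtype.val w.mul_inv
      rw [hw] at h3
      have h4 : (((v i : ↥D.VE) : E) - ((v j : ↥D.VE) : E))⁻¹
          = (((w⁻¹ : (↥D.VE)ˣ) : ↥D.VE) : E) := inv_eq_of_mul_eq_one_right h3
      rw [h4]
      exact Subtype.mem _
    · intro j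
      obtain ⟨δ, h1, -⟩ := hvalue (v j)
      rw [h1]
      exact δ.2
  obtain ⟨Φ, hΦ⟩ := (mem_polySub_iff D.VE.toSubring P).2 hcoeff
  have hΦ' : Φ.map D.VE.subtype = P := hΦ
  refine ⟨Φ, hΦ', ?_⟩
  refine Polynomial.funext fun r => ?_
  obtain ⟨c, rfl⟩ := hsurjE r
  obtain ⟨δ, h1, h2⟩ := hvalue c
  rw [Polynomial.eval_map_apply, ← h2]
  congr 1
  apply Subtype.ext
  rw [← h1, ← hΦ']
  exact (Polynomial.eval_map_apply D.VE.subtype c).symm

/-- The uniformiser lies in `V_E`. -/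
theorem ϖ_mem [Nonempty ι] : D.ϖ ∈ D.VE := by
  obtain ⟨i⟩ := ‹Nonempty ι›
  by_contra h
  have h1 : D.ϖ⁻¹ ∈ D.VE := (D.VE.mem_or_inv_mem D.ϖ).resolve_left h
  have h2 := D.hVE i _ h1
  have h3 : (D.V i).valuation (algebraMap E L D.ϖ⁻¹) ≤ 1 :=
    (ValuationSubring.valuation_le_one_iff _ _).2 h2
  have h4 := D.val_ϖ_lt_one i
  rw [map_inv₀, map_inv₀] at h3
  have h5 : (D.V i).valuation (algebraMap E L D.ϖ) ≠ 0 :=
    (Valuation.ne_zero_iff _).2 D.ϖL_ne_zero
  have h6 : 1 ≤ (D.V i).valuation (algebraMap E L D.ϖ) := by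
    have := (inv_le_one₀ (zero_lt_iff.2 h5)).1 h3
    exact this
  exact absurd h4 (not_lt.2 h6)

/-- An element of `V_E` with zero reduction is divisible by the uniformiser. -/
theorem exists_eq_ϖ_mul [Nonempty ι] (a : ↥D.VE) (h : D.redE a = 0) :
    ∃ b : ↥D.VE, a = ⟨D.ϖ, ϖ_mem D⟩ * b := by
  have hnu : ¬ IsUnit a := fun hu => (hu.map D.redE).ne_zero h
  have h1 : D.VE.valuation (a : E) < 1 := by
    rw [lt_iff_le_and_ne]
    refine ⟨(ValuationSubring.valuation_le_one_iff _ _).2 a.2, fun h1 => ?_⟩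
    exact hnu ((ValuationSubring.valuation_eq_one_iff D.VE a).2 h1)
  have h2 := D.hE _ h1
  have hϖ0 : D.VE.valuation D.ϖ ≠ 0 := (Valuation.ne_zero_iff _).2 D.hϖ0
  have h3 : (a : E) * D.ϖ⁻¹ ∈ D.VE := by
    rw [← ValuationSubring.valuation_le_one_iff, map_mul, map_inv₀]
    rw [mul_inv_le_iff₀ (zero_lt_iff.2 hϖ0), one_mul]
    exact h2
  refine ⟨⟨_, h3⟩, Subtype.ext ?_⟩
  show (a : E) = D.ϖ * ((a : E) * D.ϖ⁻¹)
  field_simp [D.hϖ0]

/-- A polynomial over `V_E` with zero reduction is divisible by the uniformiser. -/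
theorem exists_eq_C_mul [Nonempty ι] (P : (↥D.VE)[X]) (h : P.map D.redE = 0) :
    ∃ Ψ : (↥D.VE)[X], P = C (⟨D.ϖ, ϖ_mem D⟩ : ↥D.VE) * Ψ := by
  have hc : ∀ k, ∃ b : ↥D.VE, P.coeff k = ⟨D.ϖ, ϖ_mem D⟩ * b := by
    intro k
    apply exists_eq_ϖ_mul
    have := congrArg (fun R : Et[X] => R.coeff k) h
    simpa [Polynomial.coeff_map] using this
  choose b hb using hc
  refine ⟨∑ k ∈ Finset.range (P.natDegree + 1), C (b k) * X ^ k, ?_⟩
  ext k
  rw [Polynomial.coeff_C_mul, Polynomial.finsetSum_coeff]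
  simp only [Polynomial.coeff_C_mul, Polynomial.coeff_X_pow]
  by_cases hk : k ∈ Finset.range (P.natDegree + 1)
  · rw [Finset.sum_eq_single k]
    · simp [hb k]
    · intro j _ hjk
      simp [Ne.symm hjk]
    · intro h'
      exact absurd hk h'
  · have hk' : P.natDegree < k := by
      rw [Finset.mem_range, not_lt] at hk
      omega
    rw [Polynomial.coeff_eq_zero_of_natDegree_lt hk']
    rw [Finset.sum_eq_zero, mul_zero]
    intro j hj
    have : k ≠ j := fun h' => hk (h' ▸ hj)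
    simp [this]

/-- **KRON, abstract form.**  If the reduction `∏ g_i ^ e_i` of the characteristic polynomial
`Φ` of `x` is the reduction of `T ∈ V_E[Y]`, then `Φ = T + ϖ Ψ`, and `Φ(x) = 0`. -/
theorem exists_kron [Fintype ι] [DecidableEq ι] [Module.Finite E L] [Infinite Et]
    (hdeg : ∑ i, D.e i * Module.finrank Et (κ i) = Module.finrank E L)
    (hsurjE : Function.Surjective D.redE)
    (x : L) (hx : ∀ i, x ∈ D.V i) (g : ι → Et[X])
    (hg : ∀ (i : ι) (c : ↥D.VE) (h : algebraMap E L (c : E) - x ∈ D.V i),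
      Algebra.norm Et (D.red i ⟨algebraMap E L (c : E) - x, h⟩) = (g i).eval (D.redE c))
    (T : (↥D.VE)[X]) (hT : T.map D.redE = ∏ i, g i ^ D.e i) :
    ∃ (hϖ : D.ϖ ∈ D.VE) (Φ Ψ : (↥D.VE)[X]), Φ.Monic ∧
      Φ.natDegree = Module.finrank E L ∧
      Φ.map D.VE.subtype = (Algebra.lmul E L x).charpoly ∧
      Φ = T + C (⟨D.ϖ, hϖ⟩ : ↥D.VE) * Ψ ∧
      Polynomial.eval₂ ((algebraMap E L).comp D.VE.subtype) x Φ = 0 := by
  haveI : Nonempty ι := by
    by_contra hemp
    rw [not_nonempty_iff] at hemp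
    have : Module.finrank E L = 0 := by rw [← hdeg]; simp
    exact (Module.finrank_pos (R := E) (M := L)).ne' this
  obtain ⟨Φ, hΦ, hred⟩ := exists_charpoly_red D hdeg hsurjE x hx g hg
  have hinj : Function.Injective D.VE.subtype := Subtype.val_injective
  have hmonic : Φ.Monic := by
    have := LinearMap.charpoly_monic (Algebra.lmul E L x)
    rw [← hΦ] at this
    exact Polynomial.monic_of_injective hinj this
  have hnat : Φ.natDegree = Module.finrank E L := by
    rw [← LinearMap.charpoly_natDegree (Algebra.lmul E L x), ← hΦ,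
      Polynomial.natDegree_map_eq_of_injective hinj]
  obtain ⟨Ψ, hΨ⟩ := exists_eq_C_mul D (Φ - T) (by rw [Polynomial.map_sub, hred, hT, sub_self])
  refine ⟨ϖ_mem D, Φ, Ψ, hmonic, hnat, hΦ, ?_, ?_⟩
  · rw [← hΨ]; ring
  · rw [← Polynomial.eval₂_map, hΦ]
    exact Algebra.aeval_self_charpoly_lmul x

end Fermat.Agent.S36.NU.H74
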