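/-
helper74, row 35 (S36), NU-B leaf KRON2: the Kronecker congruence of level `q²`.

`NRData` of three valuations (helper23 `kap3`): residue fields `C`, `K₁`, `C` over `C` with
structure maps `id`, `a₁` (degree `1`), `a₂ = (·)^Q` (degree `Q = q²`), `e = (1, q - 1, 1)`.
`u ∈ V_E`, `x = u″ ∈ ⋂ V i` with reductions `ū^Q`, `a₁ ū`, `ū`.

`kron2_three` : the characteristic polynomial `Φ₂` of `u″` over `E` is
`(Y - u^Q) (Y - u)^(q-1) (Y^Q - u) + ϖ Ψ₂` with `Ψ₂ ∈ V_E[Y]`, and `Φ₂(u″) = 0`.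
-/
import Fermat.Agent.S36.NU.H74_Kron2
import Fermat.Agent.S36.NU.H23_NR3

set_option autoImplicit false
set_option linter.style.haveILetI false
set_option linter.unusedSectionVars false

noncomputable section

open Polynomial

namespace Fermat.Agent.S36.NU.H74

open Fermat.Agent.BAD.H42 Fermat.Agent.S36.NU.H23

section Norms

variable {C κ : Type} [Field C] [Field κ]

/-- The norm of a residue extension of degree one. -/
theorem norm_algebraMap_of_finrank_one [Algebra C κ] (h : Module.finrank C κ = 1) (z : C) :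
    Algebra.norm C (algebraMap C κ z) = z := by
  rw [Algebra.norm_algebraMap, h, pow_one]

/-- The norm of a purely inseparable residue extension `C → κ ≅ C`, `z ↦ z ^ (p ^ m)`, of degree
`p ^ m`: `N y = e y`, where `e : κ → C` is the identification. -/
theorem norm_frob [Algebra C κ] (e : κ →+* C) (p m : ℕ) [ExpChar C p]
    (hfin : Module.finrank C κ = p ^ m)
    (he : ∀ z : C, e (algebraMap C κ z) = z ^ p ^ m)
    (hinj : ∀ y z : C, y ^ p ^ m = z ^ p ^ m → y = z) (y : κ) :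
    Algebra.norm C y = e y := by
  have hp0 : 0 < p ^ m := by
    rcases ‹ExpChar C p› with _ | ⟨hp⟩
    · simp
    · exact pow_pos hp.pos m
  haveI : Module.Finite C κ := Module.finite_of_finrank_pos (by rw [hfin]; exact hp0)
  have hpow : ∀ x : κ, x ^ p ^ m = algebraMap C κ (e x) := by
    intro x
    apply e.injective
    rw [he, map_pow]
  haveI : IsPurelyInseparable C κ :=
    (isPurelyInseparable_iff_pow_mem C p).2 fun x => ⟨m, ⟨e x, (hpow x).symm⟩⟩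
  have h1 := norm_eq_pow_of_pInsep C κ y
  rw [hfin] at h1
  have h2 := congrArg e h1
  rw [he, map_pow] at h2
  exact hinj _ _ h2

end Norms

section Three

variable {E L Ct K₁ : Type} [Field E] [Field L] [Field Ct] [Field K₁] [Algebra E L]
  [Module.Finite E L] [Infinite Ct]

/-- The three local factors. -/
def gThree (q m : ℕ) (ū : Ct) : Fin 3 → Ct[X]
  | 0 => X - C (ū ^ q ^ m)
  | 1 => X - C ū
  | 2 => X ^ q ^ m - C ū

/-- The reduction of `c - x`. -/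
theorem red_sub {ι : Type} {κ : ι → Type} [∀ i, Field (κ i)] [∀ i, Algebra Ct (κ i)]
    (D : NRData E L Ct ι κ) (i : ι) (c : ↥D.VE) (x : L) (hx : x ∈ D.V i)
    (h : algebraMap E L (c : E) - x ∈ D.V i) :
    D.red i ⟨algebraMap E L (c : E) - x, h⟩
      = algebraMap Ct (κ i) (D.redE c) - D.red i ⟨x, hx⟩ := by
  have e : (⟨algebraMap E L (c : E) - x, h⟩ : ↥(D.V i))
      = ⟨algebraMap E L (c : E), D.hVE i _ c.2⟩ - ⟨x, hx⟩ := rfl
  rw [e, map_sub, D.hcompat i c (D.hVE i _ c.2)]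

/-- **KRON2.**  (For helper23's `kap3`: `κ = kap3 Ct K₁`, instances `kap3Alg Ct K₁ a₁ a₂`,
`e₂ = RingHom.id Ct`.) -/
theorem kron2_three {κ : Fin 3 → Type} [∀ i, Field (κ i)] [∀ i, Algebra Ct (κ i)]
    (D : NRData E L Ct (Fin 3) κ)
    (hsurjE : Function.Surjective D.redE)
    (q m : ℕ) [ExpChar Ct q]
    (he : D.e 0 = 1 ∧ D.e 1 = q - 1 ∧ D.e 2 = 1)
    (hf₀ : Module.finrank Ct (κ 0) = 1)
    (hf₁ : Module.finrank Ct (κ 1) = 1)
    (hf₂ : Module.finrank Ct (κ 2) = q ^ m)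
    (e₂ : κ 2 →+* Ct) (he₂ : ∀ z : Ct, e₂ (algebraMap Ct (κ 2) z) = z ^ q ^ m)
    (hinj : ∀ y z : Ct, y ^ q ^ m = z ^ q ^ m → y = z)
    (hn : 1 + (q - 1) + q ^ m = Module.finrank E L)
    (u : ↥D.VE) (x : L) (hx : ∀ i, x ∈ D.V i)
    (h0 : D.red 0 ⟨x, hx 0⟩ = algebraMap Ct (κ 0) (D.redE u ^ q ^ m))
    (h1 : D.red 1 ⟨x, hx 1⟩ = algebraMap Ct (κ 1) (D.redE u))
    (h2 : e₂ (D.red 2 ⟨x, hx 2⟩) = D.redE u) :
    ∃ (hϖ : D.ϖ ∈ D.VE) (Φ Ψ : (↥D.VE)[X]), Φ.Monic ∧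
      Φ.natDegree = Module.finrank E L ∧
      Φ.map D.VE.subtype = (Algebra.lmul E L x).charpoly ∧
      Φ = (X - C (u ^ q ^ m)) * (X - C u) ^ (q - 1) * (X ^ q ^ m - C u)
          + C (⟨D.ϖ, hϖ⟩ : ↥D.VE) * Ψ ∧
      Polynomial.eval₂ ((algebraMap E L).comp D.VE.subtype) x Φ = 0 := by
  haveI : ∀ i, Module.Finite Ct (κ i) := fun i => D.finite_res i
  have hdeg : ∑ i, D.e i * Module.finrank Ct (κ i) = Module.finrank E L := by
    rw [Fin.sum_univ_three, he.1, he.2.1, he.2.2, hf₀, hf₁, hf₂, ← hn]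
    ring
  refine exists_kron D hdeg hsurjE x hx (gThree q m (D.redE u)) ?_
    ((X - C (u ^ q ^ m)) * (X - C u) ^ (q - 1) * (X ^ q ^ m - C u)) ?_
  · intro i c h
    rw [red_sub D i c x (hx i) h]
    fin_cases i
    · show Algebra.norm Ct (algebraMap Ct (κ 0) (D.redE c) - D.red 0 ⟨x, hx 0⟩)
        = (X - C (D.redE u ^ q ^ m)).eval (D.redE c)
      rw [h0, ← map_sub, norm_algebraMap_of_finrank_one hf₀]
      simp
    · show Algebra.norm Ct (algebraMap Ct (κ 1) (D.redE c) - D.red 1 ⟨x, hx 1⟩)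
        = (X - C (D.redE u)).eval (D.redE c)
      rw [h1, ← map_sub, norm_algebraMap_of_finrank_one hf₁]
      simp
    · show Algebra.norm Ct (algebraMap Ct (κ 2) (D.redE c) - D.red 2 ⟨x, hx 2⟩)
        = (X ^ q ^ m - C (D.redE u)).eval (D.redE c)
      rw [norm_frob e₂ q m hf₂ he₂ hinj, map_sub, he₂, h2]
      simp
  · rw [Fin.prod_univ_three, he.1, he.2.1, he.2.2, pow_one, pow_one]
    simp only [gThree, Polynomial.map_mul, Polynomial.map_pow, Polynomial.map_sub,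
      Polynomial.map_X, Polynomial.map_C, map_pow]

/-- **KRON2** for helper23's `NRData` of three valuations (`kap3`, `kap3Alg`). -/
theorem kron2_kap3 (a₁ : Algebra Ct K₁) (a₂ : Algebra Ct Ct)
    (D : @NRData E L Ct _ _ _ _ (Fin 3) (kap3 Ct K₁) _ (kap3Alg Ct K₁ a₁ a₂))
    (hsurjE : letI := kap3Alg Ct K₁ a₁ a₂; Function.Surjective D.redE)
    (q m : ℕ) [ExpChar Ct q]
    (he : letI := kap3Alg Ct K₁ a₁ a₂; D.e 0 = 1 ∧ D.e 1 = q - 1 ∧ D.e 2 = 1)
    (hf₁ : @Module.finrank Ct K₁ _ _ a₁.toModule = 1)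
    (hf₂ : @Module.finrank Ct Ct _ _ a₂.toModule = q ^ m)
    (ha₂ : ∀ z : Ct, @algebraMap Ct Ct _ _ a₂ z = z ^ q ^ m)
    (hinj : ∀ y z : Ct, y ^ q ^ m = z ^ q ^ m → y = z)
    (hn : 1 + (q - 1) + q ^ m = Module.finrank E L)
    (u : letI := kap3Alg Ct K₁ a₁ a₂; ↥D.VE) (x : L)
    (hx : letI := kap3Alg Ct K₁ a₁ a₂; ∀ i, x ∈ D.V i)
    (h0 : letI := kap3Alg Ct K₁ a₁ a₂;
      (show Ct from D.red 0 ⟨x, hx 0⟩) = D.redE u ^ q ^ m)
    (h1 : letI := kap3Alg Ct K₁ a₁ a₂;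
      (show K₁ from D.red 1 ⟨x, hx 1⟩) = @algebraMap Ct K₁ _ _ a₁ (D.redE u))
    (h2 : letI := kap3Alg Ct K₁ a₁ a₂; (show Ct from D.red 2 ⟨x, hx 2⟩) = D.redE u) :
    letI := kap3Alg Ct K₁ a₁ a₂
    ∃ (hϖ : D.ϖ ∈ D.VE) (Φ Ψ : (↥D.VE)[X]), Φ.Monic ∧
      Φ.natDegree = Module.finrank E L ∧
      Φ.map D.VE.subtype = (Algebra.lmul E L x).charpoly ∧
      Φ = (X - C (u ^ q ^ m)) * (X - C u) ^ (q - 1) * (X ^ q ^ m - C u)
          + C (⟨D.ϖ, hϖ⟩ : ↥D.VE) * Ψ ∧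
      Polynomial.eval₂ ((algebraMap E L).comp D.VE.subtype) x Φ = 0 := by
  letI := kap3Alg Ct K₁ a₁ a₂
  exact kron2_three D hsurjE q m he (Module.finrank_self Ct) hf₁ hf₂
    (RingHom.id Ct) ha₂ hinj hn u x hx h0 h1 h2

end Three

end Fermat.Agent.S36.NU.H74
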