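/-
helper74, row 35 (S36), NU-B leaf M2 (L2-v): the integral closure of `k[t]` in a finite
separable extension `κ` of `k(t)`.

`l2v` : for `t ∈ κ` transcendental over `k`, `κ / k(t)` finite separable, and `S` a
`k`-subalgebra of `κ` whose elements are exactly the elements integral over `k[t]`:
`S` is a Dedekind domain, `κ` is its fraction field, and `S` is a finitely generated `k`-algebra.
-/
import Mathlib

set_option autoImplicit false

noncomputable section

open Polynomial IntermediateField
open scoped IntermediateField.algebraAdjoinAdjoin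

namespace Fermat.Agent.S36.NU.H74

variable {k κ : Type*} [Field k] [Field κ] [Algebra k κ]

/-- `k[X] ≃ k[t]` for `t` transcendental. -/
def polyEquivAdjoin (t : κ) (ht : Transcendental k t) :
    k[X] ≃ₐ[k] ↥(Algebra.adjoin k ({t} : Set κ)) :=
  (AlgEquiv.ofInjective (aeval t) (transcendental_iff_injective.1 ht)).trans
    (Subalgebra.equivOfEq _ _ (Algebra.adjoin_singleton_eq_range_aeval k t).symm)

theorem isPrincipalIdealRing_adjoin (t : κ) (ht : Transcendental k t) :
    IsPrincipalIdealRing ↥(Algebra.adjoin k ({t} : Set κ)) :=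
  IsPrincipalIdealRing.of_surjective (polyEquivAdjoin t ht).toAlgHom.toRingHom
    (polyEquivAdjoin t ht).surjective

section Closure

variable (t : κ) (ht : Transcendental k t)
  [FiniteDimensional ↥k⟮t⟯ κ] [Algebra.IsSeparable ↥k⟮t⟯ κ]

include ht in
/-- The integral closure of `k[t]` in `κ` is a Dedekind domain. -/
theorem isDedekindDomain_closure :
    IsDedekindDomain ↥(integralClosure ↥(Algebra.adjoin k ({t} : Set κ)) κ) := by
  haveI := isPrincipalIdealRing_adjoin t ht
  exact integralClosure.isDedekindDomain ↥(Algebra.adjoin k ({t} : Set κ)) ↥k⟮t⟯ κ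

omit [Algebra.IsSeparable ↥k⟮t⟯ κ] in
/-- `κ` is the fraction field of the integral closure of `k[t]`. -/
theorem isFractionRing_closure_aux :
    IsFractionRing ↥(integralClosure ↥(Algebra.adjoin k ({t} : Set κ)) κ) κ :=
  integralClosure.isFractionRing_of_finite_extension ↥k⟮t⟯ κ

include ht in
/-- The integral closure of `k[t]` in `κ` is a finite `k[t]`-module. -/
theorem finite_closure :
    Module.Finite ↥(Algebra.adjoin k ({t} : Set κ))
      ↥(integralClosure ↥(Algebra.adjoin k ({t} : Set κ)) κ) := by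
  haveI := isPrincipalIdealRing_adjoin t ht
  exact IsIntegralClosure.finite ↥(Algebra.adjoin k ({t} : Set κ)) ↥k⟮t⟯ κ _

end Closure

section Transfer

variable (t : κ) (S : Subalgebra k κ)
  (hS : ∀ y : κ, y ∈ S ↔ IsIntegral ↥(Algebra.adjoin k ({t} : Set κ)) y)

/-- The identification of `S` with the integral closure of `k[t]`. -/
def closureEquiv : ↥(integralClosure ↥(Algebra.adjoin k ({t} : Set κ)) κ) ≃ₐ[k] ↥S where
  toFun y := ⟨(y : κ), (hS _).2 y.2⟩
  invFun y := ⟨(y : κ), (hS _).1 y.2⟩
  left_inv _ := rfl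
  right_inv _ := rfl
  map_mul' _ _ := rfl
  map_add' _ _ := rfl
  commutes' _ := rfl

@[simp] theorem coe_closureEquiv (y : ↥(integralClosure ↥(Algebra.adjoin k ({t} : Set κ)) κ)) :
    ((closureEquiv t S hS y : ↥S) : κ) = (y : κ) := rfl

variable (ht : Transcendental k t)
  [FiniteDimensional ↥k⟮t⟯ κ] [Algebra.IsSeparable ↥k⟮t⟯ κ]

include ht hS in
/-- **(L2-v), Dedekind.** -/
theorem l2v_dedekind : IsDedekindDomain ↥S := by
  haveI := isPrincipalIdealRing_adjoin t ht
  letI iA : Algebra ↥(Algebra.adjoin k ({t} : Set κ)) ↥S :=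
    ((closureEquiv t S hS).toAlgHom.toRingHom.comp
      (algebraMap ↥(Algebra.adjoin k ({t} : Set κ))
        ↥(integralClosure ↥(Algebra.adjoin k ({t} : Set κ)) κ))).toAlgebra
  haveI : IsScalarTower ↥(Algebra.adjoin k ({t} : Set κ)) ↥S κ :=
    IsScalarTower.of_algebraMap_eq (fun _ => rfl)
  haveI : IsIntegralClosure ↥S ↥(Algebra.adjoin k ({t} : Set κ)) κ :=
    { algebraMap_injective := Subtype.val_injective
      isIntegral_iff := by
        intro x
        constructor
        · intro hx
          exact ⟨⟨x, (hS x).2 hx⟩, rfl⟩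
        · rintro ⟨y, rfl⟩
          exact (hS _).1 y.2 }
  exact IsIntegralClosure.isDedekindDomain ↥(Algebra.adjoin k ({t} : Set κ)) ↥k⟮t⟯ κ ↥S

include hS in
omit [Algebra.IsSeparable ↥k⟮t⟯ κ] in
/-- **(L2-v), fraction field.** -/
theorem l2v_fraction : IsFractionRing ↥S κ := by
  haveI := isFractionRing_closure_aux (k := k) t
  refine IsFractionRing.of_field ↥S κ ?_
  intro z
  obtain ⟨x, y, -, hxy⟩ := IsFractionRing.div_surjective
    (A := ↥(integralClosure ↥(Algebra.adjoin k ({t} : Set κ)) κ)) z
  exact ⟨closureEquiv t S hS x, closureEquiv t S hS y, hxy.symm⟩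

include ht hS in
/-- **(L2-v), finite generation.** -/
theorem l2v_fg : S.FG := by
  haveI := finite_closure t ht
  haveI : Algebra.FiniteType k ↥(Algebra.adjoin k ({t} : Set κ)) :=
    (Subalgebra.fg_iff_finiteType _).1 (Subalgebra.fg_adjoin_finset {t} |> fun h => by
      simpa using h)
  haveI : Algebra.FiniteType ↥(Algebra.adjoin k ({t} : Set κ))
      ↥(integralClosure ↥(Algebra.adjoin k ({t} : Set κ)) κ) := inferInstance
  haveI : Algebra.FiniteType k ↥(integralClosure ↥(Algebra.adjoin k ({t} : Set κ)) κ) :=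
    Algebra.FiniteType.trans (S := ↥(Algebra.adjoin k ({t} : Set κ))) inferInstance inferInstance
  exact (Subalgebra.fg_iff_finiteType _).2
    (Algebra.FiniteType.equiv inferInstance (closureEquiv t S hS))

include ht hS in
/-- **(L2-v)**: the integral closure `S` of `k[t]` in a finite separable extension `κ` of `k(t)`
is a Dedekind domain with fraction field `κ`, finitely generated over `k`. -/
theorem l2v : IsDedekindDomain ↥S ∧ IsFractionRing ↥S κ ∧ S.FG :=
  ⟨l2v_dedekind t S hS ht, l2v_fraction t S hS, l2v_fg t S hS ht⟩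

end Transfer

end Fermat.Agent.S36.NU.H74
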