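import Fermat.Agent.S36.NU.H79_Glue3

/-!
# S36 / NU-B, leaf B2 (helper79): norms which are `n`-th powers ⟹ the reductions are `n`-th powers

Tools (pure algebra):
* `IsCPow k n x` : `x` is a constant times an `n`-th power; API (`mul`, `pow`, `inv`, `zpow`,
  `div`, `map`, `of_pow_coprime`);
* `isCPow_of_pow_eq` : in a field in which `k` is "closed under `n`-th roots"
  (`RootClosed k F n`), two `n`-th roots of the same element differ by a constant;
* `ResNorm k E L` : a **norm of residue fields** `N : E →* L` with an embedding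
  `j : L →ₐ[k] E` such that `j (N x) = x ^ f` (`f = 1`: an isomorphism; `f = q`: a purely
  inseparable extension of degree `q`); `ResNorm.isCPow_of_N` (if `N x` is a constant times an
  `n`-th power and `f` is prime to `n`, then so is `x`), `ResNorm.hasValue_N` (values);
* `rd_isCPow_of_eq` (level of the valuation): if `f = c g ^ n` is a unit of the valuation ring
  of a `PRed`, then `g` can be scaled to a unit `g'` with `rd f = c' (rd g') ^ n`.
-/

set_option autoImplicit false
set_option linter.style.haveILetI false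

noncomputable section

open AlgebraicCurve

attribute [local instance] Classical.propDecidable

namespace Fermat.Agent.S36.NU.H79

open Fermat.Agent.RED.H17 Fermat.Agent.RED Fermat.Agent.BAD.H79 Fermat.Agent.BAD

/-! ## Constants times `n`-th powers -/

section CPow

variable (k : Type*) {F F' : Type*} [Field k] [Field F] [Algebra k F] [Field F'] [Algebra k F']

/-- `x` is a constant times an `n`-th power. -/
def IsCPow (n : ℕ) (x : F) : Prop := ∃ (c : k) (y : F), x = algebraMap k F c * y ^ n

variable {k} {n : ℕ}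

theorem isCPow_const (n : ℕ) (c : k) : IsCPow k n (algebraMap k F c) :=
  ⟨c, 1, by rw [one_pow, mul_one]⟩

theorem isCPow_one (n : ℕ) : IsCPow k n (1 : F) := ⟨1, 1, by rw [map_one, one_pow, mul_one]⟩

theorem isCPow_zero (n : ℕ) : IsCPow k n (0 : F) := ⟨0, 1, by rw [map_zero, zero_mul]⟩

theorem isCPow_pow (n : ℕ) (y : F) : IsCPow k n (y ^ n) := ⟨1, y, by rw [map_one, one_mul]⟩

theorem IsCPow.mul {x x' : F} (h : IsCPow k n x) (h' : IsCPow k n x') :
    IsCPow k n (x * x') := by
  obtain ⟨c, y, rfl⟩ := h
  obtain ⟨c', y', rfl⟩ := h'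
  exact ⟨c * c', y * y', by rw [map_mul, mul_pow]; ring⟩

theorem IsCPow.pow {x : F} (h : IsCPow k n x) (m : ℕ) : IsCPow k n (x ^ m) := by
  induction m with
  | zero => rw [pow_zero]; exact isCPow_one n
  | succ m ih => rw [pow_succ]; exact ih.mul h

theorem IsCPow.inv {x : F} (h : IsCPow k n x) : IsCPow k n x⁻¹ := by
  obtain ⟨c, y, rfl⟩ := h
  exact ⟨c⁻¹, y⁻¹, by rw [map_inv₀, mul_inv, inv_pow]⟩

theorem IsCPow.div {x x' : F} (h : IsCPow k n x) (h' : IsCPow k n x') :
    IsCPow k n (x / x') := by
  rw [div_eq_mul_inv]; exact h.mul h'.inv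

theorem IsCPow.zpow {x : F} (h : IsCPow k n x) (m : ℤ) : IsCPow k n (x ^ m) := by
  cases m with
  | ofNat m => rw [Int.ofNat_eq_natCast, zpow_natCast]; exact h.pow m
  | negSucc m => rw [zpow_negSucc]; exact (h.pow (m + 1)).inv

theorem isCPow_zpow_mul (y : F) (b : ℤ) : IsCPow k n (y ^ (b * (n : ℤ))) := by
  rw [zpow_mul, zpow_natCast]
  exact isCPow_pow n _

theorem IsCPow.map (j : F →ₐ[k] F') {x : F} (h : IsCPow k n x) : IsCPow k n (j x) := by
  obtain ⟨c, y, rfl⟩ := h
  exact ⟨c, j y, by rw [map_mul, map_pow, AlgHom.commutes]⟩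

/-- If `x ^ f` is a constant times an `n`-th power and `f` is prime to `n`, then so is `x`. -/
theorem IsCPow.of_pow_coprime {f : ℕ} {x : F} (hcop : Nat.Coprime f n)
    (h : IsCPow k n (x ^ f)) : IsCPow k n x := by
  by_cases hx : x = 0
  · rw [hx]; exact isCPow_zero n
  have hg : (f : ℤ) * Int.gcdA f n + (n : ℤ) * Int.gcdB f n = 1 := by
    have := Int.gcd_eq_gcd_ab (f : ℤ) (n : ℤ)
    rw [Int.gcd_natCast_natCast, hcop.gcd_eq_one] at this
    exact_mod_cast this.symm
  have e : x = (x ^ f) ^ (Int.gcdA f n) * x ^ (Int.gcdB f n * (n : ℤ)) := by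
    rw [← zpow_natCast x f, ← zpow_mul, ← zpow_add₀ hx, mul_comm (Int.gcdB f n) (n : ℤ), hg,
      zpow_one]
  rw [e]
  exact (h.zpow _).mul (isCPow_zpow_mul x _)

end CPow

/-! ## Constants are closed under `n`-th roots -/

/-- `k` is closed under `n`-th roots in `F`: an element of `F` whose `n`-th power is a constant
is a constant (true if `k` is algebraically closed in `F`). -/
def RootClosed (k F : Type*) [Field k] [Field F] [Algebra k F] (n : ℕ) : Prop :=
  ∀ r : F, (∃ c : k, r ^ n = algebraMap k F c) → ∃ c' : k, r = algebraMap k F c'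

/-- Two `n`-th roots of the same non-zero element differ by a constant. -/
theorem exists_const_of_pow_eq {k F : Type*} [Field k] [Field F] [Algebra k F] {n : ℕ}
    (hk : RootClosed k F n) {x y : F} {c : k} (hy : y ≠ 0)
    (h : x ^ n = algebraMap k F c * y ^ n) : ∃ μ : k, x = algebraMap k F μ * y := by
  obtain ⟨μ, hμ⟩ := hk (x / y) ⟨c, by
    rw [div_pow, h, mul_div_assoc, div_self (pow_ne_zero n hy), mul_one]⟩
  exact ⟨μ, by rw [← hμ, div_mul_cancel₀ x hy]⟩

/-! ## Norms of residue fields -/

/-- A **norm of residue fields**: a multiplicative map `N : E → L` with an embedding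
`j : L → E` over `k` such that `j (N x) = x ^ f`. -/
structure ResNorm (k E L : Type*) [Field k] [Field E] [Field L] [Algebra k E]
    [Algebra k L] where
  /-- the norm -/
  N : E →* L
  /-- the embedding of the lower residue field -/
  j : L →ₐ[k] E
  /-- the residue degree -/
  f : ℕ
  hj : ∀ x : E, j (N x) = x ^ f

namespace ResNorm

variable {k E L : Type*} [Field k] [Field E] [Field L] [Algebra k E] [Algebra k L]
  (R : ResNorm k E L) {n : ℕ}

theorem N_const (c : k) : R.N (algebraMap k E c) = algebraMap k L (c ^ R.f) := by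
  apply R.j.toRingHom.injective
  change R.j (R.N (algebraMap k E c)) = R.j (algebraMap k L (c ^ R.f))
  rw [R.hj, AlgHom.commutes, map_pow]

theorem N_ne_zero {x : E} (hx : x ≠ 0) : R.N x ≠ 0 := by
  intro h0
  have := R.hj x
  rw [h0, map_zero] at this
  exact pow_ne_zero R.f hx this.symm

/-- The norm of a constant times an `n`-th power is a constant times an `n`-th power. -/
theorem N_isCPow {x : E} (h : IsCPow k n x) : IsCPow k n (R.N x) := by
  obtain ⟨c, y, rfl⟩ := h
  exact ⟨c ^ R.f, R.N y, by rw [map_mul, map_pow, R.N_const]⟩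

/-- If `N x` is a constant times an `n`-th power and `f` is prime to `n`, then so is `x`. -/
theorem isCPow_of_N (hcop : Nat.Coprime R.f n) {x : E} (h : IsCPow k n (R.N x)) :
    IsCPow k n x := by
  refine IsCPow.of_pow_coprime hcop ?_
  rw [← R.hj]
  exact h.map R.j

/-- Values: if the point `pt` of `E` lies over the point `pt'` of `L`, then the value of `N x`
at `pt'` is the `f`-th power of the value of `x` at `pt`. -/
theorem hasValue_N {pt : Place k E} {pt' : Place k L}
    (hpt : ∀ (y : L) (a : k), HasValue pt (R.j y) a → HasValue pt' y a) {x : E} {a : k}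
    (h : HasValue pt x a) : HasValue pt' (R.N x) (a ^ R.f) := by
  apply hpt
  rw [R.hj]
  exact h.pow R.f

end ResNorm

/-! ## The level of the valuation -/

section PRedLevel

variable {K F k F' : Type*} [Field K] [Field F] [Algebra K F] [Field k] [Field F']
  [Algebra k F'] (S : PRed K F k F')

/-- If `f = c g ^ n` is a unit of the valuation ring, then `g` can be scaled by a constant to
a unit `g'`, and `rd f = c' (rd g') ^ n` with a constant `c'`. -/
theorem rd_isCPow_of_eq {n : ℕ} (hn : n ≠ 0) {f g : F} {c : K} (hf : S.IsGU f)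
    (h : f = algebraMap K F c * g ^ n) :
    ∃ (d : K) (c' : k), d ≠ 0 ∧ S.IsGU (algebraMap K F d * g) ∧
      f = algebraMap K F (c / d ^ n) * (algebraMap K F d * g) ^ n ∧
      algebraMap K F (c / d ^ n) ∈ S.V ∧
      S.rd f = algebraMap k F' c' * S.rd (algebraMap K F d * g) ^ n := by
  have hf0 : f ≠ 0 := hf.ne_zero
  have hg0 : g ≠ 0 := by
    rintro rfl
    rw [zero_pow hn, mul_zero] at h
    exact hf0 h
  obtain ⟨d, hd0, hdu⟩ := S.exists_isGU_scale hg0
  have hdF : algebraMap K F d ≠ 0 := (map_ne_zero_iff _ (algebraMap K F).injective).mpr hd0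
  have hfe : f = algebraMap K F (c / d ^ n) * (algebraMap K F d * g) ^ n := by
    rw [h, map_div₀, map_pow, mul_pow]
    field_simp
  have hcu : S.IsGU (algebraMap K F (c / d ^ n)) := by
    have e : algebraMap K F (c / d ^ n) = f / (algebraMap K F d * g) ^ n := by
      rw [eq_div_iff (pow_ne_zero n hdu.ne_zero)]
      exact hfe.symm
    rw [e]
    exact hf.div (hdu.pow n)
  obtain ⟨c', hc'⟩ := S.rd_algebraMap_mem_range hcu.mem
  refine ⟨d, c', hd0, hdu, hfe, hcu.mem, ?_⟩
  conv_lhs => rw [hfe]
  rw [S.rd_mul hcu.mem (S.V.pow_mem hdu.mem n), hc', S.rd_pow hdu.mem]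

end PRedLevel

end Fermat.Agent.S36.NU.H79
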