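import Fermat.Agent.S36.NU.H79_Loc3
import Fermat.Agent.BAD.H79_Basic

/-!
# S36 / NU-B, leaf GLUE3 (helper79): gluing at a multiple point, by norms to the lower level

Setting: `T : TotN ..` the conservation datum of the HIGHER level (modular: level `q² M'`, the
three valuations `v₂₀`, `v₁₁`, `v₀₂` of the `K^ur`-rational functions), `T' : TotData ..` the
conservation datum of the LOWER level (modular: level `q M'`, two valuations), `Nm : L₀ → L'`
(modular: the norm along `α : X₀(q² M') → X₀(q M')`), `z` a point, `z'` a NODE of the lower level.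

Hypothesis `NormVal` (modular: NORM-RED with ramification, helper42, + compatibility of the
points): for every function `h` which is a unit for all valuations and regular on the fibre of
`z`, with values `a i` of its reductions at `z`: `Nm h ∈ R_{z'}`, the value of the first reduction
of `Nm h` at `z'` is `∏_{i ∈ s₁} a i ^ n i` and the value of the second reduction at `β z'` is
`∏_{i ∈ s₂} a i ^ n i` (modular: `s₁ = {20, 11}`, `n = (1, q - 1)`; `s₂ = {02}`, `n = q`).

Results, for `f ∈ R_z` with values `a i`: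
* `TotN.glue_poly` : `∏_{i ∈ s₁} (a i - c) ^ n i = ∏_{i ∈ s₂} (a i - c) ^ n i` for all constants
  `c` outside a finite set (apply the hypothesis to `f - c`, and use the node of `T'`);
* `TotN.glue_eq` : if `s₂ = {i₂}`, then `a i = a i₂` for `i ∈ s₁` with `n i > 0`;
* `TotN.isGlued` : if moreover every `i ≠ i₂` is in `s₁` with `n i > 0`: the reductions of every
  `f ∈ R_z` take the SAME value at `z` (GLUE3).
* `TotN.normVal_of_norm` : the hypothesis `NormVal` from the norm formula for the reductions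
  `red'₁ (Nm h) = ∏_{i ∈ s₁} N₁ i (red i h) ^ e i`, `red'₂ (Nm h) = ∏_{i ∈ s₂} N₂ i (red i h) ^ e i`
  and the compatibility of the values with the maps `N₁ i`, `N₂ i` of the residue fields
  (value `a` of `x` at `pt i z` gives the value `a ^ f i` of `N i x` at `z'`, `β z'`); the
  exponents are then `n i = f i * e i`.
-/

set_option autoImplicit false
set_option linter.style.haveILetI false

noncomputable section

open AlgebraicCurve

attribute [local instance] Classical.propDecidable

namespace Fermat.Agent.S36.NU.H79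

open Fermat.Agent.RED.H17 Fermat.Agent.RED Fermat.Agent.BAD.H79

/-! ## Values of products -/

section Values

variable {k F : Type*} [Field k] [Field F] [Algebra k F]

/-- `f` takes the value `a` at `v`. -/
def HasValue (v : Place k F) (f : F) (a : k) : Prop := VanAt v (f - algebraMap k F a)

theorem HasValue.regAt {v : Place k F} {f : F} {a : k} (h : HasValue v f a) : RegAt v f := by
  have : f = (f - algebraMap k F a) + algebraMap k F a := by ring
  rw [this]
  exact (VanAt.regAt h).add (regAt_algebraMap v a)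

theorem HasValue.unique {v : Place k F} {f : F} {a b : k} (ha : HasValue v f a)
    (hb : HasValue v f b) : a = b := value_unique v ha hb

theorem hasValue_const (v : Place k F) (a : k) : HasValue v (algebraMap k F a) a := by
  unfold HasValue
  rw [sub_self]
  exact vanAt_zero v

theorem hasValue_one (v : Place k F) : HasValue v (1 : F) 1 := by
  have := hasValue_const v (1 : k)
  rwa [map_one] at this

theorem HasValue.sub {v : Place k F} {f g : F} {a b : k} (hf : HasValue v f a)
    (hg : HasValue v g b) : HasValue v (f - g) (a - b) := by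
  unfold HasValue at *
  have : f - g - algebraMap k F (a - b) = (f - algebraMap k F a) - (g - algebraMap k F b) := by
    rw [map_sub]; ring
  rw [this]
  exact hf.sub hg

theorem HasValue.mul {v : Place k F} {f g : F} {a b : k} (hf : HasValue v f a)
    (hg : HasValue v g b) : HasValue v (f * g) (a * b) := by
  have hreg := hf.regAt
  unfold HasValue at *
  have : f * g - algebraMap k F (a * b)
      = f * (g - algebraMap k F b) + (f - algebraMap k F a) * algebraMap k F b := by
    rw [map_mul]; ring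
  rw [this]
  exact (hreg.mul_vanAt hg).add (hf.mul_regAt (regAt_algebraMap v b))

theorem HasValue.pow {v : Place k F} {f : F} {a : k} (hf : HasValue v f a) (n : ℕ) :
    HasValue v (f ^ n) (a ^ n) := by
  induction n with
  | zero => simpa using hasValue_one v
  | succ n ih => rw [pow_succ, pow_succ]; exact ih.mul hf

theorem HasValue.prod {ι : Type*} {v : Place k F} (s : Finset ι) {f : ι → F} {a : ι → k}
    (hf : ∀ i ∈ s, HasValue v (f i) (a i)) : HasValue v (∏ i ∈ s, f i) (∏ i ∈ s, a i) := by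
  induction s using Finset.induction_on with
  | empty => simpa using hasValue_one v
  | insert i s hi ih =>
    rw [Finset.prod_insert hi, Finset.prod_insert hi]
    exact (hf i (Finset.mem_insert_self i s)).mul
      (ih fun j hj => hf j (Finset.mem_insert_of_mem hj))

end Values

/-! ## The algebra -/

/-- If `∏_{i ∈ s₁} (a i - c) ^ n i = ∏_{i ∈ s₂} (a i - c) ^ n i` for all `c` outside a finite
set, then the two products are equal as polynomials in `c`. -/
theorem glue_alg_poly {k ι : Type*} [Field k] [Infinite k] (s₁ s₂ : Finset ι) (n : ι → ℕ)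
    (a : ι → k) (S : Set k) (hS : S.Finite)
    (h : ∀ c, c ∉ S → ∏ i ∈ s₁, (a i - c) ^ n i = ∏ i ∈ s₂, (a i - c) ^ n i) :
    ∏ i ∈ s₁, (Polynomial.C (a i) - Polynomial.X) ^ n i
      = ∏ i ∈ s₂, (Polynomial.C (a i) - Polynomial.X) ^ n i := by
  apply Polynomial.eq_of_infinite_eval_eq
  refine Set.Infinite.mono ?_ hS.infinite_compl
  intro c hc
  rw [Set.mem_ofPred_eq]
  simp only [Polynomial.eval_prod, Polynomial.eval_pow, Polynomial.eval_sub, Polynomial.eval_C,
    Polynomial.eval_X]
  exact h c hc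

/-- If `∏_{i ∈ s₁} (a i - c) ^ n i = (d - c) ^ e` for all `c` outside a finite set, then
`a i = d` for all `i ∈ s₁` with `n i > 0`. -/
theorem glue_alg {k ι : Type*} [Field k] [Infinite k] (s₁ : Finset ι) (n : ι → ℕ)
    (a : ι → k) (d : k) (e : ℕ) (S : Set k) (hS : S.Finite)
    (h : ∀ c, c ∉ S → ∏ i ∈ s₁, (a i - c) ^ n i = (d - c) ^ e) {i : ι} (hi : i ∈ s₁)
    (hn : 0 < n i) : a i = d := by
  have hpoly : ∏ j ∈ s₁, (Polynomial.C (a j) - Polynomial.X) ^ n j
      = (Polynomial.C d - Polynomial.X) ^ e := by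
    apply Polynomial.eq_of_infinite_eval_eq
    refine Set.Infinite.mono ?_ hS.infinite_compl
    intro c hc
    rw [Set.mem_ofPred_eq]
    simp only [Polynomial.eval_prod, Polynomial.eval_pow, Polynomial.eval_sub,
      Polynomial.eval_C, Polynomial.eval_X]
    exact h c hc
  have h1 := congrArg (Polynomial.eval (a i)) hpoly
  simp only [Polynomial.eval_prod, Polynomial.eval_pow, Polynomial.eval_sub, Polynomial.eval_C,
    Polynomial.eval_X] at h1
  rw [Finset.prod_eq_zero hi (by rw [sub_self, zero_pow hn.ne'])] at h1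
  have h2 : d - a i = 0 := by
    by_contra hne
    exact pow_ne_zero e hne h1.symm
  exact (sub_eq_zero.mp h2).symm

namespace TotN

variable {K L₀ L k ι Z : Type*} {E : ι → Type*} [Field K] [Field L₀] [Field L]
  [Algebra K L] [Algebra L₀ L] [Field k] [Fintype ι] [∀ i, Field (E i)]
  [∀ i, Algebra k (E i)] (T : TotN K L₀ L k ι Z E)

/-- `f ∈ R_z`: integral for all valuations, without pole on the fibre of `z`. -/
def InR (z : Z) (f : L₀) : Prop :=
  (∀ i, f ∈ T.V i) ∧ ∀ P, T.ρ P = z → RegAt P (algebraMap L₀ L f)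

/-- The reduction of `f` for the valuation `i` (`0` if `f` is not integral). -/
def rdN (i : ι) (f : L₀) : E i := if h : f ∈ T.V i then T.red i ⟨f, h⟩ else 0

theorem rdN_of_mem {i : ι} {f : L₀} (h : f ∈ T.V i) : T.rdN i f = T.red i ⟨f, h⟩ := by
  unfold rdN
  rw [dif_pos h]

theorem rdN_sub {i : ι} {f g : L₀} (hf : f ∈ T.V i) (hg : g ∈ T.V i) :
    T.rdN i (f - g) = T.rdN i f - T.rdN i g := by
  rw [T.rdN_of_mem hf, T.rdN_of_mem hg, T.rdN_of_mem ((T.V i).sub_mem hf hg), ← map_sub]
  rfl

theorem rdN_mul {i : ι} {f g : L₀} (hf : f ∈ T.V i) (hg : g ∈ T.V i) :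
    T.rdN i (f * g) = T.rdN i f * T.rdN i g := by
  rw [T.rdN_of_mem hf, T.rdN_of_mem hg, T.rdN_of_mem ((T.V i).mul_mem _ _ hf hg), ← map_mul]
  rfl

theorem rdN_one (i : ι) : T.rdN i (1 : L₀) = 1 := by
  rw [T.rdN_of_mem (T.V i).one_mem]
  exact map_one (T.red i)

variable {T}

theorem InR.sub {z : Z} {f g : L₀} (hf : T.InR z f) (hg : T.InR z g) : T.InR z (f - g) :=
  ⟨fun i => (T.V i).sub_mem (hf.1 i) (hg.1 i), fun P hP => by
    rw [map_sub]; exact (hf.2 P hP).sub (hg.2 P hP)⟩

theorem InR.add {z : Z} {f g : L₀} (hf : T.InR z f) (hg : T.InR z g) : T.InR z (f + g) :=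
  ⟨fun i => (T.V i).add_mem _ _ (hf.1 i) (hg.1 i), fun P hP => by
    rw [map_add]; exact (hf.2 P hP).add (hg.2 P hP)⟩

theorem InR.mul {z : Z} {f g : L₀} (hf : T.InR z f) (hg : T.InR z g) : T.InR z (f * g) :=
  ⟨fun i => (T.V i).mul_mem _ _ (hf.1 i) (hg.1 i), fun P hP => by
    rw [map_mul]; exact (hf.2 P hP).mul (hg.2 P hP)⟩

theorem inR_one (z : Z) : T.InR z (1 : L₀) :=
  ⟨fun i => (T.V i).one_mem, fun P _ => by rw [map_one]; exact regAt_one P⟩

/-- The reductions of `f ∈ R_z` are regular at `z` (REG). -/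
theorem InR.regAt [Infinite k] (hP : HasPrincipalDivisors K L) {z : Z} {f : L₀}
    (hf : T.InR z f) (i : ι) : RegAt (T.pt i z) (T.rdN i f) := by
  rw [T.rdN_of_mem (hf.1 i)]
  exact T.regAt hP hf.1 hf.2 i

variable (T)

/-- The hypothesis of GLUE3 (modular: NORM-RED with ramification + compatibility of the points):
the values of the two reductions of `Nm h` at a point `z'` of the lower level are monomials in
the values of the reductions of `h` at `z`, for `h` a unit for all valuations and regular on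
the fibre of `z`. -/
def NormVal {K' L' L₁ L₂ : Type*} [Field K'] [Field L'] [Algebra K' L'] [Field L₁]
    [Algebra k L₁] [Field L₂] [Algebra k L₂] (T' : TotData K' L' k L₁ L₂) (Nm : L₀ → L')
    (z : Z) (z' : Place k L₁) (s₁ s₂ : Finset ι) (n : ι → ℕ) : Prop :=
  ∀ h : L₀, T.InR z h → (∀ i, T.rdN i h ≠ 0) → ∀ a : ι → k,
    (∀ i, HasValue (T.pt i z) (T.rdN i h) (a i)) →
    T'.InR z' (Nm h) ∧ HasValue z' (T'.p₁.rd (Nm h)) (∏ i ∈ s₁, a i ^ n i) ∧
      HasValue (T'.β z') (T'.p₂.rd (Nm h)) (∏ i ∈ s₂, a i ^ n i)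

variable {T}

section Glue

variable {K' L' L₁ L₂ : Type*} [Field K'] [Field L'] [Algebra K' L'] [Field L₁]
  [Algebra k L₁] [Field L₂] [Algebra k L₂] {T' : TotData K' L' k L₁ L₂} {Nm : L₀ → L'}
  {z : Z} {z' : Place k L₁} {s₁ s₂ : Finset ι} {n : ι → ℕ}

/-- The set of constants which are a reduction of `f`. -/
private theorem finite_const {f : L₀} :
    {c : k | ∃ i, T.rdN i f = algebraMap k (E i) c}.Finite := by
  have : {c : k | ∃ i, T.rdN i f = algebraMap k (E i) c}
      = ⋃ i : ι, {c : k | T.rdN i f = algebraMap k (E i) c} := by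
    ext c
    simp only [Set.mem_ofPred_eq, Set.mem_iUnion]
  rw [this]
  refine Set.finite_iUnion fun i => Set.Subsingleton.finite ?_
  intro a ha b hb
  rw [Set.mem_ofPred_eq] at ha hb
  exact (algebraMap k (E i)).injective (ha.symm.trans hb)

/-- **The polynomial identity of the values** at a point over a node of the lower level. -/
theorem glue_poly (hN : T.NormVal T' Nm z z' s₁ s₂ n) (hnode : T'.IsNode z') {f : L₀}
    (hf : T.InR z f) {a : ι → k} (ha : ∀ i, HasValue (T.pt i z) (T.rdN i f) (a i)) (c : k)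
    (hc : c ∉ {c : k | ∃ i, T.rdN i f = algebraMap k (E i) c}) :
    ∏ i ∈ s₁, (a i - c) ^ n i = ∏ i ∈ s₂, (a i - c) ^ n i := by
  obtain ⟨c₀, ⟨c', hc'⟩, hc₀⟩ := T.const_lift c
  have hcm : ∀ i, c₀ ∈ T.V i := fun i => (hc₀ i).choose
  have hcr : ∀ i, T.rdN i c₀ = algebraMap k (E i) c := fun i => by
    rw [T.rdN_of_mem (hcm i)]; exact (hc₀ i).choose_spec
  have hcR : T.InR z c₀ := ⟨hcm, fun P _ => by rw [hc']; exact regAt_algebraMap P c'⟩
  have hg : T.InR z (f - c₀) := hf.sub hcR
  have hgr : ∀ i, T.rdN i (f - c₀) = T.rdN i f - algebraMap k (E i) c := fun i => by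
    rw [T.rdN_sub (hf.1 i) (hcm i), hcr]
  have hg0 : ∀ i, T.rdN i (f - c₀) ≠ 0 := fun i h0 => by
    rw [hgr, sub_eq_zero] at h0
    exact hc ⟨i, h0⟩
  have hgv : ∀ i, HasValue (T.pt i z) (T.rdN i (f - c₀)) ((fun j => a j - c) i) := fun i => by
    rw [hgr]
    exact (ha i).sub (hasValue_const _ c)
  obtain ⟨hR, h1, h2⟩ := hN (f - c₀) hg hg0 (fun j => a j - c) hgv
  have h1' : HasValue (T'.β z') (T'.p₂.rd (Nm (f - c₀))) (∏ i ∈ s₁, (a i - c) ^ n i) :=
    (hnode _ hR _).mp h1
  exact h1'.unique h2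

/-- **GLUE3, one component on the second side**: the values on the first side are equal to the
value on the second side. -/
theorem glue_eq [Infinite k] {i₂ : ι} (hN : T.NormVal T' Nm z z' s₁ {i₂} n)
    (hnode : T'.IsNode z') {f : L₀} (hf : T.InR z f) {a : ι → k}
    (ha : ∀ i, HasValue (T.pt i z) (T.rdN i f) (a i)) {i : ι} (hi : i ∈ s₁) (hn : 0 < n i) :
    a i = a i₂ := by
  refine glue_alg s₁ n a (a i₂) (n i₂) _ (finite_const (T := T) (f := f)) (fun c hc => ?_)
    hi hn
  have := glue_poly hN hnode hf ha c hc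
  rwa [Finset.prod_singleton] at this

/-- **GLUE3**: at a point `z` over a node `z'` of the lower level, the reductions of every
`f ∈ R_z` take the same value at `z`. -/
theorem isGlued [Infinite k] (hP : HasPrincipalDivisors K L) {i₂ : ι}
    (hN : T.NormVal T' Nm z z' s₁ {i₂} n) (hnode : T'.IsNode z')
    (hs : ∀ i, i ≠ i₂ → i ∈ s₁ ∧ 0 < n i) (hdeg : ∀ i, (T.pt i z).deg = 1) {f : L₀}
    (hf : T.InR z f) (i j : ι) (c : k) :
    HasValue (T.pt i z) (T.rdN i f) c ↔ HasValue (T.pt j z) (T.rdN j f) c := by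
  have hex : ∀ l, ∃ a : k, HasValue (T.pt l z) (T.rdN l f) a := fun l =>
    exists_value (T.pt l z) (hdeg l) (hf.regAt hP l)
  choose a ha using hex
  have heq : ∀ l, a l = a i₂ := fun l => by
    by_cases hl : l = i₂
    · rw [hl]
    · exact glue_eq hN hnode hf ha (hs l hl).1 (hs l hl).2
  constructor
  · intro h
    have : c = a j := by rw [heq j, ← heq i]; exact h.unique (ha i)
    rw [this]; exact ha j
  · intro h
    have : c = a i := by rw [heq i, ← heq j]; exact h.unique (ha j)
    rw [this]; exact ha i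

/-- The hypothesis `NormVal` from the norm formula for the reductions (NORM-RED with
ramification: `e i` the ramification indices, `N₁ i`, `N₂ i` the norms of the residue fields)
and the compatibility of the values with the norms of the residue fields (`f i` the residue
degrees). -/
theorem normVal_of_norm (N₁ : ∀ i, E i → L₁) (N₂ : ∀ i, E i → L₂) (e f : ι → ℕ)
    (hmem : ∀ h : L₀, T.InR z h → (∀ i, T.rdN i h ≠ 0) → T'.InR z' (Nm h))
    (hred₁ : ∀ h : L₀, T.InR z h → (∀ i, T.rdN i h ≠ 0) →
      T'.p₁.rd (Nm h) = ∏ i ∈ s₁, N₁ i (T.rdN i h) ^ e i)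
    (hred₂ : ∀ h : L₀, T.InR z h → (∀ i, T.rdN i h ≠ 0) →
      T'.p₂.rd (Nm h) = ∏ i ∈ s₂, N₂ i (T.rdN i h) ^ e i)
    (hval₁ : ∀ i ∈ s₁, ∀ (x : E i) (a : k), HasValue (T.pt i z) x a →
      HasValue z' (N₁ i x) (a ^ f i))
    (hval₂ : ∀ i ∈ s₂, ∀ (x : E i) (a : k), HasValue (T.pt i z) x a →
      HasValue (T'.β z') (N₂ i x) (a ^ f i)) :
    T.NormVal T' Nm z z' s₁ s₂ (fun i => f i * e i) := by
  intro h hR hu a ha
  refine ⟨hmem h hR hu, ?_, ?_⟩
  · rw [hred₁ h hR hu]
    refine HasValue.prod s₁ fun i hi => ?_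
    rw [pow_mul]
    exact (hval₁ i hi _ _ (ha i)).pow (e i)
  · rw [hred₂ h hR hu]
    refine HasValue.prod s₂ fun i hi => ?_
    rw [pow_mul]
    exact (hval₂ i hi _ _ (ha i)).pow (e i)

end Glue

end TotN

end Fermat.Agent.S36.NU.H79
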