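import Fermat.Agent.S36.NU.H79_Glue3
import Fermat.Prelude.Def_AlgebraicCurve_DivisorPushPull

/-!
# S36 / NU-B (helper79): graded values at a multiple point, regularity of norms

* `regAt_norm` : `L / E` finite with the norm formula for places: if `f` is regular at all
  places of `L` over the place `Q` of `E`, then `N_{L/E} f` is regular at `Q`
  (item (i) of the modular instance of GLUE3);
* `ord_norm_eq_zero` : if `f` has no zero and no pole over `Q`, then `N_{L/E} f` has no zero and
  no pole at `Q`;
* `TotN.MultPt.inR_of_mul` / `TotN.MultPt.graded_regAt` (G2): at a multiple point `z` with local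
  equations `t i`, if `f ∈ R_z` is divisible by `∏ i, t i ^ b i` for all valuations
  (`f = (∏ i, t i ^ b i) * h'` with `h'` integral for all valuations), then `h' ∈ R_z`, so the
  reductions of `h'` are regular at `z`
  (modular: `v₂₀ f ≥ 1`, `v₀₂ f ≥ 1`, `v₁₁ f ≥ j / (q - 1)`: the `j`-th graded piece
  `red₁₁ (f / t₁₁ ^ j)` of `f` on the component of multiplicity `q - 1` is divisible by
  `red₁₁ (t₂₀ t₀₂)`, which has a double zero at `z`);
-/

set_option autoImplicit false
set_option linter.style.haveILetI false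

noncomputable section

open AlgebraicCurve

attribute [local instance] Classical.propDecidable

namespace Fermat.Agent.S36.NU.H79

open Fermat.Agent.RED.H17 Fermat.Agent.RED Fermat.Agent.BAD.H79

/-- The order of a product of powers. -/
theorem ord_prod_pow_nat {k F ι : Type*} [Field k] [Field F] [Algebra k F] (v : Place k F)
    (s : Finset ι) (x : ι → F) (e : ι → ℕ) (hx : ∀ i ∈ s, x i ≠ 0) :
    v.ord (∏ i ∈ s, x i ^ e i) = ∑ i ∈ s, (e i : ℤ) * v.ord (x i) := by
  induction s using Finset.induction_on with
  | empty => simp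
  | insert a s ha ih =>
    have hxa : x a ≠ 0 := hx a (Finset.mem_insert_self a s)
    have hxs : ∀ i ∈ s, x i ≠ 0 := fun i hi => hx i (Finset.mem_insert_of_mem hi)
    rw [Finset.prod_insert ha, Finset.sum_insert ha,
      v.ord_mul (pow_ne_zero _ hxa) (Finset.prod_ne_zero_iff.mpr fun j hj =>
        pow_ne_zero _ (hxs j hj)), ih hxs, ord_pow]

section Norm

variable {K E L : Type*} [Field K] [Field E] [Field L] [Algebra K E] [Algebra K L]
  [Algebra E L] [IsScalarTower K E L] [Algebra.IsIntegral E L] [Module.Finite E L]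

/-- The order of the norm at `Q` is the sum of the orders over `Q`, weighted by the inertia
degrees. -/
theorem ord_norm_eq_sum (hnorm : Divisor.PushforwardNormFormula K E L)
    (hPL : HasPrincipalDivisors K L) {f : L} (hf : f ≠ 0) (Q : Place K E) :
    Q.ord (Algebra.norm E f) = ∑ w ∈ (dv hPL f).support,
      if w.restrict E = Q then w.ord f * (w.inertiaDeg E : ℤ) else 0 := by
  rw [← hnorm f hf (dv hPL f) (fun w => dv_apply hPL f w) Q, Divisor.pushforward_apply]
  refine Finset.sum_congr rfl fun w _ => ?_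
  rw [dv_apply]

/-- **The norm of a function regular over `Q` is regular at `Q`.** -/
theorem regAt_norm (hnorm : Divisor.PushforwardNormFormula K E L)
    (hPL : HasPrincipalDivisors K L) {f : L} (Q : Place K E)
    (hreg : ∀ P : Place K L, P.restrict E = Q → RegAt P f) : RegAt Q (Algebra.norm E f) := by
  by_cases hf : f = 0
  · rw [hf, Algebra.norm_zero]
    exact regAt_zero Q
  apply regAt_of_ord_nonneg
  rw [ord_norm_eq_sum hnorm hPL hf Q]
  refine Finset.sum_nonneg fun w _ => ?_
  split_ifs with hw
  · exact mul_nonneg (hreg w hw).ord_nonneg (Int.natCast_nonneg _)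
  · exact le_rfl

/-- If `f` has no zero and no pole over `Q`, then `N_{L/E} f` has no zero and no pole at
`Q`. -/
theorem ord_norm_eq_zero (hnorm : Divisor.PushforwardNormFormula K E L)
    (hPL : HasPrincipalDivisors K L) {f : L} (hf : f ≠ 0) (Q : Place K E)
    (h0 : ∀ P : Place K L, P.restrict E = Q → P.ord f = 0) :
    Q.ord (Algebra.norm E f) = 0 := by
  rw [ord_norm_eq_sum hnorm hPL hf Q]
  refine Finset.sum_eq_zero fun w _ => ?_
  split_ifs with hw
  · rw [h0 w hw, zero_mul]
  · rfl

end Norm

namespace TotN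

variable {K L₀ L k ι Z : Type*} {E : ι → Type*} [Field K] [Field L₀] [Field L]
  [Algebra K L] [Algebra L₀ L] [Field k] [Fintype ι] [∀ i, Field (E i)]
  [∀ i, Algebra k (E i)] {T : TotN K L₀ L k ι Z E}

namespace MultPt

variable {z : Z} (M : T.MultPt z)

/-- The monomial `∏ i, t i ^ b i` has no zero and no pole on the fibre of `z`. -/
theorem ord_monomial [Nonempty ι] (hP : HasPrincipalDivisors K L) (b : ι → ℕ)
    {P : Place K L} (hPz : T.ρ P = z) :
    P.ord (algebraMap L₀ L (∏ i, M.t i ^ b i)) = 0 := by
  have hne : ∀ j, algebraMap L₀ L (M.t j) ≠ 0 := fun j =>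
    (map_ne_zero_iff _ (algebraMap L₀ L).injective).mpr (M.t_ne_zero j)
  rw [map_prod]
  simp only [map_pow]
  rw [ord_prod_pow_nat P Finset.univ _ b fun i _ => hne i]
  exact Finset.sum_eq_zero fun i _ => by rw [M.ord_t hP i hPz, mul_zero]

/-- **(G2), membership**: if `f ∈ R_z` is divisible by the monomial `∏ i, t i ^ b i` for all
valuations, then the quotient is in `R_z`. -/
theorem inR_of_mul [Nonempty ι] (hP : HasPrincipalDivisors K L) (b : ι → ℕ) {f h' : L₀}
    (hf : T.InR z f) (hh : f = (∏ i, M.t i ^ b i) * h') (hm : ∀ i, h' ∈ T.V i) :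
    T.InR z h' := by
  refine ⟨hm, fun P hPz => ?_⟩
  by_cases h0 : h' = 0
  · rw [h0, map_zero]; exact regAt_zero P
  have hmon0 : (∏ i, M.t i ^ b i) ≠ 0 :=
    Finset.prod_ne_zero_iff.mpr fun i _ => pow_ne_zero _ (M.t_ne_zero i)
  have hinj := (algebraMap L₀ L).injective
  apply regAt_of_ord_nonneg
  have h1 : P.ord (algebraMap L₀ L f) = P.ord (algebraMap L₀ L h') := by
    rw [hh, map_mul, P.ord_mul ((map_ne_zero_iff _ hinj).mpr hmon0)
      ((map_ne_zero_iff _ hinj).mpr h0), M.ord_monomial hP b hPz, zero_add]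
  rw [← h1]
  exact (hf.2 P hPz).ord_nonneg

/-- **(G2)**: the reductions of the quotient of `f ∈ R_z` by a monomial in the local equations
are regular at `z`. -/
theorem graded_regAt [Nonempty ι] [Infinite k] (hP : HasPrincipalDivisors K L) (b : ι → ℕ)
    {f h' : L₀} (hf : T.InR z f) (hh : f = (∏ i, M.t i ^ b i) * h') (hm : ∀ i, h' ∈ T.V i)
    (i : ι) : RegAt (T.pt i z) (T.rdN i h') :=
  (M.inR_of_mul hP b hf hh hm).regAt hP i

end MultPt

end TotN

end Fermat.Agent.S36.NU.H79
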