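import Fermat.Agent.S36.NU.H79_Tot3

/-!
# S36 / NU-B, leaf LOC3-ABS (helper79): the local structure at a multiple point

`T : TotN ..` a total conservation datum with several valuations and multiplicities
(`H79_Tot3.lean`), `z` a point.  A **multiple-point datum** at `z` (`TotN.MultPt T z`) consists
of a constant `q₀`, functions `t i` (one for each valuation) and `W` with
`∏ i, t i ^ m i = q₀ * W`, all integral for all valuations and without pole on the fibre of `z`,
`t i` a unit for the valuations `j ≠ i`, and no reduction of `W` vanishes at `z`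
(modular, level `q² M'`: `t₂₀ = u'' - u^{q²}`, `t₁₁ = u'' - u`, `t₀₂ = u - u''^{q²}`,
`W = Ψ₂(u'')`, `q₀ = q`; helper10's note "N5").

Consequences:
* `MultPt.ord_W`, `MultPt.ord_t` : `W` and the `t i` have no zero on the fibre of `z`;
* `MultPt.red_W_ne_zero`, `MultPt.t_pow_eq` : `t i ^ m i = q₀ * (unit of V i)` (the valuation
  vector of `t i` is the `i`-th unit vector);
* `MultPt.ord_red_eq_zero` (finer conservation): if `h = (∏ i, t i ^ b i) * h'` has no zero or
  pole on the fibre of `z` and `h'` is a unit for all valuations, then all reductions of `h'`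
  have order `0` at `z`.
-/

set_option autoImplicit false
set_option linter.style.haveILetI false

noncomputable section

open AlgebraicCurve

attribute [local instance] Classical.propDecidable

namespace Fermat.Agent.S36.NU.H79

open Fermat.Agent.RED.H17 Fermat.Agent.RED Fermat.Agent.BAD.H79

namespace TotN

variable {K L₀ L k ι Z : Type*} {E : ι → Type*} [Field K] [Field L₀] [Field L]
  [Algebra K L] [Algebra L₀ L] [Field k] [Fintype ι] [∀ i, Field (E i)]
  [∀ i, Algebra k (E i)]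

/-- A **multiple-point datum** at `z`. -/
structure MultPt (T : TotN K L₀ L k ι Z E) (z : Z) where
  /-- the uniformizing constant -/
  q₀ : L₀
  q₀_const : ∃ c' : K, c' ≠ 0 ∧ algebraMap L₀ L q₀ = algebraMap K L c'
  /-- the local equations of the components -/
  t : ι → L₀
  /-- the unit -/
  W : L₀
  prod_eq : ∏ i, t i ^ T.m i = q₀ * W
  t_mem : ∀ i j, t i ∈ T.V j
  t_unit : ∀ i j, i ≠ j → T.red j ⟨t i, t_mem i j⟩ ≠ 0
  W_mem : ∀ j, W ∈ T.V j
  t_reg : ∀ (i : ι) (P : Place K L), T.ρ P = z → RegAt P (algebraMap L₀ L (t i))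
  W_reg : ∀ P : Place K L, T.ρ P = z → RegAt P (algebraMap L₀ L W)
  W_nv : ∀ j, ¬ VanAt (T.pt j z) (T.red j ⟨W, W_mem j⟩)

namespace MultPt

variable {T : TotN K L₀ L k ι Z E} {z : Z} (M : T.MultPt z)

theorem red_W_ne_zero (j : ι) : T.red j ⟨M.W, M.W_mem j⟩ ≠ 0 := fun h0 =>
  M.W_nv j (by rw [h0]; exact vanAt_zero _)

theorem W_ne_zero [Nonempty ι] : M.W ≠ 0 := by
  intro h0
  obtain ⟨j⟩ := ‹Nonempty ι›
  apply M.red_W_ne_zero j
  have : (⟨M.W, M.W_mem j⟩ : T.V j) = 0 := Subtype.ext h0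
  rw [this, map_zero]

theorem q₀_ne_zero : M.q₀ ≠ 0 := by
  obtain ⟨c', hc', h⟩ := M.q₀_const
  intro h0
  rw [h0, map_zero] at h
  exact hc' ((map_eq_zero_iff _ (algebraMap K L).injective).mp h.symm)

theorem t_ne_zero [Nonempty ι] (i : ι) : M.t i ≠ 0 := by
  intro h0
  have hp : ∏ j, M.t j ^ T.m j = 0 :=
    Finset.prod_eq_zero (Finset.mem_univ i) (by rw [h0, zero_pow (T.m_pos i).ne'])
  rw [M.prod_eq] at hp
  exact (mul_ne_zero M.q₀_ne_zero M.W_ne_zero) hp

/-- `W` has no zero (and no pole) on the fibre of `z`. -/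
theorem ord_W (hP : HasPrincipalDivisors K L) {P : Place K L} (hPz : T.ρ P = z) :
    P.ord (algebraMap L₀ L M.W) = 0 :=
  T.ord_eq_zero_of_not_vanAt hP M.W_mem M.W_reg M.W_nv hPz

/-- The `t i` have no zero (and no pole) on the fibre of `z`. -/
theorem ord_t [Nonempty ι] (hP : HasPrincipalDivisors K L) (i : ι) {P : Place K L}
    (hPz : T.ρ P = z) : P.ord (algebraMap L₀ L (M.t i)) = 0 := by
  have hnn : ∀ j, 0 ≤ P.ord (algebraMap L₀ L (M.t j)) := fun j => (M.t_reg j P hPz).ord_nonneg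
  have hne : ∀ j, algebraMap L₀ L (M.t j) ≠ 0 := fun j =>
    (map_ne_zero_iff _ (algebraMap L₀ L).injective).mpr (M.t_ne_zero j)
  have hprod : P.ord (∏ j, algebraMap L₀ L (M.t j) ^ T.m j)
      = ∑ j, (T.m j : ℤ) * P.ord (algebraMap L₀ L (M.t j)) := by
    have : ∀ s : Finset ι, P.ord (∏ j ∈ s, algebraMap L₀ L (M.t j) ^ T.m j)
        = ∑ j ∈ s, (T.m j : ℤ) * P.ord (algebraMap L₀ L (M.t j)) := by
      intro s
      induction s using Finset.induction_on with
      | empty => simp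
      | insert a s ha ih =>
        rw [Finset.prod_insert ha, Finset.sum_insert ha,
          P.ord_mul (pow_ne_zero _ (hne a))
            (Finset.prod_ne_zero_iff.mpr fun j _ => pow_ne_zero _ (hne j)), ih, ord_pow]
    exact this Finset.univ
  have h1 : P.ord (∏ j, algebraMap L₀ L (M.t j) ^ T.m j) = 0 := by
    have e : ∏ j, algebraMap L₀ L (M.t j) ^ T.m j
        = algebraMap L₀ L M.q₀ * algebraMap L₀ L M.W := by
      rw [← map_mul, ← M.prod_eq, map_prod]
      simp only [map_pow]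
    obtain ⟨c', hc', hq⟩ := M.q₀_const
    rw [e, hq, ord_algebraMap_mul P hc', M.ord_W hP hPz]
  rw [hprod] at h1
  have hterm : ∀ j ∈ Finset.univ, 0 ≤ (T.m j : ℤ) * P.ord (algebraMap L₀ L (M.t j)) :=
    fun j _ => mul_nonneg (Int.natCast_nonneg _) (hnn j)
  have hz := (Finset.sum_eq_zero_iff_of_nonneg hterm).mp h1 i (Finset.mem_univ i)
  have hmi : (T.m i : ℤ) ≠ 0 := by exact_mod_cast (T.m_pos i).ne'
  exact (mul_eq_zero.mp hz).resolve_left hmi

/-- The valuation vector of `t i` is the `i`-th unit vector: `t i ^ m i = q₀ * u` with `u` a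
unit of `V i`. -/
theorem t_pow_eq (i : ι) : ∃ (u : L₀) (hu : u ∈ T.V i), T.red i ⟨u, hu⟩ ≠ 0 ∧
    M.t i ^ T.m i = M.q₀ * u := by
  set R : L₀ := ∏ j ∈ Finset.univ.erase i, M.t j ^ T.m j with hR
  have hRmem : R ∈ T.V i :=
    (T.V i).toSubring.prod_mem fun j _ => (T.V i).pow_mem (M.t_mem j i) _
  have hRred : T.red i ⟨R, hRmem⟩ ≠ 0 := by
    have e : (⟨R, hRmem⟩ : T.V i)
        = ∏ j ∈ Finset.univ.erase i, (⟨M.t j, M.t_mem j i⟩ : T.V i) ^ T.m j := by
      apply Subtype.ext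
      change R = _
      rw [hR]
      simp
    rw [e, map_prod]
    refine Finset.prod_ne_zero_iff.mpr fun j hj => ?_
    rw [map_pow]
    exact pow_ne_zero _ (M.t_unit j i (Finset.ne_of_mem_erase hj))
  have hRunit : IsUnit (⟨R, hRmem⟩ : T.V i) := by
    by_contra hnu
    exact hRred ((T.red_eq_zero_iff i _).mpr ((IsLocalRing.mem_maximalIdeal _).mpr hnu))
  obtain ⟨v, hv⟩ := hRunit
  have hR0 : R ≠ 0 := by
    intro h0
    apply hRred
    have : (⟨R, hRmem⟩ : T.V i) = 0 := Subtype.ext h0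
    rw [this, map_zero]
  have hvinv : ((v⁻¹ : (T.V i)ˣ) : T.V i) * ⟨R, hRmem⟩ = 1 := by
    rw [← hv]; exact v.inv_mul
  have hvinv' : (((v⁻¹ : (T.V i)ˣ) : T.V i) : L₀) * R = 1 := by
    have := congrArg (Subtype.val) hvinv
    simpa using this
  refine ⟨M.W * (((v⁻¹ : (T.V i)ˣ) : T.V i) : L₀),
    (T.V i).mul_mem _ _ (M.W_mem i) (((v⁻¹ : (T.V i)ˣ) : T.V i)).2, ?_, ?_⟩
  · have e : (⟨M.W * (((v⁻¹ : (T.V i)ˣ) : T.V i) : L₀),
        (T.V i).mul_mem _ _ (M.W_mem i) (((v⁻¹ : (T.V i)ˣ) : T.V i)).2⟩ : T.V i)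
        = ⟨M.W, M.W_mem i⟩ * ((v⁻¹ : (T.V i)ˣ) : T.V i) := rfl
    rw [e, map_mul]
    refine mul_ne_zero (M.red_W_ne_zero i) ?_
    intro h0
    have hmax := (T.red_eq_zero_iff i _).mp h0
    exact (IsLocalRing.mem_maximalIdeal _).mp hmax (v⁻¹).isUnit
  · have hsplit : ∏ j, M.t j ^ T.m j = M.t i ^ T.m i * R := by
      rw [hR, Finset.mul_prod_erase Finset.univ (fun j => M.t j ^ T.m j) (Finset.mem_univ i)]
    have h1 : M.t i ^ T.m i * R = M.q₀ * M.W := by rw [← hsplit, M.prod_eq]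
    calc M.t i ^ T.m i = M.t i ^ T.m i * ((((v⁻¹ : (T.V i)ˣ) : T.V i) : L₀) * R) := by
          rw [hvinv', mul_one]
      _ = (M.t i ^ T.m i * R) * (((v⁻¹ : (T.V i)ˣ) : T.V i) : L₀) := by ring
      _ = M.q₀ * (M.W * (((v⁻¹ : (T.V i)ˣ) : T.V i) : L₀)) := by rw [h1]; ring

/-- **Finer conservation**: if `h = (∏ i, t i ^ b i) * h'` has no zero or pole on the fibre of
`z` and `h'` is a unit for all valuations, then the reductions of `h'` have order `0` at `z`. -/
theorem ord_red_eq_zero [Nonempty ι] [Infinite k] (hP : HasPrincipalDivisors K L)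
    {h h' : L₀} (b : ι → ℤ) (hh : h = (∏ i, M.t i ^ b i) * h')
    (hm : ∀ i, h' ∈ T.V i) (h0 : ∀ i, T.red i ⟨h', hm i⟩ ≠ 0)
    (hord : ∀ P, T.ρ P = z → P.ord (algebraMap L₀ L h) = 0) (i : ι) :
    (T.pt i z).ord (T.red i ⟨h', hm i⟩) = 0 := by
  refine T.ord_eq_zero hP hm h0 (fun P hPz => ?_) i
  have hne : ∀ j, algebraMap L₀ L (M.t j) ≠ 0 := fun j =>
    (map_ne_zero_iff _ (algebraMap L₀ L).injective).mpr (M.t_ne_zero j)
  have hh'0 : algebraMap L₀ L h' ≠ 0 := by
    refine (map_ne_zero_iff _ (algebraMap L₀ L).injective).mpr fun h0' => h0 i ?_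
    have : (⟨h', hm i⟩ : T.V i) = 0 := Subtype.ext h0'
    rw [this, map_zero]
  have hprod : ∀ s : Finset ι, P.ord (∏ j ∈ s, algebraMap L₀ L (M.t j) ^ b j) = 0 := by
    intro s
    induction s using Finset.induction_on with
    | empty => simp
    | insert a s ha ih =>
      rw [Finset.prod_insert ha,
        P.ord_mul (zpow_ne_zero _ (hne a))
          (Finset.prod_ne_zero_iff.mpr fun j _ => zpow_ne_zero _ (hne j)), ih, Place.ord_zpow,
        M.ord_t hP a hPz, mul_zero, add_zero]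
  have e : algebraMap L₀ L h
      = (∏ j, algebraMap L₀ L (M.t j) ^ b j) * algebraMap L₀ L h' := by
    rw [hh, map_mul, map_prod]
    simp only [map_zpow₀]
  have h1 := hord P hPz
  rw [e, P.ord_mul (Finset.prod_ne_zero_iff.mpr fun j _ => zpow_ne_zero _ (hne j)) hh'0,
    hprod, zero_add] at h1
  exact h1

end MultPt

end TotN

end Fermat.Agent.S36.NU.H79
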