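import Fermat.Agent.S36.NU.H79_B3

/-!
# S36 / NU-B (helper79): the field `glue` of `NUData` follows from the other fields

`NUPre` : the datum `NUData` WITHOUT the field `glue` (GLUE3 at the triple points), with the
regular form `regα` of `fibα` instead (norms of functions regular on the fibre of `z` are regular
on the fibre of `zα z`).

`NUPre.glue` : GLUE3 at the triple points, from the norm formulas along `α`
(`TotN.isGlued` + `TotN.normVal_of_norm`: the lower level is `T'`, the node is `zα z`, the first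
side carries `i₂₀`, `i₁₁`, the second side `i₀₂`, the exponents are `1`, `q - 1`, `q`).

`NUPre.toNUData` : the datum `NUData`.
-/

set_option autoImplicit false
set_option linter.style.haveILetI false

noncomputable section

open AlgebraicCurve

attribute [local instance] Classical.propDecidable

namespace Fermat.Agent.S36.NU.H79

open Fermat.Agent.RED.H17 Fermat.Agent.RED Fermat.Agent.BAD.H79 Fermat.Agent.BAD

/-- **The datum of the two levels without GLUE3.** -/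
structure NUPre (K L₀ L k ι Z : Type*) (E : ι → Type*) (K' L' L₁ L₂ : Type*)
    [Field K] [Field L₀] [Field L] [Algebra K L] [Algebra L₀ L] [Field k] [Fintype ι]
    [∀ i, Field (E i)] [∀ i, Algebra k (E i)] [Field K'] [Field L'] [Algebra K' L']
    [Field L₁] [Algebra k L₁] [Field L₂] [Algebra k L₂] where
  /-- the conservation datum of the higher level -/
  T : TotN K L₀ L k ι Z E
  /-- the conservation datum of the lower level -/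
  T' : TotData K' L' k L₁ L₂
  /-- the three components -/
  i₂₀ : ι
  i₁₁ : ι
  i₀₂ : ι
  cases : ∀ i, i = i₂₀ ∨ i = i₁₁ ∨ i = i₀₂
  ne₁ : i₂₀ ≠ i₁₁
  ne₂ : i₂₀ ≠ i₀₂
  ne₃ : i₁₁ ≠ i₀₂
  /-- the residue characteristic -/
  q : ℕ
  /-- the norms along the two degeneracy maps -/
  Nα : L₀ →* L'
  Nβ : L₀ →* L'
  /-- the norms of the residue fields -/
  A₂₀ : ResNorm k (E i₂₀) L₁
  A₁₁ : ResNorm k (E i₁₁) L₁
  A₀₂ : ResNorm k (E i₀₂) L₂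
  B₂₀ : ResNorm k (E i₂₀) L₁
  B₁₁ : ResNorm k (E i₁₁) L₂
  B₀₂ : ResNorm k (E i₀₂) L₂
  fA₂₀ : A₂₀.f = 1
  fA₁₁ : A₁₁.f = 1
  fA₀₂ : A₀₂.f = q
  fB₂₀ : B₂₀.f = q
  fB₁₁ : B₁₁.f = 1
  fB₀₂ : B₀₂.f = 1
  /-- NORM-RED with ramification, for units -/
  normα₁ : ∀ h : L₀, (∀ i, T.rdN i h ≠ 0) →
    T'.p₁.rd (Nα h) = A₂₀.N (T.rdN i₂₀ h) * A₁₁.N (T.rdN i₁₁ h) ^ (q - 1)
  normα₂ : ∀ h : L₀, (∀ i, T.rdN i h ≠ 0) → T'.p₂.rd (Nα h) = A₀₂.N (T.rdN i₀₂ h)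
  normβ₁ : ∀ h : L₀, (∀ i, T.rdN i h ≠ 0) → T'.p₁.rd (Nβ h) = B₂₀.N (T.rdN i₂₀ h)
  normβ₂ : ∀ h : L₀, (∀ i, T.rdN i h ≠ 0) →
    T'.p₂.rd (Nβ h) = B₁₁.N (T.rdN i₁₁ h) ^ (q - 1) * B₀₂.N (T.rdN i₀₂ h)
  /-- the triple points -/
  SS : Set Z
  /-- the node of the lower level below a triple point, along `α` -/
  zα : Z → Place k L₁
  /-- the node of the lower level below a triple point, along `β` -/
  zβ : Z → Place k L₁
  nodeα : ∀ z ∈ SS, T'.IsNode (zα z)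
  nodeβ : ∀ z ∈ SS, T'.IsNode (zβ z)
  /-- norms of functions without zero or pole on the fibre of `z` -/
  fibα : ∀ z ∈ SS, ∀ h : L₀, (∀ P, T.ρ P = z → P.ord (algebraMap L₀ L h) = 0) →
    ∀ Q, T'.ρ Q = zα z → Q.ord (Nα h) = 0
  fibβ : ∀ z ∈ SS, ∀ h : L₀, (∀ P, T.ρ P = z → P.ord (algebraMap L₀ L h) = 0) →
    ∀ Q, T'.ρ Q = zβ z → Q.ord (Nβ h) = 0
  /-- the points of the components lie over the branches of the nodes -/
  ptA₂₀ : ∀ z ∈ SS, ∀ (y : L₁) (a : k),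
    HasValue (T.pt i₂₀ z) (A₂₀.j y) a → HasValue (zα z) y a
  ptA₁₁ : ∀ z ∈ SS, ∀ (y : L₁) (a : k),
    HasValue (T.pt i₁₁ z) (A₁₁.j y) a → HasValue (zα z) y a
  ptA₀₂ : ∀ z ∈ SS, ∀ (y : L₂) (a : k),
    HasValue (T.pt i₀₂ z) (A₀₂.j y) a → HasValue (T'.β (zα z)) y a
  ptB₂₀ : ∀ z ∈ SS, ∀ (y : L₁) (a : k),
    HasValue (T.pt i₂₀ z) (B₂₀.j y) a → HasValue (zβ z) y a
  ptB₁₁ : ∀ z ∈ SS, ∀ (y : L₂) (a : k),
    HasValue (T.pt i₁₁ z) (B₁₁.j y) a → HasValue (T'.β (zβ z)) y a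
  ptB₀₂ : ∀ z ∈ SS, ∀ (y : L₂) (a : k),
    HasValue (T.pt i₀₂ z) (B₀₂.j y) a → HasValue (T'.β (zβ z)) y a
  /-- norms of functions regular on the fibre of `z` -/
  regα : ∀ z ∈ SS, ∀ h : L₀, (∀ P, T.ρ P = z → RegAt P (algebraMap L₀ L h)) →
    ∀ Q, T'.ρ Q = zα z → RegAt Q (Nα h)
  deg_one : ∀ z ∈ SS, ∀ i, (T.pt i z).deg = 1

namespace NUPre

variable {K L₀ L k ι Z : Type*} {E : ι → Type*} {K' L' L₁ L₂ : Type*}
  [Field K] [Field L₀] [Field L] [Algebra K L] [Algebra L₀ L] [Field k] [Fintype ι]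
  [∀ i, Field (E i)] [∀ i, Algebra k (E i)] [Field K'] [Field L'] [Algebra K' L']
  [Field L₁] [Algebra k L₁] [Field L₂] [Algebra k L₂]
  (P : NUPre K L₀ L k ι Z E K' L' L₁ L₂)

/-- The norms of the residue fields on the first side of `α`, as a family. -/
def famN₁ : ∀ i, E i → L₁ := fun i =>
  if h0 : i = P.i₂₀ then fun x => P.A₂₀.N (h0 ▸ x)
  else if h1 : i = P.i₁₁ then fun x => P.A₁₁.N (h1 ▸ x)
  else fun _ => 1

/-- The norm of the residue field on the second side of `α`, as a family. -/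
def famN₂ : ∀ i, E i → L₂ := fun i =>
  if h2 : i = P.i₀₂ then fun x => P.A₀₂.N (h2 ▸ x) else fun _ => 1

theorem famN₁_i₂₀ (x : E P.i₂₀) : P.famN₁ P.i₂₀ x = P.A₂₀.N x := by
  unfold famN₁
  rw [dif_pos rfl]

theorem famN₁_i₁₁ (x : E P.i₁₁) : P.famN₁ P.i₁₁ x = P.A₁₁.N x := by
  unfold famN₁
  rw [dif_neg P.ne₁.symm, dif_pos rfl]

theorem famN₂_i₀₂ (x : E P.i₀₂) : P.famN₂ P.i₀₂ x = P.A₀₂.N x := by
  unfold famN₂
  rw [dif_pos rfl]

/-- The ramification indices. -/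
def famE : ι → ℕ := fun i => if i = P.i₁₁ then P.q - 1 else 1

/-- The residue degrees along `α`. -/
def famF : ι → ℕ := fun i => if i = P.i₀₂ then P.q else 1

theorem famE_i₂₀ : P.famE P.i₂₀ = 1 := by
  unfold famE; rw [if_neg P.ne₁]

theorem famE_i₁₁ : P.famE P.i₁₁ = P.q - 1 := by
  unfold famE; rw [if_pos rfl]

theorem famE_i₀₂ : P.famE P.i₀₂ = 1 := by
  unfold famE; rw [if_neg P.ne₃.symm]

theorem famF_i₂₀ : P.famF P.i₂₀ = 1 := by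
  unfold famF; rw [if_neg P.ne₂]

theorem famF_i₁₁ : P.famF P.i₁₁ = 1 := by
  unfold famF; rw [if_neg P.ne₃]

theorem famF_i₀₂ : P.famF P.i₀₂ = P.q := by
  unfold famF; rw [if_pos rfl]

/-- The hypothesis `NormVal` of GLUE3 at a triple point. -/
theorem normVal {z : Z} (hz : z ∈ P.SS) :
    P.T.NormVal P.T' P.Nα z (P.zα z) {P.i₂₀, P.i₁₁} {P.i₀₂}
      (fun i => P.famF i * P.famE i) := by
  refine TotN.normVal_of_norm P.famN₁ P.famN₂ P.famE P.famF ?_ ?_ ?_ ?_ ?_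
  · -- `hmem`
    intro h hR hu
    have h1 : P.T'.p₁.rd (P.Nα h) ≠ 0 := by
      rw [P.normα₁ h hu]
      exact mul_ne_zero (P.A₂₀.N_ne_zero (hu _)) (pow_ne_zero _ (P.A₁₁.N_ne_zero (hu _)))
    have h2 : P.T'.p₂.rd (P.Nα h) ≠ 0 := by
      rw [P.normα₂ h hu]
      exact P.A₀₂.N_ne_zero (hu _)
    exact ⟨(isGU_of_rd_ne_zero _ h1).mem, (isGU_of_rd_ne_zero _ h2).mem,
      fun Q hQ => P.regα z hz h hR.2 Q hQ⟩
  · -- `hred₁`
    intro h _ hu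
    rw [P.normα₁ h hu, Finset.prod_pair P.ne₁, famN₁_i₂₀, famN₁_i₁₁, famE_i₂₀, famE_i₁₁,
      pow_one]
  · -- `hred₂`
    intro h _ hu
    rw [P.normα₂ h hu, Finset.prod_singleton, famN₂_i₀₂, famE_i₀₂, pow_one]
  · -- `hval₁`
    intro i hi x a hx
    rw [Finset.mem_insert, Finset.mem_singleton] at hi
    rcases hi with rfl | rfl
    · rw [famN₁_i₂₀, famF_i₂₀, ← P.fA₂₀]
      exact P.A₂₀.hasValue_N (P.ptA₂₀ z hz) hx
    · rw [famN₁_i₁₁, famF_i₁₁, ← P.fA₁₁]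
      exact P.A₁₁.hasValue_N (P.ptA₁₁ z hz) hx
  · -- `hval₂`
    intro i hi x a hx
    rw [Finset.mem_singleton] at hi
    subst hi
    rw [famN₂_i₀₂, famF_i₀₂, ← P.fA₀₂]
    exact P.A₀₂.hasValue_N (P.ptA₀₂ z hz) hx

/-- **GLUE3 at the triple points**, from the norm formulas along `α`. -/
theorem glue [Infinite k] (hP : HasPrincipalDivisors K L) (hq : 2 ≤ P.q) (z : Z)
    (hz : z ∈ P.SS) (f : L₀) (hf : P.T.InR z f) (i j : ι) (c : k) :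
    HasValue (P.T.pt i z) (P.T.rdN i f) c ↔ HasValue (P.T.pt j z) (P.T.rdN j f) c := by
  refine TotN.isGlued hP (P.normVal hz) (P.nodeα z hz) ?_ (P.deg_one z hz) hf i j c
  intro l hl
  rcases P.cases l with rfl | rfl | rfl
  · refine ⟨Finset.mem_insert_self _ _, ?_⟩
    show 0 < P.famF P.i₂₀ * P.famE P.i₂₀
    rw [famF_i₂₀, famE_i₂₀]
    exact Nat.one_pos
  · refine ⟨Finset.mem_insert_of_mem (Finset.mem_singleton_self _), ?_⟩
    show 0 < P.famF P.i₁₁ * P.famE P.i₁₁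
    rw [famF_i₁₁, famE_i₁₁]
    omega
  · exact absurd rfl hl

/-- **The datum of the two levels**, with GLUE3 from the norm formulas. -/
def toNUData [Infinite k] (hP : HasPrincipalDivisors K L) (hq : 2 ≤ P.q) :
    NUData K L₀ L k ι Z E K' L' L₁ L₂ where
  T := P.T
  T' := P.T'
  i₂₀ := P.i₂₀
  i₁₁ := P.i₁₁
  i₀₂ := P.i₀₂
  cases := P.cases
  ne₁ := P.ne₁
  ne₂ := P.ne₂
  ne₃ := P.ne₃
  q := P.q
  Nα := P.Nα
  Nβ := P.Nβ
  A₂₀ := P.A₂₀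
  A₁₁ := P.A₁₁
  A₀₂ := P.A₀₂
  B₂₀ := P.B₂₀
  B₁₁ := P.B₁₁
  B₀₂ := P.B₀₂
  fA₂₀ := P.fA₂₀
  fA₁₁ := P.fA₁₁
  fA₀₂ := P.fA₀₂
  fB₂₀ := P.fB₂₀
  fB₁₁ := P.fB₁₁
  fB₀₂ := P.fB₀₂
  normα₁ := P.normα₁
  normα₂ := P.normα₂
  normβ₁ := P.normβ₁
  normβ₂ := P.normβ₂
  SS := P.SS
  zα := P.zα
  zβ := P.zβ
  nodeα := P.nodeα
  nodeβ := P.nodeβ
  fibα := P.fibα
  fibβ := P.fibβ
  ptA₂₀ := P.ptA₂₀
  ptA₁₁ := P.ptA₁₁
  ptA₀₂ := P.ptA₀₂
  ptB₂₀ := P.ptB₂₀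
  ptB₁₁ := P.ptB₁₁
  ptB₀₂ := P.ptB₀₂
  glue := P.glue hP hq
  deg_one := P.deg_one

end NUPre

end Fermat.Agent.S36.NU.H79
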