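import Fermat.Agent.S36.NU.H89_NmN

/-!
# S36 / NU-B, leaf NM-N (helper89), part 2: `normα₂`, `normβ₁`, `normβ₂` from the series forms

The three remaining norm formulas of the modular `NUData`, from the series forms of NORM-RED
above `V₂` along `α` (A2), above `V₁` along `β` (B1) and above `V₂` along `β` (B2):

* `SerA2` : `red₂ (N_α h) = φ (red₀₂ h)`;
* `SerB1` : `red₁ (N_β h) = φ (red₂₀ h)`;
* `SerB2` : `red₂ (N_β h) = red₁₁ h ^ (q - 1) * red₀₂ h`

(`φ` the coefficientwise Frobenius, all in `k((t))`).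
-/

set_option autoImplicit false
set_option linter.style.haveILetI false
set_option linter.unusedSectionVars false
set_option synthInstance.maxHeartbeats 400000
set_option maxHeartbeats 1000000

noncomputable section

open HahnSeries IntermediateField AlgebraicCurve ModularCurve
open Fermat.Agent.S24 Fermat.Agent.BAD.H88 Fermat.Agent.S28 Fermat.Agent.S28.H73
open Fermat.Agent.RED.H73 Fermat.Agent.RED.H17 Fermat.Agent.S36.NU.H88
open Fermat.Agent.S36.NU.H23 Fermat.Agent.S36.NU.H79 Fermat.Agent.BAD Fermat.Agent.RED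

namespace Fermat.Agent.S36.NU.H89

section Ser

variable (A : ValuationSubring Kbar) (q M : ℕ) (B k : ℤ) (hB : B * M + k * q = 1) (hq : q.Prime)
  [NeZero M] [NeZero q] [NeZero (M * q * q)] [NeZero (M * q)] (hqM : ¬ q ∣ M)
  (hA : A.LiesOverPrime q) (ht : H91.TameAt M q)

/-- Series form of NORM-RED along `α` above `V₂` (one valuation `V₀₂`, `e = 1`, `f = q`). -/
def SerA2 : Prop :=
  ∀ (h : ↥(L0 A (M * q * q))) (h02 : h ∈ V02o A q M B k hB),
    ∃ hm : NalphaM A q M h ∈ V2 A q M k B (hab_of_hB q M B k hB) hq,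
      ((red2 A q M k B (hab_of_hB q M B k hB) hq ⟨NalphaM A q M h, hm⟩ : F1 A q M) :
          LaurentSeries (kV A))
        = ((phiM A q M hq hqM hA (r02 A q M B k hB hq hqM hA ⟨h, h02⟩) : FM A M) :
          LaurentSeries (kV A))

/-- Series form of NORM-RED along `β` above `V₁` (one valuation `V₂₀`, `e = 1`, `f = q`). -/
def SerB1 : Prop :=
  ∀ (h : ↥(L0 A (M * q * q))) (h20 : h ∈ V20o A q M),
    ∃ hm : NbetaM A q M h ∈ V1 A q M,
      ((red1 A q M ⟨NbetaM A q M h, hm⟩ : F1 A q M) : LaurentSeries (kV A))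
        = ((phiM A q M hq hqM hA (r20 A q M hq hqM hA ⟨h, h20⟩) : FM A M) :
          LaurentSeries (kV A))

/-- Series form of NORM-RED along `β` above `V₂` (`V₁₁` with `e = q - 1`, `V₀₂` with
`e = 1`, `f = 1`). -/
def SerB2 : Prop :=
  ∀ (h : ↥(L0 A (M * q * q))) (h11 : h ∈ V11o A q M B k hB hq) (h02 : h ∈ V02o A q M B k hB),
    ∃ hm : NbetaM A q M h ∈ V2 A q M k B (hab_of_hB q M B k hB) hq,
      ((red2 A q M k B (hab_of_hB q M B k hB) hq ⟨NbetaM A q M h, hm⟩ : F1 A q M) :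
          LaurentSeries (kV A))
        = s11 A q M B k hB hq ⟨h, h11⟩ ^ (q - 1) * s02 A q M B k hB ⟨h, h02⟩

/-- **`normα₂`** of the modular `NUData`. -/
theorem normAlpha2 (hS : SerA2 A q M B k hB hq hqM hA) (h : ↥(L0 A (M * q * q)))
    (hu : ∀ i, rd3 A q M B k hB hq hqM hA ht i h ≠ 0) :
    (TL A q M B k hB hq hqM hA ht).p₂.rd (NalphaM A q M h)
      = (resFr A q M B k hB hq hqM hA).N (rd3 A q M B k hB hq hqM hA ht 2 h) := by
  have h02 := mem02_of_rd3 A q M B k hB hq hqM hA ht (hu 2)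
  obtain ⟨hm, hs⟩ := hS h h02
  have hm' : NalphaM A q M h ∈ (TL A q M B k hB hq hqM hA ht).p₂.V := hm
  rw [(TL A q M B k hB hq hqM hA ht).p₂.rd_of_mem hm']
  apply Subtype.ext
  refine Eq.trans hs ?_
  have e2 : (resFr A q M B k hB hq hqM hA).N (rd3 A q M B k hB hq hqM hA ht 2 h)
      = (resFr A q M B k hB hq hqM hA).N (r02 A q M B k hB hq hqM hA ⟨h, h02⟩) :=
    congrArg _ (rd3_two A q M B k hB hq hqM hA ht h02)
  rw [e2, coe_resFr_N]

/-- **`normβ₁`** of the modular `NUData`. -/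
theorem normBeta1 (hS : SerB1 A q M hq hqM hA) (h : ↥(L0 A (M * q * q)))
    (hu : ∀ i, rd3 A q M B k hB hq hqM hA ht i h ≠ 0) :
    (TL A q M B k hB hq hqM hA ht).p₁.rd (NbetaM A q M h)
      = (resFr A q M B k hB hq hqM hA).N (rd3 A q M B k hB hq hqM hA ht 0 h) := by
  have h20 := mem20_of_rd3 A q M B k hB hq hqM hA ht (hu 0)
  obtain ⟨hm, hs⟩ := hS h h20
  have hm' : NbetaM A q M h ∈ (TL A q M B k hB hq hqM hA ht).p₁.V := hm
  rw [(TL A q M B k hB hq hqM hA ht).p₁.rd_of_mem hm']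
  apply Subtype.ext
  refine Eq.trans hs ?_
  have e0 : (resFr A q M B k hB hq hqM hA).N (rd3 A q M B k hB hq hqM hA ht 0 h)
      = (resFr A q M B k hB hq hqM hA).N (r20 A q M hq hqM hA ⟨h, h20⟩) :=
    congrArg _ (rd3_zero A q M B k hB hq hqM hA ht h20)
  rw [e0, coe_resFr_N]

/-- **`normβ₂`** of the modular `NUData`. -/
theorem normBeta2 (hS : SerB2 A q M B k hB hq) (h : ↥(L0 A (M * q * q)))
    (hu : ∀ i, rd3 A q M B k hB hq hqM hA ht i h ≠ 0) :
    (TL A q M B k hB hq hqM hA ht).p₂.rd (NbetaM A q M h)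
      = (resId A q M B k hB hq hA).N (rd3 A q M B k hB hq hqM hA ht 1 h) ^ (q - 1)
        * (resId A q M B k hB hq hA).N (rd3 A q M B k hB hq hqM hA ht 2 h) := by
  have h11 := mem11_of_rd3 A q M B k hB hq hqM hA ht (hu 1)
  have h02 := mem02_of_rd3 A q M B k hB hq hqM hA ht (hu 2)
  obtain ⟨hm, hs⟩ := hS h h11 h02
  have hm' : NbetaM A q M h ∈ (TL A q M B k hB hq hqM hA ht).p₂.V := hm
  rw [(TL A q M B k hB hq hqM hA ht).p₂.rd_of_mem hm']
  apply Subtype.ext
  refine Eq.trans hs ?_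
  have e1 : (resId A q M B k hB hq hA).N (rd3 A q M B k hB hq hqM hA ht 1 h)
      = (resId A q M B k hB hq hA).N (r11 A q M B k hB hq hqM hA ⟨h, h11⟩) :=
    congrArg _ (rd3_one A q M B k hB hq hqM hA ht h11)
  have e2 : (resId A q M B k hB hq hA).N (rd3 A q M B k hB hq hqM hA ht 2 h)
      = (resId A q M B k hB hq hA).N (r02 A q M B k hB hq hqM hA ⟨h, h02⟩) :=
    congrArg _ (rd3_two A q M B k hB hq hqM hA ht h02)
  rw [e1, e2, MulMemClass.coe_mul, SubmonoidClass.coe_pow, coe_resId_N, coe_resId_N]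
  rfl

end Ser

end Fermat.Agent.S36.NU.H89
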