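import Fermat.Agent.S36.NU.H79_NuMDefs
import Fermat.Agent.S36.NU.H89_NmN2
import Fermat.Agent.S36.NU.H23_NmP

/-!
# S36 / NU-B, ND (helper79): the modular instance of `NUData`, assembly

Level `N = M q²`, `q ∤ M` tame, `A` over `q`.

* `NmFib` : the fibre part of the modular `NUPre` (NM-FIB: norms of functions regular / without
  zero or pole on the fibre of a supersingular point), as a hypothesis;
* `nuPreM` : the modular `NUPre`: `T = totM`, `T' = TlowM`, `SS = ssM`, the norm half of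
  helper89 (`NalphaM`, `NbetaM`, `resId`, `resFr`, `normAlpha1`, .., `normBeta2`), the places
  half of helper23 (`zA`, `zB`, `nodeA`, `nodeB`, `ptA_id`, .., `deg_ptM`) and the fibre part;
* `nuM` : the modular `NUData` (`NUPre.toNUData`: GLUE3 from the norm formulas);
* `isNuM_nuM`, `stmt_NuM_of` : `Stmt_NuM` from the three series forms `SerA2`, `SerB1`, `SerB2`
  and the fibre part.
-/

set_option autoImplicit false
set_option synthInstance.maxHeartbeats 400000
set_option maxHeartbeats 1000000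
set_option linter.style.haveILetI false
set_option linter.unusedSectionVars false

noncomputable section

open ModularCurve AlgebraicCurve
open Fermat.Agent.S24 Fermat.Agent.BAD.H88 Fermat.Agent.S28 Fermat.Agent.S28.H73
open Fermat.Agent.RED.H73 Fermat.Agent.RED.H17 Fermat.Agent.S36.NU.H88
open Fermat.Agent.Lib.HeckeComm Fermat.Agent.S36.NU.H23 Fermat.Agent.S36.NU.H74
open Fermat.Agent.S36.NU.H89

namespace Fermat.Agent.S36.NU.H79

open Fermat.Agent.BAD Fermat.Agent.RED Fermat.Agent.BAD.H79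

section NuM

variable (A : ValuationSubring Kbar) (q M : ℕ) (B k : ℤ) (hB : B * M + k * q = 1) (hq : q.Prime)
  [NeZero M] [NeZero q] [NeZero (M * q)] [NeZero (M * q * q)]
  (hqM : ¬ q ∣ M) (hA : A.LiesOverPrime q) (ht : H91.TameAt M q)

/-- The embedding of `resId` is the identity on series. -/
theorem coe_resId_j (y : F1 A q M) :
    (((resId A q M B k hB hq hA).j y : FM A M) : LaurentSeries (kV A))
      = (y : LaurentSeries (kV A)) :=
  coe_cF1 A q M B k hB hq hA y

/-- The embedding of `resFr` is `t ↦ t ^ q` on series. -/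
theorem coe_resFr_j (y : F1 A q M) :
    (((resFr A q M B k hB hq hqM hA).j y : FM A M) : LaurentSeries (kV A))
      = qExpand (kV A) q (y : LaurentSeries (kV A)) := by
  show ((FrM A q M hq hqM hA (cF1 A q M B k hB hq hA y) : FM A M) : LaurentSeries (kV A)) = _
  rw [coe_FrM, coe_cF1]

/-- **The fibre part of the modular `NUPre`** (NM-FIB). -/
structure NmFib : Prop where
  fibα : ∀ z ∈ ssM A q M, ∀ h : ↥(L0 A (M * q * q)),
    (∀ P : Place Kbar (FN (M * q * q)), rhoM A q M hq hqM hA ht P = z →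
      P.ord (algebraMap ↥(L0 A (M * q * q)) (FN (M * q * q)) h) = 0) →
    ∀ Q : Place Kbar (FN (M * q)),
      (TlowM A q M B k hB hq hqM hA ht).ρ Q = zA A q M B k hB hq hA z →
      Q.ord (NalphaM A q M h) = 0
  fibβ : ∀ z ∈ ssM A q M, ∀ h : ↥(L0 A (M * q * q)),
    (∀ P : Place Kbar (FN (M * q * q)), rhoM A q M hq hqM hA ht P = z →
      P.ord (algebraMap ↥(L0 A (M * q * q)) (FN (M * q * q)) h) = 0) →
    ∀ Q : Place Kbar (FN (M * q)),
      (TlowM A q M B k hB hq hqM hA ht).ρ Q = zB A q M B k hB hq hqM hA z →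
      Q.ord (NbetaM A q M h) = 0
  regα : ∀ z ∈ ssM A q M, ∀ h : ↥(L0 A (M * q * q)),
    (∀ P : Place Kbar (FN (M * q * q)), rhoM A q M hq hqM hA ht P = z →
      RegAt P (algebraMap ↥(L0 A (M * q * q)) (FN (M * q * q)) h)) →
    ∀ Q : Place Kbar (FN (M * q)),
      (TlowM A q M B k hB hq hqM hA ht).ρ Q = zA A q M B k hB hq hA z →
      RegAt Q (NalphaM A q M h)

variable (hSA2 : SerA2 A q M B k hB hq hqM hA) (hSB1 : SerB1 A q M hq hqM hA)
  (hSB2 : SerB2 A q M B k hB hq) (hF : NmFib A q M B k hB hq hqM hA ht)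

/-- **The modular `NUPre`.** -/
def nuPreM : NUPreM A q M :=
  letI := algkM A M
  { T := totM A q M B k hB hq hqM hA ht
    T' := TlowM A q M B k hB hq hqM hA ht
    i₂₀ := 0
    i₁₁ := 1
    i₀₂ := 2
    cases := by intro i; fin_cases i <;> simp
    ne₁ := by decide
    ne₂ := by decide
    ne₃ := by decide
    q := q
    Nα := NalphaM A q M
    Nβ := NbetaM A q M
    A₂₀ := resId A q M B k hB hq hA
    A₁₁ := resId A q M B k hB hq hA
    A₀₂ := resFr A q M B k hB hq hqM hA
    B₂₀ := resFr A q M B k hB hq hqM hA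
    B₁₁ := resId A q M B k hB hq hA
    B₀₂ := resId A q M B k hB hq hA
    fA₂₀ := rfl
    fA₁₁ := rfl
    fA₀₂ := rfl
    fB₂₀ := rfl
    fB₁₁ := rfl
    fB₀₂ := rfl
    normα₁ := fun h hu => normAlpha1 A q M B k hB hq hqM hA ht h hu
    normα₂ := fun h hu => normAlpha2 A q M B k hB hq hqM hA ht hSA2 h hu
    normβ₁ := fun h hu => normBeta1 A q M B k hB hq hqM hA ht hSB1 h hu
    normβ₂ := fun h hu => normBeta2 A q M B k hB hq hqM hA ht hSB2 h hu
    SS := ssM A q M
    zα := zA A q M B k hB hq hA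
    zβ := zB A q M B k hB hq hqM hA
    nodeα := fun z hz => nodeA A q M B k hB hq hqM hA ht z hz
    nodeβ := fun z hz => nodeB A q M B k hB hq hqM hA ht z hz
    fibα := hF.fibα
    fibβ := hF.fibβ
    ptA₂₀ := fun z _ y a h =>
      ptA_id A q M B k hB hq hA _ (coe_resId_j A q M B k hB hq hA) z y a h
    ptA₁₁ := fun z _ y a h =>
      ptA_id A q M B k hB hq hA _ (coe_resId_j A q M B k hB hq hA) z y a h
    ptA₀₂ := fun z _ y a h =>
      ptA_Fr A q M B k hB hq hqM hA ht _ (coe_resFr_j A q M B k hB hq hqM hA) z y a h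
    ptB₂₀ := fun z _ y a h =>
      ptB_Fr A q M B k hB hq hqM hA _ (coe_resFr_j A q M B k hB hq hqM hA) z y a h
    ptB₁₁ := fun z _ y a h =>
      ptB_id A q M B k hB hq hqM hA ht _ (coe_resId_j A q M B k hB hq hA) z y a h
    ptB₀₂ := fun z hz y a h =>
      ptB_id2 A q M B k hB hq hqM hA ht _ (coe_resId_j A q M B k hB hq hA) z hz y a h
    regα := hF.regα
    deg_one := fun z _ i => deg_ptM A q M hq hqM hA ht i z }

/-- **The modular `NUData`.** -/
def nuM : NUDataM A q M :=
  letI := algkM A M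
  haveI : IsAlgClosed (kV A) := isAlgClosed_kV A
  haveI : Infinite (kV A) := IsAlgClosed.instInfinite
  (nuPreM A q M B k hB hq hqM hA ht hSA2 hSB1 hSB2 hF).toNUData
    (Fermat.Agent.S36.NU.H74.hasPrincipalDivisors_FN (M * q * q)) hq.two_le

/-- `nuM` is a modular instance of `NUData`. -/
theorem isNuM_nuM :
    IsNuM A q M B k hB hq hqM hA ht (nuM A q M B k hB hq hqM hA ht hSA2 hSB1 hSB2 hF) where
  hT := rfl
  hT' := rfl
  hSS := rfl
  hq := rfl
  hNα := fun _ => rfl
  hNβ := fun _ => rfl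
  hi₂₀ := rfl
  hi₁₁ := rfl
  hi₀₂ := rfl

include hSA2 hSB1 hSB2 hF in
/-- **ND**: `Stmt_NuM` from the three series forms and the fibre part. -/
theorem stmt_NuM_of : Stmt_NuM A q M B k hB hq hqM hA ht :=
  ⟨nuM A q M B k hB hq hqM hA ht hSA2 hSB1 hSB2 hF,
    isNuM_nuM A q M B k hB hq hqM hA ht hSA2 hSB1 hSB2 hF⟩

end NuM

end Fermat.Agent.S36.NU.H79
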