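import Fermat.Agent.S36.NU.H87_NrA1
import Fermat.Agent.S36.NU.H26_DivNormL0
import Fermat.Agent.S36.NU.H51_ValVecMod
import Fermat.Agent.RED.ES.H95_ES2
import Fermat.Agent.RED.ES.H95_NormAlpha

/-!
# S36 / NU-MOD, leaf NM-B2 (helper87): the `NRData` of `L0 (M q²) / L0 (M q)` along `β`, above `V₂`

Level `N = M q²`, `q ∤ M`; `β : F_{M q} → F_{M q²}`, `x(t) ↦ x(t^q)`, of degree `q`;
`E₀ = L0 A (M q)`, `L₀ = L0 A (M q²)`, algebra `H26.algL0Along A β` (`algB`).
Above the second valuation `V₂ = V₁ ∘ w_q` of level `M q` (`H51.V2o`, uniformiser `q`, residue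
map `rE2 = red₁ ∘ w_q` onto `C' = FM A (M q)`) lie `V₀₂` (`e = 1`) and `V₁₁` (`e = q - 1`,
uniformiser `j(t^{q²}) - j(t)`), both with residue field `C'`.

* `finrank_FB : [F_{M q²} : β F_{M q}] = q`, `finrank_L0_B`;
* `rE2 : V2o → FM A (M q)`, `rE2_surjective`; `r02A : V02o → FM A (M q)` (`coe_r02A = s02`);
* `nrB2 : NRData (L0 (M q)) (L0 (M q²)) C' (Fin 2) (kap2 C' C')` with `V = (V02o, V11o)`,
  `e = (1, q - 1)`; `nrB2_hdeg`;
* `normB2`, `normB2_F` : `red₂ (N_β h) = red₀₂ h * red₁₁ h ^ (q - 1)` in `k((t))`.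
-/

set_option autoImplicit false
set_option synthInstance.maxHeartbeats 400000
set_option maxHeartbeats 1000000
set_option linter.style.haveILetI false
set_option linter.unusedSectionVars false

noncomputable section

open ModularCurve AlgebraicCurve
open Fermat.Agent.S24 Fermat.Agent.BAD.H88 Fermat.Agent.S28 Fermat.Agent.S28.H73
open Fermat.Agent.RED.H73 Fermat.Agent.RED.H17 Fermat.Agent.S36.NU.H88
open Fermat.Agent.S36.NU.H23 Fermat.Agent.Lib.HeckeComm Fermat.Agent.S36.H44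

namespace Fermat.Agent.S36.NU.H87

section NrB2

variable (A : ValuationSubring Kbar) (q M : ℕ) (B k : ℤ) (hB : B * M + k * q = 1) (hq : q.Prime)
  [NeZero M] [NeZero q] [NeZero (M * q)] [NeZero (M * q * q)]
  (hqM : ¬ q ∣ M) (hA : A.LiesOverPrime q)

/-! ### The degree of `β` -/

/-- `β ∘ α = α ∘ β : F_M → F_{M q²}`. -/
theorem beta_comp_alpha :
    (heckeBetaBar Kbar (M * q) q).toRingHom.comp (heckeAlphaBar Kbar M q).toRingHom
      = (heckeAlphaBar Kbar (M * q) q).toRingHom.comp (heckeBetaBar Kbar M q).toRingHom := by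
  ext x
  simp only [RingHom.comp_apply, AlgHom.toRingHom_eq_coe, RingHom.coe_coe,
    coe_heckeBetaBar, coe_heckeAlphaBar]

include hq hqM in
/-- **`[F_{M q²} : β F_{M q}] = q`**. -/
theorem finrank_FB :
    finrankAlong Kbar (heckeBetaBar Kbar (M * q) q) = q := by
  have h1 := finrank_comp_h44 (heckeAlphaBar Kbar M q).toRingHom
    (heckeBetaBar Kbar (M * q) q).toRingHom
  have h2 := finrank_comp_h44 (heckeBetaBar Kbar M q).toRingHom
    (heckeAlphaBar Kbar (M * q) q).toRingHom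
  rw [beta_comp_alpha q M, h2] at h1
  have ea : finrankHom (heckeAlphaBar Kbar M q).toRingHom = q + 1 :=
    Fermat.Agent.RED.H95.finrankAlong_alpha hq hqM
  have eb : finrankHom (heckeBetaBar Kbar M q).toRingHom = q + 1 :=
    Fermat.Agent.RED.H95.finrankAlong_beta hq hqM
  have ec : finrankHom (heckeAlphaBar Kbar (M * q) q).toRingHom = q := finrank_FA q M hq
  rw [ea, eb, ec] at h1
  have h3 : finrankHom (heckeBetaBar Kbar (M * q) q).toRingHom = q :=
    (Nat.eq_of_mul_eq_mul_left (Nat.succ_pos q) h1).symm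
  exact h3

include hq in
theorem finite_FB : FiniteAlong Kbar (heckeBetaBar Kbar (M * q) q) :=
  Fermat.Agent.RED.H95.finiteAlong_beta hq

/-- `L0 (M q²)` as an algebra over `L0 (M q)` along `β`. -/
@[reducible] def algB : Algebra ↥(L0 A (M * q)) ↥(L0 A (M * q * q)) :=
  Fermat.Agent.S36.NU.H26.algL0Along A (heckeBetaBar Kbar (M * q) q)
    (Fermat.Agent.S36.NU.H26.arithEquivariant_beta (M * q) q)

/-- The structure map of `algB`. -/
def mapB : ↥(L0 A (M * q)) →+* ↥(L0 A (M * q * q)) :=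
  Fermat.Agent.S36.NU.H26.mapL0 A (heckeBetaBar Kbar (M * q) q)
    (Fermat.Agent.S36.NU.H26.arithEquivariant_beta (M * q) q)

theorem coe_mapB (a : ↥(L0 A (M * q))) :
    ((mapB A q M a : ↥(L0 A (M * q * q))) : FN (M * q * q))
      = heckeBetaBar Kbar (M * q) q (a : FN (M * q)) := rfl

theorem algebraMap_algB (a : ↥(L0 A (M * q))) :
    @algebraMap ↥(L0 A (M * q)) ↥(L0 A (M * q * q)) _ _ (algB A q M) a = mapB A q M a := rfl

include hq in
theorem finite_L0_B :
    @Module.Finite ↥(L0 A (M * q)) ↥(L0 A (M * q * q)) _ _ (algB A q M).toModule :=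
  Fermat.Agent.S36.NU.H26.finite_L0_along A (heckeBetaBar Kbar (M * q) q)
    (Fermat.Agent.S36.NU.H26.arithEquivariant_beta (M * q) q) (finite_FB q M hq)

include hq hqM in
/-- **`[L0 (M q²) : L0 (M q)] = q`** along `β`. -/
theorem finrank_L0_B :
    @Module.finrank ↥(L0 A (M * q)) ↥(L0 A (M * q * q)) _ _ (algB A q M).toModule = q :=
  (Fermat.Agent.S36.NU.H26.finrank_L0_along A (heckeBetaBar Kbar (M * q) q)
    (Fermat.Agent.S36.NU.H26.arithEquivariant_beta (M * q) q) (finite_FB q M hq)).trans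
    (finrank_FB q M hq hqM)

/-! ### The second valuation of level `M q` on the inertia-fixed functions -/

/-- The residue map of `V2o = V₂ ∩ L0 (M q)`, with values in the residue field of level `M q`. -/
def rE2 : ↥(Fermat.Agent.S36.NU.H51.V2o A q M B k hB hq) →+* FM A (M * q) :=
  resRed (L0 A (M * q)) (Fermat.Agent.BAD.H88.V2 A q M k B (hab_of_hB q M B k hB) hq)
    (Fermat.Agent.BAD.H88.red2 A q M k B (hab_of_hB q M B k hB) hq)

/-- The residue map of `V2o`, with values in `k((t))`. -/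
def sE2 : ↥(Fermat.Agent.S36.NU.H51.V2o A q M B k hB hq) →+* LaurentSeries (kV A) :=
  (IntermediateField.val _).toRingHom.comp (rE2 A q M B k hB hq)

theorem coe_rE2 (x : ↥(Fermat.Agent.S36.NU.H51.V2o A q M B k hB hq)) :
    ((rE2 A q M B k hB hq x : FM A (M * q)) : LaurentSeries (kV A)) = sE2 A q M B k hB hq x :=
  rfl

theorem mem_V2o_iff (x : ↥(L0 A (M * q))) :
    x ∈ Fermat.Agent.S36.NU.H51.V2o A q M B k hB hq
      ↔ wL q M B k hB hq (x : FN (M * q)) ∈ V20 A (M * q) := Iff.rfl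

theorem sE2_mk (x : ↥(L0 A (M * q))) (h : x ∈ Fermat.Agent.S36.NU.H51.V2o A q M B k hB hq) :
    sE2 A q M B k hB hq ⟨x, h⟩
      = gaussRedV A ⟨((wL q M B k hB hq (x : FN (M * q)) : FN (M * q)) : LaurentSeries Kbar),
          h⟩ := rfl

theorem sE2_eq_red20 (x : ↥(L0 A (M * q)))
    (h : x ∈ Fermat.Agent.S36.NU.H51.V2o A q M B k hB hq)
    (h' : wL q M B k hB hq (x : FN (M * q)) ∈ V20 A (M * q)) :
    sE2 A q M B k hB hq ⟨x, h⟩
      = ((red20 A (M * q) ⟨wL q M B k hB hq (x : FN (M * q)), h'⟩ : F20 A (M * q)) :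
          LaurentSeries (kV A)) := rfl

theorem rE2_eq_zero_of_not_isUnit (x : ↥(Fermat.Agent.S36.NU.H51.V2o A q M B k hB hq))
    (hx : ¬ IsUnit x) : rE2 A q M B k hB hq x = 0 :=
  resRed_eq_zero_of_not_isUnit (L0 A (M * q)) (Fermat.Agent.BAD.H88.V2 A q M k B (hab_of_hB q M B k hB) hq)
    (Fermat.Agent.BAD.H88.red2 A q M k B (hab_of_hB q M B k hB) hq)
    (Fermat.Agent.BAD.H88.red2_eq_zero_iff A q M k B (hab_of_hB q M B k hB) hq) x hx

include hq hqM hA in
/-- The residue map of `V2o` is onto the residue field of level `M q`. -/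
theorem rE2_surjective : Function.Surjective (rE2 A q M B k hB hq) := by
  intro y
  obtain ⟨a, rfl⟩ := rEA_surjective A q M hq hqM hA y
  have h1 : wL q M B k hB hq ((a : ↥(L0 A (M * q))) : FN (M * q)) ∈ L0 A (M * q) :=
    Fermat.Agent.S36.NU.H51.wq_mem_L0 A q M k B (hab_of_hB q M B k hB) hq _
      (a : ↥(L0 A (M * q))).2
  have e : wL q M B k hB hq (wL q M B k hB hq ((a : ↥(L0 A (M * q))) : FN (M * q)))
      = ((a : ↥(L0 A (M * q))) : FN (M * q)) := wq_wq q M k B (hab_of_hB q M B k hB) hq _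
  have h2 : (⟨_, h1⟩ : ↥(L0 A (M * q))) ∈ Fermat.Agent.S36.NU.H51.V2o A q M B k hB hq := by
    rw [mem_V2o_iff]
    show wL q M B k hB hq (wL q M B k hB hq ((a : ↥(L0 A (M * q))) : FN (M * q)))
      ∈ V20 A (M * q)
    rw [e]
    exact a.2
  refine ⟨⟨⟨_, h1⟩, h2⟩, ?_⟩
  apply Subtype.ext
  rw [coe_rE2, coe_rE, sE2_mk]
  show _ = gaussRedV A ⟨(((a : ↥(L0 A (M * q))) : FN (M * q)) : LaurentSeries Kbar), a.2⟩
  congr 1
  exact Subtype.ext (congrArg (fun z : FN (M * q) => (z : LaurentSeries Kbar)) e)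

/-! ### The uniformiser `q` of `V2o` -/

include hA in
theorem val2_piE_lt_one :
    (Fermat.Agent.S36.NU.H51.V2o A q M B k hB hq).valuation (piE A q (M * q)) < 1 :=
  (Fermat.Agent.S36.NU.H51.isLowVal_V2 A q M k B (hab_of_hB q M B k hB) hq hA).res_val_q_lt_one
    hA

include hA in
theorem piE_mem2 : piE A q (M * q) ∈ Fermat.Agent.S36.NU.H51.V2o A q M B k hB hq :=
  (ValuationSubring.valuation_le_one_iff _ _).1 (le_of_lt (val2_piE_lt_one A q M B k hB hq hA))

include hA in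
theorem rE2_piE : rE2 A q M B k hB hq ⟨piE A q (M * q), piE_mem2 A q M B k hB hq hA⟩ = 0 := by
  apply rE2_eq_zero_of_not_isUnit
  intro hu
  have h1 := (ValuationSubring.valuation_eq_one_iff
    (Fermat.Agent.S36.NU.H51.V2o A q M B k hB hq)
    ⟨piE A q (M * q), piE_mem2 A q M B k hB hq hA⟩).1 hu
  exact (val2_piE_lt_one A q M B k hB hq hA).ne h1

include hA in
/-- `q` is a uniformiser of `V2o`. -/
theorem hE2_mod (a : ↥(L0 A (M * q)))
    (h : (Fermat.Agent.S36.NU.H51.V2o A q M B k hB hq).valuation a < 1) :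
    (Fermat.Agent.S36.NU.H51.V2o A q M B k hB hq).valuation a
      ≤ (Fermat.Agent.S36.NU.H51.V2o A q M B k hB hq).valuation (piE A q (M * q)) := by
  by_cases ha : a = 0
  · rw [ha, map_zero]; exact zero_le
  obtain ⟨m, hm⟩ :=
    (Fermat.Agent.S36.NU.H51.isLowVal_V2 A q M k B (hab_of_hB q M B k hB) hq hA).res_exact a ha
  exact Fermat.Agent.S36.NU.H82.val_le_of_eq_zpow _ (val2_piE_lt_one A q M B k hB hq hA)
    (piE_ne_zero A q (M * q) hq) hm h

/-! ### The maps `V2o → V..o` along `β` -/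

include hq in
theorem hVE02B (a : ↥(L0 A (M * q)))
    (ha : a ∈ Fermat.Agent.S36.NU.H51.V2o A q M B k hB hq) :
    mapB A q M a ∈ V02o A q M B k hB :=
  (beta_mem_V02_iff A q M B k hB hq (a : FN (M * q))).2 ha

theorem hVE11B (a : ↥(L0 A (M * q)))
    (ha : a ∈ Fermat.Agent.S36.NU.H51.V2o A q M B k hB hq) :
    mapB A q M a ∈ V11o A q M B k hB hq :=
  (beta_mem_V11_iff A q M B k hB hq (a : FN (M * q))).2 ha

/-! ### Compatibilities, in `k((t))` -/

include hq in
theorem s02_mapB (a : ↥(Fermat.Agent.S36.NU.H51.V2o A q M B k hB hq))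
    (h : mapB A q M (a : ↥(L0 A (M * q))) ∈ V02o A q M B k hB) :
    s02 A q M B k hB ⟨_, h⟩ = sE2 A q M B k hB hq a :=
  red02_beta A q M B k hB hq ((a : ↥(L0 A (M * q))) : FN (M * q)) a.2 h

include hA in
theorem s11_mapB (a : ↥(Fermat.Agent.S36.NU.H51.V2o A q M B k hB hq))
    (h : mapB A q M (a : ↥(L0 A (M * q))) ∈ V11o A q M B k hB hq) :
    s11 A q M B k hB hq ⟨_, h⟩ = sE2 A q M B k hB hq a :=
  red11_beta A q M B k hB hq hA ((a : ↥(L0 A (M * q))) : FN (M * q)) a.2 h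

/-! ### The residue map of `V02o` into the residue field of level `M q` -/

include hq hqM hA in
theorem s02_memA (x : ↥(V02o A q M B k hB)) :
    s02 A q M B k hB x ∈ redField A (modularFunctionFieldBar (M * q)) (hScM A (M * q)) := by
  rw [FMq_eq A q M hq hqM hA]
  exact s02_mem A q M B k hB hq hqM hA x

/-- The residue map of `V02o`, into the residue field of level `M q`. -/
def r02A : ↥(V02o A q M B k hB) →+* FM A (M * q) where
  toFun x := ⟨s02 A q M B k hB x, s02_memA A q M B k hB hq hqM hA x⟩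
  map_one' := Subtype.ext (map_one (s02 A q M B k hB))
  map_mul' x y := Subtype.ext (map_mul (s02 A q M B k hB) x y)
  map_zero' := Subtype.ext (map_zero (s02 A q M B k hB))
  map_add' x y := Subtype.ext (map_add (s02 A q M B k hB) x y)

theorem coe_r02A (x : ↥(V02o A q M B k hB)) :
    ((r02A A q M B k hB hq hqM hA x : FM A (M * q)) : LaurentSeries (kV A))
      = s02 A q M B k hB x := rfl

theorem r02A_eq_zero_of_not_isUnit (x : ↥(V02o A q M B k hB)) (hx : ¬ IsUnit x) :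
    r02A A q M B k hB hq hqM hA x = 0 := by
  apply Subtype.ext
  rw [coe_r02A, s02_eq_zero_of_not_isUnit A q M B k hB x hx]
  rfl

theorem r02A_mapB (a : ↥(Fermat.Agent.S36.NU.H51.V2o A q M B k hB hq))
    (h : mapB A q M (a : ↥(L0 A (M * q))) ∈ V02o A q M B k hB) :
    r02A A q M B k hB hq hqM hA ⟨_, h⟩ = rE2 A q M B k hB hq a := by
  apply Subtype.ext
  rw [coe_r02A, coe_rE2]
  exact s02_mapB A q M B k hB hq a h

theorem r11A_mapB (a : ↥(Fermat.Agent.S36.NU.H51.V2o A q M B k hB hq))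
    (h : mapB A q M (a : ↥(L0 A (M * q))) ∈ V11o A q M B k hB hq) :
    r11A A q M B k hB hq hqM hA ⟨_, h⟩ = rE2 A q M B k hB hq a := by
  apply Subtype.ext
  rw [coe_r11A, coe_rE2]
  exact s11_mapB A q M B k hB hq hA a h

theorem r02A_surjective : Function.Surjective (r02A A q M B k hB hq hqM hA) := by
  intro y
  obtain ⟨a, rfl⟩ := rE2_surjective A q M B k hB hq hqM hA y
  exact ⟨⟨_, hVE02B A q M B k hB hq a a.2⟩, r02A_mapB A q M B k hB hq hqM hA a _⟩

/-! ### Ramification -/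

theorem mapB_piE : mapB A q M (piE A q (M * q)) = ((q : ℕ) : ↥(L0 A (M * q * q))) :=
  map_natCast (mapB A q M) q

include hA in
/-- **Ramification of `V11o`** along `β`: `v₁₁(q) = v₁₁(π₁) ^ (q - 1)`. -/
theorem hram11B :
    (V11o A q M B k hB hq).valuation (mapB A q M (piE A q (M * q)))
      = (V11o A q M B k hB hq).valuation (pi11 A q M) ^ (q - 1) := by
  have h := hram11A A q M B k hB hq hA
  rw [show inclL0 A (hleA q M) (piE A q (M * q)) = ((q : ℕ) : ↥(L0 A (M * q * q))) from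
    map_natCast (inclL0 A (hleA q M)) q] at h
  rw [mapB_piE]
  exact h

/-! ### The `NRData` of `L0 (M q²) / L0 (M q)` along `β`, above `V₂` -/

/-- **NM-B2**: the `NRData` of `L0 (M q²) / L0 (M q)` along `β` above the second valuation
`V₂` of level `M q`: `VE = V2o`, `redE = rE2`, `ϖ = q`; `V = (V02o, V11o)`,
`red = (r02A, r11A)`, `e = (1, q - 1)`, `π = (q, j(t^{q²}) - j(t))`; all residue fields are
`FM A (M q)`, with the identity as structure maps. -/
def nrB2 :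
    @Fermat.Agent.BAD.H42.NRData ↥(L0 A (M * q)) ↥(L0 A (M * q * q)) (FM A (M * q)) _ _ _
      (algB A q M) (Fin 2) (kap2 (FM A (M * q)) (FM A (M * q))) _ (algA A q M) :=
  letI := algB A q M
  nr2 (Algebra.id (FM A (M * q))) (Fermat.Agent.S36.NU.H51.V2o A q M B k hB hq)
    (rE2 A q M B k hB hq)
    (V02o A q M B k hB) (V11o A q M B k hB hq)
    (r02A A q M B k hB hq hqM hA) (r11A A q M B k hB hq hqM hA)
    (piE A q (M * q)) (pi11 A q M) (q - 1)
    (piE_ne_zero A q (M * q) hq) (piE_mem2 A q M B k hB hq hA) (rE2_piE A q M B k hB hq hA)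
    (hE2_mod A q M B k hB hq hA)
    (fun a ha => hVE02B A q M B k hB hq a ha)
    (fun a ha => hVE11B A q M B k hB hq a ha)
    (rE2_eq_zero_of_not_isUnit A q M B k hB hq)
    (r02A_surjective A q M B k hB hq hqM hA) (r11A_surjective A q M B k hB hq hqM hA)
    (r02A_eq_zero_of_not_isUnit A q M B k hB hq hqM hA)
    (r11A_eq_zero_of_not_isUnit A q M B k hB hq hqM hA)
    (fun a ha => r02A_mapB A q M B k hB hq hqM hA a ha)
    (fun a ha => r11A_mapB A q M B k hB hq hqM hA a ha)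
    (Fermat.Agent.S36.NU.H82.not_le_02_11 A q M B k hB hq hA)
    (Fermat.Agent.S36.NU.H82.not_le_11_02 A q M B k hB hq hA)
    (isArch_resV0 _ _
      (Fermat.Agent.S36.NU.H82.isArch_V02 A hq hA (M * q * q) M B k (lvl q M) hB))
    (isArch_resV0 _ _
      (Fermat.Agent.S36.NU.H82.isArch_V11 A hq hA (M * q * q) M B k (lvl q M) hB))
    (val_pi11_lt_one A q M B k hB hq hA) (q_sub_one_pos q hq)
    (hram11B A q M B k hB hq hA)

/-! The fields, by `rfl`. -/

theorem nrB2_VE :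
    @Fermat.Agent.BAD.H42.NRData.VE ↥(L0 A (M * q)) ↥(L0 A (M * q * q)) (FM A (M * q)) _ _ _
      (algB A q M) (Fin 2) (kap2 (FM A (M * q)) (FM A (M * q))) _ (algA A q M)
      (nrB2 A q M B k hB hq hqM hA) = Fermat.Agent.S36.NU.H51.V2o A q M B k hB hq := rfl

theorem nrB2_redE :
    @Fermat.Agent.BAD.H42.NRData.redE ↥(L0 A (M * q)) ↥(L0 A (M * q * q)) (FM A (M * q)) _ _ _
      (algB A q M) (Fin 2) (kap2 (FM A (M * q)) (FM A (M * q))) _ (algA A q M)
      (nrB2 A q M B k hB hq hqM hA) = rE2 A q M B k hB hq := rfl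

theorem nrB2_ϖ :
    @Fermat.Agent.BAD.H42.NRData.ϖ ↥(L0 A (M * q)) ↥(L0 A (M * q * q)) (FM A (M * q)) _ _ _
      (algB A q M) (Fin 2) (kap2 (FM A (M * q)) (FM A (M * q))) _ (algA A q M)
      (nrB2 A q M B k hB hq hqM hA) = piE A q (M * q) := rfl

theorem nrB2_V0 :
    @Fermat.Agent.BAD.H42.NRData.V ↥(L0 A (M * q)) ↥(L0 A (M * q * q)) (FM A (M * q)) _ _ _
      (algB A q M) (Fin 2) (kap2 (FM A (M * q)) (FM A (M * q))) _ (algA A q M)
      (nrB2 A q M B k hB hq hqM hA) 0 = V02o A q M B k hB := rfl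

theorem nrB2_V1 :
    @Fermat.Agent.BAD.H42.NRData.V ↥(L0 A (M * q)) ↥(L0 A (M * q * q)) (FM A (M * q)) _ _ _
      (algB A q M) (Fin 2) (kap2 (FM A (M * q)) (FM A (M * q))) _ (algA A q M)
      (nrB2 A q M B k hB hq hqM hA) 1 = V11o A q M B k hB hq := rfl

theorem nrB2_red0 :
    @Fermat.Agent.BAD.H42.NRData.red ↥(L0 A (M * q)) ↥(L0 A (M * q * q)) (FM A (M * q)) _ _ _
      (algB A q M) (Fin 2) (kap2 (FM A (M * q)) (FM A (M * q))) _ (algA A q M)
      (nrB2 A q M B k hB hq hqM hA) 0 = r02A A q M B k hB hq hqM hA := rfl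

theorem nrB2_red1 :
    @Fermat.Agent.BAD.H42.NRData.red ↥(L0 A (M * q)) ↥(L0 A (M * q * q)) (FM A (M * q)) _ _ _
      (algB A q M) (Fin 2) (kap2 (FM A (M * q)) (FM A (M * q))) _ (algA A q M)
      (nrB2 A q M B k hB hq hqM hA) 1 = r11A A q M B k hB hq hqM hA := rfl

theorem nrB2_e0 :
    @Fermat.Agent.BAD.H42.NRData.e ↥(L0 A (M * q)) ↥(L0 A (M * q * q)) (FM A (M * q)) _ _ _
      (algB A q M) (Fin 2) (kap2 (FM A (M * q)) (FM A (M * q))) _ (algA A q M)
      (nrB2 A q M B k hB hq hqM hA) 0 = 1 := rfl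

theorem nrB2_e1 :
    @Fermat.Agent.BAD.H42.NRData.e ↥(L0 A (M * q)) ↥(L0 A (M * q * q)) (FM A (M * q)) _ _ _
      (algB A q M) (Fin 2) (kap2 (FM A (M * q)) (FM A (M * q))) _ (algA A q M)
      (nrB2 A q M B k hB hq hqM hA) 1 = q - 1 := rfl

theorem nrB2_π0 :
    @Fermat.Agent.BAD.H42.NRData.π ↥(L0 A (M * q)) ↥(L0 A (M * q * q)) (FM A (M * q)) _ _ _
      (algB A q M) (Fin 2) (kap2 (FM A (M * q)) (FM A (M * q))) _ (algA A q M)
      (nrB2 A q M B k hB hq hqM hA) 0 = mapB A q M (piE A q (M * q)) := rfl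

theorem nrB2_π1 :
    @Fermat.Agent.BAD.H42.NRData.π ↥(L0 A (M * q)) ↥(L0 A (M * q * q)) (FM A (M * q)) _ _ _
      (algB A q M) (Fin 2) (kap2 (FM A (M * q)) (FM A (M * q))) _ (algA A q M)
      (nrB2 A q M B k hB hq hqM hA) 1 = pi11 A q M := rfl

/-- **`∑ e f = [L0 (M q²) : L0 (M q)] = q`** (along `β`). -/
theorem nrB2_hdeg :
    ∑ i, @Fermat.Agent.BAD.H42.NRData.e ↥(L0 A (M * q)) ↥(L0 A (M * q * q)) (FM A (M * q)) _ _ _
          (algB A q M) (Fin 2) (kap2 (FM A (M * q)) (FM A (M * q))) _ (algA A q M)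
          (nrB2 A q M B k hB hq hqM hA) i
        * @Module.finrank (FM A (M * q)) (kap2 (FM A (M * q)) (FM A (M * q)) i) _ _
            (algA A q M i).toModule
      = @Module.finrank ↥(L0 A (M * q)) ↥(L0 A (M * q * q)) _ _ (algB A q M).toModule := by
  letI := algB A q M
  haveI : Module.Finite ↥(L0 A (M * q)) ↥(L0 A (M * q * q)) := finite_L0_B A q M hq
  exact hdeg_two (Algebra.id (FM A (M * q))) (nrB2 A q M B k hB hq hqM hA) q (q - 1)
    (finrank_L0_B A q M hq hqM) ⟨rfl, rfl⟩ (q_sub_one_pos q hq) (by have := hq.one_lt; omega)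

/-! ### NORM-RED along `β` above `V₂` -/

include hqM hA in
/-- **NORM-RED along `β` above `V₂`**, in `k((t))`: for an inertia-fixed function `h` of level
`M q²` in `V₀₂ ∩ V₁₁`, the norm `N_β h` to `L0 (M q)` is in `V₂` and
`red₂ (N_β h) = red₀₂ h * red₁₁ h ^ (q - 1)`. -/
theorem normB2 (h : ↥(L0 A (M * q * q))) (h02 : h ∈ V02o A q M B k hB)
    (h11 : h ∈ V11o A q M B k hB hq) :
    ∃ δ : ↥(Fermat.Agent.S36.NU.H51.V2o A q M B k hB hq),
      @Algebra.norm ↥(L0 A (M * q)) ↥(L0 A (M * q * q)) _ _ (algB A q M) h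
        = (δ : ↥(L0 A (M * q))) ∧
      sE2 A q M B k hB hq δ
        = s02 A q M B k hB ⟨h, h02⟩ * s11 A q M B k hB hq ⟨h, h11⟩ ^ (q - 1) := by
  letI := algB A q M
  letI := algA A q M
  haveI : Module.Finite ↥(L0 A (M * q)) ↥(L0 A (M * q * q)) := finite_L0_B A q M hq
  haveI : ∀ i, Module.Finite (FM A (M * q)) (kap2 (FM A (M * q)) (FM A (M * q)) i) :=
    fun i => (nrB2 A q M B k hB hq hqM hA).finite_res i
  have hh : ∀ i, h ∈ (nrB2 A q M B k hB hq hqM hA).V i := by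
    intro i
    fin_cases i
    · exact h02
    · exact h11
  obtain ⟨δ, h1, h2⟩ := (nrB2 A q M B k hB hq hqM hA).normRed
    (nrB2_hdeg A q M B k hB hq hqM hA) h hh
  refine ⟨δ, h1, ?_⟩
  rw [Fin.prod_univ_two] at h2
  have e0 : Algebra.norm (FM A (M * q))
      ((nrB2 A q M B k hB hq hqM hA).red 0 ⟨h, hh 0⟩)
        = r02A A q M B k hB hq hqM hA ⟨h, h02⟩ :=
    congrArg (fun f : FM A (M * q) →* FM A (M * q) =>
      f (r02A A q M B k hB hq hqM hA ⟨h, h02⟩)) (Algebra.norm_self (FM A (M * q)))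
  have e1 : Algebra.norm (FM A (M * q))
      ((nrB2 A q M B k hB hq hqM hA).red 1 ⟨h, hh 1⟩)
        = r11A A q M B k hB hq hqM hA ⟨h, h11⟩ :=
    congrArg (fun f : FM A (M * q) →* FM A (M * q) =>
      f (r11A A q M B k hB hq hqM hA ⟨h, h11⟩)) (Algebra.norm_self (FM A (M * q)))
  rw [e0, e1] at h2
  have h3 : rE2 A q M B k hB hq δ
      = r02A A q M B k hB hq hqM hA ⟨h, h02⟩ ^ 1
        * r11A A q M B k hB hq hqM hA ⟨h, h11⟩ ^ (q - 1) := h2
  rw [pow_one] at h3
  have h4 := congrArg (fun z : FM A (M * q) => (z : LaurentSeries (kV A))) h3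
  exact h4

include hqM hA in
/-- **NORM-RED along `β` above `V₂`**, for the norm of `F_{M q²} / β F_{M q}`. -/
theorem normB2_F (h : ↥(L0 A (M * q * q))) (h02 : h ∈ V02o A q M B k hB)
    (h11 : h ∈ V11o A q M B k hB hq) :
    ∃ hm : normAlongHom (heckeBetaBar Kbar (M * q) q).toRingHom (h : FN (M * q * q))
        ∈ Fermat.Agent.BAD.H88.V2 A q M k B (hab_of_hB q M B k hB) hq,
      ((Fermat.Agent.BAD.H88.red2 A q M k B (hab_of_hB q M B k hB) hq ⟨_, hm⟩ : F1 A q M) :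
          LaurentSeries (kV A))
        = s02 A q M B k hB ⟨h, h02⟩ * s11 A q M B k hB hq ⟨h, h11⟩ ^ (q - 1) := by
  obtain ⟨δ, h1, h2⟩ := normB2 A q M B k hB hq hqM hA h h02 h11
  have e : normAlongHom (heckeBetaBar Kbar (M * q) q).toRingHom (h : FN (M * q * q))
      = ((δ : ↥(L0 A (M * q))) : FN (M * q)) := by
    rw [Fermat.Agent.S36.NU.H26.norm_L0_along A (heckeBetaBar Kbar (M * q) q)
      (Fermat.Agent.S36.NU.H26.arithEquivariant_beta (M * q) q) (finite_FB q M hq) h]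
    exact congrArg (fun z : ↥(L0 A (M * q)) => (z : FN (M * q))) h1
  have hm : normAlongHom (heckeBetaBar Kbar (M * q) q).toRingHom (h : FN (M * q * q))
      ∈ Fermat.Agent.BAD.H88.V2 A q M k B (hab_of_hB q M B k hB) hq := by
    rw [e]; exact δ.2
  refine ⟨hm, ?_⟩
  rw [← h2]
  have e2 : (⟨_, hm⟩ : ↥(Fermat.Agent.BAD.H88.V2 A q M k B (hab_of_hB q M B k hB) hq))
      = ⟨((δ : ↥(L0 A (M * q))) : FN (M * q)), δ.2⟩ := Subtype.ext e
  rw [e2]
  rfl

end NrB2

end Fermat.Agent.S36.NU.H87
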