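import Fermat.Agent.S36.NU.H89_NmN2
import Fermat.Agent.S36.NU.H87_NrB2
import Fermat.Agent.S36.NU.H69_NrB1
import Fermat.Agent.S36.NU.H69_NrA2

/-!
# S36 / NU-B, leaf NM-N (helper89), part 3: the series forms; `normα₂`, `normβ₁`, `normβ₂`

`SerB2` is helper87's `H87.normB2_F` (NORM-RED along `β` above `V₂`), up to commutativity;
`SerB1` is helper69's `H69.normB1_F` (NORM-RED along `β` above `V₁`);
`SerA2` is helper69's `H69.normA2_N` (NORM-RED along `α` above `V₂`).
-/

set_option autoImplicit false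
set_option linter.style.haveILetI false
set_option linter.unusedSectionVars false
set_option synthInstance.maxHeartbeats 400000
set_option maxHeartbeats 1000000

noncomputable section

open HahnSeries IntermediateField AlgebraicCurve ModularCurve
open Fermat.Agent.S24 Fermat.Agent.BAD.H88 Fermat.Agent.S28 Fermat.Agent.S28.H73
open Fermat.Agent.RED.H73 Fermat.Agent.RED.H17 Fermat.Agent.S36.NU.H88
open Fermat.Agent.S36.NU.H23 Fermat.Agent.S36.NU.H79 Fermat.Agent.BAD Fermat.Agent.RED

namespace Fermat.Agent.S36.NU.H89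

section SerB2

variable (A : ValuationSubring Kbar) (q M : ℕ) (B k : ℤ) (hB : B * M + k * q = 1) (hq : q.Prime)
  [NeZero M] [NeZero q] [NeZero (M * q * q)] [NeZero (M * q)] (hqM : ¬ q ∣ M)
  (hA : A.LiesOverPrime q) (ht : H91.TameAt M q)

include hqM hA in
/-- The series form of NORM-RED along `β` above `V₂`. -/
theorem serB2 : SerB2 A q M B k hB hq := by
  intro h h11 h02
  obtain ⟨hm, hs⟩ := Fermat.Agent.S36.NU.H87.normB2_F A q M B k hB hq hqM hA h h02 h11
  exact ⟨hm, hs.trans (mul_comm _ _)⟩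

/-- **`normβ₂`** of the modular `NUData`, unconditionally. -/
theorem normBeta2' (h : ↥(L0 A (M * q * q)))
    (hu : ∀ i, rd3 A q M B k hB hq hqM hA ht i h ≠ 0) :
    (TL A q M B k hB hq hqM hA ht).p₂.rd (NbetaM A q M h)
      = (resId A q M B k hB hq hA).N (rd3 A q M B k hB hq hqM hA ht 1 h) ^ (q - 1)
        * (resId A q M B k hB hq hA).N (rd3 A q M B k hB hq hqM hA ht 2 h) :=
  normBeta2 A q M B k hB hq hqM hA ht (serB2 A q M B k hB hq hqM hA) h hu

include hqM hA in
/-- The series form of NORM-RED along `β` above `V₁`. -/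
theorem serB1 : SerB1 A q M hq hqM hA := by
  intro h h20
  obtain ⟨hm, hs⟩ := Fermat.Agent.S36.NU.H69.normB1_F A q M hq hqM hA h h20
  exact ⟨hm, hs⟩

/-- **`normβ₁`** of the modular `NUData`, unconditionally. -/
theorem normBeta1' (h : ↥(L0 A (M * q * q)))
    (hu : ∀ i, rd3 A q M B k hB hq hqM hA ht i h ≠ 0) :
    (TL A q M B k hB hq hqM hA ht).p₁.rd (NbetaM A q M h)
      = (resFr A q M B k hB hq hqM hA).N (rd3 A q M B k hB hq hqM hA ht 0 h) :=
  normBeta1 A q M B k hB hq hqM hA ht (serB1 A q M hq hqM hA) h hu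

include hqM hA in
/-- The series form of NORM-RED along `α` above `V₂`. -/
theorem serA2 : SerA2 A q M B k hB hq hqM hA := by
  intro h h02
  obtain ⟨hm, hs⟩ := Fermat.Agent.S36.NU.H69.normA2_N A q M B k hB hq hqM hA h h02
  exact ⟨hm, hs⟩

/-- **`normα₂`** of the modular `NUData`, unconditionally. -/
theorem normAlpha2' (h : ↥(L0 A (M * q * q)))
    (hu : ∀ i, rd3 A q M B k hB hq hqM hA ht i h ≠ 0) :
    (TL A q M B k hB hq hqM hA ht).p₂.rd (NalphaM A q M h)
      = (resFr A q M B k hB hq hqM hA).N (rd3 A q M B k hB hq hqM hA ht 2 h) :=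
  normAlpha2 A q M B k hB hq hqM hA ht (serA2 A q M B k hB hq hqM hA) h hu

end SerB2

end Fermat.Agent.S36.NU.H89
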