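import Fermat.Agent.S36.NU.H79_NuM
import Fermat.Agent.S36.NU.H89_NmN3

/-!
# S36 / NU-B, ND (helper79): `Stmt_NuM` from the fibre part

`stmt_NuM_of_fib : NmFib → Stmt_NuM` : the three series forms are helper89's `serA2`, `serB1`,
`serB2` (from helper69's `nrA2`, `nrB1` and helper87's `nrB2`).

`nuMF`, `isNuM_nuMF` : the datum itself.
-/

set_option autoImplicit false
set_option synthInstance.maxHeartbeats 400000
set_option maxHeartbeats 1000000
set_option linter.style.haveILetI false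
set_option linter.unusedSectionVars false

noncomputable section

open ModularCurve AlgebraicCurve
open Fermat.Agent.S24 Fermat.Agent.BAD.H88 Fermat.Agent.S28 Fermat.Agent.S28.H73
open Fermat.Agent.RED.H73 Fermat.Agent.RED.H17 Fermat.Agent.S36.NU.H88
open Fermat.Agent.Lib.HeckeComm Fermat.Agent.S36.NU.H23 Fermat.Agent.S36.NU.H74
open Fermat.Agent.S36.NU.H89

namespace Fermat.Agent.S36.NU.H79

open Fermat.Agent.BAD Fermat.Agent.RED Fermat.Agent.BAD.H79

section NuMFib

variable (A : ValuationSubring Kbar) (q M : ℕ) (B k : ℤ) (hB : B * M + k * q = 1) (hq : q.Prime)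
  [NeZero M] [NeZero q] [NeZero (M * q)] [NeZero (M * q * q)]
  (hqM : ¬ q ∣ M) (hA : A.LiesOverPrime q) (ht : H91.TameAt M q)
  (hF : NmFib A q M B k hB hq hqM hA ht)

/-- **The modular `NUData`**, from the fibre part. -/
def nuMF : NUDataM A q M :=
  nuM A q M B k hB hq hqM hA ht (serA2 A q M B k hB hq hqM hA) (serB1 A q M hq hqM hA)
    (serB2 A q M B k hB hq hqM hA) hF

/-- `nuMF` is a modular instance of `NUData`. -/
theorem isNuM_nuMF : IsNuM A q M B k hB hq hqM hA ht (nuMF A q M B k hB hq hqM hA ht hF) :=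
  isNuM_nuM A q M B k hB hq hqM hA ht _ _ _ hF

/-! ### The fields of `nuMF` -/

theorem nuMF_T : letI := algkM A M
    (nuMF A q M B k hB hq hqM hA ht hF).T = totM A q M B k hB hq hqM hA ht := rfl

theorem nuMF_T' : letI := algkM A M
    (nuMF A q M B k hB hq hqM hA ht hF).T' = TlowM A q M B k hB hq hqM hA ht := rfl

theorem nuMF_SS : letI := algkM A M
    (nuMF A q M B k hB hq hqM hA ht hF).SS = ssM A q M := rfl

theorem nuMF_q : letI := algkM A M
    (nuMF A q M B k hB hq hqM hA ht hF).q = q := rfl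

theorem nuMF_Nα : letI := algkM A M
    (nuMF A q M B k hB hq hqM hA ht hF).Nα = NalphaM A q M := rfl

theorem nuMF_Nβ : letI := algkM A M
    (nuMF A q M B k hB hq hqM hA ht hF).Nβ = NbetaM A q M := rfl

theorem nuMF_zα : letI := algkM A M
    (nuMF A q M B k hB hq hqM hA ht hF).zα = zA A q M B k hB hq hA := rfl

theorem nuMF_zβ : letI := algkM A M
    (nuMF A q M B k hB hq hqM hA ht hF).zβ = zB A q M B k hB hq hqM hA := rfl

theorem nuMF_i₂₀ : letI := algkM A M
    (nuMF A q M B k hB hq hqM hA ht hF).i₂₀ = 0 := rfl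

theorem nuMF_i₁₁ : letI := algkM A M
    (nuMF A q M B k hB hq hqM hA ht hF).i₁₁ = 1 := rfl

theorem nuMF_i₀₂ : letI := algkM A M
    (nuMF A q M B k hB hq hqM hA ht hF).i₀₂ = 2 := rfl

theorem nuMF_A₂₀ : letI := algkM A M
    @Eq (ResNorm (kV A) (FM A M) (F1 A q M))
      (nuMF A q M B k hB hq hqM hA ht hF).A₂₀ (resId A q M B k hB hq hA) := rfl

theorem nuMF_A₁₁ : letI := algkM A M
    @Eq (ResNorm (kV A) (FM A M) (F1 A q M))
      (nuMF A q M B k hB hq hqM hA ht hF).A₁₁ (resId A q M B k hB hq hA) := rfl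

theorem nuMF_A₀₂ : letI := algkM A M
    @Eq (ResNorm (kV A) (FM A M) (F1 A q M))
      (nuMF A q M B k hB hq hqM hA ht hF).A₀₂ (resFr A q M B k hB hq hqM hA) := rfl

theorem nuMF_B₂₀ : letI := algkM A M
    @Eq (ResNorm (kV A) (FM A M) (F1 A q M))
      (nuMF A q M B k hB hq hqM hA ht hF).B₂₀ (resFr A q M B k hB hq hqM hA) := rfl

theorem nuMF_B₁₁ : letI := algkM A M
    @Eq (ResNorm (kV A) (FM A M) (F1 A q M))
      (nuMF A q M B k hB hq hqM hA ht hF).B₁₁ (resId A q M B k hB hq hA) := rfl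

theorem nuMF_B₀₂ : letI := algkM A M
    @Eq (ResNorm (kV A) (FM A M) (F1 A q M))
      (nuMF A q M B k hB hq hqM hA ht hF).B₀₂ (resId A q M B k hB hq hA) := rfl

include hF in
/-- **ND** from the fibre part. -/
theorem stmt_NuM_of_fib : Stmt_NuM A q M B k hB hq hqM hA ht :=
  ⟨nuMF A q M B k hB hq hqM hA ht hF, isNuM_nuMF A q M B k hB hq hqM hA ht hF⟩

end NuMFib

end Fermat.Agent.S36.NU.H79
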