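import Fermat.Agent.BAD.H79_Fsum

/-!
# S36 / NU-B, leaf LOC3-ABS (helper79): conservation for several valuations with multiplicities

Abstract setting (modular: level `q² M'`, the three Gauss-type valuations `v₂₀`, `v₁₁`, `v₀₂`
with multiplicities `1`, `q - 1`, `1`):

* `L / K` a function field with its places (modular: `L = F_N · ℚ̄`);
* `L₀` a field with a homomorphism to `L` (`Algebra L₀ L`; modular: the functions with
  coefficients in `K^ur = ℚ̄^I`; `L₀ = L` is allowed);
* valuation rings `V i` of `L₀` (`i : ι`) with residue maps `red i : V i → E i`;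
* multiplicities `m i > 0`, a set of points `Z` (the points of the curve of lower level), the
  reduction `ρ : Place K L → Z` and the point `pt i z` of the `i`-th component over `z`;
* the law of TOTAL conservation `tot` for functions which become units of `V i` after
  multiplication by constants `c i`:
  `∑_{ρ P = z} ord_P g = ∑ i, m i * ord_{pt i z} (red i (c i * g))`.

Results (from `tot` alone), for `f` integral for all valuations:
* `TotN.regAt` (REG): no pole of `f` on the fibre of `z` ⟹ all reductions are regular at `z`;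
* `TotN.ord_eq_zero` (UNIT): `f` a unit for all valuations without zero or pole on the fibre of
  `z` ⟹ all reductions have order `0` at `z`;
* `TotN.ord_eq_zero_of_not_vanAt` (NOZERO): no pole on the fibre and no reduction vanishes at `z`
  ⟹ `f` has no zero on the fibre;
* `TotN.fsum_pos_of_vanAt`, `TotN.exists_vanAt` (VAL, first form).
-/

set_option autoImplicit false
set_option linter.style.haveILetI false

noncomputable section

open AlgebraicCurve

attribute [local instance] Classical.propDecidable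

namespace Fermat.Agent.S36.NU.H79

open Fermat.Agent.RED.H17 Fermat.Agent.RED Fermat.Agent.BAD.H79

/-- **Total conservation datum with several components and multiplicities.** -/
structure TotN (K L₀ L k ι Z : Type*) (E : ι → Type*) [Field K] [Field L₀] [Field L]
    [Algebra K L] [Algebra L₀ L] [Field k] [Fintype ι] [∀ i, Field (E i)]
    [∀ i, Algebra k (E i)] where
  /-- the valuation rings -/
  V : ι → ValuationSubring L₀
  /-- the residue maps -/
  red : ∀ i, V i →+* E i
  red_eq_zero_iff : ∀ (i : ι) (u : V i), red i u = 0 ↔ u ∈ IsLocalRing.maximalIdeal (V i)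
  /-- the multiplicities of the components -/
  m : ι → ℕ
  m_pos : ∀ i, 0 < m i
  /-- the reduction map to the points of the curve of lower level -/
  ρ : Place K L → Z
  /-- the point of the `i`-th component over a point of the curve of lower level -/
  pt : ∀ i, Z → Place k (E i)
  /-- constants of the residue field lift to constants of `L₀` -/
  const_lift : ∀ a : k, ∃ c : L₀, (∃ c' : K, algebraMap L₀ L c = algebraMap K L c') ∧
    ∀ i, ∃ h : c ∈ V i, red i ⟨c, h⟩ = algebraMap k (E i) a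
  /-- TOTAL conservation -/
  tot : ∀ (g : L₀) (c : ι → L₀),
    (∀ i, ∃ c' : K, c' ≠ 0 ∧ algebraMap L₀ L (c i) = algebraMap K L c') →
    ∀ h : ∀ i, c i * g ∈ V i, (∀ i, red i ⟨_, h i⟩ ≠ 0) →
    ∀ D : Divisor K L, (∀ P, D P = P.ord (algebraMap L₀ L g)) → ∀ z : Z,
      Finsupp.mapDomain ρ D z = ∑ i, (m i : ℤ) * (pt i z).ord (red i ⟨_, h i⟩)

namespace TotN

variable {K L₀ L k ι Z : Type*} {E : ι → Type*} [Field K] [Field L₀] [Field L]
  [Algebra K L] [Algebra L₀ L] [Field k] [Fintype ι] [∀ i, Field (E i)]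
  [∀ i, Algebra k (E i)] (T : TotN K L₀ L k ι Z E)

/-- The fibre of `ρ` over `z`. -/
def fib (z : Z) : Set (Place K L) := {P | T.ρ P = z}

/-- Total conservation for a function which is a unit for all valuations. -/
theorem tot_unit (hP : HasPrincipalDivisors K L) {g : L₀} (h : ∀ i, g ∈ T.V i)
    (h0 : ∀ i, T.red i ⟨g, h i⟩ ≠ 0) (z : Z) :
    fsum (T.fib z) (dv hP (algebraMap L₀ L g))
      = ∑ i, (T.m i : ℤ) * (T.pt i z).ord (T.red i ⟨g, h i⟩) := by
  have h1 : ∀ i, (fun _ : ι => (1 : L₀)) i * g ∈ T.V i := fun i => by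
    rw [one_mul]; exact h i
  have h2 : ∀ i, T.red i ⟨_, h1 i⟩ ≠ 0 := fun i => by
    have e : (⟨(fun _ : ι => (1 : L₀)) i * g, h1 i⟩ : T.V i) = ⟨g, h i⟩ :=
      Subtype.ext (one_mul g)
    rw [e]; exact h0 i
  have key := T.tot g (fun _ => 1)
    (fun _ => ⟨1, one_ne_zero, by rw [map_one, map_one]⟩) h1 h2
    (dv hP (algebraMap L₀ L g)) (fun P => dv_apply hP _ P) z
  rw [mapDomain_eq_fsum] at key
  rw [show fib T z = {P | T.ρ P = z} from rfl, key]
  refine Finset.sum_congr rfl fun i _ => ?_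
  have e : (⟨(fun _ : ι => (1 : L₀)) i * g, h1 i⟩ : T.V i) = ⟨g, h i⟩ :=
    Subtype.ext (one_mul g)
  rw [e]

/-- A subsingleton set of "bad constants". -/
private theorem finite_bad' {F' : Type*} [Field F'] [Algebra k F'] (Q : Place k F') (h : F') :
    ({a : k | h = algebraMap k F' a} ∪ {a : k | VanAt Q (h - algebraMap k F' a)}).Finite := by
  refine Set.Finite.union (Set.Subsingleton.finite ?_) (Set.Subsingleton.finite ?_)
  · intro a ha b hb
    rw [Set.mem_ofPred_eq] at ha hb
    exact (algebraMap k F').injective (ha.symm.trans hb)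
  · intro a ha b hb
    exact value_unique Q ha hb

/-- A constant `a` of the residue field which is not a value of any reduction of `f`, with a
lift `c`: then `f - c` is a unit for all valuations whose reductions do not vanish at `z`. -/
theorem exists_generic [Infinite k] (z : Z) {f : L₀} (hf : ∀ i, f ∈ T.V i) :
    ∃ (a : k) (c : L₀) (_ : ∃ c' : K, algebraMap L₀ L c = algebraMap K L c')
      (hc : ∀ i, c ∈ T.V i),
      (∀ i, T.red i ⟨c, hc i⟩ = algebraMap k (E i) a) ∧
      (∀ i, T.red i ⟨f, hf i⟩ ≠ algebraMap k (E i) a) ∧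
      ∀ i, ¬ VanAt (T.pt i z) (T.red i ⟨f, hf i⟩ - algebraMap k (E i) a) := by
  have hfin : (⋃ i : ι, ({a : k | T.red i ⟨f, hf i⟩ = algebraMap k (E i) a} ∪
      {a : k | VanAt (T.pt i z) (T.red i ⟨f, hf i⟩ - algebraMap k (E i) a)})).Finite :=
    Set.finite_iUnion fun i => finite_bad' (T.pt i z) (T.red i ⟨f, hf i⟩)
  obtain ⟨a, ha⟩ := hfin.exists_notMem
  simp only [Set.mem_iUnion, Set.mem_union, Set.mem_ofPred_eq, not_exists, not_or] at ha
  obtain ⟨c, hcK, hc⟩ := T.const_lift a
  refine ⟨a, c, hcK, fun i => (hc i).choose, fun i => (hc i).choose_spec,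
    fun i => (ha i).1, fun i => (ha i).2⟩

/-- **REG**: if `f` is integral for all valuations and has no pole on the fibre of `z`, then
all reductions of `f` are regular at `z`. -/
theorem regAt [Infinite k] (hP : HasPrincipalDivisors K L) {z : Z} {f : L₀}
    (hf : ∀ i, f ∈ T.V i) (hreg : ∀ P, T.ρ P = z → RegAt P (algebraMap L₀ L f)) (i : ι) :
    RegAt (T.pt i z) (T.red i ⟨f, hf i⟩) := by
  obtain ⟨a, c, ⟨c', hc'⟩, hc, hcr, hne, hnv⟩ := T.exists_generic z hf
  have hg : ∀ j, f - c ∈ T.V j := fun j => (T.V j).sub_mem (hf j) (hc j)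
  have hgr : ∀ j, T.red j ⟨f - c, hg j⟩ = T.red j ⟨f, hf j⟩ - algebraMap k (E j) a := by
    intro j
    have e : (⟨f - c, hg j⟩ : T.V j) = ⟨f, hf j⟩ - ⟨c, hc j⟩ := rfl
    rw [e, map_sub, hcr]
  have hg0 : ∀ j, T.red j ⟨f - c, hg j⟩ ≠ 0 := fun j => by
    rw [hgr]; exact sub_ne_zero.mpr (hne j)
  have htot := T.tot_unit hP hg hg0 z
  have hnn : 0 ≤ fsum (T.fib z) (dv hP (algebraMap L₀ L (f - c))) := by
    refine fsum_nonneg fun P hPz => ?_
    rw [dv_apply, map_sub, hc']
    exact ((hreg P hPz).sub (regAt_algebraMap P c')).ord_nonneg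
  have hle : ∀ j, (T.pt j z).ord (T.red j ⟨f - c, hg j⟩) ≤ 0 := by
    intro j
    by_contra hcon
    push Not at hcon
    exact hnv j (by rw [← hgr]; exact vanAt_of_ord_pos hcon)
  have hterm : ∀ j ∈ Finset.univ,
      (T.m j : ℤ) * (T.pt j z).ord (T.red j ⟨f - c, hg j⟩) ≤ 0 := fun j _ =>
    mul_nonpos_of_nonneg_of_nonpos (Int.natCast_nonneg _) (hle j)
  have hsum : ∑ j, (T.m j : ℤ) * (T.pt j z).ord (T.red j ⟨f - c, hg j⟩) = 0 :=
    le_antisymm (Finset.sum_nonpos hterm) (by rw [← htot]; exact hnn)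
  have hz := (Finset.sum_eq_zero_iff_of_nonpos hterm).mp hsum i (Finset.mem_univ i)
  have hmi : (T.m i : ℤ) ≠ 0 := by exact_mod_cast (T.m_pos i).ne'
  have hoi : (T.pt i z).ord (T.red i ⟨f - c, hg i⟩) = 0 :=
    (mul_eq_zero.mp hz).resolve_left hmi
  have e : T.red i ⟨f, hf i⟩ = T.red i ⟨f - c, hg i⟩ + algebraMap k (E i) a := by
    rw [hgr]; ring
  rw [e]
  exact (regAt_of_ord_nonneg (by omega)).add (regAt_algebraMap _ a)

/-- For `f` integral without pole on the fibre: the orders of the non-zero reductions at `z`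
are non-negative. -/
theorem ord_nonneg [Infinite k] (hP : HasPrincipalDivisors K L) {z : Z} {f : L₀}
    (hf : ∀ i, f ∈ T.V i) (hreg : ∀ P, T.ρ P = z → RegAt P (algebraMap L₀ L f)) (i : ι) :
    0 ≤ (T.pt i z).ord (T.red i ⟨f, hf i⟩) :=
  (T.regAt hP hf hreg i).ord_nonneg

/-- **UNIT**: a unit for all valuations without zero or pole on the fibre of `z` has reductions
of order `0` at `z`. -/
theorem ord_eq_zero [Infinite k] (hP : HasPrincipalDivisors K L) {z : Z} {f : L₀}
    (hf : ∀ i, f ∈ T.V i) (hf0 : ∀ i, T.red i ⟨f, hf i⟩ ≠ 0)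
    (hord : ∀ P, T.ρ P = z → P.ord (algebraMap L₀ L f) = 0) (i : ι) :
    (T.pt i z).ord (T.red i ⟨f, hf i⟩) = 0 := by
  have hreg : ∀ P, T.ρ P = z → RegAt P (algebraMap L₀ L f) := fun P hPz =>
    regAt_of_ord_nonneg (by rw [hord P hPz])
  have htot := T.tot_unit hP hf hf0 z
  have h0 : fsum (T.fib z) (dv hP (algebraMap L₀ L f)) = 0 :=
    fsum_eq_zero fun P hPz => by rw [dv_apply]; exact hord P hPz
  rw [h0] at htot
  have hterm : ∀ j ∈ Finset.univ,
      0 ≤ (T.m j : ℤ) * (T.pt j z).ord (T.red j ⟨f, hf j⟩) := fun j _ =>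
    mul_nonneg (Int.natCast_nonneg _) (T.ord_nonneg hP hf hreg j)
  have hz := (Finset.sum_eq_zero_iff_of_nonneg hterm).mp htot.symm i (Finset.mem_univ i)
  have hmi : (T.m i : ℤ) ≠ 0 := by exact_mod_cast (T.m_pos i).ne'
  exact (mul_eq_zero.mp hz).resolve_left hmi

/-- **NOZERO**: if `f` is integral for all valuations, has no pole on the fibre of `z` and no
reduction of `f` vanishes at `z`, then `f` has no zero on the fibre of `z`. -/
theorem ord_eq_zero_of_not_vanAt (hP : HasPrincipalDivisors K L) {z : Z} {f : L₀}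
    (hf : ∀ i, f ∈ T.V i) (hreg : ∀ P, T.ρ P = z → RegAt P (algebraMap L₀ L f))
    (hnv : ∀ i, ¬ VanAt (T.pt i z) (T.red i ⟨f, hf i⟩)) {P : Place K L} (hPz : T.ρ P = z) :
    P.ord (algebraMap L₀ L f) = 0 := by
  have hf0 : ∀ i, T.red i ⟨f, hf i⟩ ≠ 0 := fun i h0 => hnv i (by rw [h0]; exact vanAt_zero _)
  have htot := T.tot_unit hP hf hf0 z
  have hle : ∀ j, (T.pt j z).ord (T.red j ⟨f, hf j⟩) ≤ 0 := by
    intro j
    by_contra hcon
    push Not at hcon
    exact hnv j (vanAt_of_ord_pos hcon)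
  have hterm : ∀ j ∈ Finset.univ,
      (T.m j : ℤ) * (T.pt j z).ord (T.red j ⟨f, hf j⟩) ≤ 0 := fun j _ =>
    mul_nonpos_of_nonneg_of_nonpos (Int.natCast_nonneg _) (hle j)
  have h0 : fsum (T.fib z) (dv hP (algebraMap L₀ L f)) ≤ 0 := by
    rw [htot]; exact Finset.sum_nonpos hterm
  have := eq_zero_of_fsum_eq_zero (A := T.fib z) (D := dv hP (algebraMap L₀ L f))
    (fun P' hP' => by rw [dv_apply]; exact (hreg P' hP').ord_nonneg) h0 hPz
  rwa [dv_apply] at this

/-- If `f` (integral, without pole on the fibre, unit for all valuations) vanishes at a place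
of the fibre of `z`, then one of its reductions vanishes at `z`. -/
theorem exists_vanAt (hP : HasPrincipalDivisors K L) {z : Z} {f : L₀}
    (hf : ∀ i, f ∈ T.V i) (hreg : ∀ P, T.ρ P = z → RegAt P (algebraMap L₀ L f))
    {P : Place K L} (hPz : T.ρ P = z) (hfP : VanAt P (algebraMap L₀ L f))
    (hne : algebraMap L₀ L f ≠ 0) : ∃ i, VanAt (T.pt i z) (T.red i ⟨f, hf i⟩) := by
  by_contra hcon
  push Not at hcon
  have := T.ord_eq_zero_of_not_vanAt hP hf hreg hcon hPz
  have hpos := hfP.ord_pos hne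
  omega

end TotN

end Fermat.Agent.S36.NU.H79
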