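import Fermat.Agent.S36.NU.H79_Tot3
import Fermat.Agent.BAD.H42_NormRedR
import Fermat.Agent.BAD.H28_Tot

/-!
# S36 / NU-B, leaf TOT-ABS-r (helper79): total conservation for several valuations with
ramification, from NORM-RED-r

Setting:
* `E ⊆ L` function fields over `K` (modular: `K = ℚ̄`, `E = F_{M'} · ℚ̄`, `L = F_{q² M'} · ℚ̄`),
  `SE : RedSetup K E k E'` the good reduction of the lower level with its divisor identity,
  all inertia degrees of `L / E` equal to one and the norm formula for places of `L / E`;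
* `E₀ ⊆ L₀` subfields of `E`, `L` (modular: the functions with coefficients in `K^ur`) with
  `N_{L/E} = N_{L₀/E₀}` on `L₀` (`hNbc`), such that the constants of `L₀` come from `E₀`
  (`hconst`);
* `D : NRData E₀ L₀ E' ι κ` (helper42): the discrete valuation ring `D.VE = SE.V ∩ E₀` and the
  valuation rings `D.V i` of `L₀` over it, with ramification indices `D.e i` and residue fields
  `κ i ⊇ E'`, `∑ e i [κ i : E'] = [L₀ : E₀]`;
* points `pt i z` of `κ i` over the points `z` of `E'` with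
  `ord_z (N_{κ i / E'} x) = ord_{pt i z} x` (one point over `z`, of residue degree one).

Result: `TotN.ofNR`, the total conservation datum `TotN K L₀ L k ι (Place k E') κ` with
multiplicities `m i = D.e i` and `ρ P = SE.r (P | E)`;  `totNR` is its law `tot`.

For the hypothesis `hNbc`: `norm_baseChange_of_basis` (a basis of `L₀ / E₀` is mapped to a basis
of `L / E`) and `norm_baseChange_of_span` (`L = E · L₀` and `[L : E] = [L₀ : E₀]`).
-/

set_option autoImplicit false
set_option linter.style.haveILetI false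

noncomputable section

open AlgebraicCurve

attribute [local instance] Classical.propDecidable

namespace Fermat.Agent.S36.NU.H79

open Fermat.Agent.RED.H17 Fermat.Agent.RED Fermat.Agent.BAD.H79 Fermat.Agent.BAD

/-- The order of a product of powers. -/
theorem ord_prod_pow {k F ι : Type*} [Field k] [Field F] [Algebra k F] (v : Place k F)
    (s : Finset ι) (x : ι → F) (e : ι → ℕ) (hx : ∀ i ∈ s, x i ≠ 0) :
    v.ord (∏ i ∈ s, x i ^ e i) = ∑ i ∈ s, (e i : ℤ) * v.ord (x i) := by
  induction s using Finset.induction_on with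
  | empty => simp
  | insert a s ha ih =>
    have hxa : x a ≠ 0 := hx a (Finset.mem_insert_self a s)
    have hxs : ∀ i ∈ s, x i ≠ 0 := fun i hi => hx i (Finset.mem_insert_of_mem hi)
    rw [Finset.prod_insert ha, Finset.sum_insert ha,
      v.ord_mul (pow_ne_zero _ hxa) (Finset.prod_ne_zero_iff.mpr fun j hj =>
        pow_ne_zero _ (hxs j hj)), ih hxs, ord_pow]

section NormBC

variable {E L E₀ L₀ : Type*} [Field E] [Field L] [Field E₀] [Field L₀]
  [Algebra E L] [Algebra E₀ L₀] [Algebra E₀ E] [Algebra L₀ L]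
  [Algebra E₀ L] [IsScalarTower E₀ L₀ L] [IsScalarTower E₀ E L]

/-- **Base change of the norm**: if a basis of `L₀ / E₀` is mapped to a basis of `L / E`, then
`N_{L/E} = N_{L₀/E₀}` on `L₀`. -/
theorem norm_baseChange_of_basis {n : Type*} [Fintype n] [DecidableEq n]
    (b : Module.Basis n E₀ L₀) (b' : Module.Basis n E L)
    (hb : ∀ i, b' i = algebraMap L₀ L (b i)) (g : L₀) :
    Algebra.norm E (algebraMap L₀ L g) = algebraMap E₀ E (Algebra.norm E₀ g) := by
  rw [Algebra.norm_eq_matrix_det b', Algebra.norm_eq_matrix_det b, RingHom.map_det]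
  congr 1
  ext i j
  rw [RingHom.mapMatrix_apply, Matrix.map_apply, Algebra.leftMulMatrix_eq_repr_mul,
    Algebra.leftMulMatrix_eq_repr_mul]
  have h1 : g * b j = ∑ l, (b.repr (g * b j) l) • b l := (b.sum_repr (g * b j)).symm
  have h2 : algebraMap L₀ L g * b' j
      = ∑ l, (algebraMap E₀ E (b.repr (g * b j) l)) • b' l := by
    rw [hb j, ← map_mul, h1, map_sum]
    refine Finset.sum_congr rfl fun l _ => ?_
    rw [hb l, Algebra.smul_def, Algebra.smul_def, map_mul,
      ← IsScalarTower.algebraMap_apply E₀ L₀ L, ← IsScalarTower.algebraMap_apply E₀ E L,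
      ← h1]
  rw [h2, b'.repr_sum_self]

end NormBC

section NormBC2

variable {E L E₀ L₀ : Type*} [Field E] [Field L] [Field E₀] [Field L₀]
  [Algebra E L] [Algebra E₀ L₀] [Algebra E₀ E] [Algebra L₀ L]
  [Algebra E₀ L] [IsScalarTower E₀ L₀ L] [IsScalarTower E₀ E L]

/-- **Base change of the norm**: if `L = E · L₀` and `[L : E] = [L₀ : E₀]`, then
`N_{L/E} = N_{L₀/E₀}` on `L₀`. -/
theorem norm_baseChange_of_span [Module.Finite E₀ L₀]
    (hspan : ⊤ ≤ Submodule.span E (Set.range (algebraMap L₀ L)))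
    (hfin : Module.finrank E L = Module.finrank E₀ L₀) (g : L₀) :
    Algebra.norm E (algebraMap L₀ L g) = algebraMap E₀ E (Algebra.norm E₀ g) := by
  classical
  let b := Module.finBasis E₀ L₀
  have hle : ⊤ ≤ Submodule.span E (Set.range fun i => algebraMap L₀ L (b i)) := by
    refine hspan.trans (Submodule.span_le.mpr ?_)
    rintro _ ⟨x, rfl⟩
    have h1 : x = ∑ l, (b.repr x l) • b l := (b.sum_repr x).symm
    have h2 : algebraMap L₀ L x = ∑ l, (algebraMap E₀ E (b.repr x l)) • algebraMap L₀ L (b l) := by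
      conv_lhs => rw [h1]
      rw [map_sum]
      refine Finset.sum_congr rfl fun l _ => ?_
      rw [Algebra.smul_def, Algebra.smul_def, map_mul,
        ← IsScalarTower.algebraMap_apply E₀ L₀ L, ← IsScalarTower.algebraMap_apply E₀ E L]
    rw [h2]
    exact Submodule.sum_mem _ fun l _ =>
      Submodule.smul_mem _ _ (Submodule.subset_span ⟨l, rfl⟩)
  have hcard : Fintype.card (Fin (Module.finrank E₀ L₀)) = Module.finrank E L := by
    rw [Fintype.card_fin, hfin]
  let b' := basisOfTopLeSpanOfCardEqFinrank (fun i => algebraMap L₀ L (b i)) hle hcard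
  exact norm_baseChange_of_basis b b' (fun i => by
    rw [coe_basisOfTopLeSpanOfCardEqFinrank]) g

end NormBC2

section Bridge

variable {K E L E₀ L₀ k E' : Type} [Field K] [Field E] [Field L] [Field E₀] [Field L₀]
  [Field k] [Field E'] [Algebra K E] [Algebra K L] [Algebra E L] [IsScalarTower K E L]
  [Module.Finite E L] [Algebra E₀ L₀] [Module.Finite E₀ L₀] [Algebra E₀ E] [Algebra L₀ L]
  [Algebra E₀ L] [IsScalarTower E₀ L₀ L] [IsScalarTower E₀ E L] [Algebra k E']
  {ι : Type} [Fintype ι] [DecidableEq ι] {κ : ι → Type} [∀ i, Field (κ i)]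
  [∀ i, Algebra E' (κ i)] [∀ i, Algebra k (κ i)] [∀ i, Module.Finite E' (κ i)]

/-- **TOT-ABS-r**: the law of total conservation for the valuations of an `NRData`, with the
ramification indices as multiplicities. -/
theorem totNR (SE : RedSetup K E k E') (hPE : HasPrincipalDivisors K E)
    (hin : ∀ w : Place K L, w.inertiaDeg E = 1)
    (hnorm : Divisor.PushforwardNormFormula K E L)
    (D : H42.NRData E₀ L₀ E' ι κ)
    (hdeg : ∑ i, D.e i * Module.finrank E' (κ i) = Module.finrank E₀ L₀)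
    (hVE : ∀ a : E₀, a ∈ D.VE → algebraMap E₀ E a ∈ SE.V)
    (hredE : ∀ (a : ↥D.VE) (h : algebraMap E₀ E (a : E₀) ∈ SE.V),
      SE.red ⟨algebraMap E₀ E (a : E₀), h⟩ = D.redE a)
    (hNbc : ∀ g : L₀, Algebra.norm E (algebraMap L₀ L g)
      = algebraMap E₀ E (Algebra.norm E₀ g))
    (hconst : ∀ c : L₀, (∃ c' : K, c' ≠ 0 ∧ algebraMap L₀ L c = algebraMap K L c') →
      ∃ c₀ : E₀, algebraMap E₀ L₀ c₀ = c)
    (pt : ∀ i, Place k E' → Place k (κ i))
    (hN : ∀ (i : ι) (z : Place k E') (x : κ i), x ≠ 0 →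
      z.ord (Algebra.norm E' x) = (pt i z).ord x)
    (g : L₀) (c : ι → L₀)
    (hc : ∀ i, ∃ c' : K, c' ≠ 0 ∧ algebraMap L₀ L (c i) = algebraMap K L c')
    (h : ∀ i, c i * g ∈ D.V i) (hu : ∀ i, D.red i ⟨_, h i⟩ ≠ 0)
    (Dv : Divisor K L) (hDv : ∀ P, Dv P = P.ord (algebraMap L₀ L g)) (z : Place k E') :
    Finsupp.mapDomain (fun P : Place K L => SE.r (P.restrict E)) Dv z
      = ∑ i, (D.e i : ℤ) * (pt i z).ord (D.red i ⟨_, h i⟩) := by
  have hne : Nonempty ι := by
    by_contra hemp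
    rw [not_nonempty_iff] at hemp
    have : Module.finrank E₀ L₀ = 0 := by rw [← hdeg]; simp
    exact (Module.finrank_pos (R := E₀) (M := L₀)).ne' this
  obtain ⟨i₀⟩ := hne
  -- the constants come from `E₀`
  choose c₀ hc₀ using fun i => hconst (c i) (hc i)
  choose c' hc'0 hc' using hc
  have hinjL : Function.Injective (algebraMap L₀ L) := (algebraMap L₀ L).injective
  have hinjEL : Function.Injective (algebraMap E L) := (algebraMap E L).injective
  have hci0 : ∀ i, c i ≠ 0 := fun i h0 => by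
    have := hc' i
    rw [h0, map_zero] at this
    exact hc'0 i ((map_eq_zero_iff _ (algebraMap K L).injective).mp this.symm)
  have hc₀0 : ∀ i, c₀ i ≠ 0 := fun i h0 => by
    apply hci0 i
    rw [← hc₀ i, h0, map_zero]
  have hc₀E : ∀ i, algebraMap E₀ E (c₀ i) = algebraMap K E (c' i) := fun i => by
    apply hinjEL
    rw [← IsScalarTower.algebraMap_apply E₀ E L, IsScalarTower.algebraMap_apply E₀ L₀ L,
      hc₀ i, hc' i, ← IsScalarTower.algebraMap_apply K E L]
  have hg0 : g ≠ 0 := fun h0 => hu i₀ (by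
    have : (⟨c i₀ * g, h i₀⟩ : D.V i₀) = 0 := Subtype.ext (by
      change c i₀ * g = 0
      rw [h0, mul_zero])
    rw [this, map_zero])
  have hgL : algebraMap L₀ L g ≠ 0 := (map_ne_zero_iff _ hinjL).mpr hg0
  -- norm reduction
  have hu' : ∀ i, algebraMap E₀ L₀ (c₀ i) * g ∈ D.V i := fun i => by rw [hc₀ i]; exact h i
  obtain ⟨δ, hδ, hδr⟩ := D.normRed_scaled hdeg g c₀ hc₀0 hu'
  have hred_eq : ∀ i, D.red i ⟨algebraMap E₀ L₀ (c₀ i) * g, hu' i⟩ = D.red i ⟨_, h i⟩ :=
    fun i => congrArg (D.red i) (Subtype.ext (by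
      change algebraMap E₀ L₀ (c₀ i) * g = c i * g
      rw [hc₀ i]))
  have hNne : ∀ i, Algebra.norm E' (D.red i ⟨_, h i⟩) ≠ 0 := fun i =>
    Algebra.norm_ne_zero_iff.2 (hu i)
  have hδr' : D.redE δ = ∏ i, Algebra.norm E' (D.red i ⟨_, h i⟩) ^ D.e i := by
    rw [hδr]
    exact Finset.prod_congr rfl fun i _ => by rw [hred_eq i]
  have hδE : algebraMap E₀ E (δ : E₀) ∈ SE.V := hVE _ δ.2
  have hδ0 : SE.red ⟨_, hδE⟩ ≠ 0 := by
    rw [hredE δ hδE, hδr']
    exact Finset.prod_ne_zero_iff.mpr fun i _ => pow_ne_zero _ (hNne i)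
  have hGU : SE.IsGU (algebraMap E₀ E (δ : E₀)) :=
    ⟨hδE, by rw [SE.rd_of_mem hδE]; exact hδ0⟩
  -- the orders of the norm
  have hCE : algebraMap E₀ E (∏ i, c₀ i ^ (D.e i * Module.finrank E' (κ i)))
      = algebraMap K E (∏ i, c' i ^ (D.e i * Module.finrank E' (κ i))) := by
    rw [map_prod, map_prod]
    exact Finset.prod_congr rfl fun i _ => by rw [map_pow, map_pow, hc₀E i]
  have hC0 : (∏ i, c' i ^ (D.e i * Module.finrank E' (κ i))) ≠ 0 :=
    Finset.prod_ne_zero_iff.mpr fun i _ => pow_ne_zero _ (hc'0 i)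
  have hord : ∀ v : Place K E, v.ord (Algebra.norm E (algebraMap L₀ L g))
      = v.ord (algebraMap E₀ E (δ : E₀)) := by
    intro v
    rw [← hδ, map_mul, hCE, ← hNbc g]
    exact (ord_algebraMap_mul v hC0 _).symm
  have hpush : Divisor.pushforward E Dv = dv hPE (algebraMap E₀ E (δ : E₀)) :=
    Finsupp.ext fun v => by rw [hnorm _ hgL Dv hDv v, hord, dv_apply]
  -- transport
  have h3 : Finsupp.mapDomain (fun P : Place K L => SE.r (P.restrict E)) Dv
      = Finsupp.mapDomain SE.r (dv hPE (algebraMap E₀ E (δ : E₀))) := by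
    rw [← hpush, H28.pushforward_eq_mapDomain hin, ← Finsupp.mapDomain_comp]
    rfl
  rw [h3, SE.mapDomain_dv hPE hGU z, SE.rd_of_mem hδE, hredE δ hδE, hδr',
    ord_prod_pow z Finset.univ _ _ fun i _ => hNne i]
  exact Finset.sum_congr rfl fun i _ => by rw [hN i z _ (hu i)]

/-- **The total conservation datum of an `NRData`** over a good reduction of the lower
level. -/
def TotN.ofNR [∀ i, IsScalarTower k E' (κ i)] (SE : RedSetup K E k E')
    (hPE : HasPrincipalDivisors K E)
    (hin : ∀ w : Place K L, w.inertiaDeg E = 1)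
    (hnorm : Divisor.PushforwardNormFormula K E L)
    (D : H42.NRData E₀ L₀ E' ι κ)
    (hdeg : ∑ i, D.e i * Module.finrank E' (κ i) = Module.finrank E₀ L₀)
    (hVE : ∀ a : E₀, a ∈ D.VE → algebraMap E₀ E a ∈ SE.V)
    (hredE : ∀ (a : ↥D.VE) (h : algebraMap E₀ E (a : E₀) ∈ SE.V),
      SE.red ⟨algebraMap E₀ E (a : E₀), h⟩ = D.redE a)
    (hNbc : ∀ g : L₀, Algebra.norm E (algebraMap L₀ L g)
      = algebraMap E₀ E (Algebra.norm E₀ g))
    (hconst : ∀ c : L₀, (∃ c' : K, c' ≠ 0 ∧ algebraMap L₀ L c = algebraMap K L c') →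
      ∃ c₀ : E₀, algebraMap E₀ L₀ c₀ = c)
    (hlift : ∀ a : k, ∃ c₀ : E₀, (∃ c' : K, algebraMap E₀ E c₀ = algebraMap K E c') ∧
      ∃ h : c₀ ∈ D.VE, D.redE ⟨c₀, h⟩ = algebraMap k E' a)
    (pt : ∀ i, Place k E' → Place k (κ i))
    (hN : ∀ (i : ι) (z : Place k E') (x : κ i), x ≠ 0 →
      z.ord (Algebra.norm E' x) = (pt i z).ord x) :
    TotN K L₀ L k ι (Place k E') κ where
  V := D.V
  red := D.red
  red_eq_zero_iff := fun i u => by
    constructor
    · intro h0
      rw [IsLocalRing.mem_maximalIdeal]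
      intro hunit
      have := hunit.map (D.red i)
      rw [h0] at this
      exact not_isUnit_zero this
    · intro hmem
      exact D.hker i u ((IsLocalRing.mem_maximalIdeal u).mp hmem)
  m := D.e
  m_pos := D.he
  ρ := fun P => SE.r (P.restrict E)
  pt := pt
  const_lift := fun a => by
    obtain ⟨c₀, ⟨c', hc'⟩, hm, hr⟩ := hlift a
    refine ⟨algebraMap E₀ L₀ c₀, ⟨c', ?_⟩, fun i => ⟨D.hVE i c₀ hm, ?_⟩⟩
    · rw [← IsScalarTower.algebraMap_apply E₀ L₀ L, IsScalarTower.algebraMap_apply E₀ E L, hc',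
        ← IsScalarTower.algebraMap_apply K E L]
    · rw [D.hcompat i ⟨c₀, hm⟩ (D.hVE i c₀ hm), hr, ← IsScalarTower.algebraMap_apply k E' (κ i)]
  tot := fun g c hc h hu Dv hDv z =>
    totNR SE hPE hin hnorm D hdeg hVE hredE hNbc hconst pt hN g c hc h hu Dv hDv z

end Bridge

end Fermat.Agent.S36.NU.H79
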