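import Fermat.Agent.S36.NU.H82_CuspFam
import Fermat.Agent.S28.H30_Eta
import Fermat.Agent.S28.H30_CAStrong
import Fermat.Agent.S28.H76_X

/-!
# S36 / NU-B, leaf CUSPS (helper82), part 3: the four families of conjugates (over `ℂ`)

Level `N = M q²`.  With `D_d = ` conjugates of `Δ(dτ)`, `E_d = ` conjugates of `E₄³(dτ)`:

* `Y20 = D_q / D_{q²}`             (conjugates of `eps2 = Δ(qτ)/Δ(q²τ)`),  `ord ≥ - q (q - 1) N`;
* `Y02 = (D_q / D_1)^q`            (conjugates of `eps1⁻q`),               `ord ≥ - (q - 1) N`;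
* `Y11 = D_1 D_{q²} / D_q²`        (conjugates of `eps1 / eps2`),          `ord ≥ - 2 (q - 1) N`;
* `Yx  = (E_{q²} D_1 - E_1 D_{q²}) / D_q²`  (conjugates of `(j″ - j) eps1 / eps2`),
                                                                          `ord ≥ - (2 q - 1) N`.

For each: the symmetric functions are polynomials in `j` (`sym_*`, from helper76's
`sym_of_families`), the coefficients lie in `ℤ[ζ_N, 1/N]` (`coeff_*`) and the orders are bounded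
(`ord_*`).
-/

set_option autoImplicit false
set_option linter.unusedSectionVars false
set_option linter.unusedVariables false
set_option synthInstance.maxHeartbeats 400000

open UpperHalfPlane ModularForm ModularCurve Function
open scoped MatrixGroups ModularForm Manifold

noncomputable section

namespace Fermat.Agent.S36.NU.H82

open Fermat.Agent.S23.H22 (G0 Q toSL piPerm q1 E12)
open Fermat.Agent.S28 Fermat.Agent.S28.H30
open Fermat.Agent.S28.H76 (Xfam Xfam_q1 pexp_fam_q1 sym_of_families)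

/-! ### Arithmetic of the orders -/

section Ord

theorem ordAt_one_eq (N : ℕ) (c : ℤ) : ordAt N 1 c = N := by
  simp [ordAt]

variable (q M : ℕ)

theorem ordAt_cases (hq : q.Prime) (c : ℤ) :
    (ordAt (M * q * q) q c = M * q ∧ ordAt (M * q * q) (q * q) c = M) ∨
    (ordAt (M * q * q) q c = q * (M * q * q) ∧ ordAt (M * q * q) (q * q) c = M * q * q) ∨
    (ordAt (M * q * q) q c = q * (M * q * q) ∧
      ordAt (M * q * q) (q * q) c = q * q * (M * q * q)) := by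
  have hq0 : 0 < q := hq.pos
  have hd1 : M * q * q / q = M * q := Nat.mul_div_cancel _ hq0
  have hd2 : M * q * q / (q * q) = M := by
    rw [mul_assoc]
    exact Nat.mul_div_cancel _ (Nat.mul_pos hq0 hq0)
  have hg1 : Int.gcd c (q : ℤ) = Nat.gcd c.natAbs q := by
    rw [Int.gcd, Int.natAbs_natCast]
  have hg2 : Int.gcd c ((q * q : ℕ) : ℤ) = Nat.gcd c.natAbs (q * q) := by
    rw [Int.gcd, Int.natAbs_natCast]
  by_cases hdvd : q ∣ c.natAbs
  · have h1 : Nat.gcd c.natAbs q = q := Nat.gcd_eq_right hdvd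
    have h2 : Nat.gcd c.natAbs (q * q) ∣ q ^ 2 := by
      rw [sq]; exact Nat.gcd_dvd_right _ _
    obtain ⟨i, hi, hgi⟩ := (Nat.dvd_prime_pow hq).1 h2
    have hqg : q ∣ Nat.gcd c.natAbs (q * q) := Nat.dvd_gcd hdvd (dvd_mul_right q q)
    have hi0 : i ≠ 0 := by
      rintro rfl
      rw [hgi, pow_zero] at hqg
      exact hq.one_lt.ne' (Nat.dvd_one.1 hqg)
    have hi' : i = 1 ∨ i = 2 := by omega
    rcases hi' with rfl | rfl
    · right; left
      refine ⟨?_, ?_⟩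
      · rw [ordAt, hg1, h1, hd1]; ring
      · rw [ordAt]
        push_cast at hg2 ⊢
        rw [hg2, hgi, hd2]
        ring
    · right; right
      refine ⟨?_, ?_⟩
      · rw [ordAt, hg1, h1, hd1]; ring
      · rw [ordAt]
        push_cast at hg2 ⊢
        rw [hg2, hgi, hd2]
        ring
  · have hc : Nat.Coprime c.natAbs q := ((Nat.Prime.coprime_iff_not_dvd hq).2 hdvd).symm
    have h1 : Nat.gcd c.natAbs q = 1 := hc
    have h2 : Nat.gcd c.natAbs (q * q) = 1 := Nat.Coprime.mul_right hc hc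
    left
    refine ⟨?_, ?_⟩
    · rw [ordAt, hg1, h1, hd1]; ring
    · rw [ordAt]
      push_cast at hg2 ⊢
      rw [hg2, h2, hd2]
      ring

end Ord

/-! ### The four families -/

section Fam

variable (q M : ℕ) [NeZero (M * q * q)]

theorem dvd_lvl_q : q ∣ M * q * q := dvd_mul_left q (M * q)

theorem dvd_lvl_qq : q * q ∣ M * q * q := ⟨M, by ring⟩

/-- The conjugates of `Δ(dτ)`. -/
abbrev Dc (d : ℕ) (c : Q (M * q * q)) : LaurentSeries ℂ :=
  pexp (M * q * q) (fam (M * q * q) d DeltaMF c)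

/-- The conjugates of `E₄³(dτ)`. -/
abbrev Ec (d : ℕ) (c : Q (M * q * q)) : LaurentSeries ℂ :=
  pexp (M * q * q) (fam (M * q * q) d E12 c)

/-- The conjugates of `eps2 = Δ(qτ)/Δ(q²τ)`. -/
def Y20 (c : Q (M * q * q)) : LaurentSeries ℂ := Dc q M q c / Dc q M (q * q) c

/-- The conjugates of `eps1⁻q = (Δ(qτ)/Δ(τ))^q`. -/
def Y02 (c : Q (M * q * q)) : LaurentSeries ℂ := (Dc q M q c / Dc q M 1 c) ^ q

/-- The conjugates of `eps1 / eps2 = Δ(τ) Δ(q²τ) / Δ(qτ)²`. -/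
def Y11 (c : Q (M * q * q)) : LaurentSeries ℂ :=
  Dc q M 1 c * Dc q M (q * q) c / Dc q M q c ^ 2

/-- The conjugates of `(j(q²τ) - j(τ)) eps1 / eps2`. -/
def Yx (c : Q (M * q * q)) : LaurentSeries ℂ :=
  (Ec q M (q * q) c * Dc q M 1 c - Ec q M 1 c * Dc q M (q * q) c) / Dc q M q c ^ 2

/-! #### The symmetric functions -/

theorem sym_Y20 (c₀ : ℂ) :
    (∏ c : Q (M * q * q), (HahnSeries.C c₀ - Y20 q M c)) ∈
      Algebra.adjoin ℂ ({iotaN (M * q * q) jq} : Set (LaurentSeries ℂ)) := by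
  have h := sym_of_families (M * q * q) 12 (fam (M * q * q) q DeltaMF)
    (fam (M * q * q) (q * q) DeltaMF) (fam_slash _ _ _) (fam_slash _ _ _)
    (fam_BPH _ (dvd_lvl_q q M) DeltaMF) (fam_BPH _ (dvd_lvl_qq q M) DeltaMF)
    (fam_Delta_ne_zero (dvd_lvl_qq q M)) 1 (one_dvd _) c₀ 0
  convert h using 1
  refine Finset.prod_congr rfl fun c _ => ?_
  rw [map_zero, zero_mul, sub_zero, Y20]

theorem sym_Y02 (c₀ : ℂ) :
    (∏ c : Q (M * q * q), (HahnSeries.C c₀ - Y02 q M c)) ∈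
      Algebra.adjoin ℂ ({iotaN (M * q * q) jq} : Set (LaurentSeries ℂ)) := by
  have hB1 := fam_BPH (M * q * q) (dvd_lvl_q q M) DeltaMF
  have hB2 := fam_BPH (M * q * q) (one_dvd (M * q * q)) DeltaMF
  have h := sym_of_families (M * q * q) ((q : ℤ) * 12)
    (fun c => fam (M * q * q) q DeltaMF c ^ q) (fun c => fam (M * q * q) 1 DeltaMF c ^ q)
    ((fam_equi q DeltaMF).pow q) ((fam_equi 1 DeltaMF).pow q)
    (fun c => (hB1 c).pow q) (fun c => (hB2 c).pow q)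
    (fun c z => by
      rw [Pi.pow_apply]
      exact pow_ne_zero _ (fam_Delta_ne_zero (one_dvd _) c z)) 1 (one_dvd _) c₀ 0
  convert h using 1
  refine Finset.prod_congr rfl fun c _ => ?_
  rw [map_zero, zero_mul, sub_zero, Y02, pexp_pow (hB1 c), pexp_pow (hB2 c), div_pow]

theorem sym_Y11 (c₀ : ℂ) :
    (∏ c : Q (M * q * q), (HahnSeries.C c₀ - Y11 q M c)) ∈
      Algebra.adjoin ℂ ({iotaN (M * q * q) jq} : Set (LaurentSeries ℂ)) := by
  have hB1 := fam_BPH (M * q * q) (dvd_lvl_q q M) DeltaMF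
  have hB2 := fam_BPH (M * q * q) (one_dvd (M * q * q)) DeltaMF
  have hB3 := fam_BPH (M * q * q) (dvd_lvl_qq q M) DeltaMF
  have h := sym_of_families (M * q * q) (12 + 12)
    (fun c => fam (M * q * q) 1 DeltaMF c * fam (M * q * q) (q * q) DeltaMF c)
    (fun c => fam (M * q * q) q DeltaMF c ^ 2)
    ((fam_equi 1 DeltaMF).mul (fam_equi (q * q) DeltaMF))
    (((fam_equi q DeltaMF).pow 2).congr_wt (by norm_num))
    (fun c => (hB2 c).mul (hB3 c)) (fun c => (hB1 c).pow 2)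
    (fun c z => by
      rw [Pi.pow_apply]
      exact pow_ne_zero _ (fam_Delta_ne_zero (dvd_lvl_q q M) c z)) 1 (one_dvd _) c₀ 0
  convert h using 1
  refine Finset.prod_congr rfl fun c _ => ?_
  rw [map_zero, zero_mul, sub_zero, Y11, pexp_pow (hB1 c), pexp_mul (hB2 c) (hB3 c)]

theorem sym_Yx (c₀ : ℂ) :
    (∏ c : Q (M * q * q), (HahnSeries.C c₀ - Yx q M c)) ∈
      Algebra.adjoin ℂ ({iotaN (M * q * q) jq} : Set (LaurentSeries ℂ)) := by
  have hB1 := fam_BPH (M * q * q) (dvd_lvl_q q M) DeltaMF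
  have hB2 := fam_BPH (M * q * q) (one_dvd (M * q * q)) DeltaMF
  have hB3 := fam_BPH (M * q * q) (dvd_lvl_qq q M) DeltaMF
  have hE2 := fam_BPH (M * q * q) (one_dvd (M * q * q)) E12
  have hE3 := fam_BPH (M * q * q) (dvd_lvl_qq q M) E12
  have h := sym_of_families (M * q * q) (12 + 12)
    (fun c => fam (M * q * q) (q * q) E12 c * fam (M * q * q) 1 DeltaMF c
      - fam (M * q * q) 1 E12 c * fam (M * q * q) (q * q) DeltaMF c)
    (fun c => fam (M * q * q) q DeltaMF c ^ 2)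
    (((fam_equi (q * q) E12).mul (fam_equi 1 DeltaMF)).sub
      ((fam_equi 1 E12).mul (fam_equi (q * q) DeltaMF)))
    (((fam_equi q DeltaMF).pow 2).congr_wt (by norm_num))
    (fun c => ((hE3 c).mul (hB2 c)).sub ((hE2 c).mul (hB3 c))) (fun c => (hB1 c).pow 2)
    (fun c z => by
      rw [Pi.pow_apply]
      exact pow_ne_zero _ (fam_Delta_ne_zero (dvd_lvl_q q M) c z)) 1 (one_dvd _) c₀ 0
  convert h using 1
  refine Finset.prod_congr rfl fun c _ => ?_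
  rw [map_zero, zero_mul, sub_zero, Yx, pexp_pow (hB1 c),
    pexp_sub ((hE3 c).mul (hB2 c)) ((hE2 c).mul (hB3 c)), pexp_mul (hE3 c) (hB2 c),
    pexp_mul (hE2 c) (hB3 c)]

/-! #### Coefficients and orders -/

theorem coeff_zero_of_uls {O : Subring ℂ} {f : LaurentSeries ℂ} {k : ℤ} (h : ULS O f k)
    {m n : ℤ} (hm : m ≤ k) (hn : n < m) : f.coeff n = 0 :=
  HahnSeries.coeff_eq_zero_of_lt_order (by rw [h.ord]; omega)

theorem tVal_of_uls {O : Subring ℂ} {f : LaurentSeries ℂ} {k : ℤ} (h : ULS O f k) :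
    Fermat.Agent.S28.H90.tVal ℂ f = WithZero.exp (-k) := by
  rw [Fermat.Agent.S28.H90.tVal_eq_exp_neg_order h.ne, h.ord]

theorem uls_Y20 (γ : SL(2, ℤ)) :
    ULS (coeffRing (M * q * q)) (Y20 q M (⟦toSL γ⟧ : Q (M * q * q)))
      ((ordAt (M * q * q) q ((γ⁻¹ : SL(2, ℤ)) 1 0) : ℤ)
        - (ordAt (M * q * q) (q * q) ((γ⁻¹ : SL(2, ℤ)) 1 0) : ℤ)) :=
  (uls_fam_Delta _ (dvd_lvl_q q M) γ).div (uls_fam_Delta _ (dvd_lvl_qq q M) γ)

theorem uls_Y02 (γ : SL(2, ℤ)) :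
    ULS (coeffRing (M * q * q)) (Y02 q M (⟦toSL γ⟧ : Q (M * q * q)))
      ((q : ℤ) * ((ordAt (M * q * q) q ((γ⁻¹ : SL(2, ℤ)) 1 0) : ℤ)
        - (ordAt (M * q * q) 1 ((γ⁻¹ : SL(2, ℤ)) 1 0) : ℤ))) :=
  ((uls_fam_Delta _ (dvd_lvl_q q M) γ).div (uls_fam_Delta _ (one_dvd _) γ)).pow q

theorem uls_Y11 (γ : SL(2, ℤ)) :
    ULS (coeffRing (M * q * q)) (Y11 q M (⟦toSL γ⟧ : Q (M * q * q)))
      ((ordAt (M * q * q) 1 ((γ⁻¹ : SL(2, ℤ)) 1 0) : ℤ)
        + (ordAt (M * q * q) (q * q) ((γ⁻¹ : SL(2, ℤ)) 1 0) : ℤ)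
        - ((2 : ℕ) : ℤ) * (ordAt (M * q * q) q ((γ⁻¹ : SL(2, ℤ)) 1 0) : ℤ)) :=
  ((uls_fam_Delta _ (one_dvd _) γ).mul (uls_fam_Delta _ (dvd_lvl_qq q M) γ)).div
    ((uls_fam_Delta _ (dvd_lvl_q q M) γ).pow 2)

theorem coeff_Y20 (c : Q (M * q * q)) (n : ℤ) : (Y20 q M c).coeff n ∈ coeffRing (M * q * q) := by
  obtain ⟨γ, rfl⟩ := exists_rep (M * q * q) c
  exact (uls_Y20 q M γ).coeffs n

theorem coeff_Y02 (c : Q (M * q * q)) (n : ℤ) : (Y02 q M c).coeff n ∈ coeffRing (M * q * q) := by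
  obtain ⟨γ, rfl⟩ := exists_rep (M * q * q) c
  exact (uls_Y02 q M γ).coeffs n

theorem coeff_Y11 (c : Q (M * q * q)) (n : ℤ) : (Y11 q M c).coeff n ∈ coeffRing (M * q * q) := by
  obtain ⟨γ, rfl⟩ := exists_rep (M * q * q) c
  exact (uls_Y11 q M γ).coeffs n

theorem coeff_Yx (c : Q (M * q * q)) (n : ℤ) : (Yx q M c).coeff n ∈ coeffRing (M * q * q) := by
  obtain ⟨γ, rfl⟩ := exists_rep (M * q * q) c
  have hD1 := uls_fam_Delta (M * q * q) (one_dvd _) γ
  have hDq := uls_fam_Delta (M * q * q) (dvd_lvl_q q M) γ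
  have hDqq := uls_fam_Delta (M * q * q) (dvd_lvl_qq q M) γ
  have hE1 := uls_fam_of_intQ (M * q * q) (one_dvd _) E12 intQ_E12 qExpansion_E12_coeff_zero
    (⟦toSL γ⟧ : Q (M * q * q))
  have hEqq := uls_fam_of_intQ (M * q * q) (dvd_lvl_qq q M) E12 intQ_E12
    qExpansion_E12_coeff_zero (⟦toSL γ⟧ : Q (M * q * q))
  rw [Yx, div_eq_mul_inv]
  refine coeff_mul_mem (fun n => ?_) ((hDq.pow 2).inv.coeffs) n
  rw [HahnSeries.coeff_sub]
  exact sub_mem ((hEqq.mul hD1).coeffs n) ((hE1.mul hDqq).coeffs n)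

variable (hq : q.Prime)

include hq

theorem ord_Y20 (c : Q (M * q * q)) (n : ℤ)
    (hn : n < -(((q * (q - 1) : ℕ) : ℤ) * ((M * q * q : ℕ) : ℤ))) : (Y20 q M c).coeff n = 0 := by
  obtain ⟨γ, rfl⟩ := exists_rep (M * q * q) c
  refine coeff_zero_of_uls (uls_Y20 q M γ) ?_ hn
  have hq1 : (1 : ℤ) ≤ q := by exact_mod_cast hq.one_le
  have hM0 : (0 : ℤ) ≤ M := by exact_mod_cast Nat.zero_le M
  have hc : ((q - 1 : ℕ) : ℤ) = (q : ℤ) - 1 := by
    rw [Nat.cast_sub hq.one_le, Nat.cast_one]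
  rcases ordAt_cases q M hq ((γ⁻¹ : SL(2, ℤ)) 1 0) with ⟨h1, h2⟩ | ⟨h1, h2⟩ | ⟨h1, h2⟩
  all_goals
    rw [h1, h2]
    push_cast
    rw [hc]
    nlinarith [mul_nonneg hM0 (sub_nonneg.2 hq1), mul_nonneg hM0 (le_trans zero_le_one hq1),
      mul_nonneg (mul_nonneg hM0 (le_trans zero_le_one hq1)) (le_trans zero_le_one hq1),
      mul_nonneg (mul_nonneg (mul_nonneg hM0 (le_trans zero_le_one hq1))
        (le_trans zero_le_one hq1)) (sub_nonneg.2 hq1),
      mul_nonneg (mul_nonneg (mul_nonneg (mul_nonneg hM0 (le_trans zero_le_one hq1))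
        (le_trans zero_le_one hq1)) (le_trans zero_le_one hq1)) (sub_nonneg.2 hq1)]

theorem ord_Y02 (c : Q (M * q * q)) (n : ℤ)
    (hn : n < -(((q - 1 : ℕ) : ℤ) * ((M * q * q : ℕ) : ℤ))) : (Y02 q M c).coeff n = 0 := by
  obtain ⟨γ, rfl⟩ := exists_rep (M * q * q) c
  refine coeff_zero_of_uls (uls_Y02 q M γ) ?_ hn
  have hq1 : (1 : ℤ) ≤ q := by exact_mod_cast hq.one_le
  have hM0 : (0 : ℤ) ≤ M := by exact_mod_cast Nat.zero_le M
  have hc : ((q - 1 : ℕ) : ℤ) = (q : ℤ) - 1 := by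
    rw [Nat.cast_sub hq.one_le, Nat.cast_one]
  rw [ordAt_one_eq]
  rcases ordAt_cases q M hq ((γ⁻¹ : SL(2, ℤ)) 1 0) with ⟨h1, h2⟩ | ⟨h1, h2⟩ | ⟨h1, h2⟩
  all_goals
    rw [h1]
    push_cast
    rw [hc]
    nlinarith [mul_nonneg hM0 (sub_nonneg.2 hq1), mul_nonneg hM0 (le_trans zero_le_one hq1),
      mul_nonneg (mul_nonneg hM0 (le_trans zero_le_one hq1)) (le_trans zero_le_one hq1),
      mul_nonneg (mul_nonneg (mul_nonneg hM0 (le_trans zero_le_one hq1))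
        (le_trans zero_le_one hq1)) (sub_nonneg.2 hq1),
      mul_nonneg (mul_nonneg (mul_nonneg (mul_nonneg hM0 (le_trans zero_le_one hq1))
        (le_trans zero_le_one hq1)) (le_trans zero_le_one hq1)) (sub_nonneg.2 hq1)]

theorem ord_Y11 (c : Q (M * q * q)) (n : ℤ)
    (hn : n < -(((2 * (q - 1) : ℕ) : ℤ) * ((M * q * q : ℕ) : ℤ))) : (Y11 q M c).coeff n = 0 := by
  obtain ⟨γ, rfl⟩ := exists_rep (M * q * q) c
  refine coeff_zero_of_uls (uls_Y11 q M γ) ?_ hn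
  have hq1 : (1 : ℤ) ≤ q := by exact_mod_cast hq.one_le
  have hM0 : (0 : ℤ) ≤ M := by exact_mod_cast Nat.zero_le M
  have hc : ((q - 1 : ℕ) : ℤ) = (q : ℤ) - 1 := by
    rw [Nat.cast_sub hq.one_le, Nat.cast_one]
  rw [ordAt_one_eq]
  rcases ordAt_cases q M hq ((γ⁻¹ : SL(2, ℤ)) 1 0) with ⟨h1, h2⟩ | ⟨h1, h2⟩ | ⟨h1, h2⟩
  all_goals
    rw [h1, h2]
    push_cast
    rw [hc]
    nlinarith [mul_nonneg hM0 (sub_nonneg.2 hq1), mul_nonneg hM0 (le_trans zero_le_one hq1),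
      mul_nonneg (mul_nonneg hM0 (le_trans zero_le_one hq1)) (le_trans zero_le_one hq1),
      mul_nonneg (mul_nonneg hM0 (sub_nonneg.2 hq1)) (sub_nonneg.2 hq1),
      mul_nonneg (mul_nonneg (mul_nonneg hM0 (le_trans zero_le_one hq1))
        (le_trans zero_le_one hq1)) (sub_nonneg.2 hq1),
      mul_nonneg (mul_nonneg (mul_nonneg (mul_nonneg hM0 (le_trans zero_le_one hq1))
        (le_trans zero_le_one hq1)) (sub_nonneg.2 hq1)) (sub_nonneg.2 hq1)]

end Fam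

end Fermat.Agent.S36.NU.H82
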