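import Fermat.Agent.S36.NU.H82_CuspEta

/-!
# S36 / NU-B, leaf CUSPS (helper82), part 4: the four families at the identity coset

`DeltaC = Δ` over `ℂ`, `UC = Δ(q)/Δ(q^p)` over `ℂ` (`p` the prime of the level `M p²`).

* `Dc_q1` : `D_d (q1) = d¹¹ · Δ(t^{N d})`;
* `Ec_q1` : `E_d (q1) = j(t^{N d}) · D_d (q1)`;
* `Y20_q1`, `Y02_q1`, `Y11_q1`, `Yx_q1` : the four families at the identity coset.
-/

set_option autoImplicit false
set_option linter.unusedSectionVars false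
set_option linter.unusedVariables false
set_option synthInstance.maxHeartbeats 400000

open UpperHalfPlane ModularForm ModularCurve Function
open scoped MatrixGroups ModularForm Manifold

noncomputable section

namespace Fermat.Agent.S36.NU.H82

open Fermat.Agent.S23.H22 (G0 Q toSL piPerm q1 E12)
open Fermat.Agent.S28 Fermat.Agent.S28.H30
open Fermat.Agent.S28.H76 (Xfam Xfam_q1 pexp_fam_q1 sym_of_families)

local notation "ofPS" => HahnSeries.ofPowerSeries ℤ ℂ

/-- `Δ` over `ℂ`. -/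
def DeltaC : LaurentSeries ℂ := coeffMap (algebraMap ℚ ℂ) deltaSeries

theorem DeltaC_eq : DeltaC = ofPS (qExpansion 1 ModularForm.discriminant) :=
  Fermat.Agent.BAD.H30.coeffMap_deltaSeries

theorem DeltaC_ne_zero : DeltaC ≠ 0 := by
  rw [DeltaC_eq]
  exact Fermat.Agent.BAD.H30.ofPS_disc_ne_zero

/-- `Δ(q)/Δ(q^d)` over `ℂ`. -/
def UC (d : ℕ) [NeZero d] : LaurentSeries ℂ := coeffMap (algebraMap ℚ ℂ) (modularUnitSeries d)

theorem UC_eq (d : ℕ) [NeZero d] : UC d = DeltaC * (qExpand ℂ d DeltaC)⁻¹ := by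
  rw [UC, modularUnitSeries, deltaSeriesN, map_mul, map_inv₀, ModularCurve.coeffMap_qExpand]
  rfl

theorem qExpand_DeltaC_ne_zero (d : ℕ) [NeZero d] : qExpand ℂ d DeltaC ≠ 0 := by
  intro h
  exact DeltaC_ne_zero (qExpand_injective d (by rw [h, map_zero]))

theorem UC_ne_zero (d : ℕ) [NeZero d] : UC d ≠ 0 := by
  rw [UC_eq]
  exact mul_ne_zero DeltaC_ne_zero (inv_ne_zero (qExpand_DeltaC_ne_zero d))

theorem qExpand_hahnC (n : ℕ) [NeZero n] (c : ℂ) :
    qExpand ℂ n (HahnSeries.C c : LaurentSeries ℂ) = HahnSeries.C c := by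
  rw [HahnSeries.C_apply, qExpand_single, mul_zero]

section Fam

variable (q M : ℕ) [NeZero (M * q * q)]

/-- **`D_d` at the identity coset.** -/
theorem Dc_q1 (d : ℕ) [NeZero d] (hd : d ∣ M * q * q) :
    Dc q M d (q1 : Q (M * q * q))
      = HahnSeries.C ((d : ℂ) ^ 11) * qExpand ℂ (M * q * q) (qExpand ℂ d DeltaC) := by
  rw [Dc, pexp_fam_q1 (M * q * q) hd DeltaMF, DeltaC_eq, map_mul, qExpand_hahnC]
  have e : ((12 : ℤ) - 1) = ((11 : ℕ) : ℤ) := by norm_num
  rw [e, zpow_natCast]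
  rfl

theorem Dc_q1_ne_zero (d : ℕ) [NeZero d] (hd : d ∣ M * q * q) :
    Dc q M d (q1 : Q (M * q * q)) ≠ 0 := by
  rw [Dc_q1 q M d hd]
  refine mul_ne_zero ?_ ?_
  · rw [Ne, map_eq_zero]
    exact pow_ne_zero _ (Nat.cast_ne_zero.mpr (NeZero.ne d))
  · intro h
    exact qExpand_DeltaC_ne_zero d (qExpand_injective (M * q * q) (by rw [h, map_zero]))

/-- **`E_d` at the identity coset.** -/
theorem Ec_q1 (d : ℕ) [NeZero d] (hd : d ∣ M * q * q) :
    Ec q M d (q1 : Q (M * q * q))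
      = iotaN (M * q * q) (qExpand ℚ d jq) * Dc q M d (q1 : Q (M * q * q)) :=
  Fermat.Agent.S28.H76.pexp_E12_q1_eq (M * q * q) hd

end Fam

end Fermat.Agent.S36.NU.H82
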