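import Fermat.Agent.S36.NU.H82_CuspInt
import Fermat.Agent.BAD.H30_UnitL

/-!
# S36 / NU-B, leaf CUSPS (helper82), part 2: integrality over `ℚ̄[1/j]` from a family of conjugates

A family `y : Q N → ℂ((t))` (`t = q^(1/N)`) with
* (sym)  `∏_c (c₀ - y_c) ∈ ℂ[J]` for all constants `c₀` (the symmetric functions are polynomials
  in `J = j(t^N)`),
* (coef) coefficients in `ℤ[ζ_N, 1/N]`,
* (ord)  `ord y_c ≥ - K₀ N`,
and an element `x` of `F_N · ℚ̄` whose expansion at the identity coset is a constant multiple of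
`y_{q1}`: then `x j⁻ᴷ⁰` is integral over `ℚ̄[j⁻¹]` (`isIntegral_of_family`).

* `isIntegral_of_algHom` : integrality over `K[u]` can be tested after an embedding.
-/

set_option autoImplicit false
set_option linter.unusedSectionVars false
set_option linter.unusedVariables false
set_option synthInstance.maxHeartbeats 400000

open ModularCurve Polynomial

noncomputable section

namespace Fermat.Agent.S36.NU.H82

open Fermat.Agent.S23.H22 (Q q1)
open Fermat.Agent.S28 (coeffRing iotaN)
open Fermat.Agent.RED.H73 (JL)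
open Fermat.Agent.RED.H30
open Fermat.Agent.S24 (Kbar FN jF iotaC)
open Fermat.Agent.S15.H30 (psi psi_apply psi_injective psi_jF)

section Pull

variable {K F E : Type*} [Field K] [Field F] [Field E] [Algebra K F] [Algebra K E]

/-- Integrality over `K[u]` can be tested after an embedding. -/
theorem isIntegral_of_algHom (Ψ : F →ₐ[K] E) (u x : F)
    (h : IsIntegral ↥(Algebra.adjoin K ({Ψ u} : Set E)) (Ψ x)) :
    IsIntegral ↥(Algebra.adjoin K ({u} : Set F)) x := by
  obtain ⟨G', hG'm, hG'r⟩ := h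
  let φ : ↥(Algebra.adjoin K ({u} : Set F)) →+* E :=
    (Ψ : F →+* E).comp (algebraMap ↥(Algebra.adjoin K ({u} : Set F)) F)
  have hle : Algebra.adjoin K ({Ψ u} : Set E) ≤ (Algebra.adjoin K ({u} : Set F)).map Ψ := by
    refine Algebra.adjoin_le ?_
    rintro y hy
    rw [Set.mem_singleton_iff] at hy
    subst hy
    exact ⟨u, Algebra.subset_adjoin (Set.mem_singleton u), rfl⟩
  have hl : G'.map (algebraMap (Algebra.adjoin K ({Ψ u} : Set E)) E) ∈ Polynomial.lifts φ := by
    rw [Polynomial.lifts_iff_coeff_lifts]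
    intro n
    rw [Polynomial.coeff_map]
    obtain ⟨y, hy, hye⟩ := hle (G'.coeff n).2
    exact ⟨⟨y, hy⟩, hye⟩
  obtain ⟨G, hGmap, -, hGm⟩ := Polynomial.lifts_and_natDegree_eq_and_monic hl (hG'm.map _)
  refine ⟨G, hGm, ?_⟩
  apply Ψ.injective
  rw [map_zero]
  have h1 := Polynomial.hom_eval₂ G (algebraMap ↥(Algebra.adjoin K ({u} : Set F)) F)
    (Ψ : F →+* E) x
  have h2 : Polynomial.eval₂ φ (Ψ x) G
      = Polynomial.eval₂ (algebraMap (Algebra.adjoin K ({Ψ u} : Set E)) E) (Ψ x) G' := by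
    rw [← Polynomial.eval_map, hGmap, Polynomial.eval_map]
  have h3 : (Ψ : F →+* E) (Polynomial.eval₂
      (algebraMap ↥(Algebra.adjoin K ({u} : Set F)) F) x G) = 0 := by
    rw [h1]
    exact h2.trans hG'r
  exact h3

end Pull

section Family

variable {N : ℕ} [NeZero N]

/-- **Integrality over `ℚ̄[1/j]` from a family of conjugates with bounded poles.** -/
theorem isIntegral_of_family (y : Q N → LaurentSeries ℂ)
    (hsym : ∀ c₀ : ℂ, (∏ q : Q N, (HahnSeries.C c₀ - y q)) ∈
      Algebra.adjoin ℂ ({iotaN N jq} : Set (LaurentSeries ℂ)))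
    (hco : ∀ q n, (y q).coeff n ∈ coeffRing N)
    (K₀ : ℕ) (hord : ∀ q (n : ℤ), n < -((K₀ : ℤ) * (N : ℤ)) → (y q).coeff n = 0)
    (x : FN N) (c₁ : Kbar)
    (hx : coeffMap iotaC (psi N x) = HahnSeries.C (iotaC c₁) * y (q1 : Q N)) :
    IsIntegral ↥(Algebra.adjoin Kbar ({(jF N)⁻¹} : Set (FN N))) (x * (jF N)⁻¹ ^ K₀) := by
  classical
  have hex : ∀ q, ∃ g : LaurentSeries Kbar, coeffMap iotaC g = y q := fun q =>
    exists_coeffMap_eq iotaC fun n => mem_range_of_mem_coeffRing iotaC N (hco q n)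
  choose g hg using hex
  -- the symmetric functions over `ℚ̄`
  have hsymK : ∀ c : Kbar, (∏ q : Q N, (algebraMap Kbar (LaurentSeries Kbar) c - g q)) ∈
      Algebra.adjoin Kbar ({JL Kbar N} : Set (LaurentSeries Kbar)) := by
    intro c
    refine mem_adjoin_of_coeffMap_mem iotaC _ _ ?_
    have hJ : coeffMap iotaC (JL Kbar N) = iotaN N jq := coeffMap_qExpand_jqModC_one iotaC N
    rw [hJ, map_prod]
    have := hsym (iotaC c)
    convert this using 2
    rename_i q _
    rw [map_sub, LaurentSeries.algebraMap_apply, coeffMap_C, hg]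
  -- the valuations
  have hJord : (JL Kbar N).order < 0 := by
    rw [Fermat.Agent.RED.H73.JL_order]
    have : (0 : ℤ) < N := by exact_mod_cast Nat.pos_of_ne_zero (NeZero.ne N)
    omega
  have hJ1 := Fermat.Agent.S28.H90.one_lt_tVal_of_order_neg hJord
  have hJne : JL Kbar N ≠ 0 := by
    rintro h
    rw [h] at hJord
    simp at hJord
  have hJv : Fermat.Agent.S28.H90.tVal Kbar (JL Kbar N) = WithZero.exp (N : ℤ) := by
    rw [Fermat.Agent.S28.H90.tVal_eq_exp_neg_order hJne, Fermat.Agent.RED.H73.JL_order, neg_neg]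
  have hval : ∀ q, Fermat.Agent.S28.H90.tVal Kbar (g q)
      ≤ Fermat.Agent.S28.H90.tVal Kbar (JL Kbar N) ^ K₀ := by
    intro q
    rw [hJv, ← WithZero.exp_nsmul, nsmul_eq_mul]
    have e : ((K₀ : ℤ) * (N : ℤ)) = -(-((K₀ : ℤ) * (N : ℤ))) := by ring
    rw [e]
    refine (LaurentSeries.valuation_le_iff_coeff_lt_eq_zero Kbar).2 fun n hn => ?_
    apply iotaC.injective
    rw [← coeffMap_coeff, hg, map_zero]
    exact hord q n hn
  have hint := isIntegral_mul_inv_pow (k := Kbar) (E := LaurentSeries Kbar)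
    (Fermat.Agent.S28.H90.tVal Kbar)
    (fun c hc => Fermat.Agent.S28.H90.tVal_algebraMap hc) hJ1 g hsymK K₀ hval (q1 : Q N)
  -- the element `x`
  have hpsi : psi N x = algebraMap Kbar (LaurentSeries Kbar) c₁ * g (q1 : Q N) := by
    apply coeffMap_injective iotaC
    rw [hx, map_mul, LaurentSeries.algebraMap_apply, coeffMap_C, hg]
  refine isIntegral_of_algHom (psi N) _ _ ?_
  rw [map_mul, map_pow, map_inv₀, psi_jF, hpsi, mul_assoc]
  refine IsIntegral.mul ?_ hint
  have : algebraMap Kbar (LaurentSeries Kbar) c₁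
      = algebraMap ↥(Algebra.adjoin Kbar ({(JL Kbar N)⁻¹} : Set (LaurentSeries Kbar)))
          (LaurentSeries Kbar) (algebraMap Kbar _ c₁) := rfl
  rw [this]
  exact isIntegral_algebraMap

end Family

end Fermat.Agent.S36.NU.H82
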