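import Fermat.Agent.S36.NU.H17_TIFin
import Fermat.Agent.S28.H90_Sym
import Fermat.Agent.S28.H73_LemmaA

/-!
# S36 / NU-B, leaf CUSPS (helper82), part 1: integrality over `k[1/J]` from pole orders

`E` a field with a valuation `w` trivial on the subfield `k`, `J ∈ E` with `1 < w J`
(for instance `E = k((t))`, `w` the `t`-adic valuation, `J = j(t^N)`).

* `mul_inv_pow_mem_adjoin_inv` : `f ∈ k[J]`, `w (f J⁻ᵐ) ≤ 1` ⟹ `f J⁻ᵐ ∈ k[J⁻¹]`;
* `scaleRoots_prod_X_sub_C` : `scaleRoots (∏ (X - a_q)) s = ∏ (X - a_q s)`;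
* `isIntegral_mul_inv_pow` : a finite family `y_q` all of whose symmetric functions are polynomials
  in `J` (`∏ (c - y_q) ∈ k[J]` for all constants `c`) and with `w (y_q) ≤ (w J)^K`:
  every `y_q J⁻ᴷ` is integral over `k[J⁻¹]`.
-/

set_option autoImplicit false

noncomputable section

open Polynomial

namespace Fermat.Agent.S36.NU.H82

section PoleBound

variable {k E : Type*} [Field k] [Field E] [Algebra k E]
  {Γ₀ : Type*} [LinearOrderedCommGroupWithZero Γ₀] (w : Valuation E Γ₀)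

/-- `f ∈ k[J]` with `w (f J⁻ᵐ) ≤ 1` (no pole) is a polynomial in `J⁻¹` after division by `Jᵐ`. -/
theorem mul_inv_pow_mem_adjoin_inv (hwk : ∀ c : k, c ≠ 0 → w (algebraMap k E c) = 1)
    {J : E} (hJ : 1 < w J) {f : E} (hf : f ∈ Algebra.adjoin k ({J} : Set E)) (m : ℕ)
    (hle : w (f * J⁻¹ ^ m) ≤ 1) : f * J⁻¹ ^ m ∈ Algebra.adjoin k ({J⁻¹} : Set E) := by
  rw [Algebra.adjoin_singleton_eq_range_aeval] at hf
  obtain ⟨a, ha⟩ := hf
  have ha' : aeval J a = f := ha
  subst ha'
  have hJ0 : J ≠ 0 := by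
    rintro rfl
    rw [map_zero] at hJ
    exact not_lt.2 zero_le_one hJ
  rcases eq_or_ne a 0 with rfl | ha0
  · rw [map_zero, zero_mul]
    exact zero_mem _
  refine Fermat.Agent.S36.NU.H17.aeval_mul_inv_pow_mem hJ0 a ?_
  have hv := Fermat.Agent.S28.H73.valuation_aeval_eq_pow w hwk hJ a ha0
  rw [map_mul, hv, map_pow, map_inv₀] at hle
  have hw0 : w J ≠ 0 := (lt_trans zero_lt_one hJ).ne'
  have h2 : w J ^ a.natDegree ≤ w J ^ m := by
    have h3 := mul_le_mul_left hle (w J ^ m)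
    rwa [mul_assoc, ← mul_pow, inv_mul_cancel₀ hw0, one_pow, mul_one, one_mul] at h3
  exact (pow_le_pow_iff_right₀ hJ).1 h2

end PoleBound

section Scale

variable {L : Type*} [CommRing L] [IsDomain L]

theorem scaleRoots_prod_X_sub_C {ι : Type*} (s : Finset ι) (a : ι → L) (r : L) :
    (∏ i ∈ s, (X - C (a i))).scaleRoots r = ∏ i ∈ s, (X - C (a i * r)) := by
  classical
  induction s using Finset.induction_on with
  | empty => simp
  | insert i s hi ih =>
    rw [Finset.prod_insert hi, Finset.prod_insert hi, mul_scaleRoots_of_noZeroDivisors, ih,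
      X_sub_C_scaleRoots]

end Scale

section Main

variable {k E : Type*} [Field k] [Infinite k] [Field E] [Algebra k E]
  {Γ₀ : Type*} [LinearOrderedCommGroupWithZero Γ₀] (w : Valuation E Γ₀)

/-- **Integrality over `k[1/J]` from the pole orders of the conjugates.** -/
theorem isIntegral_mul_inv_pow (hwk : ∀ c : k, c ≠ 0 → w (algebraMap k E c) = 1)
    {J : E} (hJ : 1 < w J) {Q : Type*} [Fintype Q] (y : Q → E)
    (hsym : ∀ c : k, ∏ q, (algebraMap k E c - y q) ∈ Algebra.adjoin k ({J} : Set E))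
    (K₀ : ℕ) (hy : ∀ q, w (y q) ≤ w J ^ K₀) (q : Q) :
    IsIntegral ↥(Algebra.adjoin k ({J⁻¹} : Set E)) (y q * J⁻¹ ^ K₀) := by
  classical
  have hw0 : w J ≠ 0 := (lt_trans zero_lt_one hJ).ne'
  set chiE : E[X] := ∏ q, (X - C (y q)) with hchi
  have hmon : chiE.Monic := monic_prod_of_monic _ _ fun q _ => monic_X_sub_C (y q)
  have hcoeff : ∀ i, chiE.coeff i ∈ Algebra.adjoin k ({J} : Set E) := by
    intro i
    have := Fermat.Agent.S28.H90.coeff_mem_of_eval_mem (C := k)
      (Subalgebra.toSubmodule (Algebra.adjoin k ({J} : Set E))) chiE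
      (fun c => by
        rw [hchi, eval_prod]
        simp only [eval_sub, eval_X, eval_C]
        exact hsym c) i
    exact this
  set s : E := J⁻¹ ^ K₀ with hs
  have hscale : chiE.scaleRoots s = ∏ q, (X - C (y q * s)) :=
    scaleRoots_prod_X_sub_C Finset.univ y s
  have hys : ∀ q, y q * s ∈ w.integer := by
    intro q
    rw [Valuation.mem_integer_iff, hs, map_mul, map_pow, map_inv₀, inv_pow]
    have h1 := mul_le_mul_left (hy q) ((w J ^ K₀)⁻¹)
    rwa [mul_inv_cancel₀ (pow_ne_zero _ hw0)] at h1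
  have hval : ∀ i, w ((chiE.scaleRoots s).coeff i) ≤ 1 := by
    intro i
    rw [hscale]
    exact Fermat.Agent.S28.H90.coeff_prod_X_sub_C_mem w.integer Finset.univ _
      (fun q _ => hys q) i
  refine Fermat.Agent.S36.NU.H17.isIntegral_of_monic_coeff_mem _ _ (chiE.scaleRoots s)
    ((monic_scaleRoots_iff s).2 hmon) ?_ ?_
  · intro i
    have hc := hval i
    rw [coeff_scaleRoots, hs, ← pow_mul] at hc ⊢
    exact mul_inv_pow_mem_adjoin_inv w hwk hJ (hcoeff i) _ hc
  · rw [hscale, eval_prod]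
    exact Finset.prod_eq_zero (Finset.mem_univ q) (by simp)

end Main

end Fermat.Agent.S36.NU.H82
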