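import Fermat.Agent.S36.NU.H82_CuspEtaQ
import Fermat.Agent.S36.NU.H82_CuspDefs

/-!
# S36 / NU-B, leaf CUSPS (helper82), part 5: `E20∞` is integral over `ℚ̄[1/j]`

* `coeffMap_psi_eps1`, `coeffMap_psi_eps2` : the expansions of `eps1`, `eps2` over `ℂ`;
* `Y20_q1` : the family `Y20` at the identity coset;
* `isIntegral_E20oo` : `E20∞ = eps2 / j^(q (q - 1))` is integral over `ℚ̄[1/j]`.
-/

set_option autoImplicit false
set_option synthInstance.maxHeartbeats 400000
set_option maxHeartbeats 1000000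
set_option linter.unusedSectionVars false
set_option linter.unusedVariables false
set_option linter.style.haveILetI false

open ModularCurve Polynomial

noncomputable section

namespace Fermat.Agent.S36.NU.H82

open Fermat.Agent.S23.H22 (Q q1)
open Fermat.Agent.S28 (coeffRing iotaN)
open Fermat.Agent.S24 (Kbar FN jF iotaC)
open Fermat.Agent.S15.H30 (psi psi_apply psi_injective psi_jF)
open Fermat.Agent.BAD.H88 Fermat.Agent.BAD.H30
open Fermat.Agent.S36.NU.H99 Fermat.Agent.S36.NU.H23 Fermat.Agent.S36.NU.H88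
open Fermat.Agent.S28.H73 Fermat.Agent.RED.H73 Fermat.Agent.RED.H17

section Series

/-- The embedding `ℚ → ℚ̄ → ℂ`. -/
theorem iotaC_comp_algebraMap : iotaC.comp (algebraMap ℚ Kbar) = algebraMap ℚ ℂ :=
  Subsingleton.elim _ _

theorem coeffMap_iotaC_coeffEmb (s : LaurentSeries ℚ) :
    coeffMap iotaC (coeffEmb Kbar s) = coeffMap (algebraMap ℚ ℂ) s := by
  rw [coeffEmb, ModularCurve.coeffMap_coeffMap, iotaC_comp_algebraMap]

variable (q M : ℕ) [NeZero M] [NeZero q] [NeZero (M * q)] [NeZero (M * q * q)]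

/-- The expansion of `eps1 = Δ(τ)/Δ(qτ)`. -/
theorem coe_eps1 :
    ((eps1 q M : FN (M * q * q)) : LaurentSeries Kbar) = coeffEmb Kbar (modularUnitSeries q) := by
  rw [eps1, coe_heckeAlphaBar]
  rfl

/-- The expansion of `eps2 = Δ(qτ)/Δ(q²τ)`. -/
theorem coe_eps2 :
    ((eps2 q M : FN (M * q * q)) : LaurentSeries Kbar)
      = qExpand Kbar q (coeffEmb Kbar (modularUnitSeries q)) := by
  rw [eps2, coe_heckeBetaBar]
  rfl

theorem coeffMap_psi_eps1 :
    coeffMap iotaC (psi (M * q * q) (eps1 q M)) = qExpand ℂ (M * q * q) (UC q) := by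
  rw [psi_apply, coe_eps1, coeffMap_qExp82, coeffMap_iotaC_coeffEmb]
  rfl

theorem coeffMap_psi_eps2 :
    coeffMap iotaC (psi (M * q * q) (eps2 q M))
      = qExpand ℂ (M * q * q) (qExpand ℂ q (UC q)) := by
  rw [psi_apply, coe_eps2, coeffMap_qExp82, coeffMap_qExp82, coeffMap_iotaC_coeffEmb]
  rfl

end Series

section Y20

variable (q M : ℕ) [NeZero q] [NeZero (M * q * q)]

theorem hahnC_natCast_pow_ne_zero (n : ℕ) :
    (HahnSeries.C ((q : ℂ) ^ n) : LaurentSeries ℂ) ≠ 0 := by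
  rw [Ne, map_eq_zero]
  exact pow_ne_zero _ (Nat.cast_ne_zero.mpr (NeZero.ne q))

/-- **The family `Y20` at the identity coset.** -/
theorem Y20_q1 :
    qExpand ℂ (M * q * q) (qExpand ℂ q (UC q))
      = HahnSeries.C ((q : ℂ) ^ 11) * Y20 q M (q1 : Q (M * q * q)) := by
  haveI : NeZero (q * q) := ⟨mul_ne_zero (NeZero.ne q) (NeZero.ne q)⟩
  have hb : qExpand ℂ (M * q * q) (qExpand ℂ (q * q) DeltaC) ≠ 0 := by
    intro h
    exact qExpand_DeltaC_ne_zero (q * q) (qExpand_injective (M * q * q) (by rw [h, map_zero]))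
  have hc := hahnC_natCast_pow_ne_zero q 11
  have e1 : (HahnSeries.C (((q * q : ℕ) : ℂ) ^ 11) : LaurentSeries ℂ)
      = HahnSeries.C ((q : ℂ) ^ 11) * HahnSeries.C ((q : ℂ) ^ 11) := by
    rw [← map_mul]
    congr 1
    push_cast
    ring
  have e2 : qExpand ℂ q (qExpand ℂ q DeltaC) = qExpand ℂ (q * q) DeltaC :=
    qExpand_qExpand (R := ℂ) (N := q) q DeltaC
  rw [Y20, Dc_q1 q M q (dvd_lvl_q q M), Dc_q1 q M (q * q) (dvd_lvl_qq q M), e1, UC_eq, map_mul,
    map_mul, map_inv₀, map_inv₀, e2]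
  field_simp

end Y20

section Int

variable (A : ValuationSubring Kbar)
variable (q M : ℕ) [NeZero M] [NeZero q] [NeZero (M * q)] [NeZero (M * q * q)]

theorem coe_E20oo :
    ((E20oo A q M : ↥(L0 A (M * q * q))) : FN (M * q * q))
      = eps2 q M * (jF (M * q * q))⁻¹ ^ (q * (q - 1)) := rfl

/-- **`E20∞` is integral over `ℚ̄[1/j]`.** -/
theorem isIntegral_E20oo (hq : q.Prime) :
    IsIntegral ↥(Algebra.adjoin Kbar ({(jF (M * q * q))⁻¹} : Set (FN (M * q * q))))
      ((E20oo A q M : ↥(L0 A (M * q * q))) : FN (M * q * q)) := by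
  rw [coe_E20oo]
  refine isIntegral_of_family (Y20 q M) (sym_Y20 q M) (coeff_Y20 q M) (q * (q - 1))
    (ord_Y20 q M hq) (eps2 q M) ((q : Kbar) ^ 11) ?_
  have e : iotaC ((q : Kbar) ^ 11) = (q : ℂ) ^ 11 := by rw [map_pow, map_natCast]
  rw [coeffMap_psi_eps2, Y20_q1, e]

end Int

end Fermat.Agent.S36.NU.H82
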