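import Fermat.Agent.S36.NU.H82_CuspIntOf
import Fermat.Agent.S36.NU.H31_CuspIntE02
import Fermat.Agent.S36.NU.H73_CuspIntB

/-!
# S36 / NU-B, leaf CUSPS (helper82): `Stmt_CuspInt`, unconditional

`E20∞` (helper82), `E02∞` (helper31), `E11∞`, `x11∞` (helper73) are integral over `ℚ̄[1/j]`.
-/

set_option autoImplicit false
set_option synthInstance.maxHeartbeats 400000
set_option maxHeartbeats 1000000
set_option linter.unusedSectionVars false
set_option linter.unusedVariables false
set_option linter.style.haveILetI false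

noncomputable section

namespace Fermat.Agent.S36.NU.H82

open Fermat.Agent.S24 (Kbar FN jF iotaC)

variable (A : ValuationSubring Kbar)
variable (q M : ℕ) [NeZero M] [NeZero q] [NeZero (M * q)] [NeZero (M * q * q)]

/-- **(CUSP-INT)**: `E20∞, E02∞, E11∞, x11∞` are integral over `ℚ̄[1/j]`. -/
theorem stmt_CuspInt (hq : q.Prime) : Stmt_CuspInt A q M :=
  stmt_CuspInt_of A q M hq (Fermat.Agent.S36.NU.H31C.isIntegral_E02oo A q M hq)
    (Fermat.Agent.S36.NU.H73.isIntegral_E11oo A q M hq)
    (Fermat.Agent.S36.NU.H73.isIntegral_x11oo A q M hq)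

end Fermat.Agent.S36.NU.H82
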