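import Fermat.Agent.S36.NU.H82_CuspIntA

/-!
# S36 / NU-B, leaf CUSPS (helper82): `Stmt_CuspInt` from the four integrality statements
-/

set_option autoImplicit false
set_option synthInstance.maxHeartbeats 400000
set_option maxHeartbeats 1000000
set_option linter.unusedSectionVars false
set_option linter.unusedVariables false
set_option linter.style.haveILetI false

open ModularCurve Polynomial

noncomputable section

namespace Fermat.Agent.S36.NU.H82

open Fermat.Agent.S24 (Kbar FN jF iotaC)
open Fermat.Agent.S36.NU.H99 Fermat.Agent.S36.NU.H23 Fermat.Agent.S36.NU.H88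
open Fermat.Agent.S28.H73 Fermat.Agent.RED.H73 Fermat.Agent.RED.H17

variable (A : ValuationSubring Kbar)
variable (q M : ℕ) [NeZero M] [NeZero q] [NeZero (M * q)] [NeZero (M * q * q)]

/-- `Stmt_CuspInt` from the four integrality statements. -/
theorem stmt_CuspInt_of (hq : q.Prime)
    (h02 : IsIntegral ↥(Algebra.adjoin Kbar ({(jF (M * q * q))⁻¹} : Set (FN (M * q * q))))
      ((E02oo A q M : ↥(L0 A (M * q * q))) : FN (M * q * q)))
    (h11 : IsIntegral ↥(Algebra.adjoin Kbar ({(jF (M * q * q))⁻¹} : Set (FN (M * q * q))))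
      ((E11oo A q M : ↥(L0 A (M * q * q))) : FN (M * q * q)))
    (hx : IsIntegral ↥(Algebra.adjoin Kbar ({(jF (M * q * q))⁻¹} : Set (FN (M * q * q))))
      ((x11oo A q M : ↥(L0 A (M * q * q))) : FN (M * q * q))) :
    Stmt_CuspInt A q M := by
  intro x hxm
  rcases hxm with rfl | rfl | rfl | rfl
  · exact isIntegral_E20oo A q M hq
  · exact h02
  · exact h11
  · exact hx

end Fermat.Agent.S36.NU.H82
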