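import Fermat.Agent.S36.NU.H82_CuspDefs
import Fermat.Agent.S36.NU.H88_ChartInt

/-!
# S36 / NU-B, leaf CUSPS (helper82): `Stmt_CuspKur`

Descent of integrality from `ℚ̄[1/j]` to `K^ur[1/j]` for inertia-fixed functions: a corollary of
helper88's `H88.isIntegral_adjoin_L0` (generic in the coordinate).
-/

set_option autoImplicit false
set_option synthInstance.maxHeartbeats 400000
set_option maxHeartbeats 1000000
set_option linter.unusedSectionVars false
set_option linter.style.haveILetI false

noncomputable section

open ModularCurve Polynomial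
open Fermat.Agent.S24 Fermat.Agent.BAD.H88
open Fermat.Agent.S28 Fermat.Agent.S28.H73 Fermat.Agent.RED.H73 Fermat.Agent.RED.H17
open Fermat.Agent.S36.NU.H88 Fermat.Agent.S36.NU.H23 Fermat.Agent.S36.NU.H99

namespace Fermat.Agent.S36.NU.H82

variable (A : ValuationSubring Kbar)
variable (q M : ℕ) [NeZero M] [NeZero q] [NeZero (M * q)] [NeZero (M * q * q)]

/-- The coordinate `u = 1 / j` as a function of level `N`. -/
theorem coe_uoo : ((uoo A q M : ↥(L0 A (M * q * q))) : FN (M * q * q))
    = (jF (M * q * q))⁻¹ := rfl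

/-- **(CUSP-KUR)**. -/
theorem stmt_CuspKur : Stmt_CuspKur A q M := by
  intro x hx
  refine isIntegral_adjoin_L0 A (M * q * q) (uoo A q M) x ?_
  rw [coe_uoo]
  exact hx

end Fermat.Agent.S36.NU.H82
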