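import Fermat.Agent.S36.NU.H86_CuspRedFinal
import Fermat.Agent.S36.NU.H88_ChartMod

/-!
# S36 / NU-B, leaf CUSPS (helper82): the cross valuations of the elements of the chart at infinity

`E20∞, E02∞, E11∞` are divisible by `q` at the two other valuations; `x11∞`, `W2∞` lie in `V₂₀`
and `V₀₂`.
-/

set_option autoImplicit false
set_option synthInstance.maxHeartbeats 400000
set_option maxHeartbeats 1000000
set_option linter.unusedSectionVars false
set_option linter.unusedVariables false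
set_option linter.style.haveILetI false

noncomputable section

open ModularCurve Polynomial
open Fermat.Agent.S24 Fermat.Agent.BAD.H88
open Fermat.Agent.S28 Fermat.Agent.S28.H73 Fermat.Agent.RED.H73 Fermat.Agent.RED.H17
open Fermat.Agent.S36.NU.H88 Fermat.Agent.S36.NU.H23 Fermat.Agent.S36.NU.H99

namespace Fermat.Agent.S36.NU.H82

section Gen

variable {F : Type*} [Field F] (V : ValuationSubring F) (c : F)

/-- Divisibility by `c` is stable under multiplication by elements of `V`. -/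
theorem div_mul_of_mem {x y : F} (h : ∃ f' ∈ V, x = c * f') (hy : y ∈ V) :
    ∃ f' ∈ V, x * y = c * f' := by
  obtain ⟨f', hf', rfl⟩ := h
  exact ⟨f' * y, mul_mem hf' hy, by ring⟩

/-- Divisibility by `c ∈ V` is stable under positive powers. -/
theorem div_pow_of_mem {x : F} (hc : c ∈ V) (h : ∃ f' ∈ V, x = c * f') (n : ℕ) (hn : 0 < n) :
    ∃ f' ∈ V, x ^ n = c * f' := by
  obtain ⟨f', hf', rfl⟩ := h
  obtain ⟨m, rfl⟩ := Nat.exists_eq_succ_of_ne_zero hn.ne'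
  refine ⟨c ^ m * f' ^ (m + 1), mul_mem (pow_mem hc m) (pow_mem hf' _), ?_⟩
  rw [Nat.succ_eq_add_one]
  ring

theorem mem_of_div {x : F} (hc : c ∈ V) (h : ∃ f' ∈ V, x = c * f') : x ∈ V := by
  obtain ⟨f', hf', rfl⟩ := h
  exact mul_mem hc hf'

end Gen

section XVal

variable (A : ValuationSubring Kbar)
variable (q M : ℕ) (B k : ℤ) (hB : B * M + k * q = 1) (hq : q.Prime) [NeZero M] [NeZero q]
  [NeZero (M * q)] [NeZero (M * q * q)]

theorem natCast_mem_V (V : ValuationSubring ↥(L0 A (M * q * q))) (n : ℕ) :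
    ((n : ℕ) : ↥(L0 A (M * q * q))) ∈ V := natCast_mem V n

theorem j2o_eq_jdd : j2o A q M = jdd A q M := rfl

/-! ### `E20∞` -/

include hq in
theorem E20oo_div_mem11 (hA : (q : Kbar) ∈ A) :
    ∃ f' ∈ V11o A q M B k hB hq, E20oo A q M = ((q : ℕ) : ↥(L0 A (M * q * q))) * f' :=
  div_mul_of_mem _ _ (E20o_div_mem11 A q M B k hB hq hA)
    (pow_mem (H86.uoo_mem11 A q M B k hB hq) _)

include hq in
theorem E20oo_div_mem02 (hA : (q : Kbar) ∈ A) :
    ∃ f' ∈ V02o A q M B k hB, E20oo A q M = ((q : ℕ) : ↥(L0 A (M * q * q))) * f' :=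
  div_mul_of_mem _ _ (E20o_div_mem02 A q M B k hB hq hA)
    (pow_mem (H86.uoo_mem02 A q M B k hB) _)

/-! ### `E02∞` -/

include hq in
theorem E02oo_div_mem20 (hA : (q : Kbar) ∈ A) :
    ∃ f' ∈ V20o A q M, E02oo A q M = ((q : ℕ) : ↥(L0 A (M * q * q))) * f' :=
  div_mul_of_mem _ _
    (div_pow_of_mem _ _ (natCast_mem_V A q M _ q) (E02o_div_mem20 A q M hA) q hq.pos)
    (pow_mem (H86.uoo_mem20 A q M) _)

include hq in
theorem E02oo_div_mem11 (hA : (q : Kbar) ∈ A) :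
    ∃ f' ∈ V11o A q M B k hB hq, E02oo A q M = ((q : ℕ) : ↥(L0 A (M * q * q))) * f' :=
  div_mul_of_mem _ _
    (div_pow_of_mem _ _ (natCast_mem_V A q M _ q) (E02o_div_mem11 A q M B k hB hq hA) q hq.pos)
    (pow_mem (H86.uoo_mem11 A q M B k hB hq) _)

/-! ### `E11∞` -/

theorem E11oo_div_mem20 (hA : (q : Kbar) ∈ A) :
    ∃ f' ∈ V20o A q M, E11oo A q M = ((q : ℕ) : ↥(L0 A (M * q * q))) * f' :=
  div_mul_of_mem _ _ (E11o_div_mem20 A q M hA) (pow_mem (H86.uoo_mem20 A q M) _)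

include hq in
theorem E11oo_div_mem02 (hA : (q : Kbar) ∈ A) :
    ∃ f' ∈ V02o A q M B k hB, E11oo A q M = ((q : ℕ) : ↥(L0 A (M * q * q))) * f' :=
  div_mul_of_mem _ _ (E11o_div_mem02 A q M B k hB hq hA)
    (pow_mem (H86.uoo_mem02 A q M B k hB) _)

theorem E11oo_sq_div_mem20 (hA : (q : Kbar) ∈ A) :
    ∃ f' ∈ V20o A q M, E11oo A q M ^ 2 = ((q : ℕ) : ↥(L0 A (M * q * q))) * f' :=
  div_pow_of_mem _ _ (natCast_mem_V A q M _ q) (E11oo_div_mem20 A q M hA) 2 two_pos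

include hq in
theorem E11oo_sq_div_mem02 (hA : (q : Kbar) ∈ A) :
    ∃ f' ∈ V02o A q M B k hB, E11oo A q M ^ 2 = ((q : ℕ) : ↥(L0 A (M * q * q))) * f' :=
  div_pow_of_mem _ _ (natCast_mem_V A q M _ q) (E11oo_div_mem02 A q M B k hB hq hA) 2 two_pos

theorem E11oo_mem20 (hA : (q : Kbar) ∈ A) : E11oo A q M ∈ V20o A q M :=
  mem_of_div _ _ (natCast_mem_V A q M _ q) (E11oo_div_mem20 A q M hA)

include hq in
theorem E11oo_mem02 (hA : (q : Kbar) ∈ A) : E11oo A q M ∈ V02o A q M B k hB :=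
  mem_of_div _ _ (natCast_mem_V A q M _ q) (E11oo_div_mem02 A q M B k hB hq hA)

include hq in
theorem E20oo_mem11 (hA : (q : Kbar) ∈ A) : E20oo A q M ∈ V11o A q M B k hB hq :=
  mem_of_div _ _ (natCast_mem_V A q M _ q) (E20oo_div_mem11 A q M B k hB hq hA)

include hq in
theorem E20oo_mem02 (hA : (q : Kbar) ∈ A) : E20oo A q M ∈ V02o A q M B k hB :=
  mem_of_div _ _ (natCast_mem_V A q M _ q) (E20oo_div_mem02 A q M B k hB hq hA)

include hq in
theorem E02oo_mem20 (hA : (q : Kbar) ∈ A) : E02oo A q M ∈ V20o A q M :=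
  mem_of_div _ _ (natCast_mem_V A q M _ q) (E02oo_div_mem20 A q M hq hA)

include hq in
theorem E02oo_mem11 (hA : (q : Kbar) ∈ A) : E02oo A q M ∈ V11o A q M B k hB hq :=
  mem_of_div _ _ (natCast_mem_V A q M _ q) (E02oo_div_mem11 A q M B k hB hq hA)

/-! ### `x11∞` -/

theorem x11oo_mem20 (hA : (q : Kbar) ∈ A) : x11oo A q M ∈ V20o A q M :=
  mul_mem (sub_mem (mul_mem (jdd_mem20 A q M) (H86.uoo_mem20 A q M)) (one_mem _))
    (E11oo_mem20 A q M hA)

include hq in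
theorem x11oo_mem02 (hA : (q : Kbar) ∈ A) : x11oo A q M ∈ V02o A q M B k hB :=
  mul_mem (sub_mem (mul_mem (jdd_mem02 A q M B k hB hq) (H86.uoo_mem02 A q M B k hB))
    (one_mem _)) (E11oo_mem02 A q M B k hB hq hA)

include hq in
theorem x11oo_mem11 (hA : A.LiesOverPrime q) : x11oo A q M ∈ V11o A q M B k hB hq :=
  ((V11o A q M B k hB hq).mem_nonunits_iff_exists_mem_maximalIdeal.1
    (H86.x11oo_mem_nonunits A q M B k hB hq hA)).1

/-! ### `W2∞` -/

theorem W2oo_eq_of {V : ValuationSubring ↥(L0 A (M * q * q))} {f' : ↥(L0 A (M * q * q))}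
    (h : E11oo A q M ^ 2 = ((q : ℕ) : ↥(L0 A (M * q * q))) * f') :
    W2oo A q M = x11oo A q M ^ (q - 1) * f' := by
  have hq0 : ((q : ℕ) : ↥(L0 A (M * q * q))) ≠ 0 := Nat.cast_ne_zero.2 (NeZero.ne q)
  rw [W2oo, h]
  field_simp

theorem W2oo_mem20 (hA : (q : Kbar) ∈ A) : W2oo A q M ∈ V20o A q M := by
  obtain ⟨f', hf', h⟩ := E11oo_sq_div_mem20 A q M hA
  rw [W2oo_eq_of A q M (V := V20o A q M) h]
  exact mul_mem (pow_mem (x11oo_mem20 A q M hA) _) hf'

include hq in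
theorem W2oo_mem02 (hA : (q : Kbar) ∈ A) : W2oo A q M ∈ V02o A q M B k hB := by
  obtain ⟨f', hf', h⟩ := E11oo_sq_div_mem02 A q M B k hB hq hA
  rw [W2oo_eq_of A q M (V := V02o A q M B k hB) h]
  exact mul_mem (pow_mem (x11oo_mem02 A q M B k hB hq hA) _) hf'

end XVal

end Fermat.Agent.S36.NU.H82
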