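import Fermat.Agent.S36.NU.H82_Val0

/-!
# S36 / NU-B (helper82): DESCENT, the inertia-fixed functions are `K^ur(j_d : d ∣ N)`

`A` a valuation ring of `Q̄`, `I` its inertia group, `K^ur = Q̄^I`.

* `mem_closure_of_coeff_mem` (abstract): a series with coefficients in a subfield `K₀ ⊆ C` which
  is a quotient of two elements of `C[S₀]`, `S₀` a set of series with integer coefficients, lies
  in the subfield generated by `K₀` and `S₀` (apply a `K₀`-linear form coefficientwise);
* `gensL0 A N` : the constants fixed by inertia and the `j_d`, `d ∣ N`;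
* `L0_eq_closure : L0 A N = Subfield.closure (gensL0 A N)`.
-/

set_option autoImplicit false
set_option synthInstance.maxHeartbeats 400000
set_option maxHeartbeats 1000000
set_option linter.unusedSectionVars false
set_option linter.style.haveILetI false

noncomputable section

open ModularCurve Fermat.Agent.S24 Fermat.Agent.S28 Fermat.Agent.S28.H73 Fermat.Agent.RED.H73
open Fermat.Agent.BAD.H88 Fermat.Agent.S36.NU.H88 Fermat.Agent.S36.NU.H23

namespace Fermat.Agent.S36.NU.H82

section DescentAbs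

variable {C : Type} [Field C]

theorem map_C_mul_of_mem_intSeries (φ : C →+ C) (c : C) {y : LaurentSeries C}
    (hy : y ∈ intSeries C) :
    (HahnSeries.C c * y).map φ = HahnSeries.C (φ c) * y := by
  obtain ⟨m, rfl⟩ := hy
  ext k
  rw [HahnSeries.map_coeff, HahnSeries.C_mul_eq_smul, HahnSeries.coeff_smul,
    HahnSeries.C_mul_eq_smul, HahnSeries.coeff_smul, smul_eq_mul, smul_eq_mul, coeffMap_coeff]
  show φ (c * ((m.coeff k : ℤ) : C)) = φ c * ((m.coeff k : ℤ) : C)
  have h1 : c * ((m.coeff k : ℤ) : C) = (m.coeff k) • c := by rw [zsmul_eq_mul, mul_comm]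
  have h2 : φ c * ((m.coeff k : ℤ) : C) = (m.coeff k) • φ c := by rw [zsmul_eq_mul, mul_comm]
  rw [h1, h2, map_zsmul]

theorem hahn_map_add (φ : C →+ C) (a b : LaurentSeries C) :
    (a + b).map φ = a.map φ + b.map φ := by
  ext k
  rw [HahnSeries.map_coeff, HahnSeries.coeff_add, HahnSeries.coeff_add, map_add,
    HahnSeries.map_coeff, HahnSeries.map_coeff]

theorem hahn_map_zero (φ : C →+ C) : (0 : LaurentSeries C).map φ = 0 := by
  ext k
  rw [HahnSeries.map_coeff, HahnSeries.coeff_zero, map_zero]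

/-- A form with values in `K₀`, applied coefficientwise to an element of `C[S₀]`, gives an
element of the field generated by `K₀` and `S₀`. -/
theorem map_mem_closure (K₀ : Subfield C) (φ : C →+ C) (hφmem : ∀ c, φ c ∈ K₀)
    (S₀ : Set (LaurentSeries C)) (hS₀ : S₀ ⊆ (intSeries C : Set (LaurentSeries C)))
    {a : LaurentSeries C} (ha : a ∈ Algebra.adjoin C S₀) :
    a.map φ ∈ Subfield.closure ((HahnSeries.C '' (K₀ : Set C)) ∪ S₀) := by
  have hmon : ∀ y ∈ Submonoid.closure S₀,
      y ∈ Subfield.closure ((HahnSeries.C '' (K₀ : Set C)) ∪ S₀) ∧ y ∈ intSeries C := by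
    intro y hy
    induction hy using Submonoid.closure_induction with
    | mem y hy => exact ⟨Subfield.subset_closure (Or.inr hy), hS₀ hy⟩
    | one => exact ⟨one_mem _, one_mem _⟩
    | mul y z _ _ hy hz => exact ⟨mul_mem hy.1 hz.1, mul_mem hy.2 hz.2⟩
  have key : ∀ a ∈ Subalgebra.toSubmodule (Algebra.adjoin C S₀),
      ∀ c : C, (HahnSeries.C c * a).map φ
        ∈ Subfield.closure ((HahnSeries.C '' (K₀ : Set C)) ∪ S₀) := by
    intro a ha
    rw [Algebra.adjoin_eq_span] at ha
    induction ha using Submodule.span_induction with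
    | mem y hy =>
      intro c
      rw [map_C_mul_of_mem_intSeries φ c (hmon y hy).2]
      exact mul_mem (Subfield.subset_closure (Or.inl ⟨φ c, hφmem c, rfl⟩)) (hmon y hy).1
    | zero =>
      intro c
      rw [mul_zero, hahn_map_zero]
      exact zero_mem _
    | add a b _ _ ha hb =>
      intro c
      rw [mul_add, hahn_map_add]
      exact add_mem (ha c) (hb c)
    | smul d a _ ha =>
      intro c
      rw [Algebra.smul_def, algebraMap_laurentSeries_eq_single]
      have e : HahnSeries.C c * (HahnSeries.single 0 d * a) = HahnSeries.C (c * d) * a := by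
        rw [← mul_assoc, map_mul]
        rfl
      rw [e]
      exact ha (c * d)
  have h2 := key a ha 1
  rwa [map_one, one_mul] at h2

/-- **Descent.**  A series with coefficients in `K₀` which is a quotient of two elements of
`C[S₀]` lies in the field generated by `K₀` and `S₀`. -/
theorem mem_closure_of_coeff_mem (K₀ : Subfield C) (S₀ : Set (LaurentSeries C))
    (hS₀ : S₀ ⊆ (intSeries C : Set (LaurentSeries C)))
    {x a b : LaurentSeries C} (hx : ∀ n, x.coeff n ∈ K₀)
    (ha : a ∈ Algebra.adjoin C S₀) (hb : b ∈ Algebra.adjoin C S₀) (hb0 : b ≠ 0)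
    (hxb : x * b = a) :
    x ∈ Subfield.closure ((HahnSeries.C '' (K₀ : Set C)) ∪ S₀) := by
  classical
  obtain ⟨n₀, hn₀⟩ : ∃ n, b.coeff n ≠ 0 := by
    by_contra hcon
    apply hb0
    ext n
    by_contra hn
    exact hcon ⟨n, hn⟩
  obtain ⟨ψ, hψ⟩ : ∃ ψ : Module.Dual ↥K₀ C, ψ (b.coeff n₀) ≠ 0 := by
    by_contra hcon
    apply hn₀
    rw [← Module.forall_dual_apply_eq_zero_iff (↥K₀)]
    intro ψ
    by_contra h
    exact hcon ⟨ψ, h⟩
  let φ : C →+ C := (K₀.subtype : ↥K₀ →+ C).comp ψ.toAddMonoidHom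
  have hφ : ∀ k ∈ K₀, ∀ c, φ (k * c) = k * φ c := by
    intro k hk c
    show ((ψ (k * c) : ↥K₀) : C) = k * ((ψ c : ↥K₀) : C)
    have : ψ ((⟨k, hk⟩ : ↥K₀) • c) = (⟨k, hk⟩ : ↥K₀) • ψ c := map_smul ψ _ _
    have h2 : (⟨k, hk⟩ : ↥K₀) • c = k * c := rfl
    rw [h2] at this
    rw [this]
    rfl
  have hφmem : ∀ c, φ c ∈ K₀ := fun c => (ψ c).2
  have hb'0 : b.map φ ≠ 0 := by
    intro h0
    apply hψ
    have := congrArg (fun s : LaurentSeries C => s.coeff n₀) h0
    simp only [HahnSeries.map_coeff, HahnSeries.coeff_zero] at this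
    exact Subtype.ext this
  have hxb' : x * b.map φ = a.map φ := by
    rw [← map_mul_of_coeff_mem K₀ φ hφ x b hx, hxb]
  have e : x = a.map φ / b.map φ := eq_div_of_mul_eq hb'0 hxb'
  rw [e]
  exact div_mem (map_mem_closure K₀ φ hφmem S₀ hS₀ ha) (map_mem_closure K₀ φ hφmem S₀ hS₀ hb)

end DescentAbs

/-! ## The modular function fields -/

section Modular

variable (A : ValuationSubring Kbar) (N : ℕ) [NeZero N]

/-- The generators of `L₀`: the constants fixed by inertia and the `j_d`, `d ∣ N`. -/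
def gensL0 : Set (FN N) :=
  (algebraMap Kbar (FN N)) '' {c | ∀ σ ∈ A.inertiaSubgroupIn ℚ, σ c = c}
    ∪ {x | ∃ (d : ℕ) (_ : NeZero d) (hd : d ∣ N), x = jdF N d hd}

theorem gensL0_subset : gensL0 A N ⊆ (L0 A N : Set (FN N)) := by
  rintro x (⟨c, hc, rfl⟩ | ⟨d, hd0, hd, rfl⟩)
  · exact (const_mem_L0_iff A c).2 hc
  · exact jdF_mem_L0 A N d hd

omit [NeZero N] in
theorem divisorExpansionsC_subset_intSeries :
    divisorExpansionsC Kbar N ⊆ (intSeries Kbar : Set (LaurentSeries Kbar)) := by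
  rintro x ⟨d, hd, -, rfl⟩
  exact qExpand_jqModC_mem_intSeries d

omit [NeZero N] in
/-- Every function of level `N` is a quotient of two polynomials in the `j_d`. -/
theorem exists_adjoin_frac (x : FN N) :
    ∃ a b : LaurentSeries Kbar, a ∈ Algebra.adjoin Kbar (divisorExpansionsC Kbar N) ∧
      b ∈ Algebra.adjoin Kbar (divisorExpansionsC Kbar N) ∧ b ≠ 0 ∧
      (x : LaurentSeries Kbar) * b = a := by
  have hx : (x : LaurentSeries Kbar) ∈ modularFunctionFieldFullC Kbar N := by
    rw [← laurentBaseChange_full_eq]; exact x.2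
  rw [modularFunctionFieldFullC] at hx
  obtain ⟨a, ha, b, hb, hab⟩ := IntermediateField.mem_adjoin_iff_div.1 hx
  by_cases hb0 : b = 0
  · refine ⟨0, 1, zero_mem _, one_mem _, one_ne_zero, ?_⟩
    rw [hab, hb0, div_zero, zero_mul]
  · refine ⟨a, b, ha, hb, hb0, ?_⟩
    rw [hab, div_mul_cancel₀ _ hb0]

/-- **DESCENT**: the inertia-fixed functions of level `N` are generated, as a field, by the
inertia-fixed constants and the `j_d`, `d ∣ N`. -/
theorem L0_eq_closure : L0 A N = Subfield.closure (gensL0 A N) := by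
  apply le_antisymm
  · intro x hx
    obtain ⟨a, b, ha, hb, hb0, hab⟩ := exists_adjoin_frac N x
    have h1 := mem_closure_of_coeff_mem (Kur A) (divisorExpansionsC Kbar N)
      (divisorExpansionsC_subset_intSeries N) (coeff_mem_Kur A hx) ha hb hb0 hab
    -- transfer to `F_N`
    let ι : FN N →+* LaurentSeries Kbar := (modularFunctionFieldBar N).val.toRingHom
    have hsub : (HahnSeries.C '' ((Kur A : Subfield Kbar) : Set Kbar)) ∪ divisorExpansionsC Kbar N
        ⊆ ι '' gensL0 A N := by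
      rintro y (⟨c, hc, rfl⟩ | ⟨d, hd0, hd, rfl⟩)
      · exact ⟨algebraMap Kbar (FN N) c, Or.inl ⟨c, hc, rfl⟩, coe_algebraMap_F (F := modularFunctionFieldBar N) c⟩
      · exact ⟨jdF N d hd, Or.inr ⟨d, hd0, hd, rfl⟩, Fermat.Agent.BAD.H82.coe_jdF N d hd⟩
    have h2 : (x : LaurentSeries Kbar) ∈ Subfield.closure (ι '' gensL0 A N) :=
      Subfield.closure_mono hsub h1
    rw [← RingHom.map_field_closure] at h2
    obtain ⟨y, hy, hyx⟩ := h2
    have : y = x := Subtype.ext hyx
    rw [← this]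
    exact hy
  · exact Subfield.closure_le.2 (gensL0_subset A N)

theorem mem_L0_iff_mem_closure (x : FN N) : x ∈ L0 A N ↔ x ∈ Subfield.closure (gensL0 A N) := by
  rw [L0_eq_closure]

/-- A subfield of `F_N` containing the inertia-fixed constants and the `j_d` contains `L₀`. -/
theorem L0_le_of_gens (S : Subfield (FN N))
    (hc : ∀ c : Kbar, (∀ σ ∈ A.inertiaSubgroupIn ℚ, σ c = c) → algebraMap Kbar (FN N) c ∈ S)
    (hj : ∀ (d : ℕ) (_ : NeZero d) (hd : d ∣ N), jdF N d hd ∈ S) : L0 A N ≤ S := by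
  rw [L0_eq_closure, Subfield.closure_le]
  rintro x (⟨c, hc', rfl⟩ | ⟨d, hd0, hd, rfl⟩)
  · exact hc c hc'
  · exact hj d hd0 hd

/-- **DESCENT, intrinsic form**: a subfield of `L₀` containing the inertia-fixed constants and
the `j_d` is everything (`L₀ = K^ur(j_d : d ∣ N)`). -/
theorem subfield_L0_eq_top (S : Subfield ↥(L0 A N))
    (hc : ∀ (c : Kbar) (h : ∀ σ ∈ A.inertiaSubgroupIn ℚ, σ c = c),
      (⟨algebraMap Kbar (FN N) c, (const_mem_L0_iff A c).2 h⟩ : ↥(L0 A N)) ∈ S)
    (hj : ∀ (d : ℕ) (_ : NeZero d) (hd : d ∣ N),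
      (⟨jdF N d hd, jdF_mem_L0 A N d hd⟩ : ↥(L0 A N)) ∈ S) : S = ⊤ := by
  rw [eq_top_iff]
  intro x _
  have h1 : L0 A N ≤ S.map (L0 A N).subtype := by
    apply L0_le_of_gens
    · intro c h
      exact ⟨_, hc c h, rfl⟩
    · intro d hd0 hd
      exact ⟨_, hj d hd0 hd, rfl⟩
  obtain ⟨y, hy, hyx⟩ := h1 x.2
  have : y = x := Subtype.ext hyx
  rw [← this]
  exact hy

end Modular

end Fermat.Agent.S36.NU.H82
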