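import Fermat.Agent.BAD.H30_UnitGaussSS

/-!
# S36 / NU-B, leaf CUSPS, reduction half, part 1 (helper86): the supersingular polynomial is monic

`K` a field of characteristic `q`, `j~ = jqModC K`, `Δ~ = deltaR K`.

* `hasse_monic` : a polynomial `H` with `H(j~) = (Δ~ ^ n)⁻¹` is monic of degree `n` (orders in `t`);
* `exists_hasse_poly` : the supersingular polynomial `H` (`H(j~) = Δ~^{1-q}`), monic of degree
  `q - 1`, for every prime `q` (`q ≥ 5`: helper21's `H21_supersingular_jq`; `q = 2, 3`: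
  `H = X ^ (q - 1)`);
* `exists_rev_poly` : `P = ` the reverse of `H`: `P(0) = 1`, `P(1/j~) = Δ~^{1-q} (1/j~)^{q-1}`;
* `aeval_pow_iterateFrobenius` : `P(x) ^ (q ^ n) = P^{(φⁿ)}(x ^ (q ^ n))`.
-/

set_option autoImplicit false
set_option linter.style.haveILetI false
set_option linter.unusedSectionVars false

noncomputable section

open Polynomial ModularCurve

namespace Fermat.Agent.S36.NU.H86

open Fermat.Agent.BAD.H30 Fermat.Agent.BAD.H21

section Alg

variable (K : Type) [Field K]

theorem coeff_smul_laurent (c : K) (x : LaurentSeries K) (m : ℤ) :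
    (algebraMap K (LaurentSeries K) c * x).coeff m = c * x.coeff m := by
  have h1 : algebraMap K (PowerSeries K) c = PowerSeries.C c := by simp
  rw [HahnSeries.algebraMap_apply', h1, HahnSeries.ofPowerSeries_C,
    HahnSeries.C_mul_eq_smul, HahnSeries.coeff_smul, smul_eq_mul]

/-- The coefficients of `H(j~)` below `- deg H` vanish. -/
theorem coeff_aeval_jqModC_of_lt (H : K[X]) {m : ℤ} (hm : m < -(H.natDegree : ℤ)) :
    (aeval (jqModC K) H).coeff m = 0 := by
  rw [aeval_eq_sum_range, HahnSeries.coeff_sum]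
  apply Finset.sum_eq_zero
  intro i hi
  have hi' := Finset.mem_range.1 hi
  rw [Algebra.smul_def, coeff_smul_laurent,
    P2MW.S_ModularCurve_coeff_jqModC_neg_one.ModularCurve.CharLRows.coeff_jqModC_pow_of_lt K
      (by omega), mul_zero]

/-- The coefficient of `H(j~)` at `- deg H` is the leading coefficient of `H`. -/
theorem coeff_aeval_jqModC_natDegree (H : K[X]) :
    (aeval (jqModC K) H).coeff (-(H.natDegree : ℤ)) = H.leadingCoeff := by
  rw [aeval_eq_sum_range, HahnSeries.coeff_sum, Finset.sum_eq_single H.natDegree]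
  · rw [Algebra.smul_def, coeff_smul_laurent,
      P2MW.S_ModularCurve_coeff_jqModC_neg_one.ModularCurve.CharLRows.coeff_jqModC_pow_self,
      mul_one]
    rfl
  · intro i hi hne
    have hi' := Finset.mem_range.1 hi
    rw [Algebra.smul_def, coeff_smul_laurent,
      P2MW.S_ModularCurve_coeff_jqModC_neg_one.ModularCurve.CharLRows.coeff_jqModC_pow_of_lt K
        (by omega), mul_zero]
  · intro h
    exact absurd (Finset.mem_range.2 (Nat.lt_succ_self _)) h

/-- A series is monic of order `m`. -/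
def MonicOrd (f : LaurentSeries K) (m : ℤ) : Prop :=
  f.coeff m = 1 ∧ ∀ k : ℤ, k < m → f.coeff k = 0

variable {K}

theorem MonicOrd.ne_zero {f : LaurentSeries K} {m : ℤ} (h : MonicOrd K f m) : f ≠ 0 := by
  intro h0
  have := h.1
  rw [h0, HahnSeries.coeff_zero] at this
  exact zero_ne_one this

theorem MonicOrd.order_eq {f : LaurentSeries K} {m : ℤ} (h : MonicOrd K f m) : f.order = m := by
  have hne : f.coeff m ≠ 0 := by rw [h.1]; exact one_ne_zero
  refine le_antisymm (HahnSeries.order_le_of_coeff_ne_zero hne) ?_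
  by_contra hlt
  rw [not_le] at hlt
  exact h.ne_zero (HahnSeries.coeff_order_eq_zero.mp (h.2 _ hlt))

theorem MonicOrd.leadingCoeff_eq {f : LaurentSeries K} {m : ℤ} (h : MonicOrd K f m) :
    f.leadingCoeff = 1 := by
  rw [HahnSeries.leadingCoeff_eq, h.order_eq, h.1]

theorem monicOrd_of_order {f : LaurentSeries K} {m : ℤ} (ho : f.order = m)
    (hl : f.leadingCoeff = 1) : MonicOrd K f m := by
  refine ⟨?_, fun k hk => HahnSeries.coeff_eq_zero_of_lt_order (ho ▸ hk)⟩
  rw [HahnSeries.leadingCoeff_eq, ho] at hl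
  exact hl

theorem MonicOrd.mul {f g : LaurentSeries K} {m n : ℤ} (hf : MonicOrd K f m)
    (hg : MonicOrd K g n) : MonicOrd K (f * g) (m + n) := by
  have h1 : f.leadingCoeff * g.leadingCoeff ≠ 0 := by
    rw [hf.leadingCoeff_eq, hg.leadingCoeff_eq, one_mul]
    exact one_ne_zero
  apply monicOrd_of_order
  · rw [HahnSeries.order_mul_of_ne_zero h1, hf.order_eq, hg.order_eq]
  · rw [HahnSeries.leadingCoeff_mul_of_ne_zero h1, hf.leadingCoeff_eq, hg.leadingCoeff_eq,
      one_mul]

theorem monicOrd_one : MonicOrd K (1 : LaurentSeries K) 0 :=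
  monicOrd_of_order HahnSeries.order_one HahnSeries.leadingCoeff_one

theorem MonicOrd.pow {f : LaurentSeries K} {m : ℤ} (hf : MonicOrd K f m) (n : ℕ) :
    MonicOrd K (f ^ n) ((n : ℤ) * m) := by
  induction n with
  | zero =>
    rw [pow_zero, Nat.cast_zero, zero_mul]
    exact monicOrd_one
  | succ n ih =>
    rw [pow_succ]
    have := ih.mul hf
    have e : (n : ℤ) * m + m = ((n + 1 : ℕ) : ℤ) * m := by push_cast; ring
    rw [e] at this
    exact this

theorem MonicOrd.of_mul_right {f g : LaurentSeries K} {k n : ℤ} (hfg : MonicOrd K (f * g) k)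
    (hg : MonicOrd K g n) : MonicOrd K f (k - n) := by
  have hlc : f.leadingCoeff = 1 := by
    have h := HahnSeries.leadingCoeff_mul f g
    rw [hfg.leadingCoeff_eq, hg.leadingCoeff_eq, mul_one] at h
    exact h.symm
  have h1 : f.leadingCoeff * g.leadingCoeff ≠ 0 := by
    rw [hlc, hg.leadingCoeff_eq, one_mul]
    exact one_ne_zero
  apply monicOrd_of_order _ hlc
  have h := HahnSeries.order_mul_of_ne_zero h1
  rw [hfg.order_eq, hg.order_eq] at h
  omega

variable (K)

/-- `Δ~` is monic of order `1`. -/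
theorem monicOrd_deltaR : MonicOrd K (deltaR K) 1 := by
  refine ⟨deltaR_coeff_one K, fun k hk => ?_⟩
  rw [deltaR, HahnSeries.coeff_single_mul, one_mul]
  exact ofPowerSeries_coeff_of_neg _ (by omega)

/-- `(Δ~ ^ n)⁻¹` is monic of order `- n`. -/
theorem monicOrd_inv_deltaR_pow (n : ℕ) : MonicOrd K ((deltaR K ^ n)⁻¹) (-(n : ℤ)) := by
  have hp := (monicOrd_deltaR K).pow n
  rw [mul_one] at hp
  have h1 : MonicOrd K ((deltaR K ^ n)⁻¹ * deltaR K ^ n) 0 := by
    rw [inv_mul_cancel₀ hp.ne_zero]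
    exact monicOrd_one
  have := h1.of_mul_right hp
  rwa [zero_sub] at this

/-- **A polynomial `H` with `H(j~) = (Δ~ ^ n)⁻¹` is monic of degree `n`.** -/
theorem hasse_monic (n : ℕ) (H : K[X]) (hH : aeval (jqModC K) H = (deltaR K ^ n)⁻¹) :
    H.natDegree = n ∧ H.Monic := by
  have hD := monicOrd_inv_deltaR_pow K n
  have hH0 : H ≠ 0 := by
    rintro rfl
    rw [map_zero] at hH
    exact hD.ne_zero hH.symm
  have hlc : H.leadingCoeff ≠ 0 := leadingCoeff_ne_zero.2 hH0
  have hdeg : H.natDegree = n := by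
    rcases lt_trichotomy H.natDegree n with h | h | h
    · exfalso
      have h1 := hD.1
      rw [← hH, coeff_aeval_jqModC_of_lt K H (by omega)] at h1
      exact zero_ne_one h1
    · exact h
    · exfalso
      have h1 := hD.2 (-(H.natDegree : ℤ)) (by omega)
      rw [← hH, coeff_aeval_jqModC_natDegree] at h1
      exact hlc h1
  refine ⟨hdeg, ?_⟩
  have h1 := hD.1
  rw [← hH, ← hdeg, coeff_aeval_jqModC_natDegree] at h1
  exact h1

/-- **The supersingular polynomial**, monic of degree `q - 1`, for every prime `q`. -/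
theorem exists_hasse_poly (q : ℕ) [hq : Fact q.Prime] [CharP K q] [IsAlgClosed K] :
    ∃ H : K[X], H.natDegree = q - 1 ∧ H.Monic ∧
      aeval (jqModC K) H = (deltaR K ^ (q - 1))⁻¹ := by
  have key : ∃ H : K[X], aeval (jqModC K) H = (deltaR K ^ (q - 1))⁻¹ := by
    by_cases h5 : 5 ≤ q
    · obtain ⟨H, S, -, hH, -⟩ := H21_supersingular_jq (F := K) (ℓ := q) h5
      exact ⟨H, by rw [hH, deltaR_eq_DL]⟩
    · have h23 : q = 2 ∨ q = 3 := by
        have h2 := hq.out.two_le
        have h4 : q ≠ 4 := by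
          rintro rfl
          exact absurd hq.out (by norm_num)
        omega
      refine ⟨X ^ (q - 1), ?_⟩
      rw [map_pow, aeval_X, H21_supersingular_jq_small (F := K) (ℓ := q) h23, deltaR_eq_DL]
  obtain ⟨H, hH⟩ := key
  obtain ⟨h1, h2⟩ := hasse_monic K (q - 1) H hH
  exact ⟨H, h1, h2, hH⟩

/-- **The reverse of the supersingular polynomial**: `P(0) = 1` and
`P(1/j~) = Δ~^{1-q} · (1/j~)^{q-1}`. -/
theorem exists_rev_poly (q : ℕ) [hq : Fact q.Prime] [CharP K q] [IsAlgClosed K] :
    ∃ P : K[X], P.eval 0 = 1 ∧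
      aeval (jqModC K)⁻¹ P = (deltaR K ^ (q - 1))⁻¹ * ((jqModC K)⁻¹) ^ (q - 1) := by
  obtain ⟨H, hdeg, hmon, hH⟩ := exists_hasse_poly K q
  have hj0 : jqModC K ≠ 0 := by
    intro h0
    have := coeff_jqModC_neg_one K
    rw [h0, HahnSeries.coeff_zero] at this
    exact zero_ne_one this
  refine ⟨H.reverse, ?_, ?_⟩
  · rw [← coeff_zero_eq_eval_zero, coeff_zero_reverse]
    exact hmon
  · letI : Invertible (jqModC K) := invertibleOfNonzero hj0
    have h := eval₂_reverse_mul_pow (algebraMap K (LaurentSeries K)) (jqModC K) H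
    rw [invOf_eq_inv, hdeg] at h
    rw [aeval_def, ← hH, aeval_def, ← h, mul_assoc, ← mul_pow, mul_inv_cancel₀ hj0, one_pow,
      mul_one]

end Alg

section Frob

variable {K : Type} [Field K] (q : ℕ) [hq : Fact q.Prime] [CharP K q]
variable {S : Type*} [CommRing S] [Algebra K S]

/-- `P(x) ^ (q ^ n) = P^{(φⁿ)}(x ^ (q ^ n))` in characteristic `q`. -/
theorem aeval_pow_iterateFrobenius (P : K[X]) (x : S) (n : ℕ) :
    aeval x P ^ (q ^ n) = aeval (x ^ (q ^ n)) (P.map (iterateFrobenius K q n)) := by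
  rw [← expand_aeval, ← map_expand, map_iterateFrobenius_expand, map_pow]

theorem eval_zero_map_iterateFrobenius (P : K[X]) (hP : P.eval 0 = 1) (n : ℕ) :
    (P.map (iterateFrobenius K q n)).eval 0 = 1 := by
  rw [← coeff_zero_eq_eval_zero, coeff_map, coeff_zero_eq_eval_zero, hP, map_one]

end Frob

end Fermat.Agent.S36.NU.H86
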