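import Fermat.Agent.S36.NU.H99_Units3L
import Fermat.Agent.S36.NU.H88_ChartAlg
import Fermat.Agent.S36.NU.H86_CuspRedAlg

/-!
# S36 / NU-B, leaf CUSPS, reduction half, part 2 (helper86): the reductions at the cusps

Level `N = M q²`, `q ∤ M`, `A` over `q`, `u = 1/j` (`j = j0 A N`), `HU = red U = Δ~^{1-q} = H(j~)`,
`P` = the reverse of the supersingular polynomial `H` (`P(0) = 1`, `P(1/j~) = HU (1/j~)^{q-1}`).

* `j0_mem20`, `j0_mem11`, `j0_mem02`, `s20_j0`, `s11_j0`, `s02_j0` : `j` is in the three valuation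
  rings, with reductions `j~`, `j~`, `j~(t^{q²})`;
* `inv_mem_of_res_ne_zero` : an element with non-zero residue is a unit;
* `cuspRed20_core` : `red₂₀ (E20 u^{q(q-1)}) = (P ^ q)(red₂₀ u)`;
* `cuspRed11_core` : `red₁₁ (E11 u^{2(q-1)}) = (P ^ 2)(red₁₁ u)`;
* `cuspRed02_core` : `red₀₂ (E02^q u^{q-1}) = P^{(φ²)}(red₀₂ u)`;
in each case the polynomial has constant coefficient `1`.
-/

set_option autoImplicit false
set_option synthInstance.maxHeartbeats 400000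
set_option maxHeartbeats 1000000
set_option linter.unusedSectionVars false
set_option linter.style.haveILetI false

noncomputable section

open ModularCurve Polynomial
open Fermat.Agent.S24 Fermat.Agent.BAD.H88 Fermat.Agent.BAD.H30 Fermat.Agent.BAD.H21
open Fermat.Agent.S28 Fermat.Agent.S28.H73 Fermat.Agent.RED.H73 Fermat.Agent.RED.H17
open Fermat.Agent.S36.NU.H88 Fermat.Agent.S36.NU.H23 Fermat.Agent.S36.NU.H82
open Fermat.Agent.S36.NU.H99

namespace Fermat.Agent.S36.NU.H86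

section Inv

/-- An element of a valuation ring with non-zero residue is a unit. -/
theorem inv_mem_of_res_ne_zero {L T : Type*} [Field L] [Field T] (V : ValuationSubring L)
    (s : ↥V →+* T) (hker : ∀ x : ↥V, ¬ IsUnit x → s x = 0) (x : L) (hx : x ∈ V)
    (h0 : s ⟨x, hx⟩ ≠ 0) :
    ∃ hx' : x⁻¹ ∈ V, s ⟨x⁻¹, hx'⟩ = (s ⟨x, hx⟩)⁻¹ := by
  have hu : IsUnit (⟨x, hx⟩ : ↥V) := by
    by_contra h
    exact h0 (hker _ h)
  obtain ⟨u, hu'⟩ := hu
  have h1 : ((u⁻¹ : (↥V)ˣ) : ↥V) * ⟨x, hx⟩ = 1 := by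
    rw [← hu']
    exact u.inv_mul
  have h2 : (((u⁻¹ : (↥V)ˣ) : ↥V) : L) * x = 1 := congrArg Subtype.val h1
  have h3 : x⁻¹ = (((u⁻¹ : (↥V)ˣ) : ↥V) : L) := (eq_inv_of_mul_eq_one_left h2).symm
  have hx' : x⁻¹ ∈ V := h3 ▸ (Subtype.mem _)
  refine ⟨hx', ?_⟩
  have e : (⟨x⁻¹, hx'⟩ : ↥V) = ((u⁻¹ : (↥V)ˣ) : ↥V) := Subtype.ext h3
  rw [e]
  have h4 := congrArg s h1
  rw [map_mul, map_one] at h4
  exact eq_inv_of_mul_eq_one_left h4

end Inv

section Red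

variable (A : ValuationSubring Kbar)
variable (q M : ℕ) (B k : ℤ) (hB : B * M + k * q = 1) (hq : q.Prime) [NeZero M] [NeZero q]
  [NeZero (M * q)] [NeZero (M * q * q)]

theorem jBar_eq_jqModC : Fermat.Agent.S24.jBar = jqModC Kbar := by
  rw [Fermat.Agent.S24.jBar, coeffEmb, ← jqModC_rat, coeffMap_jqModC]

/-- The `q`-expansion of `j`. -/
theorem coe_j0_series :
    (((j0 A (M * q * q) : ↥(L0 A (M * q * q))) : FN (M * q * q)) : LaurentSeries Kbar)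
      = jqModC Kbar := by
  rw [coe_j0', Fermat.Agent.S36.NU.H88.coe_jdF, qExpand_one_apply, jBar_eq_jqModC]

theorem j0_mem20 : j0 A (M * q * q) ∈ V20o A q M := by
  rw [mem_V20o_iff, coe_j0_series]
  exact jqModC_mem_gaussRingV A

theorem s20_j0 : s20 A q M ⟨j0 A (M * q * q), j0_mem20 A q M⟩ = jqModC (kV A) := by
  rw [s20_mk]
  have e : (⟨(((j0 A (M * q * q) : ↥(L0 A (M * q * q))) : FN (M * q * q)) : LaurentSeries Kbar),
      j0_mem20 A q M⟩ : ↥(gaussRingV A)) = ⟨jqModC Kbar, jqModC_mem_gaussRingV A⟩ :=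
    Subtype.ext (coe_j0_series A q M)
  rw [e]
  exact gaussRedV_jqModC A _

include hq in
theorem cM_j0 :
    cM q M B k hB hq ((j0 A (M * q * q) : ↥(L0 A (M * q * q))) : FN (M * q * q))
      = jqModC Kbar := by
  rw [coe_j0', cM_jdF1 q M B k hB hq 1 1 M rfl (one_mul M).symm (one_dvd _), qExpand_one_apply,
    jBar_eq_jqModC]

include hq in
theorem j0_mem11 : j0 A (M * q * q) ∈ V11o A q M B k hB hq := by
  rw [mem_V11o_iff, cM_j0 A q M B k hB hq]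
  exact jqModC_mem_gaussRingV A

include hq in
theorem s11_j0 : s11 A q M B k hB hq ⟨j0 A (M * q * q), j0_mem11 A q M B k hB hq⟩
    = jqModC (kV A) := by
  rw [s11_mk]
  have e : (⟨cM q M B k hB hq ((j0 A (M * q * q) : ↥(L0 A (M * q * q))) : FN (M * q * q)),
      j0_mem11 A q M B k hB hq⟩ : ↥(gaussRingV A)) = ⟨jqModC Kbar, jqModC_mem_gaussRingV A⟩ :=
    Subtype.ext (cM_j0 A q M B k hB hq)
  rw [e]
  exact gaussRedV_jqModC A _

theorem wS_j0 :
    haveI : NeZero (q * q) := ⟨Nat.mul_ne_zero (NeZero.ne q) (NeZero.ne q)⟩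
    ((wS q M B k hB ((j0 A (M * q * q) : ↥(L0 A (M * q * q))) : FN (M * q * q)) :
      FN (M * q * q)) : LaurentSeries Kbar) = qExpand Kbar (q * q) (jqModC Kbar) := by
  haveI : NeZero (q * q) := ⟨Nat.mul_ne_zero (NeZero.ne q) (NeZero.ne q)⟩
  have h2 : q * q ∣ M * q * q := ⟨M, by ring⟩
  have e : wS q M B k hB ((j0 A (M * q * q) : ↥(L0 A (M * q * q))) : FN (M * q * q))
      = jdF (M * q * q) (q * q) h2 := by
    rw [coe_j0']
    exact wQ_jdF' (M * q * q) (q * q) M _ _ (lvl q M) _ 1 (q * q) 1 M 1 (q * q) (one_mul 1).symm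
      (one_mul _).symm (one_mul M).symm (one_mul _).symm (one_dvd _) h2
  rw [e, Fermat.Agent.S36.NU.H88.coe_jdF, jBar_eq_jqModC]

theorem j0_mem02 : j0 A (M * q * q) ∈ V02o A q M B k hB := by
  haveI : NeZero (q * q) := ⟨Nat.mul_ne_zero (NeZero.ne q) (NeZero.ne q)⟩
  rw [mem_V02o_iff, mem_V20_iff, wS_j0 A q M B k hB]
  exact qExpand_jqModC_mem_gaussRingV A (q * q)

theorem s02_j0 :
    haveI : NeZero (q * q) := ⟨Nat.mul_ne_zero (NeZero.ne q) (NeZero.ne q)⟩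
    s02 A q M B k hB ⟨j0 A (M * q * q), j0_mem02 A q M B k hB⟩
      = qExpand (kV A) (q * q) (jqModC (kV A)) := by
  haveI : NeZero (q * q) := ⟨Nat.mul_ne_zero (NeZero.ne q) (NeZero.ne q)⟩
  rw [s02_mk]
  have e : (⟨((wS q M B k hB ((j0 A (M * q * q) : ↥(L0 A (M * q * q))) : FN (M * q * q)) :
      FN (M * q * q)) : LaurentSeries Kbar), j0_mem02 A q M B k hB⟩ : ↥(gaussRingV A))
      = ⟨qExpand Kbar (q * q) (jqModC Kbar), qExpand_jqModC_mem_gaussRingV A (q * q)⟩ :=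
    Subtype.ext (wS_j0 A q M B k hB)
  rw [e]
  exact gaussRedV_qExpand_jqModC A (q * q) _

/-! ### The reductions of the witnesses at the cusps -/

theorem jqModC_ne_zero' (K : Type) [Field K] : jqModC K ≠ 0 := by
  intro h0
  have := coeff_jqModC_neg_one K
  rw [h0, HahnSeries.coeff_zero] at this
  exact zero_ne_one this

include hq in
/-- `HU = Δ~^{1-q}`. -/
theorem HU_eq_inv (hA : A.LiesOverPrime q) :
    HU A q M = (deltaR (kV A) ^ (q - 1))⁻¹ := by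
  haveI : Fact q.Prime := ⟨hq⟩
  haveI : CharP (kV A) q := Fermat.Agent.BAD.H82.charP_kV A hq hA
  have h0 := deltaR_ne_zero (kV A)
  rw [HU_eq, qExpand_deltaR_char (kV A) q]
  have e : deltaR (kV A) ^ q = deltaR (kV A) ^ (q - 1) * deltaR (kV A) := by
    rw [← pow_succ, Nat.sub_add_cancel hq.one_le]
  rw [e, mul_inv, mul_comm, mul_assoc, inv_mul_cancel₀ h0, mul_one]

include hq in
/-- **CUSPS, reduction at `V₂₀`.** -/
theorem cuspRed20_core (hA : A.LiesOverPrime q) :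
    ∃ (hu : (j0 A (M * q * q))⁻¹ ∈ V20o A q M)
      (hE : E20o A q M * (j0 A (M * q * q))⁻¹ ^ (q * (q - 1)) ∈ V20o A q M)
      (P : Polynomial (kV A)),
      P.coeff 0 = 1 ∧
      s20 A q M ⟨_, hE⟩ = Polynomial.aeval (s20 A q M ⟨_, hu⟩) P := by
  haveI : Fact q.Prime := ⟨hq⟩
  haveI : CharP (kV A) q := Fermat.Agent.BAD.H82.charP_kV A hq hA
  haveI : IsAlgClosed (kV A) := isAlgClosed_kV A
  obtain ⟨P, hP0, hP⟩ := exists_rev_poly (kV A) q
  obtain ⟨hu, hsu⟩ := inv_mem_of_res_ne_zero (V20o A q M) (s20 A q M)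
    (s20_eq_zero_of_not_isUnit A q M) (j0 A (M * q * q)) (j0_mem20 A q M)
    (by rw [s20_j0]; exact jqModC_ne_zero' (kV A))
  rw [s20_j0] at hsu
  have hE : E20o A q M * (j0 A (M * q * q))⁻¹ ^ (q * (q - 1)) ∈ V20o A q M :=
    mul_mem (E20o_mem20 A q M) (pow_mem hu _)
  refine ⟨hu, hE, P ^ q, ?_, ?_⟩
  · rw [coeff_zero_eq_eval_zero, eval_pow, hP0, one_pow]
  · have e1 : (⟨E20o A q M * (j0 A (M * q * q))⁻¹ ^ (q * (q - 1)), hE⟩ : ↥(V20o A q M))
        = ⟨eps2o A q M, eps2o_mem20 A q M⟩ * ⟨(j0 A (M * q * q))⁻¹, hu⟩ ^ (q * (q - 1)) :=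
      Subtype.ext rfl
    rw [e1, map_mul, map_pow, s20_eps2, qExpand_HU A q M hq hA, hsu, map_pow, hP,
      HU_eq_inv A q M hq hA, mul_pow, ← pow_mul, mul_comm (q - 1) q]

include hq in
/-- **CUSPS, reduction at `V₁₁`.** -/
theorem cuspRed11_core (hA : A.LiesOverPrime q) :
    ∃ (hu : (j0 A (M * q * q))⁻¹ ∈ V11o A q M B k hB hq)
      (hE : E11o A q M * (j0 A (M * q * q))⁻¹ ^ (2 * (q - 1)) ∈ V11o A q M B k hB hq)
      (P : Polynomial (kV A)),
      P.coeff 0 = 1 ∧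
      s11 A q M B k hB hq ⟨_, hE⟩ = Polynomial.aeval (s11 A q M B k hB hq ⟨_, hu⟩) P := by
  haveI : Fact q.Prime := ⟨hq⟩
  haveI : CharP (kV A) q := Fermat.Agent.BAD.H82.charP_kV A hq hA
  haveI : IsAlgClosed (kV A) := isAlgClosed_kV A
  have hqA : (q : Kbar) ∈ A.nonunits := hA
  obtain ⟨P, hP0, hP⟩ := exists_rev_poly (kV A) q
  obtain ⟨hu, hsu⟩ := inv_mem_of_res_ne_zero (V11o A q M B k hB hq) (s11 A q M B k hB hq)
    (s11_eq_zero_of_not_isUnit A q M B k hB hq) (j0 A (M * q * q)) (j0_mem11 A q M B k hB hq)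
    (by rw [s11_j0]; exact jqModC_ne_zero' (kV A))
  rw [s11_j0] at hsu
  have hE : E11o A q M * (j0 A (M * q * q))⁻¹ ^ (2 * (q - 1)) ∈ V11o A q M B k hB hq :=
    mul_mem (E11o_mem11 A q M B k hB hq) (pow_mem hu _)
  refine ⟨hu, hE, P ^ 2, ?_, ?_⟩
  · rw [coeff_zero_eq_eval_zero, eval_pow, hP0, one_pow]
  · have e1 : (⟨E11o A q M * (j0 A (M * q * q))⁻¹ ^ (2 * (q - 1)), hE⟩ :
        ↥(V11o A q M B k hB hq))
        = ⟨E11o A q M, E11o_mem11 A q M B k hB hq⟩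
          * ⟨(j0 A (M * q * q))⁻¹, hu⟩ ^ (2 * (q - 1)) := Subtype.ext rfl
    rw [e1, map_mul, map_pow, s11_E11 A q M B k hB hq hqA, hsu, map_pow, hP,
      HU_eq_inv A q M hq hA, mul_pow, ← pow_mul, mul_comm (q - 1) 2, sq]

include hq in
/-- `j~(t^{q²}) = j~ ^ (q²)` in characteristic `q`. -/
theorem qExpand_sq_jqModC (hA : A.LiesOverPrime q) :
    haveI : NeZero (q * q) := ⟨Nat.mul_ne_zero (NeZero.ne q) (NeZero.ne q)⟩
    qExpand (kV A) (q * q) (jqModC (kV A)) = jqModC (kV A) ^ (q ^ 2) := by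
  haveI : NeZero (q * q) := ⟨Nat.mul_ne_zero (NeZero.ne q) (NeZero.ne q)⟩
  haveI : Fact q.Prime := ⟨hq⟩
  haveI : CharP (kV A) q := Fermat.Agent.BAD.H82.charP_kV A hq hA
  have h1 : qExpand (kV A) q (jqModC (kV A)) = jqModC (kV A) ^ q := by
    rw [Fermat.Agent.RED.H10.pow_char_eq q (jqModC (kV A)), coeffMap_jqModC]
  rw [← qExpand_qExpand, h1, map_pow, h1, ← pow_mul, sq]

include hq in
/-- **CUSPS, reduction at `V₀₂`.** -/
theorem cuspRed02_core (hA : A.LiesOverPrime q) :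
    ∃ (hu : (j0 A (M * q * q))⁻¹ ∈ V02o A q M B k hB)
      (hE : E02o A q M ^ q * (j0 A (M * q * q))⁻¹ ^ (q - 1) ∈ V02o A q M B k hB)
      (P : Polynomial (kV A)),
      P.coeff 0 = 1 ∧
      s02 A q M B k hB ⟨_, hE⟩ = Polynomial.aeval (s02 A q M B k hB ⟨_, hu⟩) P := by
  haveI : NeZero (q * q) := ⟨Nat.mul_ne_zero (NeZero.ne q) (NeZero.ne q)⟩
  haveI : Fact q.Prime := ⟨hq⟩
  haveI : CharP (kV A) q := Fermat.Agent.BAD.H82.charP_kV A hq hA
  haveI : IsAlgClosed (kV A) := isAlgClosed_kV A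
  obtain ⟨P, hP0, hP⟩ := exists_rev_poly (kV A) q
  have hj2 : qExpand (kV A) (q * q) (jqModC (kV A)) ≠ 0 := by
    rw [qExpand_sq_jqModC A q hq hA]
    exact pow_ne_zero _ (jqModC_ne_zero' (kV A))
  obtain ⟨hu, hsu⟩ := inv_mem_of_res_ne_zero (V02o A q M B k hB) (s02 A q M B k hB)
    (s02_eq_zero_of_not_isUnit A q M B k hB) (j0 A (M * q * q)) (j0_mem02 A q M B k hB)
    (by rw [s02_j0]; exact hj2)
  rw [s02_j0, qExpand_sq_jqModC A q hq hA, ← inv_pow] at hsu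
  have hE : E02o A q M ^ q * (j0 A (M * q * q))⁻¹ ^ (q - 1) ∈ V02o A q M B k hB :=
    mul_mem (pow_mem (E02o_mem02 A q M B k hB hq) _) (pow_mem hu _)
  refine ⟨hu, hE, P.map (iterateFrobenius (kV A) q 2), ?_, ?_⟩
  · rw [coeff_zero_eq_eval_zero]
    exact eval_zero_map_iterateFrobenius q P hP0 2
  · have e1 : (⟨E02o A q M ^ q * (j0 A (M * q * q))⁻¹ ^ (q - 1), hE⟩ : ↥(V02o A q M B k hB))
        = ⟨E02o A q M, E02o_mem02 A q M B k hB hq⟩ ^ q
          * ⟨(j0 A (M * q * q))⁻¹, hu⟩ ^ (q - 1) := Subtype.ext rfl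
    rw [e1, map_mul, map_pow, map_pow, s02_E02 A q M B k hB hq, qExpand_HU A q M hq hA, hsu,
      ← aeval_pow_iterateFrobenius q P, hP, HU_eq_inv A q M hq hA]
    ring

end Red

end Fermat.Agent.S36.NU.H86
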