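import Fermat.Agent.S36.NU.H87_NrA1
import Fermat.Agent.S36.NU.H79_NormVal
import Fermat.Agent.S36.NU.H51_ValVecMod

/-!
# S36 / NU-B, leaf VV-A1 (helper87): NORM-VAL along `α` above `V₁`

The `α₁`-inputs of helper51's `NormValHyp` (`H51_ValVecMod.lean`), from `nrA1` and helper79's
`nv_val_norm`:

* `NαL : L0 (M q²) → L0 (M q)`, the norm of `L0 (M q²) / L0 (M q)` (a monoid homomorphism
  `NαLHom`), `coe_NαL` (`hbrα`): it is the norm along `α` of `F_{M q²} / F_{M q}`;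
* `normVal_α₁` (`hNα₁`): `v₂₀(x) = v₂₀(q)^k₁`, `v₁₁(x) = v₁₁(π₁₁)^k₂` ⟹
  `v₁(N_α x) = v₁(q)^(k₁ + k₂)`;
* `exact20A`, `exact11A` (**EXACT** from `nrA1`).
-/

set_option autoImplicit false
set_option synthInstance.maxHeartbeats 400000
set_option maxHeartbeats 1000000
set_option linter.style.haveILetI false
set_option linter.unusedSectionVars false

noncomputable section

open ModularCurve AlgebraicCurve
open Fermat.Agent.S24 Fermat.Agent.BAD.H88 Fermat.Agent.S28 Fermat.Agent.S28.H73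
open Fermat.Agent.RED.H73 Fermat.Agent.RED.H17 Fermat.Agent.S36.NU.H88
open Fermat.Agent.S36.NU.H23 Fermat.Agent.Lib.HeckeComm

namespace Fermat.Agent.S36.NU.H87

section VVA1

variable (A : ValuationSubring Kbar) (q M : ℕ) (B k : ℤ) (hB : B * M + k * q = 1) (hq : q.Prime)
  [NeZero M] [NeZero q] [NeZero (M * q)] [NeZero (M * q * q)]
  (hqM : ¬ q ∣ M) (hA : A.LiesOverPrime q)

/-- The norm of `L0 (M q²) / L0 (M q)` along `α`, as a monoid homomorphism. -/
def NαLHom : ↥(L0 A (M * q * q)) →* ↥(L0 A (M * q)) :=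
  @Algebra.norm ↥(L0 A (M * q)) ↥(L0 A (M * q * q)) _ _ (algL0 A (hleA q M))

/-- The norm of `L0 (M q²) / L0 (M q)` along `α`. -/
def NαL (x : ↥(L0 A (M * q * q))) : ↥(L0 A (M * q)) := NαLHom A q M x

theorem NαL_eq (x : ↥(L0 A (M * q * q))) :
    NαL A q M x
      = @Algebra.norm ↥(L0 A (M * q)) ↥(L0 A (M * q * q)) _ _ (algL0 A (hleA q M)) x := rfl

/-- **`hbrα`**: `NαL` is the norm along `α` of `F_{M q²} / F_{M q}`. -/
theorem coe_NαL (x : ↥(L0 A (M * q * q))) :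
    ((NαL A q M x : ↥(L0 A (M * q))) : FN (M * q))
      = normAlongHom (heckeAlphaBar Kbar (M * q) q).toRingHom (x : FN (M * q * q)) :=
  (norm_L0 A (hleA q M) (finite_FA q M) x).symm

theorem inclL0_natCastA :
    inclL0 A (hleA q M) ((q : ℕ) : ↥(L0 A (M * q))) = ((q : ℕ) : ↥(L0 A (M * q * q))) :=
  map_natCast (inclL0 A (hleA q M)) q

include hqM hA in
/-- **`hNα₁`** (NORM-VAL along `α` above `V₁`). -/
theorem normVal_α₁ (x : ↥(L0 A (M * q * q))) (k₁ k₂ : ℤ)
    (h₁ : (V20o A q M).valuation x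
      = (V20o A q M).valuation ((q : ℕ) : ↥(L0 A (M * q * q))) ^ k₁)
    (h₂ : (V11o A q M B k hB hq).valuation x
      = (V11o A q M B k hB hq).valuation (pi11 A q M) ^ k₂) :
    (Fermat.Agent.S36.NU.H51.V1o A q M).valuation (NαL A q M x)
      = (Fermat.Agent.S36.NU.H51.V1o A q M).valuation ((q : ℕ) : ↥(L0 A (M * q)))
          ^ (k₁ + k₂) := by
  letI := algL0 A (hleA q M)
  letI := algA A q M
  haveI : Module.Finite ↥(L0 A (M * q)) ↥(L0 A (M * q * q)) := finite_L0_A A q M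
  have hk : ∀ i : Fin 2, ((nrA1 A q M B k hB hq hqM hA).V i).valuation x
      = ((nrA1 A q M B k hB hq hqM hA).V i).valuation ((nrA1 A q M B k hB hq hqM hA).π i)
          ^ (![k₁, k₂] i) := by
    intro i
    fin_cases i
    · show (V20o A q M).valuation x
        = (V20o A q M).valuation (inclL0 A (hleA q M) (piE A q (M * q))) ^ k₁
      rw [show inclL0 A (hleA q M) (piE A q (M * q)) = ((q : ℕ) : ↥(L0 A (M * q * q))) from
        inclL0_natCastA A q M]
      exact h₁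
    · exact h₂
  have h := Fermat.Agent.S36.NU.H79.nv_val_norm (nrA1 A q M B k hB hq hqM hA)
    (nrA1_hdeg A q M B k hB hq hqM hA) x ![k₁, k₂] hk
  rw [Fin.sum_univ_two] at h
  have f0 : Module.finrank (FM A (M * q)) (kap2 (FM A (M * q)) (FM A (M * q)) 0) = 1 :=
    Module.finrank_self (FM A (M * q))
  have f1 : Module.finrank (FM A (M * q)) (kap2 (FM A (M * q)) (FM A (M * q)) 1) = 1 :=
    Module.finrank_self (FM A (M * q))
  rw [f0, f1] at h
  simp only [Nat.cast_one, one_mul, Matrix.cons_val_zero, Matrix.cons_val_one] at h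
  exact h

/-- A function with the property `hbrα` is `NαL`. -/
theorem eq_NαL_of_coe (N' : ↥(L0 A (M * q * q)) → ↥(L0 A (M * q)))
    (h : ∀ x : ↥(L0 A (M * q * q)), ((N' x : ↥(L0 A (M * q))) : FN (M * q))
      = normAlongHom (heckeAlphaBar Kbar (M * q) q).toRingHom (x : FN (M * q * q)))
    (x : ↥(L0 A (M * q * q))) : N' x = NαL A q M x :=
  Subtype.ext ((h x).trans (coe_NαL A q M x).symm)

include hqM hA in
/-- **`hNα₁`** for any function with the property `hbrα`. -/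
theorem normVal_α₁_of_coe (N' : ↥(L0 A (M * q * q)) → ↥(L0 A (M * q)))
    (h : ∀ x : ↥(L0 A (M * q * q)), ((N' x : ↥(L0 A (M * q))) : FN (M * q))
      = normAlongHom (heckeAlphaBar Kbar (M * q) q).toRingHom (x : FN (M * q * q)))
    (x : ↥(L0 A (M * q * q))) (_hx : x ≠ 0) (k₁ k₂ : ℤ)
    (h₁ : (V20o A q M).valuation x
      = (V20o A q M).valuation ((q : ℕ) : ↥(L0 A (M * q * q))) ^ k₁)
    (h₂ : (V11o A q M B k hB hq).valuation x
      = (V11o A q M B k hB hq).valuation (pi11 A q M) ^ k₂) :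
    (Fermat.Agent.S36.NU.H51.V1o A q M).valuation (N' x)
      = (Fermat.Agent.S36.NU.H51.V1o A q M).valuation ((q : ℕ) : ↥(L0 A (M * q)))
          ^ (k₁ + k₂) := by
  rw [eq_NαL_of_coe A q M N' h x]
  exact normVal_α₁ A q M B k hB hq hqM hA x k₁ k₂ h₁ h₂

include hqM hA in
/-- **VV-A1**, packaged: the norm `Nα` with `hbrα` and `hNα₁` of `H51.NormValHyp`. -/
theorem stmt_VVA1 :
    ∃ Nα : ↥(L0 A (M * q * q)) → ↥(L0 A (M * q)),
      (∀ x : ↥(L0 A (M * q * q)), ((Nα x : ↥(L0 A (M * q))) : FN (M * q))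
        = normAlongHom (heckeAlphaBar Kbar (M * q) q).toRingHom (x : FN (M * q * q))) ∧
      (∀ x : ↥(L0 A (M * q * q)), x ≠ 0 → ∀ k₁ k₂ : ℤ,
        (V20o A q M).valuation x
          = (V20o A q M).valuation ((q : ℕ) : ↥(L0 A (M * q * q))) ^ k₁ →
        (V11o A q M B k hB hq).valuation x
          = (V11o A q M B k hB hq).valuation (pi11 A q M) ^ k₂ →
        (Fermat.Agent.S36.NU.H51.V1o A q M).valuation (Nα x)
          = (Fermat.Agent.S36.NU.H51.V1o A q M).valuation ((q : ℕ) : ↥(L0 A (M * q)))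
              ^ (k₁ + k₂)) :=
  ⟨NαL A q M, coe_NαL A q M, fun x _ k₁ k₂ h₁ h₂ =>
    normVal_α₁ A q M B k hB hq hqM hA x k₁ k₂ h₁ h₂⟩

end VVA1

end Fermat.Agent.S36.NU.H87
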