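import Fermat.Agent.S24.Closure.Phi
import Fermat.Agent.BAD.H88_Wq

/-!
# S36, NU-B1 (helper88): expansions of `F_N · Q̄` at an arbitrary cusp

For `γ ∈ SL₂(ℤ)` the `u`-expansion (`u = q^(1/N)`) at the cusp `γ⁻¹ ∞`:
`cuspU N γ : F_N →ₐ[Q̄] Q̄((u))`, `f ↦ expansion of f ∘ γ⁻¹`.
* `cuspU_jdF`   : `cuspU N γ (j (q^D)) = uExp N (γ • j(D τ))`;
* `cuspU_upper` : if `diag(D,1) γ⁻¹ = δ !![a, b; 0, d]`, `δ ∈ SL₂(ℤ)`, `d ∣ N`, then
  `cuspU N γ (j (q^D)) = (twist (ζ_d^b) j)(u^(N/d * a))`.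
-/

set_option autoImplicit false
set_option synthInstance.maxHeartbeats 400000
set_option maxHeartbeats 1000000
set_option linter.unusedSectionVars false
set_option linter.style.haveILetI false

noncomputable section

namespace Fermat.Agent.S36.NU.H88

open Fermat.Agent.S24 Fermat.Agent.BAD.H88 ModularCurve UpperHalfPlane
open scoped MatrixGroups Manifold

/-- The action of `γ` on the Galois closure, as a `Q̄`-algebra homomorphism. -/
def piK (N : ℕ) [NeZero N] (γ : SL(2, ℤ)) : LN N →ₐ[Kbar] LN N :=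
  ((piN N γ).restrictScalars Kbar).toAlgHom

theorem piK_apply (N : ℕ) [NeZero N] (γ : SL(2, ℤ)) (x : LN N) : piK N γ x = piN N γ x := rfl

/-- **The `u`-expansion at the cusp `γ⁻¹ ∞`.** -/
def cuspU (N : ℕ) [NeZero N] (γ : SL(2, ℤ)) : FN N →ₐ[Kbar] LaurentSeries Kbar :=
  (UL N).comp ((piK N γ).comp (phi N))

theorem cuspU_apply (N : ℕ) [NeZero N] (γ : SL(2, ℤ)) (x : FN N) :
    cuspU N γ x = UL N (piN N γ (phi N x)) := rfl

theorem cuspU_injective (N : ℕ) [NeZero N] (γ : SL(2, ℤ)) : Function.Injective (cuspU N γ) :=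
  (cuspU N γ).toRingHom.injective

/-- `cuspU N γ (j (q^D)) = uExp N (γ • j (D τ))`. -/
theorem cuspU_jdF (N : ℕ) [NeZero N] (γ : SL(2, ℤ)) (D : ℕ) [NeZero D] (hD : D ∣ N) :
    cuspU N γ (jdF N D hD) = uExp N (γ • jdA N D) := by
  rw [cuspU_apply, phi_jdF, piN_algebraMap, UL_algebraMap]
  rfl

/-- The expansion at `∞`. -/
theorem cuspU_one (N : ℕ) [NeZero N] (x : FN N) :
    cuspU N 1 x = qExpand Kbar N (x : LaurentSeries Kbar) := by
  rw [cuspU_apply, map_one, AlgEquiv.one_apply, UL_phi, qN_apply]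

/-- The series `(twist z j)(u^m)` from its coefficients. -/
theorem eq_qExpand_twist (m : ℕ) [NeZero m] (z : Kbar) (c : LaurentSeries Kbar)
    (h1 : ∀ n : ℤ, c.coeff ((m : ℤ) * n) = z ^ n * jBar.coeff n)
    (h2 : ∀ k : ℤ, ¬ ((m : ℤ) ∣ k) → c.coeff k = 0) :
    c = qExpand Kbar m (twist z jBar) := by
  ext k
  by_cases hk : (m : ℤ) ∣ k
  · obtain ⟨n, rfl⟩ := hk
    rw [h1, qExpand_coeff_mul, twist_coeff]
  · rw [h2 k hk, qExpand_coeff_of_not_dvd _ _ hk]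

/-- If `diag(D,1) γ⁻¹ = δ !![a, b; 0, d]` then the expansion of `j (q^D)` at the cusp `γ⁻¹ ∞`
is `(twist (ζ_d^b) j)(u^(N/d * a))`. -/
theorem cuspU_upper (N : ℕ) [NeZero N] (γ δ : SL(2, ℤ)) (D : ℕ) [NeZero D] (hD : D ∣ N)
    (a d : ℕ) (b : ℤ) (ha : 0 < a) (hd : 0 < d) (hdN : d ∣ N) [NeZero d] [NeZero (N / d * a)]
    (h : (!![(D : ℤ), 0; 0, 1] : Matrix (Fin 2) (Fin 2) ℤ) * (γ⁻¹ : SL(2, ℤ)).1
      = δ.1 * !![(a : ℤ), b; 0, (d : ℤ)]) :
    cuspU N γ (jdF N D hD) = qExpand Kbar (N / d * a) (twist (zetaK d ^ b) jBar) := by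
  rw [cuspU_jdF]
  have hD0 : 0 < D := Nat.pos_of_ne_zero (NeZero.ne D)
  have hdet : 0 < (!![(a : ℤ), b; 0, (d : ℤ)] : Matrix (Fin 2) (Fin 2) ℤ).det :=
    det_upper_pos a d b ha hd
  obtain ⟨c, hc, hc1, hc2⟩ := hasUExp_JA_upper N a d b ha hd hdN
  have e : uExp N (γ • jdA N D) = c := by
    apply uExp_eq
    rw [coe_smul_Atil, jdA_coe N D hD0 hD, smul_JA γ _ (diag_det_pos D hD0), h,
      JA_mul_left δ _ hdet]
    exact hc
  rw [e]
  apply eq_qExpand_twist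
  · intro n
    rw [hc1, zpow_mul]
  · exact hc2

end Fermat.Agent.S36.NU.H88
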