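import Fermat.Agent.S36.NU.H23_Fix

/-!
# S36, NU-B, CHART-MOD (helper88): descent of rational functions to the fixed field

Setting of `H23_Fix` (helper23): fields `E ⊆ L`, `E₀ ⊆ L₀`, `L₀ ⊆ L`, a family of endomorphisms
`sE g`, `sL g` fixing `L₀` such that the fixed elements of `E` come from `E₀`.
* `mem_adjoin_simple_of_fixed` : for `t ∈ L₀` transcendental over `E`, an element `x ∈ L₀` which
  lies in `E(t)` lies in `E₀(t)`.
-/

set_option autoImplicit false
set_option linter.unusedSectionVars false
set_option linter.style.haveILetI false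

noncomputable section

open Polynomial IntermediateField

namespace Fermat.Agent.S36.NU.H88

section Descent

variable {E L E₀ L₀ : Type*} [Field E] [Field L] [Field E₀] [Field L₀]
  [Algebra E L] [Algebra E₀ L₀] [Algebra E₀ E] [Algebra L₀ L] [Algebra E₀ L]
  [IsScalarTower E₀ L₀ L] [IsScalarTower E₀ E L]
  {G : Type*} (sE : G → E →+* E) (sL : G → L →+* L)
  (hs : ∀ g x, sL g (algebraMap E L x) = algebraMap E L (sE g x))
  (hL₀ : ∀ g (x : L₀), sL g (algebraMap L₀ L x) = algebraMap L₀ L x)
  (hE₀ : ∀ x : E, (∀ g, sE g x = x) → ∃ y : E₀, algebraMap E₀ E y = x)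

/-- The polynomial with given coefficients in degrees `< d`. -/
def polOf {R : Type*} [CommRing R] (c : ℕ → R) (d : ℕ) : R[X] :=
  ∑ n ∈ Finset.range d, monomial n (c n)

theorem aeval_polOf {R S : Type*} [CommRing R] [CommRing S] [Algebra R S] (c : ℕ → R) (d : ℕ)
    (t : S) : aeval t (polOf c d) = ∑ n ∈ Finset.range d, c n • t ^ n := by
  rw [polOf, map_sum]
  refine Finset.sum_congr rfl fun n _ => ?_
  rw [aeval_monomial, Algebra.smul_def]

theorem coeff_polOf {R : Type*} [CommRing R] (c : ℕ → R) (d n : ℕ) (hn : n < d) :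
    (polOf c d).coeff n = c n := by
  rw [polOf, finsetSum_coeff]
  rw [Finset.sum_eq_single n]
  · rw [coeff_monomial, if_pos rfl]
  · intro m _ hm
    rw [coeff_monomial, if_neg hm]
  · intro h
    exact absurd (Finset.mem_range.mpr hn) h

include hs hL₀ hE₀ in
/-- **Descent**: a fixed element of `E(t)` lies in `E₀(t)`. -/
theorem mem_adjoin_simple_of_fixed (t : L₀) (ht : Transcendental E (algebraMap L₀ L t))
    (x : L₀) (hx : algebraMap L₀ L x ∈ E⟮algebraMap L₀ L t⟯) : x ∈ E₀⟮t⟯ := by
  classical
  obtain ⟨P, Q, hPQ⟩ := (mem_adjoin_simple_iff E _).mp hx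
  by_cases hQ0 : aeval (algebraMap L₀ L t) Q = 0
  · rw [hQ0, div_zero] at hPQ
    have : x = 0 := (map_eq_zero (algebraMap L₀ L)).mp hPQ
    rw [this]
    exact zero_mem _
  have hQne : Q ≠ 0 := by
    rintro rfl
    exact hQ0 (map_zero _)
  have hrel : aeval (algebraMap L₀ L t) Q * algebraMap L₀ L x
      - aeval (algebraMap L₀ L t) P = 0 := by
    rw [hPQ, mul_div_cancel₀ _ hQ0, sub_self]
  set d : ℕ := max P.natDegree Q.natDegree + 1 with hd
  have hPd : P.natDegree < d := by rw [hd]; omega
  have hQd : Q.natDegree < d := by rw [hd]; omega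
  -- the family `t ^ n`, `x t ^ n`
  let v : Fin d ⊕ Fin d → L₀ := fun i => Sum.elim (fun n : Fin d => t ^ (n : ℕ)) (fun n : Fin d => x * t ^ (n : ℕ)) i
  have hnot : ¬ LinearIndependent E (fun i => algebraMap L₀ L (v i)) := by
    rw [Fintype.not_linearIndependent_iff]
    refine ⟨fun i => Sum.elim (fun n : Fin d => - P.coeff (n : ℕ)) (fun n : Fin d => Q.coeff (n : ℕ)) i, ?_, ?_⟩
    · rw [Fintype.sum_sum_type]
      simp only [Sum.elim_inl, Sum.elim_inr, v]
      have e1 : ∑ n : Fin d, (- P.coeff (n : ℕ)) • algebraMap L₀ L (t ^ (n : ℕ))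
          = - aeval (algebraMap L₀ L t) P := by
        rw [aeval_eq_sum_range' hPd, ← Finset.sum_neg_distrib,
          ← Fin.sum_univ_eq_sum_range (fun n => - (P.coeff n • algebraMap L₀ L t ^ n)) d]
        refine Finset.sum_congr rfl fun n _ => ?_
        rw [neg_smul, map_pow]
      have e2 : ∑ n : Fin d, Q.coeff (n : ℕ) • algebraMap L₀ L (x * t ^ (n : ℕ))
          = aeval (algebraMap L₀ L t) Q * algebraMap L₀ L x := by
        rw [aeval_eq_sum_range' hQd, Finset.sum_mul,
          ← Fin.sum_univ_eq_sum_range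
            (fun n => Q.coeff n • algebraMap L₀ L t ^ n * algebraMap L₀ L x) d]
        refine Finset.sum_congr rfl fun n _ => ?_
        rw [map_mul, map_pow, smul_mul_assoc, mul_comm]
      rw [e1, e2, neg_add_eq_sub]
      exact hrel
    · obtain ⟨n, hn⟩ : ∃ n, Q.coeff n ≠ 0 := by
        by_contra hcon
        simp only [not_exists, not_not] at hcon
        exact hQne (Polynomial.ext fun n => by rw [hcon n, coeff_zero])
      have hnd : n < d := by
        have := le_natDegree_of_ne_zero hn
        omega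
      exact ⟨Sum.inr ⟨n, hnd⟩, by simpa using hn⟩
  have hnot₀ : ¬ LinearIndependent E₀ v := fun h =>
    hnot (Fermat.Agent.S36.NU.H23.linearIndependent_of_fixed sE sL hs hL₀ hE₀ v h)
  rw [Fintype.not_linearIndependent_iff] at hnot₀
  obtain ⟨g, hg, i₀, hi₀⟩ := hnot₀
  rw [Fintype.sum_sum_type] at hg
  simp only [Sum.elim_inl, Sum.elim_inr, v] at hg
  -- the two polynomials over `E₀`
  let a : ℕ → E₀ := fun n => if h : n < d then g (Sum.inl ⟨n, h⟩) else 0
  let b : ℕ → E₀ := fun n => if h : n < d then g (Sum.inr ⟨n, h⟩) else 0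
  have ha : aeval t (polOf a d) = ∑ n : Fin d, g (Sum.inl n) • t ^ (n : ℕ) := by
    rw [aeval_polOf, ← Fin.sum_univ_eq_sum_range (fun n => a n • t ^ n) d]
    refine Finset.sum_congr rfl fun n _ => ?_
    simp only [a, dif_pos n.2]
  have hb : aeval t (polOf b d) * x = ∑ n : Fin d, g (Sum.inr n) • (x * t ^ (n : ℕ)) := by
    rw [aeval_polOf, Finset.sum_mul, ← Fin.sum_univ_eq_sum_range (fun n => b n • t ^ n * x) d]
    refine Finset.sum_congr rfl fun n _ => ?_
    simp only [b, dif_pos n.2]
    rw [smul_mul_assoc, mul_comm]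
  have hsum : aeval t (polOf a d) + aeval t (polOf b d) * x = 0 := by
    rw [ha, hb]; exact hg
  have ht₀ : Transcendental E₀ t := by
    intro halg
    apply ht
    have h1 : IsAlgebraic E₀ (algebraMap L₀ L t) := halg.algebraMap
    exact h1.extendScalars (FaithfulSMul.algebraMap_injective E₀ E)
  by_cases hB : aeval t (polOf b d) = 0
  · exfalso
    rw [hB, zero_mul, add_zero] at hsum
    have hA0 : polOf a d = 0 := by
      by_contra hne
      exact ht₀ ⟨_, hne, hsum⟩
    have hB0 : polOf b d = 0 := by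
      by_contra hne
      exact ht₀ ⟨_, hne, hB⟩
    apply hi₀
    rcases i₀ with n | n
    · have := coeff_polOf a d n n.2
      rw [hA0, coeff_zero] at this
      simp only [a, dif_pos n.2] at this
      exact this.symm
    · have := coeff_polOf b d n n.2
      rw [hB0, coeff_zero] at this
      simp only [b, dif_pos n.2] at this
      exact this.symm
  · have hxeq : x = - aeval t (polOf a d) / aeval t (polOf b d) := by
      rw [eq_div_iff hB]
      linear_combination hsum
    rw [hxeq]
    have hmem : ∀ p : E₀[X], aeval t p ∈ E₀⟮t⟯ := fun p =>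
      (mem_adjoin_simple_iff E₀ _).mpr ⟨p, 1, by rw [map_one, div_one]⟩
    exact div_mem (neg_mem (hmem _)) (hmem _)

end Descent

end Fermat.Agent.S36.NU.H88
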