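import Fermat.Agent.S36.NU.H88_Cusp
import Fermat.Agent.S36.NU.H88_WQ

/-!
# S36, NU-B1 (helper88): the expansion at the middle cusp `1/(q M)` of `X₀(M q²)`

`N = M q²`, `B M + k q = 1`, `z = ζ_q^B` (a primitive `q`-th root of unity).
`cMid : F_N →ₐ[Q̄] Q̄((q))` is the `q`-expansion at the cusp `1/(q M)` (of width `1`):
* `cMid (j (q^d))      = j (q^d)`,
* `cMid (j (q^(d q)))   = j (q^(d q))`,
* `cMid (j (q^(d q²)))  = j ((z q)^d) = twist z (j (q^d))`         for `d ∣ M`.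
-/

set_option autoImplicit false
set_option synthInstance.maxHeartbeats 400000
set_option maxHeartbeats 1000000
set_option linter.unusedSectionVars false
set_option linter.style.haveILetI false

noncomputable section

namespace Fermat.Agent.S36.NU.H88

open Fermat.Agent.S24 Fermat.Agent.BAD.H88 ModularCurve UpperHalfPlane
open scoped MatrixGroups Manifold

/-! ## The matrices -/

/-- `γ` with `γ⁻¹ = !![1, 0; q M, 1]`: the cusp `γ⁻¹ ∞ = 1 / (q M)`. -/
def gMid (q M : ℕ) : SL(2, ℤ) :=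
  ⟨!![1, 0; -((q : ℤ) * M), 1], by rw [Matrix.det_fin_two_of]; ring⟩

theorem gMid_inv (q M : ℕ) :
    ((gMid q M)⁻¹ : SL(2, ℤ)).1 = !![1, 0; (q : ℤ) * M, 1] := by
  rw [Matrix.SpecialLinearGroup.coe_inv, gMid]
  simp [Matrix.adjugate_fin_two_of]

/-- `diag(d,1) G = δ diag(d,1)`. -/
theorem mid_mat1 (q M d d' : ℕ) (hM : M = d * d') :
    ∃ δ : SL(2, ℤ), (!![(d : ℤ), 0; 0, 1] : Matrix (Fin 2) (Fin 2) ℤ) * ((gMid q M)⁻¹ : SL(2, ℤ)).1
      = δ.1 * !![(d : ℤ), 0; 0, ((1 : ℕ) : ℤ)] := by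
  refine ⟨⟨!![1, 0; (q : ℤ) * d', 1], by rw [Matrix.det_fin_two_of]; ring⟩, ?_⟩
  rw [gMid_inv]
  subst hM
  ext i j
  fin_cases i <;> fin_cases j
  all_goals simp [Matrix.mul_apply, Fin.sum_univ_two]
  all_goals try ring1

/-- `diag(d q,1) G = δ diag(d q,1)`. -/
theorem mid_mat2 (q M d d' : ℕ) (hM : M = d * d') :
    ∃ δ : SL(2, ℤ), (!![((d * q : ℕ) : ℤ), 0; 0, 1] : Matrix (Fin 2) (Fin 2) ℤ) *
        ((gMid q M)⁻¹ : SL(2, ℤ)).1
      = δ.1 * !![((d * q : ℕ) : ℤ), 0; 0, ((1 : ℕ) : ℤ)] := by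
  refine ⟨⟨!![1, 0; (d' : ℤ), 1], by rw [Matrix.det_fin_two_of]; ring⟩, ?_⟩
  rw [gMid_inv]
  subst hM
  ext i j
  fin_cases i <;> fin_cases j
  all_goals simp [Matrix.mul_apply, Fin.sum_univ_two]
  all_goals try ring1

/-- `diag(d q²,1) G = δ !![d q, B d; 0, q]`. -/
theorem mid_mat3 (q M d d' : ℕ) (B k : ℤ) (hB : B * M + k * q = 1) (hM : M = d * d') :
    ∃ δ : SL(2, ℤ), (!![((d * (q * q) : ℕ) : ℤ), 0; 0, 1] : Matrix (Fin 2) (Fin 2) ℤ) *
        ((gMid q M)⁻¹ : SL(2, ℤ)).1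
      = δ.1 * !![((d * q : ℕ) : ℤ), B * d; 0, (q : ℤ)] := by
  refine ⟨⟨!![(q : ℤ), -(B * d); (d' : ℤ), k], ?_⟩, ?_⟩
  · rw [Matrix.det_fin_two_of]
    subst hM
    push_cast at hB
    linear_combination hB
  · rw [gMid_inv]
    subst hM
    push_cast at hB
    ext i j
    fin_cases i <;> fin_cases j
    all_goals simp [Matrix.mul_apply, Fin.sum_univ_two]
    all_goals first | ring1 | linear_combination (-1 : ℤ) * hB

/-! ## Arithmetic of the level -/

theorem prime_sq_factors {q : ℕ} (hq : q.Prime) (e e' : ℕ) (h : q * q = e * e') :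
    (e = 1 ∧ e' = q * q) ∨ (e = q ∧ e' = q) ∨ (e = q * q ∧ e' = 1) := by
  have hdvd : e ∣ q ^ 2 := ⟨e', by rw [sq]; exact h⟩
  obtain ⟨i, hi, rfl⟩ := (Nat.dvd_prime_pow hq).mp hdvd
  have hq0 : 0 < q := hq.pos
  interval_cases i
  · left
    refine ⟨pow_zero q, ?_⟩
    rw [pow_zero, one_mul] at h
    exact h.symm
  · right; left
    refine ⟨pow_one q, ?_⟩
    rw [pow_one] at h
    exact (Nat.eq_of_mul_eq_mul_left hq0 h).symm
  · right; right
    refine ⟨by ring, ?_⟩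
    have h2 : q ^ 2 * 1 = q ^ 2 * e' := by rw [mul_one, ← h]; ring
    exact (Nat.eq_of_mul_eq_mul_left (pow_pos hq0 2) h2).symm

theorem twist_one' (c : LaurentSeries Kbar) : twist (1 : Kbar) c = c := by
  ext n
  rw [twist_coeff, one_zpow, one_mul]

/-- `twist z (x (q^d)) = (twist (z^d) x)(q^d)`. -/
theorem twist_qExpand (d : ℕ) [NeZero d] (z : Kbar) (x : LaurentSeries Kbar) :
    twist z (qExpand Kbar d x) = qExpand Kbar d (twist (z ^ (d : ℤ)) x) := by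
  ext n
  by_cases hn : (d : ℤ) ∣ n
  · obtain ⟨m, rfl⟩ := hn
    rw [twist_coeff, qExpand_coeff_mul, qExpand_coeff_mul, twist_coeff, zpow_mul]
  · rw [twist_coeff, qExpand_coeff_of_not_dvd _ _ hn, qExpand_coeff_of_not_dvd _ _ hn, mul_zero]

section Mid

variable (N q M : ℕ) (B k : ℤ) (hN : N = M * (q * q)) (hB : B * M + k * q = 1) (hq : q.Prime)
  [NeZero N] [NeZero q]

include hN hB hq

theorem mid_coprime : Nat.Coprime M (q * q) := by
  have h : IsCoprime (M : ℤ) (q : ℤ) := ⟨B, k, hB⟩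
  have h1 : Nat.Coprime M q := Nat.isCoprime_iff_coprime.mp h
  exact Nat.Coprime.mul_right h1 h1

theorem mid_M_pos : 0 < M := by
  rcases Nat.eq_zero_or_pos M with h | h
  · exfalso; apply NeZero.ne N; rw [hN, h, zero_mul]
  · exact h

/-- The divisors of `M q²`. -/
theorem mid_dvd_cases (D : ℕ) (hD : D ∣ N) :
    ∃ d d', M = d * d' ∧ (D = d ∨ D = d * q ∨ D = d * (q * q)) := by
  have hcop := mid_coprime N q M B k hN hB hq
  rw [hN] at hD
  have h1 : D = Nat.gcd D M * Nat.gcd D (q * q) := by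
    have h2 : Nat.gcd D (M * (q * q)) = D := Nat.gcd_eq_left hD
    rw [← Nat.Coprime.gcd_mul D hcop, h2]
  obtain ⟨d', hd'⟩ := Nat.gcd_dvd_right D M
  obtain ⟨e', he'⟩ := Nat.gcd_dvd_right D (q * q)
  refine ⟨Nat.gcd D M, d', hd', ?_⟩
  rcases prime_sq_factors hq _ _ he' with ⟨h, -⟩ | ⟨h, -⟩ | ⟨h, -⟩
  · left; rw [h, mul_one] at h1; exact h1
  · right; left; rw [h] at h1; exact h1
  · right; right; rw [h] at h1; exact h1

theorem mid_dvd1 (d d' : ℕ) (hM : M = d * d') : d ∣ N := by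
  rw [hN, hM]; exact ⟨d' * (q * q), by ring⟩

theorem mid_dvd2 (d d' : ℕ) (hM : M = d * d') : d * q ∣ N := by
  rw [hN, hM]; exact ⟨d' * q, by ring⟩

theorem mid_dvd3 (d d' : ℕ) (hM : M = d * d') : d * (q * q) ∣ N := by
  rw [hN, hM]; exact ⟨d', by ring⟩

/-- The expansion of `j (q^d)` at the middle cusp. -/
theorem cuspU_mid1 (d d' : ℕ) (hM : M = d * d') [NeZero d] (hD : d ∣ N) :
    cuspU N (gMid q M) (jdF N d hD) = qExpand Kbar N (qExpand Kbar d jBar) := by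
  obtain ⟨δ, hδ⟩ := mid_mat1 q M d d' hM
  have hd0 : 0 < d := Nat.pos_of_ne_zero (NeZero.ne d)
  have hN0 : 0 < N := Nat.pos_of_ne_zero (NeZero.ne N)
  haveI : NeZero (N / 1 * d) := ⟨by rw [Nat.div_one]; exact (Nat.mul_pos hN0 hd0).ne'⟩
  rw [cuspU_upper N (gMid q M) δ d hD d 1 0 hd0 one_pos (one_dvd N) (by exact_mod_cast hδ),
    zpow_zero, twist_one', qExpand_qExpand]
  exact qExpand_congr (by rw [Nat.div_one]) _

/-- The expansion of `j (q^(d q))` at the middle cusp. -/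
theorem cuspU_mid2 (d d' : ℕ) (hM : M = d * d') [NeZero (d * q)] (hD : d * q ∣ N) :
    cuspU N (gMid q M) (jdF N (d * q) hD) = qExpand Kbar N (qExpand Kbar (d * q) jBar) := by
  obtain ⟨δ, hδ⟩ := mid_mat2 q M d d' hM
  have hd0 : 0 < d * q := Nat.pos_of_ne_zero (NeZero.ne (d * q))
  have hN0 : 0 < N := Nat.pos_of_ne_zero (NeZero.ne N)
  haveI : NeZero (N / 1 * (d * q)) := ⟨by rw [Nat.div_one]; exact (Nat.mul_pos hN0 hd0).ne'⟩
  rw [cuspU_upper N (gMid q M) δ (d * q) hD (d * q) 1 0 hd0 one_pos (one_dvd N)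
    (by exact_mod_cast hδ), zpow_zero, twist_one', qExpand_qExpand]
  exact qExpand_congr (by rw [Nat.div_one]) _

/-- The expansion of `j (q^(d q²))` at the middle cusp. -/
theorem cuspU_mid3 (d d' : ℕ) (hM : M = d * d') [NeZero d] [NeZero (d * (q * q))]
    (hD : d * (q * q) ∣ N) :
    cuspU N (gMid q M) (jdF N (d * (q * q)) hD)
      = qExpand Kbar N (twist (zetaK q ^ B) (qExpand Kbar d jBar)) := by
  obtain ⟨δ, hδ⟩ := mid_mat3 q M d d' B k hB hM
  have hd0 : 0 < d := Nat.pos_of_ne_zero (NeZero.ne d)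
  have hq0 : 0 < q := hq.pos
  have hN0 : 0 < N := Nat.pos_of_ne_zero (NeZero.ne N)
  have hqN : q ∣ N := by rw [hN]; exact ⟨M * q, by ring⟩
  have hidx : N / q * (d * q) = N * d := by
    obtain ⟨m, hm⟩ := hqN
    rw [hm, Nat.mul_div_cancel_left m hq0]
    ring
  haveI : NeZero (N / q * (d * q)) := ⟨by rw [hidx]; exact (Nat.mul_pos hN0 hd0).ne'⟩
  rw [cuspU_upper N (gMid q M) δ (d * (q * q)) hD (d * q) q (B * d) (Nat.mul_pos hd0 hq0) hq0 hqN
    (by exact_mod_cast hδ), twist_qExpand, qExpand_qExpand, zpow_mul]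
  exact qExpand_congr hidx _

end Mid

end Fermat.Agent.S36.NU.H88
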