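import Fermat.Agent.S36.NU.H88_Mid
import Fermat.Agent.RED.H73_GAModular

/-!
# S36, NU-B1 (helper88): the `q`-expansion `cMid` at the middle cusp and its image field

`N = M q²`, `B M + k q = 1`, `z = ζ_q^B`.
* `cMid : F_N →ₐ[Q̄] Q̄((q))` with `cuspU N γ x = (cMid x)(u^N)`;
* `cMid_jdF1/2/3`: the values on the generators;
* `twist_mem_intSpan`: `twist z x ∈ IntSpan` for an integral series `x` and a root of unity `z`;
* `cMid_mem_adjoin_intSpan`, `hasScale_fieldRange_cMid`: the image has the scaling property.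
-/

set_option autoImplicit false
set_option synthInstance.maxHeartbeats 400000
set_option maxHeartbeats 1000000
set_option linter.unusedSectionVars false
set_option linter.style.haveILetI false

noncomputable section

namespace Fermat.Agent.S36.NU.H88

open Fermat.Agent.S24 Fermat.Agent.BAD.H88 ModularCurve UpperHalfPlane
open Fermat.Agent.S28 Fermat.Agent.S28.H73 Fermat.Agent.RED.H73
open scoped MatrixGroups Manifold

/-! ## Generalities on series -/

theorem qExpand_jBar (d : ℕ) [NeZero d] :
    qExpand Kbar d jBar = coeffEmb Kbar (qExpand ℚ d jq) := by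
  ext n
  by_cases hn : (d : ℤ) ∣ n
  · obtain ⟨m, rfl⟩ := hn
    rw [qExpand_coeff_mul, coeffEmb_coeff, qExpand_coeff_mul, jBar, coeffEmb_coeff]
  · rw [qExpand_coeff_of_not_dvd _ _ hn, coeffEmb_coeff, qExpand_coeff_of_not_dvd _ _ hn,
      map_zero]

theorem qExpand_jBar_mem_intSeries (d : ℕ) [NeZero d] : qExpand Kbar d jBar ∈ intSeries Kbar := by
  rw [qExpand_jBar, coeffEmb_qExpand_jq]
  exact qExpand_jqModC_mem_intSeries d

/-- The part of an integral series with exponents `≡ r` modulo `q`. -/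
def sectInt (q : ℕ) (r : ℤ) (m : LaurentSeries ℤ) : LaurentSeries ℤ :=
  HahnSeries.ofSuppBddBelow (fun n : ℤ => if n % (q : ℤ) = r then m.coeff n else 0) (by
    refine ⟨m.order, fun n hn => ?_⟩
    by_contra h
    apply hn
    show (if n % (q : ℤ) = r then m.coeff n else 0) = 0
    rw [HahnSeries.coeff_eq_zero_of_lt_order (not_le.mp h), ite_self])

theorem sectInt_coeff (q : ℕ) (r : ℤ) (m : LaurentSeries ℤ) (n : ℤ) :
    (sectInt q r m).coeff n = if n % (q : ℤ) = r then m.coeff n else 0 := rfl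

theorem zpow_emod {z : Kbar} {q : ℕ} (hz : z ^ q = 1) (n : ℤ) :
    z ^ n = z ^ (n % (q : ℤ)) := by
  by_cases hz0 : z = 0
  · rcases Nat.eq_zero_or_pos q with h | h
    · subst h
      rw [Nat.cast_zero, Int.emod_zero]
    · exfalso
      rw [hz0, zero_pow h.ne'] at hz
      exact zero_ne_one hz
  conv_lhs => rw [← Int.emod_add_mul_ediv n (q : ℤ)]
  rw [zpow_add₀ hz0, zpow_mul, zpow_natCast, hz, one_zpow, mul_one]

/-- `twist z x = ∑_{r < q} z^r x_r` for `z^q = 1`. -/
theorem twist_eq_sum {z : Kbar} {q : ℕ} (hq : 0 < q) (hz : z ^ q = 1) (m : LaurentSeries ℤ) :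
    twist z (coeffMap (Int.castRingHom Kbar) m)
      = ∑ r ∈ Finset.range q, HahnSeries.C (z ^ r) *
          coeffMap (Int.castRingHom Kbar) (sectInt q (r : ℤ) m) := by
  ext n
  rw [twist_coeff, coeffMap_coeff]
  have hcoef : ∀ (S : Finset ℕ) (f : ℕ → LaurentSeries Kbar),
      (∑ r ∈ S, f r).coeff n = ∑ r ∈ S, (f r).coeff n := by
    intro S f
    induction S using Finset.induction_on with
    | empty => simp
    | insert a s ha ih => rw [Finset.sum_insert ha, Finset.sum_insert ha, HahnSeries.coeff_add, ih]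
  rw [hcoef]
  have hq' : (0 : ℤ) < (q : ℤ) := by exact_mod_cast hq
  have h0 : 0 ≤ n % (q : ℤ) := Int.emod_nonneg n hq'.ne'
  have h1 : n % (q : ℤ) < (q : ℤ) := Int.emod_lt_of_pos n hq'
  obtain ⟨r₀, hr₀⟩ := Int.eq_ofNat_of_zero_le h0
  have hr₀q : r₀ < q := by
    rw [hr₀] at h1
    exact_mod_cast h1
  rw [Finset.sum_eq_single r₀]
  · rw [HahnSeries.C_mul_eq_smul, HahnSeries.coeff_smul, coeffMap_coeff, sectInt_coeff,
      if_pos hr₀, smul_eq_mul, zpow_emod hz n, hr₀, zpow_natCast]
  · intro r _ hr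
    rw [HahnSeries.C_mul_eq_smul, HahnSeries.coeff_smul, coeffMap_coeff, sectInt_coeff,
      if_neg, map_zero, smul_zero]
    intro h
    apply hr
    rw [hr₀] at h
    exact_mod_cast h.symm
  · intro h
    exact absurd (Finset.mem_range.mpr hr₀q) h

/-- A twist of an integral series by a root of unity lies in `IntSpan`. -/
theorem twist_mem_intSpan {z : Kbar} {q : ℕ} (hq : 0 < q) (hz : z ^ q = 1)
    {x : LaurentSeries Kbar} (hx : x ∈ intSeries Kbar) : twist z x ∈ IntSpan Kbar := by
  obtain ⟨m, rfl⟩ := hx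
  rw [twist_eq_sum hq hz m]
  refine Subalgebra.sum_mem _ fun r _ => ?_
  refine Subalgebra.mul_mem _ ?_ (coeffMap_int_mem_intSpan _)
  have : (HahnSeries.C (z ^ r) : LaurentSeries Kbar) = algebraMap Kbar (LaurentSeries Kbar) (z ^ r) := by
    rw [algebraMap_laurentSeries_eq_single]
    rfl
  rw [this]
  exact Subalgebra.algebraMap_mem _ _

/-! ## The `q`-expansion at the middle cusp -/

section Mid

variable (N q M : ℕ) (B k : ℤ) (hN : N = M * (q * q)) (hB : B * M + k * q = 1) (hq : q.Prime)
  [NeZero N] [NeZero q]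

include hN hB hq

/-- The `u`-expansions at the middle cusp are series in `u^N`. -/
theorem cuspU_mid_mem_range (x : FN N) :
    cuspU N (gMid q M) x ∈ (qExpandAlgHomC Kbar N).range := by
  have hx : x ∈ IntermediateField.adjoin Kbar
      {x : FN N | ∃ (d : ℕ) (_ : NeZero d) (hd : d ∣ N), x = jdF N d hd} := by
    rw [adjoin_jdF]; exact IntermediateField.mem_top
  induction hx using IntermediateField.adjoin_induction with
  | mem y hy =>
    obtain ⟨D, hD0, hD, rfl⟩ := hy
    obtain ⟨d, d', hM, h | h | h⟩ := mid_dvd_cases N q M B k hN hB hq D hD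
    · subst h
      exact ⟨_, (cuspU_mid1 N q M B k hN hB hq D d' hM hD).symm⟩
    · subst h
      exact ⟨_, (cuspU_mid2 N q M B k hN hB hq d d' hM hD).symm⟩
    · subst h
      have hM0 := mid_M_pos N q M B k hN hB hq
      haveI : NeZero d := ⟨by rintro rfl; rw [zero_mul] at hM; omega⟩
      exact ⟨_, (cuspU_mid3 N q M B k hN hB hq d d' hM hD).symm⟩
  | algebraMap c =>
    rw [AlgHom.commutes]
    exact Subalgebra.algebraMap_mem _ c
  | add y z _ _ hy hz =>
    rw [map_add]; exact add_mem hy hz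
  | inv y _ hy =>
    rw [map_inv₀]
    obtain ⟨t, ht⟩ := hy
    exact ⟨t⁻¹, by rw [map_inv₀]; exact congrArg _ ht⟩
  | mul y z _ _ hy hz =>
    rw [map_mul]; exact mul_mem hy hz

omit hN hB hq in
theorem qExpandAlgHomC_injective : Function.Injective (qExpandAlgHomC Kbar N) :=
  qExpand_injective N

/-- **The `q`-expansion at the middle cusp `1/(q M)`.** -/
def cMid : FN N →ₐ[Kbar] LaurentSeries Kbar :=
  ((AlgEquiv.ofInjective (qExpandAlgHomC Kbar N) (qExpandAlgHomC_injective N)).symm.toAlgHom).comp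
    ((cuspU N (gMid q M)).codRestrict (qExpandAlgHomC Kbar N).range
      (cuspU_mid_mem_range N q M B k hN hB hq))

theorem qExpand_cMid (x : FN N) :
    qExpand Kbar N (cMid N q M B k hN hB hq x) = cuspU N (gMid q M) x := by
  have h := (AlgEquiv.ofInjective (qExpandAlgHomC Kbar N)
    (qExpandAlgHomC_injective N)).apply_symm_apply
    (((cuspU N (gMid q M)).codRestrict (qExpandAlgHomC Kbar N).range
      (cuspU_mid_mem_range N q M B k hN hB hq)) x)
  exact congrArg Subtype.val h

theorem cMid_injective : Function.Injective (cMid N q M B k hN hB hq) :=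
  (cMid N q M B k hN hB hq).toRingHom.injective

/-- `cMid (j (q^d)) = j (q^d)`. -/
theorem cMid_jdF1 (d d' : ℕ) (hM : M = d * d') [NeZero d] (hD : d ∣ N) :
    cMid N q M B k hN hB hq (jdF N d hD) = qExpand Kbar d jBar := by
  apply qExpand_injective N
  rw [qExpand_cMid, cuspU_mid1 N q M B k hN hB hq d d' hM hD]

/-- `cMid (j (q^(d q))) = j (q^(d q))`. -/
theorem cMid_jdF2 (d d' : ℕ) (hM : M = d * d') [NeZero (d * q)] (hD : d * q ∣ N) :
    cMid N q M B k hN hB hq (jdF N (d * q) hD) = qExpand Kbar (d * q) jBar := by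
  apply qExpand_injective N
  rw [qExpand_cMid, cuspU_mid2 N q M B k hN hB hq d d' hM hD]

/-- `cMid (j (q^(d q²))) = j ((z q)^d)`, `z = ζ_q^B`. -/
theorem cMid_jdF3 (d d' : ℕ) (hM : M = d * d') [NeZero d] [NeZero (d * (q * q))]
    (hD : d * (q * q) ∣ N) :
    cMid N q M B k hN hB hq (jdF N (d * (q * q)) hD)
      = twist (zetaK q ^ B) (qExpand Kbar d jBar) := by
  apply qExpand_injective N
  rw [qExpand_cMid, cuspU_mid3 N q M B k hN hB hq d d' hM hD]

omit hN hB hq in
theorem zMid_pow : (zetaK q ^ B) ^ q = 1 := by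
  rw [← zpow_natCast, ← zpow_mul, mul_comm, zpow_mul, zpow_natCast,
    (isPrimitiveRoot_zetaK q).pow_eq_one, one_zpow]

/-- The values of `cMid` lie in the field generated by `IntSpan`. -/
theorem cMid_mem_adjoin_intSpan (x : FN N) :
    cMid N q M B k hN hB hq x ∈
      IntermediateField.adjoin Kbar (IntSpan Kbar : Set (LaurentSeries Kbar)) := by
  have hx : x ∈ IntermediateField.adjoin Kbar
      {x : FN N | ∃ (d : ℕ) (_ : NeZero d) (hd : d ∣ N), x = jdF N d hd} := by
    rw [adjoin_jdF]; exact IntermediateField.mem_top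
  induction hx using IntermediateField.adjoin_induction with
  | mem y hy =>
    obtain ⟨D, hD0, hD, rfl⟩ := hy
    apply IntermediateField.subset_adjoin
    obtain ⟨d, d', hM, h | h | h⟩ := mid_dvd_cases N q M B k hN hB hq D hD
    · subst h
      rw [cMid_jdF1 N q M B k hN hB hq D d' hM hD]
      exact intSeries_le_intSpan (qExpand_jBar_mem_intSeries D)
    · subst h
      rw [cMid_jdF2 N q M B k hN hB hq d d' hM hD]
      exact intSeries_le_intSpan (qExpand_jBar_mem_intSeries (d * q))
    · subst h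
      have hM0 := mid_M_pos N q M B k hN hB hq
      haveI : NeZero d := ⟨by rintro rfl; rw [zero_mul] at hM; omega⟩
      rw [cMid_jdF3 N q M B k hN hB hq d d' hM hD]
      exact twist_mem_intSpan hq.pos (zMid_pow q B) (qExpand_jBar_mem_intSeries d)
  | algebraMap c =>
    rw [AlgHom.commutes]
    exact IntermediateField.algebraMap_mem _ c
  | add y z _ _ hy hz =>
    rw [map_add]; exact add_mem hy hz
  | inv y _ hy =>
    rw [map_inv₀]; exact inv_mem hy
  | mul y z _ _ hy hz =>
    rw [map_mul]; exact mul_mem hy hz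

/-- The image of `cMid` has the scaling property. -/
theorem hasScale_fieldRange_cMid (A : ValuationSubring Kbar) :
    HasScale A (cMid N q M B k hN hB hq).fieldRange := by
  refine HasScale.mono A (hasScale_adjoin A (le_refl _)) ?_
  rintro y ⟨x, rfl⟩
  exact cMid_mem_adjoin_intSpan N q M B k hN hB hq x

end Mid

end Fermat.Agent.S36.NU.H88
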