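import Fermat.Agent.RED.ES.H95_Twist
import Fermat.Agent.RED.H10_Kronecker
import Fermat.Agent.S28.H73_GaussV

/-!
# S36, NU-B1 (helper88): the twist `q ↦ z q` and the Gauss ring

`O` a valuation subring of `C`, `u` a unit of `O`, `z = u`.
* `twistAlg z hz` : the twist as a `C`-algebra homomorphism of `C((q))`;
* `twist_mem_gaussRingV` : the twist by a unit of `O` preserves the Gauss ring;
* `gaussRedV_twist`      : and commutes with the Gauss reduction (twist by the residue of `u`);
* `gaussRedV_twist_of_res_eq_one` : if `u ≡ 1` then the reduction does not change.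
-/

set_option autoImplicit false
set_option linter.unusedSectionVars false
set_option linter.style.haveILetI false

noncomputable section

namespace Fermat.Agent.S36.NU.H88

open Fermat.Agent.S24 ModularCurve Fermat.Agent.S28 Fermat.Agent.S28.H73
open Fermat.Agent.RED.H95 Fermat.Agent.RED.H10

section TwistAlg

variable {C : Type} [Field C]

/-- The twist `q ↦ z q`, as an algebra homomorphism. -/
def twistAlg (z : C) (hz : z ≠ 0) : LaurentSeries C →ₐ[C] LaurentSeries C :=
  { twistHom z hz with
    commutes' := fun c => by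
      show twist z (algebraMap C (LaurentSeries C) c) = algebraMap C (LaurentSeries C) c
      rw [algebraMap_laurentSeries_eq_single]
      exact twist_C z c }

@[simp] theorem twistAlg_apply (z : C) (hz : z ≠ 0) (x : LaurentSeries C) :
    twistAlg z hz x = twist z x := rfl

variable (O : ValuationSubring C)

theorem iotaV_rot (u : (↥O)ˣ) (g : LaurentSeries ↥O) :
    iotaV O (rot u g) = twist ((u : ↥O) : C) (iotaV O g) := by
  ext n
  rw [iotaV, coeffMap_coeff, rot_coeff, twist_coeff, coeffMap_coeff, map_mul]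
  congr 1
  have h1 : ((Units.map (O.subtype : ↥O →* C) (u ^ n) : Cˣ) : C)
      = O.subtype ((u ^ n : (↥O)ˣ) : ↥O) := rfl
  rw [← h1, map_zpow, Units.val_zpow_eq_zpow_val]
  rfl

theorem redV_rot (u : (↥O)ˣ) (g : LaurentSeries ↥O) :
    redV O (rot u g) = rot (Units.map (resV O : ↥O →* kV O) u) (redV O g) := by
  ext n
  rw [redV, coeffMap_coeff, rot_coeff, rot_coeff, coeffMap_coeff, map_mul]
  congr 1
  rw [← map_zpow]
  rfl

theorem rot_ne_zero {R : Type*} [CommRing R] (u : Rˣ) {x : LaurentSeries R} (hx : x ≠ 0) :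
    rot u x ≠ 0 := by
  intro h
  apply hx
  ext n
  have := congrArg (fun s : LaurentSeries R => s.coeff n) h
  simp only [rot_coeff, HahnSeries.coeff_zero] at this
  rw [HahnSeries.coeff_zero]
  exact (Units.mul_right_eq_zero _).mp this

/-- The twist by a unit of `O` preserves the Gauss ring. -/
theorem twist_mem_gaussRingV (u : (↥O)ˣ) {x : LaurentSeries C} (hx : x ∈ gaussRingV O) :
    twist ((u : ↥O) : C) x ∈ gaussRingV O := by
  obtain ⟨g, h, hg, hgx⟩ := hx
  have hu0 : ((u : ↥O) : C) ≠ 0 := by
    intro h0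
    have : (u : ↥O) = 0 := Subtype.ext h0
    exact u.ne_zero this
  refine ⟨rot u g, rot u h, ?_, ?_⟩
  · rw [redV_rot]
    exact rot_ne_zero _ hg
  · rw [iotaV_rot, iotaV_rot, ← twist_mul _ hu0, hgx]

/-- The twist by a unit of `O` commutes with the Gauss reduction. -/
theorem gaussRedV_twist (u : (↥O)ˣ) (x : gaussRingV O)
    (h' : twist ((u : ↥O) : C) (x : LaurentSeries C) ∈ gaussRingV O) :
    gaussRedV O ⟨_, h'⟩ = rot (Units.map (resV O : ↥O →* kV O) u) (gaussRedV O x) := by
  obtain ⟨g, h, hg, hgx⟩ := x.2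
  have hu0 : ((u : ↥O) : C) ≠ 0 := by
    intro h0
    have : (u : ↥O) = 0 := Subtype.ext h0
    exact u.ne_zero this
  have hg' : redV O (rot u g) ≠ 0 := by
    rw [redV_rot]
    exact rot_ne_zero _ hg
  have hgx' : iotaV O (rot u g) * twist ((u : ↥O) : C) (x : LaurentSeries C)
      = iotaV O (rot u h) := by
    rw [iotaV_rot, iotaV_rot, ← twist_mul _ hu0, hgx]
  rw [gaussRedV_eq O x hg hgx, gaussRedV_eq O ⟨_, h'⟩ hg' hgx', map_div₀, redV_rot, redV_rot]

/-- If `u ≡ 1` modulo the maximal ideal, the twist by `u` does not change the reduction. -/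
theorem gaussRedV_twist_of_res_eq_one (u : (↥O)ˣ) (hu : resV O (u : ↥O) = 1) (x : gaussRingV O)
    (h' : twist ((u : ↥O) : C) (x : LaurentSeries C) ∈ gaussRingV O) :
    gaussRedV O ⟨_, h'⟩ = gaussRedV O x := by
  rw [gaussRedV_twist O u x h']
  have h1 : Units.map (resV O : ↥O →* kV O) u = 1 := Units.ext hu
  rw [h1, rot_one]

end TwistAlg

end Fermat.Agent.S36.NU.H88
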