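import Fermat.Agent.S36.NU.H88_Restrict
import Fermat.Agent.RED.ES.H95_KronGauss

/-!
# S36, NU-B1 (helper88): restriction of `V₂₀`, `V₁₁`, `V₀₂` (level `M q²`) to level `M q`

`α, β : F_{M q} → F_{M q²}` the degeneracy maps, `w = w_q` the Atkin–Lehner involution of level
`M q`, `V' = V₂₀ A (M q)` the Gauss valuation at `∞` of level `M q` (`= BAD.H88.V1`),
`V'₂ = V' ∘ w` (`= BAD.H88.V2`).

|        | `V₂₀`            | `V₁₁`        | `V₀₂`               |
|  `α⁻¹` | `V'`,  `red`     | `V'`, `red`  | `V'₂`, `Fr ∘ red∘w` |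
|  `β⁻¹` | `V'`, `Fr ∘ red` | `V'₂`, `red∘w` | `V'₂`, `red ∘ w`  |

(`Fr = (t ↦ t^q)`; the formula for `red₁₁ ∘ β` needs `A` over `q`, in general there is a twist by
the residue of `ζ_q^B`.)
-/

set_option autoImplicit false
set_option synthInstance.maxHeartbeats 400000
set_option maxHeartbeats 1000000
set_option linter.unusedSectionVars false
set_option linter.style.haveILetI false

noncomputable section

namespace Fermat.Agent.S36.NU.H88

open Fermat.Agent.S24 Fermat.Agent.BAD.H88 ModularCurve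
open Fermat.Agent.S28 Fermat.Agent.S28.H73 Fermat.Agent.RED.H73 Fermat.Agent.RED.H17
open Fermat.Agent.RED.H95 Fermat.Agent.RED.H10

section Restrict2

variable (A : ValuationSubring Kbar)
variable (q M : ℕ) (B k : ℤ) (hB : B * M + k * q = 1) (hq : q.Prime) [NeZero M] [NeZero q]

/-! ### `V₂₀` -/

/-- `α x ∈ V₂₀ ↔ x ∈ V'`. -/
theorem alpha_mem_V20_iff (x : FN (M * q)) :
    heckeAlphaBar Kbar (M * q) q x ∈ V20 A (M * q * q) ↔ x ∈ V20 A (M * q) :=
  alpha_mem_V1_iff A q (M * q) x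

/-- `β x ∈ V₂₀ ↔ x ∈ V'`. -/
theorem beta_mem_V20_iff (x : FN (M * q)) :
    heckeBetaBar Kbar (M * q) q x ∈ V20 A (M * q * q) ↔ x ∈ V20 A (M * q) :=
  beta_mem_V1_iff A q (M * q) x

/-- `red₂₀ (α x) = red' x`. -/
theorem red20_alpha (x : FN (M * q)) (h : x ∈ V20 A (M * q))
    (h' : heckeAlphaBar Kbar (M * q) q x ∈ V20 A (M * q * q)) :
    ((red20 A (M * q * q) ⟨_, h'⟩ : F20 A (M * q * q)) : LaurentSeries (kV A))
      = ((red20 A (M * q) ⟨x, h⟩ : F20 A (M * q)) : LaurentSeries (kV A)) :=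
  red1_alpha A q (M * q) x h h'

/-- `red₂₀ (β x) = (red' x)(t^q)`. -/
theorem red20_beta (x : FN (M * q)) (h : x ∈ V20 A (M * q))
    (h' : heckeBetaBar Kbar (M * q) q x ∈ V20 A (M * q * q)) :
    ((red20 A (M * q * q) ⟨_, h'⟩ : F20 A (M * q * q)) : LaurentSeries (kV A))
      = qExpand (kV A) q ((red20 A (M * q) ⟨x, h⟩ : F20 A (M * q)) : LaurentSeries (kV A)) :=
  red1_beta A q (M * q) x h h'

/-! ### `V₁₁` -/

include hB hq

/-- `α x ∈ V₁₁ ↔ x ∈ V'`. -/
theorem alpha_mem_V11_iff (x : FN (M * q)) :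
    heckeAlphaBar Kbar (M * q) q x ∈ V11 A (M * q * q) q M B k (lvl q M) hB hq
      ↔ x ∈ V20 A (M * q) := by
  rw [mem_V11_iff, mem_V20_iff]
  have e : cMid (M * q * q) q M B k (lvl q M) hB hq (heckeAlphaBar Kbar (M * q) q x)
      = (x : LaurentSeries Kbar) := cM_alpha q M B k hB hq x
  rw [e]

/-- `red₁₁ (α x) = red' x`. -/
theorem red11_alpha (x : FN (M * q)) (h : x ∈ V20 A (M * q))
    (h' : heckeAlphaBar Kbar (M * q) q x ∈ V11 A (M * q * q) q M B k (lvl q M) hB hq) :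
    ((red11 A (M * q * q) q M B k (lvl q M) hB hq ⟨_, h'⟩ :
        F11 A (M * q * q) q M B k (lvl q M) hB hq) : LaurentSeries (kV A))
      = ((red20 A (M * q) ⟨x, h⟩ : F20 A (M * q)) : LaurentSeries (kV A)) := by
  rw [coe_red11, coe_gaussResF'_eq]
  congr 1
  exact Subtype.ext (cM_alpha q M B k hB hq x)

omit hB hq [NeZero M] in
/-- `ζ_q^B` as a unit of `A`. -/
def zUnit (hq : q.Prime) : (↥A)ˣ :=
  haveI : Fact q.Prime := ⟨hq⟩
  { val := ⟨zetaK q ^ B, mem_of_pow_eq_one' A q (zMid_pow q B)⟩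
    inv := ⟨(zetaK q ^ B)⁻¹, mem_of_pow_eq_one' A q (by rw [inv_pow, zMid_pow, inv_one])⟩
    val_inv := Subtype.ext (mul_inv_cancel₀ (zMid_ne_zero q B))
    inv_val := Subtype.ext (inv_mul_cancel₀ (zMid_ne_zero q B)) }

omit hB hq [NeZero M] in
theorem coe_zUnit (hq : q.Prime) : (((zUnit A q B hq : (↥A)ˣ) : ↥A) : Kbar) = zetaK q ^ B := rfl

omit hB hq [NeZero M] in
theorem coe_zUnit_inv (hq : q.Prime) :
    ((((zUnit A q B hq)⁻¹ : (↥A)ˣ) : ↥A) : Kbar) = (zetaK q ^ B)⁻¹ := rfl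

omit hB hq [NeZero M] in
/-- The twist by `ζ_q^B` preserves the Gauss ring, in both directions. -/
theorem twist_z_mem_iff (hq : q.Prime) (x : LaurentSeries Kbar) :
    twist (zetaK q ^ B) x ∈ gaussRingV A ↔ x ∈ gaussRingV A := by
  constructor
  · intro h
    have h1 := twist_mem_gaussRingV A (zUnit A q B hq)⁻¹ h
    rw [coe_zUnit_inv, twist_twist, inv_mul_cancel₀ (zMid_ne_zero q B), twist_one_left] at h1
    exact h1
  · intro h
    exact twist_mem_gaussRingV A (zUnit A q B hq) h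

/-- `β x ∈ V₁₁ ↔ w x ∈ V'` (i.e. `x ∈ V'₂`). -/
theorem beta_mem_V11_iff (x : FN (M * q)) :
    heckeBetaBar Kbar (M * q) q x ∈ V11 A (M * q * q) q M B k (lvl q M) hB hq
      ↔ wL q M B k hB hq x ∈ V20 A (M * q) := by
  rw [mem_V11_iff, mem_V20_iff]
  have e : cMid (M * q * q) q M B k (lvl q M) hB hq (heckeBetaBar Kbar (M * q) q x)
      = twist (zetaK q ^ B) ((wL q M B k hB hq x : FN (M * q)) : LaurentSeries Kbar) :=
    cM_beta q M B k hB hq x
  rw [e]
  exact twist_z_mem_iff A q B hq _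

/-- `red₁₁ (β x) = rot z̄ (red' (w x))`, `z̄` the residue of `ζ_q^B`. -/
theorem red11_beta_rot (x : FN (M * q)) (h : wL q M B k hB hq x ∈ V20 A (M * q))
    (h' : heckeBetaBar Kbar (M * q) q x ∈ V11 A (M * q * q) q M B k (lvl q M) hB hq) :
    ((red11 A (M * q * q) q M B k (lvl q M) hB hq ⟨_, h'⟩ :
        F11 A (M * q * q) q M B k (lvl q M) hB hq) : LaurentSeries (kV A))
      = rot (Units.map (resV A : ↥A →* kV A) (zUnit A q B hq))
          ((red20 A (M * q) ⟨wL q M B k hB hq x, h⟩ : F20 A (M * q)) : LaurentSeries (kV A)) := by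
  rw [coe_red11, coe_gaussResF'_eq]
  have hm : twist (((zUnit A q B hq : (↥A)ˣ) : ↥A) : Kbar)
      ((wL q M B k hB hq x : FN (M * q)) : LaurentSeries Kbar) ∈ gaussRingV A :=
    twist_mem_gaussRingV A (zUnit A q B hq) h
  rw [← gaussRedV_twist A (zUnit A q B hq) ⟨_, h⟩ hm]
  congr 1
  exact Subtype.ext (cM_beta q M B k hB hq x)

omit hB [NeZero M] in
/-- Over `q` the residue of `ζ_q^B` is `1`. -/
theorem resV_zUnit (hA : (q : Kbar) ∈ A.nonunits) :
    resV A ((zUnit A q B hq : (↥A)ˣ) : ↥A) = 1 := by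
  haveI : CharP (kV A) q := Fermat.Agent.BAD.H82.charP_kV A hq hA
  haveI : Fact q.Prime := ⟨hq⟩
  have h1 : ((zUnit A q B hq : (↥A)ˣ) : ↥A) ^ q = 1 := by
    apply Subtype.ext
    show (zetaK q ^ B) ^ q = 1
    exact zMid_pow q B
  have h2 : (resV A ((zUnit A q B hq : (↥A)ˣ) : ↥A) - 1) ^ q = 0 := by
    rw [sub_pow_char, ← map_pow, h1, map_one, one_pow, sub_self]
  have h3 := pow_eq_zero_iff (hq.ne_zero) |>.mp h2
  exact sub_eq_zero.mp h3

/-- `red₁₁ (β x) = red' (w x)` when `A` lies over `q`. -/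
theorem red11_beta (hA : (q : Kbar) ∈ A.nonunits) (x : FN (M * q))
    (h : wL q M B k hB hq x ∈ V20 A (M * q))
    (h' : heckeBetaBar Kbar (M * q) q x ∈ V11 A (M * q * q) q M B k (lvl q M) hB hq) :
    ((red11 A (M * q * q) q M B k (lvl q M) hB hq ⟨_, h'⟩ :
        F11 A (M * q * q) q M B k (lvl q M) hB hq) : LaurentSeries (kV A))
      = ((red20 A (M * q) ⟨wL q M B k hB hq x, h⟩ : F20 A (M * q)) : LaurentSeries (kV A)) := by
  rw [red11_beta_rot A q M B k hB hq x h h']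
  have h1 : Units.map (resV A : ↥A →* kV A) (zUnit A q B hq) = 1 :=
    Units.ext (resV_zUnit A q B hq hA)
  rw [h1, rot_one]

end Restrict2

end Fermat.Agent.S36.NU.H88
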