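import Fermat.Agent.BAD.H88_V2

/-!
# S36, NU-B1 (helper88): transport of a valuation ring with residue map along an isomorphism

`w : F ≃ₐ[K] F₁`, `V` a valuation ring of `F₁` with residue map `red : V →+* R`.
`comapVE V w = w⁻¹ V` is a valuation ring of `F` with residue map `red ∘ w`.
(The case `F₁ = F` is `BAD.H88.comapV`.)
-/

set_option autoImplicit false
set_option linter.unusedSectionVars false
set_option linter.style.haveILetI false

noncomputable section

namespace Fermat.Agent.S36.NU.H88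

open Fermat.Agent.BAD.H88

section TransportE

variable {K F F₁ R : Type*} [Field K] [Field F] [Algebra K F] [Field F₁] [Algebra K F₁] [Field R]
variable (V : ValuationSubring F₁) (red : V →+* R) (w : F ≃ₐ[K] F₁)

/-- The valuation ring `w⁻¹ V` of `F`. -/
def comapVE : ValuationSubring F := V.comap (w.toAlgHom.toRingHom)

theorem mem_comapVE_iff (x : F) : x ∈ comapVE V w ↔ w x ∈ V := Iff.rfl

/-- `w : w⁻¹ V → V`. -/
def comapRestrictE : ↥(comapVE V w) →+* ↥V where
  toFun x := ⟨w (x : F), x.2⟩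
  map_one' := Subtype.ext (map_one w)
  map_mul' x y := Subtype.ext (map_mul w (x : F) (y : F))
  map_zero' := Subtype.ext (map_zero w)
  map_add' x y := Subtype.ext (map_add w (x : F) (y : F))

theorem coe_comapRestrictE (x : ↥(comapVE V w)) :
    ((comapRestrictE V w x : ↥V) : F₁) = w (x : F) := rfl

/-- The residue map of `w⁻¹ V`: `red ∘ w`. -/
def comapRedE : ↥(comapVE V w) →+* R := red.comp (comapRestrictE V w)

theorem comapRedE_mk (x : F) (h : x ∈ comapVE V w) :
    comapRedE V red w ⟨x, h⟩ = red ⟨w x, h⟩ := rfl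

theorem comapRedE_surjective (hs : Function.Surjective red) :
    Function.Surjective (comapRedE V red w) := by
  intro y
  obtain ⟨v, rfl⟩ := hs y
  have hm : w.symm (v : F₁) ∈ comapVE V w := by
    rw [mem_comapVE_iff, AlgEquiv.apply_symm_apply]; exact v.2
  refine ⟨⟨w.symm (v : F₁), hm⟩, ?_⟩
  rw [comapRedE_mk]
  congr 1
  exact Subtype.ext (w.apply_symm_apply _)

theorem comapRedE_eq_zero_iff
    (hz : ∀ u : ↥V, red u = 0 ↔ u ∈ IsLocalRing.maximalIdeal ↥V) (u : ↥(comapVE V w)) :
    comapRedE V red w u = 0 ↔ u ∈ IsLocalRing.maximalIdeal ↥(comapVE V w) := by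
  show red (comapRestrictE V w u) = 0 ↔ _
  rw [hz, mem_maximalIdeal_iff', mem_maximalIdeal_iff', coe_comapRestrictE, mem_comapVE_iff,
    map_inv₀]
  constructor
  · rintro (h | h)
    · left
      exact (map_eq_zero_iff w w.injective).mp h
    · exact Or.inr h
  · rintro (h | h)
    · left
      rw [h, map_zero]
    · exact Or.inr h

theorem comapE_exists_scale
    (hsc : ∀ f : F₁, f ≠ 0 → ∃ c : K, c ≠ 0 ∧
      ∃ h : algebraMap K F₁ c * f ∈ V, red ⟨_, h⟩ ≠ 0) (f : F) (hf : f ≠ 0) :
    ∃ c : K, c ≠ 0 ∧ ∃ h : algebraMap K F c * f ∈ comapVE V w, comapRedE V red w ⟨_, h⟩ ≠ 0 := by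
  have hwf : w f ≠ 0 := fun h => hf ((map_eq_zero_iff w w.injective).mp h)
  obtain ⟨c, hc, h, hr⟩ := hsc (w f) hwf
  have e : w (algebraMap K F c * f) = algebraMap K F₁ c * w f := by
    rw [map_mul, AlgEquiv.commutes]
  have hm : algebraMap K F c * f ∈ comapVE V w := by
    rw [mem_comapVE_iff, e]; exact h
  refine ⟨c, hc, hm, ?_⟩
  rw [comapRedE_mk]
  have e2 : (⟨w (algebraMap K F c * f), hm⟩ : ↥V) = ⟨algebraMap K F₁ c * w f, h⟩ :=
    Subtype.ext e
  rw [e2]
  exact hr

theorem comapE_const_mem (c : K) :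
    algebraMap K F c ∈ comapVE V w ↔ algebraMap K F₁ c ∈ V := by
  rw [mem_comapVE_iff, AlgEquiv.commutes]

theorem comapE_const_red (c : K) (h₁ : algebraMap K F₁ c ∈ V)
    (h₂ : algebraMap K F c ∈ comapVE V w) :
    comapRedE V red w ⟨_, h₂⟩ = red ⟨_, h₁⟩ := by
  rw [comapRedE_mk]
  congr 1
  exact Subtype.ext (w.commutes c)

end TransportE

end Fermat.Agent.S36.NU.H88
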