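import Fermat.Agent.S36.NU.H88_MidExp
import Fermat.Agent.S36.NU.H88_TransportE
import Fermat.Agent.S36.NU.H88_WQ

/-!
# S36, NU-B1 (helper88): the three Gauss valuations `V₂₀`, `V₁₁`, `V₀₂` of `F_N · Q̄`, `N = M q²`

`A` a valuation ring of `Q̄`, `B M + k q = 1`.
* `V20 A N`  : the Gauss valuation of the `q`-expansion at `∞`, `red20` its residue map;
* `V02`      : `V20 ∘ W_{q²}` (`W_{q²}` the Atkin–Lehner involution), `red02 = red20 ∘ W_{q²}`;
* `V11`      : the Gauss valuation of the `q`-expansion `cMid` at the middle cusp `1/(q M)`,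
               `red11` its residue map (with values in `redField` of the image of `cMid`).
For each: kernel of the residue map, surjectivity, scaling, constants.
-/

set_option autoImplicit false
set_option synthInstance.maxHeartbeats 400000
set_option maxHeartbeats 1000000
set_option linter.unusedSectionVars false
set_option linter.style.haveILetI false

noncomputable section

namespace Fermat.Agent.S36.NU.H88

open Fermat.Agent.S24 Fermat.Agent.BAD.H88 ModularCurve
open Fermat.Agent.S28 Fermat.Agent.S28.H73 Fermat.Agent.RED.H73 Fermat.Agent.RED.H17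

/-! ## Generic Gauss valuation of a field with the scaling property -/

section Generic

variable {C : Type} [Field C] (O : ValuationSubring C)
  {F : IntermediateField C (LaurentSeries C)} (h : HasScale O F)

theorem gauss_exists_scale (f : F) (hf : f ≠ 0) :
    ∃ c : C, c ≠ 0 ∧ ∃ hm : algebraMap C F c * f ∈ gaussValSub O F h,
      gaussResF' O h ⟨_, hm⟩ ≠ 0 := by
  obtain ⟨c, u, hc, hfu⟩ := exists_unit_scale O h f hf
  refine ⟨c⁻¹, inv_ne_zero hc, ?_⟩
  have e : algebraMap C F c⁻¹ * f = ((u : ↥(gaussValSub O F h)) : F) := by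
    rw [hfu, ← mul_assoc, ← map_mul, inv_mul_cancel₀ hc, map_one, one_mul]
  have hmem : algebraMap C F c⁻¹ * f ∈ gaussValSub O F h := e ▸ (u : ↥(gaussValSub O F h)).2
  refine ⟨hmem, ?_⟩
  have e2 : (⟨_, hmem⟩ : ↥(gaussValSub O F h)) = u := Subtype.ext e
  rw [e2]
  exact (gaussResF'_ne_zero_iff_isUnit O h _).mpr u.isUnit

end Generic

/-! ## The valuation at `∞` -/

section V20

variable (A : ValuationSubring Kbar) (N : ℕ) [NeZero N]

/-- The scaling property of `F_N`. -/
theorem hScN : HasScale A (modularFunctionFieldBar N) := hasScale_laurentBaseChange A N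

/-- The Gauss valuation ring of the `q`-expansion at `∞`. -/
abbrev V20 : ValuationSubring (FN N) := gaussValSub A (modularFunctionFieldBar N) (hScN A N)

/-- Its residue field, inside `k((q))`. -/
abbrev F20 : Type := ↥(redField A (modularFunctionFieldBar N) (hScN A N))

/-- Its residue map. -/
abbrev red20 : ↥(V20 A N) →+* F20 A N := gaussResF' A (hScN A N)

theorem mem_V20_iff (x : FN N) : x ∈ V20 A N ↔ (x : LaurentSeries Kbar) ∈ gaussRingV A := Iff.rfl

theorem red20_eq_zero_iff (u : ↥(V20 A N)) :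
    red20 A N u = 0 ↔ u ∈ IsLocalRing.maximalIdeal ↥(V20 A N) :=
  gaussResF'_eq_zero_iff A (hScN A N) u

theorem red20_surjective : Function.Surjective (red20 A N) := gaussResF'_surjective A (hScN A N)

theorem exists_scale20 (f : FN N) (hf : f ≠ 0) :
    ∃ c : Kbar, c ≠ 0 ∧ ∃ h : algebraMap Kbar (FN N) c * f ∈ V20 A N, red20 A N ⟨_, h⟩ ≠ 0 :=
  gauss_exists_scale A (hScN A N) f hf

theorem const_mem20 (c : Kbar) : algebraMap Kbar (FN N) c ∈ V20 A N ↔ c ∈ A :=
  algebraMap_mem_gaussValSub_iff A (hScN A N) c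

theorem red20_const (c : ↥A) (h : algebraMap Kbar (FN N) (c : Kbar) ∈ V20 A N) :
    red20 A N ⟨_, h⟩ = algebraMap (kV A) (F20 A N) (resV A c) :=
  gaussResF'_algebraMap A (hScN A N) c h

end V20

/-! ## The valuations `V₀₂` and `V₁₁` -/

section Three

variable (A : ValuationSubring Kbar)
variable (N q M : ℕ) (B k : ℤ) (hN : N = M * (q * q)) (hB : B * M + k * q = 1) (hq : q.Prime)
  [NeZero N] [NeZero q]

omit [NeZero N] [NeZero q] in
/-- Bezout for `(q², M)`. -/
theorem bezout_sq (hB : B * M + k * q = 1) :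
    k ^ 2 * ((q * q : ℕ) : ℤ) + (B ^ 2 * M + 2 * B * k * q) * (M : ℤ) = 1 := by
  push_cast
  linear_combination (B * M + k * q + 1) * hB

include hN hB

/-- The Atkin–Lehner involution `W_{q²}` of `F_N`. -/
def wSq : FN N ≃ₐ[Kbar] FN N :=
  wQ N (q * q) M (k ^ 2) (B ^ 2 * M + 2 * B * k * q) hN (bezout_sq q M B k hB)

/-- **`V₀₂ = V₂₀ ∘ W_{q²}`.** -/
def V02 : ValuationSubring (FN N) := comapV (V20 A N) (wSq N q M B k hN hB)

theorem mem_V02_iff (x : FN N) : x ∈ V02 A N q M B k hN hB ↔ wSq N q M B k hN hB x ∈ V20 A N :=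
  Iff.rfl

/-- The residue map of `V₀₂`, with values in the residue field of `V₂₀`. -/
def red02 : ↥(V02 A N q M B k hN hB) →+* F20 A N :=
  comapRed (V20 A N) (red20 A N) (wSq N q M B k hN hB)

theorem red02_mk (x : FN N) (h : x ∈ V02 A N q M B k hN hB) :
    red02 A N q M B k hN hB ⟨x, h⟩ = red20 A N ⟨wSq N q M B k hN hB x, h⟩ := rfl

theorem red02_eq_zero_iff (u : ↥(V02 A N q M B k hN hB)) :
    red02 A N q M B k hN hB u = 0 ↔ u ∈ IsLocalRing.maximalIdeal ↥(V02 A N q M B k hN hB) :=
  comapRed_eq_zero_iff _ _ _ (red20_eq_zero_iff A N) u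

theorem red02_surjective : Function.Surjective (red02 A N q M B k hN hB) :=
  comapRed_surjective _ _ _ (red20_surjective A N)

theorem exists_scale02 (f : FN N) (hf : f ≠ 0) :
    ∃ c : Kbar, c ≠ 0 ∧ ∃ h : algebraMap Kbar (FN N) c * f ∈ V02 A N q M B k hN hB,
      red02 A N q M B k hN hB ⟨_, h⟩ ≠ 0 :=
  comap_exists_scale _ _ _ (exists_scale20 A N) f hf

theorem const_mem02 (c : Kbar) : algebraMap Kbar (FN N) c ∈ V02 A N q M B k hN hB ↔ c ∈ A :=
  (comap_const_mem _ _ c).trans (const_mem20 A N c)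

theorem const_red02 (c : Kbar) (h₁ : algebraMap Kbar (FN N) c ∈ V20 A N)
    (h₂ : algebraMap Kbar (FN N) c ∈ V02 A N q M B k hN hB) :
    red02 A N q M B k hN hB ⟨_, h₂⟩ = red20 A N ⟨_, h₁⟩ :=
  comap_const_red _ _ _ c h₁ h₂

theorem wSq_wSq (x : FN N) : wSq N q M B k hN hB (wSq N q M B k hN hB x) = x :=
  wQ_wQ _ _ _ _ _ _ _ x

theorem wSq_mem_V02_iff (x : FN N) :
    wSq N q M B k hN hB x ∈ V02 A N q M B k hN hB ↔ x ∈ V20 A N := by
  rw [mem_V02_iff, wSq_wSq]

include hq

/-- The image of the expansion at the middle cusp. -/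
abbrev FMid : IntermediateField Kbar (LaurentSeries Kbar) := (cMid N q M B k hN hB hq).fieldRange

/-- `F_N ≃ cMid F_N`. -/
abbrev eMid : FN N ≃ₐ[Kbar] ↥(FMid N q M B k hN hB hq) := (cMid N q M B k hN hB hq).equivFieldRange

theorem coe_eMid (x : FN N) :
    ((eMid N q M B k hN hB hq x : ↥(FMid N q M B k hN hB hq)) : LaurentSeries Kbar)
      = cMid N q M B k hN hB hq x := rfl

/-- **`V₁₁`**: the Gauss valuation of the expansion at the middle cusp. -/
def V11 : ValuationSubring (FN N) :=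
  comapVE (gaussValSub A (FMid N q M B k hN hB hq) (hasScale_fieldRange_cMid N q M B k hN hB hq A))
    (eMid N q M B k hN hB hq)

theorem mem_V11_iff (x : FN N) :
    x ∈ V11 A N q M B k hN hB hq ↔ cMid N q M B k hN hB hq x ∈ gaussRingV A := Iff.rfl

/-- The residue field of `V₁₁`, inside `k((q))`. -/
abbrev F11 : Type :=
  ↥(redField A (FMid N q M B k hN hB hq) (hasScale_fieldRange_cMid N q M B k hN hB hq A))

/-- The residue map of `V₁₁`. -/
def red11 : ↥(V11 A N q M B k hN hB hq) →+* F11 A N q M B k hN hB hq :=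
  comapRedE _ (gaussResF' A (hasScale_fieldRange_cMid N q M B k hN hB hq A))
    (eMid N q M B k hN hB hq)

theorem coe_red11 (x : FN N) (h : x ∈ V11 A N q M B k hN hB hq) :
    ((red11 A N q M B k hN hB hq ⟨x, h⟩ : F11 A N q M B k hN hB hq) : LaurentSeries (kV A))
      = gaussRedV A ⟨cMid N q M B k hN hB hq x, h⟩ := rfl

theorem red11_eq_zero_iff (u : ↥(V11 A N q M B k hN hB hq)) :
    red11 A N q M B k hN hB hq u = 0 ↔
      u ∈ IsLocalRing.maximalIdeal ↥(V11 A N q M B k hN hB hq) :=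
  comapRedE_eq_zero_iff _ _ _
    (gaussResF'_eq_zero_iff A (hasScale_fieldRange_cMid N q M B k hN hB hq A)) u

theorem red11_surjective : Function.Surjective (red11 A N q M B k hN hB hq) :=
  comapRedE_surjective _ _ _
    (gaussResF'_surjective A (hasScale_fieldRange_cMid N q M B k hN hB hq A))

theorem exists_scale11 (f : FN N) (hf : f ≠ 0) :
    ∃ c : Kbar, c ≠ 0 ∧ ∃ h : algebraMap Kbar (FN N) c * f ∈ V11 A N q M B k hN hB hq,
      red11 A N q M B k hN hB hq ⟨_, h⟩ ≠ 0 :=
  comapE_exists_scale _ _ _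
    (gauss_exists_scale A (hasScale_fieldRange_cMid N q M B k hN hB hq A)) f hf

theorem const_mem11 (c : Kbar) : algebraMap Kbar (FN N) c ∈ V11 A N q M B k hN hB hq ↔ c ∈ A :=
  (comapE_const_mem _ _ c).trans
    (algebraMap_mem_gaussValSub_iff A (hasScale_fieldRange_cMid N q M B k hN hB hq A) c)

theorem red11_const (c : ↥A) (h : algebraMap Kbar (FN N) (c : Kbar) ∈ V11 A N q M B k hN hB hq) :
    red11 A N q M B k hN hB hq ⟨_, h⟩
      = algebraMap (kV A) (F11 A N q M B k hN hB hq) (resV A c) := by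
  have h₁ : algebraMap Kbar ↥(FMid N q M B k hN hB hq) (c : Kbar) ∈
      gaussValSub A (FMid N q M B k hN hB hq) (hasScale_fieldRange_cMid N q M B k hN hB hq A) :=
    (algebraMap_mem_gaussValSub_iff A _ _).mpr c.2
  exact (comapE_const_red _ (gaussResF' A (hasScale_fieldRange_cMid N q M B k hN hB hq A))
    (eMid N q M B k hN hB hq) (c : Kbar) h₁ h).trans
    (gaussResF'_algebraMap A (hasScale_fieldRange_cMid N q M B k hN hB hq A) c h₁)

end Three

end Fermat.Agent.S36.NU.H88
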