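import Fermat.Agent.S36.NU.H79_NuM
import Fermat.Agent.S36.NU.H89_NmN3

/-!
# S36 / NU-B, ND: `Stmt_NuM` from the fibre part alone (helper89)

The three series forms `SerA2`, `SerB1`, `SerB2` are proved (`H89_NmN3.lean`), so the modular
instance of `NUData` (helper79's `stmt_NuM_of`) only needs the fibre part `H79.NmFib`.
-/

set_option autoImplicit false
set_option linter.style.haveILetI false
set_option linter.unusedSectionVars false
set_option synthInstance.maxHeartbeats 400000
set_option maxHeartbeats 1000000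

noncomputable section

open AlgebraicCurve ModularCurve
open Fermat.Agent.S24 Fermat.Agent.BAD.H88 Fermat.Agent.S28 Fermat.Agent.S28.H73
open Fermat.Agent.RED.H73 Fermat.Agent.RED.H17 Fermat.Agent.S36.NU.H88
open Fermat.Agent.S36.NU.H23 Fermat.Agent.S36.NU.H79 Fermat.Agent.BAD Fermat.Agent.RED

namespace Fermat.Agent.S36.NU.H89

section NuMFib

variable (A : ValuationSubring Kbar) (q M : ℕ) (B k : ℤ) (hB : B * M + k * q = 1) (hq : q.Prime)
  [NeZero M] [NeZero q] [NeZero (M * q)] [NeZero (M * q * q)] (hqM : ¬ q ∣ M)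
  (hA : A.LiesOverPrime q) (ht : H91.TameAt M q)

/-- **ND**: the modular instance of `NUData` exists as soon as the fibre part `NmFib` holds. -/
theorem stmt_NuM_of_fib (hF : Fermat.Agent.S36.NU.H79.NmFib A q M B k hB hq hqM hA ht) :
    Fermat.Agent.S36.NU.H79.Stmt_NuM A q M B k hB hq hqM hA ht :=
  Fermat.Agent.S36.NU.H79.stmt_NuM_of A q M B k hB hq hqM hA ht
    (serA2 A q M B k hB hq hqM hA) (serB1 A q M hq hqM hA) (serB2 A q M B k hB hq hqM hA) hF

end NuMFib

end Fermat.Agent.S36.NU.H89
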