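import Fermat.Agent.S36.NU.H16_HssGen
import Fermat.Agent.S36.NU.H74_HssAsm
import Fermat.Agent.S36.NU.H44_PoleRegGen

/-!
# S36 / NU-B, leaf HSS-ASM for `q = 2, 3` (helper91)

The hypothesis `hss` of `H99.pointData_of_dichotomy` (a local equation datum at the supersingular
points) for a chart `C` over `L0 A (M q²)` compatible with helper23's `totM` and satisfying
helper99's `ChartL0` (chart criterion, ramification indices).

* `thetaNZ_q23H3`, `thetaNZ_q23H2` : `hθ`;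
* `isUnitOff_of_pow`, `isUnitOff_incAA_of_pow`, `isUnitOff_incBB_of_pow`,
  `isIntegral_uo_of_pow`, `isIntegral_u2o_of_pow` : `u = f(τ)`, `u'' = f(q²τ)` are integral over
  `K^ur[j]` for a root `f ^ n = unitF M d` of a modular unit;
* `hss_of_compat` : **HSS-ASM, generic in the coordinate** `f` (root of a modular unit with
  integral expansion `u₀`) from the pole hypothesis at the points of `ssM`, for a chart compatible
  with `totM` satisfying `H99.ChartL0`;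
* `ord_jRed_pos_of_ssM` : for `q = 2, 3` the points of `ssM` are zeros of `j̄`;
* `hpole_three`, `hpole_two` : POLE-INST at the points of `ssM`;
* `hss_three`, `hss_two` : the instances `q = 3` (`4 ∣ M`, `f = q23uF3`), `q = 2` (`9 ∣ M`,
  `f = q23uF2`), unconditional given `Compat` + `ChartL0`;
* `hss_three_chart0`, `hss_two_chart0` : the same on helper88's `chart0` from helper16's
  `hss_gen` (hypotheses `hG`, `hthree` of TI3-VAL).
-/

set_option autoImplicit false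
set_option linter.style.haveILetI false
set_option linter.unusedSectionVars false
set_option synthInstance.maxHeartbeats 400000
set_option maxHeartbeats 1000000

noncomputable section

open Polynomial AlgebraicCurve IntermediateField ModularCurve

namespace Fermat.Agent.S36.NU.H91

open Fermat.Agent.S24 Fermat.Agent.BAD.H88 Fermat.Agent.BAD.H30 Fermat.Agent.BAD.H21
open Fermat.Agent.S28 Fermat.Agent.S28.H73 Fermat.Agent.RED.H73 Fermat.Agent.RED.H17
open Fermat.Agent.S36.NU.H88 Fermat.Agent.S36.NU.H23 Fermat.Agent.S36.NU.H16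
open Fermat.Agent.S36.NU.H41 Fermat.Agent.S36.NU.H73 Fermat.Agent.S36.NU.H65
open Fermat.Agent.S36.NU.H5 Fermat.Agent.S36.NU.H74 Fermat.Agent.S36.NU.H24
open Fermat.Agent.RED Fermat.Agent.BAD

/-! ### `hθ` -/

section Theta

variable {k : Type*} [Field k]

theorem q23H3_ne_zero [CharP k 3] : q23H3 k ≠ 0 := by
  intro h0
  have h := q23H3_W1 (k := k)
  rw [h0] at h
  have h1 : q23W1 k = 0 := by simpa using h
  exact q23W1_ne_zero (k := k) h1

theorem q23H3_add_one_ne_zero [CharP k 3] : q23H3 k + 1 ≠ 0 := by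
  intro h0
  have h := q23H3_W1 (k := k)
  rw [h0, mul_zero] at h
  exact q23H3_ne_zero ((pow_eq_zero_iff two_ne_zero).1 h.symm)

theorem thetaL_q23H3_ne_zero [CharP k 3] : thetaL (q23H3 k) ≠ 0 := by
  intro h0
  have h := q23_three_ode (k := k)
  rw [h0, zero_mul] at h
  exact mul_ne_zero q23H3_ne_zero q23H3_add_one_ne_zero h.symm

/-- **`hθ` for `q = 3`.** -/
theorem thetaNZ_q23H3 [CharP k 3] : ThetaNZ 3 (q23H3 k) :=
  thetaNZ_of_thetaL_ne_zero k 3 _ thetaL_q23H3_ne_zero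

theorem q23H2_ne_zero [CharP k 2] : q23H2 k ≠ 0 := by
  intro h0
  have h := q23H2_V1 (k := k)
  rw [h0] at h
  have h1 : q23V1 k = 0 := by simpa using h
  exact q23V1_ne_zero (k := k) h1

theorem q23H2_quad_ne_zero [CharP k 2] : q23H2 k ^ 2 + q23H2 k + 1 ≠ 0 := by
  intro h0
  have h := q23H2_V1 (k := k)
  rw [h0, mul_zero] at h
  exact q23H2_ne_zero ((pow_eq_zero_iff three_ne_zero).1 h.symm)

theorem thetaL_q23H2_ne_zero [CharP k 2] : thetaL (q23H2 k) ≠ 0 := by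
  intro h0
  have h := q23_two_ode (k := k)
  rw [h0, zero_mul] at h
  exact mul_ne_zero q23H2_ne_zero q23H2_quad_ne_zero h.symm

/-- **`hθ` for `q = 2`.** -/
theorem thetaNZ_q23H2 [CharP k 2] : ThetaNZ 2 (q23H2 k) :=
  thetaNZ_of_thetaL_ne_zero k 2 _ thetaL_q23H2_ne_zero

end Theta

/-! ### `huB`, `hu2B`: roots of modular units -/

section Units

variable (A : ValuationSubring Kbar)
variable (q M : ℕ) (B k : ℤ) (hB : B * M + k * q = 1) (hq : q.Prime) [NeZero M] [NeZero q]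
  [NeZero (M * q)] [NeZero (M * q * q)]

/-- A root of a function without zero or pole off the cusps has no zero or pole off the
cusps. -/
theorem isUnitOff_of_pow {N : ℕ} [NeZero N] {x : FN N} {n : ℕ} (hn : n ≠ 0)
    (h : H99.IsUnitOff N (x ^ n)) : H99.IsUnitOff N x := by
  have hx0 : x ≠ 0 := by
    rintro rfl
    exact h.1 (zero_pow hn)
  refine ⟨hx0, fun P hP => ?_⟩
  have h1 := h.2 P hP
  rw [Fermat.Agent.RED.H17.ord_pow] at h1
  have hn' : ((n : ℕ) : ℤ) ≠ 0 := Int.natCast_ne_zero.2 hn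
  rcases mul_eq_zero.1 h1 with h2 | h2
  · exact absurd h2 hn'
  · exact h2

variable (d : ℕ) [NeZero d] (hd : d ∣ M)

theorem incAA_unitF :
    incAA q M (unitF M d hd) = unitF (M * q * q) d (H99.dvd_lvl q M d hd) := by
  apply Subtype.ext
  rw [coe_incAA]
  rfl

omit [NeZero M] [NeZero q] [NeZero (M * q)] [NeZero (M * q * q)] [NeZero d] in
include hd in
theorem dqq_dvd_lvl : d * (q * q) ∣ M * q * q := by
  rw [mul_assoc]
  exact Nat.mul_dvd_mul_right hd (q * q)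

theorem incBB_unitF :
    haveI : NeZero (q * q) := ⟨mul_ne_zero (NeZero.ne q) (NeZero.ne q)⟩
    haveI : NeZero (d * (q * q)) :=
      ⟨mul_ne_zero (NeZero.ne d) (mul_ne_zero (NeZero.ne q) (NeZero.ne q))⟩
    incBB q M (unitF M d hd)
      = unitF (M * q * q) (d * (q * q)) (dqq_dvd_lvl q M d hd)
        * (unitF (M * q * q) (q * q) (H99.qq_dvd_lvl q M))⁻¹ := by
  haveI : NeZero (q * q) := ⟨mul_ne_zero (NeZero.ne q) (NeZero.ne q)⟩
  haveI : NeZero (d * (q * q)) :=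
    ⟨mul_ne_zero (NeZero.ne d) (mul_ne_zero (NeZero.ne q) (NeZero.ne q))⟩
  apply Subtype.ext
  have h1 : ((incBB q M (unitF M d hd) : FN (M * q * q)) : LaurentSeries Kbar)
      = qExpand Kbar q (qExpand Kbar q (coeffEmb Kbar (modularUnitSeries d))) := by
    rw [coe_incBB]
    rfl
  have h2 : ((unitF (M * q * q) (d * (q * q)) (dqq_dvd_lvl q M d hd)
      * (unitF (M * q * q) (q * q) (H99.qq_dvd_lvl q M))⁻¹ : FN (M * q * q)) :
        LaurentSeries Kbar)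
      = coeffEmb Kbar (modularUnitSeries (d * (q * q)))
        * (coeffEmb Kbar (modularUnitSeries (q * q)))⁻¹ := rfl
  rw [h1, h2, coeffEmb_modularUnitSeries, coeffEmb_modularUnitSeries,
    coeffEmb_modularUnitSeries, map_mul, map_mul, map_inv₀, map_inv₀, qExpand_qExpand,
    qExpand_qExpand, qExpand_qExpand]
  have h0 : deltaR Kbar ≠ 0 := deltaR_ne_zero Kbar
  have h3 : qExpand Kbar (q * q) (deltaR Kbar) ≠ 0 := qExpand_deltaR_ne_zero Kbar (q * q)
  have h4 : qExpand Kbar (d * (q * q)) (deltaR Kbar) ≠ 0 :=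
    qExpand_deltaR_ne_zero Kbar (d * (q * q))
  have e1 : qExpand Kbar (q * q * d) (deltaR Kbar) = qExpand Kbar (d * (q * q)) (deltaR Kbar) :=
    qExpand_congr (mul_comm (q * q) d) _
  rw [e1]
  field_simp

variable (f : FN M) (n : ℕ) (hn : n ≠ 0) (hfn : f ^ n = unitF M d hd)

include hn hfn in
theorem isUnitOff_incAA_of_pow : H99.IsUnitOff (M * q * q) (incAA q M f) := by
  refine isUnitOff_of_pow hn ?_
  rw [← map_pow, hfn, incAA_unitF]
  exact H99.isUnitOff_unitF d _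

include hn hfn in
theorem isUnitOff_incBB_of_pow : H99.IsUnitOff (M * q * q) (incBB q M f) := by
  haveI : NeZero (q * q) := ⟨mul_ne_zero (NeZero.ne q) (NeZero.ne q)⟩
  haveI : NeZero (d * (q * q)) :=
    ⟨mul_ne_zero (NeZero.ne d) (mul_ne_zero (NeZero.ne q) (NeZero.ne q))⟩
  refine isUnitOff_of_pow hn ?_
  rw [← map_pow, hfn, incBB_unitF]
  exact (H99.isUnitOff_unitF (d * (q * q)) _).mul (H99.isUnitOff_unitF (q * q) _).inv

variable (u₀ : LaurentSeries ℤ) (hf : (f : LaurentSeries Kbar) = intSer Kbar u₀)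

include hn hfn in
/-- Horizontal integrality of `u = f(t)`. -/
theorem isIntegral_uo_of_pow :
    IsIntegral ↥(Algebra.adjoin ↥(Kur A) ({j0 A (M * q * q)} : Set ↥(L0 A (M * q * q))))
      (uo A q M f u₀ hf) :=
  H99.isIntegral_Kur_of_bar A _ _
    (H99.isIntegral_bar_of_unitOff (isUnitOff_incAA_of_pow q M d hd f n hn hfn))

include hn hfn in
/-- Horizontal integrality of `u'' = f(t^{q²})`. -/
theorem isIntegral_u2o_of_pow :
    IsIntegral ↥(Algebra.adjoin ↥(Kur A) ({j0 A (M * q * q)} : Set ↥(L0 A (M * q * q))))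
      (u2o A q M f u₀ hf) :=
  H99.isIntegral_Kur_of_bar A _ _
    (H99.isIntegral_bar_of_unitOff (isUnitOff_incBB_of_pow q M d hd f n hn hfn))

end Units

/-! ### HSS-ASM, generic in the coordinate -/

section Core

variable (A : ValuationSubring Kbar)
variable (q M : ℕ) (B k : ℤ) (hB : B * M + k * q = 1) (hq : q.Prime) [NeZero M] [NeZero q]
  [NeZero (M * q)] [NeZero (M * q * q)] (hqM : ¬ q ∣ M) (hA : A.LiesOverPrime q)
  (ht : H91.TameAt M q)

attribute [local instance] algkM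

/-- **HSS-ASM, generic in the coordinate.**  `C` a chart over `L0 A (M q²)` compatible with
`totM`, with the chart criterion (`H99.ChartL0`); `f ∈ F_M` a root of a modular unit with
integral expansion `u₀`, `θ ū₀ ≠ 0`; at every supersingular point `z` of level `M`, `ū₀ - c` is a
coordinate for some `c ∈ 𝔽_{q²}` and `- δ̄^q` has a pole of order `q` (POLE-INST).  Then there is
a local equation datum at the closed point of `C` above `z`. -/
theorem hss_of_compat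
    (C : Chart ↥(Rur A) ↥(L0 A (M * q * q)) (kV A) (Fin 3) (kap3 (FM A M) (FM A M)))
    (hc : Compat C (totM A q M B k hB hq hqM hA ht)) (e : Fin 3 → ℕ)
    (S : H99.ChartL0 A q M B k hB hq C ((q : ℕ) : ↥(Rur A)) e 0 1 2)
    (f : FN M) (u₀ : LaurentSeries ℤ) (hf : (f : LaurentSeries Kbar) = intSer Kbar u₀)
    (d : ℕ) [NeZero d] (hd : d ∣ M) (n : ℕ) (hn : n ≠ 0) (hfn : f ^ n = unitF M d hd)
    (hθ : ThetaNZ q (coeffMap (Int.castRingHom (kV A)) u₀))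
    (hpole : ∀ z ∈ ssM A q M, ∀ u y₂ : FM A M,
      (u : LaurentSeries (kV A)) = coeffMap (Int.castRingHom (kV A)) u₀ →
      (y₂ : LaurentSeries (kV A)) = - coeffMap (Int.castRingHom (kV A)) (kdel q u₀) ^ q →
      ∃ c : kV A, z.ord (u - algebraMap (kV A) (FM A M) c) = 1 ∧ c ^ q ^ 2 = c ∧
        z.ord y₂ = -(q : ℤ)) :
    ∀ z ∈ ssM A q M, ∀ 𝔪 : Ideal C.B, 𝔪.IsMaximal →
      (∀ β : C.B, β ∈ 𝔪 ↔
        VanAt ((totM A q M B k hB hq hqM hA ht).pt 0 z) (C.rdB 0 β)) →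
      Nonempty (LocEq C ((q : ℕ) : ↥(Rur A)) 𝔪) := by
  intro z hz 𝔪 hmax h𝔪
  haveI : 𝔪.IsPrime := hmax.isPrime
  haveI : CharP (kap3 (FM A M) (FM A M) 0) q := charP_kap3 A q M hq hA 0
  have h20u := uo_mem20 A q M f u₀ hf
  have h20d := d20o_mem A q M hq f u₀ hf
  obtain ⟨c, h1, h2, h3⟩ := hpole z hz (r20 A q M hq hqM hA ⟨uo A q M f u₀ hf, h20u⟩)
    (r20 A q M hq hqM hA ⟨d20o A q M f u₀ hf, h20d⟩)
    ((coe_r20 A q M hq hqM hA _).trans (s20_uo A q M f u₀ hf h20u))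
    ((coe_r20 A q M hq hqM hA _).trans (s20_d20o A q M hq hA f u₀ hf))
  have huB : uo A q M f u₀ hf ∈ C.B :=
    S.mem_B (isIntegral_uo_of_pow A q M d hd f n hn hfn u₀ hf) h20u
      (uo_mem11 A q M B k hB hq f u₀ hf) (uo_mem02 A q M B k hB hq f u₀ hf)
  have hu2B : u2o A q M f u₀ hf ∈ C.B :=
    S.mem_B (isIntegral_u2o_of_pow A q M d hd f n hn hfn u₀ hf) (u2o_mem20 A q M f u₀ hf)
      (u2o_mem11 A q M B k hB hq f u₀ hf) (u2o_mem02 A q M B k hB hq f u₀ hf)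
  refine (locEq_ss_modV A q M B k hB hq C ((q : ℕ) : ↥(Rur A)) S.hqR hA S.hqV
    (H99.ChartL0.Hint A q M) S.hBH (S.hqH (hq := hq)) S.critH e S.hE 0 1 2 S.hcases
    (by decide) (by decide) (by decide) S.he₂₀ S.he₁₁ S.he₀₂ S.hV20 S.hV11 S.hV02
    f u₀ hf hθ huB hu2B z c ?_ h2 ?_ 𝔪 h𝔪).2
  · rw [hc.hrd, rdN_totM_zero A q M B k hB hq hqM hA ht _ h20u]
    exact h1
  · rw [hc.hrd, rdN_totM_zero A q M B k hB hq hqM hA ht _ h20d]
    exact h3

end Core

/-! ### The supersingular points for `q = 2, 3` are the zeros of `j̄` -/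

section SSM

variable (A : ValuationSubring Kbar) (q M : ℕ) [NeZero M] [NeZero q] [NeZero (M * q)]

/-- For `q = 2, 3` the supersingular points are zeros of `j̄`. -/
theorem ord_jRed_pos_of_ssM (hq : q.Prime) (hA : A.LiesOverPrime q) (h23 : q = 2 ∨ q = 3)
    (z : Place (kV A) (FM A M)) (hz : z ∈ ssM A q M) :
    0 < z.ord (Fermat.Agent.BAD.H91.jRed A M) := by
  haveI : Fact q.Prime := ⟨hq⟩
  have h1 := hz.2 (Fermat.Agent.BAD.H91.jRed A M ^ (q - 1)) (by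
    rw [gaussRes_unitF_small A (M * q) q hA (Dvd.intro_left M rfl) h23]
    show (Fermat.Agent.BAD.H91.jRed A M : LaurentSeries (kV A)) ^ (q - 1) = _
    rw [show (Fermat.Agent.BAD.H91.jRed A M : LaurentSeries (kV A)) = jqModC (kV A) from
      red_jF A M])
  rw [Fermat.Agent.RED.H17.ord_pow] at h1
  by_contra hle
  have h2 : z.ord (Fermat.Agent.BAD.H91.jRed A M) ≤ 0 := not_lt.mp hle
  have h3 : ((q - 1 : ℕ) : ℤ) * z.ord (Fermat.Agent.BAD.H91.jRed A M) ≤ 0 :=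
    mul_nonpos_of_nonneg_of_nonpos (Int.natCast_nonneg _) h2
  omega

end SSM

/-! ### The instances `q = 3`, `q = 2` -/

section Three

variable (A : ValuationSubring Kbar) (M : ℕ) (B k : ℤ) (hB : B * M + k * 3 = 1)
  [NeZero M] [NeZero (M * 3)] [NeZero (M * 3 * 3)] (hqM : ¬ 3 ∣ M) (hA : A.LiesOverPrime 3)
  (ht : H91.TameAt M 3) (h4 : 4 ∣ M)

attribute [local instance] algkM

include hqM hA h4 in
/-- POLE-INST at the points of `ssM`, `q = 3`. -/
theorem hpole_three (z : Place (kV A) (FM A M)) (hz : z ∈ ssM A 3 M) (u y₂ : FM A M)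
    (hu : (u : LaurentSeries (kV A)) = coeffMap (Int.castRingHom (kV A)) q23hZ4)
    (hy₂ : (y₂ : LaurentSeries (kV A))
      = - coeffMap (Int.castRingHom (kV A)) (kdel 3 q23hZ4) ^ 3) :
    ∃ c : kV A, z.ord (u - algebraMap (kV A) (FM A M) c) = 1 ∧ c ^ 3 ^ 2 = c ∧
      z.ord y₂ = -((3 : ℕ) : ℤ) := by
  haveI : Fact (Nat.Prime 3) := ⟨Nat.prime_three⟩
  haveI : CharP (kV A) 3 := BAD.H82.charP_kV A Nat.prime_three hA
  have hE := stmt_GA M 3 Nat.prime_three hqM A hA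
  have hdm : coeffMap (Int.castRingHom (kV A)) (kdel 3 q23hZ4)
      ∈ redField A (modularFunctionFieldBar M) (hScM A M) := by
    rw [hE]
    exact H44.dbar_mem_three A M hA h4 hqM
  have hpos := ord_jRed_pos_of_ssM A 3 M Nat.prime_three hA (Or.inr rfl) z hz
  obtain ⟨h1, h2, -, h4'⟩ := H44.pole_full_three A M hA h4 hqM
    (redField A (modularFunctionFieldBar M) (hScM A M)) hE z
    (Fermat.Agent.BAD.H91.jRed A M) u ⟨_, hdm⟩ y₂ (red_jF A M)
    (hu.trans (coeffMap_q23hZ4 (kV A))) rfl hy₂ hpos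
  exact ⟨1, h1, h2, h4'⟩

include h4 in
/-- **HSS-ASM for `q = 3`** (`4 ∣ M`): a local equation datum at the supersingular points. -/
theorem hss_three
    (C : Chart ↥(Rur A) ↥(L0 A (M * 3 * 3)) (kV A) (Fin 3) (kap3 (FM A M) (FM A M)))
    (hc : Compat C (totM A 3 M B k hB Nat.prime_three hqM hA ht)) (e : Fin 3 → ℕ)
    (S : H99.ChartL0 A 3 M B k hB Nat.prime_three C ((3 : ℕ) : ↥(Rur A)) e 0 1 2) :
    ∀ z ∈ ssM A 3 M, ∀ 𝔪 : Ideal C.B, 𝔪.IsMaximal →
      (∀ β : C.B, β ∈ 𝔪 ↔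
        VanAt ((totM A 3 M B k hB Nat.prime_three hqM hA ht).pt 0 z) (C.rdB 0 β)) →
      Nonempty (LocEq C ((3 : ℕ) : ↥(Rur A)) 𝔪) := by
  haveI : CharP (kV A) 3 := BAD.H82.charP_kV A Nat.prime_three hA
  refine hss_of_compat A 3 M B k hB Nat.prime_three hqM hA ht C hc e S (q23uF3 M h4) q23hZ4
    (q23uF3_coe M h4) 4 h4 3 (by norm_num) (q23uF3_cube M h4) ?_ ?_
  · rw [coeffMap_q23hZ4 (kV A)]
    exact thetaNZ_q23H3
  · intro z hz u y₂ hu hy₂
    exact hpole_three A M hqM hA h4 z hz u y₂ hu hy₂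

include h4 in
/-- **HSS-ASM for `q = 3`** on helper88's `chart0` (hypotheses `hG`, `hthree` of TI3-VAL as in
helper16's `hss_gen`). -/
theorem hss_three_chart0 (i₀ : Fin 3)
    (hG : ∀ p : (↥(Kur A))[X],
      aeval (j0 A (M * 3 * 3)) p ∈ (totM A 3 M B k hB Nat.prime_three hqM hA ht).V i₀ →
        ∀ i, p.coeff i ∈ (algebraMap ↥(Rur A) ↥(Kur A)).range)
    (hthree : ∀ f : ↥(L0 A (M * 3 * 3)),
      (∀ i, f ∈ (totM A 3 M B k hB Nat.prime_three hqM hA ht).V i) →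
      ∃ P : (↥(L0 A (M * 3 * 3)))[X], P.Monic ∧
        (∀ m, P.coeff m ∈ (totM A 3 M B k hB Nat.prime_three hqM hA ht).V i₀ ∧
          P.coeff m ∈ IntermediateField.adjoin ↥(Kur A) {j0 A (M * 3 * 3)}) ∧
        P.eval f = 0) :
    ∀ z ∈ ssM A 3 M, ∀ 𝔪 : Ideal (chart0 A 3 M B k hB Nat.prime_three hqM hA ht).B,
      𝔪.IsMaximal →
      (∀ β : (chart0 A 3 M B k hB Nat.prime_three hqM hA ht).B, β ∈ 𝔪 ↔
        VanAt ((totM A 3 M B k hB Nat.prime_three hqM hA ht).pt 0 z)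
          ((chart0 A 3 M B k hB Nat.prime_three hqM hA ht).rdB 0 β)) →
      Nonempty (LocEq (chart0 A 3 M B k hB Nat.prime_three hqM hA ht)
        ((3 : ℕ) : ↥(Rur A)) 𝔪) := by
  intro z hz 𝔪 hmax h𝔪
  haveI : 𝔪.IsPrime := hmax.isPrime
  haveI : CharP (kV A) 3 := BAD.H82.charP_kV A Nat.prime_three hA
  have h20u := uo_mem20 A 3 M (q23uF3 M h4) q23hZ4 (q23uF3_coe M h4)
  have h20d := d20o_mem A 3 M Nat.prime_three (q23uF3 M h4) q23hZ4 (q23uF3_coe M h4)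
  have hu := (coe_r20 A 3 M Nat.prime_three hqM hA ⟨_, h20u⟩).trans
    (s20_uo A 3 M (q23uF3 M h4) q23hZ4 (q23uF3_coe M h4) h20u)
  have hy := (coe_r20 A 3 M Nat.prime_three hqM hA ⟨_, h20d⟩).trans
    (s20_d20o A 3 M Nat.prime_three hA (q23uF3 M h4) q23hZ4 (q23uF3_coe M h4))
  obtain ⟨c, h1, h2, h3⟩ := hpole_three A M hqM hA h4 z hz _ _ hu hy
  have hθ : ThetaNZ 3 (coeffMap (Int.castRingHom (kV A)) q23hZ4) := by
    rw [coeffMap_q23hZ4 (kV A)]
    exact thetaNZ_q23H3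
  exact (H16.hss_gen A 3 M B k hB Nat.prime_three hqM hA ht i₀ hG hthree (q23uF3 M h4) q23hZ4
    (q23uF3_coe M h4) hθ
    (isIntegral_uo_of_pow A 3 M 4 h4 (q23uF3 M h4) 3 (by norm_num) (q23uF3_cube M h4) q23hZ4
      (q23uF3_coe M h4))
    (isIntegral_u2o_of_pow A 3 M 4 h4 (q23uF3 M h4) 3 (by norm_num) (q23uF3_cube M h4) q23hZ4
      (q23uF3_coe M h4))
    z c _ _ hu hy h1 h2 h3 𝔪 h𝔪).2

end Three

section Two

variable (A : ValuationSubring Kbar) (M : ℕ) (B k : ℤ) (hB : B * M + k * 2 = 1)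
  [NeZero M] [NeZero (M * 2)] [NeZero (M * 2 * 2)] (hqM : ¬ 2 ∣ M) (hA : A.LiesOverPrime 2)
  (ht : H91.TameAt M 2) (h9 : 9 ∣ M)

attribute [local instance] algkM

include hqM hA h9 in
/-- POLE-INST at the points of `ssM`, `q = 2`. -/
theorem hpole_two (z : Place (kV A) (FM A M)) (hz : z ∈ ssM A 2 M) (u y₂ : FM A M)
    (hu : (u : LaurentSeries (kV A)) = coeffMap (Int.castRingHom (kV A)) q23hZ9)
    (hy₂ : (y₂ : LaurentSeries (kV A))
      = - coeffMap (Int.castRingHom (kV A)) (kdel 2 q23hZ9) ^ 2) :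
    ∃ c : kV A, z.ord (u - algebraMap (kV A) (FM A M) c) = 1 ∧ c ^ 2 ^ 2 = c ∧
      z.ord y₂ = -((2 : ℕ) : ℤ) := by
  haveI : Fact (Nat.Prime 2) := ⟨Nat.prime_two⟩
  haveI : CharP (kV A) 2 := BAD.H82.charP_kV A Nat.prime_two hA
  have hE := stmt_GA M 2 Nat.prime_two hqM A hA
  have hdm : coeffMap (Int.castRingHom (kV A)) (kdel 2 q23hZ9)
      ∈ redField A (modularFunctionFieldBar M) (hScM A M) := by
    rw [hE]
    exact H44.dbar_mem_two A M hA h9 hqM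
  have hpos := ord_jRed_pos_of_ssM A 2 M Nat.prime_two hA (Or.inl rfl) z hz
  obtain ⟨h1, h2, -, h4'⟩ := H44.pole_full_two A M hA h9 hqM
    (redField A (modularFunctionFieldBar M) (hScM A M)) hE z
    (Fermat.Agent.BAD.H91.jRed A M) u ⟨_, hdm⟩ y₂ (red_jF A M)
    (hu.trans (coeffMap_q23hZ9 (kV A))) rfl hy₂ hpos
  exact ⟨1, h1, h2, h4'⟩

include h9 in
/-- **HSS-ASM for `q = 2`** (`9 ∣ M`): a local equation datum at the supersingular points. -/
theorem hss_two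
    (C : Chart ↥(Rur A) ↥(L0 A (M * 2 * 2)) (kV A) (Fin 3) (kap3 (FM A M) (FM A M)))
    (hc : Compat C (totM A 2 M B k hB Nat.prime_two hqM hA ht)) (e : Fin 3 → ℕ)
    (S : H99.ChartL0 A 2 M B k hB Nat.prime_two C ((2 : ℕ) : ↥(Rur A)) e 0 1 2) :
    ∀ z ∈ ssM A 2 M, ∀ 𝔪 : Ideal C.B, 𝔪.IsMaximal →
      (∀ β : C.B, β ∈ 𝔪 ↔
        VanAt ((totM A 2 M B k hB Nat.prime_two hqM hA ht).pt 0 z) (C.rdB 0 β)) →
      Nonempty (LocEq C ((2 : ℕ) : ↥(Rur A)) 𝔪) := by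
  haveI : CharP (kV A) 2 := BAD.H82.charP_kV A Nat.prime_two hA
  refine hss_of_compat A 2 M B k hB Nat.prime_two hqM hA ht C hc e S (q23uF2 M h9) q23hZ9
    (q23uF2_coe M h9) 9 h9 8 (by norm_num) (q23uF2_pow M h9) ?_ ?_
  · rw [coeffMap_q23hZ9 (kV A)]
    exact thetaNZ_q23H2
  · intro z hz u y₂ hu hy₂
    exact hpole_two A M hqM hA h9 z hz u y₂ hu hy₂

include h9 in
/-- **HSS-ASM for `q = 2`** on helper88's `chart0` (hypotheses `hG`, `hthree` of TI3-VAL as in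
helper16's `hss_gen`). -/
theorem hss_two_chart0 (i₀ : Fin 3)
    (hG : ∀ p : (↥(Kur A))[X],
      aeval (j0 A (M * 2 * 2)) p ∈ (totM A 2 M B k hB Nat.prime_two hqM hA ht).V i₀ →
        ∀ i, p.coeff i ∈ (algebraMap ↥(Rur A) ↥(Kur A)).range)
    (hthree : ∀ f : ↥(L0 A (M * 2 * 2)),
      (∀ i, f ∈ (totM A 2 M B k hB Nat.prime_two hqM hA ht).V i) →
      ∃ P : (↥(L0 A (M * 2 * 2)))[X], P.Monic ∧
        (∀ m, P.coeff m ∈ (totM A 2 M B k hB Nat.prime_two hqM hA ht).V i₀ ∧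
          P.coeff m ∈ IntermediateField.adjoin ↥(Kur A) {j0 A (M * 2 * 2)}) ∧
        P.eval f = 0) :
    ∀ z ∈ ssM A 2 M, ∀ 𝔪 : Ideal (chart0 A 2 M B k hB Nat.prime_two hqM hA ht).B,
      𝔪.IsMaximal →
      (∀ β : (chart0 A 2 M B k hB Nat.prime_two hqM hA ht).B, β ∈ 𝔪 ↔
        VanAt ((totM A 2 M B k hB Nat.prime_two hqM hA ht).pt 0 z)
          ((chart0 A 2 M B k hB Nat.prime_two hqM hA ht).rdB 0 β)) →
      Nonempty (LocEq (chart0 A 2 M B k hB Nat.prime_two hqM hA ht)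
        ((2 : ℕ) : ↥(Rur A)) 𝔪) := by
  intro z hz 𝔪 hmax h𝔪
  haveI : 𝔪.IsPrime := hmax.isPrime
  haveI : CharP (kV A) 2 := BAD.H82.charP_kV A Nat.prime_two hA
  have h20u := uo_mem20 A 2 M (q23uF2 M h9) q23hZ9 (q23uF2_coe M h9)
  have h20d := d20o_mem A 2 M Nat.prime_two (q23uF2 M h9) q23hZ9 (q23uF2_coe M h9)
  have hu := (coe_r20 A 2 M Nat.prime_two hqM hA ⟨_, h20u⟩).trans
    (s20_uo A 2 M (q23uF2 M h9) q23hZ9 (q23uF2_coe M h9) h20u)
  have hy := (coe_r20 A 2 M Nat.prime_two hqM hA ⟨_, h20d⟩).trans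
    (s20_d20o A 2 M Nat.prime_two hA (q23uF2 M h9) q23hZ9 (q23uF2_coe M h9))
  obtain ⟨c, h1, h2, h3⟩ := hpole_two A M hqM hA h9 z hz _ _ hu hy
  have hθ : ThetaNZ 2 (coeffMap (Int.castRingHom (kV A)) q23hZ9) := by
    rw [coeffMap_q23hZ9 (kV A)]
    exact thetaNZ_q23H2
  exact (H16.hss_gen A 2 M B k hB Nat.prime_two hqM hA ht i₀ hG hthree (q23uF2 M h9) q23hZ9
    (q23uF2_coe M h9) hθ
    (isIntegral_uo_of_pow A 2 M 9 h9 (q23uF2 M h9) 8 (by norm_num) (q23uF2_pow M h9) q23hZ9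
      (q23uF2_coe M h9))
    (isIntegral_u2o_of_pow A 2 M 9 h9 (q23uF2 M h9) 8 (by norm_num) (q23uF2_pow M h9) q23hZ9
      (q23uF2_coe M h9))
    z c _ _ hu hy h1 h2 h3 𝔪 h𝔪).2

end Two

/-! ### Both cases, with `q` a variable -/

section Small

variable (A : ValuationSubring Kbar) (q M : ℕ) (B k : ℤ) (hB : B * M + k * q = 1)
  (hq : q.Prime) [NeZero M] [NeZero q] [NeZero (M * q)] [NeZero (M * q * q)] (hqM : ¬ q ∣ M)
  (hA : A.LiesOverPrime q) (ht : H91.TameAt M q)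

attribute [local instance] algkM

/-- **HSS-ASM for `q = 3` (`4 ∣ M`) and `q = 2` (`9 ∣ M`)**, for a chart compatible with `totM`
satisfying `H99.ChartL0`. -/
theorem hss_small (h23 : (q = 3 ∧ 4 ∣ M) ∨ (q = 2 ∧ 9 ∣ M))
    (C : Chart ↥(Rur A) ↥(L0 A (M * q * q)) (kV A) (Fin 3) (kap3 (FM A M) (FM A M)))
    (hc : Compat C (totM A q M B k hB hq hqM hA ht)) (e : Fin 3 → ℕ)
    (S : H99.ChartL0 A q M B k hB hq C ((q : ℕ) : ↥(Rur A)) e 0 1 2) :
    ∀ z ∈ ssM A q M, ∀ 𝔪 : Ideal C.B, 𝔪.IsMaximal →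
      (∀ β : C.B, β ∈ 𝔪 ↔
        VanAt ((totM A q M B k hB hq hqM hA ht).pt 0 z) (C.rdB 0 β)) →
      Nonempty (LocEq C ((q : ℕ) : ↥(Rur A)) 𝔪) := by
  rcases h23 with ⟨rfl, h4⟩ | ⟨rfl, h9⟩
  · exact hss_three A M B k hB hqM hA ht h4 C hc e S
  · exact hss_two A M B k hB hqM hA ht h9 C hc e S

/-- **HSS-ASM for `q = 3` (`4 ∣ M`) and `q = 2` (`9 ∣ M`)** on helper88's `chart0`. -/
theorem hss_small_chart0 (h23 : (q = 3 ∧ 4 ∣ M) ∨ (q = 2 ∧ 9 ∣ M)) (i₀ : Fin 3)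
    (hG : ∀ p : (↥(Kur A))[X],
      aeval (j0 A (M * q * q)) p ∈ (totM A q M B k hB hq hqM hA ht).V i₀ →
        ∀ i, p.coeff i ∈ (algebraMap ↥(Rur A) ↥(Kur A)).range)
    (hthree : ∀ f : ↥(L0 A (M * q * q)),
      (∀ i, f ∈ (totM A q M B k hB hq hqM hA ht).V i) →
      ∃ P : (↥(L0 A (M * q * q)))[X], P.Monic ∧
        (∀ m, P.coeff m ∈ (totM A q M B k hB hq hqM hA ht).V i₀ ∧
          P.coeff m ∈ IntermediateField.adjoin ↥(Kur A) {j0 A (M * q * q)}) ∧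
        P.eval f = 0) :
    ∀ z ∈ ssM A q M, ∀ 𝔪 : Ideal (chart0 A q M B k hB hq hqM hA ht).B,
      𝔪.IsMaximal →
      (∀ β : (chart0 A q M B k hB hq hqM hA ht).B, β ∈ 𝔪 ↔
        VanAt ((totM A q M B k hB hq hqM hA ht).pt 0 z)
          ((chart0 A q M B k hB hq hqM hA ht).rdB 0 β)) →
      Nonempty (LocEq (chart0 A q M B k hB hq hqM hA ht) ((q : ℕ) : ↥(Rur A)) 𝔪) := by
  rcases h23 with ⟨rfl, h4⟩ | ⟨rfl, h9⟩
  · exact hss_three_chart0 A M B k hB hqM hA ht h4 i₀ hG hthree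
  · exact hss_two_chart0 A M B k hB hqM hA ht h9 i₀ hG hthree

end Small

end Fermat.Agent.S36.NU.H91
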