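import Fermat.Agent.S36.NU.H44_PoleInst
import Fermat.Agent.S36.NU.H5_Q23Gu
import Fermat.Agent.S36.NU.H5_Q23Lift

/-!
# S36 / NU-B, leaf Q23-INST (helper91): POLE-INST at the supersingular places, `q = 2, 3`

The `q = 2, 3` analogues of helper44's `pole_inst`, `pole_inst_d2` (`q ≥ 5`, coordinate
`ū = Δ̄(t)/Δ̄(t⁴)`), with the coordinate `ū = h̄` = the reduction of the Hauptmodul of `X₀(4)`
(`q = 3`, `4 ∣ M`) resp. `X₀(9)` (`q = 2`, `9 ∣ M`), integral lift `q23hZ4` resp. `q23hZ9`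
(helper5), `δ̄ = coeffMap (kdel q hZ)`.

* `pole_inst_three`, `pole_inst_two` : at a supersingular place `z` (with `δ̄ (ū^{q²} - ū)`
  regular at `z`): `ord_z (ū - 1) = 1`, `ord_z δ̄ = -1`  (`c = 1`);
* `pole_inst_d2_three`, `pole_inst_d2_two` : `ord_z y₂ = -q` for `y₂ = - δ̄^q`.
-/

set_option autoImplicit false
set_option linter.style.haveILetI false
set_option linter.unusedSectionVars false
set_option synthInstance.maxHeartbeats 400000
set_option maxHeartbeats 1000000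

noncomputable section

open Polynomial AlgebraicCurve IntermediateField ModularCurve

namespace Fermat.Agent.S36.NU.H91

open Fermat.Agent.RED.H51 Fermat.Agent.BAD.H21 Fermat.Agent.S36.NU.H73 Fermat.Agent.S36.NU.H65
open Fermat.Agent.S28.H73 Fermat.Agent.RED.H73 Fermat.Agent.RED Fermat.Agent.BAD
open Fermat.Agent.S36.NU.H5
open Fermat.Agent.S24 (Kbar FN)

section Abs

variable {k : Type*} [Field k]

/-- `H(j̄) = Δ̄^{1-q} = j̄^{q-1}` in characteristic `2`, `3`. -/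
theorem q23_DL_inv_pow {ℓ : ℕ} [CharP k ℓ] (h23 : ℓ = 2 ∨ ℓ = 3) (n : ℕ) :
    (H21_DL k ^ n)⁻¹ = jqModC k ^ n := by
  rw [← Fermat.Agent.BAD.H30.deltaR_eq_DL, ← inv_pow, q23_deltaR_inv h23]

end Abs

section Core

variable (A : ValuationSubring Kbar) (M : ℕ) [NeZero M]

/-- A zero of `H(j̄) = j̄^{q-1}` is a zero of `j̄`. -/
theorem q23_ord_j_pos {ℓ : ℕ} [CharP (kV A) ℓ] (h23 : ℓ = 2 ∨ ℓ = 3) (n : ℕ)
    (z : Place (kV A) ↥(modularFunctionFieldFullC (kV A) M))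
    (y : ↥(modularFunctionFieldFullC (kV A) M))
    (hy : (y : LaurentSeries (kV A)) = (H21_DL (kV A) ^ n)⁻¹) (hss : 0 < z.ord y) :
    0 < z.ord (q23jFull A M) := by
  have e : y = q23jFull A M ^ n := by
    apply Subtype.ext
    rw [hy, q23_DL_inv_pow h23]
    rfl
  rw [e, ord_pow] at hss
  by_contra hle
  have h1 : z.ord (q23jFull A M) ≤ 0 := not_lt.mp hle
  have h2 : (n : ℤ) * z.ord (q23jFull A M) ≤ 0 :=
    mul_nonpos_of_nonneg_of_nonpos (Int.natCast_nonneg _) h1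
  omega

/-- **POLE-INST for `q = 3`**, core form on `κ = modularFunctionFieldFullC (kV A) M`. -/
theorem pole_core_three (hA : A.LiesOverPrime 3) (h3 : ¬ 3 ∣ M) (h4 : 4 ∣ M)
    (z : Place (kV A) ↥(modularFunctionFieldFullC (kV A) M))
    (u y d : ↥(modularFunctionFieldFullC (kV A) M))
    (hu : (u : LaurentSeries (kV A)) = coeffMap (Int.castRingHom (kV A)) q23hZ4)
    (hy : (y : LaurentSeries (kV A)) = (H21_DL (kV A) ^ (3 - 1))⁻¹)
    (hd : (d : LaurentSeries (kV A)) = coeffMap (Int.castRingHom (kV A)) (kdel 3 q23hZ4))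
    (hss : 0 < z.ord y)
    (hP : d * (u ^ 3 ^ 2 - u) ∈ z.toValuationSubring) :
    ∃ c : kV A, z.ord (u - algebraMap (kV A) ↥(modularFunctionFieldFullC (kV A) M) c) = 1 ∧
      c ^ 3 ^ 2 = c ∧ z.ord d = -1 := by
  haveI : Fact (Nat.Prime 3) := ⟨Nat.prime_three⟩
  haveI : CharP (kV A) 3 := BAD.H82.charP_kV A Nat.prime_three hA
  have hz := q23_ord_j_pos A M (ℓ := 3) (Or.inr rfl) (3 - 1) z y hy hss
  have huE : u = q23hFull3 A M h4 := by
    apply Subtype.ext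
    rw [hu, coeffMap_q23hZ4, q23hFull3_coe A M hA h4]
  have hθ : thetaL (d : LaurentSeries (kV A)) =
      (q23H3 (kV A)) ^ (3 - 1) * thetaL (q23H3 (kV A)) - thetaL (q23H3 (kV A)) ^ 3 := by
    rw [hd, ← coeffMap_q23hZ4 (k := kV A)]
    exact thetaL_dbar_of_int (q := 3) q23hZ4 (kdel 3 q23hZ4) (kdel_spec 3 q23hZ4)
  rw [huE] at hP ⊢
  obtain ⟨h1, h2⟩ := q23_pole_coord_three A M hA h4 h3 z hz hθ rfl hP
  exact ⟨1, h1, one_pow _, h2⟩

/-- **POLE-INST for `q = 2`**, core form on `κ = modularFunctionFieldFullC (kV A) M`. -/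
theorem pole_core_two (hA : A.LiesOverPrime 2) (h2 : ¬ 2 ∣ M) (h9 : 9 ∣ M)
    (z : Place (kV A) ↥(modularFunctionFieldFullC (kV A) M))
    (u y d : ↥(modularFunctionFieldFullC (kV A) M))
    (hu : (u : LaurentSeries (kV A)) = coeffMap (Int.castRingHom (kV A)) q23hZ9)
    (hy : (y : LaurentSeries (kV A)) = (H21_DL (kV A) ^ (2 - 1))⁻¹)
    (hd : (d : LaurentSeries (kV A)) = coeffMap (Int.castRingHom (kV A)) (kdel 2 q23hZ9))
    (hss : 0 < z.ord y)
    (hP : d * (u ^ 2 ^ 2 - u) ∈ z.toValuationSubring) :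
    ∃ c : kV A, z.ord (u - algebraMap (kV A) ↥(modularFunctionFieldFullC (kV A) M) c) = 1 ∧
      c ^ 2 ^ 2 = c ∧ z.ord d = -1 := by
  haveI : Fact (Nat.Prime 2) := ⟨Nat.prime_two⟩
  haveI : CharP (kV A) 2 := BAD.H82.charP_kV A Nat.prime_two hA
  have hz := q23_ord_j_pos A M (ℓ := 2) (Or.inl rfl) (2 - 1) z y hy hss
  have huE : u = q23hFull2 A M h9 := by
    apply Subtype.ext
    rw [hu, coeffMap_q23hZ9, q23hFull2_coe A M hA h9]
  have hθ : thetaL (d : LaurentSeries (kV A)) =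
      (q23H2 (kV A)) ^ (2 - 1) * thetaL (q23H2 (kV A)) - thetaL (q23H2 (kV A)) ^ 2 := by
    rw [hd, ← coeffMap_q23hZ9 (k := kV A)]
    exact thetaL_dbar_of_int (q := 2) q23hZ9 (kdel 2 q23hZ9) (kdel_spec 2 q23hZ9)
  rw [huE] at hP ⊢
  obtain ⟨h1, h2'⟩ := q23_pole_coord_two A M hA h9 h2 z hz hθ rfl hP
  exact ⟨1, h1, one_pow _, h2'⟩

end Core

section Generic

variable (A : ValuationSubring Kbar) (M : ℕ) [NeZero M]

/-- **POLE-INST for `q = 3`** for a subfield `E = κ` of `k((t))` (same shape as helper44's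
`pole_inst`). -/
theorem pole_inst_three (hA : A.LiesOverPrime 3) (h3 : ¬ 3 ∣ M) (h4 : 4 ∣ M)
    (E : IntermediateField (kV A) (LaurentSeries (kV A)))
    (hE : E = modularFunctionFieldFullC (kV A) M)
    (z : Place (kV A) ↥E) (jE u y d : ↥E)
    (_hj : (jE : LaurentSeries (kV A)) = jqModC (kV A))
    (hu : (u : LaurentSeries (kV A)) = coeffMap (Int.castRingHom (kV A)) q23hZ4)
    (hy : (y : LaurentSeries (kV A)) = (H21_DL (kV A) ^ (3 - 1))⁻¹)
    (hd : (d : LaurentSeries (kV A)) = coeffMap (Int.castRingHom (kV A)) (kdel 3 q23hZ4))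
    (_hz : 0 ≤ z.ord jE) (hss : 0 < z.ord y)
    (hP : d * (u ^ 3 ^ 2 - u) ∈ z.toValuationSubring) :
    ∃ c : kV A, z.ord (u - algebraMap (kV A) ↥E c) = 1 ∧ c ^ 3 ^ 2 = c ∧ z.ord d = -1 := by
  subst hE
  exact pole_core_three A M hA h3 h4 z u y d hu hy hd hss hP

/-- **POLE-INST for `q = 2`** for a subfield `E = κ` of `k((t))`. -/
theorem pole_inst_two (hA : A.LiesOverPrime 2) (h2 : ¬ 2 ∣ M) (h9 : 9 ∣ M)
    (E : IntermediateField (kV A) (LaurentSeries (kV A)))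
    (hE : E = modularFunctionFieldFullC (kV A) M)
    (z : Place (kV A) ↥E) (jE u y d : ↥E)
    (_hj : (jE : LaurentSeries (kV A)) = jqModC (kV A))
    (hu : (u : LaurentSeries (kV A)) = coeffMap (Int.castRingHom (kV A)) q23hZ9)
    (hy : (y : LaurentSeries (kV A)) = (H21_DL (kV A) ^ (2 - 1))⁻¹)
    (hd : (d : LaurentSeries (kV A)) = coeffMap (Int.castRingHom (kV A)) (kdel 2 q23hZ9))
    (_hz : 0 ≤ z.ord jE) (hss : 0 < z.ord y)
    (hP : d * (u ^ 2 ^ 2 - u) ∈ z.toValuationSubring) :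
    ∃ c : kV A, z.ord (u - algebraMap (kV A) ↥E c) = 1 ∧ c ^ 2 ^ 2 = c ∧ z.ord d = -1 := by
  subst hE
  exact pole_core_two A M hA h2 h9 z u y d hu hy hd hss hP

/-- **POLE-INST for `q = 3`**, with the reduction `y₂ = - δ̄^q` of `t₂₀ / q`. -/
theorem pole_inst_d2_three (hA : A.LiesOverPrime 3) (h3 : ¬ 3 ∣ M) (h4 : 4 ∣ M)
    (E : IntermediateField (kV A) (LaurentSeries (kV A)))
    (hE : E = modularFunctionFieldFullC (kV A) M)
    (z : Place (kV A) ↥E) (jE u y d y₂ : ↥E)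
    (hj : (jE : LaurentSeries (kV A)) = jqModC (kV A))
    (hu : (u : LaurentSeries (kV A)) = coeffMap (Int.castRingHom (kV A)) q23hZ4)
    (hy : (y : LaurentSeries (kV A)) = (H21_DL (kV A) ^ (3 - 1))⁻¹)
    (hd : (d : LaurentSeries (kV A)) = coeffMap (Int.castRingHom (kV A)) (kdel 3 q23hZ4))
    (hy₂ : (y₂ : LaurentSeries (kV A))
      = - coeffMap (Int.castRingHom (kV A)) (kdel 3 q23hZ4) ^ 3)
    (hz : 0 ≤ z.ord jE) (hss : 0 < z.ord y)
    (hP : d * (u ^ 3 ^ 2 - u) ∈ z.toValuationSubring) :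
    ∃ c : kV A, z.ord (u - algebraMap (kV A) ↥E c) = 1 ∧ c ^ 3 ^ 2 = c ∧
      z.ord y₂ = -((3 : ℕ) : ℤ) := by
  obtain ⟨c, h1, h2, h3'⟩ :=
    pole_inst_three A M hA h3 h4 E hE z jE u y d hj hu hy hd hz hss hP
  refine ⟨c, h1, h2, ?_⟩
  have e : y₂ = - d ^ 3 := by
    apply Subtype.ext
    rw [hy₂]
    show _ = -((d : LaurentSeries (kV A)) ^ 3)
    rw [hd]
  rw [e, ord_neg, ord_pow, h3']
  norm_num

/-- **POLE-INST for `q = 2`**, with the reduction `y₂ = - δ̄^q` of `t₂₀ / q`. -/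
theorem pole_inst_d2_two (hA : A.LiesOverPrime 2) (h2 : ¬ 2 ∣ M) (h9 : 9 ∣ M)
    (E : IntermediateField (kV A) (LaurentSeries (kV A)))
    (hE : E = modularFunctionFieldFullC (kV A) M)
    (z : Place (kV A) ↥E) (jE u y d y₂ : ↥E)
    (hj : (jE : LaurentSeries (kV A)) = jqModC (kV A))
    (hu : (u : LaurentSeries (kV A)) = coeffMap (Int.castRingHom (kV A)) q23hZ9)
    (hy : (y : LaurentSeries (kV A)) = (H21_DL (kV A) ^ (2 - 1))⁻¹)
    (hd : (d : LaurentSeries (kV A)) = coeffMap (Int.castRingHom (kV A)) (kdel 2 q23hZ9))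
    (hy₂ : (y₂ : LaurentSeries (kV A))
      = - coeffMap (Int.castRingHom (kV A)) (kdel 2 q23hZ9) ^ 2)
    (hz : 0 ≤ z.ord jE) (hss : 0 < z.ord y)
    (hP : d * (u ^ 2 ^ 2 - u) ∈ z.toValuationSubring) :
    ∃ c : kV A, z.ord (u - algebraMap (kV A) ↥E c) = 1 ∧ c ^ 2 ^ 2 = c ∧
      z.ord y₂ = -((2 : ℕ) : ℤ) := by
  obtain ⟨c, h1, h2', h3⟩ :=
    pole_inst_two A M hA h2 h9 E hE z jE u y d hj hu hy hd hz hss hP
  refine ⟨c, h1, h2', ?_⟩
  have e : y₂ = - d ^ 2 := by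
    apply Subtype.ext
    rw [hy₂]
    show _ = -((d : LaurentSeries (kV A)) ^ 2)
    rw [hd]
  rw [e, ord_neg, ord_pow, h3]
  norm_num

end Generic

end Fermat.Agent.S36.NU.H91
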