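import Fermat.Agent.S36.NU.H99_Units3L
import Fermat.Agent.S36.NU.H88_ChartAlg
import Fermat.Agent.S36.NU.H17_TIVal
import Fermat.Agent.RED.H79_ConsChart

/-!
# S36 / NU-B, (M4) LOCEQ at the ordinary points: horizontal integrality (helper99)

* `IsUnitOff N f` : `f ∈ F_N` has neither zero nor pole at the places where `j` is regular
  (stable under products, inverses; contains the constants `≠ 0` and the modular units `unitF`);
* `isIntegral_bar_of_unitOff` : such an `f` is integral over `ℚ̄[j]`;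
* `isIntegral_Kur_of_bar` : an inertia-fixed function which is integral over `ℚ̄[j]` is integral
  over `K^ur[j]`.
-/

set_option autoImplicit false
set_option synthInstance.maxHeartbeats 400000
set_option maxHeartbeats 1000000
set_option linter.unusedSectionVars false
set_option linter.style.haveILetI false

noncomputable section

open ModularCurve AlgebraicCurve IntermediateField
open Fermat.Agent.S24 Fermat.Agent.BAD.H88 Fermat.Agent.BAD.H30 Fermat.Agent.BAD.H21
open Fermat.Agent.S28 Fermat.Agent.S28.H73 Fermat.Agent.RED.H73 Fermat.Agent.RED.H17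
open Fermat.Agent.S36.NU.H88 Fermat.Agent.S36.NU.H23
open Fermat.Agent.S36.NU.H41 Fermat.Agent.RED

namespace Fermat.Agent.S36.NU.H99

section Bar

variable (N : ℕ) [NeZero N]

/-- `f` has neither zero nor pole at the places where `j` is regular. -/
def IsUnitOff (f : FN N) : Prop :=
  f ≠ 0 ∧ ∀ P : Place Kbar (FN N), 0 ≤ P.ord (Fermat.Agent.S24.jF N) → P.ord f = 0

variable {N}

theorem IsUnitOff.mul {f g : FN N} (hf : IsUnitOff N f) (hg : IsUnitOff N g) :
    IsUnitOff N (f * g) :=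
  ⟨mul_ne_zero hf.1 hg.1, fun P hP => by
    rw [P.ord_mul hf.1 hg.1, hf.2 P hP, hg.2 P hP, add_zero]⟩

theorem IsUnitOff.inv {f : FN N} (hf : IsUnitOff N f) : IsUnitOff N f⁻¹ :=
  ⟨inv_ne_zero hf.1, fun P hP => by
    rw [P.ord_inv, hf.2 P hP, neg_zero]⟩

theorem IsUnitOff.pow {f : FN N} (hf : IsUnitOff N f) (n : ℕ) : IsUnitOff N (f ^ n) := by
  induction n with
  | zero =>
    rw [pow_zero]
    exact ⟨one_ne_zero, fun P _ => P.ord_one⟩
  | succ n ih =>
    rw [pow_succ]
    exact ih.mul hf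

theorem isUnitOff_const {c : Kbar} (hc : c ≠ 0) : IsUnitOff N (algebraMap Kbar (FN N) c) :=
  ⟨(map_ne_zero _).2 hc, fun P _ => Fermat.Agent.RED.H17.ord_algebraMap P c⟩

theorem isUnitOff_unitF (d : ℕ) [NeZero d] (hd : d ∣ N) : IsUnitOff N (unitF N d hd) :=
  ⟨unitF_ne_zero N d hd, fun P hP => ord_unitF N d hd P hP⟩

/-- **Horizontal integrality over `ℚ̄[j]`.** -/
theorem isIntegral_bar_of_unitOff {f : FN N} (hf : IsUnitOff N f) :
    IsIntegral ↥(Algebra.adjoin Kbar ({Fermat.Agent.S24.jF N} : Set (FN N))) f := by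
  haveI : Module.Finite ↥(Kbar⟮Fermat.Agent.S24.jF N⟯) (FN N) :=
    asm_finiteDimensional (modClosure N)
  haveI : Algebra.IsSeparable ↥(Kbar⟮Fermat.Agent.S24.jF N⟯) (FN N) :=
    Algebra.IsAlgebraic.isSeparable_of_perfectField
  refine Fermat.Agent.RED.H79.isIntegral_of_forall_ordGe (K := Kbar) (Fermat.Agent.S24.jF N)
    (jF_transcendental N) f fun P hP => Or.inr ?_
  rw [hf.2 P (Fermat.Agent.S24.H85.ord_nonneg_of_mem P hP)]

end Bar

section Descent

variable (A : ValuationSubring Kbar) (N : ℕ) [NeZero N]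

/-- Constants are integral over `K^ur[j]`. -/
theorem isIntegral_Kur_const (c : Kbar) :
    IsIntegral ↥(Algebra.adjoin ↥(Kur A) ({Fermat.Agent.S24.jF N} : Set (FN N)))
      (algebraMap Kbar (FN N) c) := by
  haveI : Algebra.IsAlgebraic ℚ Kbar := AlgebraicClosure.isAlgebraic ℚ
  have hQ : IsIntegral ℚ c := Algebra.IsIntegral.isIntegral c
  have h1 : IsIntegral ↥(Kur A) c := hQ.tower_top
  have h2 : IsIntegral ↥(Kur A) (algebraMap Kbar (FN N) c) :=
    h1.map (IsScalarTower.toAlgHom ↥(Kur A) Kbar (FN N))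
  exact h2.tower_top

/-- `ℚ̄[j]` is integral over `K^ur[j]`. -/
theorem isIntegral_Kur_of_mem_adjoin {y : FN N}
    (hy : y ∈ Algebra.adjoin Kbar ({Fermat.Agent.S24.jF N} : Set (FN N))) :
    IsIntegral ↥(Algebra.adjoin ↥(Kur A) ({Fermat.Agent.S24.jF N} : Set (FN N))) y := by
  induction hy using Algebra.adjoin_induction with
  | mem z hz =>
    rw [Set.mem_singleton_iff] at hz
    subst hz
    exact isIntegral_algebraMap (R := ↥(Algebra.adjoin ↥(Kur A)
      ({Fermat.Agent.S24.jF N} : Set (FN N)))) (A := FN N)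
      (x := ⟨Fermat.Agent.S24.jF N, Algebra.self_mem_adjoin_singleton _ _⟩)
  | algebraMap c => exact isIntegral_Kur_const A N c
  | add _ _ _ _ h1 h2 => exact h1.add h2
  | mul _ _ _ _ h1 h2 => exact h1.mul h2

/-- Integral over `ℚ̄[j]` ⟹ integral over `K^ur[j]` (in `F_N`). -/
theorem isIntegral_Kur_of_bar' {x : FN N}
    (hx : IsIntegral ↥(Algebra.adjoin Kbar ({Fermat.Agent.S24.jF N} : Set (FN N))) x) :
    IsIntegral ↥(Algebra.adjoin ↥(Kur A) ({Fermat.Agent.S24.jF N} : Set (FN N))) x := by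
  have h1 : IsIntegral ↥(integralClosure ↥(Algebra.adjoin ↥(Kur A)
      ({Fermat.Agent.S24.jF N} : Set (FN N))) (FN N)) x := by
    refine Fermat.Agent.S36.NU.H17.isIntegral_of_le ?_ hx
    rintro ⟨a, ha⟩
    exact ⟨⟨a, isIntegral_Kur_of_mem_adjoin A N ha⟩, rfl⟩
  exact isIntegral_trans x h1

/-- **Integral over `ℚ̄[j]` ⟹ integral over `K^ur[j]`** for the inertia-fixed functions. -/
theorem isIntegral_Kur_of_bar (x : ↥(L0 A N))
    (hx : IsIntegral ↥(Algebra.adjoin Kbar ({Fermat.Agent.S24.jF N} : Set (FN N)))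
      (x : FN N)) :
    IsIntegral ↥(Algebra.adjoin ↥(Kur A) ({j0 A N} : Set ↥(L0 A N))) x := by
  have h1 := isIntegral_Kur_of_bar' A N hx
  have h2 : IsIntegral ↥(Algebra.adjoin ↥(Kur A) ({j0 A N} : Set ↥(L0 A N)))
      (algebraMap ↥(L0 A N) (FN N) x) := by
    refine Fermat.Agent.S36.NU.H17.isIntegral_of_le ?_ h1
    rintro ⟨a, ha⟩
    induction ha using Algebra.adjoin_induction with
    | mem z hz =>
      rw [Set.mem_singleton_iff] at hz
      subst hz
      exact ⟨⟨j0 A N, Algebra.self_mem_adjoin_singleton _ _⟩, rfl⟩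
    | algebraMap c => exact ⟨algebraMap _ _ c, rfl⟩
    | add _ _ _ _ h1 h2 =>
      obtain ⟨b1, hb1⟩ := h1
      obtain ⟨b2, hb2⟩ := h2
      exact ⟨b1 + b2, by rw [map_add, hb1, hb2]; rfl⟩
    | mul _ _ _ _ h1 h2 =>
      obtain ⟨b1, hb1⟩ := h1
      obtain ⟨b2, hb2⟩ := h2
      exact ⟨b1 * b2, by rw [map_mul, hb1, hb2]; rfl⟩
  exact (isIntegral_algebraMap_iff (FaithfulSMul.algebraMap_injective ↥(L0 A N) (FN N))).1 h2

end Descent

end Fermat.Agent.S36.NU.H99
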