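import Fermat.Agent.S36.NU.H99_OrdMod1

/-!
# S36 / NU-B, (M4) LOCEQ at the ordinary points, modular part 2 (helper99)

`f ∈ F_M` with integral expansion `u₀ ∈ ℤ((t))`.  The local equation `t₁₁ = f(t^{q²}) - f(t)` of the
middle component, as an inertia-fixed function of level `M q²`:
* `t11o`, membership in the three valuation rings;
* `f11o = t₁₁^(q-1) / q ∈ V₁₁` and its reduction `ε̄ (θ ū₀)^(q-1)`, `ε̄ ≠ 0` a constant.
-/

set_option autoImplicit false
set_option synthInstance.maxHeartbeats 400000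
set_option maxHeartbeats 1000000
set_option linter.unusedSectionVars false
set_option linter.style.haveILetI false

noncomputable section

open ModularCurve AlgebraicCurve IntermediateField
open Fermat.Agent.S24 Fermat.Agent.BAD.H88 Fermat.Agent.BAD.H30 Fermat.Agent.BAD.H21
open Fermat.Agent.S28 Fermat.Agent.S28.H73 Fermat.Agent.RED.H73 Fermat.Agent.RED.H17
open Fermat.Agent.S36.NU.H88 Fermat.Agent.S36.NU.H23
open Fermat.Agent.S36.NU.H41 Fermat.Agent.RED

namespace Fermat.Agent.S36.NU.H99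

section T11

variable (A : ValuationSubring Kbar)
variable (q M : ℕ) (B k : ℤ) (hB : B * M + k * q = 1) (hq : q.Prime) [NeZero M] [NeZero q]
  [NeZero (M * q)] [NeZero (M * q * q)]
variable (f : FN M) (u₀ : LaurentSeries ℤ)
  (hf : (f : LaurentSeries Kbar) = H65.intSer Kbar u₀)

include hf in
theorem mem_L0_of_intSer : f ∈ L0 A M := by
  rw [mem_L0_iff_coeffMap]
  intro σ _
  rw [hf, H65.intSer, ModularCurve.coeffMap_coeffMap]
  exact coeffMap_congr (RingHom.ext_int _ _) u₀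

include hf in
theorem mem_VM_of_intSer : f ∈ VM A M := by
  show (f : LaurentSeries Kbar) ∈ gaussRingV A
  rw [hf]
  exact H65.intSer_mem A u₀

theorem incAA_mem_L0 (x : FN M) (hx : x ∈ L0 A M) : incAA q M x ∈ L0 A (M * q * q) :=
  Fermat.Agent.S36.NU.H82.alpha_mem_L0 A (M * q) q _
    (Fermat.Agent.S36.NU.H82.alpha_mem_L0 A M q x hx)

include hf in
theorem t11_mem_L0 : t11 q M f ∈ L0 A (M * q * q) :=
  sub_mem (incBB_mem_L0 A q M f (mem_L0_of_intSer A M f u₀ hf))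
    (incAA_mem_L0 A q M f (mem_L0_of_intSer A M f u₀ hf))

/-- `t₁₁ = f(t^{q²}) - f(t)` as an inertia-fixed function. -/
def t11o : ↥(L0 A (M * q * q)) := ⟨t11 q M f, t11_mem_L0 A q M f u₀ hf⟩

theorem t11o_mem20 : t11o A q M f u₀ hf ∈ V20o A q M :=
  sub_mem ((incBB_mem_V20_iff A q M f).2 (mem_VM_of_intSer A M f u₀ hf))
    ((incAA_mem_V20_iff A q M f).2 (mem_VM_of_intSer A M f u₀ hf))

include hq in
theorem t11o_mem11 : t11o A q M f u₀ hf ∈ V11o A q M B k hB hq :=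
  sub_mem ((incBB_mem_V11_iff A q M B k hB hq f).2 (mem_VM_of_intSer A M f u₀ hf))
    ((incAA_mem_V11_iff A q M B k hB hq f).2 (mem_VM_of_intSer A M f u₀ hf))

include hq in
theorem t11o_mem02 : t11o A q M f u₀ hf ∈ V02o A q M B k hB :=
  sub_mem ((incBB_mem_V02_iff A q M B k hB hq f).2 (mem_VM_of_intSer A M f u₀ hf))
    ((incAA_mem_V02_iff A q M B k hB hq f).2 (mem_VM_of_intSer A M f u₀ hf))

/-! ### The unit `ε = (z - 1)^(q-1) / q` -/

/-- `ε = (z - 1)^(q-1) / q`, `z = ζ_q^B`. -/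
def epsK : Kbar := (zetaK q ^ B - 1) ^ (q - 1) * ((q : ℕ) : Kbar)⁻¹

include hB hq in
theorem val_epsK : A.valuation (epsK q B) = 1 := by
  have h := val_zMid_sub_one A q M B k hB hq
  have hq0 : A.valuation ((q : ℕ) : Kbar) ≠ 0 :=
    (Valuation.ne_zero_iff _).2 (Nat.cast_ne_zero.2 hq.ne_zero)
  rw [epsK, map_mul, map_pow, map_inv₀, h]
  exact mul_inv_cancel₀ hq0

include hB hq in
theorem epsK_mem : epsK q B ∈ A :=
  (A.valuation_le_one_iff _).1 (val_epsK A q M B k hB hq).le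

include hB hq in
theorem resV_epsK_ne_zero : resV A ⟨epsK q B, epsK_mem A q M B k hB hq⟩ ≠ 0 := by
  intro h0
  have h1 : (⟨epsK q B, epsK_mem A q M B k hB hq⟩ : ↥A) ∈ IsLocalRing.maximalIdeal ↥A :=
    (IsLocalRing.residue_eq_zero_iff _).1 h0
  have h2 : A.valuation (epsK q B) < 1 :=
    (A.valuation_lt_one_iff _).1 h1
  exact h2.ne (val_epsK A q M B k hB hq)

/-! ### `f₁₁ = t₁₁^(q-1) / q` -/

include hB hq in
theorem t11_pow_div :
    t11 q M f ^ (q - 1) * (cQ q M)⁻¹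
      = algebraMap Kbar (FN (M * q * q)) (epsK q B) * th11 q M B f ^ (q - 1) := by
  rw [t11_eq q M B k hB hq f, mul_pow, epsK, map_mul, map_pow, map_inv₀, cQ]
  simp only [map_natCast]
  ring

/-- `f₁₁ = t₁₁^(q-1) / q` as an inertia-fixed function. -/
def f11o : ↥(L0 A (M * q * q)) :=
  t11o A q M f u₀ hf ^ (q - 1) * (((q : ℕ) : ↥(L0 A (M * q * q))))⁻¹

theorem coe_f11o : ((f11o A q M f u₀ hf : ↥(L0 A (M * q * q))) : FN (M * q * q))
    = t11 q M f ^ (q - 1) * (cQ q M)⁻¹ := by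
  rw [cQ_eq_natCast]
  rfl

include hq in
theorem t11o_pow_eq : t11o A q M f u₀ hf ^ (q - 1)
    = ((q : ℕ) : ↥(L0 A (M * q * q))) * f11o A q M f u₀ hf := by
  have h0 : ((q : ℕ) : ↥(L0 A (M * q * q))) ≠ 0 := Nat.cast_ne_zero.2 hq.ne_zero
  rw [f11o]
  field_simp

include hB hq in
theorem f11o_mem11 : f11o A q M f u₀ hf ∈ V11o A q M B k hB hq := by
  show ((f11o A q M f u₀ hf : ↥(L0 A (M * q * q))) : FN (M * q * q))
    ∈ V11 A (M * q * q) q M B k (lvl q M) hB hq
  rw [coe_f11o, t11_pow_div q M B k hB hq f]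
  exact mul_mem ((const_mem11 A (M * q * q) q M B k (lvl q M) hB hq _).2
    (epsK_mem A q M B k hB hq))
    (pow_mem (th11_mem_V11 A q M B k hB hq f u₀ hf) _)

include hB hq in
/-- **The reduction of `t₁₁^(q-1) / q` at `V₁₁` is `ε̄ (θ ū₀)^(q-1)`.** -/
theorem s11_f11o (hA : (q : Kbar) ∈ A.nonunits) :
    s11 A q M B k hB hq ⟨f11o A q M f u₀ hf, f11o_mem11 A q M B k hB hq f u₀ hf⟩
      = algebraMap (kV A) (LaurentSeries (kV A))
          (resV A ⟨epsK q B, epsK_mem A q M B k hB hq⟩)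
        * H73.thetaL (coeffMap (Int.castRingHom (kV A)) u₀) ^ (q - 1) := by
  have hc : algebraMap Kbar (FN (M * q * q)) (epsK q B)
      ∈ V11 A (M * q * q) q M B k (lvl q M) hB hq :=
    (const_mem11 A (M * q * q) q M B k (lvl q M) hB hq _).2 (epsK_mem A q M B k hB hq)
  have hth := th11_mem_V11 A q M B k hB hq f u₀ hf
  have hmem : ((f11o A q M f u₀ hf : ↥(L0 A (M * q * q))) : FN (M * q * q))
      ∈ V11 A (M * q * q) q M B k (lvl q M) hB hq := f11o_mem11 A q M B k hB hq f u₀ hf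
  have e : (⟨((f11o A q M f u₀ hf : ↥(L0 A (M * q * q))) : FN (M * q * q)), hmem⟩ :
      ↥(V11 A (M * q * q) q M B k (lvl q M) hB hq))
      = ⟨_, hc⟩ * ⟨_, hth⟩ ^ (q - 1) := by
    apply Subtype.ext
    show ((f11o A q M f u₀ hf : ↥(L0 A (M * q * q))) : FN (M * q * q)) = _
    rw [coe_f11o, t11_pow_div q M B k hB hq f]
    rfl
  show ((red11 A (M * q * q) q M B k (lvl q M) hB hq ⟨_, hmem⟩ :
      F11 A (M * q * q) q M B k (lvl q M) hB hq) : LaurentSeries (kV A)) = _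
  rw [e, map_mul, map_pow,
    red11_const A (M * q * q) q M B k (lvl q M) hB hq ⟨epsK q B, epsK_mem A q M B k hB hq⟩ hc]
  show algebraMap (kV A) (LaurentSeries (kV A)) _
    * ((red11 A (M * q * q) q M B k (lvl q M) hB hq ⟨_, hth⟩ :
      F11 A (M * q * q) q M B k (lvl q M) hB hq) : LaurentSeries (kV A)) ^ (q - 1) = _
  rw [red11_th11 A q M B k hB hq hA f u₀ hf hth]

end T11

end Fermat.Agent.S36.NU.H99
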