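import Fermat.Agent.S36.NU.H99_OrdMod3
import Fermat.Agent.S36.NU.H73_GuUnit
import Fermat.Agent.S36.NU.H23_Mod4

/-!
# S36 / NU-B, (M4) LOCEQ at the ordinary points, modular part 4 (helper99)

The middle component for `q ≥ 5`, `4 ∣ M`: the coordinate is the modular unit
`u = Δ(t)/Δ(t⁴)` of level `M`, and the certificate is helper73's identity
`(θ ū)¹² = 3¹² v̄⁶ v̄₂¹⁶ Δ̄²`.

* `isIntegral_t11o_u4` : `t₁₁ = u'' - u` is integral over `K^ur[j]`;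
* `cert_alg` : the algebra of the certificate;
* `ord11_u4` : **local equation datum and only one branch** at the closed points
  `𝔪 ⊇ Icomp₁₁` with `eps1 ∉ 𝔪`.
-/

set_option autoImplicit false
set_option synthInstance.maxHeartbeats 400000
set_option maxHeartbeats 1000000
set_option linter.unusedSectionVars false
set_option linter.style.haveILetI false

noncomputable section

open ModularCurve AlgebraicCurve IntermediateField
open Fermat.Agent.S24 Fermat.Agent.BAD.H88 Fermat.Agent.BAD.H30 Fermat.Agent.BAD.H21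
open Fermat.Agent.S28 Fermat.Agent.S28.H73 Fermat.Agent.RED.H73 Fermat.Agent.RED.H17
open Fermat.Agent.S36.NU.H88 Fermat.Agent.S36.NU.H23
open Fermat.Agent.S36.NU.H41 Fermat.Agent.RED

namespace Fermat.Agent.S36.NU.H99

open Fermat.Agent.S36.NU.H16 (Chart LocEq valq_of_crit)

/-- The algebra of the certificate. -/
theorem cert_alg {F : Type*} [Field F] (n : ℕ) (HU D T c3 v w E a : F)
    (h1 : HU * D ^ n = 1) (h2 : T ^ 12 = c3 ^ 12 * (v ^ 6 * w ^ 16) * D ^ 2)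
    (h3 : E ^ 12 * c3 ^ (12 * n) * a = 1) :
    (HU * HU * (E * T ^ n)) ^ 12 * a = HU ^ 22 * (v ^ 6 * w ^ 16) ^ n := by
  have e1 : (HU * HU * (E * T ^ n)) ^ 12 * a = HU ^ 24 * E ^ 12 * (T ^ 12) ^ n * a := by
    rw [← pow_mul, mul_comm 12 n, pow_mul]
    ring
  rw [e1, h2]
  have e2 : HU ^ 24 * E ^ 12 * (c3 ^ 12 * (v ^ 6 * w ^ 16) * D ^ 2) ^ n * a
      = HU ^ 22 * (HU * D ^ n) ^ 2 * (E ^ 12 * c3 ^ (12 * n) * a) * (v ^ 6 * w ^ 16) ^ n := by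
    rw [pow_mul c3 12 n]
    ring
  rw [e2, h1, h3]
  ring

section U4

variable (A : ValuationSubring Kbar)
variable (q M : ℕ) (B k : ℤ) (hB : B * M + k * q = 1) (hq : q.Prime) [NeZero M] [NeZero q]
  [NeZero (M * q)] [NeZero (M * q * q)]
variable (d : ℕ) [NeZero d] (hd : d ∣ M)

theorem incAA_unitF : incAA q M (unitF M d hd) = unitF (M * q * q) d (dvd_lvl q M d hd) := by
  apply Subtype.ext
  rw [coe_incAA]
  rfl

include hd in
theorem qqd_dvd_lvl : q * q * d ∣ M * q * q := by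
  obtain ⟨c, rfl⟩ := hd
  exact ⟨c, by ring⟩

theorem incBB_unitF [NeZero (q * q)] [NeZero (q * q * d)] :
    incBB q M (unitF M d hd) = unitF (M * q * q) (q * q * d) (qqd_dvd_lvl q M d hd)
      * (unitF (M * q * q) (q * q) (qq_dvd_lvl q M))⁻¹ := by
  apply Subtype.ext
  have h1 : ((incBB q M (unitF M d hd) : FN (M * q * q)) : LaurentSeries Kbar)
      = qExpand Kbar q (qExpand Kbar q (coeffEmb Kbar (modularUnitSeries d))) := by
    rw [coe_incBB]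
    rfl
  have h2 : ((unitF (M * q * q) (q * q * d) (qqd_dvd_lvl q M d hd)
      * (unitF (M * q * q) (q * q) (qq_dvd_lvl q M))⁻¹ : FN (M * q * q)) : LaurentSeries Kbar)
      = coeffEmb Kbar (modularUnitSeries (q * q * d))
        * (coeffEmb Kbar (modularUnitSeries (q * q)))⁻¹ := rfl
  rw [h1, h2, coeffEmb_modularUnitSeries, coeffEmb_modularUnitSeries,
    coeffEmb_modularUnitSeries, qExpand_qExpand, map_mul, map_inv₀, qExpand_qExpand]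
  have hd0 : deltaR Kbar ≠ 0 := deltaR_ne_zero Kbar
  have h3 : qExpand Kbar (q * q) (deltaR Kbar) ≠ 0 := qExpand_deltaR_ne_zero Kbar (q * q)
  have h4 : qExpand Kbar (q * q * d) (deltaR Kbar) ≠ 0 :=
    qExpand_deltaR_ne_zero Kbar (q * q * d)
  field_simp

theorem isUnitOff_incAA_unitF : IsUnitOff (M * q * q) (incAA q M (unitF M d hd)) := by
  rw [incAA_unitF]
  exact isUnitOff_unitF d _

theorem isUnitOff_incBB_unitF : IsUnitOff (M * q * q) (incBB q M (unitF M d hd)) := by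
  haveI : NeZero (q * q) := ⟨mul_ne_zero (NeZero.ne q) (NeZero.ne q)⟩
  haveI : NeZero (q * q * d) := ⟨mul_ne_zero (NeZero.ne (q * q)) (NeZero.ne d)⟩
  rw [incBB_unitF]
  exact (isUnitOff_unitF (q * q * d) _).mul (isUnitOff_unitF (q * q) _).inv

/-- **Horizontal integrality of `t₁₁ = u'' - u`** for a modular unit `u` of level `M`. -/
theorem isIntegral_t11o_unitF (u₀ : LaurentSeries ℤ)
    (hf : ((unitF M d hd : FN M) : LaurentSeries Kbar) = H65.intSer Kbar u₀) :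
    IsIntegral ↥(Algebra.adjoin ↥(Kur A) ({j0 A (M * q * q)} : Set ↥(L0 A (M * q * q))))
      (t11o A q M (unitF M d hd) u₀ hf) := by
  apply isIntegral_Kur_of_bar
  show IsIntegral _ (t11 q M (unitF M d hd))
  rw [t11]
  exact (isIntegral_bar_of_unitOff (isUnitOff_incBB_unitF q M d hd)).sub
    (isIntegral_bar_of_unitOff (isUnitOff_incAA_unitF q M d hd))

include hq in
theorem s11_Uoi (d : ℕ) [NeZero d] (hd : d ∣ M) :
    s11 A q M B k hB hq ⟨Uoi A q M d hd, Uoi_mem11 A q M B k hB hq d hd⟩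
      = (deltaR (kV A) * (qExpand (kV A) d (deltaR (kV A)))⁻¹)⁻¹ := by
  rw [← s11_Uo A q M B k hB hq d hd]
  apply eq_inv_of_mul_eq_one_right
  rw [← map_mul]
  have e : (⟨Uo A q M d hd, Uo_mem11 A q M B k hB hq d hd⟩ : ↥(V11o A q M B k hB hq))
      * ⟨Uoi A q M d hd, Uoi_mem11 A q M B k hB hq d hd⟩ = 1 :=
    Subtype.ext (Uo_mul_Uoi A q M d hd)
  rw [e, map_one]

include hq in
/-- `HU · Δ̄^(q-1) = 1`. -/
theorem HU_mul_deltaR_pow (hA : (q : Kbar) ∈ A.nonunits) :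
    HU A q M * deltaR (kV A) ^ (q - 1) = 1 := by
  haveI : Fact q.Prime := ⟨hq⟩
  haveI : CharP (kV A) q := Fermat.Agent.BAD.H82.charP_kV A hq hA
  have hd0 : deltaR (kV A) ≠ 0 := deltaR_ne_zero (kV A)
  rw [HU_eq, qExpand_deltaR_char]
  have e : deltaR (kV A) ^ q = deltaR (kV A) ^ (q - 1) * deltaR (kV A) := by
    rw [← pow_succ, Nat.sub_add_cancel hq.one_le]
  rw [e]
  field_simp

end U4


section Cert

variable {A : ValuationSubring Kbar}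
variable {q M : ℕ} {B k : ℤ} {hB : B * M + k * q = 1} {hq : q.Prime} [NeZero M] [NeZero q]
  [NeZero (M * q)] [NeZero (M * q * q)]
variable {R k' ι : Type*} {κ : ι → Type*} [CommRing R] [Algebra R ↥(L0 A (M * q * q))]
  [Field k'] [∀ i, Field (κ i)] [∀ i, Algebra k' (κ i)]
variable {C : Chart R ↥(L0 A (M * q * q)) k' ι κ} {qR : R} {e : ι → ℕ} {i₂₀ i₁₁ i₀₂ : ι}
  (S : ChartL0 A q M B k hB hq C qR e i₂₀ i₁₁ i₀₂)

include S

theorem ChartL0.Uo_mem_B (d : ℕ) [NeZero d] (hd : d ∣ M) : Uo A q M d hd ∈ C.B :=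
  S.mem_B (isIntegral_Uo A q M d hd) (Uo_mem20 A q M d hd) (Uo_mem11 A q M B k hB hq d hd)
    (Uo_mem02 A q M B k hB hq d hd)

theorem ChartL0.Uoi_mem_B (d : ℕ) [NeZero d] (hd : d ∣ M) : Uoi A q M d hd ∈ C.B :=
  S.mem_B (isIntegral_Uoi A q M d hd) (Uoi_mem20 A q M d hd) (Uoi_mem11 A q M B k hB hq d hd)
    (Uoi_mem02 A q M B k hB hq d hd)

theorem ChartL0.Uo_not_mem (d : ℕ) [NeZero d] (hd : d ∣ M) (𝔪 : Ideal C.B) (h𝔪 : 𝔪 ≠ ⊤) :
    (⟨Uo A q M d hd, S.Uo_mem_B d hd⟩ : C.B) ∉ 𝔪 :=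
  not_mem_of_mul_eq_one C 𝔪 h𝔪 (b := ⟨Uoi A q M d hd, S.Uoi_mem_B d hd⟩)
    (Subtype.ext (Uo_mul_Uoi A q M d hd))

theorem ChartL0.Uoi_not_mem (d : ℕ) [NeZero d] (hd : d ∣ M) (𝔪 : Ideal C.B) (h𝔪 : 𝔪 ≠ ⊤) :
    (⟨Uoi A q M d hd, S.Uoi_mem_B d hd⟩ : C.B) ∉ 𝔪 :=
  not_mem_of_mul_eq_one C 𝔪 h𝔪 (b := ⟨Uo A q M d hd, S.Uo_mem_B d hd⟩)
    (Subtype.ext ((mul_comm _ _).trans (Uo_mul_Uoi A q M d hd)))

variable [Fintype ι] [DecidableEq ι]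

include hB hq in
/-- **Ordinary points of `C₁₁`, `q ≥ 5`, `4 ∣ M`**: if `eps1 ∉ 𝔪 ⊇ Icomp₁₁` then `𝔪` has a local
equation datum and `C₁₁` is the only component through `𝔪`. -/
theorem ord11_u4 (hA : (q : Kbar) ∈ A.nonunits) (h5 : 5 ≤ q) (h4 : 4 ∣ M)
    (𝔪 : Ideal C.B) [h𝔪 : 𝔪.IsPrime] (hi : C.Icomp i₁₁ ≤ 𝔪)
    (hw : (⟨eps1o A q M, S.eps1o_mem_B⟩ : C.B) ∉ 𝔪) :
    Nonempty (LocEq C qR 𝔪) ∧ ∀ i', C.Icomp i' ≤ 𝔪 → i' = i₁₁ := by
  haveI : Fact q.Prime := ⟨hq⟩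
  haveI : CharP (kV A) q := Fermat.Agent.BAD.H82.charP_kV A hq hA
  have h2 : 2 ∣ M := Dvd.dvd.trans (by norm_num) h4
  have hε : resV A ⟨epsK q B, epsK_mem A q M B k hB hq⟩ ≠ 0 :=
    resV_epsK_ne_zero A q M B k hB hq
  have h3 : (3 : kV A) ≠ 0 := by
    intro h
    have h' : ((3 : ℕ) : kV A) = 0 := by exact_mod_cast h
    have hdvd := (CharP.cast_eq_zero_iff (kV A) q 3).1 h'
    have := Nat.le_of_dvd (by norm_num) hdvd
    omega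
  have hne : resV A ⟨epsK q B, epsK_mem A q M B k hB hq⟩ ^ 12 * (3 : kV A) ^ (12 * (q - 1))
      ≠ 0 := mul_ne_zero (pow_ne_zero _ hε) (pow_ne_zero _ h3)
  obtain ⟨c, ⟨c', hc'⟩, ⟨h20, -⟩, ⟨h11, hs11⟩, ⟨h02, -⟩⟩ := H23.hlift_mod A q M B k hB hq hA
    (resV A ⟨epsK q B, epsK_mem A q M B k hB hq⟩ ^ 12 * (3 : kV A) ^ (12 * (q - 1)))⁻¹
  have hcI : IsIntegral ↥(Algebra.adjoin ↥(Kur A)
      ({j0 A (M * q * q)} : Set ↥(L0 A (M * q * q)))) c := by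
    apply isIntegral_Kur_of_bar
    rw [hc']
    exact isIntegral_algebraMap.tower_top (R := Kbar)
  have hcB : c ∈ C.B := S.mem_B hcI h20 h11 h02
  have htop : 𝔪 ≠ ⊤ := h𝔪.ne_top
  refine ord11_of_cert S hA (unitF M 4 h4) H73.uZ4 (H73.coeffMap_uZ4_Kbar M h4)
    (isIntegral_t11o_unitF A q M 4 h4 _ _) 𝔪 hi hw 12 (by norm_num) ⟨c, hcB⟩
    ((⟨eps1o A q M, S.eps1o_mem_B⟩ : C.B) ^ 22
      * ((⟨Uo A q M 2 h2, S.Uo_mem_B 2 h2⟩ : C.B) ^ 6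
        * ((⟨Uo A q M 4 h4, S.Uo_mem_B 4 h4⟩ : C.B)
          * (⟨Uoi A q M 2 h2, S.Uoi_mem_B 2 h2⟩ : C.B)) ^ 16) ^ (q - 1))
    (mul_not_mem C 𝔪 (pow_not_mem C 𝔪 hw 22)
      (pow_not_mem C 𝔪 (mul_not_mem C 𝔪 (pow_not_mem C 𝔪 (S.Uo_not_mem 2 h2 𝔪 htop) 6)
        (pow_not_mem C 𝔪 (mul_not_mem C 𝔪 (S.Uo_not_mem 4 h4 𝔪 htop)
          (S.Uoi_not_mem 2 h2 𝔪 htop)) 16)) (q - 1))) ?_
  intro h1 hY
  have e1 : (⟨(E11o A q M * f11o A q M (unitF M 4 h4) H73.uZ4 (H73.coeffMap_uZ4_Kbar M h4)) ^ 12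
      * c, h1⟩ : ↥(V11o A q M B k hB hq))
      = (⟨E11o A q M, E11o_mem11 A q M B k hB hq⟩
          * ⟨f11o A q M (unitF M 4 h4) H73.uZ4 (H73.coeffMap_uZ4_Kbar M h4),
              f11o_mem11 A q M B k hB hq _ _ _⟩) ^ 12 * ⟨c, h11⟩ := Subtype.ext rfl
  have e2 : (⟨(((⟨eps1o A q M, S.eps1o_mem_B⟩ : C.B) ^ 22
      * ((⟨Uo A q M 2 h2, S.Uo_mem_B 2 h2⟩ : C.B) ^ 6
        * ((⟨Uo A q M 4 h4, S.Uo_mem_B 4 h4⟩ : C.B)
          * (⟨Uoi A q M 2 h2, S.Uoi_mem_B 2 h2⟩ : C.B)) ^ 16) ^ (q - 1) : C.B) :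
            ↥(L0 A (M * q * q))), hY⟩ : ↥(V11o A q M B k hB hq))
      = ⟨eps1o A q M, eps1o_mem11 A q M B k hB hq⟩ ^ 22
        * (⟨Uo A q M 2 h2, Uo_mem11 A q M B k hB hq 2 h2⟩ ^ 6
          * (⟨Uo A q M 4 h4, Uo_mem11 A q M B k hB hq 4 h4⟩
            * ⟨Uoi A q M 2 h2, Uoi_mem11 A q M B k hB hq 2 h2⟩) ^ 16) ^ (q - 1) :=
    Subtype.ext rfl
  rw [e1, e2]
  simp only [map_mul, map_pow]
  rw [s11_E11 A q M B k hB hq hA, s11_f11o A q M B k hB hq _ _ _ hA, hs11, s11_eps1,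
    s11_Uo, s11_Uo, s11_Uoi, H73.coeffMap_uZ4, ← H73.vbar_eq, ← H73.ubar4_eq, ← H73.vbar2_eq]
  refine cert_alg (q - 1) (HU A q M) (deltaR (kV A)) (H73.thetaL (H73.ubar4 (kV A))) 3
    (H73.vbar (kV A)) (H73.vbar2 (kV A)) _ _ (HU_mul_deltaR_pow A q M hq hA)
    (H73.thetaL_ubar_pow_D (kV A)) ?_
  generalize resV A ⟨epsK q B, epsK_mem A q M B k hB hq⟩ = εb at hne ⊢
  have e3 : (3 : LaurentSeries (kV A)) = algebraMap (kV A) (LaurentSeries (kV A)) 3 :=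
    (map_ofNat _ 3).symm
  rw [e3, ← map_pow, ← map_pow, ← map_mul, ← map_mul, mul_inv_cancel₀ hne, map_one]

end Cert

end Fermat.Agent.S36.NU.H99
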