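import Fermat.Agent.S36.NU.H65_Inst

/-!
# S36 / NU-B, (M4) assembly of the local data at a closed point (helper99)

* `branch_isPID` : the valuation ring of a branch of a noetherian chart is a principal ideal ring
  (it is a quotient of the local ring `B_𝔪`);
* `branch_ne_top` : it is not the whole residue field if some function of `B` is not constant on
  the component;
* `branchPlace` : the place of the component defined by a branch;
* `pointDataAt_of_dichotomy` : **the local data at a closed point `𝔪`** (`H65.PointDataAt`) from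
  - a branch through `𝔪` on every component through `𝔪` (M2),
  - witnesses `wit i ∈ B`: if `wit i ∉ 𝔪 ⊇ Icomp i` then `𝔪` has a local equation datum and `i`
    is the only component through `𝔪` (the ordinary points),
  - the zeros of `rd i (wit i)` on the component `i` are the points `pt i z`, `z ∈ SS`,
  - a local equation datum at the points `𝔪_z`, `z ∈ SS` (LOCEQ-SS).
-/

set_option autoImplicit false
set_option linter.style.haveILetI false

noncomputable section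

open AlgebraicCurve

namespace Fermat.Agent.S36.NU.H99

open Fermat.Agent.RED.H17 Fermat.Agent.RED Fermat.Agent.S36.NU.H16 Fermat.Agent.S36.NU.H79
  Fermat.Agent.S36.NU.H24 Fermat.Agent.S36.NU.H65 Fermat.Agent.S36.NU.H17

section BranchPlace

variable {R F k ι : Type*} {κ : ι → Type*} [CommRing R] [Field F] [Algebra R F]
  [Field k] [∀ i, Field (κ i)] [∀ i, Algebra k (κ i)]
  {C : Chart R F k ι κ} {𝔪 : Ideal C.B} {i : ι}

/-- The valuation ring of a branch of a noetherian chart is noetherian, hence principal. -/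
theorem branch_isPID [IsNoetherianRing C.B] [h𝔪 : 𝔪.IsPrime] (b : Branch C 𝔪 i) :
    IsPrincipalIdealRing b.O := by
  have hnoe : IsNoetherianRing (Localization.AtPrime 𝔪) :=
    IsLocalization.isNoetherianRing 𝔪.primeCompl _ inferInstance
  set ψ : C.B →+* b.O := (C.rdB i).codRestrict b.O b.reg with hψ
  have hunit : ∀ a : C.B, a ∉ 𝔪 → IsUnit (ψ a) := fun a ha =>
    (ValuationSubring.valuation_eq_one_iff b.O (ψ a)).2 (b.val_rdB_eq_one ha)
  have hg : ∀ y : 𝔪.primeCompl, IsUnit (ψ y) := fun y => hunit y y.2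
  set φ : Localization.AtPrime 𝔪 →+* b.O := IsLocalization.lift hg with hφ
  have hφA : ∀ a : C.B, φ (algebraMap C.B (Localization.AtPrime 𝔪) a) = ψ a :=
    fun a => IsLocalization.lift_eq hg a
  have hφsurj : Function.Surjective φ := by
    intro y
    obtain ⟨b', β, hβ, hb'⟩ := b.normal y y.2
    refine ⟨IsLocalization.mk' (Localization.AtPrime 𝔪) b' (⟨β, hβ⟩ : 𝔪.primeCompl), ?_⟩
    have h1 : IsLocalization.mk' (Localization.AtPrime 𝔪) b' (⟨β, hβ⟩ : 𝔪.primeCompl)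
        * algebraMap C.B (Localization.AtPrime 𝔪) β
          = algebraMap C.B (Localization.AtPrime 𝔪) b' :=
      IsLocalization.mk'_spec (Localization.AtPrime 𝔪) b' ⟨β, hβ⟩
    have h2 := congrArg φ h1
    rw [map_mul, hφA, hφA] at h2
    have h3 : ψ b' = y * ψ β := Subtype.ext hb'
    rw [h3] at h2
    exact mul_right_cancel₀ (hunit β hβ).ne_zero h2
  haveI : IsNoetherianRing b.O := isNoetherianRing_of_surjective _ b.O φ hφsurj
  exact IsPrincipalIdealRing.of_isNoetherianRing_of_isBezout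

/-- The valuation ring of a branch is not the whole field if some function of `B` is not
constant on the component. -/
theorem branch_ne_top (b : Branch C 𝔪 i) (β : C.B)
    (hβ : ∀ c : k, C.rdB i β ≠ algebraMap k (κ i) c) : b.O ≠ ⊤ := by
  intro htop
  obtain ⟨c, hc⟩ := b.value _ (b.reg β)
  apply hβ c
  rw [ValuationSubring.mem_nonunits_iff] at hc
  by_contra hne
  have h0 : C.rdB i β - algebraMap k (κ i) c ≠ 0 := sub_ne_zero.2 hne
  have h1 : (C.rdB i β - algebraMap k (κ i) c)⁻¹ ∈ b.O := by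
    rw [htop]
    exact ValuationSubring.mem_top _
  rw [← ValuationSubring.valuation_le_one_iff, map_inv₀] at h1
  have h2 : (1 : b.O.ValueGroup) ≤ b.O.valuation (C.rdB i β - algebraMap k (κ i) c) := by
    have hv0 : b.O.valuation (C.rdB i β - algebraMap k (κ i) c) ≠ 0 :=
      (Valuation.ne_zero_iff _).2 h0
    exact (inv_le_one₀ (zero_lt_iff.2 hv0)).1 h1
  exact absurd hc (not_lt.2 h2)

/-- **The place of the component defined by a branch.** -/
def branchPlace [IsNoetherianRing C.B] [𝔪.IsPrime] (b : Branch C 𝔪 i) (hne : b.O ≠ ⊤) :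
    Place k (κ i) where
  toValuationSubring := b.O
  algebraMap_mem' := fun c => Branch_const_mem b c
  ne_top' := hne
  isPrincipalIdealRing' := branch_isPID b

theorem branchPlace_O [IsNoetherianRing C.B] [𝔪.IsPrime] (b : Branch C 𝔪 i) (hne : b.O ≠ ⊤) :
    (branchPlace b hne).toValuationSubring = b.O := rfl

theorem regAt_branchPlace [IsNoetherianRing C.B] [𝔪.IsPrime] (b : Branch C 𝔪 i)
    (hne : b.O ≠ ⊤) (β : C.B) : RegAt (branchPlace b hne) (C.rdB i β) :=
  (regAt_iff_mem _ _).2 (b.reg β)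

theorem vanAt_branchPlace_iff [IsNoetherianRing C.B] [𝔪.IsPrime] (b : Branch C 𝔪 i)
    (hne : b.O ≠ ⊤) (β : C.B) : VanAt (branchPlace b hne) (C.rdB i β) ↔ β ∈ 𝔪 := by
  rw [vanAt_iff_mem_nonunits, b.van]
  rfl

end BranchPlace

section Asm

variable {R F k ι Z K L : Type*} {κ : ι → Type*} [CommRing R] [Field F] [Algebra R F]
  [Field k] [∀ i, Field (κ i)] [∀ i, Algebra k (κ i)] [Fintype ι]
  [Field K] [Field L] [Algebra K L] [Algebra F L]
  {K' L' L₁ L₂ : Type*} [Field K'] [Field L'] [Algebra K' L'] [Field L₁] [Algebra k L₁]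
  [Field L₂] [Algebra k L₂]

/-- **The local data at a closed point**, from the dichotomy ordinary / supersingular. -/
theorem pointDataAt_of_dichotomy [Infinite k] (C : Chart R F k ι κ) [IsNoetherianRing C.B]
    (D : NUData K F L k ι Z κ K' L' L₁ L₂) (q : R)
    (hc : Compat C D.T) (hP : HasPrincipalDivisors K L)
    (hSS0 : ∀ z ∈ D.SS, InChart C D.T z)
    (wit : ι → C.B)
    (hnc : ∀ i, ∃ β : C.B, ∀ c : k, C.rdB i β ≠ algebraMap k (κ i) c)
    (hsurj : ∀ (i : ι) (v : Place k (κ i)), (∀ β : C.B, RegAt v (C.rdB i β)) →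
      ∃ z, D.T.pt i z = v)
    (hSSchar : ∀ (i : ι) (z : Z), (∀ β : C.B, RegAt (D.T.pt i z) (C.rdB i β)) →
      VanAt (D.T.pt i z) (C.rdB i (wit i)) → z ∈ D.SS)
    (hss : ∀ z ∈ D.SS, ∀ 𝔪 : Ideal C.B, 𝔪.IsMaximal →
      (∀ β : C.B, β ∈ 𝔪 ↔ VanAt (D.T.pt D.i₂₀ z) (C.rdB D.i₂₀ β)) → Nonempty (LocEq C q 𝔪))
    (𝔪 : Ideal C.B) (hmax : 𝔪.IsMaximal)
    (hbr : ∀ i, C.Icomp i ≤ 𝔪 → Nonempty (Branch C 𝔪 i))
    (hord : ∀ i, C.Icomp i ≤ 𝔪 → wit i ∉ 𝔪 →
      Nonempty (LocEq C q 𝔪) ∧ ∀ i', C.Icomp i' ≤ 𝔪 → i' = i)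
    (hex : ∃ i, C.Icomp i ≤ 𝔪) : PointDataAt C D q 𝔪 := by
  haveI : 𝔪.IsPrime := hmax.isPrime
  obtain ⟨i, hi⟩ := hex
  by_cases hw : wit i ∈ 𝔪
  · obtain ⟨b⟩ := hbr i hi
    obtain ⟨β₀, hβ₀⟩ := hnc i
    have hne : b.O ≠ ⊤ := branch_ne_top b β₀ hβ₀
    obtain ⟨z, hz⟩ := hsurj i (branchPlace b hne) (regAt_branchPlace b hne)
    have hreg : ∀ β : C.B, RegAt (D.T.pt i z) (C.rdB i β) := by
      rw [hz]
      exact regAt_branchPlace b hne
    have hvan : ∀ β : C.B, β ∈ 𝔪 ↔ VanAt (D.T.pt i z) (C.rdB i β) := by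
      intro β
      rw [hz]
      exact (vanAt_branchPlace_iff b hne β).symm
    have hzSS : z ∈ D.SS := hSSchar i z hreg ((hvan _).1 hw)
    have hIn : InChart C D.T z := hSS0 z hzSS
    have hg : Glued D.T z := D.glue z hzSS
    have h20 : ∀ β : C.B, β ∈ 𝔪 ↔ VanAt (D.T.pt D.i₂₀ z) (C.rdB D.i₂₀ β) := by
      intro β
      rw [hvan, ← mem_ptMax hc hP hIn i]
      exact mem_ptMax_iff hc hP hIn hg i D.i₂₀ β
    exact ⟨hbr, hss z hzSS 𝔪 hmax h20, Or.inr ⟨z, hzSS, hIn, i, hvan⟩⟩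
  · obtain ⟨hL, h1⟩ := hord i hi hw
    exact ⟨hbr, hL, Or.inl ⟨i, h1⟩⟩

/-- **The local data at all closed points of the special fibre of a chart.** -/
theorem pointData_of_dichotomy [Infinite k] (C : Chart R F k ι κ) [IsNoetherianRing C.B]
    (D : NUData K F L k ι Z κ K' L' L₁ L₂) (q : R)
    (hc : Compat C D.T) (hP : HasPrincipalDivisors K L)
    (hSS0 : ∀ z ∈ D.SS, InChart C D.T z)
    (wit : ι → C.B)
    (hnc : ∀ i, ∃ β : C.B, ∀ c : k, C.rdB i β ≠ algebraMap k (κ i) c)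
    (hsurj : ∀ (i : ι) (v : Place k (κ i)), (∀ β : C.B, RegAt v (C.rdB i β)) →
      ∃ z, D.T.pt i z = v)
    (hSSchar : ∀ (i : ι) (z : Z), (∀ β : C.B, RegAt (D.T.pt i z) (C.rdB i β)) →
      VanAt (D.T.pt i z) (C.rdB i (wit i)) → z ∈ D.SS)
    (hss : ∀ z ∈ D.SS, ∀ 𝔪 : Ideal C.B, 𝔪.IsMaximal →
      (∀ β : C.B, β ∈ 𝔪 ↔ VanAt (D.T.pt D.i₂₀ z) (C.rdB D.i₂₀ β)) → Nonempty (LocEq C q 𝔪))
    (hbr : ∀ 𝔪 : Ideal C.B, 𝔪.IsMaximal → ∀ i, C.Icomp i ≤ 𝔪 → Nonempty (Branch C 𝔪 i))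
    (hord : ∀ 𝔪 : Ideal C.B, 𝔪.IsMaximal → ∀ i, C.Icomp i ≤ 𝔪 → wit i ∉ 𝔪 →
      Nonempty (LocEq C q 𝔪) ∧ ∀ i', C.Icomp i' ≤ 𝔪 → i' = i) :
    PointData C D q := fun 𝔪 hmax hex =>
  pointDataAt_of_dichotomy C D q hc hP hSS0 wit hnc hsurj hSSchar hss 𝔪 hmax (hbr 𝔪 hmax)
    (hord 𝔪 hmax) hex

end Asm

end Fermat.Agent.S36.NU.H99
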