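import Fermat.Agent.S36.NU.H88_Restrict3
import Fermat.Agent.BAD.H21_UnitW
import Fermat.Agent.BAD.H30_UnitGauss

/-!
# S36 / NU-B, leaf (M4) LOCEQ, part UNITS3 (helper99): the modular units at the three valuations

Level `N = M q²` (written `M * q * q`), `q ∤ M`.  `U = Δ(τ)/Δ(qτ)` of level `M q`
(`U3 q M = BAD.H30.unitF (M * q) q`), `α, β : F_{Mq} → F_{Mq²}` the degeneracy maps,

  `eps1 = α U = Δ(τ)/Δ(qτ)`,   `eps2 = β U = Δ(qτ)/Δ(q²τ)`.

Valuation vectors `(v₂₀, v₁₁, v₀₂)` (normalised by `v(q) = 1`):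
`eps1 = (0, 0, 12)`, `eps2 = (0, 12, 12)`.  The witnesses (DISJ) of the chart `j ≠ ∞`:

* `E20 = eps2`            `(0, 12, 12)`, `red₂₀ E20 = (red U)(t^q)`;
* `E02 = q¹² / eps1`      `(12, 12, 0)`, `red₀₂ E02 = (red U)(t^q)`;
* `E11 = q¹² eps1 / eps2` `(12, 0, 12)`, `red₁₁ E11 = (red U)²`;

with `red U = (Δ~ ^ (q - 1))⁻¹` (`BAD.H30.gaussRes_unitF_char`).
Everything follows from `BAD.H21.wq_unitF` (`w_q U = q¹² / U`) and helper88's table of the
three valuations on `α`, `β` (`H88_Restrict2/3`).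
-/

set_option autoImplicit false
set_option synthInstance.maxHeartbeats 400000
set_option maxHeartbeats 1000000
set_option linter.unusedSectionVars false
set_option linter.style.haveILetI false

noncomputable section

open ModularCurve
open Fermat.Agent.S24 Fermat.Agent.BAD.H88 Fermat.Agent.BAD.H30 Fermat.Agent.BAD.H21
open Fermat.Agent.S28 Fermat.Agent.S28.H73 Fermat.Agent.RED.H73 Fermat.Agent.RED.H17
open Fermat.Agent.S36.NU.H88

namespace Fermat.Agent.S36.NU.H99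

section Units

variable (A : ValuationSubring Kbar)
variable (q M : ℕ) (B k : ℤ) (hB : B * M + k * q = 1) (hq : q.Prime) [NeZero M] [NeZero q]
  [NeZero (M * q)]

/-- `U = Δ(τ)/Δ(qτ)`, of level `M q`. -/
def U3 : FN (M * q) := unitF (M * q) q (dvd_mul_left q M)

/-- The constant `q` of level `M q`. -/
abbrev cq : FN (M * q) := algebraMap Kbar (FN (M * q)) (q : Kbar)

theorem U3_ne_zero : U3 q M ≠ 0 := unitF_ne_zero (M * q) q _

theorem cq_ne_zero : cq q M ≠ 0 := by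
  rw [cq, Ne, map_eq_zero]
  exact_mod_cast (NeZero.ne q)

theorem U3_mem : U3 q M ∈ V20 A (M * q) := unitF_mem_gaussV A (M * q) q _

theorem U3_inv_mem : (U3 q M)⁻¹ ∈ V20 A (M * q) := by
  have h := gaussRes_unitF_ne_zero A (M * q) q (dvd_mul_left q M)
  have hu : IsUnit (⟨U3 q M, U3_mem A q M⟩ : ↥(V20 A (M * q))) := by
    by_contra hnu
    apply h
    have := (red20_eq_zero_iff A (M * q) ⟨U3 q M, U3_mem A q M⟩).2
      ((IsLocalRing.mem_maximalIdeal _).2 hnu)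
    exact this
  obtain ⟨u, hu'⟩ := hu
  have h1 : ((u⁻¹ : (↥(V20 A (M * q)))ˣ) : ↥(V20 A (M * q))) * ⟨U3 q M, U3_mem A q M⟩ = 1 := by
    rw [← hu']
    exact u.inv_mul
  have h2 := congrArg (fun z : ↥(V20 A (M * q)) => (z : FN (M * q))) h1
  simp only [MulMemClass.coe_mul, OneMemClass.coe_one] at h2
  have h3 : (U3 q M)⁻¹ = ((u⁻¹ : (↥(V20 A (M * q)))ˣ) : ↥(V20 A (M * q))) :=
    (eq_inv_of_mul_eq_one_left h2).symm ▸ rfl
  rw [h3]
  exact Subtype.mem _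

include hB hq in
/-- **UNIT-W** at level `M q`. -/
theorem wL_U3 : wL q M B k hB hq (U3 q M) = cq q M ^ 12 * (U3 q M)⁻¹ := by
  have h := wq_unitF q M k B (hab_of_hB q M B k hB) hq (dvd_mul_left q M)
  rw [map_pow] at h
  exact h

include hB hq in
theorem wL_cq : wL q M B k hB hq (cq q M) = cq q M :=
  (wL q M B k hB hq).commutes _

theorem cq_mem (hA : (q : Kbar) ∈ A) : cq q M ∈ V20 A (M * q) :=
  (const_mem20 A (M * q) _).2 hA

/-- `q ^ a / U ∈ V'`. -/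
theorem cq_pow_mul_inv_mem (hA : (q : Kbar) ∈ A) (a : ℕ) :
    cq q M ^ a * (U3 q M)⁻¹ ∈ V20 A (M * q) :=
  mul_mem (pow_mem (cq_mem A q M hA) a) (U3_inv_mem A q M)

include hB hq in
/-- `w (U / q ^ a) = q ^ (12 - a) / U`. -/
theorem wL_U3_div (a : ℕ) (ha : a ≤ 12) :
    wL q M B k hB hq (U3 q M * (cq q M ^ a)⁻¹) = cq q M ^ (12 - a) * (U3 q M)⁻¹ := by
  rw [map_mul, map_inv₀, map_pow, wL_cq, wL_U3]
  have h0 := cq_ne_zero q M
  have : cq q M ^ 12 = cq q M ^ (12 - a) * cq q M ^ a := by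
    rw [← pow_add, Nat.sub_add_cancel ha]
  rw [this]
  field_simp

include hB hq in
/-- `w (q ^ a / U) = U / q ^ (12 - a)`. -/
theorem wL_inv_U3 (a : ℕ) (ha : a ≤ 12) :
    wL q M B k hB hq (cq q M ^ a * (U3 q M)⁻¹) = U3 q M * (cq q M ^ (12 - a))⁻¹ := by
  rw [map_mul, map_inv₀, map_pow, wL_cq, wL_U3]
  have h0 := cq_ne_zero q M
  have hU := U3_ne_zero q M
  have : cq q M ^ 12 = cq q M ^ (12 - a) * cq q M ^ a := by
    rw [← pow_add, Nat.sub_add_cancel ha]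
  rw [this]
  field_simp

/-! ### The units of level `M q²` -/

/-- `eps1 = Δ(τ)/Δ(qτ)` of level `M q²`. -/
def eps1 : FN (M * q * q) := heckeAlphaBar Kbar (M * q) q (U3 q M)

/-- `eps2 = Δ(qτ)/Δ(q²τ)` of level `M q²`. -/
def eps2 : FN (M * q * q) := heckeBetaBar Kbar (M * q) q (U3 q M)

/-- The constant `q` of level `M q²`. -/
abbrev cQ : FN (M * q * q) := algebraMap Kbar (FN (M * q * q)) (q : Kbar)

theorem cQ_ne_zero : cQ q M ≠ 0 := by
  rw [cQ, Ne, map_eq_zero]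
  exact_mod_cast (NeZero.ne q)

theorem alpha_cq : heckeAlphaBar Kbar (M * q) q (cq q M) = cQ q M :=
  (heckeAlphaBar Kbar (M * q) q).commutes _

theorem beta_cq : heckeBetaBar Kbar (M * q) q (cq q M) = cQ q M :=
  (heckeBetaBar Kbar (M * q) q).commutes _

theorem eps1_ne_zero : eps1 q M ≠ 0 := by
  rw [eps1, Ne, map_eq_zero]
  exact U3_ne_zero q M

theorem eps2_ne_zero : eps2 q M ≠ 0 := by
  rw [eps2, Ne, map_eq_zero]
  exact U3_ne_zero q M

/-- `E20 = eps2`. -/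
def E20 : FN (M * q * q) := eps2 q M

/-- `E02 = q¹² / eps1`. -/
def E02 : FN (M * q * q) := cQ q M ^ 12 * (eps1 q M)⁻¹

/-- `E11 = q¹² eps1 / eps2`. -/
def E11 : FN (M * q * q) := cQ q M ^ 12 * eps1 q M * (eps2 q M)⁻¹

theorem E20_ne_zero : E20 q M ≠ 0 := eps2_ne_zero q M

theorem E02_ne_zero : E02 q M ≠ 0 :=
  mul_ne_zero (pow_ne_zero _ (cQ_ne_zero q M)) (inv_ne_zero (eps1_ne_zero q M))

theorem E11_ne_zero : E11 q M ≠ 0 :=
  mul_ne_zero (mul_ne_zero (pow_ne_zero _ (cQ_ne_zero q M)) (eps1_ne_zero q M))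
    (inv_ne_zero (eps2_ne_zero q M))

/-- `E20 E02 E11 = q²⁴`. -/
theorem E_prod : E20 q M * E02 q M * E11 q M = cQ q M ^ 24 := by
  rw [E20, E02, E11]
  have h1 := eps1_ne_zero q M
  have h2 := eps2_ne_zero q M
  field_simp

theorem E02_eq : E02 q M = heckeAlphaBar Kbar (M * q) q (cq q M ^ 12 * (U3 q M)⁻¹) := by
  rw [E02, eps1, map_mul, map_pow, map_inv₀, alpha_cq]

theorem E02_inv_eq :
    (E02 q M)⁻¹ = heckeAlphaBar Kbar (M * q) q (U3 q M * (cq q M ^ 12)⁻¹) := by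
  rw [E02, eps1, map_mul, map_inv₀, map_pow, alpha_cq, mul_inv, inv_inv]
  ring

theorem E02_div_eq :
    E02 q M = cQ q M * heckeAlphaBar Kbar (M * q) q (cq q M ^ 11 * (U3 q M)⁻¹) := by
  rw [E02, eps1, map_mul, map_pow, map_inv₀, alpha_cq]
  ring

theorem E20_div_eq :
    E20 q M = cQ q M * heckeBetaBar Kbar (M * q) q (U3 q M * (cq q M ^ 1)⁻¹) := by
  rw [E20, eps2, map_mul, map_inv₀, map_pow, beta_cq, pow_one]
  have h0 := cQ_ne_zero q M
  field_simp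

theorem E11_eq : E11 q M = heckeAlphaBar Kbar (M * q) q (U3 q M)
    * heckeBetaBar Kbar (M * q) q (cq q M ^ 12 * (U3 q M)⁻¹) := by
  rw [E11, eps1, eps2, map_mul, map_pow, map_inv₀, beta_cq]
  ring

theorem E11_inv_eq : (E11 q M)⁻¹ = heckeAlphaBar Kbar (M * q) q (U3 q M)⁻¹
    * heckeBetaBar Kbar (M * q) q (U3 q M * (cq q M ^ 12)⁻¹) := by
  rw [E11, eps1, eps2, map_mul, map_inv₀, map_inv₀, map_pow, beta_cq]
  have h0 := cQ_ne_zero q M
  have h1 : heckeAlphaBar Kbar (M * q) q (U3 q M) ≠ 0 := eps1_ne_zero q M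
  have h2 : heckeBetaBar Kbar (M * q) q (U3 q M) ≠ 0 := eps2_ne_zero q M
  field_simp

theorem E11_div_eq20 : E11 q M = cQ q M * (heckeAlphaBar Kbar (M * q) q (U3 q M)
    * heckeBetaBar Kbar (M * q) q (cq q M ^ 11 * (U3 q M)⁻¹)) := by
  rw [E11, eps1, eps2, map_mul, map_pow, map_inv₀, beta_cq]
  ring

theorem E11_div_eq02 : E11 q M = cQ q M * (heckeAlphaBar Kbar (M * q) q
    (U3 q M * (cq q M ^ 1)⁻¹) * heckeBetaBar Kbar (M * q) q (cq q M ^ 12 * (U3 q M)⁻¹)) := by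
  rw [E11, eps1, eps2, map_mul, map_mul, map_pow, map_inv₀, map_inv₀, map_pow, beta_cq,
    alpha_cq, pow_one]
  have h0 := cQ_ne_zero q M
  field_simp

/-! ### `E20 = eps2`, vector `(0, 12, 12)` -/

theorem E20_mem20 : E20 q M ∈ V20 A (M * q * q) :=
  (beta_mem_V20_iff A q M _).2 (U3_mem A q M)

theorem E20_inv_mem20 : (E20 q M)⁻¹ ∈ V20 A (M * q * q) := by
  rw [E20, eps2, ← map_inv₀]
  exact (beta_mem_V20_iff A q M _).2 (U3_inv_mem A q M)

include hq in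
theorem E20_div_mem11 (hA : (q : Kbar) ∈ A) :
    ∃ f' ∈ V11 A (M * q * q) q M B k (lvl q M) hB hq, E20 q M = cQ q M * f' := by
  refine ⟨_, ?_, E20_div_eq q M⟩
  rw [beta_mem_V11_iff, wL_U3_div q M B k hB hq 1 (by norm_num)]
  exact cq_pow_mul_inv_mem A q M hA _

include hq in
theorem E20_div_mem02 (hA : (q : Kbar) ∈ A) :
    ∃ f' ∈ V02 A (M * q * q) q M B k (lvl q M) hB, E20 q M = cQ q M * f' := by
  refine ⟨_, ?_, E20_div_eq q M⟩
  rw [beta_mem_V02_iff A q M B k hB hq, wL_U3_div q M B k hB hq 1 (by norm_num)]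
  exact cq_pow_mul_inv_mem A q M hA _

/-! ### `E02 = q¹² / eps1`, vector `(12, 12, 0)` -/

include hq in
theorem E02_mem02 : E02 q M ∈ V02 A (M * q * q) q M B k (lvl q M) hB := by
  rw [E02_eq, alpha_mem_V02_iff A q M B k hB hq, wL_inv_U3 q M B k hB hq 12 le_rfl]
  simpa using U3_mem A q M

include hq in
theorem E02_inv_mem02 : (E02 q M)⁻¹ ∈ V02 A (M * q * q) q M B k (lvl q M) hB := by
  rw [E02_inv_eq, alpha_mem_V02_iff A q M B k hB hq, wL_U3_div q M B k hB hq 12 le_rfl]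
  simpa using U3_inv_mem A q M

theorem E02_div_mem20 (hA : (q : Kbar) ∈ A) :
    ∃ f' ∈ V20 A (M * q * q), E02 q M = cQ q M * f' := by
  refine ⟨_, ?_, E02_div_eq q M⟩
  rw [alpha_mem_V20_iff]
  exact cq_pow_mul_inv_mem A q M hA _

include hq in
theorem E02_div_mem11 (hA : (q : Kbar) ∈ A) :
    ∃ f' ∈ V11 A (M * q * q) q M B k (lvl q M) hB hq, E02 q M = cQ q M * f' := by
  refine ⟨_, ?_, E02_div_eq q M⟩
  rw [alpha_mem_V11_iff]
  exact cq_pow_mul_inv_mem A q M hA _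

/-! ### `E11 = q¹² eps1 / eps2`, vector `(12, 0, 12)` -/

include hq in
theorem E11_mem11 : E11 q M ∈ V11 A (M * q * q) q M B k (lvl q M) hB hq := by
  rw [E11_eq]
  refine mul_mem ((alpha_mem_V11_iff A q M B k hB hq _).2 (U3_mem A q M)) ?_
  rw [beta_mem_V11_iff, wL_inv_U3 q M B k hB hq 12 le_rfl]
  simpa using U3_mem A q M

include hq in
theorem E11_inv_mem11 : (E11 q M)⁻¹ ∈ V11 A (M * q * q) q M B k (lvl q M) hB hq := by
  rw [E11_inv_eq]
  refine mul_mem ((alpha_mem_V11_iff A q M B k hB hq _).2 (U3_inv_mem A q M)) ?_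
  rw [beta_mem_V11_iff, wL_U3_div q M B k hB hq 12 le_rfl]
  simpa using U3_inv_mem A q M

theorem E11_div_mem20 (hA : (q : Kbar) ∈ A) :
    ∃ f' ∈ V20 A (M * q * q), E11 q M = cQ q M * f' := by
  refine ⟨_, ?_, E11_div_eq20 q M⟩
  refine mul_mem ((alpha_mem_V20_iff A q M _).2 (U3_mem A q M)) ?_
  rw [beta_mem_V20_iff]
  exact cq_pow_mul_inv_mem A q M hA _

include hq in
theorem E11_div_mem02 (hA : (q : Kbar) ∈ A) :
    ∃ f' ∈ V02 A (M * q * q) q M B k (lvl q M) hB, E11 q M = cQ q M * f' := by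
  refine ⟨_, ?_, E11_div_eq02 q M⟩
  refine mul_mem ?_ ?_
  · rw [alpha_mem_V02_iff A q M B k hB hq, wL_U3_div q M B k hB hq 1 (by norm_num)]
    exact cq_pow_mul_inv_mem A q M hA _
  · rw [beta_mem_V02_iff A q M B k hB hq, wL_inv_U3 q M B k hB hq 12 le_rfl]
    simpa using U3_mem A q M

end Units

end Fermat.Agent.S36.NU.H99
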