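import Fermat.Agent.S36.NU.H99_Units3
import Fermat.Agent.S36.NU.H23_Mod1
import Fermat.Agent.S36.NU.H82_Val0

/-!
# S36 / NU-B, leaf (M4) LOCEQ, part UNITS3 (helper99): the witnesses on the inertia-fixed functions

`L₀ = L0 A (M q²)` (helper23), `V20o`, `V11o`, `V02o` the three valuation rings of `L₀`.

* `eps1o`, `eps2o`, `E20o`, `E02o`, `E11o : L₀` (rational coefficients);
* membership and divisibility by `q` for the three valuations (`E20o_*`, `E02o_*`, `E11o_*`);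
* the reductions: `HU = red U = Δ~(t)/Δ~(t^q)`,
  `red₂₀ eps1 = HU`, `red₂₀ eps2 = HU(t^q)`, `red₁₁ eps1 = HU`, `red₁₁ E11 = HU²`,
  `red₀₂ E02 = HU(t^q)`;
* congruences: `eps2 - eps1 ^ q ∈ 𝔪_{V₂₀}` (over `q`), `E11 - eps1 ^ 2 ∈ 𝔪_{V₁₁}`.
-/

set_option autoImplicit false
set_option synthInstance.maxHeartbeats 400000
set_option maxHeartbeats 1000000
set_option linter.unusedSectionVars false
set_option linter.style.haveILetI false

noncomputable section

open ModularCurve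
open Fermat.Agent.S24 Fermat.Agent.BAD.H88 Fermat.Agent.BAD.H30 Fermat.Agent.BAD.H21
open Fermat.Agent.S28 Fermat.Agent.S28.H73 Fermat.Agent.RED.H73 Fermat.Agent.RED.H17
open Fermat.Agent.S36.NU.H88 Fermat.Agent.S36.NU.H23 Fermat.Agent.S36.NU.H82

namespace Fermat.Agent.S36.NU.H99

section UnitsL

variable (A : ValuationSubring Kbar)
variable (q M : ℕ) (B k : ℤ) (hB : B * M + k * q = 1) (hq : q.Prime) [NeZero M] [NeZero q]
  [NeZero (M * q)] [NeZero (M * q * q)]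

/-! ### Inertia-fixed -/

theorem U3_mem_L0 : U3 q M ∈ L0 A (M * q) := by
  rw [mem_L0_iff_coeffMap]
  intro σ _
  rw [U3, unitF_coe]
  exact coeffMap_coeffEmb σ _

theorem eps1_mem_L0 : eps1 q M ∈ L0 A (M * q * q) :=
  alpha_mem_L0 A (M * q) q _ (U3_mem_L0 A q M)

theorem eps2_mem_L0 : eps2 q M ∈ L0 A (M * q * q) :=
  beta_mem_L0 A (M * q) q _ (U3_mem_L0 A q M)

theorem cQ_mem_L0 : cQ q M ∈ L0 A (M * q * q) := by
  rw [const_mem_L0_iff]
  intro σ _
  exact map_natCast σ q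

theorem E20_mem_L0 : E20 q M ∈ L0 A (M * q * q) := eps2_mem_L0 A q M

theorem E02_mem_L0 : E02 q M ∈ L0 A (M * q * q) :=
  mul_mem (pow_mem (cQ_mem_L0 A q M) 12) (inv_mem (eps1_mem_L0 A q M))

theorem E11_mem_L0 : E11 q M ∈ L0 A (M * q * q) :=
  mul_mem (mul_mem (pow_mem (cQ_mem_L0 A q M) 12) (eps1_mem_L0 A q M))
    (inv_mem (eps2_mem_L0 A q M))

/-- `eps1` as an inertia-fixed function. -/
def eps1o : ↥(L0 A (M * q * q)) := ⟨eps1 q M, eps1_mem_L0 A q M⟩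

/-- `eps2` as an inertia-fixed function. -/
def eps2o : ↥(L0 A (M * q * q)) := ⟨eps2 q M, eps2_mem_L0 A q M⟩

/-- `E20` as an inertia-fixed function. -/
def E20o : ↥(L0 A (M * q * q)) := ⟨E20 q M, E20_mem_L0 A q M⟩

/-- `E02` as an inertia-fixed function. -/
def E02o : ↥(L0 A (M * q * q)) := ⟨E02 q M, E02_mem_L0 A q M⟩

/-- `E11` as an inertia-fixed function. -/
def E11o : ↥(L0 A (M * q * q)) := ⟨E11 q M, E11_mem_L0 A q M⟩

theorem coe_natCast_L0 (n : ℕ) :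
    (((n : ℕ) : ↥(L0 A (M * q * q))) : FN (M * q * q)) = ((n : ℕ) : FN (M * q * q)) := rfl

theorem cQ_eq_natCast : cQ q M = ((q : ℕ) : FN (M * q * q)) := by
  rw [cQ, map_natCast]

/-- Transfer of divisibility by `q` to the inertia-fixed functions. -/
theorem div_o (V : ValuationSubring (FN (M * q * q))) (x : ↥(L0 A (M * q * q)))
    (h : ∃ f' ∈ V, (x : FN (M * q * q)) = cQ q M * f') :
    ∃ f' ∈ resV0 (L0 A (M * q * q)) V, x = ((q : ℕ) : ↥(L0 A (M * q * q))) * f' := by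
  obtain ⟨f', hf', hx⟩ := h
  have h0 := cQ_ne_zero q M
  have hf : f' = (cQ q M)⁻¹ * (x : FN (M * q * q)) := by
    rw [hx]
    field_simp
  have hfL : f' ∈ L0 A (M * q * q) := by
    rw [hf]
    exact mul_mem (inv_mem (cQ_mem_L0 A q M)) x.2
  refine ⟨⟨f', hfL⟩, hf', ?_⟩
  apply Subtype.ext
  show (x : FN (M * q * q)) = ((q : ℕ) : FN (M * q * q)) * f'
  rw [← cQ_eq_natCast, hx]

/-! ### The three valuations -/

theorem E20o_mem20 : E20o A q M ∈ V20o A q M := E20_mem20 A q M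

theorem E20o_inv_mem20 : (E20o A q M)⁻¹ ∈ V20o A q M := E20_inv_mem20 A q M

include hq in
theorem E20o_div_mem11 (hA : (q : Kbar) ∈ A) :
    ∃ f' ∈ V11o A q M B k hB hq, E20o A q M = ((q : ℕ) : ↥(L0 A (M * q * q))) * f' :=
  div_o A q M _ _ (E20_div_mem11 A q M B k hB hq hA)

include hq in
theorem E20o_div_mem02 (hA : (q : Kbar) ∈ A) :
    ∃ f' ∈ V02o A q M B k hB, E20o A q M = ((q : ℕ) : ↥(L0 A (M * q * q))) * f' :=
  div_o A q M _ _ (E20_div_mem02 A q M B k hB hq hA)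

include hq in
theorem E02o_mem02 : E02o A q M ∈ V02o A q M B k hB := E02_mem02 A q M B k hB hq

include hq in
theorem E02o_inv_mem02 : (E02o A q M)⁻¹ ∈ V02o A q M B k hB := E02_inv_mem02 A q M B k hB hq

theorem E02o_div_mem20 (hA : (q : Kbar) ∈ A) :
    ∃ f' ∈ V20o A q M, E02o A q M = ((q : ℕ) : ↥(L0 A (M * q * q))) * f' :=
  div_o A q M _ _ (E02_div_mem20 A q M hA)

include hq in
theorem E02o_div_mem11 (hA : (q : Kbar) ∈ A) :
    ∃ f' ∈ V11o A q M B k hB hq, E02o A q M = ((q : ℕ) : ↥(L0 A (M * q * q))) * f' :=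
  div_o A q M _ _ (E02_div_mem11 A q M B k hB hq hA)

include hq in
theorem E11o_mem11 : E11o A q M ∈ V11o A q M B k hB hq := E11_mem11 A q M B k hB hq

include hq in
theorem E11o_inv_mem11 : (E11o A q M)⁻¹ ∈ V11o A q M B k hB hq :=
  E11_inv_mem11 A q M B k hB hq

theorem E11o_div_mem20 (hA : (q : Kbar) ∈ A) :
    ∃ f' ∈ V20o A q M, E11o A q M = ((q : ℕ) : ↥(L0 A (M * q * q))) * f' :=
  div_o A q M _ _ (E11_div_mem20 A q M hA)

include hq in
theorem E11o_div_mem02 (hA : (q : Kbar) ∈ A) :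
    ∃ f' ∈ V02o A q M B k hB, E11o A q M = ((q : ℕ) : ↥(L0 A (M * q * q))) * f' :=
  div_o A q M _ _ (E11_div_mem02 A q M B k hB hq hA)

/-! ### `eps1`, `eps2` are units of `V₂₀`, `eps1` is a unit of `V₁₁` -/

theorem eps1o_mem20 : eps1o A q M ∈ V20o A q M :=
  (alpha_mem_V20_iff A q M _).2 (U3_mem A q M)

theorem eps1o_inv_mem20 : (eps1o A q M)⁻¹ ∈ V20o A q M := by
  show (eps1 q M)⁻¹ ∈ V20 A (M * q * q)
  rw [eps1, ← map_inv₀]
  exact (alpha_mem_V20_iff A q M _).2 (U3_inv_mem A q M)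

theorem eps2o_mem20 : eps2o A q M ∈ V20o A q M := E20_mem20 A q M

include hq in
theorem eps1o_mem11 : eps1o A q M ∈ V11o A q M B k hB hq :=
  (alpha_mem_V11_iff A q M B k hB hq _).2 (U3_mem A q M)

include hq in
theorem eps1o_inv_mem11 : (eps1o A q M)⁻¹ ∈ V11o A q M B k hB hq := by
  show (eps1 q M)⁻¹ ∈ V11 A (M * q * q) q M B k (lvl q M) hB hq
  rw [eps1, ← map_inv₀]
  exact (alpha_mem_V11_iff A q M B k hB hq _).2 (U3_inv_mem A q M)

/-! ### The reductions -/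

/-- `HU = red U = Δ~(t)/Δ~(t^q)`. -/
def HU : LaurentSeries (kV A) :=
  ((red20 A (M * q) ⟨U3 q M, U3_mem A q M⟩ : F20 A (M * q)) : LaurentSeries (kV A))

theorem HU_eq : HU A q M = deltaR (kV A) * (qExpand (kV A) q (deltaR (kV A)))⁻¹ :=
  gaussRes_unitF A (M * q) q (dvd_mul_left q M)

theorem HU_ne_zero : HU A q M ≠ 0 := by
  intro h
  exact gaussRes_unitF_ne_zero A (M * q) q (dvd_mul_left q M) (Subtype.ext h)

theorem s20_eps1 : s20 A q M ⟨eps1o A q M, eps1o_mem20 A q M⟩ = HU A q M :=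
  red20_alpha A q M (U3 q M) (U3_mem A q M) _

theorem s20_eps2 : s20 A q M ⟨eps2o A q M, eps2o_mem20 A q M⟩
    = qExpand (kV A) q (HU A q M) :=
  red20_beta A q M (U3 q M) (U3_mem A q M) _

include hq in
theorem s11_eps1 : s11 A q M B k hB hq ⟨eps1o A q M, eps1o_mem11 A q M B k hB hq⟩
    = HU A q M :=
  red11_alpha A q M B k hB hq (U3 q M) (U3_mem A q M) _

/-! ### More reductions: `E11`, `E02` -/

/-- `X = β (q¹² / U)`, the second factor of `E11 = α U · β (q¹² / U)`. -/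
def X11 : FN (M * q * q) := heckeBetaBar Kbar (M * q) q (cq q M ^ 12 * (U3 q M)⁻¹)

theorem cq_mem_L0 : cq q M ∈ L0 A (M * q) := by
  rw [const_mem_L0_iff]
  intro σ _
  exact map_natCast σ q

theorem X11_mem_L0 : X11 q M ∈ L0 A (M * q * q) :=
  beta_mem_L0 A (M * q) q _
    (mul_mem (pow_mem (cq_mem_L0 A q M) 12) (inv_mem (U3_mem_L0 A q M)))

/-- `X11` as an inertia-fixed function. -/
def X11o : ↥(L0 A (M * q * q)) := ⟨X11 q M, X11_mem_L0 A q M⟩

theorem E11o_eq : E11o A q M = eps1o A q M * X11o A q M :=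
  Subtype.ext (E11_eq q M)

include hq in
theorem wL_X11_arg : wL q M B k hB hq (cq q M ^ 12 * (U3 q M)⁻¹) = U3 q M := by
  rw [wL_inv_U3 q M B k hB hq 12 le_rfl]
  simp

include hq in
theorem X11o_mem11 : X11o A q M ∈ V11o A q M B k hB hq := by
  show X11 q M ∈ V11 A (M * q * q) q M B k (lvl q M) hB hq
  rw [X11, beta_mem_V11_iff, wL_X11_arg q M B k hB hq]
  exact U3_mem A q M

include hq in
theorem s11_X11 (hA : (q : Kbar) ∈ A.nonunits) :
    s11 A q M B k hB hq ⟨X11o A q M, X11o_mem11 A q M B k hB hq⟩ = HU A q M := by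
  have hw : wL q M B k hB hq (cq q M ^ 12 * (U3 q M)⁻¹) ∈ V20 A (M * q) := by
    rw [wL_X11_arg q M B k hB hq]
    exact U3_mem A q M
  have h := red11_beta A q M B k hB hq hA (cq q M ^ 12 * (U3 q M)⁻¹) hw
    (X11o_mem11 A q M B k hB hq)
  have e : (⟨wL q M B k hB hq (cq q M ^ 12 * (U3 q M)⁻¹), hw⟩ : ↥(V20 A (M * q)))
      = ⟨U3 q M, U3_mem A q M⟩ := Subtype.ext (wL_X11_arg q M B k hB hq)
  rw [e] at h
  exact h

include hq in
/-- `red₁₁ E11 = HU²`. -/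
theorem s11_E11 (hA : (q : Kbar) ∈ A.nonunits) :
    s11 A q M B k hB hq ⟨E11o A q M, E11o_mem11 A q M B k hB hq⟩ = HU A q M * HU A q M := by
  have e : (⟨E11o A q M, E11o_mem11 A q M B k hB hq⟩ : ↥(V11o A q M B k hB hq))
      = ⟨eps1o A q M, eps1o_mem11 A q M B k hB hq⟩
        * ⟨X11o A q M, X11o_mem11 A q M B k hB hq⟩ := Subtype.ext (E11o_eq A q M)
  rw [e, map_mul, s11_eps1, s11_X11 A q M B k hB hq hA]

include hq in
/-- `red₀₂ E02 = HU(t^q)`. -/
theorem s02_E02 : s02 A q M B k hB ⟨E02o A q M, E02o_mem02 A q M B k hB hq⟩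
    = qExpand (kV A) q (HU A q M) := by
  have hw : wL q M B k hB hq (cq q M ^ 12 * (U3 q M)⁻¹) ∈ V20 A (M * q) := by
    rw [wL_X11_arg q M B k hB hq]
    exact U3_mem A q M
  have hmem : heckeAlphaBar Kbar (M * q) q (cq q M ^ 12 * (U3 q M)⁻¹)
      ∈ V02 A (M * q * q) q M B k (lvl q M) hB := by
    rw [← E02_eq]
    exact E02_mem02 A q M B k hB hq
  have h := red02_alpha A q M B k hB hq (cq q M ^ 12 * (U3 q M)⁻¹) hw hmem
  have e : (⟨wL q M B k hB hq (cq q M ^ 12 * (U3 q M)⁻¹), hw⟩ : ↥(V20 A (M * q)))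
      = ⟨U3 q M, U3_mem A q M⟩ := Subtype.ext (wL_X11_arg q M B k hB hq)
  rw [e] at h
  rw [s02_mk]
  have e2 : (⟨((wS q M B k hB ((E02o A q M : ↥(L0 A (M * q * q))) : FN (M * q * q)) :
      FN (M * q * q)) : LaurentSeries Kbar), E02o_mem02 A q M B k hB hq⟩ : ↥(gaussRingV A))
      = ⟨((wS q M B k hB (heckeAlphaBar Kbar (M * q) q (cq q M ^ 12 * (U3 q M)⁻¹)) :
          FN (M * q * q)) : LaurentSeries Kbar), hmem⟩ := by
    apply Subtype.ext
    show ((wS q M B k hB (E02 q M) : FN (M * q * q)) : LaurentSeries Kbar) = _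
    rw [E02_eq]
  rw [e2]
  exact h

/-! ### Congruences -/

/-- An element with zero residue is a nonunit. -/
theorem mem_nonunits_of_map_eq_zero {F : Type*} [Field F] (V : ValuationSubring F)
    {S : Type*} [CommRing S] [Nontrivial S] (f : ↥V →+* S) (x : ↥V) (hx : f x = 0) :
    (x : F) ∈ V.nonunits := by
  rw [ValuationSubring.mem_nonunits_iff_exists_mem_maximalIdeal]
  refine ⟨x.2, ?_⟩
  rw [IsLocalRing.mem_maximalIdeal]
  intro hu
  have := hu.map f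
  rw [hx] at this
  exact not_isUnit_zero this

include hq in
/-- `HU(t^q) = HU^q` in characteristic `q`. -/
theorem qExpand_HU (hA : A.LiesOverPrime q) :
    qExpand (kV A) q (HU A q M) = HU A q M ^ q := by
  haveI : Fact q.Prime := ⟨hq⟩
  haveI : CharP (kV A) q := Fermat.Agent.BAD.H82.charP_kV A hq hA
  rw [HU_eq, map_mul, map_inv₀, mul_pow, inv_pow, qExpand_deltaR_char (kV A) q, map_pow,
    qExpand_deltaR_char (kV A) q]

include hq in
/-- `eps2 ≡ eps1 ^ q` modulo the maximal ideal of `V₂₀`. -/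
theorem eps2_sub_mem20 (hA : A.LiesOverPrime q) :
    eps2o A q M - eps1o A q M ^ q ∈ (V20o A q M).nonunits := by
  have hmem : eps2o A q M - eps1o A q M ^ q ∈ V20o A q M :=
    sub_mem (eps2o_mem20 A q M) (pow_mem (eps1o_mem20 A q M) q)
  refine mem_nonunits_of_map_eq_zero (V20o A q M) (s20 A q M) ⟨_, hmem⟩ ?_
  have e : (⟨eps2o A q M - eps1o A q M ^ q, hmem⟩ : ↥(V20o A q M))
      = ⟨eps2o A q M, eps2o_mem20 A q M⟩ - ⟨eps1o A q M, eps1o_mem20 A q M⟩ ^ q := rfl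
  rw [e, map_sub, map_pow, s20_eps1, s20_eps2, qExpand_HU A q M hq hA, sub_self]

include hq in
/-- `E11 ≡ eps1 ^ 2` modulo the maximal ideal of `V₁₁`. -/
theorem E11_sub_mem11 (hA : (q : Kbar) ∈ A.nonunits) :
    E11o A q M - eps1o A q M ^ 2 ∈ (V11o A q M B k hB hq).nonunits := by
  have hmem : E11o A q M - eps1o A q M ^ 2 ∈ V11o A q M B k hB hq :=
    sub_mem (E11o_mem11 A q M B k hB hq) (pow_mem (eps1o_mem11 A q M B k hB hq) 2)
  refine mem_nonunits_of_map_eq_zero (V11o A q M B k hB hq) (s11 A q M B k hB hq) ⟨_, hmem⟩ ?_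
  have e : (⟨E11o A q M - eps1o A q M ^ 2, hmem⟩ : ↥(V11o A q M B k hB hq))
      = ⟨E11o A q M, E11o_mem11 A q M B k hB hq⟩
        - ⟨eps1o A q M, eps1o_mem11 A q M B k hB hq⟩ ^ 2 := rfl
  rw [e, map_sub, map_pow, s11_eps1, s11_E11 A q M B k hB hq hA, sub_eq_zero, sq]

end UnitsL

end Fermat.Agent.S36.NU.H99
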